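import Fermat.Agent.P6.H30Transfer
import Fermat.Agent.P5.Skeleton
import Fermat.Prelude.Def_GaloisRep_LocalConditions

/-!
# Wave 6 (S33), block B4-OLD: frozen interface (helper36)

`p` an odd prime, `H` a Hecke–Galois datum of level `N` away from `S` (`p ∈ S`, the primes of `N`
in `S`) with ordinary residual representation, `M ∣ N` a level PRIME TO `p` (for S33: `M = N / p`),
`P` a valuation subring of `ℚ̄` over `p`, `I_P` its inertia group.

* `H36oCyc n s c` : `s` acts on the `n`-th roots of unity by `ζ ↦ ζ ^ c` (`c : ℕ`).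
* `h36oQuad act s c x = (s - 1)(s - c) x`, `h36oMono act s s' c x = (s' - c)(s - 1) x`.
* `H36oOrd act n P`  : **ORD**: for every `s ∈ I_P` (acting by `c` on `μ_n`) the operator
  `(s - 1)(s - c)` is nilpotent.
* `H36oStar act n P` : **STAR**: `(s' - c)(s - 1) = 0` for all `s, s' ∈ I_P` (`s'` acting by `c`
  on `μ_n`).
* `H36oFlatOrd` : **B3 (FLAT-ORD)** in the shape needed here: a finite `p`-group with a function
  order over `ℤ_(p)` (`h97c_HasOrder`) which satisfies ORD satisfies STAR.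
  [Truth: the connected–étale sequence over the strict henselisation; by ORD and Raynaud/Oort–Tate
  (`e = 1 < p - 1`) the connected part is a successive extension of `μ_p`'s, hence of
  multiplicative type.]
* `h36oMPart M p H hcM k` : the `𝔪`-part of `J₀(M)[p ^ k]` for the maximal ideal of `T`
  (`= h30xMPart` for `M = N`).
* `H36oStarOld` : **the deliverable of B4-OLD** (input of the gluing B5): STAR on the `𝔪`-part of
  `J₀(M)[p ^ k]`, `p ∤ M`.

Every declaration is a definition; nothing is assumed.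
-/

set_option autoImplicit false
set_option linter.style.haveILetI false
set_option linter.unusedSectionVars false

open ModularCurve GaloisRep

noncomputable section

namespace Fermat.Agent.P6

open Fermat.Agent.P5
open Fermat.Agent.S29 (GQ)
open Fermat.Agent.S31 (TI_evS tpjGal tpjHecke)

/-- `s` acts on the `n`-th roots of unity by `ζ ↦ ζ ^ c`. -/
def H36oCyc (n : ℕ) (s : GQ) (c : ℕ) : Prop :=
  ∀ ζ : AlgebraicClosure ℚ, ζ ^ n = 1 → s ζ = ζ ^ c

section Abstract

variable {X : Type} [AddCommGroup X]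

/-- `(s - 1)(s - c) x`. -/
def h36oQuad (act : GQ → X → X) (s : GQ) (c : ℕ) (x : X) : X :=
  act s (act s x - c • x) - (act s x - c • x)

/-- `(s' - c)(s - 1) x`. -/
def h36oMono (act : GQ → X → X) (s s' : GQ) (c : ℕ) (x : X) : X :=
  act s' (act s x - x) - c • (act s x - x)

/-- **ORD**: `(s - 1)(s - c)` is nilpotent for every `s` of the inertia group at `P`. -/
def H36oOrd (act : GQ → X → X) (n : ℕ) (P : ValuationSubring (AlgebraicClosure ℚ)) : Prop :=
  ∀ s ∈ P.inertiaSubgroupIn ℚ, ∀ c : ℕ, H36oCyc n s c →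
    ∃ r : ℕ, ∀ x : X, (h36oQuad act s c)^[r] x = 0

/-- **STAR**: `(s' - c)(s - 1) = 0` on the inertia group at `P`. -/
def H36oStar (act : GQ → X → X) (n : ℕ) (P : ValuationSubring (AlgebraicClosure ℚ)) : Prop :=
  ∀ s ∈ P.inertiaSubgroupIn ℚ, ∀ s' ∈ P.inertiaSubgroupIn ℚ, ∀ c : ℕ, H36oCyc n s' c →
    ∀ x : X, h36oMono act s s' c x = 0

end Abstract

/-- **B3 (FLAT-ORD)**: an ordinary function order is an extension of an unramified module by a
module on which inertia acts through the cyclotomic character. -/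
def H36oFlatOrd : Prop :=
  ∀ (p : ℕ) [Fact p.Prime], p ≠ 2 →
    ∀ (X : Type) [AddCommGroup X] [Finite X] (act : GQ → X → X), H98pIsGalAct act →
      h97c_HasOrder p X act →
    ∀ k : ℕ, (∀ x : X, (p ^ k) • x = 0) →
    ∀ P : ValuationSubring (AlgebraicClosure ℚ), P.LiesOverPrime p →
      H36oOrd act (p ^ k) P → H36oStar act (p ^ k) P

section MPart

variable {N : ℕ} [NeZero N] {S : Finset ℕ}
  {𝒪 : Type} [CommRing 𝒪] [IsDomain 𝒪] [IsDiscreteValuationRing 𝒪]
  [IsAdicComplete (IsLocalRing.maximalIdeal 𝒪) 𝒪]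
  {θ : CuspForm.heckeAlgebra N 2 (↑S : Set ℕ) →+* IsLocalRing.ResidueField 𝒪}
  {T : Type} [CommRing T] [IsLocalRing T] [IsNoetherianRing T]
  [IsAdicComplete (IsLocalRing.maximalIdeal T) T] [Algebra 𝒪 T] [IsLocalHom (algebraMap 𝒪 T)]
  [Module.Finite 𝒪 T] [Module.Free 𝒪 T]

/-- the `𝔪`-primary part of `J₀(M)[p ^ k]`, for the maximal ideal of the coefficient ring `T` of
a datum of level `N`: the points killed by a power of every Hecke polynomial `u` (in the `T_ℓ`,
`ℓ ∉ S`) with `π u ∈ 𝔪_T`. -/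
def h36oMPart (M p : ℕ) [NeZero M] (H : CuspForm.HeckeGaloisRepDatum N (↑S : Set ℕ) 𝒪 θ T)
    (hcM : HeckeOperatorsCommuteBar M) (k : ℕ) : AddSubgroup (h30xTors M p k) where
  carrier := {w | ∀ u : MvPolynomial Nat.Primes ℤ,
    H.π (TI_evS N S u) ∈ IsLocalRing.maximalIdeal T →
      ∃ r : ℕ, (h30xHecke M p k S hcM u ^ r) w = 0}
  zero_mem' := fun u _ => ⟨0, map_zero _⟩
  add_mem' := by
    intro a b ha hb u hu
    obtain ⟨r, hr⟩ := ha u hu
    obtain ⟨s, hs⟩ := hb u hu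
    refine ⟨r + s, ?_⟩
    rw [map_add]
    have e1 : (h30xHecke M p k S hcM u ^ (r + s)) a = 0 := by
      rw [pow_add, (Commute.pow_pow (Commute.refl _) r s).eq]
      show (h30xHecke M p k S hcM u ^ s) ((h30xHecke M p k S hcM u ^ r) a) = 0
      rw [hr, map_zero]
    have e2 : (h30xHecke M p k S hcM u ^ (r + s)) b = 0 := by
      rw [pow_add]
      show (h30xHecke M p k S hcM u ^ r) ((h30xHecke M p k S hcM u ^ s) b) = 0
      rw [hs, map_zero]
    rw [e1, e2, add_zero]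
  neg_mem' := by
    intro a ha u hu
    obtain ⟨r, hr⟩ := ha u hu
    exact ⟨r, by rw [map_neg, hr, neg_zero]⟩

theorem h36o_mem_mPart (M p : ℕ) [NeZero M]
    (H : CuspForm.HeckeGaloisRepDatum N (↑S : Set ℕ) 𝒪 θ T)
    (hcM : HeckeOperatorsCommuteBar M) (k : ℕ) (w : h30xTors M p k) :
    w ∈ h36oMPart M p H hcM k ↔ ∀ u : MvPolynomial Nat.Primes ℤ,
      H.π (TI_evS N S u) ∈ IsLocalRing.maximalIdeal T →
        ∃ r : ℕ, (h30xHecke M p k S hcM u ^ r) w = 0 := Iff.rfl

/-- at the level of the datum, `h36oMPart` is `h30xMPart`. -/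
theorem h36o_mPart_eq (p : ℕ) (H : CuspForm.HeckeGaloisRepDatum N (↑S : Set ℕ) 𝒪 θ T)
    (hc : HeckeOperatorsCommuteBar N) (k : ℕ) :
    h36oMPart N p H hc k = h30xMPart p H hc k :=
  AddSubgroup.ext fun _ => Iff.rfl

end MPart

/-- **the deliverable of B4-OLD**: STAR on the `𝔪`-part of `J₀(M)[p ^ k]` at a level `M ∣ N`
prime to `p`, for a datum of level `N` with ordinary residual representation. -/
def H36oStarOld : Prop :=
  ∀ {p : ℕ} {N : ℕ} [NeZero N] {S : Finset ℕ}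
    {𝒪 : Type} [CommRing 𝒪] [IsDomain 𝒪] [IsDiscreteValuationRing 𝒪]
    [IsAdicComplete (IsLocalRing.maximalIdeal 𝒪) 𝒪]
    {θ : CuspForm.heckeAlgebra N 2 (↑S : Set ℕ) →+* IsLocalRing.ResidueField 𝒪}
    {T : Type} [CommRing T] [IsLocalRing T] [IsNoetherianRing T]
    [IsAdicComplete (IsLocalRing.maximalIdeal T) T] [Algebra 𝒪 T] [IsLocalHom (algebraMap 𝒪 T)]
    [Module.Finite 𝒪 T] [Module.Free 𝒪 T] [Finite (IsLocalRing.ResidueField 𝒪)],
    p.Prime → p ≠ 2 → (p : 𝒪) ∈ IsLocalRing.maximalIdeal 𝒪 → p ∈ S →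
    (∀ q : ℕ, q.Prime → q ∣ N → q ∈ S) →
    ∀ (H : CuspForm.HeckeGaloisRepDatum N (↑S : Set ℕ) 𝒪 θ T),
      (GaloisRepAdic.ofResidualGaloisRep H.ρ.residual).IsOrdinaryAt p →
    ∀ (M : ℕ) [NeZero M], M ∣ N → ¬ p ∣ M → ∀ (hcM : HeckeOperatorsCommuteBar M) (k : ℕ)
      (P : ValuationSubring (AlgebraicClosure ℚ)), P.LiesOverPrime p →
      ∀ s ∈ P.inertiaSubgroupIn ℚ, ∀ s' ∈ P.inertiaSubgroupIn ℚ, ∀ c : ℕ,
        H36oCyc (p ^ k) s' c →
        ∀ w ∈ h36oMPart M p H hcM k,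
          h36oMono (fun σ x => h30xGal M p k σ x) s s' c w = 0

end Fermat.Agent.P6
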