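import Fermat.Agent.P6.H11NewIface
import Fermat.Agent.P6.H36OldIface

/-!
# Wave 6 (S33): the geometric glue OLD + PUSH + NEW+ ⟹ TRIPLE STAR (architect helper11)

`p` an odd prime, `H` a Hecke–Galois datum of level `N`, `p ∥ N`, `N = M * p`.

* `H11Push` (**PUSH**, frozen): the push-forwards `α_*, β_* : J₀(M p) → J₀(M)` commute with the
  Galois action and map the `𝔪`-part of `J₀(M p)[p ^ k]` into the `𝔪`-part of `J₀(M)[p ^ k]`.
* `h11gMono a b e w = (a - e)(b - 1) w` on `J₀(N)[p ^ k]`.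
* `H11Star3At p H hc t` (**TRIPLE STAR**, exponent `t`): for `a, a', b` in an inertia group at
  `p`, `e, e'` the exponents of `a, a'` on `μ_{p^k}` and `w` in the `𝔪`-part of `J₀(N)[p ^ k]`:
  `t (a' - e')(a - e)(b - 1) w = 0`.  (`a' = a` is the SQUARE STAR.)
* `h11g_star3` : `H36oStarOld → H11Push → H11StarNewPlus →` TRIPLE STAR for every datum of the
  frozen statement S33.

Proof: `u = (a - e)(b - 1) w = (a b a⁻¹ - 1)(a w) - e (b - 1) w` lies in the subgroup generated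
by the inertia differences, and `α_* u = (a - e)(b - 1) α_* w = 0` by STAR on the old part.
-/

set_option autoImplicit false
set_option linter.style.haveILetI false
set_option linter.unusedSectionVars false

open ModularCurve GaloisRep

noncomputable section

namespace Fermat.Agent.P6

open Fermat.Agent.P5
open Fermat.Agent.S29 (GQ)
open Fermat.Agent.S31 (TI_evS tpjGal tpjHecke)
open Fermat.Agent.S35 (pushAlpha pushBeta)

/-- **PUSH** (frozen interface). -/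
def H11Push : Prop :=
  ∀ (p : ℕ) (hp : p.Prime) (M : ℕ) [NeZero M], ¬ p ∣ M →
    haveI : NeZero p := ⟨hp.ne_zero⟩
    (∀ (σ : GQ) (x : JZero (M * p)),
      pushAlpha M p (σ • x) = σ • pushAlpha M p x ∧
      pushBeta M p (σ • x) = σ • pushBeta M p x) ∧
    ∀ {S : Finset ℕ}
      {𝒪 : Type} [CommRing 𝒪] [IsDomain 𝒪] [IsDiscreteValuationRing 𝒪]
      [IsAdicComplete (IsLocalRing.maximalIdeal 𝒪) 𝒪]
      {θ : CuspForm.heckeAlgebra (M * p) 2 (↑S : Set ℕ) →+* IsLocalRing.ResidueField 𝒪}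
      {T : Type} [CommRing T] [IsLocalRing T] [IsNoetherianRing T]
      [IsAdicComplete (IsLocalRing.maximalIdeal T) T] [Algebra 𝒪 T]
      [IsLocalHom (algebraMap 𝒪 T)] [Module.Finite 𝒪 T] [Module.Free 𝒪 T],
      p ∈ S → (∀ q : ℕ, q.Prime → q ∣ M * p → q ∈ S) →
      ∀ (H : CuspForm.HeckeGaloisRepDatum (M * p) (↑S : Set ℕ) 𝒪 θ T)
        (hc : HeckeOperatorsCommuteBar (M * p)) (hcM : HeckeOperatorsCommuteBar M) (k : ℕ),
      ∀ w ∈ h30xMPart p H hc k, ∀ w' : h30xTors M p k,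
        ((w' : JZero M) = pushAlpha M p (w : JZero (M * p)) ∨
          (w' : JZero M) = pushBeta M p (w : JZero (M * p))) →
        w' ∈ h36oMPart M p H hcM k

section Star3

variable {N : ℕ} [NeZero N] {S : Finset ℕ}
  {𝒪 : Type} [CommRing 𝒪] [IsDomain 𝒪] [IsDiscreteValuationRing 𝒪]
  [IsAdicComplete (IsLocalRing.maximalIdeal 𝒪) 𝒪]
  {θ : CuspForm.heckeAlgebra N 2 (↑S : Set ℕ) →+* IsLocalRing.ResidueField 𝒪}
  {T : Type} [CommRing T] [IsLocalRing T] [IsNoetherianRing T]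
  [IsAdicComplete (IsLocalRing.maximalIdeal T) T] [Algebra 𝒪 T] [IsLocalHom (algebraMap 𝒪 T)]
  [Module.Finite 𝒪 T] [Module.Free 𝒪 T]

/-- `(a - e)(b - 1) w` on `J₀(N)[p ^ k]`. -/
def h11gMono (N p k : ℕ) [NeZero N] (a b : GQ) (e : ℕ) (w : h30xTors N p k) :
    h30xTors N p k :=
  h30xGal N p k a (h30xGal N p k b w - w) - e • (h30xGal N p k b w - w)

/-- **TRIPLE STAR** with exponent `t` for a Hecke–Galois datum. -/
def H11Star3At (p : ℕ) (H : CuspForm.HeckeGaloisRepDatum N (↑S : Set ℕ) 𝒪 θ T)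
    (hc : HeckeOperatorsCommuteBar N) (t : ℕ) : Prop :=
  ∀ (k : ℕ) (P : ValuationSubring (AlgebraicClosure ℚ)), P.LiesOverPrime p →
    ∀ a ∈ P.inertiaSubgroupIn ℚ, ∀ a' ∈ P.inertiaSubgroupIn ℚ, ∀ b ∈ P.inertiaSubgroupIn ℚ,
    ∀ e e' : ℕ,
      (∀ μ : AlgebraicClosure ℚ, μ ^ p ^ k = 1 → a μ = μ ^ e) →
      (∀ μ : AlgebraicClosure ℚ, μ ^ p ^ k = 1 → a' μ = μ ^ e') →
      ∀ w ∈ h30xMPart p H hc k,
        t • (h30xGal N p k a' (h11gMono N p k a b e w) - e' • h11gMono N p k a b e w) = 0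

/-- **SQUARE STAR** with exponent `t`: the case `a' = a` of the triple STAR. -/
def H11Star2At (p : ℕ) (H : CuspForm.HeckeGaloisRepDatum N (↑S : Set ℕ) 𝒪 θ T)
    (hc : HeckeOperatorsCommuteBar N) (t : ℕ) : Prop :=
  ∀ (k : ℕ) (P : ValuationSubring (AlgebraicClosure ℚ)), P.LiesOverPrime p →
    ∀ a ∈ P.inertiaSubgroupIn ℚ, ∀ b ∈ P.inertiaSubgroupIn ℚ, ∀ e : ℕ,
      (∀ μ : AlgebraicClosure ℚ, μ ^ p ^ k = 1 → a μ = μ ^ e) →
      ∀ w ∈ h30xMPart p H hc k,
        t • (h30xGal N p k a (h11gMono N p k a b e w) - e • h11gMono N p k a b e w) = 0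

theorem h11g_star2_of_star3 {p : ℕ} {H : CuspForm.HeckeGaloisRepDatum N (↑S : Set ℕ) 𝒪 θ T}
    {hc : HeckeOperatorsCommuteBar N} {t : ℕ} (h : H11Star3At p H hc t) :
    H11Star2At p H hc t :=
  fun k P hP a ha b hb e he w hw => h k P hP a ha a ha b hb e e he he w hw

end Star3

section Glue

/-- coercion of `(a - e)(b - 1) w` to `J₀(N)`. -/
theorem h11g_mono_coe (N p k : ℕ) [NeZero N] (a b : GQ) (e : ℕ) (w : h30xTors N p k) :
    ((h11gMono N p k a b e w : h30xTors N p k) : JZero N) =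
      a • (b • (w : JZero N) - (w : JZero N)) - e • (b • (w : JZero N) - (w : JZero N)) := by
  rfl

/-- `p ^ k` kills the points of `J₀(N)[p ^ k]`. -/
theorem h11g_tors (N p k : ℕ) [NeZero N] (w : h30xTors N p k) :
    (p ^ k) • (w : JZero N) = 0 := by
  have h : ((p : ℤ) ^ k) • (w : JZero N) = 0 := (Submodule.mem_torsionBy_iff _ _).mp w.2
  generalize (w : JZero N) = x at h ⊢
  rw [← natCast_zsmul, Nat.cast_pow]
  exact h

/-- the glue at the level `M * p`. -/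
theorem h11g_star3_level (hOld : H36oStarOld) (hPush : H11Push) (hNew : H11StarNewPlus)
    {p : ℕ} (hp : p.Prime) (hp2 : p ≠ 2) {M : ℕ} [NeZero M] (hpM : ¬ p ∣ M)
    [NeZero (M * p)] {S : Finset ℕ}
    {𝒪 : Type} [CommRing 𝒪] [IsDomain 𝒪] [IsDiscreteValuationRing 𝒪]
    [IsAdicComplete (IsLocalRing.maximalIdeal 𝒪) 𝒪]
    {θ : CuspForm.heckeAlgebra (M * p) 2 (↑S : Set ℕ) →+* IsLocalRing.ResidueField 𝒪}
    {T : Type} [CommRing T] [IsLocalRing T] [IsNoetherianRing T]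
    [IsAdicComplete (IsLocalRing.maximalIdeal T) T] [Algebra 𝒪 T] [IsLocalHom (algebraMap 𝒪 T)]
    [Module.Finite 𝒪 T] [Module.Free 𝒪 T] [Finite (IsLocalRing.ResidueField 𝒪)]
    (hp𝒪 : (p : 𝒪) ∈ IsLocalRing.maximalIdeal 𝒪) (hpS : p ∈ S)
    (hNS : ∀ q : ℕ, q.Prime → q ∣ M * p → q ∈ S)
    (H : CuspForm.HeckeGaloisRepDatum (M * p) (↑S : Set ℕ) 𝒪 θ T)
    (hres : (GaloisRepAdic.ofResidualGaloisRep H.ρ.residual).IsOrdinaryAt p)
    (hc : HeckeOperatorsCommuteBar (M * p)) (hcM : HeckeOperatorsCommuteBar M) :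
    ∃ t : ℕ, 0 < t ∧ H11Star3At p H hc t := by
  haveI : NeZero p := ⟨hp.ne_zero⟩
  obtain ⟨t, ht, hT⟩ := hNew p hp hp2 M hpM
  obtain ⟨hgal, hm⟩ := hPush p hp M hpM
  refine ⟨t, ht, ?_⟩
  intro k P hP a ha a' ha' b hb e e' he he' w hw
  -- the point `u = (a - e)(b - 1) w`
  have hu := hT k P hP a' ha' e' he' ((h11gMono (M * p) p k a b e w : h30xTors (M * p) p k) :
    JZero (M * p)) (h11g_tors (M * p) p k _) ?_ ?_ ?_
  · apply Subtype.ext
    show t • (a' • ((h11gMono (M * p) p k a b e w : h30xTors (M * p) p k) : JZero (M * p)) -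
        e' • ((h11gMono (M * p) p k a b e w : h30xTors (M * p) p k) : JZero (M * p))) = 0
    rw [nsmul_sub]
    exact sub_eq_zero.mpr hu
  · -- `α_* u = 0`
    have htor : pushAlpha M p (w : JZero (M * p)) ∈
        Submodule.torsionBy ℤ (JZero M) ((p : ℤ) ^ k) := by
      rw [Submodule.mem_torsionBy_iff, ← map_zsmul,
        (Submodule.mem_torsionBy_iff _ _).mp w.2, map_zero]
    have hmem := hm hpS hNS H hc hcM k w hw ⟨pushAlpha M p (w : JZero (M * p)), htor⟩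
      (Or.inl rfl)
    have h0 := hOld hp hp2 hp𝒪 hpS hNS H hres M (Dvd.intro _ rfl) hpM hcM k P hP b hb a ha e he
      _ hmem
    have h1 := congrArg (Subtype.val) h0
    rw [h11g_mono_coe]
    simp only [map_sub, map_nsmul, (hgal _ _).1]
    exact h1
  · -- `β_* u = 0`
    have htor : pushBeta M p (w : JZero (M * p)) ∈
        Submodule.torsionBy ℤ (JZero M) ((p : ℤ) ^ k) := by
      rw [Submodule.mem_torsionBy_iff, ← map_zsmul,
        (Submodule.mem_torsionBy_iff _ _).mp w.2, map_zero]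
    have hmem := hm hpS hNS H hc hcM k w hw ⟨pushBeta M p (w : JZero (M * p)), htor⟩
      (Or.inr rfl)
    have h0 := hOld hp hp2 hp𝒪 hpS hNS H hres M (Dvd.intro _ rfl) hpM hcM k P hP b hb a ha e he
      _ hmem
    have h1 := congrArg (Subtype.val) h0
    rw [h11g_mono_coe]
    simp only [map_sub, map_nsmul, (hgal _ _).2]
    exact h1
  · -- `u` is a combination of inertia differences
    rw [h11g_mono_coe]
    refine sub_mem (AddSubgroup.subset_closure ?_)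
      (nsmul_mem (AddSubgroup.subset_closure ?_) e)
    · refine ⟨a * b * a⁻¹, (P.inertiaSubgroupIn ℚ).mul_mem
        ((P.inertiaSubgroupIn ℚ).mul_mem ha hb) ((P.inertiaSubgroupIn ℚ).inv_mem ha),
        a • (w : JZero (M * p)), ?_, ?_⟩
      · have h1 : (p ^ k) • (a • (w : JZero (M * p))) = a • ((p ^ k) • (w : JZero (M * p))) :=
          (map_nsmul (DistribSMul.toAddMonoidHom (JZero (M * p)) a) (p ^ k) _).symm
        rw [h1, h11g_tors]
        exact map_zero (DistribSMul.toAddMonoidHom (JZero (M * p)) a)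
      · rw [smul_sub a, mul_smul, mul_smul, inv_smul_smul]
    · exact ⟨b, hb, (w : JZero (M * p)), h11g_tors (M * p) p k w, rfl⟩

/-- **the geometric glue**: OLD + PUSH + NEW+ give the triple STAR (with a bounded exponent)
for every datum of the frozen statement S33. -/
theorem h11g_star3 (hOld : H36oStarOld) (hPush : H11Push) (hNew : H11StarNewPlus)
    {p : ℕ} {N : ℕ} [NeZero N] {S : Finset ℕ}
    {𝒪 : Type} [CommRing 𝒪] [IsDomain 𝒪] [IsDiscreteValuationRing 𝒪]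
    [IsAdicComplete (IsLocalRing.maximalIdeal 𝒪) 𝒪]
    {θ : CuspForm.heckeAlgebra N 2 (↑S : Set ℕ) →+* IsLocalRing.ResidueField 𝒪}
    {T : Type} [CommRing T] [IsLocalRing T] [IsNoetherianRing T]
    [IsAdicComplete (IsLocalRing.maximalIdeal T) T] [Algebra 𝒪 T] [IsLocalHom (algebraMap 𝒪 T)]
    [Module.Finite 𝒪 T] [Module.Free 𝒪 T] [Finite (IsLocalRing.ResidueField 𝒪)]
    (hp : p.Prime) (hp2 : p ≠ 2) (hp𝒪 : (p : 𝒪) ∈ IsLocalRing.maximalIdeal 𝒪)
    (hN : p ∣ N ∧ ¬ p ^ 2 ∣ N) (hNS : ∀ q : ℕ, q.Prime → q ∣ N → q ∈ S)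
    (H : CuspForm.HeckeGaloisRepDatum N (↑S : Set ℕ) 𝒪 θ T)
    (hres : (GaloisRepAdic.ofResidualGaloisRep H.ρ.residual).IsOrdinaryAt p)
    (hc : HeckeOperatorsCommuteBar N) :
    ∃ t : ℕ, 0 < t ∧ H11Star3At p H hc t := by
  obtain ⟨M, hM⟩ : ∃ M, N = M * p := ⟨N / p, (Nat.div_mul_cancel hN.1).symm⟩
  subst hM
  have hM0 : M ≠ 0 := by
    rintro rfl
    exact (NeZero.ne (0 * p)) (zero_mul p)
  haveI : NeZero M := ⟨hM0⟩
  have hpM : ¬ p ∣ M := by
    intro h
    apply hN.2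
    rw [pow_two]
    exact Nat.mul_dvd_mul_right h p |>.trans (by rw [Nat.mul_comm])
  exact h11g_star3_level hOld hPush hNew hp hp2 hpM hp𝒪 (hNS p hp hN.1) hNS H hres hc
    (Fermat.Agent.S30.geometricInputsFull.1 M).1

end Glue

end Fermat.Agent.P6
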