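import Fermat.Agent.P6.H71Depth
import Fermat.Agent.P5.H72Arch
import Fermat.Agent.LGC.Gal75

/-!
# P6 (wave 6, S33), row B2-ITER (helper94): iteration of the depth lemma

`ℓ ∤ M` prime, `A` a valuation subring of `ℚ̄` over `ℓ`, `W_∞ = softV A (Mℓ)`, `w = kFricke`,
`α, β : F_M → F_{Mℓ}` the degeneracy maps, `r ≠ 0` an exponent (in the application `r = ℓ ^ n`).

* `h94iNa`, `h94iNb` : the norms along `α` and `β`.
* `h94iNew r x` : `Nm_α x` and `Nm_β x` are `r`-th powers (stable under `x ↦ x y ^ r` and under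
  `w`).
* `h94iDeep A r x d` : `x = h ^ r (1 + d s)` with `h ≠ 0` global and `s ∈ W_∞`
  (`x` is an `r`-th power modulo `d` at the Gauss valuation `W_∞`); the same property of `w x`
  is the depth of `x` at the other Gauss valuation `W_0 = w W_∞`.
* `h94i_step` : for a new `x`, depth `c` at `W_∞` gives depth `d` at `W_0` for every
  `d ∣ c ℓ`, `d ∣ c²` (the depth lemma `h71p_depth_beta` applied to the representative
  `x / h ^ r`).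
* `h94i_iter` : a new `x ≠ 0` which has some positive depth at `W_∞` has every depth at `W_∞`
  and at `W_0`.
-/

set_option autoImplicit false
set_option linter.style.haveILetI false
set_option linter.unusedSectionVars false
set_option synthInstance.maxHeartbeats 400000

open AlgebraicCurve ModularCurve IsLocalRing

noncomputable section

namespace Fermat.Agent.P6

open Fermat.Agent.S37 Fermat.Agent.Red Fermat.Agent.Red.GV Fermat.Agent.Red.GV.Soft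
  Fermat.Agent.Red.Kron Fermat.Agent.Red.TRK Fermat.Agent.LGC Fermat.Agent.S35
  Fermat.Agent.P5

variable (A : ValuationSubring Kbar) (M ℓ : ℕ) [NeZero M] [NeZero ℓ]

/-! ### The norms and the new classes -/

/-- the norm along `α`. -/
def h94iNa (x : FF (M * ℓ)) : FF M :=
  letI := algebraAlong (heckeAlphaBar Kbar M ℓ)
  Algebra.norm (FF M) x

/-- the norm along `β`. -/
def h94iNb (x : FF (M * ℓ)) : FF M :=
  letI := algebraAlong (heckeBetaBar Kbar M ℓ)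
  Algebra.norm (FF M) x

theorem h94iNa_mul (x y : FF (M * ℓ)) :
    h94iNa M ℓ (x * y) = h94iNa M ℓ x * h94iNa M ℓ y := by
  letI := algebraAlong (heckeAlphaBar Kbar M ℓ)
  exact map_mul (Algebra.norm (FF M)) x y

theorem h94iNa_pow (x : FF (M * ℓ)) (r : ℕ) :
    h94iNa M ℓ (x ^ r) = h94iNa M ℓ x ^ r := by
  letI := algebraAlong (heckeAlphaBar Kbar M ℓ)
  exact map_pow (Algebra.norm (FF M)) x r

theorem h94iNb_mul (x y : FF (M * ℓ)) :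
    h94iNb M ℓ (x * y) = h94iNb M ℓ x * h94iNb M ℓ y := by
  letI := algebraAlong (heckeBetaBar Kbar M ℓ)
  exact map_mul (Algebra.norm (FF M)) x y

theorem h94iNb_pow (x : FF (M * ℓ)) (r : ℕ) :
    h94iNb M ℓ (x ^ r) = h94iNb M ℓ x ^ r := by
  letI := algebraAlong (heckeBetaBar Kbar M ℓ)
  exact map_pow (Algebra.norm (FF M)) x r

/-- `Nm_β x = Nm_α (w x)`. -/
theorem h94iNb_eq (hℓ : ℓ.Prime) (hM : ¬ ℓ ∣ M) (x : FF (M * ℓ)) :
    h94iNb M ℓ x = h94iNa M ℓ (kFricke M ℓ hℓ hM x) :=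
  h71n_norm_beta_eq M ℓ hℓ hM x

/-- `Nm_α x = Nm_β (w x)`. -/
theorem h94iNa_eq (hℓ : ℓ.Prime) (hM : ¬ ℓ ∣ M) (x : FF (M * ℓ)) :
    h94iNa M ℓ x = h94iNb M ℓ (kFricke M ℓ hℓ hM x) := by
  rw [h94iNb_eq M ℓ hℓ hM, kFricke_kFricke]

/-- `x` is new modulo `r`-th powers: both norms to the level `M` are `r`-th powers. -/
def h94iNew (r : ℕ) (x : FF (M * ℓ)) : Prop :=
  (∃ g : FF M, h94iNa M ℓ x = g ^ r) ∧ (∃ g : FF M, h94iNb M ℓ x = g ^ r)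

theorem h94iNew_mul_pow {r : ℕ} {x : FF (M * ℓ)} (hx : h94iNew M ℓ r x) (y : FF (M * ℓ)) :
    h94iNew M ℓ r (x * y ^ r) := by
  obtain ⟨⟨g, hg⟩, ⟨g', hg'⟩⟩ := hx
  refine ⟨⟨g * h94iNa M ℓ y, ?_⟩, ⟨g' * h94iNb M ℓ y, ?_⟩⟩
  · rw [h94iNa_mul, h94iNa_pow, hg, mul_pow]
  · rw [h94iNb_mul, h94iNb_pow, hg', mul_pow]

theorem h94iNew_fricke (hℓ : ℓ.Prime) (hM : ¬ ℓ ∣ M) {r : ℕ} {x : FF (M * ℓ)}
    (hx : h94iNew M ℓ r x) : h94iNew M ℓ r (kFricke M ℓ hℓ hM x) := by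
  obtain ⟨⟨g, hg⟩, ⟨g', hg'⟩⟩ := hx
  refine ⟨⟨g', ?_⟩, ⟨g, ?_⟩⟩
  · rw [← h94iNb_eq M ℓ hℓ hM, hg']
  · rw [← h94iNa_eq M ℓ hℓ hM, hg]

/-! ### Depth -/

/-- `x` is an `r`-th power modulo `d` at the Gauss valuation `W_∞`. -/
def h94iDeep (r : ℕ) (x : FF (M * ℓ)) (d : Kbar) : Prop :=
  ∃ h : FF (M * ℓ), h ≠ 0 ∧ ∃ s ∈ softV A (M * ℓ), x = h ^ r * (1 + cst (M * ℓ) d * s)

/-- the depth is monotone. -/
theorem h94iDeep_mono {r : ℕ} {x : FF (M * ℓ)} {c d : Kbar} (hd : d ≠ 0)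
    (hcd : c * d⁻¹ ∈ A) (hx : h94iDeep A M ℓ r x c) : h94iDeep A M ℓ r x d := by
  obtain ⟨h, hh, s, hs, e⟩ := hx
  refine ⟨h, hh, cst (M * ℓ) (c * d⁻¹) * s,
    mul_mem ((cst_mem_softV_iff A (M * ℓ) _).mpr hcd) hs, ?_⟩
  rw [e, ← mul_assoc (cst (M * ℓ) d), ← map_mul, mul_comm c, ← mul_assoc, mul_inv_cancel₀ hd,
    one_mul]

/-- `1 + d s` is a unit of `W_∞`, with inverse of the same shape. -/
theorem h94i_inv_one_add {d : Kbar} (hd : d ∈ A.nonunits) {s : FF (M * ℓ)}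
    (hs : s ∈ softV A (M * ℓ)) :
    1 + cst (M * ℓ) d * s ≠ 0 ∧
      ∃ s' ∈ softV A (M * ℓ), (1 + cst (M * ℓ) d * s)⁻¹ = 1 + cst (M * ℓ) d * s' := by
  have hdA : d ∈ A := ValuationSubring.nonunits_subset hd
  have hcd : cst (M * ℓ) d ∈ softV A (M * ℓ) := (cst_mem_softV_iff A (M * ℓ) d).mpr hdA
  have hone : h75q_One A (M * ℓ) (1 + cst (M * ℓ) d * s) := by
    refine ⟨add_mem (one_mem _) (mul_mem hcd hs), ?_⟩
    have h1 : (⟨1 + cst (M * ℓ) d * s, add_mem (one_mem _) (mul_mem hcd hs)⟩ :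
        softV A (M * ℓ)) = 1 + ⟨cst (M * ℓ) d, hcd⟩ * ⟨s, hs⟩ := rfl
    rw [h1, map_add, map_one, map_mul, softR_cst_of_nonunit A (M * ℓ) d hd hcd, zero_mul,
      add_zero]
  obtain ⟨h0, hi⟩ := h75q_one_unit A (M * ℓ) hone
  refine ⟨h0, -(s * (1 + cst (M * ℓ) d * s)⁻¹), neg_mem (mul_mem hs hi), ?_⟩
  field_simp
  ring

/-! ### The step -/

/-- **one step**: for a new `x`, depth `c` at `W_∞` gives depth `d` at `W_0`, for every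
nonzero `d ∈ 𝔪_A` dividing `c ℓ` and `c²`. -/
theorem h94i_step (hℓ : ℓ.Prime) (hM : ¬ ℓ ∣ M) (hA : A.LiesOverPrime ℓ) {r : ℕ} (hr : r ≠ 0)
    {x : FF (M * ℓ)} (hx0 : x ≠ 0) (hN : h94iNew M ℓ r x) {c d : Kbar} (hc : c ∈ A)
    (hd : d ∈ A.nonunits) (hd0 : d ≠ 0) (hd1 : c * ℓ * d⁻¹ ∈ A) (hd2 : c ^ 2 * d⁻¹ ∈ A)
    (hx : h94iDeep A M ℓ r x c) : h94iDeep A M ℓ r (kFricke M ℓ hℓ hM x) d := by
  obtain ⟨h, hh, s, hs, e⟩ := hx
  have hx₁0 : (1 + cst (M * ℓ) c * s : FF (M * ℓ)) ≠ 0 := by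
    intro h0
    apply hx0
    rw [e, h0, mul_zero]
  have hN₁ : h94iNew M ℓ r (1 + cst (M * ℓ) c * s) := by
    have h1 := h94iNew_mul_pow M ℓ hN (h⁻¹)
    have e2 : x * h⁻¹ ^ r = 1 + cst (M * ℓ) c * s := by
      rw [e, inv_pow, mul_assoc, mul_comm (1 + cst (M * ℓ) c * s), ← mul_assoc,
        mul_inv_cancel₀ (pow_ne_zero r hh), one_mul]
    rwa [e2] at h1
  obtain ⟨g, hg⟩ := hN₁.2
  obtain ⟨z, hz, hdep⟩ := h71p_depth_beta A M ℓ hℓ hM hA (1 + cst (M * ℓ) c * s) hx₁0 c hc s hs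
    rfl d hd0 hd1 hd2
  have hdep' : heckeAlphaBar Kbar M ℓ g ^ r =
      kFricke M ℓ hℓ hM (1 + cst (M * ℓ) c * s) * (1 + cst (M * ℓ) d * z) := by
    rw [← map_pow, ← hg]
    exact hdep
  obtain ⟨hy0, z', hz', hinv⟩ := h94i_inv_one_add A M ℓ hd hz
  have hw0 : ∀ y : FF (M * ℓ), y ≠ 0 → kFricke M ℓ hℓ hM y ≠ 0 := fun y hy h0 =>
    hy ((map_eq_zero_iff _ (kFricke M ℓ hℓ hM).injective).mp h0)
  have hαg : heckeAlphaBar Kbar M ℓ g ≠ 0 := by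
    intro h0
    rw [h0, zero_pow hr] at hdep'
    exact mul_ne_zero (hw0 _ hx₁0) hy0 hdep'.symm
  refine ⟨kFricke M ℓ hℓ hM h * heckeAlphaBar Kbar M ℓ g, mul_ne_zero (hw0 h hh) hαg, z', hz', ?_⟩
  rw [← hinv, mul_pow, hdep', e, map_mul, map_pow]
  field_simp

/-- **one step back**: depth `c` at `W_0` gives depth `d` at `W_∞`. -/
theorem h94i_step' (hℓ : ℓ.Prime) (hM : ¬ ℓ ∣ M) (hA : A.LiesOverPrime ℓ) {r : ℕ} (hr : r ≠ 0)
    {x : FF (M * ℓ)} (hx0 : x ≠ 0) (hN : h94iNew M ℓ r x) {c d : Kbar} (hc : c ∈ A)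
    (hd : d ∈ A.nonunits) (hd0 : d ≠ 0) (hd1 : c * ℓ * d⁻¹ ∈ A) (hd2 : c ^ 2 * d⁻¹ ∈ A)
    (hx : h94iDeep A M ℓ r (kFricke M ℓ hℓ hM x) c) : h94iDeep A M ℓ r x d := by
  have hwx0 : kFricke M ℓ hℓ hM x ≠ 0 := fun h0 =>
    hx0 ((map_eq_zero_iff _ (kFricke M ℓ hℓ hM).injective).mp h0)
  have h1 := h94i_step A M ℓ hℓ hM hA hr hwx0 (h94iNew_fricke M ℓ hℓ hM hN) hc hd hd0 hd1 hd2 hx
  rwa [kFricke_kFricke] at h1

/-! ### The iteration -/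

theorem h94i_pow_mem_nonunits {e : Kbar} (he : e ∈ A.nonunits) :
    ∀ k : ℕ, 1 ≤ k → e ^ k ∈ A.nonunits := by
  intro k hk
  induction k, hk using Nat.le_induction with
  | base => rwa [pow_one]
  | succ n _ ih =>
    rw [pow_succ]
    exact mul_mem ih he

/-- for a new `x` of depth `e` at `W_∞`, `e ∈ 𝔪_A` nonzero with `e ∣ ℓ`: every power of `e`
is a depth of `x` at `W_∞` and at `W_0`. -/
theorem h94i_iter_pow (hℓ : ℓ.Prime) (hM : ¬ ℓ ∣ M) (hA : A.LiesOverPrime ℓ) {r : ℕ}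
    (hr : r ≠ 0) {x : FF (M * ℓ)} (hx0 : x ≠ 0) (hN : h94iNew M ℓ r x) {e : Kbar}
    (he : e ∈ A.nonunits) (he0 : e ≠ 0) (hel : (ℓ : Kbar) * e⁻¹ ∈ A)
    (hx : h94iDeep A M ℓ r x e) :
    ∀ k : ℕ, 1 ≤ k → h94iDeep A M ℓ r x (e ^ k) ∧
      h94iDeep A M ℓ r (kFricke M ℓ hℓ hM x) (e ^ k) := by
  have heA : e ∈ A := ValuationSubring.nonunits_subset he
  have hpowA : ∀ k : ℕ, e ^ k ∈ A := fun k => pow_mem heA k
  have h1 : ∀ k : ℕ, 1 ≤ k → e ^ k * (ℓ : Kbar) * (e ^ (k + 1))⁻¹ ∈ A := by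
    intro k _
    have e1 : e ^ k * (ℓ : Kbar) * (e ^ (k + 1))⁻¹ = (ℓ : Kbar) * e⁻¹ := by
      rw [pow_succ]
      field_simp
    rw [e1]
    exact hel
  have h2 : ∀ k : ℕ, 1 ≤ k → (e ^ k) ^ 2 * (e ^ (k + 1))⁻¹ ∈ A := by
    intro k hk
    obtain ⟨j, rfl⟩ := Nat.exists_eq_add_of_le hk
    have e1 : (e ^ (1 + j)) ^ 2 * (e ^ (1 + j + 1))⁻¹ = e ^ j := by
      field_simp
      ring
    rw [e1]
    exact hpowA j
  intro k hk
  induction k, hk using Nat.le_induction with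
  | base =>
    refine ⟨by rwa [pow_one], ?_⟩
    have h3 := h94i_step A M ℓ hℓ hM hA hr hx0 hN (hpowA 1)
      (h94i_pow_mem_nonunits A he 2 (by norm_num)) (pow_ne_zero 2 he0) (h1 1 le_rfl)
      (h2 1 le_rfl) (by rwa [pow_one])
    refine h94iDeep_mono A M ℓ (pow_ne_zero 1 he0) ?_ h3
    have e1 : e ^ (1 + 1) * (e ^ 1)⁻¹ = e := by
      field_simp
    rw [e1]
    exact heA
  | succ n hn ih =>
    obtain ⟨ih1, ih2⟩ := ih
    exact ⟨h94i_step' A M ℓ hℓ hM hA hr hx0 hN (hpowA n)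
        (h94i_pow_mem_nonunits A he (n + 1) (by omega)) (pow_ne_zero _ he0) (h1 n hn) (h2 n hn)
        ih2,
      h94i_step A M ℓ hℓ hM hA hr hx0 hN (hpowA n)
        (h94i_pow_mem_nonunits A he (n + 1) (by omega)) (pow_ne_zero _ he0) (h1 n hn) (h2 n hn)
        ih1⟩

/-- **DEPTH ITERATION.**  A new `x ≠ 0` which is an `r`-th power modulo some `c ∈ 𝔪_A` at
`W_∞` is an `r`-th power modulo every `d ≠ 0` of `A`, at `W_∞` and at `W_0`. -/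
theorem h94i_iter (hℓ : ℓ.Prime) (hM : ¬ ℓ ∣ M) (hA : A.LiesOverPrime ℓ) {r : ℕ}
    (hr : r ≠ 0) {x : FF (M * ℓ)} (hx0 : x ≠ 0) (hN : h94iNew M ℓ r x)
    (hpos : ∃ c ∈ A.nonunits, h94iDeep A M ℓ r x c) :
    ∀ d ∈ A, d ≠ 0 → h94iDeep A M ℓ r x d ∧
      h94iDeep A M ℓ r (kFricke M ℓ hℓ hM x) d := by
  obtain ⟨c, hc, hxc⟩ := hpos
  intro d hdA hd0
  have hℓ0 : (ℓ : Kbar) ≠ 0 := by exact_mod_cast hℓ.ne_zero
  -- a depth `e ∈ 𝔪_A`, nonzero, dividing `ℓ`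
  by_cases hc0 : c = 0
  · obtain ⟨h, hh, s, -, e⟩ := hxc
    have hcst0 : cst (M * ℓ) (0 : Kbar) = 0 := map_zero _
    rw [hc0, hcst0, zero_mul, add_zero, mul_one] at e
    refine ⟨⟨h, hh, 0, zero_mem _, by rw [e, mul_zero, add_zero, mul_one]⟩,
      ⟨kFricke M ℓ hℓ hM h, fun h0 =>
        hh ((map_eq_zero_iff _ (kFricke M ℓ hℓ hM).injective).mp h0), 0, zero_mem _, ?_⟩⟩
    rw [e, map_pow, mul_zero, add_zero, mul_one]
  have key : ∃ e : Kbar, e ∈ A.nonunits ∧ e ≠ 0 ∧ (ℓ : Kbar) * e⁻¹ ∈ A ∧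
      h94iDeep A M ℓ r x e := by
    by_cases hcl : (ℓ : Kbar) * c⁻¹ ∈ A
    · exact ⟨c, hc, hc0, hcl, hxc⟩
    · refine ⟨(ℓ : Kbar), hA, hℓ0, ?_, ?_⟩
      · rw [mul_inv_cancel₀ hℓ0]
        exact one_mem _
      · refine h94iDeep_mono A M ℓ hℓ0 ?_ hxc
        rcases A.mem_or_inv_mem ((ℓ : Kbar) * c⁻¹) with h | h
        · exact (hcl h).elim
        · rwa [mul_inv, inv_inv, mul_comm] at h
  obtain ⟨e, he, he0, hel, hxe⟩ := key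
  obtain ⟨n, a, ha, hna⟩ := h72a_archQbar A ℓ hℓ hA e d he hdA hd0
  have hk := h94i_iter_pow A M ℓ hℓ hM hA hr hx0 hN he he0 hel hxe (n + 1) (by omega)
  have hdiv : e ^ (n + 1) * d⁻¹ ∈ A := by
    have e1 : e ^ (n + 1) * d⁻¹ = a * e := by
      rw [pow_succ, hna]
      field_simp
    rw [e1]
    exact mul_mem ha (ValuationSubring.nonunits_subset he)
  exact ⟨h94iDeep_mono A M ℓ hd0 hdiv hk.1, h94iDeep_mono A M ℓ hd0 hdiv hk.2⟩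

end Fermat.Agent.P6
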