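import Fermat.Agent.S35.GeomSkeleton
import Fermat.Agent.LGC.GateSSOf
import Fermat.Agent.P6.H94Iter

/-!
# Wave 6 (S33), block B2 (p-new classes): frozen interfaces of the geometry
(architect helper11)

Setting: `p` an odd prime, `M` a level with `p ∤ M`, `N = M * p`, `A` a valuation subring of `ℚ̄`
over `p`, `I = A.inertiaSubgroupIn ℚ`, `α, β : FF M → FF (M * p)` the degeneracy maps,
`W_∞ = softV A (M * p)`, `W_0 = w (W_∞)` (`w = kFricke M p`) the two Gauss valuation rings.
Vocabulary of helper94 (`P6/H94Iter.lean`): `h94iNew M p r z` (both norms of `z` are `r`-th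
powers), `h94iDeep A M p r z d` (`z = h ^ r * (1 + d s)`, `s ∈ W_∞`).

* `H11Cyc p k τ a` : `τ` acts on the `p ^ k`-th roots of unity by the exponent `a`.
* `h11Theta N τ a z = τ z / z ^ a` : the twisted difference.
* `H11TorGate` (**TOR-GATE-p**, the crux, good levels): if `p ^ k ∣ div z` and `z` is a
  `p ^ k`-th power modulo EVERY nonzero `d ∈ A` at `W_∞` and at `W_0`, then `τ z / z ^ a` is a
  `p ^ k`-th power (`τ ∈ I`).  [Truth: the Kummer cover of `z` is étale over the semistable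
  model and split over both components, so it is a cover of the dual graph twisted by
  `μ_{p^k}`; inertia acts through `μ_{p^k}`.]
* `H11TwGate` (**NEW+, function form**, good levels): the same conclusion for `z` new
  (`h94iNew`) with a start congruence at `W_∞`;
  `h11n_twGate_of_tor : H11TorGate → H11TwGate` by the landed ladder `h94i_iter`.
* `H11StarNewPlus` (**NEW+, torsion form**, all levels `M`, `p ∤ M`; the output of B2 consumed
  by the top): there is `t > 0` such that for every `u ∈ J₀(M p)[p ^ k]` with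
  `α_* u = β_* u = 0` in the subgroup generated by the `b x - x`, `b ∈ I`, `x ∈ J₀(M p)[p ^ k]`:
  `t (a u - e u) = 0` for all `a ∈ I` acting by `e` on `μ_{p^k}`.  (`t` absorbs the degree of
  the descent from the good levels; it is harmless for the top because the coefficient ring of
  a Hecke–Galois datum is torsion free.)

Every `Prop` below is a definition; nothing is assumed.
-/

set_option autoImplicit false
set_option linter.style.haveILetI false
set_option linter.unusedSectionVars false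

open AlgebraicCurve ModularCurve IsLocalRing

noncomputable section

namespace Fermat.Agent.P6

open Fermat.Agent.S37 (Kbar GQ FF cst gal auxLevel)
open Fermat.Agent.S35 (pushAlpha pushBeta)
open Fermat.Agent.Red Fermat.Agent.Red.Kron Fermat.Agent.LGC

/-- `τ` acts on the `p ^ k`-th roots of unity by the exponent `a`. -/
def H11Cyc (p k : ℕ) (τ : GQ) (a : ℕ) : Prop :=
  ∀ ζ : Kbar, ζ ^ (p ^ k) = 1 → τ ζ = ζ ^ a

/-- the twisted difference `τ z / z ^ a`. -/
def h11Theta (N : ℕ) (τ : GQ) (a : ℕ) (z : FF N) : FF N :=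
  (gal N τ • z) / z ^ a

/-- **TOR-GATE-p** (the crux). -/
def H11TorGate : Prop :=
  ∀ (p : ℕ) (hp : p.Prime), p ≠ 2 → ∀ (M : ℕ) [NeZero M] (hM : ¬ p ∣ M), auxLevel p ∣ M →
    haveI : NeZero p := ⟨hp.ne_zero⟩
    ∀ A : ValuationSubring Kbar, A.LiesOverPrime p →
    ∀ τ ∈ A.inertiaSubgroupIn ℚ, ∀ (k a : ℕ), H11Cyc p k τ a →
    ∀ z : FF (M * p), z ≠ 0 →
      (∀ v : Place Kbar (FF (M * p)), ((p ^ k : ℕ) : ℤ) ∣ v.ord z) →
      (∀ d ∈ A, d ≠ 0 → h94iDeep A M p (p ^ k) z d ∧
        h94iDeep A M p (p ^ k) (kFricke M p hp hM z) d) →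
        ∃ h : FF (M * p), h ^ (p ^ k) = h11Theta (M * p) τ a z

/-- **NEW+, function form, good levels.** -/
def H11TwGate : Prop :=
  ∀ (p : ℕ) (hp : p.Prime), p ≠ 2 → ∀ (M : ℕ) [NeZero M], ¬ p ∣ M → auxLevel p ∣ M →
    haveI : NeZero p := ⟨hp.ne_zero⟩
    ∀ A : ValuationSubring Kbar, A.LiesOverPrime p →
    ∀ τ ∈ A.inertiaSubgroupIn ℚ, ∀ (k a : ℕ), H11Cyc p k τ a →
    ∀ z : FF (M * p), z ≠ 0 →
      (∀ v : Place Kbar (FF (M * p)), ((p ^ k : ℕ) : ℤ) ∣ v.ord z) →
      h94iNew M p (p ^ k) z →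
      (∃ c ∈ A.nonunits, h94iDeep A M p (p ^ k) z c) →
        ∃ h : FF (M * p), h ^ (p ^ k) = h11Theta (M * p) τ a z

/-- **the conditional top of B2 at the good levels**: the ladder (landed, helper94) reduces
NEW+ to the gate on the toric part. -/
theorem h11n_twGate_of_tor (hT : H11TorGate) : H11TwGate := by
  intro p hp hp2 M _ hM haux
  haveI : NeZero p := ⟨hp.ne_zero⟩
  intro A hA τ hτ k a ha z hz0 hz hN hpos
  exact hT p hp hp2 M hM haux A hA τ hτ k a ha z hz0 hz
    (h94i_iter A M p hp hM hA (pow_ne_zero k hp.ne_zero) hz0 hN hpos)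

/-- **NEW+, torsion form, all levels** (the output of B2). -/
def H11StarNewPlus : Prop :=
  ∀ (p : ℕ) (hp : p.Prime), p ≠ 2 → ∀ (M : ℕ) [NeZero M], ¬ p ∣ M →
    haveI : NeZero p := ⟨hp.ne_zero⟩
    ∃ t : ℕ, 0 < t ∧
    ∀ (k : ℕ) (P : ValuationSubring Kbar), P.LiesOverPrime p →
    ∀ a ∈ P.inertiaSubgroupIn ℚ, ∀ e : ℕ, H11Cyc p k a e →
    ∀ u : JZero (M * p), (p ^ k) • u = 0 → pushAlpha M p u = 0 → pushBeta M p u = 0 →
      u ∈ AddSubgroup.closure {y : JZero (M * p) | ∃ b ∈ P.inertiaSubgroupIn ℚ,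
        ∃ x : JZero (M * p), (p ^ k) • x = 0 ∧ y = b • x - x} →
      t • (a • u) = t • (e • u)

end Fermat.Agent.P6
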