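import Fermat.Agent.S34.DetInertia
import Fermat.Agent.Cheb.WeakChebotarev
import Fermat.Agent.S36.H23Tame

/-!
# Wave 6 (S33), block B1 (algebra), leaf DET-UNIT (helper23)

For the representation `ρ` of a Hecke–Galois datum `H` over `T` (`p ∈ S`, `p ∈ m_𝒪`):

* `h23u_frob_pow_root` : a Frobenius element `f` at `ℓ ≠ p` acts on the `p ^ n`-th roots of
  unity by `ζ ↦ ζ ^ ℓ`, and `f ^ k` by `ζ ↦ ζ ^ (ℓ ^ k)`;
* `h23u_det_congr` : **the determinant is the cyclotomic character modulo `m_T ^ n`**: if `σ`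
  acts on a primitive `p ^ n`-th root of unity `ζ` by `σ ζ = ζ ^ a`, then
  `det ρ(σ) - a ∈ m_T ^ n`  (weak Chebotarev on `ℚ(ζ)` and the field of `ρ` modulo `m_T ^ n`;
  `det ρ(Frob_ℓ) = ℓ`);
* `h23u_det_congr'` : the same with the hypothesis on all `p ^ n`-th roots of unity (the shape of
  `GaloisRepAdic.DetIsCyclotomic`);
* `h23u_exists_inertia_sq` : for `p` odd and `P` over `p` there is `s₀` in the inertia group of
  `P` with `s₀ ζ = ζ ^ 2` on a primitive `p`-th root of unity (`h23t_cyc`);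
* `h23u_detUnit` : **DET-UNIT**: for `p` odd and every `P` over `p` there is `s₀` in the inertia
  group of `P` with `det ρ(s₀) - 1` a unit of `T`.
-/

set_option autoImplicit false
set_option linter.style.haveILetI false
set_option linter.unusedSectionVars false

open Polynomial

noncomputable section

namespace Fermat.Agent.P6

open Fermat.Agent.S29 (GQ WeakChebotarev)
open Fermat.Agent.S31 (TI_Small)

/-- a Frobenius element at `ℓ ≠ p` raises the `p ^ n`-th roots of unity to the power `ℓ`. -/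
theorem h23u_frob_root {p ℓ : ℕ} (hp : p.Prime) (hℓ : ℓ.Prime) (hne : ℓ ≠ p)
    (A : ValuationSubring (AlgebraicClosure ℚ)) (hA : A.LiesOverPrime ℓ) {f : GQ}
    (hf : A.IsFrobeniusAt f ℓ) (n : ℕ) {x : AlgebraicClosure ℚ} (hx : x ^ p ^ n = 1) :
    f x = x ^ ℓ := by
  have hpn : p ^ n ≠ 0 := pow_ne_zero _ hp.ne_zero
  have hxA : x ∈ A := Fermat.Agent.S30.CycCharAdic.mem_of_pow_eq_one A hpn hx
  have h1 : f x - x ^ ℓ ∈ A.nonunits := Fermat.Agent.S29.CycChar.frobenius_sub_mem A hf hxA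
  have hσp : (f x) ^ p ^ n = 1 := by rw [← map_pow, hx, map_one]
  have hℓp : (x ^ ℓ) ^ p ^ n = 1 := by
    rw [← pow_mul, mul_comm, pow_mul, hx, one_pow]
  exact Fermat.Agent.S30.CycCharAdic.eq_of_sub_mem_nonunits_pow A hp hℓ hne hA n hσp hℓp h1

/-- the powers of a Frobenius element at `ℓ ≠ p` on the `p ^ n`-th roots of unity. -/
theorem h23u_frob_pow_root {p ℓ : ℕ} (hp : p.Prime) (hℓ : ℓ.Prime) (hne : ℓ ≠ p)
    (A : ValuationSubring (AlgebraicClosure ℚ)) (hA : A.LiesOverPrime ℓ) {f : GQ}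
    (hf : A.IsFrobeniusAt f ℓ) (n : ℕ) (k : ℕ) :
    ∀ {x : AlgebraicClosure ℚ}, x ^ p ^ n = 1 → (f ^ k) x = x ^ (ℓ ^ k) := by
  induction k with
  | zero =>
    intro x _
    rw [pow_zero, pow_zero, pow_one]
    rfl
  | succ k ih =>
    intro x hx
    have hx' : (x ^ ℓ) ^ p ^ n = 1 := by
      rw [← pow_mul, mul_comm, pow_mul, hx, one_pow]
    have e : (f ^ (k + 1)) x = (f ^ k) (f x) := by
      rw [pow_succ]
      rfl
    rw [e, h23u_frob_root hp hℓ hne A hA hf n hx, ih hx', ← pow_mul, ← pow_succ']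

section Datum

variable {p : ℕ} {N : ℕ} [NeZero N] {S : Finset ℕ}
  {𝒪 : Type} [CommRing 𝒪] [IsDomain 𝒪] [IsDiscreteValuationRing 𝒪]
  [IsAdicComplete (IsLocalRing.maximalIdeal 𝒪) 𝒪]
  {θ : CuspForm.heckeAlgebra N 2 (↑S : Set ℕ) →+* IsLocalRing.ResidueField 𝒪}
  {T : Type} [CommRing T] [IsLocalRing T] [IsNoetherianRing T]
  [IsAdicComplete (IsLocalRing.maximalIdeal T) T] [Algebra 𝒪 T] [IsLocalHom (algebraMap 𝒪 T)]
  [Module.Finite 𝒪 T] [Module.Free 𝒪 T]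

/-- `p` is not a unit of `T`. -/
theorem h23u_p_mem (hp𝒪 : (p : 𝒪) ∈ IsLocalRing.maximalIdeal 𝒪) :
    (p : T) ∈ IsLocalRing.maximalIdeal T := by
  have h1 : (p : T) = algebraMap 𝒪 T (p : 𝒪) := (map_natCast (algebraMap 𝒪 T) p).symm
  rw [h1, IsLocalRing.mem_maximalIdeal, mem_nonunits_iff]
  intro hu
  exact (IsLocalRing.mem_maximalIdeal _).mp hp𝒪 (isUnit_of_map_unit (algebraMap 𝒪 T) _ hu)

/-- **The determinant is the cyclotomic character modulo `m_T ^ n`.** -/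
theorem h23u_det_congr (hp : p.Prime) (hp𝒪 : (p : 𝒪) ∈ IsLocalRing.maximalIdeal 𝒪)
    (hpS : p ∈ S) (H : CuspForm.HeckeGaloisRepDatum N (↑S : Set ℕ) 𝒪 θ T)
    (σ : GQ) (n a : ℕ) {ζ : AlgebraicClosure ℚ} (hζ : IsPrimitiveRoot ζ (p ^ n))
    (hσ : σ ζ = ζ ^ a) :
    LinearMap.det (H.ρ.ρ σ) - (a : T) ∈ IsLocalRing.maximalIdeal T ^ n := by
  have hpT : (p : T) ∈ IsLocalRing.maximalIdeal T := h23u_p_mem hp𝒪
  have hpos : 0 < p ^ n := pow_pos hp.pos n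
  obtain ⟨L₃, hL₃, h₃⟩ := H.ρ.isAdicContinuous n
  have hL₂ : FiniteDimensional ℚ ↥(IntermediateField.adjoin ℚ {ζ}) :=
    IntermediateField.adjoin.finiteDimensional ((hζ.isIntegral hpos).tower_top (A := ℚ))
  have hfd : FiniteDimensional ℚ ↥(IntermediateField.adjoin ℚ {ζ} ⊔ L₃) :=
    IntermediateField.finiteDimensional_sup _ L₃
  obtain ⟨ℓ, hℓ, hℓS, A', hA', f, hf, k, hk⟩ :=
    Fermat.Agent.Cheb.weakChebotarev (IntermediateField.adjoin ℚ {ζ} ⊔ L₃) hfd σ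
      (S ∪ N.primeFactors)
  have hℓS₁ : ℓ ∉ S := fun h => hℓS (Finset.mem_union_left _ h)
  have hℓS' : ℓ ∉ (↑S : Set ℕ) := fun h => hℓS₁ (Finset.mem_coe.mp h)
  have hℓN : ¬ ℓ ∣ N := fun h =>
    hℓS (Finset.mem_union_right _ (Nat.mem_primeFactors.mpr ⟨hℓ, h, NeZero.ne N⟩))
  have hℓp : ℓ ≠ p := fun h => hℓS₁ (h ▸ hpS)
  -- `s' = (f ^ k)⁻¹ * σ` fixes the compositum
  have hs' : ∀ x ∈ IntermediateField.adjoin ℚ {ζ} ⊔ L₃, ((f ^ k)⁻¹ * σ) x = x := fun x hx => by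
    rw [AlgEquiv.mul_apply, hk x hx]
    exact (f ^ k).symm_apply_apply x
  have hσeq : σ = f ^ k * ((f ^ k)⁻¹ * σ) := by rw [mul_inv_cancel_left]
  have hle₂ : IntermediateField.adjoin ℚ {ζ} ≤ IntermediateField.adjoin ℚ {ζ} ⊔ L₃ :=
    le_sup_left
  have hle₃ : L₃ ≤ IntermediateField.adjoin ℚ {ζ} ⊔ L₃ := le_sup_right
  have hs₃ : TI_Small (IsLocalRing.maximalIdeal T ^ n) (H.ρ.ρ ((f ^ k)⁻¹ * σ) - 1) :=
    fun v => by
      rw [LinearMap.sub_apply, Module.End.one_apply]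
      exact h₃ _ (fun x hx => hs' x (hle₃ hx)) v
  -- (i) `ℓ ^ k ≡ a` modulo `p ^ n`
  have hζmem : ζ ∈ IntermediateField.adjoin ℚ {ζ} ⊔ L₃ :=
    hle₂ (IntermediateField.mem_adjoin_simple_self ℚ ζ)
  have h1 : σ ζ = ζ ^ (ℓ ^ k) := by
    rw [hk ζ hζmem]
    exact h23u_frob_pow_root hp hℓ hℓp A' hA' hf n k hζ.pow_eq_one
  have h2 : a ≡ ℓ ^ k [MOD p ^ n] :=
    Fermat.Agent.S29.CycChar.modEq_of_pow_eq hζ hpos (hσ.symm.trans h1)
  have h3 : ((ℓ ^ k : ℕ) : T) - (a : T) ∈ IsLocalRing.maximalIdeal T ^ n := by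
    have h4 : ((p ^ n : ℕ) : ℤ) ∣ ((ℓ ^ k : ℕ) : ℤ) - ((a : ℕ) : ℤ) :=
      (Nat.modEq_iff_dvd.mp h2)
    obtain ⟨c, hc⟩ := h4
    have h5 : ((ℓ ^ k : ℕ) : T) - (a : T) = (p : T) ^ n * (c : T) := by
      have := congrArg (Int.cast : ℤ → T) hc
      push_cast at this
      push_cast
      exact this
    rw [h5]
    exact Ideal.mul_mem_right _ _ (Ideal.pow_mem_pow hpT n)
  -- (ii) `det ρ (f) = ℓ`
  have hdetf : LinearMap.det (H.ρ.ρ f) = (ℓ : T) :=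
    Fermat.Agent.S34.DI_det_of_charpoly H.ρ.finrank_eq _ _ _
      (H.charpoly_frob ℓ hℓ hℓN hℓS' A' hA' f hf)
  -- (iii) `det ρ (s') ≡ 1`
  have hdets := Fermat.Agent.S34.DI_det_sub_one_mem hs₃
  -- conclusion
  have e : LinearMap.det (H.ρ.ρ σ) - (a : T) =
      (ℓ : T) ^ k * (LinearMap.det (H.ρ.ρ ((f ^ k)⁻¹ * σ)) - 1) +
        (((ℓ ^ k : ℕ) : T) - (a : T)) := by
    conv_lhs => rw [hσeq]
    rw [map_mul, map_mul, map_pow, map_pow, hdetf]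
    push_cast
    ring
  rw [e]
  exact Ideal.add_mem _ (Ideal.mul_mem_left _ _ hdets) h3

/-- the same with the hypothesis on all `p ^ n`-th roots of unity. -/
theorem h23u_det_congr' (hp : p.Prime) (hp𝒪 : (p : 𝒪) ∈ IsLocalRing.maximalIdeal 𝒪)
    (hpS : p ∈ S) (H : CuspForm.HeckeGaloisRepDatum N (↑S : Set ℕ) 𝒪 θ T)
    (σ : GQ) (n a : ℕ)
    (hσ : ∀ μ : AlgebraicClosure ℚ, μ ^ p ^ n = 1 → σ μ = μ ^ a) :
    LinearMap.det (H.ρ.ρ σ) - (a : T) ∈ IsLocalRing.maximalIdeal T ^ n := by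
  haveI : Fact p.Prime := ⟨hp⟩
  haveI := Fermat.Agent.S30.CycCharAdic.hasEnoughRootsOfUnity_Qb p n
  obtain ⟨ζ, hζ⟩ :=
    HasEnoughRootsOfUnity.exists_primitiveRoot (AlgebraicClosure ℚ) (p ^ n)
  exact h23u_det_congr hp hp𝒪 hpS H σ n a hζ (hσ ζ hζ.pow_eq_one)

end Datum

/-- for `p` odd, the inertia group at `P` over `p` contains an element squaring the `p`-th
roots of unity. -/
theorem h23u_exists_inertia_sq {p : ℕ} (hp : p.Prime) (hp2 : p ≠ 2)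
    (P : ValuationSubring (AlgebraicClosure ℚ)) (hP : P.LiesOverPrime p) :
    ∃ ζ : AlgebraicClosure ℚ, IsPrimitiveRoot ζ p ∧
      ∃ s₀ ∈ P.inertiaSubgroupIn ℚ, s₀ ζ = ζ ^ 2 := by
  haveI : Fact p.Prime := ⟨hp⟩
  haveI := Fermat.Agent.S30.CycCharAdic.hasEnoughRootsOfUnity_Qb p 1
  obtain ⟨ζ, hζ⟩ :=
    HasEnoughRootsOfUnity.exists_primitiveRoot (AlgebraicClosure ℚ) (p ^ 1)
  rw [pow_one] at hζ
  have hcop : Nat.Coprime 2 p := by
    rw [Nat.coprime_comm]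
    exact (Nat.Prime.coprime_iff_not_dvd hp).mpr fun h =>
      hp2 ((Nat.prime_dvd_prime_iff_eq hp Nat.prime_two).mp h)
  have hζ' : IsPrimitiveRoot (ζ ^ 2) p := hζ.pow_of_coprime 2 hcop
  obtain ⟨s₀, hs₀, h⟩ := Fermat.Agent.S36.h23t_cyc hp P hP hζ hζ'
  exact ⟨ζ, hζ, s₀, hs₀, h⟩

section Datum2

variable {p : ℕ} {N : ℕ} [NeZero N] {S : Finset ℕ}
  {𝒪 : Type} [CommRing 𝒪] [IsDomain 𝒪] [IsDiscreteValuationRing 𝒪]
  [IsAdicComplete (IsLocalRing.maximalIdeal 𝒪) 𝒪]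
  {θ : CuspForm.heckeAlgebra N 2 (↑S : Set ℕ) →+* IsLocalRing.ResidueField 𝒪}
  {T : Type} [CommRing T] [IsLocalRing T] [IsNoetherianRing T]
  [IsAdicComplete (IsLocalRing.maximalIdeal T) T] [Algebra 𝒪 T] [IsLocalHom (algebraMap 𝒪 T)]
  [Module.Finite 𝒪 T] [Module.Free 𝒪 T]

/-- **DET-UNIT.** For `p` odd and every `P` over `p` there is `s₀` in the inertia group of `P`
with `det ρ(s₀) - 1` a unit of `T` (indeed `det ρ(s₀) ≡ 2` modulo `m_T`). -/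
theorem h23u_detUnit (hp : p.Prime) (hp2 : p ≠ 2)
    (hp𝒪 : (p : 𝒪) ∈ IsLocalRing.maximalIdeal 𝒪) (hpS : p ∈ S)
    (H : CuspForm.HeckeGaloisRepDatum N (↑S : Set ℕ) 𝒪 θ T)
    (P : ValuationSubring (AlgebraicClosure ℚ)) (hP : P.LiesOverPrime p) :
    ∃ s₀ ∈ P.inertiaSubgroupIn ℚ, IsUnit (LinearMap.det (H.ρ.ρ s₀) - 1) ∧
      LinearMap.det (H.ρ.ρ s₀) - 2 ∈ IsLocalRing.maximalIdeal T := by
  obtain ⟨ζ, hζ, s₀, hs₀, h⟩ := h23u_exists_inertia_sq hp hp2 P hP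
  have hζ1 : IsPrimitiveRoot ζ (p ^ 1) := by rwa [pow_one]
  have h1 := h23u_det_congr hp hp𝒪 hpS H s₀ 1 2 hζ1 h
  rw [pow_one] at h1
  have h2 : LinearMap.det (H.ρ.ρ s₀) - 2 ∈ IsLocalRing.maximalIdeal T := by
    have e : ((2 : ℕ) : T) = 2 := by norm_num
    rwa [e] at h1
  refine ⟨s₀, hs₀, ?_, h2⟩
  by_contra hu
  have h3 : LinearMap.det (H.ρ.ρ s₀) - 1 ∈ IsLocalRing.maximalIdeal T :=
    (IsLocalRing.mem_maximalIdeal _).mpr hu
  have h4 : (1 : T) ∈ IsLocalRing.maximalIdeal T := by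
    have e : (1 : T) = (LinearMap.det (H.ρ.ρ s₀) - 1) - (LinearMap.det (H.ρ.ρ s₀) - 2) := by
      ring
    rw [e]
    exact Ideal.sub_mem _ h3 h2
  exact (Ideal.ne_top_iff_one _).mp (IsLocalRing.maximalIdeal.isMaximal T).ne_top h4

end Datum2

end Fermat.Agent.P6
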