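import Fermat.Agent.P6.H30StarUnit
import Fermat.Agent.P6.H23DetUnit
import Fermat.Agent.P5.H58OrdAlg

/-!
# Wave 6 (S33): the conditional top from the SQUARE form of STAR (helper83)

`STAR` asks `(a - e)(b - 1) w = 0` on the `𝔪`-part `W` of `J₀(N)[p ^ k]` (`a`, `b` in an inertia
group at `p`, `e` an exponent of `a` on `μ_{p^k}`).  Its proof by old/new gluing needs the
isogeny `(p + 1)² - T_p²`.  This file shows that the weaker identity

  **STAR-SQ**  `(a - e)² (b - 1) w = 0` on `W`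

already gives `H.ρ.IsOrdinaryAt p`; and STAR-SQ needs no gluing: for any `x ∈ W` the class
`z = (a - e)(b - 1) x` is new (its push-forwards to level `N / p` vanish by STAR at the level
`N / p`), and the new classes of positive depth are killed by `a - e`.

* `h83q_sq_self` : (pure algebra) `g` invertible on a free module of rank two, `d = det g`,
  `1 - d` a unit, `(g - d)² (g - 1) = 0`  ⟹  `(g - d)(g - 1) = 0`.
* `h83q_square` : if moreover `(g - d)² (f - 1) = 0` then `(g - d)(f - 1) = 0`.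
* `H83qStarSq` : the frozen Prop STAR-SQ; `h83q_starSq_of_star : H30xStarAt → H83qStarSq`.
* `h83q_isOrdinaryAt_of_starSq`, `h83q_s33_of_starSq` : STAR-SQ gives `H.ρ.IsOrdinaryAt p`.
-/

set_option autoImplicit false
set_option linter.style.haveILetI false
set_option linter.unusedSectionVars false

open ModularCurve GaloisRep

noncomputable section

namespace Fermat.Agent.P6

open Fermat.Agent.P5
open Fermat.Agent.S29 (GQ)

section Algebra

open Module

variable {T : Type*} [CommRing T]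
  {V : Type*} [AddCommGroup V] [Module T V] [Module.Free T V] [Module.Finite T V]

/-- a scalar killing the identity of a free module of rank two is zero. -/
theorem h83q_smul_one_eq_zero [Nontrivial T] (hrk : finrank T V = 2) (c : T)
    (h : c • (1 : Module.End T V) = 0) : c = 0 := by
  let b : Basis (Fin 2) T V := Module.finBasisOfFinrankEq T V hrk
  have h8 := congrArg (fun f : Module.End T V => b.repr (f (b 0)) 0) h
  simpa using h8

/-- **the square lemma, diagonal case.** -/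
theorem h83q_sq_self [Nontrivial T] (hrk : finrank T V = 2) (g : Module.End T V)
    (hg : IsUnit g) (hu : IsUnit (1 - LinearMap.det g))
    (h : (g - LinearMap.det g • (1 : Module.End T V)) *
      ((g - LinearMap.det g • (1 : Module.End T V)) * (g - 1)) = 0) :
    (g - LinearMap.det g • (1 : Module.End T V)) * (g - 1) = 0 := by
  set d : T := LinearMap.det g with hd
  set t : T := LinearMap.trace T V g with ht
  have hCH : g * g - t • g + d • (1 : Module.End T V) = 0 := h58o_cayley hrk g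
  -- `(g - d)(g - 1) = δ g`
  have h1 : (g - d • (1 : Module.End T V)) * (g - 1) = (t - 1 - d) • g := by
    have e1 : (g - d • (1 : Module.End T V)) * (g - 1) =
        g * g - (1 + d) • g + d • (1 : Module.End T V) := by
      rw [sub_mul, mul_sub, mul_sub, mul_one, smul_mul_assoc, one_mul, smul_mul_assoc, one_mul,
        add_smul, one_smul]
      abel
    rw [e1, sub_smul, sub_smul, one_smul, add_smul, one_smul]
    have e2 : g * g = t • g - d • (1 : Module.End T V) := by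
      rw [← sub_eq_zero, ← hCH]
      abel
    rw [e2]
    abel
  set δ : T := t - 1 - d with hδ
  -- `δ (g - d) = 0`
  have h2 : δ • (g - d • (1 : Module.End T V)) = 0 := by
    rw [h1, mul_smul_comm] at h
    obtain ⟨u, rfl⟩ := hg
    have h6 := congrArg (fun x => x * ((u⁻¹ : (Module.End T V)ˣ) : Module.End T V)) h
    simp only [smul_mul_assoc, mul_assoc, Units.mul_inv, zero_mul, mul_one] at h6
    exact h6
  -- trace
  have h3 : δ * (t - 2 * d) = 0 := by
    have := congrArg (LinearMap.trace T V) h2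
    rw [map_smul, map_sub, map_smul, LinearMap.trace_one, map_zero, hrk, smul_eq_mul,
      smul_eq_mul] at this
    rw [← this]
    push_cast
    ring
  -- determinant
  have h4 : δ • g = (δ * d) • (1 : Module.End T V) := by
    rw [smul_sub, sub_eq_zero] at h2
    rw [h2, smul_smul]
  have h5 : δ ^ 2 * d = (δ * d) ^ 2 := by
    have := congrArg (fun f : Module.End T V => LinearMap.det f) h4
    simp only [LinearMap.det_smul, hrk, map_one, mul_one] at this
    exact this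
  have hdu : IsUnit d := by
    obtain ⟨u, rfl⟩ := hg
    exact ⟨⟨LinearMap.det (u : Module.End T V), LinearMap.det ((u⁻¹ : (Module.End T V)ˣ) :
      Module.End T V), by rw [← map_mul, Units.mul_inv, map_one],
      by rw [← map_mul, Units.inv_mul, map_one]⟩, rfl⟩
  have h6 : δ ^ 2 = 0 := by
    have e : δ ^ 2 * (d * (1 - d)) = 0 := by
      have : δ ^ 2 * (d * (1 - d)) = δ ^ 2 * d - (δ * d) ^ 2 := by ring
      rw [this, h5, sub_self]
    exact (hdu.mul hu).mul_left_eq_zero.mp e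
  have h7 : δ = 0 := by
    have e : δ * (1 - d) = 0 := by
      have : δ * (1 - d) = δ * (t - 2 * d) - δ ^ 2 := by
        rw [hδ]
        ring
      rw [this, h3, h6, sub_self]
    exact hu.mul_left_eq_zero.mp e
  rw [h1, h7, zero_smul]

/-- **the square lemma.** -/
theorem h83q_square [Nontrivial T] (hrk : finrank T V = 2) (g f : Module.End T V)
    (hg : IsUnit g) (hu : IsUnit (1 - LinearMap.det g))
    (hgg : (g - LinearMap.det g • (1 : Module.End T V)) *
      ((g - LinearMap.det g • (1 : Module.End T V)) * (g - 1)) = 0)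
    (hgf : (g - LinearMap.det g • (1 : Module.End T V)) *
      ((g - LinearMap.det g • (1 : Module.End T V)) * (f - 1)) = 0) :
    (g - LinearMap.det g • (1 : Module.End T V)) * (f - 1) = 0 := by
  have h0 := h83q_sq_self hrk g hg hu hgg
  set d : T := LinearMap.det g with hd
  -- `(g - d)² = (1 - d)(g - d)`
  have h1 : (g - d • (1 : Module.End T V)) * (g - d • (1 : Module.End T V)) =
      (1 - d) • (g - d • (1 : Module.End T V)) := by
    have e : (g - d • (1 : Module.End T V)) * (g - d • (1 : Module.End T V)) =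
        (g - d • (1 : Module.End T V)) * (g - 1) +
          (1 - d) • (g - d • (1 : Module.End T V)) := by
      rw [mul_sub, mul_sub, mul_one, mul_smul_comm, mul_one, sub_smul, one_smul]
      abel
    rw [e, h0, zero_add]
  rw [← mul_assoc, h1, smul_mul_assoc] at hgf
  have h2 := congrArg (fun x : Module.End T V => ((hu.unit⁻¹ : Tˣ) : T) • x) hgf
  simp only [smul_smul, smul_zero] at h2
  rwa [IsUnit.val_inv_mul, one_smul] at h2

end Algebra

variable {p : ℕ} {N : ℕ} [NeZero N] {S : Finset ℕ}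
  {𝒪 : Type} [CommRing 𝒪] [IsDomain 𝒪] [IsDiscreteValuationRing 𝒪]
  [IsAdicComplete (IsLocalRing.maximalIdeal 𝒪) 𝒪]
  {θ : CuspForm.heckeAlgebra N 2 (↑S : Set ℕ) →+* IsLocalRing.ResidueField 𝒪}
  {T : Type} [CommRing T] [IsLocalRing T] [IsNoetherianRing T]
  [IsAdicComplete (IsLocalRing.maximalIdeal T) T] [Algebra 𝒪 T] [IsLocalHom (algebraMap 𝒪 T)]
  [Module.Finite 𝒪 T] [Module.Free 𝒪 T]

/-- the class `(a - e)(b - 1) w`. -/
def h83qY (N p k : ℕ) [NeZero N] (a b : GQ) (e : ℕ) (w : h30xTors N p k) : h30xTors N p k :=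
  h30xGal N p k (a * b) w - h30xGal N p k a w - e • h30xGal N p k b w + e • w

/-- **STAR-SQ** for a Hecke–Galois datum: `(a - e) ((a - e)(b - 1) w) = 0` on the `𝔪`-part of
`J₀(N)[p ^ k]`. -/
def H83qStarSq (p : ℕ) (H : CuspForm.HeckeGaloisRepDatum N (↑S : Set ℕ) 𝒪 θ T)
    (hc : HeckeOperatorsCommuteBar N) : Prop :=
  ∀ (k : ℕ) (P : ValuationSubring (AlgebraicClosure ℚ)), P.LiesOverPrime p →
    ∀ a ∈ P.inertiaSubgroupIn ℚ, ∀ b ∈ P.inertiaSubgroupIn ℚ, ∀ e : ℕ,
      (∀ μ : AlgebraicClosure ℚ, μ ^ p ^ k = 1 → a μ = μ ^ e) →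
      ∀ w ∈ h30xMPart p H hc k,
        h30xGal N p k a (h83qY N p k a b e w) = e • h83qY N p k a b e w

/-- STAR implies STAR-SQ. -/
theorem h83q_starSq_of_star (H : CuspForm.HeckeGaloisRepDatum N (↑S : Set ℕ) 𝒪 θ T)
    (hc : HeckeOperatorsCommuteBar N) (hstar : H30xStarAt p H hc) : H83qStarSq p H hc := by
  intro k P hP a ha b hb e he w hw
  have h := hstar k P hP a ha b hb e he w hw
  have hY : h83qY N p k a b e w = 0 := h
  rw [hY, map_zero, smul_zero]

/-- the expansion of `(a - e)((a - e)(b - 1) w)` as an integer combination (generic form). -/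
theorem h83q_expand_gen {G X : Type*} [Monoid G] [AddCommGroup X] (φ : G →* AddMonoid.End X)
    (a b : G) (e : ℕ) (w : X) :
    ∑ i : Fin 6, (![1, -1, -(2 * (e : ℤ)), 2 * (e : ℤ), (e : ℤ) ^ 2, -((e : ℤ) ^ 2)] i) •
        φ (![a * a * b, a * a, a * b, a, b, 1] i) w =
      φ a (φ (a * b) w - φ a w - e • φ b w + e • w) -
        e • (φ (a * b) w - φ a w - e • φ b w + e • w) := by
  rw [Fin.sum_univ_six]
  have m1 : φ (a * a * b) w = φ a (φ a (φ b w)) := by rw [map_mul, map_mul]; rfl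
  have m2 : φ (a * a) w = φ a (φ a w) := by rw [map_mul]; rfl
  have m3 : φ (a * b) w = φ a (φ b w) := by rw [map_mul]; rfl
  have m4 : φ 1 w = w := by rw [map_one]; rfl
  simp only [Matrix.cons_val_zero, Matrix.cons_val_one, Matrix.cons_val_two,
    Matrix.cons_val_three, Matrix.cons_val_four, Matrix.cons_val, Matrix.head_cons,
    Matrix.tail_cons]
  rw [m1, m2, m3, m4]
  simp only [map_sub, map_add, map_nsmul]
  module

/-- the same expansion for endomorphisms of a module. -/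
theorem h83q_expand_end {A V : Type*} [CommRing A] [AddCommGroup V] [Module A V]
    {G : Type*} [Monoid G] (ρ : G →* Module.End A V) (a b : G) (e : ℕ) (v : V) :
    ∑ i : Fin 6, (![1, -1, -(2 * (e : ℤ)), 2 * (e : ℤ), (e : ℤ) ^ 2, -((e : ℤ) ^ 2)] i) •
        ρ (![a * a * b, a * a, a * b, a, b, 1] i) v =
      (ρ a - (e : A) • (1 : Module.End A V))
        ((ρ a - (e : A) • (1 : Module.End A V)) ((ρ b - 1) v)) := by
  rw [Fin.sum_univ_six]
  have m1 : ρ (a * a * b) v = ρ a (ρ a (ρ b v)) := by rw [map_mul, map_mul]; rfl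
  have m2 : ρ (a * a) v = ρ a (ρ a v) := by rw [map_mul]; rfl
  have m3 : ρ (a * b) v = ρ a (ρ b v) := by rw [map_mul]; rfl
  have m4 : ρ 1 v = v := by rw [map_one]; rfl
  simp only [Matrix.cons_val_zero, Matrix.cons_val_one, Matrix.cons_val_two,
    Matrix.cons_val_three, Matrix.cons_val_four, Matrix.cons_val, Matrix.head_cons,
    Matrix.tail_cons]
  rw [m1, m2, m3, m4]
  simp only [LinearMap.sub_apply, LinearMap.smul_apply, Module.End.one_apply, map_sub,
    map_smul]
  module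

/-- **STEP 1 for STAR-SQ**: the approximate square identities. -/
theorem h83q_approx_of_starSq [Finite (IsLocalRing.ResidueField 𝒪)]
    (hp : p.Prime) (hp2 : p ≠ 2) (hp𝒪 : (p : 𝒪) ∈ IsLocalRing.maximalIdeal 𝒪)
    (hpS : p ∈ S) (hNS : ∀ q : ℕ, q.Prime → q ∣ N → q ∈ S)
    (H : CuspForm.HeckeGaloisRepDatum N (↑S : Set ℕ) 𝒪 θ T)
    (hc : HeckeOperatorsCommuteBar N) (hstar : H83qStarSq p H hc)
    (P : ValuationSubring (AlgebraicClosure ℚ)) (hP : P.LiesOverPrime p)
    (a : GQ) (ha : a ∈ P.inertiaSubgroupIn ℚ) (b : GQ) (hb : b ∈ P.inertiaSubgroupIn ℚ)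
    (n : ℕ) :
    ∃ e : ℕ, (∀ μ : AlgebraicClosure ℚ, μ ^ p ^ n = 1 → a μ = μ ^ e) ∧
      ∀ v : H.ρ.V, (H.ρ.ρ a - (e : T) • (1 : Module.End T H.ρ.V))
          ((H.ρ.ρ a - (e : T) • (1 : Module.End T H.ρ.V)) ((H.ρ.ρ b - 1) v)) ∈
        (IsLocalRing.maximalIdeal T ^ n) • (⊤ : Submodule T H.ρ.V) := by
  haveI : Finite (IsLocalRing.ResidueField T) := h30x_finite_residueField H
  haveI : Finite (T ⧸ IsLocalRing.maximalIdeal T) := ‹Finite (IsLocalRing.ResidueField T)›
  haveI : Finite (T ⧸ IsLocalRing.maximalIdeal T ^ n) :=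
    Ideal.finite_quotient_pow (IsNoetherian.noetherian _) n
  obtain ⟨k₀, hk₀⟩ := h30x_transfer hp hp2 hp𝒪 hpS hNS H hc (IsLocalRing.maximalIdeal T ^ n)
  obtain ⟨e, he⟩ := h30x_exists_exponent hp (max k₀ n) a
  refine ⟨e, fun μ hμ => he μ ?_, fun v => ?_⟩
  · obtain ⟨j, hj⟩ : ∃ j : ℕ, max k₀ n = n + j := ⟨max k₀ n - n, by omega⟩
    rw [hj, pow_add, pow_mul, hμ, one_pow]
  · have hfam := hk₀ (max k₀ n) (le_max_left _ _) 6
      ![1, -1, -(2 * (e : ℤ)), 2 * (e : ℤ), (e : ℤ) ^ 2, -((e : ℤ) ^ 2)]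
      ![a * a * b, a * a, a * b, a, b, 1] (fun w hw => by
        have h := hstar (max k₀ n) P hP a ha b hb e he w hw
        rw [h83q_expand_gen (h30xGal N p (max k₀ n)) a b e w]
        exact sub_eq_zero.mpr h) v
    rw [h83q_expand_end H.ρ.ρ a b e v] at hfam
    exact hfam

/-- **STAR-SQ gives the exact square identities** (Krull intersection and `det ρ` cyclotomic). -/
theorem h83q_exact_of_starSq [Finite (IsLocalRing.ResidueField 𝒪)]
    (hp : p.Prime) (hp2 : p ≠ 2) (hp𝒪 : (p : 𝒪) ∈ IsLocalRing.maximalIdeal 𝒪)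
    (hpS : p ∈ S) (hNS : ∀ q : ℕ, q.Prime → q ∣ N → q ∈ S)
    (H : CuspForm.HeckeGaloisRepDatum N (↑S : Set ℕ) 𝒪 θ T)
    (hc : HeckeOperatorsCommuteBar N) (hstar : H83qStarSq p H hc)
    (P : ValuationSubring (AlgebraicClosure ℚ)) (hP : P.LiesOverPrime p)
    (a : GQ) (ha : a ∈ P.inertiaSubgroupIn ℚ) (b : GQ) (hb : b ∈ P.inertiaSubgroupIn ℚ) :
    (H.ρ.ρ a - LinearMap.det (H.ρ.ρ a) • (1 : Module.End T H.ρ.V)) *
      ((H.ρ.ρ a - LinearMap.det (H.ρ.ρ a) • (1 : Module.End T H.ρ.V)) * (H.ρ.ρ b - 1)) = 0 := by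
  apply LinearMap.ext
  intro v
  rw [LinearMap.zero_apply]
  set d : T := LinearMap.det (H.ρ.ρ a) with hd
  have hall : ∀ n : ℕ, ((H.ρ.ρ a - d • (1 : Module.End T H.ρ.V)) *
      ((H.ρ.ρ a - d • (1 : Module.End T H.ρ.V)) * (H.ρ.ρ b - 1))) v ∈
      (IsLocalRing.maximalIdeal T ^ n) • (⊤ : Submodule T H.ρ.V) := by
    intro n
    obtain ⟨e, he, hv⟩ := h83q_approx_of_starSq hp hp2 hp𝒪 hpS hNS H hc hstar P hP a ha b hb n
    have hd' : d - (e : T) ∈ IsLocalRing.maximalIdeal T ^ n :=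
      h23u_det_congr' hp hp𝒪 hpS H a n e he
    set x : H.ρ.V := (H.ρ.ρ b - 1) v with hx
    have e1 : ((H.ρ.ρ a - d • (1 : Module.End T H.ρ.V)) *
        ((H.ρ.ρ a - d • (1 : Module.End T H.ρ.V)) * (H.ρ.ρ b - 1))) v =
        (H.ρ.ρ a - (e : T) • (1 : Module.End T H.ρ.V))
          ((H.ρ.ρ a - (e : T) • (1 : Module.End T H.ρ.V)) x) -
        (d - (e : T)) • ((H.ρ.ρ a - (e : T) • (1 : Module.End T H.ρ.V)) x +
          (H.ρ.ρ a - d • (1 : Module.End T H.ρ.V)) x) := by
      simp only [Module.End.mul_apply, LinearMap.sub_apply, LinearMap.smul_apply,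
        Module.End.one_apply, map_sub, map_smul, ← hx]
      module
    rw [e1]
    exact Submodule.sub_mem _ (hv v) (Submodule.smul_mem_smul hd' Submodule.mem_top)
  have hK : (⨅ n : ℕ, (IsLocalRing.maximalIdeal T ^ n) • (⊤ : Submodule T H.ρ.V)) = ⊥ :=
    Ideal.iInf_pow_smul_eq_bot_of_isLocalRing (IsLocalRing.maximalIdeal T)
      (IsLocalRing.maximalIdeal.isMaximal T).ne_top
  have hmem := (Submodule.mem_iInf _).mpr hall
  rw [hK] at hmem
  exact (Submodule.mem_bot T).mp hmem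

/-- **the conditional top of S33 from STAR-SQ.** -/
theorem h83q_isOrdinaryAt_of_starSq [Finite (IsLocalRing.ResidueField 𝒪)]
    (hp : p.Prime) (hp2 : p ≠ 2) (hp𝒪 : (p : 𝒪) ∈ IsLocalRing.maximalIdeal 𝒪)
    (hpS : p ∈ S) (hNS : ∀ q : ℕ, q.Prime → q ∣ N → q ∈ S)
    (H : CuspForm.HeckeGaloisRepDatum N (↑S : Set ℕ) 𝒪 θ T)
    (hc : HeckeOperatorsCommuteBar N) (hstar : H83qStarSq p H hc) :
    H.ρ.IsOrdinaryAt p := by
  refine h58o_isOrdinaryAt_of_det H.ρ p fun P hP => ?_
  obtain ⟨s₀, hs₀, hu, -⟩ := h23u_detUnit hp hp2 hp𝒪 hpS H P hP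
  have hu' : IsUnit (1 - LinearMap.det (H.ρ.ρ s₀)) := by
    have : 1 - LinearMap.det (H.ρ.ρ s₀) = -(LinearMap.det (H.ρ.ρ s₀) - 1) := by ring
    rw [this]
    exact hu.neg
  have hg : IsUnit (H.ρ.ρ s₀) :=
    ⟨⟨H.ρ.ρ s₀, H.ρ.ρ s₀⁻¹, by rw [← map_mul, mul_inv_cancel, map_one],
      by rw [← map_mul, inv_mul_cancel, map_one]⟩, rfl⟩
  refine ⟨s₀, hs₀, LinearMap.det (H.ρ.ρ s₀), hu', rfl, fun b hb => ?_⟩
  exact h83q_square H.ρ.finrank_eq (H.ρ.ρ s₀) (H.ρ.ρ b) hg hu'
    (h83q_exact_of_starSq hp hp2 hp𝒪 hpS hNS H hc hstar P hP s₀ hs₀ s₀ hs₀)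
    (h83q_exact_of_starSq hp hp2 hp𝒪 hpS hNS H hc hstar P hP s₀ hs₀ b hb)

/-- **S33 from STAR-SQ** (the exact hypotheses of the frozen statement S33, except `hres`, which
is only needed to prove STAR-SQ). -/
theorem h83q_s33_of_starSq [Finite (IsLocalRing.ResidueField 𝒪)]
    (hp : p.Prime) (hp2 : p ≠ 2) (hp𝒪 : (p : 𝒪) ∈ IsLocalRing.maximalIdeal 𝒪)
    (hN : p ∣ N ∧ ¬ p ^ 2 ∣ N) (hNS : ∀ q : ℕ, q.Prime → q ∣ N → q ∈ S)
    (H : CuspForm.HeckeGaloisRepDatum N (↑S : Set ℕ) 𝒪 θ T)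
    (hstar : H83qStarSq p H (Fermat.Agent.S30.geometricInputsFull.1 N).1) :
    H.ρ.IsOrdinaryAt p :=
  h83q_isOrdinaryAt_of_starSq hp hp2 hp𝒪 (hNS p hp hN.1) hNS H _ hstar

end Fermat.Agent.P6
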