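import Fermat.Agent.P6.H11Glue
import Fermat.Agent.P6.H83Square

/-!
# Wave 6 (S33): the conditional top of the geometry (architect helper11)

`h11t_s33_of : H36oStarOld → H11Push → H11StarNewPlus →` the frozen statement S33.

* OLD (`H36oStarOld`, block B4): STAR on the `𝔪`-part of `J₀(N / p)[p ^ k]`;
* PUSH (`H11Push`): the push-forwards respect Galois and the `𝔪`-parts;
* NEW+ (`H11StarNewPlus`, block B2): the new combinations of inertia differences are killed by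
  `a - e`, up to a bounded exponent `t`.

The glue `h11g_star3` gives the square STAR with the exponent `t`; the trace transfer
(`h30x_transfer`, helper30), the Krull intersection and the torsion-freeness of `T` over `𝒪`
(characteristic zero) give the exact square identities of helper83 (`h83q_square`).
-/

set_option autoImplicit false
set_option linter.style.haveILetI false
set_option linter.unusedSectionVars false

open ModularCurve GaloisRep

noncomputable section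

namespace Fermat.Agent.P6

open Fermat.Agent.P5
open Fermat.Agent.S29 (GQ)

variable {p : ℕ} {N : ℕ} [NeZero N] {S : Finset ℕ}
  {𝒪 : Type} [CommRing 𝒪] [IsDomain 𝒪] [IsDiscreteValuationRing 𝒪]
  [IsAdicComplete (IsLocalRing.maximalIdeal 𝒪) 𝒪]
  {θ : CuspForm.heckeAlgebra N 2 (↑S : Set ℕ) →+* IsLocalRing.ResidueField 𝒪}
  {T : Type} [CommRing T] [IsLocalRing T] [IsNoetherianRing T]
  [IsAdicComplete (IsLocalRing.maximalIdeal T) T] [Algebra 𝒪 T] [IsLocalHom (algebraMap 𝒪 T)]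
  [Module.Finite 𝒪 T] [Module.Free 𝒪 T]

/-- the two ways of writing `(a - e)(b - 1) w`. -/
theorem h11t_mono_eq (N p k : ℕ) [NeZero N] (a b : GQ) (e : ℕ) (w : h30xTors N p k) :
    h11gMono N p k a b e w = h83qY N p k a b e w := by
  unfold h11gMono h83qY
  have m : h30xGal N p k (a * b) w = h30xGal N p k a (h30xGal N p k b w) := by
    rw [map_mul]; rfl
  rw [m, map_sub, smul_sub]
  abel

/-- **STEP 1 with an exponent**: the approximate square identities, multiplied by `t`. -/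
theorem h11t_approx [Finite (IsLocalRing.ResidueField 𝒪)]
    (hp : p.Prime) (hp2 : p ≠ 2) (hp𝒪 : (p : 𝒪) ∈ IsLocalRing.maximalIdeal 𝒪)
    (hpS : p ∈ S) (hNS : ∀ q : ℕ, q.Prime → q ∣ N → q ∈ S)
    (H : CuspForm.HeckeGaloisRepDatum N (↑S : Set ℕ) 𝒪 θ T)
    (hc : HeckeOperatorsCommuteBar N) (t : ℕ) (hstar : H11Star2At p H hc t)
    (P : ValuationSubring (AlgebraicClosure ℚ)) (hP : P.LiesOverPrime p)
    (a : GQ) (ha : a ∈ P.inertiaSubgroupIn ℚ) (b : GQ) (hb : b ∈ P.inertiaSubgroupIn ℚ)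
    (n : ℕ) :
    ∃ e : ℕ, (∀ μ : AlgebraicClosure ℚ, μ ^ p ^ n = 1 → a μ = μ ^ e) ∧
      ∀ v : H.ρ.V, (t : ℤ) • ((H.ρ.ρ a - (e : T) • (1 : Module.End T H.ρ.V))
          ((H.ρ.ρ a - (e : T) • (1 : Module.End T H.ρ.V)) ((H.ρ.ρ b - 1) v))) ∈
        (IsLocalRing.maximalIdeal T ^ n) • (⊤ : Submodule T H.ρ.V) := by
  haveI : Finite (IsLocalRing.ResidueField T) := h30x_finite_residueField H
  haveI : Finite (T ⧸ IsLocalRing.maximalIdeal T) := ‹Finite (IsLocalRing.ResidueField T)›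
  haveI : Finite (T ⧸ IsLocalRing.maximalIdeal T ^ n) :=
    Ideal.finite_quotient_pow (IsNoetherian.noetherian _) n
  obtain ⟨k₀, hk₀⟩ := h30x_transfer hp hp2 hp𝒪 hpS hNS H hc (IsLocalRing.maximalIdeal T ^ n)
  obtain ⟨e, he⟩ := h30x_exists_exponent hp (max k₀ n) a
  refine ⟨e, fun μ hμ => he μ ?_, fun v => ?_⟩
  · obtain ⟨j, hj⟩ : ∃ j : ℕ, max k₀ n = n + j := ⟨max k₀ n - n, by omega⟩
    rw [hj, pow_add, pow_mul, hμ, one_pow]
  · have hfam := hk₀ (max k₀ n) (le_max_left _ _) 6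
      (fun i => (t : ℤ) *
        (![1, -1, -(2 * (e : ℤ)), 2 * (e : ℤ), (e : ℤ) ^ 2, -((e : ℤ) ^ 2)] : Fin 6 → ℤ) i)
      ![a * a * b, a * a, a * b, a, b, 1] (fun w hw => by
        have h := hstar (max k₀ n) P hP a ha b hb e he w hw
        simp only [mul_smul]
        rw [← Finset.smul_sum, h83q_expand_gen (h30xGal N p (max k₀ n)) a b e w,
          natCast_zsmul]
        rw [h11t_mono_eq] at h
        exact h) v
    simp only [mul_smul] at hfam
    rw [← Finset.smul_sum, h83q_expand_end H.ρ.ρ a b e v] at hfam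
    exact hfam

/-- a positive integer is a non-zero-divisor on the module of a datum (`𝒪` of characteristic
zero, `T` free over `𝒪`, `V` free over `T`). -/
theorem h11t_torsionFree [CharZero 𝒪]
    (H : CuspForm.HeckeGaloisRepDatum N (↑S : Set ℕ) 𝒪 θ T) (t : ℕ) (ht : 0 < t)
    (y : H.ρ.V) (h : (t : ℤ) • y = 0) : y = 0 := by
  have hT : ∀ c : T, (t : ℤ) • c = 0 → c = 0 := by
    intro c hc
    have h1 : ((t : 𝒪)) • c = 0 := by
      rw [Algebra.smul_def, map_natCast]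
      rw [zsmul_eq_mul] at hc
      exact_mod_cast hc
    have h2 : (t : 𝒪) ≠ 0 := by exact_mod_cast ht.ne'
    exact (smul_eq_zero.mp h1).resolve_left h2
  let bs := Module.Free.chooseBasis T H.ρ.V
  apply bs.repr.injective
  ext i
  rw [map_zero, Finsupp.zero_apply]
  apply hT
  have h3 := congrArg (fun z => bs.repr z i) h
  simpa using h3

/-- **the exact square identities from the square STAR with an exponent.** -/
theorem h11t_exact [Finite (IsLocalRing.ResidueField 𝒪)] [CharZero 𝒪]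
    (hp : p.Prime) (hp2 : p ≠ 2) (hp𝒪 : (p : 𝒪) ∈ IsLocalRing.maximalIdeal 𝒪)
    (hpS : p ∈ S) (hNS : ∀ q : ℕ, q.Prime → q ∣ N → q ∈ S)
    (H : CuspForm.HeckeGaloisRepDatum N (↑S : Set ℕ) 𝒪 θ T)
    (hc : HeckeOperatorsCommuteBar N) (t : ℕ) (ht : 0 < t) (hstar : H11Star2At p H hc t)
    (P : ValuationSubring (AlgebraicClosure ℚ)) (hP : P.LiesOverPrime p)
    (a : GQ) (ha : a ∈ P.inertiaSubgroupIn ℚ) (b : GQ) (hb : b ∈ P.inertiaSubgroupIn ℚ) :
    (H.ρ.ρ a - LinearMap.det (H.ρ.ρ a) • (1 : Module.End T H.ρ.V)) *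
      ((H.ρ.ρ a - LinearMap.det (H.ρ.ρ a) • (1 : Module.End T H.ρ.V)) * (H.ρ.ρ b - 1)) = 0 := by
  apply LinearMap.ext
  intro v
  rw [LinearMap.zero_apply]
  apply h11t_torsionFree H t ht
  set d : T := LinearMap.det (H.ρ.ρ a) with hd
  have hall : ∀ n : ℕ, (t : ℤ) • ((H.ρ.ρ a - d • (1 : Module.End T H.ρ.V)) *
      ((H.ρ.ρ a - d • (1 : Module.End T H.ρ.V)) * (H.ρ.ρ b - 1))) v ∈
      (IsLocalRing.maximalIdeal T ^ n) • (⊤ : Submodule T H.ρ.V) := by
    intro n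
    obtain ⟨e, he, hv⟩ := h11t_approx hp hp2 hp𝒪 hpS hNS H hc t hstar P hP a ha b hb n
    have hd' : d - (e : T) ∈ IsLocalRing.maximalIdeal T ^ n :=
      h23u_det_congr' hp hp𝒪 hpS H a n e he
    set x : H.ρ.V := (H.ρ.ρ b - 1) v with hx
    have e1 : ((H.ρ.ρ a - d • (1 : Module.End T H.ρ.V)) *
        ((H.ρ.ρ a - d • (1 : Module.End T H.ρ.V)) * (H.ρ.ρ b - 1))) v =
        (H.ρ.ρ a - (e : T) • (1 : Module.End T H.ρ.V))
          ((H.ρ.ρ a - (e : T) • (1 : Module.End T H.ρ.V)) x) -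
        (d - (e : T)) • ((H.ρ.ρ a - (e : T) • (1 : Module.End T H.ρ.V)) x +
          (H.ρ.ρ a - d • (1 : Module.End T H.ρ.V)) x) := by
      simp only [Module.End.mul_apply, LinearMap.sub_apply, LinearMap.smul_apply,
        Module.End.one_apply, map_sub, map_smul, ← hx]
      module
    rw [e1, smul_sub]
    refine Submodule.sub_mem _ (hv v) ?_
    rw [smul_comm]
    exact Submodule.smul_mem_smul hd' Submodule.mem_top
  have hK : (⨅ n : ℕ, (IsLocalRing.maximalIdeal T ^ n) • (⊤ : Submodule T H.ρ.V)) = ⊥ :=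
    Ideal.iInf_pow_smul_eq_bot_of_isLocalRing (IsLocalRing.maximalIdeal T)
      (IsLocalRing.maximalIdeal.isMaximal T).ne_top
  have hmem := (Submodule.mem_iInf _).mpr hall
  rw [hK] at hmem
  exact (Submodule.mem_bot T).mp hmem

/-- **ordinarity from the square STAR with an exponent.** -/
theorem h11t_isOrdinaryAt [Finite (IsLocalRing.ResidueField 𝒪)] [CharZero 𝒪]
    (hp : p.Prime) (hp2 : p ≠ 2) (hp𝒪 : (p : 𝒪) ∈ IsLocalRing.maximalIdeal 𝒪)
    (hpS : p ∈ S) (hNS : ∀ q : ℕ, q.Prime → q ∣ N → q ∈ S)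
    (H : CuspForm.HeckeGaloisRepDatum N (↑S : Set ℕ) 𝒪 θ T)
    (hc : HeckeOperatorsCommuteBar N) (t : ℕ) (ht : 0 < t) (hstar : H11Star2At p H hc t) :
    H.ρ.IsOrdinaryAt p := by
  refine h58o_isOrdinaryAt_of_det H.ρ p fun P hP => ?_
  obtain ⟨s₀, hs₀, hu, -⟩ := h23u_detUnit hp hp2 hp𝒪 hpS H P hP
  have hu' : IsUnit (1 - LinearMap.det (H.ρ.ρ s₀)) := by
    have : 1 - LinearMap.det (H.ρ.ρ s₀) = -(LinearMap.det (H.ρ.ρ s₀) - 1) := by ring
    rw [this]
    exact hu.neg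
  have hg : IsUnit (H.ρ.ρ s₀) :=
    ⟨⟨H.ρ.ρ s₀, H.ρ.ρ s₀⁻¹, by rw [← map_mul, mul_inv_cancel, map_one],
      by rw [← map_mul, inv_mul_cancel, map_one]⟩, rfl⟩
  refine ⟨s₀, hs₀, LinearMap.det (H.ρ.ρ s₀), hu', rfl, fun b hb => ?_⟩
  exact h83q_square H.ρ.finrank_eq (H.ρ.ρ s₀) (H.ρ.ρ b) hg hu'
    (h11t_exact hp hp2 hp𝒪 hpS hNS H hc t ht hstar P hP s₀ hs₀ s₀ hs₀)
    (h11t_exact hp hp2 hp𝒪 hpS hNS H hc t ht hstar P hP s₀ hs₀ b hb)

/-- **THE CONDITIONAL TOP OF S33**: OLD + PUSH + NEW+ give the frozen statement S33. -/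
theorem h11t_s33_of (hOld : H36oStarOld) (hPush : H11Push) (hNew : H11StarNewPlus)
    [Finite (IsLocalRing.ResidueField 𝒪)] [CharZero 𝒪]
    (hp : p.Prime) (hp2 : p ≠ 2) (hp𝒪 : (p : 𝒪) ∈ IsLocalRing.maximalIdeal 𝒪)
    (hN : p ∣ N ∧ ¬ p ^ 2 ∣ N) (hNS : ∀ q : ℕ, q.Prime → q ∣ N → q ∈ S)
    (H : CuspForm.HeckeGaloisRepDatum N (↑S : Set ℕ) 𝒪 θ T)
    (hres : (GaloisRepAdic.ofResidualGaloisRep H.ρ.residual).IsOrdinaryAt p) :
    H.ρ.IsOrdinaryAt p := by
  obtain ⟨t, ht, h3⟩ := h11g_star3 hOld hPush hNew hp hp2 hp𝒪 hN hNS H hres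
    (Fermat.Agent.S30.geometricInputsFull.1 N).1
  exact h11t_isOrdinaryAt hp hp2 hp𝒪 (hNS p hp hN.1) hNS H _ t ht (h11g_star2_of_star3 h3)

end Fermat.Agent.P6
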