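import Mathlib

/-!
# Wave 6 (S33), block B2-TOR, node cocycle (helper12): roots of unity modulo deep moduli

Mathlib only.  `A` is a valuation ring (a domain) containing a primitive `r`-th root of unity.

* `h12z_exists_max_dvd` : a finite nonempty family of elements of a valuation ring has a member
  divisible by all the others.
* `h12z_root_approx` : if `r * c ∣ κ ^ r - 1` then `κ` is congruent modulo `c` to an `r`-th root
  of unity (the constant `κ = ∏ (- c_i) ^ n_i` of a node **is** a root of unity modulo `c`: the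
  cocycle in `H¹(graph, μ_r)`).
* `h12z_theta_root` : if moreover `θ` is a ring endomorphism of `A` acting on `μ_r` by the `e`-th
  power and with `c ∣ θ c`, then `c ∣ θ κ - κ ^ e`.
* `h12z_theta_unit` : multiplicative form, `θ κ = κ ^ e * (1 + c * x)` for a unit `κ`.
-/

set_option autoImplicit false
set_option linter.style.haveILetI false

namespace Fermat.Agent.P6

open Polynomial Finset

/-- a finite nonempty family of elements of a valuation ring has a member divisible by all the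
others. -/
theorem h12z_exists_max_dvd {A : Type*} [CommRing A] [IsDomain A] [ValuationRing A]
    {ι : Type*} (s : Finset ι) (hs : s.Nonempty) (f : ι → A) :
    ∃ i ∈ s, ∀ j ∈ s, f j ∣ f i := by
  classical
  induction hs using Finset.Nonempty.cons_induction with
  | singleton a => exact ⟨a, Finset.mem_singleton_self a, fun j hj => by
      rw [Finset.mem_singleton] at hj; rw [hj]⟩
  | cons a s ha hs ih =>
    obtain ⟨i, hi, hmax⟩ := ih
    rcases ValuationRing.dvd_total (f a) (f i) with h | h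
    · refine ⟨i, Finset.mem_cons.mpr (Or.inr hi), fun j hj => ?_⟩
      rcases Finset.mem_cons.mp hj with rfl | hj
      · exact h
      · exact hmax j hj
    · refine ⟨a, Finset.mem_cons_self a s, fun j hj => ?_⟩
      rcases Finset.mem_cons.mp hj with rfl | hj
      · exact dvd_rfl
      · exact (hmax j hj).trans h

/-- the value at a root `η₀` of the cofactor of `X - η₀` in `X ^ r - 1`. -/
theorem h12z_prod_erase {A : Type*} [CommRing A] [IsDomain A] {r : ℕ} (hr : 0 < r) {ζ : A}
    (hζ : IsPrimitiveRoot ζ r) [DecidableEq A] (η₀ : A) (hη₀ : η₀ ∈ nthRootsFinset r (1 : A)) :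
    (∏ η ∈ (nthRootsFinset r (1 : A)).erase η₀, (η₀ - η)) * η₀ = (r : A) := by
  have hprod := X_pow_sub_one_eq_prod hr hζ
  rw [← Finset.mul_prod_erase _ _ hη₀] at hprod
  have hder := congrArg (fun f : A[X] => (derivative f).eval η₀) hprod
  simp only [derivative_sub, derivative_X_pow, derivative_one, sub_zero, derivative_mul,
    derivative_X, derivative_C, eval_add, eval_mul, eval_sub, eval_X, eval_C, sub_self,
    zero_mul, add_zero, one_mul, eval_pow, eval_prod] at hder
  have h1 : η₀ ^ r = 1 := (mem_nthRootsFinset hr 1).mp hη₀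
  have h2 : η₀ ^ (r - 1) * η₀ = 1 := by
    rw [← pow_succ, Nat.sub_add_cancel hr, h1]
  rw [← hder, mul_assoc, h2, mul_one]

/-- **the cocycle of a node is a root of unity**: in a valuation ring containing a primitive
`r`-th root of unity, `r * c ∣ κ ^ r - 1` implies that `κ` is congruent to an `r`-th root of
unity modulo `c`. -/
theorem h12z_root_approx {A : Type*} [CommRing A] [IsDomain A] [ValuationRing A] {r : ℕ}
    (hr : 0 < r) {ζ : A} (hζ : IsPrimitiveRoot ζ r) (κ c : A)
    (h : (r : A) * c ∣ κ ^ r - 1) : ∃ η : A, η ^ r = 1 ∧ c ∣ κ - η := by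
  classical
  haveI : NeZero r := ⟨hr.ne'⟩
  have hr0 : (r : A) ≠ 0 := (hζ.neZero').ne
  set S := nthRootsFinset r (1 : A) with hS
  have hSne : S.Nonempty := ⟨1, (mem_nthRootsFinset hr 1).mpr (one_pow r)⟩
  obtain ⟨η₀, hη₀, hmax⟩ := h12z_exists_max_dvd S hSne (fun η => κ - η)
  have hprod : κ ^ r - 1 = ∏ η ∈ S, (κ - η) := by
    have := congrArg (fun f : A[X] => f.eval κ) (X_pow_sub_one_eq_prod hr hζ)
    simpa only [eval_sub, eval_pow, eval_X, eval_one, eval_prod, eval_C] using this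
  have hdvd : (∏ η ∈ S.erase η₀, (κ - η)) ∣ ∏ η ∈ S.erase η₀, (η₀ - η) := by
    refine Finset.prod_dvd_prod_of_dvd _ _ fun η hη => ?_
    have h1 : (κ - η) ∣ (κ - η₀) := hmax η (Finset.mem_of_mem_erase hη)
    have h2 : η₀ - η = (κ - η) - (κ - η₀) := by ring
    rw [h2]
    exact dvd_sub dvd_rfl h1
  have hrP : (∏ η ∈ S.erase η₀, (κ - η)) ∣ (r : A) := by
    rw [← h12z_prod_erase hr hζ η₀ hη₀]
    exact Dvd.dvd.mul_right hdvd _
  obtain ⟨q, hq⟩ := hrP
  have hP0 : (∏ η ∈ S.erase η₀, (κ - η)) ≠ 0 := by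
    intro h0
    rw [h0, zero_mul] at hq
    exact hr0 hq
  refine ⟨η₀, (mem_nthRootsFinset hr 1).mp hη₀, ?_⟩
  rw [hprod, ← Finset.mul_prod_erase _ _ hη₀, hq] at h
  -- `P * q * c ∣ (κ - η₀) * P`
  have h' : (∏ η ∈ S.erase η₀, (κ - η)) * (q * c) ∣
      (∏ η ∈ S.erase η₀, (κ - η)) * (κ - η₀) := by
    rw [← mul_assoc, mul_comm _ (κ - η₀)]
    exact h
  exact (dvd_of_mul_left_dvd ((mul_dvd_mul_iff_left hP0).mp h'))

/-- **the twisted constant of a node is `≡ 1`**: if `θ` acts on the `r`-th roots of unity by the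
`e`-th power and does not decrease divisibility by `c`, then `r * c ∣ κ ^ r - 1` implies
`c ∣ θ κ - κ ^ e`. -/
theorem h12z_theta_root {A : Type*} [CommRing A] [IsDomain A] [ValuationRing A] {r : ℕ}
    (hr : 0 < r) {ζ : A} (hζ : IsPrimitiveRoot ζ r) (θ : A →+* A) (e : ℕ)
    (hθ : ∀ η : A, η ^ r = 1 → θ η = η ^ e) (κ c : A) (hc : c ∣ θ c)
    (h : (r : A) * c ∣ κ ^ r - 1) : c ∣ θ κ - κ ^ e := by
  obtain ⟨η, hη, hcη⟩ := h12z_root_approx hr hζ κ c h
  have h1 : c ∣ θ κ - η ^ e := by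
    rw [← hθ η hη, ← map_sub]
    exact hc.trans (map_dvd θ hcη)
  have h2 : c ∣ κ ^ e - η ^ e := hcη.trans (sub_dvd_pow_sub_pow κ η e)
  have h3 : θ κ - κ ^ e = (θ κ - η ^ e) - (κ ^ e - η ^ e) := by ring
  rw [h3]
  exact dvd_sub h1 h2

/-- multiplicative form of `h12z_theta_root` for a unit `κ`. -/
theorem h12z_theta_unit {A : Type*} [CommRing A] [IsDomain A] [ValuationRing A] {r : ℕ}
    (hr : 0 < r) {ζ : A} (hζ : IsPrimitiveRoot ζ r) (θ : A →+* A) (e : ℕ)
    (hθ : ∀ η : A, η ^ r = 1 → θ η = η ^ e) (κ c : A) (hκ : IsUnit κ) (hc : c ∣ θ c)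
    (h : (r : A) * c ∣ κ ^ r - 1) : ∃ x : A, θ κ = κ ^ e * (1 + c * x) := by
  obtain ⟨y, hy⟩ := h12z_theta_root hr hζ θ e hθ κ c hc h
  obtain ⟨u, hu⟩ := (hκ.pow e).exists_left_inv
  refine ⟨u * y, ?_⟩
  have h1 : θ κ = κ ^ e + c * y := by rw [← hy]; ring
  rw [h1]
  calc κ ^ e + c * y = κ ^ e + (u * κ ^ e) * (c * y) := by rw [hu, one_mul]
    _ = κ ^ e * (1 + c * (u * y)) := by ring

end Fermat.Agent.P6
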