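import Fermat.Agent.S35.H86TorGate
import Fermat.Agent.P6.H11NewIface

/-!
# P6 (wave 6, S33), block B2-TOR (helper13): level-form leaves of TOR-GATE-p

Setting: `p` an odd prime, `M` a good level (`p ∤ M`, `auxLevel p ∣ M`), `A` a valuation
subring of `ℚ̄` over `p`, `F = FF (M * p)`, `ssV = W∞ ∩ W₀` the semistable Gauss ring, the two
charts `jSS M p`, `(jSS M p)⁻¹` (vocabulary of `LGC/Skeleton.lean` and `S35/H86TorIface.lean`),
`r = p ^ k`, `τ` in the inertia group of `A` acting on the `r`-th roots of unity by the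
exponent `a`, `Θ(z) = τ z / z ^ a` (`h11Theta` of `P6/H11NewIface.lean`).

The target `H11TorGate` (architect helper11) is assembled in `P6/H13TorAsmP.lean` from the
three leaves below and the landed deep gate (helper90, `h90p_gate_asm_loc`).

* `H13qSmooth` (T2, deep local datum at the smooth closed points of the special fibre): a
  function `W ≡ 1` modulo `c₀ π · ssV` with orders divisible by `r` is, at a closed point with a
  refined smooth datum (`TorSmoothAt`), of the form `g ^ r · (local unit)` with `g ≡ 1` modulo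
  `r π · ssV`.  No Galois action.  (`c₀ = r²` is expected: row B2-LOC-SMOOTH.)
* `H13qNode` (T3, deep local datum at the nodes): for `w ≡ 1` modulo `c₀ π · ssV` with orders
  divisible by `r`, the function `Θ(w)` is, at a node (`TorNodeAt`), of the form
  `g ^ r · (local unit)` with `g ≡ 1` modulo `r π · ssV`.  (The local `r`-th roots of `w` on the
  two branches differ by a root of unity `ζ`, and `τ ζ / ζ ^ a = 1`.)
* `H13qApprox` (weak approximation at the two Gauss valuations): a function which is an `r`-th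
  power modulo every depth at `W∞` and at `W₀` is a constant times an `r`-th power times a
  function `≡ 1` modulo `D · ssV`, for every nonzero `D ∈ 𝔪_A`.

The constant `c₀` may depend on `p`, `M`, `A`, `k` (not on the closed point, not on `π`, not on
the function).  Every declaration is a definition; nothing is assumed.
-/

set_option autoImplicit false
set_option linter.unusedSectionVars false
set_option linter.style.haveILetI false

open AlgebraicCurve ModularCurve WithZero IsLocalRing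

noncomputable section

namespace Fermat.Agent.P6

open Fermat.Agent.S37 Fermat.Agent.Red Fermat.Agent.Red.GG Fermat.Agent.Red.GV
  Fermat.Agent.Red.ModelO Fermat.Agent.Red.Kron Fermat.Agent.LGC Fermat.Agent.S35

/-- the local datum of the gate for `W` (exponent `r`, modulus `π`) at ONE closed point `𝔫` of
the chart `t`. -/
def h13qDatumAt (N : ℕ) [NeZero N] (A : ValuationSubring Kbar) (t : FF N) (V : Subring (FF N))
    (π : A) (W : FF N) (r : ℕ) (𝔫 : Ideal (chart N A t)) : Prop :=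
  ∃ g ∈ h26U π V, ∃ s : chart N A t, s ∉ 𝔫 ∧
    (s : FF N) * (W * (g ^ r)⁻¹) ∈ chart N A t ∧ (s : FF N) * (g ^ r * W⁻¹) ∈ chart N A t

/-- **T2 (deep smooth datum), level form.** -/
def H13qSmooth : Prop :=
  ∀ (p : ℕ) (hp : p.Prime), p ≠ 2 → ∀ (M : ℕ) [NeZero M], ¬ p ∣ M → auxLevel p ∣ M →
    haveI : NeZero p := ⟨hp.ne_zero⟩
    ∀ A : ValuationSubring Kbar, A.LiesOverPrime p → ∀ k : ℕ,
    ∃ c₀ : A, c₀ ≠ 0 ∧
    ∀ t : FF (M * p), (t = jSS M p ∨ t = (jSS M p)⁻¹) →
    ∀ 𝔫 : Ideal (chart (M * p) A t), 𝔫.IsMaximal → mExt A M p t ≤ 𝔫 →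
      TorSmoothAt A M p t 𝔫 →
    ∀ π : A, π ∈ maximalIdeal A → π ≠ 0 →
    ∀ W : FF (M * p), W ∈ h26U (c₀ * π) (ssV A M p) →
      (∀ i, ∃ n : ℤ, chartVal (M * p) t i W = exp (-(((p ^ k : ℕ) : ℤ) * n))) →
      h13qDatumAt (M * p) A t (ssV A M p) (((p ^ k : ℕ) : A) * π) W (p ^ k) 𝔫

/-- **T3 (deep node datum for `Θ(w)`), level form.** -/
def H13qNode : Prop :=
  ∀ (p : ℕ) (hp : p.Prime), p ≠ 2 → ∀ (M : ℕ) [NeZero M] (hM : ¬ p ∣ M), auxLevel p ∣ M →
    haveI : NeZero p := ⟨hp.ne_zero⟩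
    ∀ (A : ValuationSubring Kbar) (hA : A.LiesOverPrime p), ∀ k : ℕ,
    ∃ c₀ : A, c₀ ≠ 0 ∧
    ∀ 𝔫 : Ideal (chart (M * p) A (jSS M p)), 𝔫.IsMaximal → mExt A M p (jSS M p) ≤ 𝔫 →
      TorNodeAt A M p hp hM hA (jSS M p) 𝔫 →
    ∀ τ ∈ A.inertiaSubgroupIn ℚ, ∀ a : ℕ, H11Cyc p k τ a →
    ∀ π : A, π ∈ maximalIdeal A → π ≠ 0 →
    ∀ w : FF (M * p), w ∈ h26U (c₀ * π) (ssV A M p) →
      (∀ i, ∃ n : ℤ, chartVal (M * p) (jSS M p) i w = exp (-(((p ^ k : ℕ) : ℤ) * n))) →
      h13qDatumAt (M * p) A (jSS M p) (ssV A M p) (((p ^ k : ℕ) : A) * π)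
        (h11Theta (M * p) τ a w) (p ^ k) 𝔫

/-- **weak approximation at the two Gauss valuations**, in the shape of the hypothesis of
`H11TorGate`. -/
def H13qApprox : Prop :=
  ∀ (p : ℕ) (hp : p.Prime), p ≠ 2 → ∀ (M : ℕ) [NeZero M] (hM : ¬ p ∣ M), auxLevel p ∣ M →
    haveI : NeZero p := ⟨hp.ne_zero⟩
    ∀ A : ValuationSubring Kbar, A.LiesOverPrime p →
    ∀ (r : ℕ), 0 < r → ∀ z : FF (M * p), z ≠ 0 →
      (∀ d ∈ A, d ≠ 0 → h94iDeep A M p r z d ∧ h94iDeep A M p r (kFricke M p hp hM z) d) →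
      ∀ D : A, D ∈ maximalIdeal A → D ≠ 0 →
      ∃ (c : Kbar) (H w : FF (M * p)), c ≠ 0 ∧ H ≠ 0 ∧ z = cst (M * p) c * H ^ r * w ∧
        w ∈ h26U D (ssV A M p)

/-- **TOR-GATE-p on the functions `≡ 1`** (the `p`-power analogue of `S35.IfaceTor`): there is
a depth `D` such that for `w ≡ 1` modulo `D · ssV` with divisor divisible by `p ^ k` the
function `Θ(w)` is a `p ^ k`-th power. -/
def H13qTor : Prop :=
  ∀ (p : ℕ) (hp : p.Prime), p ≠ 2 → ∀ (M : ℕ) [NeZero M], ¬ p ∣ M → auxLevel p ∣ M →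
    haveI : NeZero p := ⟨hp.ne_zero⟩
    ∀ A : ValuationSubring Kbar, A.LiesOverPrime p → ∀ k : ℕ,
    ∃ D : A, D ∈ maximalIdeal A ∧ D ≠ 0 ∧
    ∀ τ ∈ A.inertiaSubgroupIn ℚ, ∀ a : ℕ, H11Cyc p k τ a →
    ∀ w : FF (M * p), w ∈ h26U D (ssV A M p) →
      (∀ v : Place Kbar (FF (M * p)), ((p ^ k : ℕ) : ℤ) ∣ v.ord w) →
      ∃ h : FF (M * p), h ^ (p ^ k) = h11Theta (M * p) τ a w

end Fermat.Agent.P6
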