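import Fermat.Agent.P6.H13TorEndP
import Fermat.Agent.P6.H13TorIfaceP
import Fermat.Agent.S35.H4TorFinal

/-!
# P6 (wave 6, S33), block B2-TOR (helper13): the assembly of TOR-GATE-p

* `h13q_tor_of : H13qSmooth → H13qNode → H13qTor` : the `p`-power analogue of
  `S35.h13x_torAssembly`.  For `w ≡ 1` modulo `D · ssV` (`D = c₁ c₂ r² p`, `r = p ^ k`) with
  divisor divisible by `r`, the function `W = Θ(w) = τ w / w ^ a` is `≡ 1` modulo `D · ssV`, its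
  divisor is divisible by `r`, and it has the local datum of the deep gate (generators `≡ 1`
  modulo `r p · ssV`) at all closed points of the special fibre of the two charts:
  finite chart, smooth points: `H13qSmooth` applied to `W`;
  finite chart, nodes: `H13qNode` applied to `w`;
  chart at infinity, cusps: `H13qSmooth` applied to `W` (`h21u_ifaceTorCusp`);
  chart at infinity, other points: overlap transfer (`S35.h13x_transfer_chart`).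
  Then the deep gate `h13q_gate_end'` (on top of `h90p_gate_asm_loc`, helper90).
* `h13q_torGate_of_tor : H13qTor → H13qApprox → H11TorGate` : the `p`-power analogue of
  `S35.h4t_torFinal`.
* `h13q_torGate_of : H13qSmooth → H13qNode → H13qApprox → H11TorGate`.
-/

set_option autoImplicit false
set_option linter.unusedSectionVars false
set_option linter.style.haveILetI false

open AlgebraicCurve ModularCurve WithZero IsLocalRing

noncomputable section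

namespace Fermat.Agent.P6

open Fermat.Agent.S37 Fermat.Agent.S37.GalI Fermat.Agent.Red Fermat.Agent.Red.GG
  Fermat.Agent.Red.GV Fermat.Agent.Red.ModelO Fermat.Agent.Red.Kron Fermat.Agent.LGC
  Fermat.Agent.S35

/-! ## The twisted difference `Θ` -/

section Theta

variable (N : ℕ) (τ : GQ) (a : ℕ)

theorem h13q_theta_mul (x y : FF N) :
    h11Theta N τ a (x * y) = h11Theta N τ a x * h11Theta N τ a y := by
  unfold h11Theta
  rw [h4t_gal_mul, mul_pow, mul_div_mul_comm]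

theorem h13q_theta_pow (x : FF N) (n : ℕ) :
    h11Theta N τ a (x ^ n) = h11Theta N τ a x ^ n := by
  unfold h11Theta
  rw [h4t_gal_pow, div_pow, ← pow_mul, ← pow_mul, mul_comm n]

theorem h13q_theta_cst (c : Kbar) :
    h11Theta N τ a (cst N c) = cst N (τ c / c ^ a) := by
  unfold h11Theta
  rw [gal_smul_cst, cst, cst, cst, map_div₀, map_pow]

/-- the divisor of `Θ(w)` is divisible by `m`, if the divisor of `w` is. -/
theorem h13q_dvd_ord_theta (m : ℕ) (w : FF N) (hw0 : w ≠ 0)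
    (hord : ∀ v : Place Kbar (FF N), (m : ℤ) ∣ v.ord w) (v : Place Kbar (FF N)) :
    (m : ℤ) ∣ v.ord (h11Theta N τ a w) := by
  have h1 := h63_gal_ne_zero N τ hw0
  unfold h11Theta
  rw [div_eq_mul_inv, v.ord_mul h1 (inv_ne_zero (pow_ne_zero _ hw0)), v.ord_inv,
    ← zpow_natCast, v.ord_zpow]
  exact dvd_add (h63_dvd_ord_gal N τ m w hord v)
    (Dvd.dvd.neg_right (Dvd.dvd.mul_left (hord v) _))

end Theta

/-- the inertia group is contained in the decomposition group. -/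
theorem h13q_inertia_le_decomp {A : ValuationSubring Kbar} {τ : GQ}
    (hτ : τ ∈ A.inertiaSubgroupIn ℚ) : τ ∈ A.decompositionSubgroup ℚ := by
  obtain ⟨τ', -, rfl⟩ := hτ
  exact τ'.2

section Level

variable (A : ValuationSubring Kbar) (M : ℕ) {ℓ : ℕ} [NeZero M] [NeZero ℓ]

/-- `Θ` preserves the congruence `≡ 1` modulo `D · ssV`. -/
theorem h13q_theta_mem_U (hℓ : ℓ.Prime) (hM : ¬ ℓ ∣ M) (hA : A.LiesOverPrime ℓ) (τ : GQ)
    (hτ : τ ∈ A.inertiaSubgroupIn ℚ) (a : ℕ) (w : FF (M * ℓ)) (D : A)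
    (hD : D ∈ maximalIdeal A) (hD0 : D ≠ 0) (hwU : w ∈ h26U D (ssV A M ℓ)) :
    h11Theta (M * ℓ) τ a w ∈ h26U D (ssV A M ℓ) := by
  have hd := h13q_inertia_le_decomp hτ
  have hC₀ := h85s_ifaceSSChart_fin A M ℓ hℓ hM hA
  have hNt := h85s_ifaceSSNt A M ℓ hℓ hM hA
  have hAV : ∀ a : A, algebraMap A (FF (M * ℓ)) a ∈ ssV A M ℓ := fun a =>
    hC₀.hBV _ ((chart (M * ℓ) A (jSS M ℓ)).algebraMap_mem a)
  have hDK : (D : Kbar) ≠ 0 := fun h => hD0 (Subtype.ext h)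
  obtain ⟨hu, -⟩ := h75q_inertia_div_mem A hτ (D : Kbar) hDK
  have hwU' := hwU
  obtain ⟨x, hx, rfl⟩ := hwU
  have hτx : gal (M * ℓ) τ • x ∈ ssV A M ℓ :=
    (h85t_gal_mem_ssV_iff A M ℓ hℓ hM hA hd _).mpr hx
  have e1 : gal (M * ℓ) τ • algebraMap A (FF (M * ℓ)) D =
      algebraMap A (FF (M * ℓ)) D * algebraMap A (FF (M * ℓ)) ⟨τ (D : Kbar) / D, hu⟩ := by
    have e2 : gal (M * ℓ) τ • algebraMap A (FF (M * ℓ)) D = cst (M * ℓ) (τ (D : Kbar)) :=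
      gal_smul_cst τ (D : Kbar)
    have e3 : algebraMap A (FF (M * ℓ)) D * algebraMap A (FF (M * ℓ)) ⟨τ (D : Kbar) / D, hu⟩ =
        cst (M * ℓ) ((D : Kbar) * (τ (D : Kbar) / D)) := by
      rw [cst, map_mul]
      rfl
    rw [e2, e3]
    congr 1
    field_simp
  have hτw : gal (M * ℓ) τ • (1 + algebraMap A (FF (M * ℓ)) D * x) ∈ h26U D (ssV A M ℓ) := by
    refine ⟨algebraMap A (FF (M * ℓ)) ⟨τ (D : Kbar) / D, hu⟩ * (gal (M * ℓ) τ • x),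
      mul_mem (hAV _) hτx, ?_⟩
    rw [smul_add, smul_one, smul_mul', e1]
    ring
  unfold h11Theta
  rw [div_eq_mul_inv]
  exact h26U_mul (hAV D) hτw
    (h26U_inv (hC₀.hVunit D hD) (hNt D hD) (h26U_pow (hAV D) hwU' a))

set_option maxHeartbeats 1600000 in
/-- **the assembly at a good level**: from the deep local data at the smooth points (for all
functions) and at the nodes (for the twisted differences). -/
theorem h13q_tor_at (hℓ : ℓ.Prime) (hM : ¬ ℓ ∣ M) (haux : auxLevel ℓ ∣ M)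
    (hA : A.LiesOverPrime ℓ) (r : ℕ) (hr : 0 < r) (c₁ c₂ : A) (hc₁ : c₁ ≠ 0) (hc₂ : c₂ ≠ 0)
    (hSmooth : ∀ t : FF (M * ℓ), (t = jSS M ℓ ∨ t = (jSS M ℓ)⁻¹) →
      ∀ 𝔫 : Ideal (chart (M * ℓ) A t), 𝔫.IsMaximal → mExt A M ℓ t ≤ 𝔫 →
        TorSmoothAt A M ℓ t 𝔫 →
      ∀ π : A, π ∈ maximalIdeal A → π ≠ 0 →
      ∀ W : FF (M * ℓ), W ∈ h26U (c₁ * π) (ssV A M ℓ) →
        (∀ i, ∃ n : ℤ, chartVal (M * ℓ) t i W = exp (-((r : ℤ) * n))) →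
        h13qDatumAt (M * ℓ) A t (ssV A M ℓ) (((r : ℕ) : A) * π) W r 𝔫)
    (τ : GQ) (hτ : τ ∈ A.inertiaSubgroupIn ℚ) (a : ℕ)
    (hNode : ∀ 𝔫 : Ideal (chart (M * ℓ) A (jSS M ℓ)), 𝔫.IsMaximal →
      mExt A M ℓ (jSS M ℓ) ≤ 𝔫 → TorNodeAt A M ℓ hℓ hM hA (jSS M ℓ) 𝔫 →
      ∀ π : A, π ∈ maximalIdeal A → π ≠ 0 →
      ∀ w : FF (M * ℓ), w ∈ h26U (c₂ * π) (ssV A M ℓ) →
        (∀ i, ∃ n : ℤ, chartVal (M * ℓ) (jSS M ℓ) i w = exp (-((r : ℤ) * n))) →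
        h13qDatumAt (M * ℓ) A (jSS M ℓ) (ssV A M ℓ) (((r : ℕ) : A) * π)
          (h11Theta (M * ℓ) τ a w) r 𝔫)
    (π : A) (hπ : π ∈ maximalIdeal A) (hπ0 : π ≠ 0)
    (w : FF (M * ℓ))
    (hwU : w ∈ h26U (c₁ * c₂ * ((r : ℕ) : A) ^ 2 * π) (ssV A M ℓ))
    (hord : ∀ v : Place Kbar (FF (M * ℓ)), (r : ℤ) ∣ v.ord w) :
    ∃ f : FF (M * ℓ), f ^ r = h11Theta (M * ℓ) τ a w := by
  classical
  have hC₀ : IfaceSSChart A M ℓ (jSS M ℓ) := h85s_ifaceSSChart_fin A M ℓ hℓ hM hA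
  have hC₁ : IfaceSSChart A M ℓ (jSS M ℓ)⁻¹ := h85s_ifaceSSChart_inf A M ℓ hℓ hM hA
  have hNt : IfaceSSNt A M ℓ := h85s_ifaceSSNt A M ℓ hℓ hM hA
  have hF₀ : IfaceFinite (M * ℓ) A (jSS M ℓ) := h71_finite_fin' hℓ hM hA
  have hG₀ : IfaceSSGeneric A M ℓ (jSS M ℓ) := h85s_ifaceSSGeneric_fin A M ℓ hℓ hA
  have hG₁ : IfaceSSGeneric A M ℓ (jSS M ℓ)⁻¹ := h85s_ifaceSSGeneric_inf A M ℓ hℓ hA
  have hLocal : IfaceTorLocal A M ℓ hℓ hM hA := h62x_ifaceTorLocal A M hℓ hM haux hA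
  have hCusp : IfaceTorCusp A M ℓ := h21u_ifaceTorCusp A M ℓ hℓ hM haux hA
  have hAV : ∀ a : A, algebraMap A (FF (M * ℓ)) a ∈ ssV A M ℓ := fun a =>
    hC₀.hBV _ ((chart (M * ℓ) A (jSS M ℓ)).algebraMap_mem a)
  have hrA : ((r : ℕ) : A) ≠ 0 := h13q_natCast_ne_zero A r hr
  -- the moduli
  set D : A := c₁ * c₂ * ((r : ℕ) : A) ^ 2 * π with hDdef
  have hD : D ∈ maximalIdeal A := Ideal.mul_mem_left _ _ hπ
  have hD0 : D ≠ 0 :=
    mul_ne_zero (mul_ne_zero (mul_ne_zero hc₁ hc₂) (pow_ne_zero 2 hrA)) hπ0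
  have hw0 : w ≠ 0 := h26U_ne_zero (hNt D hD) hwU
  -- the function `W`
  have hWU : h11Theta (M * ℓ) τ a w ∈ h26U D (ssV A M ℓ) :=
    h13q_theta_mem_U A M hℓ hM hA τ hτ a w D hD hD0 hwU
  obtain ⟨W, hW⟩ : ∃ W : FF (M * ℓ), W = h11Theta (M * ℓ) τ a w := ⟨_, rfl⟩
  rw [← hW] at hWU ⊢
  have hW0 : W ≠ 0 := h26U_ne_zero (hNt D hD) hWU
  have hordW : ∀ v : Place Kbar (FF (M * ℓ)), (r : ℤ) ∣ v.ord W := fun v => by
    rw [hW]
    exact h13q_dvd_ord_theta (M * ℓ) τ a r w hw0 hord v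
  have hWU₁ : W ∈ h26U (c₁ * π) (ssV A M ℓ) :=
    h13x_U_mono hAV ⟨c₂ * ((r : ℕ) : A) ^ 2, by rw [hDdef]; ring⟩ hWU
  have hWU₂ : W ∈ h26U (((r : ℕ) : A) ^ 2 * π) (ssV A M ℓ) :=
    h13x_U_mono hAV ⟨c₁ * c₂, by rw [hDdef]; ring⟩ hWU
  have hwU₂ : w ∈ h26U (c₂ * π) (ssV A M ℓ) :=
    h13x_U_mono hAV ⟨c₁ * ((r : ℕ) : A) ^ 2, by rw [hDdef]; ring⟩ hwU
  -- the finite chart
  have hloc₀ : LocDatum (M * ℓ) A (jSS M ℓ) (ssV A M ℓ) (((r : ℕ) : A) * π) W r := by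
    intro 𝔫 h𝔫 hle
    rcases hLocal 𝔫 h𝔫 hle with h | h
    · exact hSmooth (jSS M ℓ) (Or.inl rfl) 𝔫 h𝔫 hle h π hπ hπ0 W hWU₁
        (exists_val_eq (M * ℓ) (jSS M ℓ) W hW0 r hordW)
    · rw [hW]
      exact hNode 𝔫 h𝔫 hle h π hπ hπ0 w hwU₂
        (exists_val_eq (M * ℓ) (jSS M ℓ) w hw0 r hord)
  -- the chart at infinity
  have hloc₁ : LocDatum (M * ℓ) A (jSS M ℓ)⁻¹ (ssV A M ℓ) (((r : ℕ) : A) * π) W r := by
    intro 𝔫 h𝔫 hle
    by_cases hcusp : (⟨(jSS M ℓ)⁻¹, h85_self_mem_modelAt (M * ℓ) A (jSS M ℓ)⁻¹⟩ :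
        chart (M * ℓ) A (jSS M ℓ)⁻¹) ∈ 𝔫
    · exact hSmooth (jSS M ℓ)⁻¹ (Or.inr rfl) 𝔫 h𝔫 hle (hCusp 𝔫 h𝔫 hle hcusp) π hπ hπ0 W hWU₁
        (exists_val_eq (M * ℓ) (jSS M ℓ)⁻¹ W hW0 r hordW)
    · exact h13x_transfer_chart (M * ℓ) A (jSS M ℓ) (h31o_jSS_ne_zero M ℓ)
        (h26U (((r : ℕ) : A) * π) (ssV A M ℓ)) W r hloc₀ 𝔫 h𝔫 hle hcusp
  -- the gate
  exact h13q_gate_end' (M * ℓ) hℓ A hA (ssV A M ℓ) (jSS M ℓ) (h63_jSS_eq M ℓ) hC₀ hC₁ hNt hF₀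
    hG₀ hG₁ r hr W hordW π hπ hπ0 hWU₂ hloc₀ hloc₁

end Level

/-- **TOR-GATE-p on the functions `≡ 1`**, from the two local leaves. -/
theorem h13q_tor_of (hS : H13qSmooth) (hN : H13qNode) : H13qTor := by
  intro p hp hp2 M _ hM haux
  haveI : NeZero p := ⟨hp.ne_zero⟩
  intro A hA k
  obtain ⟨c₁, hc₁, hS'⟩ := hS p hp hp2 M hM haux A hA k
  obtain ⟨c₂, hc₂, hN'⟩ := hN p hp hp2 M hM haux A hA k
  have hr : 0 < p ^ k := pow_pos hp.pos k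
  have hrA : ((p ^ k : ℕ) : A) ≠ 0 := h13q_natCast_ne_zero A _ hr
  have hpA0 : ((p : ℕ) : A) ≠ 0 := h13q_natCast_ne_zero A p hp.pos
  have hpA : ((p : ℕ) : A) ∈ maximalIdeal A := by
    rw [mem_maximalIdeal_iff]
    exact hA
  refine ⟨c₁ * c₂ * ((p ^ k : ℕ) : A) ^ 2 * ((p : ℕ) : A), Ideal.mul_mem_left _ _ hpA,
    mul_ne_zero (mul_ne_zero (mul_ne_zero hc₁ hc₂) (pow_ne_zero 2 hrA)) hpA0, ?_⟩
  intro τ hτ a ha w hwU hord
  exact h13q_tor_at A M hp hM haux hA (p ^ k) hr c₁ c₂ hc₁ hc₂ hS' τ hτ a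
    (fun 𝔫 h𝔫 hle hnode π hπ hπ0 w' hw' hord' =>
      hN' 𝔫 h𝔫 hle hnode τ hτ a ha π hπ hπ0 w' hw' hord')
    ((p : ℕ) : A) hpA hpA0 w hwU hord

/-- **TOR-FINAL-p**: the target `H11TorGate` from the gate on the functions `≡ 1` and the weak
approximation. -/
theorem h13q_torGate_of_tor (hT : H13qTor) (hApp : H13qApprox) : H11TorGate := by
  intro p hp hp2 M _ hM haux
  haveI : NeZero p := ⟨hp.ne_zero⟩
  intro A hA τ hτ k a ha z hz hdiv hdeep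
  have hr : 0 < p ^ k := pow_pos hp.pos k
  obtain ⟨D, hD, hD0, hT'⟩ := hT p hp hp2 M hM haux A hA k
  obtain ⟨c, H, w, hc, hH, hzw, hU⟩ :=
    hApp p hp hp2 M hM haux A hA (p ^ k) hr z hz hdeep D hD hD0
  have hcst : cst (M * p) c ≠ 0 := by
    simpa only [cst, ne_eq, map_eq_zero] using hc
  have hHm : H ^ (p ^ k) ≠ 0 := pow_ne_zero _ hH
  have hw0 : w ≠ 0 := by
    rintro rfl
    rw [mul_zero] at hzw
    exact hz hzw
  -- the divisor of `w` is divisible by `p ^ k`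
  have hdivw : ∀ v : Place Kbar (FF (M * p)), ((p ^ k : ℕ) : ℤ) ∣ v.ord w := by
    intro v
    have h1 := hdiv v
    rw [hzw, v.ord_mul (mul_ne_zero hcst hHm) hw0, v.ord_mul hcst hHm,
      Fermat.Agent.S24.DiffPlace.ord_algebraMap, zero_add] at h1
    have h2 : v.ord (H ^ (p ^ k)) = ((p ^ k : ℕ) : ℤ) * v.ord H := by
      have := v.ord_zpow H ((p ^ k : ℕ) : ℤ)
      rwa [zpow_natCast] at this
    rw [h2] at h1
    exact (Int.dvd_add_right (Dvd.intro _ rfl)).mp h1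
  obtain ⟨f, hf⟩ := hT' τ hτ a ha w hU hdivw
  -- the constant
  obtain ⟨d, hd⟩ := IsAlgClosed.exists_pow_nat_eq (τ c / c ^ a) hr
  refine ⟨cst (M * p) d * h11Theta (M * p) τ a H * f, ?_⟩
  rw [mul_pow, mul_pow, hf, hzw, h13q_theta_mul, h13q_theta_mul, h13q_theta_pow,
    h13q_theta_cst, ← hd, cst, cst, map_pow]

/-- **TOR-GATE-p from the three leaves.** -/
theorem h13q_torGate_of (hS : H13qSmooth) (hN : H13qNode) (hApp : H13qApprox) :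
    H11TorGate :=
  h13q_torGate_of_tor (h13q_tor_of hS hN) hApp

end Fermat.Agent.P6
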