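import Mathlib
import Fermat.Agent.Red.RootLemmas

/-!
# P6 (wave 6, S33), row B2-DEEPGATE-CORE (helper90): roots of ANY exponent modulo deep moduli

`R` a commutative ring, `π : R`, `r : ℕ` ANY exponent (not a unit of `R`: in the application
`r = p ^ k` and `p` is the residue characteristic).  The lemmas of `Red/RootLemmas.lean`
(helper26) need `r` to be a unit; here the hypothesis is replaced by DEEP moduli:
`r² π` for the radicand and `r π` for the roots.

* `h90p_pow_one_add` : `(1 + r π x) ^ r = 1 + r² π (x + π k)`.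
* `h90p_exists_inv_root` : if `u = 1 + r² π b` then for every `n` there is `c = 1 + r π c'`
  with `c ^ r * u = 1 + r² π ^ n y`  (quadratic Newton iteration, no division).
* `h90p_exists_root` : the same for roots: `c ^ r = u (1 + r² π ^ n y)`-form
  `c ^ r - u = r² π ^ n y`.
* `h90p_root_unique` : if `y = 1 + r π b`, `y ^ r = 1 + r² π ^ n e` and `r` is a
  non-zero-divisor, then `y = 1 + r π ^ n g`.
-/

set_option autoImplicit false

namespace Fermat.Agent.P6

open Fermat.Agent.Red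

variable {R : Type*} [CommRing R]

/-- `(1 + r π x) ^ r = 1 + r² π (x + π k)`. -/
theorem h90p_pow_one_add (π : R) (r : ℕ) (x : R) :
    ∃ k : R, (1 + (r : R) * π * x) ^ r = 1 + (r : R) ^ 2 * π * (x + π * k) := by
  obtain ⟨k, hk⟩ := h26_one_add_pow_expand ((r : R) * π * x) r
  exact ⟨x ^ 2 * k, by rw [hk]; ring⟩

/-- `1 + π z` is invertible modulo `π ^ n`. -/
theorem h90p_one_add_inv_mod (π z : R) (n : ℕ) :
    ∃ c d : R, (1 + π * z) * c = 1 + π ^ n * d := by
  obtain ⟨c, d, h⟩ := h26_unit_add_mul_inv_mod π z (q := (1 : R)) isUnit_one n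
  exact ⟨c, d, h⟩

/-- the Newton step for inverse roots, in polynomial form. -/
theorem h90p_inv_step (π ρ P Q c u y k Z : R) (r : ℕ) (hpn : P = π * Q)
    (hy : c ^ r * u = 1 + ρ ^ 2 * P * y)
    (hk : Z ^ r = 1 + ρ * (-(ρ * P * y)) + (-(ρ * P * y)) ^ 2 * k) :
    (c * Z) ^ r * u =
      1 + ρ ^ 2 * (P * π) * (Q * (-(ρ ^ 2 * y ^ 2) + y ^ 2 * k * (1 + ρ ^ 2 * P * y))) := by
  rw [mul_pow]
  linear_combination (Z ^ r) * hy + (1 + ρ ^ 2 * P * y) * hk +
    (ρ ^ 2 * P * (-(ρ ^ 2 * y ^ 2) + y ^ 2 * k * (1 + ρ ^ 2 * P * y))) * hpn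

/-- the Newton step for roots, in polynomial form. -/
theorem h90p_root_step (π ρ P Q c u b y k Z : R) (r : ℕ) (hpn : P = π * Q)
    (hu : u = 1 + ρ ^ 2 * π * b) (hy : c ^ r = u + ρ ^ 2 * P * y)
    (hk : Z ^ r = 1 + ρ * (-(ρ * P * y)) + (-(ρ * P * y)) ^ 2 * k) :
    (c * Z) ^ r =
      u + ρ ^ 2 * (P * π) * (-(ρ ^ 2 * b * y) +
        Q * (-(ρ ^ 2 * y ^ 2) + (u + ρ ^ 2 * P * y) * (y ^ 2 * k))) := by
  rw [mul_pow]
  linear_combination (Z ^ r) * hy + (u + ρ ^ 2 * P * y) * hk +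
    (ρ ^ 2 * P * (-(ρ ^ 2 * y ^ 2) + (u + ρ ^ 2 * P * y) * (y ^ 2 * k))) * hpn -
    (ρ ^ 2 * P * y) * hu

/-- **Existence of deep inverse roots.**  If `u = 1 + r² π b`, then for every `n` there is
`c = 1 + r π c'` with `c ^ r * u = 1 + r² π ^ n y`.  No hypothesis on `r`. -/
theorem h90p_exists_inv_root (π : R) (r : ℕ) (u b : R)
    (hu : u = 1 + (r : R) ^ 2 * π * b) (n : ℕ) :
    ∃ c c' y : R, c = 1 + (r : R) * π * c' ∧ c ^ r * u = 1 + (r : R) ^ 2 * π ^ n * y := by
  rcases Nat.eq_zero_or_pos n with rfl | hn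
  · exact ⟨1, 0, π * b, by ring, by rw [hu]; ring⟩
  induction n, hn using Nat.le_induction with
  | base => exact ⟨1, 0, b, by ring, by rw [hu]; ring⟩
  | succ n hn ih =>
    obtain ⟨c, c', y, hc, hy⟩ := ih
    obtain ⟨k, hk⟩ := h26_one_add_pow_expand (-((r : R) * π ^ n * y)) r
    have hpn : π ^ n = π * π ^ (n - 1) := by
      rw [← pow_succ']
      congr 1
      omega
    refine ⟨c * (1 + -((r : R) * π ^ n * y)),
      c' - (1 + (r : R) * π * c') * (π ^ (n - 1) * y), _, ?_,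
      (pow_succ π n) ▸ h90p_inv_step π (r : R) (π ^ n) (π ^ (n - 1)) c u y k _ r hpn hy hk⟩
    rw [hc]
    nth_rewrite 1 [hpn]
    ring

/-- **Existence of deep roots.**  If `u = 1 + r² π b`, then for every `n` there is
`c = 1 + r π c'` with `c ^ r = u + r² π ^ n y`. -/
theorem h90p_exists_root (π : R) (r : ℕ) (u b : R)
    (hu : u = 1 + (r : R) ^ 2 * π * b) (n : ℕ) :
    ∃ c c' y : R, c = 1 + (r : R) * π * c' ∧ c ^ r = u + (r : R) ^ 2 * π ^ n * y := by
  rcases Nat.eq_zero_or_pos n with rfl | hn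
  · exact ⟨1, 0, -(π * b), by ring, by rw [hu]; ring⟩
  induction n, hn using Nat.le_induction with
  | base => exact ⟨1, 0, -b, by ring, by rw [hu]; ring⟩
  | succ n hn ih =>
    obtain ⟨c, c', y, hc, hy⟩ := ih
    obtain ⟨k, hk⟩ := h26_one_add_pow_expand (-((r : R) * π ^ n * y)) r
    have hpn : π ^ n = π * π ^ (n - 1) := by
      rw [← pow_succ']
      congr 1
      omega
    refine ⟨c * (1 + -((r : R) * π ^ n * y)),
      c' - (1 + (r : R) * π * c') * (π ^ (n - 1) * y), _, ?_,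
      (pow_succ π n) ▸ h90p_root_step π (r : R) (π ^ n) (π ^ (n - 1)) c u b y k _ r hpn hu hy hk⟩
    rw [hc]
    nth_rewrite 1 [hpn]
    ring

/-- **Uniqueness of deep roots.**  If `y = 1 + r π b`, `y ^ r = 1 + r² π ^ n e` and `r` is
cancellable, then `y = 1 + r π ^ n g`. -/
theorem h90p_root_unique (π : R) (r : ℕ)
    (hr : ∀ x z : R, (r : R) * x = (r : R) * z → x = z) (n : ℕ) (y b e : R)
    (hy : y = 1 + (r : R) * π * b) (hpow : y ^ r = 1 + (r : R) ^ 2 * π ^ n * e) :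
    ∃ g : R, y = 1 + (r : R) * π ^ n * g := by
  rcases Nat.eq_zero_or_pos n with rfl | hn
  · exact ⟨π * b, by rw [hy]; ring⟩
  obtain ⟨z, hz⟩ := h26_geom_sum_one_add ((r : R) * π) b r
  obtain ⟨c, d, hcd⟩ := h90p_one_add_inv_mod π z n
  have hfac : y ^ r - 1 = (y - 1) * ((r : R) * (1 + π * z)) := by
    have h2 := mul_geom_sum y r
    rw [← h2, hy]
    rw [hz]
    ring
  -- cancel `r`
  have h1 : (y - 1) * (1 + π * z) = (r : R) * π ^ n * e := by
    apply hr
    have : (r : R) * ((y - 1) * (1 + π * z)) = y ^ r - 1 := by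
      rw [hfac]
      ring
    rw [this, hpow]
    ring
  have hpn : π ^ n = π * π ^ (n - 1) := by
    rw [← pow_succ']
    congr 1
    omega
  refine ⟨e * c - d * (π * b), ?_⟩
  have h2 : (y - 1) * (1 + π ^ n * d) = (r : R) * π ^ n * e * c := by
    rw [← hcd, ← mul_assoc, h1]
  have h3 : y - 1 = (r : R) * π ^ n * e * c - π ^ n * d * (y - 1) := by
    rw [← h2]
    ring
  have h4 : y - 1 = (r : R) * π * b := by
    rw [hy]
    ring
  calc y = 1 + (y - 1) := by ring
    _ = 1 + ((r : R) * π ^ n * e * c - π ^ n * d * (y - 1)) := by rw [← h3]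
    _ = 1 + ((r : R) * π ^ n * e * c - π ^ n * d * ((r : R) * π * b)) := by rw [h4]
    _ = 1 + (r : R) * π ^ n * (e * c - d * (π * b)) := by ring

end Fermat.Agent.P6
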