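import Mathlib
import Fermat.Agent.Red.GateCore2
import Fermat.Agent.P6.H90DeepRoot

/-!
# P6 (wave 6, S33), row B2-DEEPGATE-CORE (helper90): the abstract gate for ANY exponent

Same statement as `h26_gate_core` (`Red/GateCore2.lean`, helper26), but the exponent `r` is
NOT a unit of `O` (in the application `r = p ^ k`, `p` the residue characteristic).  The price
is the depth of the congruences: the function `w` is `≡ 1` modulo `r² π V` and the local-global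
sections `e₀`, `e∞` are `≡ 1` modulo `r π V`.

* `h90pU_of_mul` … : bookkeeping for the sets `1 + π' V`.
* `h90p_approx` : approximation on one chart: from `e ∈ L(B)`, `e ≡ 1 mod r π`, for every `n`
  an `a ∈ L(B)`, `a ≡ 1 mod r π`, with `a ^ r / w ∈ 1 + r² π ^ n B`.
* `h90p_gate_core` : **the deep gate**: `∃ t ≠ 0, t ^ r / w ∈ B₀ ∩ B∞`.

The modulus `r π` separates the `r`-th roots of unity (`v (ζ - 1) ≤ v (p) / (p - 1) < v (r π)`),
so the hypotheses on `e₀`, `e∞` are exactly what fails for a nontrivial toric class.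
-/

set_option autoImplicit false

namespace Fermat.Agent.P6

open Fermat.Agent.Red

variable {O F : Type*} [CommRing O] [Field F] [Algebra O F]

section U

variable {V : Subring F}

/-- `1 + a π V ⊆ 1 + π V` for `a` with image in `V`. -/
theorem h90pU_of_mul (a π : O) (ha : algebraMap O F a ∈ V) {x : F}
    (hx : x ∈ h26U (a * π) V) : x ∈ h26U π V := by
  obtain ⟨v, hv, rfl⟩ := hx
  exact ⟨algebraMap O F a * v, V.mul_mem ha hv, by rw [map_mul]; ring⟩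

theorem h90p_natCast_mem (r : ℕ) : algebraMap O F (r : O) ∈ V := by
  rw [map_natCast]
  exact natCast_mem V r

theorem h90p_hVπ (a π : O) (ha : algebraMap O F a ∈ V) (hVπ : algebraMap O F π ∈ V) :
    algebraMap O F (a * π) ∈ V := by
  rw [map_mul]
  exact V.mul_mem ha hVπ

theorem h90p_hVinv (a π : O) (ha : algebraMap O F a ∈ V)
    (hVinv : ∀ x ∈ V, (1 + algebraMap O F π * x)⁻¹ ∈ V) :
    ∀ x ∈ V, (1 + algebraMap O F (a * π) * x)⁻¹ ∈ V := by
  intro x hx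
  have := hVinv (algebraMap O F a * x) (V.mul_mem ha hx)
  rw [map_mul]
  have e : algebraMap O F a * algebraMap O F π * x = algebraMap O F π * (algebraMap O F a * x) := by
    ring
  rw [e]
  exact this

theorem h90p_hVnt (a π : O) (ha : algebraMap O F a ∈ V)
    (hVnt : ∀ x ∈ V, algebraMap O F π * x ≠ 1) :
    ∀ x ∈ V, algebraMap O F (a * π) * x ≠ 1 := by
  intro x hx h
  apply hVnt (algebraMap O F a * x) (V.mul_mem ha hx)
  rw [← h, map_mul]
  ring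

/-- the `r`-th power of an element of `1 + r π V` lies in `1 + r² π V`. -/
theorem h90pU_pow (π : O) (r : ℕ) (hVπ : algebraMap O F π ∈ V) {x : F}
    (hx : x ∈ h26U ((r : O) * π) V) : x ^ r ∈ h26U ((r : O) ^ 2 * π) V := by
  obtain ⟨v, hv, rfl⟩ := hx
  obtain ⟨k, hk⟩ := h90p_pow_one_add (R := V) ⟨algebraMap O F π, hVπ⟩ r ⟨v, hv⟩
  have hk' := congrArg (Subtype.val) hk
  simp only [Subring.coe_pow, Subring.coe_add, Subring.coe_one, Subring.coe_mul,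
    Subring.coe_natCast] at hk'
  refine ⟨v + algebraMap O F π * (k : F), V.add_mem hv (V.mul_mem hVπ k.2), ?_⟩
  rw [map_mul, map_mul, map_pow, map_natCast, hk']

end U

/-- the coercion of a natural number of a subalgebra. -/
theorem h90p_coe_natCast (B : Subalgebra O F) (r : ℕ) : (((r : ℕ) : B) : F) = (r : F) :=
  map_natCast B.val r

/-- **Deep approximation on one chart.**  From `e ∈ L(B)`, `e ≡ 1 mod r π V`, and
`w ≡ 1 mod r² π V`, we get for every `n` an `a ∈ L(B)`, `a ≡ 1 mod r π V`, with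
`a ^ r / w ∈ 1 + r² π ^ n B`. -/
theorem h90p_approx (π : O) (r : ℕ) (hr0 : 0 < r)
    (V : Subring F) (hVπ : algebraMap O F π ∈ V)
    (hVinv : ∀ x ∈ V, (1 + algebraMap O F π * x)⁻¹ ∈ V)
    (hVnt : ∀ x ∈ V, algebraMap O F π * x ≠ 1)
    (B : Subalgebra O F) (hBV : ∀ x ∈ B, x ∈ V)
    (hroot : ∀ x : F, x ^ r ∈ B → x ∈ B)
    (hqep : ∀ x ∈ V, algebraMap O F π * x ∈ B → x ∈ B)
    (hqr : ∀ x ∈ V, (r : F) * x ∈ B → x ∈ B)
    (w : F) (hwU : w ∈ h26U ((r : O) ^ 2 * π) V)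
    (e : F) (heL : e ^ r * w⁻¹ ∈ B) (heU : e ∈ h26U ((r : O) * π) V) (n : ℕ) :
    ∃ a : F, a ∈ h26L B w r hr0 hroot ∧ a ∈ h26U ((r : O) * π) V ∧
      ∃ α ∈ B, a ^ r * w⁻¹ = 1 + (r : F) ^ 2 * algebraMap O F π ^ n * α := by
  set ϖ : F := algebraMap O F π with hϖ
  have hrV : algebraMap O F (r : O) ∈ V := h90p_natCast_mem r
  have hr2V : algebraMap O F ((r : O) ^ 2) ∈ V := by
    rw [map_pow]
    exact V.pow_mem hrV 2
  have hρV : (r : F) ∈ V := natCast_mem V r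
  -- the moduli `r π` and `r² π`
  have hVπ₁ : algebraMap O F ((r : O) * π) ∈ V := h90p_hVπ _ _ hrV hVπ
  have hVπ₂ : algebraMap O F ((r : O) ^ 2 * π) ∈ V := h90p_hVπ _ _ hr2V hVπ
  have hVinv₂ := h90p_hVinv ((r : O) ^ 2) π hr2V hVinv
  have hVnt₂ := h90p_hVnt ((r : O) ^ 2) π hr2V hVnt
  -- `u = e ^ r / w ≡ 1 mod r² π`
  have huU : e ^ r * w⁻¹ ∈ h26U ((r : O) ^ 2 * π) V :=
    h26U_mul hVπ₂ (h90pU_pow π r hVπ heU) (h26U_inv hVinv₂ hVnt₂ hwU)
  obtain ⟨v, hvV, hv⟩ := h26U_sub_one huU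
  have hv' : e ^ r * w⁻¹ - 1 = (r : F) * ((r : F) * (ϖ * v)) := by
    rw [hv, map_mul, map_pow, map_natCast]
    ring
  have hvB : v ∈ B := by
    apply hqep v hvV
    apply hqr _ (V.mul_mem hVπ hvV)
    apply hqr _ (V.mul_mem hρV (V.mul_mem hVπ hvV))
    rw [← hv']
    exact B.sub_mem heL B.one_mem
  -- work in the ring `B`
  obtain ⟨c, c', γ, hc, hγ⟩ := h90p_exists_inv_root (R := B) (algebraMap O B π) r
    ⟨e ^ r * w⁻¹, heL⟩ ⟨v, hvB⟩ (by
      apply Subtype.ext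
      simp only [Subalgebra.coe_add, Subalgebra.coe_one, Subalgebra.coe_mul,
        Subalgebra.coe_pow, h90p_coe_natCast, Subalgebra.coe_algebraMap]
      rw [← hϖ]
      linear_combination hv') n
  have hc' := congrArg (Subtype.val) hc
  simp only [Subalgebra.coe_add, Subalgebra.coe_one, Subalgebra.coe_mul,
    h90p_coe_natCast, Subalgebra.coe_algebraMap] at hc'
  have hγ' := congrArg (Subtype.val) hγ
  simp only [Subalgebra.coe_add, Subalgebra.coe_one, Subalgebra.coe_mul,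
    Subalgebra.coe_pow, h90p_coe_natCast, Subalgebra.coe_algebraMap] at hγ'
  refine ⟨(c : F) * e, h26_mul_mem_L c.2 heL, ?_, (γ : F), γ.2, ?_⟩
  · refine h26U_mul hVπ₁ ⟨(c' : F), hBV _ c'.2, ?_⟩ heU
    rw [hc', map_mul, map_natCast]
  · rw [mul_pow, mul_assoc]
    exact hγ'

/-- **The deep gate, core form.**  The exponent `r` is any positive integer, nonzero in `F`,
dividing a power of `π` in `O` (rank one); `w ≡ 1 mod r² π V`; the sections `e₀`, `e∞` are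
`≡ 1 mod r π V`. -/
theorem h90p_gate_core
    (π : O) (r : ℕ) (hr0 : 0 < r) (hrF : (r : F) ≠ 0)
    (hrπ : ∃ (k₀ : ℕ) (s : O), π ^ k₀ = (r : O) * s)
    (V : Subring F) (hVπ : algebraMap O F π ∈ V)
    (hVinv : ∀ x ∈ V, (1 + algebraMap O F π * x)⁻¹ ∈ V)
    (hVnt : ∀ x ∈ V, algebraMap O F π * x ≠ 1)
    (B₀ Binf Bm : Subalgebra O F)
    (h0m : B₀ ≤ Bm) (hinfm : Binf ≤ Bm)
    (hB₀V : ∀ x ∈ B₀, x ∈ V) (hBinfV : ∀ x ∈ Binf, x ∈ V)
    (hroot₀ : ∀ x : F, x ^ r ∈ B₀ → x ∈ B₀)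
    (hrootinf : ∀ x : F, x ^ r ∈ Binf → x ∈ Binf)
    (hrootm : ∀ x : F, x ^ r ∈ Bm → x ∈ Bm)
    (hqep₀ : ∀ x ∈ V, algebraMap O F π * x ∈ B₀ → x ∈ B₀)
    (hqepinf : ∀ x ∈ V, algebraMap O F π * x ∈ Binf → x ∈ Binf)
    (hqepm : ∀ x ∈ V, algebraMap O F π * x ∈ Bm → x ∈ Bm)
    (hqr₀ : ∀ x ∈ V, (r : F) * x ∈ B₀ → x ∈ B₀)
    (hqrinf : ∀ x ∈ V, (r : F) * x ∈ Binf → x ∈ Binf)
    (hqrm : ∀ x ∈ V, (r : F) * x ∈ Bm → x ∈ Bm)
    (w : F) (hwU : w ∈ h26U ((r : O) ^ 2 * π) V)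
    (hbdd : ∃ c : ℕ, ∀ f ∈ h26L Bm w r hr0 hrootm,
      (∃ n : ℕ, π ^ n • f ∈ h26L B₀ w r hr0 hroot₀ ⊔ h26L Binf w r hr0 hrootinf) →
        π ^ c • f ∈ h26L B₀ w r hr0 hroot₀ ⊔ h26L Binf w r hr0 hrootinf)
    (e₀ : F) (he₀ : e₀ ^ r * w⁻¹ ∈ B₀) (he₀U : e₀ ∈ h26U ((r : O) * π) V)
    (einf : F) (heinf : einf ^ r * w⁻¹ ∈ Binf) (heinfU : einf ∈ h26U ((r : O) * π) V) :
    ∃ t : F, t ≠ 0 ∧ t ^ r * w⁻¹ ∈ B₀ ∧ t ^ r * w⁻¹ ∈ Binf := by
  set ϖ : F := algebraMap O F π with hϖ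
  set ρ : F := (r : F) with hρ
  have hrV : algebraMap O F (r : O) ∈ V := h90p_natCast_mem r
  have hr2V : algebraMap O F ((r : O) ^ 2) ∈ V := by
    rw [map_pow]
    exact V.pow_mem hrV 2
  have hρV : ρ ∈ V := natCast_mem V r
  have hVπ₁ : algebraMap O F ((r : O) * π) ∈ V := h90p_hVπ _ _ hrV hVπ
  have hVπ₂ : algebraMap O F ((r : O) ^ 2 * π) ∈ V := h90p_hVπ _ _ hr2V hVπ
  have hVinv₁ := h90p_hVinv (r : O) π hrV hVinv
  have hVnt₁ := h90p_hVnt (r : O) π hrV hVnt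
  have hVinv₂ := h90p_hVinv ((r : O) ^ 2) π hr2V hVinv
  have hVnt₂ := h90p_hVnt ((r : O) ^ 2) π hr2V hVnt
  have hπ₁ : algebraMap O F ((r : O) * π) = ρ * ϖ := by
    rw [map_mul, map_natCast]
  have hw : w ≠ 0 := h26U_ne_zero hVnt₂ hwU
  set L₀ := h26L B₀ w r hr0 hroot₀ with hL₀
  set Linf := h26L Binf w r hr0 hrootinf with hLinf
  set Lm := h26L Bm w r hr0 hrootm with hLm
  have hL0m : L₀ ≤ Lm := h26_L_mono h0m
  have hLinfm : Linf ≤ Lm := h26_L_mono hinfm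
  obtain ⟨c, hc⟩ := hbdd
  obtain ⟨k₀, s, hs⟩ := hrπ
  -- approximations modulo `r² π ^ (c + 1)`
  obtain ⟨a, haL, haU, α, hα, haeq⟩ := h90p_approx π r hr0 V hVπ hVinv hVnt B₀ hB₀V hroot₀
    hqep₀ hqr₀ w hwU e₀ he₀ he₀U (c + 1)
  obtain ⟨b, hbL, hbU, β, hβ, hbeq⟩ := h90p_approx π r hr0 V hVπ hVinv hVnt Binf hBinfV
    hrootinf hqepinf hqrinf w hwU einf heinf heinfU (c + 1)
  rw [← hϖ, ← hρ] at haeq hbeq
  have ha0 : a ≠ 0 := h26U_ne_zero hVnt₁ haU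
  have hb0 : b ≠ 0 := h26U_ne_zero hVnt₁ hbU
  -- the overlap: `a - b ∈ r π ^ (c+1) Lm`
  have hover : ∃ f ∈ Lm, a - b = ρ * ϖ ^ (c + 1) * f := by
    set A : F := a ^ r * w⁻¹ with hA
    set Bv : F := b ^ r * w⁻¹ with hBv
    have hAm : A ∈ Bm := h0m haL
    have hBvm : Bv ∈ Bm := hinfm hbL
    have hBv0 : Bv ≠ 0 := mul_ne_zero (pow_ne_zero _ hb0) (inv_ne_zero hw)
    set y : F := a * Bv * b⁻¹ with hy
    have hp1 : r = (r - 1) + 1 := by omega
    have hyp : y ^ r = A * Bv ^ (r - 1) := by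
      have h1 : Bv ^ r = Bv ^ (r - 1) * Bv := by
        conv_lhs => rw [hp1, pow_succ]
      rw [hy, mul_pow, mul_pow, h1, inv_pow, hA]
      have hbp : b ^ r = Bv * w := by
        rw [hBv]; field_simp
      rw [hbp]
      field_simp
    have hyBm : y ∈ Bm := by
      apply hrootm
      rw [hyp]
      exact Bm.mul_mem hAm (Bm.pow_mem hBvm _)
    have hBvU : Bv ∈ h26U ((r : O) * π) V :=
      h26U_mul hVπ₁ (h26U_pow hVπ₁ hbU r)
        (h26U_inv hVinv₁ hVnt₁ (h90pU_of_mul (r : O) ((r : O) * π) hrV (by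
          have e : (r : O) * ((r : O) * π) = (r : O) ^ 2 * π := by ring
          rw [e]
          exact hwU)))
    have hyU : y ∈ h26U ((r : O) * π) V :=
      h26U_mul hVπ₁ (h26U_mul hVπ₁ haU hBvU) (h26U_inv hVinv₁ hVnt₁ hbU)
    obtain ⟨v, hvV, hv⟩ := h26U_sub_one hyU
    rw [hπ₁] at hv
    have hvBm : v ∈ Bm := by
      apply hqepm v hvV
      apply hqrm _ (V.mul_mem hVπ hvV)
      have e : ρ * (ϖ * v) = y - 1 := by rw [hv]; ring
      rw [e]
      exact Bm.sub_mem hyBm Bm.one_mem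
    -- `r² π ^ (c+1) ∣ y ^ r - 1` in `Bm`
    have hkBm : ∃ κ ∈ Bm, y ^ r = 1 + ρ ^ 2 * ϖ ^ (c + 1) * κ := by
      obtain ⟨k', hk'⟩ := h26_one_add_pow_factor (R := Bm)
        (((r : ℕ) : Bm) ^ 2 * (algebraMap O Bm π) ^ (c + 1) * ⟨β, hinfm hβ⟩) (r - 1)
      have hk'' := congrArg (Subtype.val) hk'
      simp only [Subalgebra.coe_add, Subalgebra.coe_mul, Subalgebra.coe_pow, Subalgebra.coe_one,
        h90p_coe_natCast, Subalgebra.coe_algebraMap] at hk''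
      rw [← hϖ, ← hρ] at hk''
      refine ⟨α + β * (k' : F) + ρ ^ 2 * ϖ ^ (c + 1) * α * (β * (k' : F)), ?_, ?_⟩
      · exact Bm.add_mem (Bm.add_mem (h0m hα) (Bm.mul_mem (hinfm hβ) k'.2))
          (Bm.mul_mem (Bm.mul_mem (Bm.mul_mem (Bm.pow_mem (natCast_mem Bm r) 2)
            (Bm.pow_mem (Bm.algebraMap_mem π) _)) (h0m hα))
            (Bm.mul_mem (hinfm hβ) k'.2))
      · rw [hyp, haeq, hbeq, hk'']
        ring
    obtain ⟨κ, hκ, hκeq⟩ := hkBm
    have hrBm : ∀ x z : Bm, ((r : ℕ) : Bm) * x = ((r : ℕ) : Bm) * z → x = z := by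
      intro x z h
      apply Subtype.ext
      have h' := congrArg (Subtype.val) h
      simp only [Subalgebra.coe_mul, h90p_coe_natCast] at h'
      exact mul_left_cancel₀ hrF h'
    obtain ⟨γ, hγ⟩ := h90p_root_unique (R := Bm) (algebraMap O Bm π) r hrBm (c + 1)
      ⟨y, hyBm⟩ ⟨v, hvBm⟩ ⟨κ, hκ⟩ (by
        apply Subtype.ext
        simp only [Subalgebra.coe_add, Subalgebra.coe_mul, Subalgebra.coe_one,
          h90p_coe_natCast, Subalgebra.coe_algebraMap]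
        rw [← hϖ, ← hρ]
        linear_combination hv) (by
        apply Subtype.ext
        simp only [Subalgebra.coe_add, Subalgebra.coe_mul, Subalgebra.coe_pow,
          Subalgebra.coe_one, h90p_coe_natCast, Subalgebra.coe_algebraMap]
        exact hκeq)
    have hγ' : y = 1 + ρ * ϖ ^ (c + 1) * (γ : F) := by
      have := congrArg (Subtype.val) hγ
      simpa only [Subalgebra.coe_add, Subalgebra.coe_mul, Subalgebra.coe_pow,
        Subalgebra.coe_one, h90p_coe_natCast, Subalgebra.coe_algebraMap] using this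
    refine ⟨(γ : F) * b - (ρ * β) * a, ?_, ?_⟩
    · exact Lm.sub_mem (h26_mul_mem_L γ.2 (hLinfm hbL))
        (h26_mul_mem_L (Bm.mul_mem (natCast_mem Bm r) (hinfm hβ)) (hL0m haL))
    · have h1 : a * Bv - b = b * (y - 1) := by
        rw [hy]; field_simp
      have h2 : a * Bv - a = a * (ρ ^ 2 * ϖ ^ (c + 1) * β) := by
        rw [hbeq]; ring
      have h3 : y - 1 = ρ * ϖ ^ (c + 1) * (γ : F) := by
        rw [hγ']; ring
      calc a - b = (a * Bv - b) - (a * Bv - a) := by ring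
        _ = b * (ρ * ϖ ^ (c + 1) * (γ : F)) - a * (ρ ^ 2 * ϖ ^ (c + 1) * β) := by
            rw [h1, h2, h3]
        _ = ρ * ϖ ^ (c + 1) * ((γ : F) * b - (ρ * β) * a) := by ring
  -- primitivity of `a`
  have hprim : ∀ b' ∈ L₀, a ≠ ((r : O) * π) • b' := by
    intro b' hb' hab
    have hpp : (ρ * ϖ) ^ r = (ρ * ϖ) * (ρ * ϖ) ^ (r - 1) := by
      rw [← pow_succ']; congr 1; omega
    have h1 : a ^ r * w⁻¹ = (ρ * ϖ) * ((ρ * ϖ) ^ (r - 1) * (b' ^ r * w⁻¹)) := by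
      rw [hab, Algebra.smul_def, hπ₁, mul_pow, hpp]
      ring
    have hAU : a ^ r * w⁻¹ ∈ h26U ((r : O) * π) V :=
      h26U_mul hVπ₁ (h26U_pow hVπ₁ haU r)
        (h26U_inv hVinv₁ hVnt₁ (h90pU_of_mul (r : O) ((r : O) * π) hrV (by
          have e : (r : O) * ((r : O) * π) = (r : O) ^ 2 * π := by ring
          rw [e]
          exact hwU)))
    obtain ⟨v, hvV, hv⟩ := h26U_sub_one hAU
    rw [hπ₁] at hv
    have hmem : (ρ * ϖ) ^ (r - 1) * (b' ^ r * w⁻¹) ∈ V :=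
      V.mul_mem (V.pow_mem (V.mul_mem hρV hVπ) _) (hB₀V _ hb')
    apply hVnt₁ ((ρ * ϖ) ^ (r - 1) * (b' ^ r * w⁻¹) - v) (V.sub_mem hmem hvV)
    rw [hπ₁, mul_sub, ← h1, ← hv]; ring
  -- Mittag-Leffler
  obtain ⟨f, hfLm, hf⟩ := hover
  have h1 : π ^ c • f ∈ L₀ ⊔ Linf := by
    apply hc f hfLm
    refine ⟨k₀ + (c + 1), ?_⟩
    have e : π ^ (k₀ + (c + 1)) • f = s • (a - b) := by
      rw [hf, pow_add, hs, Algebra.smul_def, Algebra.smul_def, map_mul, map_mul, map_pow,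
        map_natCast, ← hϖ, ← hρ]
      ring
    rw [e]
    exact Submodule.smul_mem _ _
      (Submodule.sub_mem _ (Submodule.mem_sup_left haL) (Submodule.mem_sup_right hbL))
  obtain ⟨β₀, hβ₀, βi, hβi, hsum⟩ := Submodule.mem_sup.mp h1
  have hab : a - b = ((r : O) * π) • (β₀ + βi) := by
    rw [hf, hsum, Algebra.smul_def, Algebra.smul_def, hπ₁, map_pow, ← hϖ, pow_succ]
    ring
  refine ⟨a - ((r : O) * π) • β₀, ?_, ?_, ?_⟩
  · intro h0
    exact hprim β₀ hβ₀ (sub_eq_zero.mp h0)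
  · exact L₀.sub_mem haL (L₀.smul_mem _ hβ₀)
  · have : a - ((r : O) * π) • β₀ = b + ((r : O) * π) • βi := by
      have h3 : a = b + ((r : O) * π) • (β₀ + βi) := by rw [← hab]; abel
      rw [smul_add] at h3
      calc a - ((r : O) * π) • β₀
          = (b + (((r : O) * π) • β₀ + ((r : O) * π) • βi)) - ((r : O) * π) • β₀ := by
            rw [← h3]
        _ = b + ((r : O) * π) • βi := by abel
    rw [this]
    exact Linf.add_mem hbL (Linf.smul_mem _ hβi)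

end Fermat.Agent.P6
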