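import Mathlib
import Fermat.Agent.LGC.GateSSLoc
import Fermat.Agent.P6.H90DeepGate

/-!
# P6 (wave 6, S33), row B2-DEEPGATE-CORE (helper90): the deep gate from local data

`h90p_gate_asm_loc` is `h63_gate_asm_loc` (`LGC/GateSSLoc.lean`, helper63) for ANY exponent `r`
(nonzero in `A`, NOT a unit: `r = p ^ k`, `p` the residue characteristic), with deep moduli:

* `w ∈ 1 + r² π V`;
* the local datum at every closed point `𝔫 ⊇ 𝔪_A B` of the special fibre of the two charts is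
  `∃ g ∈ 1 + r π V, ∃ s ∉ 𝔫, s · w / g ^ r ∈ B ∧ s · g ^ r / w ∈ B`.

Conclusion: `∃ t ≠ 0, t ^ r / w ∈ B₀ ∩ B∞`.
The proof is the assembly of `h63_gate_asm_loc` with the modulus `r π` for the local data and
the deep core `h90p_gate_core`.
-/

set_option autoImplicit false
set_option linter.unusedSectionVars false

open WithZero IsLocalRing

namespace Fermat.Agent.P6

open Fermat.Agent.Red Fermat.Agent.LGC

section Asm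

variable {A : Type*} [CommRing A] [IsDomain A] [ValuationRing A]
  {F : Type*} [Field F] [Algebra A F]

/-- **Abstract assembly of the deep gate from local data.** -/
theorem h90p_gate_asm_loc
    (hAF : Function.Injective (algebraMap A F))
    (harch : ∀ c ∈ maximalIdeal A, c ≠ 0 → ∀ a : A, a ≠ 0 → ∃ k : ℕ, a ∣ c ^ k)
    (V : Subring F)
    (hVnt : ∀ m ∈ maximalIdeal A, ∀ x ∈ V, algebraMap A F m * x ≠ 1)
    (j : F) (hj : j ≠ 0) (B₀ Binf Bm : Subalgebra A F)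
    (hj₀ : j ∈ B₀) (hjinf : j⁻¹ ∈ Binf) (h0m : B₀ ≤ Bm) (hinfm : Binf ≤ Bm)
    (hm0 : ∀ x ∈ Bm, ∃ k : ℕ, j ^ k * x ∈ B₀)
    (hminf : ∀ x ∈ Bm, ∃ k : ℕ, j⁻¹ ^ k * x ∈ Binf)
    (r : ℕ) (hr : 0 < r) (hrA : (r : A) ≠ 0)
    (hroot₀ : ∀ x : F, x ^ r ∈ B₀ → x ∈ B₀)
    (hrootinf : ∀ x : F, x ^ r ∈ Binf → x ∈ Binf)
    (hrootm : ∀ x : F, x ^ r ∈ Bm → x ∈ Bm)
    (hqepm : ∀ a : A, algebraMap A F a ≠ 0 → ∀ x ∈ V, a • x ∈ Bm → x ∈ Bm)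
    {ι₀ ι₁ : Type*} (v₀ : ι₀ → Valuation F ℤᵐ⁰) (v₁ : ι₁ → Valuation F ℤᵐ⁰)
    (hC₀ : H26Chart B₀ V v₀) (hC₁ : H26Chart Binf V v₁)
    (hgen₀ : ∀ 𝔫 : Ideal B₀, 𝔫.IsMaximal → ¬ (maximalIdeal A).map (algebraMap A B₀) ≤ 𝔫 →
      ∀ i k, h26Centered B₀ v₀ 𝔫 i → h26Centered B₀ v₀ 𝔫 k → i = k)
    (hgen₁ : ∀ 𝔫 : Ideal Binf, 𝔫.IsMaximal →
      ¬ (maximalIdeal A).map (algebraMap A Binf) ≤ 𝔫 →
      ∀ i k, h26Centered Binf v₁ 𝔫 i → h26Centered Binf v₁ 𝔫 k → i = k)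
    (S : Finset F) (hS : ∀ s ∈ S, s ∈ B₀)
    (hfin : ∀ x ∈ B₀, x ∈ Submodule.span A {y : F | ∃ a : ℕ, ∃ s ∈ S, y = j ^ a * s})
    (w : F) (hw0 : w ≠ 0)
    (hrw₀ : ∀ i, ∃ n : ℤ, v₀ i w = exp (-((r : ℤ) * n)))
    (hrw₁ : ∀ i, ∃ n : ℤ, v₁ i w = exp (-((r : ℤ) * n)))
    (π : A) (hπ : π ∈ maximalIdeal A) (hπ0 : π ≠ 0)
    (hwU : w ∈ h26U ((r : A) ^ 2 * π) V)
    (hloc₀ : ∀ 𝔫 : Ideal B₀, 𝔫.IsMaximal → (maximalIdeal A).map (algebraMap A B₀) ≤ 𝔫 →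
      ∃ g ∈ h26U ((r : A) * π) V, ∃ s : B₀, s ∉ 𝔫 ∧
        (s : F) * (w * (g ^ r)⁻¹) ∈ B₀ ∧ (s : F) * (g ^ r * w⁻¹) ∈ B₀)
    (hloc₁ : ∀ 𝔫 : Ideal Binf, 𝔫.IsMaximal → (maximalIdeal A).map (algebraMap A Binf) ≤ 𝔫 →
      ∃ g ∈ h26U ((r : A) * π) V, ∃ s : Binf, s ∉ 𝔫 ∧
        (s : F) * (w * (g ^ r)⁻¹) ∈ Binf ∧ (s : F) * (g ^ r * w⁻¹) ∈ Binf) :
    ∃ t : F, t ≠ 0 ∧ t ^ r * w⁻¹ ∈ B₀ ∧ t ^ r * w⁻¹ ∈ Binf := by
  classical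
  have hAV : ∀ a : A, algebraMap A F a ∈ V := fun a => hC₀.hBV _ (B₀.algebraMap_mem a)
  -- the modulus `r π`
  have hπ₁ : (r : A) * π ∈ maximalIdeal A := Ideal.mul_mem_left _ _ hπ
  have hπ₁0 : (r : A) * π ≠ 0 := mul_ne_zero hrA hπ0
  have hL₀ := h63_local_all_loc hC₀ harch hVnt hgen₀ w r hrw₀ ((r : A) * π) hπ₁ hloc₀
  have hL₁ := h63_local_all_loc hC₁ harch hVnt hgen₁ w r hrw₁ ((r : A) * π) hπ₁ hloc₁
  have hπF : algebraMap A F π ≠ 0 := fun h => hπ0 (hAF (by rw [h, map_zero]))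
  have hrF' : algebraMap A F (r : A) ≠ 0 := fun h => hrA (hAF (by rw [h, map_zero]))
  have hrF : (r : F) ≠ 0 := by
    rw [map_natCast] at hrF'
    exact hrF'
  have hVπ : algebraMap A F π ∈ V := hAV π
  have hVinv : ∀ x ∈ V, (1 + algebraMap A F π * x)⁻¹ ∈ V := hC₀.hVunit π hπ
  have hVntπ : ∀ x ∈ V, algebraMap A F π * x ≠ 1 := hVnt π hπ
  -- the elements `e₀`, `e∞`
  have hmVstable : ∀ (B : Subalgebra A F), (∀ x ∈ B, x ∈ V) →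
      ∀ b ∈ B, ∀ x ∈ h26mV ((r : A) * π) V, b * x ∈ h26mV ((r : A) * π) V := by
    rintro B hBV b hb _ ⟨y, hy, rfl⟩
    exact ⟨b * y, mul_mem (hBV b hb) hy, by ring⟩
  obtain ⟨e₀, he₀, he₀m⟩ := h26_exists_e B₀ w r hr hroot₀ (h26mV ((r : A) * π) V)
    (hmVstable B₀ hC₀.hBV)
    (fun 𝔫 h𝔫 => h26_local_for_e harch ((r : A) * π) hπ₁0 w r hr hL₀ 𝔫 h𝔫)
  obtain ⟨einf, heinf, heinfm⟩ := h26_exists_e Binf w r hr hrootinf (h26mV ((r : A) * π) V)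
    (hmVstable Binf hC₁.hBV)
    (fun 𝔫 h𝔫 => h26_local_for_e harch ((r : A) * π) hπ₁0 w r hr hL₁ 𝔫 h𝔫)
  have he₀U : e₀ ∈ h26U ((r : A) * π) V := by
    obtain ⟨y, hy, h⟩ := he₀m
    exact ⟨y, hy, by rw [← h]; ring⟩
  have heinfU : einf ∈ h26U ((r : A) * π) V := by
    obtain ⟨y, hy, h⟩ := heinfm
    exact ⟨y, hy, by rw [← h]; ring⟩
  -- generators of `L₀`
  obtain ⟨T, hT, hgen⟩ := h26_L_gen_of_local B₀ j w hw0 r hr hroot₀ S hS hfin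
    (fun 𝔫 h𝔫 => h26_local_for_L ((r : A) * π) w r hr hL₀ 𝔫 h𝔫)
  -- `H¹` is finitely generated up to `L₀ + L∞`
  obtain ⟨G, hG, hGle⟩ := h26_H1_fg (h26L B₀ w r hr hroot₀) (h26L Binf w r hr hrootinf)
    (h26L Bm w r hr hrootm) j hj
    (fun f hf => h26_mul_mem_L hj₀ hf) (fun f hf => h26_mul_mem_L hjinf hf) (h26_L_mono h0m)
    (fun f hf => h26_L_exists_pow j hj₀ hm0 hf)
    (fun f hf => h26_L_exists_pow j⁻¹ hjinf hminf hf) T hT hgen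
  -- bounded torsion
  obtain ⟨k, hk⟩ := h26_pow_torsion_bound π hπ0 (harch π hπ hπ0)
    (h26L B₀ w r hr hroot₀ ⊔ h26L Binf w r hr hrootinf) G hG
  -- `r` divides a power of `π`
  have hrπ : ∃ (k₀ : ℕ) (s : A), π ^ k₀ = (r : A) * s := by
    obtain ⟨k₀, s, hs⟩ := harch π hπ hπ0 (r : A) hrA
    exact ⟨k₀, s, hs⟩
  -- the gate
  refine h90p_gate_core π r hr hrF hrπ V hVπ hVinv hVntπ B₀ Binf Bm h0m hinfm hC₀.hBV
    hC₁.hBV hroot₀ hrootinf hrootm ?_ ?_ ?_ ?_ ?_ ?_ w hwU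
    ⟨k, fun f hf hn => hk f (hGle hf) hn⟩ e₀ he₀ he₀U einf heinf heinfU
  · intro x hx h
    exact hC₀.hQEP π hπF x hx (by rw [Algebra.smul_def]; exact h)
  · intro x hx h
    exact hC₁.hQEP π hπF x hx (by rw [Algebra.smul_def]; exact h)
  · intro x hx h
    exact hqepm π hπF x hx (by rw [Algebra.smul_def]; exact h)
  · intro x hx h
    exact hC₀.hQEP (r : A) hrF' x hx (by rw [Algebra.smul_def, map_natCast]; exact h)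
  · intro x hx h
    exact hC₁.hQEP (r : A) hrF' x hx (by rw [Algebra.smul_def, map_natCast]; exact h)
  · intro x hx h
    exact hqepm (r : A) hrF' x hx (by rw [Algebra.smul_def, map_natCast]; exact h)

end Asm

end Fermat.Agent.P6
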