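import Fermat.Agent.S35.H13TorAsm
import Fermat.Agent.P6.H90DeepAsm

/-!
# P6 (wave 6, S33), block B2-TOR (helper13): the end of the deep gate at a level

`h13q_gate_end` : the `p`-power analogue of `S35.h13x_gate_end`.  For ANY exponent `r > 0`
(for instance `r = p ^ k`, `p` the residue characteristic), a function `W ≡ 1` modulo
`r² π · V` whose divisor is divisible by `r` and which has the local datum of the deep gate
(local generators `≡ 1` modulo `r π · V`) at all closed points of the special fibre of the two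
charts `jB N`, `(jB N)⁻¹` is an `r`-th power.

The proof is `S35.h13x_gate_end` verbatim, with the deep abstract gate `h90p_gate_asm_loc`
(helper90) instead of `h63_gate_asm_loc`.
-/

set_option autoImplicit false
set_option linter.unusedSectionVars false
set_option linter.style.haveILetI false

open AlgebraicCurve ModularCurve WithZero IsLocalRing

noncomputable section

namespace Fermat.Agent.P6

open Fermat.Agent.S37 Fermat.Agent.Red Fermat.Agent.Red.GG Fermat.Agent.Red.GV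
  Fermat.Agent.Red.ModelO Fermat.Agent.LGC Fermat.Agent.S35

/-- the natural numbers are nonzero in a valuation subring of `ℚ̄`. -/
theorem h13q_natCast_ne_zero (A : ValuationSubring Kbar) (r : ℕ) (hr : 0 < r) :
    ((r : ℕ) : A) ≠ 0 := by
  intro h
  have h1 : (((r : ℕ) : A) : Kbar) = 0 := by rw [h]; rfl
  have h2 : ((r : ℕ) : Kbar) = 0 := by
    rw [← h1]
    norm_cast
  exact hr.ne' (by exact_mod_cast h2)

set_option maxHeartbeats 1600000 in
/-- **the deep gate from the local data**, chart `jB N`. -/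
theorem h13q_gate_end (N : ℕ) [NeZero N] {ℓ : ℕ} (hℓ : ℓ.Prime)
    (A : ValuationSubring Kbar) (hA : A.LiesOverPrime ℓ) (V : Subring (FF N))
    (hC₀ : H26Chart (chart N A (jB N)) V (chartVal N (jB N)))
    (hC₁ : H26Chart (chart N A (jB N)⁻¹) V (chartVal N (jB N)⁻¹))
    (hnt : ∀ m ∈ maximalIdeal A, ∀ x ∈ V, algebraMap A (FF N) m * x ≠ 1)
    (hfin : IfaceFinite N A (jB N))
    (hgen₀ : IfaceGeneric N A (jB N)) (hgen₁ : IfaceGeneric N A (jB N)⁻¹)
    (r : ℕ) (hr : 0 < r) (W : FF N)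
    (hrw : ∀ v : Place Kbar (FF N), (r : ℤ) ∣ v.ord W)
    (π : A) (hπ : π ∈ maximalIdeal A) (hπ0 : π ≠ 0)
    (hWU : W ∈ h26U (((r : ℕ) : A) ^ 2 * π) V)
    (hloc₀ : LocDatum N A (jB N) V (((r : ℕ) : A) * π) W r)
    (hloc₁ : LocDatum N A (jB N)⁻¹ V (((r : ℕ) : A) * π) W r) :
    ∃ f : FF N, f ^ r = W := by
  have hr0 : r ≠ 0 := hr.ne'
  have hrA : ((r : ℕ) : A) ≠ 0 := h13q_natCast_ne_zero A r hr
  have hπ₂ : ((r : ℕ) : A) ^ 2 * π ∈ maximalIdeal A := Ideal.mul_mem_left _ _ hπ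
  have hw0 : W ≠ 0 := h26U_ne_zero (hnt _ hπ₂) hWU
  obtain ⟨S, hS, hfin'⟩ := span_of_ifaceFinite N A (jB N) hfin
  have hjV : jB N ∈ V := hC₀.hBV _ (h85_jB_mem_modelFin N A)
  obtain ⟨t, ht0, ht₀, htinf⟩ := h90p_gate_asm_loc (algebraMap_injective_FF N A)
    (harch_of_liesOver A hℓ hA) V hnt (jB N) (h85_jB_ne_zero N)
    (chart N A (jB N)) (chart N A (jB N)⁻¹) (chartMid N A)
    (h85_jB_mem_modelFin N A) (h85_jB_inv_mem_modelInf N A)
    (h85_modelFin_le_modelMid N A) (h85_modelInf_le_modelMid N A)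
    (fun x hx => h85_modelMid_scale_fin N A hx) (fun x hx => h85_modelMid_scale_inf N A hx)
    r hr hrA
    (fun x hx => h85_modelAt_root_closed N A _ hr0 hx)
    (fun x hx => h85_modelAt_root_closed N A _ hr0 hx)
    (fun x hx => h85_modelMid_root_closed N A hr0 hx)
    (fun a ha x hx hax => h85_modelMid_qep N A V hjV (algebraMap A (FF N) a)
      (fun y hy hay => hC₀.hQEP a ha y hy (by rw [Algebra.smul_def]; exact hay)) hx
      (by rw [Algebra.smul_def] at hax; exact hax))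
    (chartVal N (jB N)) (chartVal N (jB N)⁻¹) hC₀ hC₁ hgen₀ hgen₁
    S hS hfin' W hw0 (exists_val_eq N (jB N) W hw0 r hrw) (exists_val_eq N (jB N)⁻¹ W hw0 r hrw)
    π hπ hπ0 hWU hloc₀ hloc₁
  -- `t ^ r / W` is a constant
  obtain ⟨a, -, ha⟩ := h85_modelFin_inf_modelInf N A ht₀ htinf
  have ha0 : a ≠ 0 := by
    rintro rfl
    rw [cst, map_zero] at ha
    exact mul_ne_zero (pow_ne_zero _ ht0) (inv_ne_zero hw0) ha
  obtain ⟨b, hb⟩ := IsAlgClosed.exists_pow_nat_eq a hr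
  have hb0 : b ≠ 0 := by
    rintro rfl
    rw [zero_pow hr0] at hb
    exact ha0 hb.symm
  have hcb0 : cst N b ≠ 0 := by
    simpa only [cst, ne_eq, map_eq_zero] using hb0
  refine ⟨t * (cst N b)⁻¹, ?_⟩
  have h1 : cst N b ^ r = t ^ r * W⁻¹ := by
    rw [ha, ← hb]
    exact (map_pow _ _ _).symm
  rw [mul_pow, inv_pow, h1]
  field_simp

/-- the deep gate from the local data, for a coordinate `t = jB N`. -/
theorem h13q_gate_end' (N : ℕ) [NeZero N] {ℓ : ℕ} (hℓ : ℓ.Prime)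
    (A : ValuationSubring Kbar) (hA : A.LiesOverPrime ℓ) (V : Subring (FF N))
    (t : FF N) (ht : t = jB N)
    (hC₀ : H26Chart (chart N A t) V (chartVal N t))
    (hC₁ : H26Chart (chart N A t⁻¹) V (chartVal N t⁻¹))
    (hnt : ∀ m ∈ maximalIdeal A, ∀ x ∈ V, algebraMap A (FF N) m * x ≠ 1)
    (hfin : IfaceFinite N A t)
    (hgen₀ : IfaceGeneric N A t) (hgen₁ : IfaceGeneric N A t⁻¹)
    (r : ℕ) (hr : 0 < r) (W : FF N)
    (hrw : ∀ v : Place Kbar (FF N), (r : ℤ) ∣ v.ord W)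
    (π : A) (hπ : π ∈ maximalIdeal A) (hπ0 : π ≠ 0)
    (hWU : W ∈ h26U (((r : ℕ) : A) ^ 2 * π) V)
    (hloc₀ : LocDatum N A t V (((r : ℕ) : A) * π) W r)
    (hloc₁ : LocDatum N A t⁻¹ V (((r : ℕ) : A) * π) W r) :
    ∃ f : FF N, f ^ r = W := by
  subst ht
  exact h13q_gate_end N hℓ A hA V hC₀ hC₁ hnt hfin hgen₀ hgen₁ r hr W hrw π hπ hπ0 hWU
    hloc₀ hloc₁

end Fermat.Agent.P6
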