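import Fermat.Agent.S35.H13TorNode
import Fermat.Agent.P6.H12RootApprox

/-!
# Wave 6 (S33), block B2-TOR, row B2-T3-NODE (helper59): the deep twisted datum at a node

Vocabulary of `S35/H13TorNode.lean` (helper13): `A` a valuation ring, `F` a field over `A`,
`B ⊆ F` a chart, `V = W∞ ∩ W₀` the semistable Gauss ring, `𝔫` a node of the special fibre.
`τ` an automorphism of `F` (an element of the inertia group) which preserves `W∞`, `W₀` and the
set of places centered at `𝔫`, acts on the constants through `θ : A →+* A`, and acts on the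
`r`-th roots of unity by `η ↦ η ^ e`.  Here `r` is ANY positive integer (`r = p ^ k` is not a
unit of `A`), and `c ∈ 𝔪_A` is the depth (`c = r ϖ` for the deep gate `h67g_gate_asm_chart`).

* `H59nNormalDeep` : the **deep normal form** of `u` at the node (the conclusion of the deep
  version of `h13x_node_normal`, row B2-T3-NODE-NF): `u = ε · g₁ ^ r`, `ε` a unit at the node,
  `g₁ ≡ 1` modulo `c W∞`, `g₁ ≡ κ` modulo `c W₀` with `κ ∈ A^×` and `r c ∣ κ ^ r - 1`.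
* `h59n_theta_const` : `τ κ / κ ^ e ≡ 1` modulo `c` (the cocycle `κ` is a root of unity modulo
  `c`, on which `τ` acts by the `e`-th power; from `h12z_theta_unit` of helper12).
* `h59n_node_theta` : **the deep twisted datum**: for `u` with a deep normal form, the function
  `z = τ u / u ^ e` is, locally at `𝔫`, of the form `g ^ r · (unit of B_𝔫)` with `g ≡ 1`
  modulo `c V`: the hypothesis `hL₀` / `hL₁` of the deep gate for `z` at the node `𝔫`.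
-/

set_option autoImplicit false
set_option linter.unusedSectionVars false
set_option linter.unusedVariables false
set_option linter.style.haveILetI false

open WithZero IsLocalRing

namespace Fermat.Agent.P6

open Fermat.Agent.Red Fermat.Agent.LGC Fermat.Agent.S35

section Node

variable {A : Type*} [CommRing A] [IsDomain A] [ValuationRing A]
  {F : Type*} [Field F] [Algebra A F]
  {B : Subalgebra A F} {V : Subring F} {ι : Type*} {v : ι → Valuation F ℤᵐ⁰}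

/-- **the deep normal form at a node**: `u = ε · g₁ ^ r` with `ε` a unit at the node,
`g₁ ≡ 1` modulo `c W∞`, `g₁ = κ ε₀` with `ε₀ ≡ 1` modulo `c W₀`, `κ` a unit constant which is
an `r`-th root of unity modulo `r c`. -/
def H59nNormalDeep (B : Subalgebra A F) (V : Subring F) (v : ι → Valuation F ℤᵐ⁰)
    (Winf W0 : Subring F) (𝔫 : Ideal B) (u : F) (r : ℕ) (c : A) : Prop :=
  ∃ (g₁ ε ε0 : F) (κ : A),
    u = ε * g₁ ^ r ∧ (∀ k, h26Centered B v 𝔫 k → v k ε = 1) ∧ ε ∈ V ∧ ε⁻¹ ∈ V ∧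
    g₁ ∈ h26U c Winf ∧ IsUnit κ ∧ ε0 ∈ h26U c W0 ∧ g₁ = algebraMap A F κ * ε0 ∧
    (r : A) * c ∣ κ ^ r - 1

/-- the twist of the cocycle: `τ κ / κ ^ e ∈ 1 + c W` for a unit constant `κ` which is an
`r`-th root of unity modulo `r c`, if `τ` acts on the `r`-th roots of unity by the `e`-th
power. -/
theorem h59n_theta_const (W : Subring F) (hAW : ∀ a : A, algebraMap A F a ∈ W)
    (τ : F ≃+* F) (θ : A →+* A) (hτθ : ∀ a : A, τ (algebraMap A F a) = algebraMap A F (θ a))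
    (e r : ℕ) (hr : 0 < r) {ζ : A} (hζ : IsPrimitiveRoot ζ r)
    (hθζ : ∀ η : A, η ^ r = 1 → θ η = η ^ e)
    (c : A) (hθc : c ∣ θ c) (κ : A) (hκ : IsUnit κ) (h : (r : A) * c ∣ κ ^ r - 1) :
    τ (algebraMap A F κ) * ((algebraMap A F κ) ^ e)⁻¹ ∈ h26U c W := by
  obtain ⟨x, hx⟩ := h12z_theta_unit hr hζ θ e hθζ κ c hκ hθc h
  obtain ⟨κ', hκ'⟩ := hκ.exists_right_inv
  have h1 : algebraMap A F κ * algebraMap A F κ' = 1 := by rw [← map_mul, hκ', map_one]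
  have h0 : algebraMap A F κ ≠ 0 := left_ne_zero_of_mul_eq_one h1
  refine ⟨algebraMap A F x, hAW x, ?_⟩
  rw [hτθ, hx, map_mul, map_pow, map_add, map_one, map_mul]
  have h2 : (algebraMap A F κ) ^ e ≠ 0 := pow_ne_zero _ h0
  field_simp

/-- **The deep twisted datum at a node**: the local hypothesis of the deep gate for
`z = τ u / u ^ e`, `u` with a deep normal form at the node `𝔫`. -/
theorem h59n_node_theta
    (hC : H26Chart B V v) (hAF : Function.Injective (algebraMap A F))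
    (Winf W0 : Subring F)
    (hVWinf : ∀ x ∈ V, x ∈ Winf) (hVW0 : ∀ x ∈ V, x ∈ W0)
    (hWV : ∀ x : F, x ∈ Winf → x ∈ W0 → x ∈ V)
    (hinvinf : ∀ π ∈ maximalIdeal A, ∀ x ∈ Winf, (1 + algebraMap A F π * x)⁻¹ ∈ Winf)
    (hinv0 : ∀ π ∈ maximalIdeal A, ∀ x ∈ W0, (1 + algebraMap A F π * x)⁻¹ ∈ W0)
    (hntinf : ∀ π ∈ maximalIdeal A, ∀ x ∈ Winf, algebraMap A F π * x ≠ 1)
    (hnt0 : ∀ π ∈ maximalIdeal A, ∀ x ∈ W0, algebraMap A F π * x ≠ 1)
    (𝔫 : Ideal B) [h𝔫 : 𝔫.IsPrime]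
    (τ : F ≃+* F) (θ : A →+* A) (hτθ : ∀ a : A, τ (algebraMap A F a) = algebraMap A F (θ a))
    (e : ℕ)
    (hτinf : ∀ x ∈ Winf, τ x ∈ Winf) (hτ0 : ∀ x ∈ W0, τ x ∈ W0)
    (hperm : ∀ h : F, (∀ k, h26Centered B v 𝔫 k → v k h = 1) →
      ∀ k, h26Centered B v 𝔫 k → v k (τ h) = 1)
    (r : ℕ) (hr : 0 < r) {ζ : A} (hζ : IsPrimitiveRoot ζ r)
    (hθζ : ∀ η : A, η ^ r = 1 → θ η = η ^ e)
    (c : A) (hc : c ∈ maximalIdeal A) (hc0 : c ≠ 0) (hθc : c ∣ θ c)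
    (u : F) (hu : u ≠ 0) (hNF : H59nNormalDeep B V v Winf W0 𝔫 u r c) :
    ∃ g ∈ h26U c V, ∃ s : B, s ∉ 𝔫 ∧
      (s : F) * (τ u * (u ^ e)⁻¹ * (g ^ r)⁻¹) ∈ B ∧
      (s : F) * (g ^ r * (τ u * (u ^ e)⁻¹)⁻¹) ∈ B := by
  classical
  have hAV : ∀ a : A, algebraMap A F a ∈ V := fun a => hC.hBV _ (B.algebraMap_mem a)
  have hAinf : ∀ a : A, algebraMap A F a ∈ Winf := fun a => hVWinf _ (hAV a)
  have hA0 : ∀ a : A, algebraMap A F a ∈ W0 := fun a => hVW0 _ (hAV a)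
  have hτV : ∀ x ∈ V, τ x ∈ V := fun x hx => hWV _ (hτinf x (hVWinf x hx)) (hτ0 x (hVW0 x hx))
  obtain ⟨g₁, ε, ε0, κ, hue, hval_e, heV, heV', hg₁U, hκ, hε0U, hg₁κ, hκr⟩ := hNF
  have hcinf : algebraMap A F c ∈ Winf := hAinf c
  have hcW0 : algebraMap A F c ∈ W0 := hA0 c
  -- `τ` maps `1 + c W` into itself
  have hτU : ∀ (W : Subring F), (∀ a : A, algebraMap A F a ∈ W) → (∀ x ∈ W, τ x ∈ W) →
      ∀ f ∈ h26U c W, τ f ∈ h26U c W := by
    rintro W hAW hW f ⟨w, hw, rfl⟩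
    obtain ⟨q, hq⟩ := hθc
    refine ⟨algebraMap A F q * τ w, W.mul_mem (hAW q) (hW w hw), ?_⟩
    rw [map_add, map_one, map_mul, hτθ, hq, map_mul]
    ring
  set g : F := τ g₁ * (g₁ ^ e)⁻¹ with hg
  -- first branch
  have hginf : g ∈ h26U c Winf :=
    h26U_mul hcinf (hτU Winf hAinf hτinf g₁ hg₁U)
      (h26U_inv (hinvinf c hc) (hntinf c hc) (h26U_pow hcinf hg₁U e))
  -- second branch
  obtain ⟨κ', hκ'⟩ := hκ.exists_right_inv
  have hκF : algebraMap A F κ * algebraMap A F κ' = 1 := by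
    rw [← map_mul, hκ', map_one]
  have hκF0 : algebraMap A F κ ≠ 0 := left_ne_zero_of_mul_eq_one hκF
  have hε00 : ε0 ≠ 0 := h26U_ne_zero (hnt0 c hc) hε0U
  have hconst : τ (algebraMap A F κ) * ((algebraMap A F κ) ^ e)⁻¹ ∈ h26U c W0 :=
    h59n_theta_const W0 hA0 τ θ hτθ e r hr hζ hθζ c hθc κ hκ hκr
  have hg0 : g ∈ h26U c W0 := by
    have h1 : g = (τ (algebraMap A F κ) * ((algebraMap A F κ) ^ e)⁻¹) *
        (τ ε0 * (ε0 ^ e)⁻¹) := by
      rw [hg, hg₁κ, map_mul, mul_pow]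
      have h3 : (algebraMap A F κ) ^ e ≠ 0 := pow_ne_zero _ hκF0
      have h4 : ε0 ^ e ≠ 0 := pow_ne_zero _ hε00
      field_simp
    rw [h1]
    exact h26U_mul hcW0 hconst (h26U_mul hcW0 (hτU W0 hA0 hτ0 ε0 hε0U)
      (h26U_inv (hinv0 c hc) (hnt0 c hc) (h26U_pow hcW0 hε0U e)))
  have hgU : g ∈ h26U c V := h13x_U_inter hAF Winf W0 hWV c hc0 hginf hg0
  -- the unit `D = τ ε / ε ^ e`
  set D : F := τ ε * (ε ^ e)⁻¹ with hD
  have he0 : ε ≠ 0 := by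
    intro h0
    rw [h0, zero_mul] at hue
    exact hu hue
  have hg₁0 : g₁ ≠ 0 := h26U_ne_zero (hntinf c hc) hg₁U
  have hDV : D ∈ V := by
    rw [hD, ← inv_pow]
    exact V.mul_mem (hτV ε heV) (V.pow_mem heV' e)
  have hDV' : D⁻¹ ∈ V := by
    rw [hD, mul_inv, inv_inv, ← map_inv₀]
    exact V.mul_mem (hτV _ heV') (V.pow_mem heV e)
  have hDval : ∀ k, h26Centered B v 𝔫 k → v k D = 1 := by
    intro k hk
    rw [hD, map_mul, map_inv₀, map_pow, hperm ε hval_e k hk, hval_e k hk]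
    simp
  obtain ⟨s, hs, hs1, hs2⟩ := h75s_unit_aux hC.hfin hC.hint hC.hB hC.hBV hC.hQEP 𝔫 D hDV hDV'
    hDval
  have hτg₁0 : τ g₁ ≠ 0 := (map_ne_zero τ).mpr hg₁0
  have hτe0 : τ ε ≠ 0 := (map_ne_zero τ).mpr he0
  have hkey : τ u * (u ^ e)⁻¹ * (g ^ r)⁻¹ = D := by
    rw [hD, hg, hue, map_mul, map_pow, mul_pow, mul_pow, inv_pow]
    have h1 : ε ^ e ≠ 0 := pow_ne_zero _ he0
    have h2 : (g₁ ^ r) ^ e ≠ 0 := pow_ne_zero _ (pow_ne_zero _ hg₁0)
    have h3 : τ g₁ ^ r ≠ 0 := pow_ne_zero _ hτg₁0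
    have h4 : (g₁ ^ e) ^ r ≠ 0 := pow_ne_zero _ (pow_ne_zero _ hg₁0)
    have h5 : (g₁ ^ r) ^ e = (g₁ ^ e) ^ r := by rw [← pow_mul, ← pow_mul, mul_comm]
    rw [h5]
    field_simp
  have hkey' : g ^ r * (τ u * (u ^ e)⁻¹)⁻¹ = D⁻¹ := by
    rw [← hkey, mul_inv (τ u * (u ^ e)⁻¹) ((g ^ r)⁻¹), inv_inv, mul_comm]
  refine ⟨g, hgU, s, hs, ?_, ?_⟩
  · rw [hkey]; exact hs1
  · rw [hkey']; exact hs2

end Node

end Fermat.Agent.P6
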