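import Fermat.Agent.P6.H13TorSmoothP
import Fermat.Agent.P6.H59NodeTheta
import Fermat.Agent.S35.H13TorNodeSt

/-!
# P6 (wave 6, S33), block B2-TOR (helper13): the node leaf from the deep normal form

* `H13qNodeNF` : the **abstract deep normal form at a node** (frozen statement; rows
  B2-T3-NODE-NF / -NF16 / -NODE-CONTENT): under the hypotheses of `S35.h13x_node_normal`
  (plus rank one, `W∞`, `W₀` valuation rings, `(r : A) ≠ 0`), a function `u ≡ 1` modulo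
  `r c · V` with orders divisible by `r` has the deep normal form `H59nNormalDeep … u r c`
  of helper59 (`P6/H59NodeTheta.lean`).
* `h13q_node_of_nf : H13qNodeNF → H13qNode` : the level instantiation (chart `jSS M p`,
  `V = ssV`, `W∞ = h85cWinf`, `W₀ = h85cW0`, `τ` in the inertia group acting on the constants
  through its restriction to `A`, PERM from `ifaceSSPerm_of_chart`) of helper59's twisted datum
  `h59n_node_theta`; the constant of `H13qNode` is `c₀ = r²`.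
* `h13q_torGate_of_nf : H13qNodeNF → H13qApprox → H11TorGate`.
-/

set_option autoImplicit false
set_option linter.unusedSectionVars false
set_option linter.style.haveILetI false

open AlgebraicCurve ModularCurve WithZero IsLocalRing

noncomputable section

namespace Fermat.Agent.P6

open Fermat.Agent.S37 Fermat.Agent.S37.GalI Fermat.Agent.Red Fermat.Agent.Red.GG
  Fermat.Agent.Red.GV Fermat.Agent.Red.ModelO Fermat.Agent.Red.Kron Fermat.Agent.LGC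
  Fermat.Agent.S35

universe u v w

/-- **the abstract deep normal form at a node** (frozen). -/
def H13qNodeNF : Prop :=
  ∀ {A : Type u} [CommRing A] [IsDomain A] [ValuationRing A]
    {F : Type v} [Field F] [Algebra A F]
    {B : Subalgebra A F} {V : Subring F} {ι : Type w} {val : ι → Valuation F ℤᵐ⁰},
    H26Chart B V val →
    Function.Injective (algebraMap A F) →
    (∀ c ∈ maximalIdeal A, c ≠ 0 → ∀ a : A, a ≠ 0 → ∃ k : ℕ, a ∣ c ^ k) →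
    ∀ (Winf W0 : Subring F),
    (∀ x ∈ V, x ∈ Winf) → (∀ x ∈ V, x ∈ W0) →
    (∀ x : F, x ∈ Winf → x ∈ W0 → x ∈ V) →
    (∀ x : F, x ∈ Winf ∨ x⁻¹ ∈ Winf) → (∀ x : F, x ∈ W0 ∨ x⁻¹ ∈ W0) →
    (∀ π ∈ maximalIdeal A, ∀ x ∈ Winf, (1 + algebraMap A F π * x)⁻¹ ∈ Winf) →
    (∀ π ∈ maximalIdeal A, ∀ x ∈ W0, (1 + algebraMap A F π * x)⁻¹ ∈ W0) →
    (∀ π ∈ maximalIdeal A, ∀ x ∈ Winf, algebraMap A F π * x ≠ 1) →
    (∀ π ∈ maximalIdeal A, ∀ x ∈ W0, algebraMap A F π * x ≠ 1) →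
    ∀ (𝔫 : Ideal B), 𝔫.IsMaximal → (maximalIdeal A).map (algebraMap A B) ≤ 𝔫 →
    (∀ b : B, b ∉ 𝔫 → ((b : F))⁻¹ ∈ Winf) → (∀ b : B, b ∉ 𝔫 → ((b : F))⁻¹ ∈ W0) →
    ∀ (x y c : B), x ∈ 𝔫 → y ∈ 𝔫 → c ∉ 𝔫 → ∀ a : A, a ≠ 0 →
      x * y = algebraMap A B a * c →
      ((x : F))⁻¹ ∈ Winf → ((y : F))⁻¹ ∈ W0 →
      (∀ z ∈ 𝔫, ∃ s, s ∉ 𝔫 ∧
        s * z ∈ Ideal.span {x, y} ⊔ (maximalIdeal A).map (algebraMap A B)) →
      (∀ i, h26Centered B val 𝔫 i → ∃ φ : B →ₐ[A] A,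
        (∀ b : B, φ b = 0 ↔ val i (b : F) < 1) ∧ (RingHom.ker (φ : B →+* A)).FG) →
    ∀ (f : F), f ≠ 0 → ∀ (r : ℕ), 0 < r → ((r : ℕ) : A) ≠ 0 →
      (∀ i, ∃ n : ℤ, val i f = exp (-((r : ℤ) * n))) →
    ∀ c₁ : A, c₁ ∈ maximalIdeal A → c₁ ≠ 0 → f ∈ h26U (((r : ℕ) : A) * c₁) V →
      H59nNormalDeep B V val Winf W0 𝔫 f r c₁

/-- roots of unity lie in every valuation subring. -/
theorem h13q_root_mem (A : ValuationSubring Kbar) (r : ℕ) (hr : 0 < r) (z : Kbar)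
    (hz : z ^ r = 1) : z ∈ A := by
  have h1 : z ^ r ∈ A := by rw [hz]; exact A.one_mem
  rw [← A.valuation_le_one_iff] at h1 ⊢
  rw [map_pow] at h1
  exact (pow_le_one_iff hr.ne').1 h1

section Level

variable (A : ValuationSubring Kbar) (M : ℕ) {ℓ : ℕ} [NeZero M] [NeZero ℓ]

/-- the restriction to `A` of an element of the decomposition group. -/
def h13qTheta {τ : GQ} (hd : τ ∈ A.decompositionSubgroup ℚ) : A →+* A :=
  RingHom.restrict (τ : Kbar →+* Kbar) A A (fun _ hx => Fermat.Agent.Red.KR.decomp_apply_mem hd hx)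

theorem h13qTheta_coe {τ : GQ} (hd : τ ∈ A.decompositionSubgroup ℚ) (a : A) :
    ((h13qTheta A hd a : A) : Kbar) = τ (a : Kbar) := rfl

set_option maxHeartbeats 1600000 in
/-- **the deep twisted datum at a node of the finite chart**, from the deep normal form. -/
theorem h13q_node_at (hNF : H13qNodeNF.{0, 0, 0})
    (hℓ : ℓ.Prime) (hM : ¬ ℓ ∣ M) (_haux : auxLevel ℓ ∣ M) (hA : A.LiesOverPrime ℓ)
    (𝔫 : Ideal (chart (M * ℓ) A (jSS M ℓ))) (h𝔫 : 𝔫.IsMaximal)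
    (hle : mExt A M ℓ (jSS M ℓ) ≤ 𝔫) (hnode : TorNodeAt A M ℓ hℓ hM hA (jSS M ℓ) 𝔫)
    (τ : GQ) (hτ : τ ∈ A.inertiaSubgroupIn ℚ) (r : ℕ) (hr : 0 < r) (a : ℕ)
    (hcyc : ∀ ζ : Kbar, ζ ^ r = 1 → τ ζ = ζ ^ a)
    (π : A) (hπ : π ∈ maximalIdeal A) (hπ0 : π ≠ 0) (w : FF (M * ℓ))
    (hwU : w ∈ h26U (((r : ℕ) : A) ^ 2 * π) (ssV A M ℓ))
    (hrw : ∀ i, ∃ n : ℤ, chartVal (M * ℓ) (jSS M ℓ) i w = exp (-((r : ℤ) * n))) :
    h13qDatumAt (M * ℓ) A (jSS M ℓ) (ssV A M ℓ) (((r : ℕ) : A) * π)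
      (h11Theta (M * ℓ) τ a w) r 𝔫 := by
  classical
  have hd := h13q_inertia_le_decomp hτ
  have hC₀ : IfaceSSChart A M ℓ (jSS M ℓ) := h85s_ifaceSSChart_fin A M ℓ hℓ hM hA
  have hNt : IfaceSSNt A M ℓ := h85s_ifaceSSNt A M ℓ hℓ hM hA
  have hF₀ : IfaceFinite (M * ℓ) A (jSS M ℓ) := h71_finite_fin' hℓ hM hA
  have hS₀ : IfaceSSSection A M ℓ (jSS M ℓ) := h85s_ifaceSSSection_of A M ℓ _ hF₀
  have hPerm : IfaceSSPerm A M ℓ (jSS M ℓ) := ifaceSSPerm_of_chart hℓ hM hA hC₀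
  have hAF := algebraMap_injective_FF (M * ℓ) A
  have harch := harch_of_liesOver A hℓ hA
  have hrA : ((r : ℕ) : A) ≠ 0 := h13q_natCast_ne_zero A r hr
  have hc₁ : ((r : ℕ) : A) * π ∈ maximalIdeal A := Ideal.mul_mem_left _ _ hπ
  have hc₁0 : ((r : ℕ) : A) * π ≠ 0 := mul_ne_zero hrA hπ0
  have hwU' : w ∈ h26U (((r : ℕ) : A) * (((r : ℕ) : A) * π)) (ssV A M ℓ) := by
    have e : ((r : ℕ) : A) * (((r : ℕ) : A) * π) = ((r : ℕ) : A) ^ 2 * π := by ring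
    rw [e]
    exact hwU
  have hw0 : w ≠ 0 :=
    h26U_ne_zero (hNt _ (Ideal.mul_mem_left _ (((r : ℕ) : A) ^ 2) hπ)) hwU
  -- the two Gauss valuation rings
  set Winf : Subring (FF (M * ℓ)) := (h85cWinf A M ℓ hℓ hA).toSubring with hWinf
  set W0 : Subring (FF (M * ℓ)) := (h85cW0 A M ℓ hℓ hM hA).toSubring with hW0def
  have hVWinf : ∀ x ∈ ssV A M ℓ, x ∈ Winf := fun x hx => h85c_ssV_le_Winf A M ℓ hℓ hA hx
  have hVW0 : ∀ x ∈ ssV A M ℓ, x ∈ W0 := fun x hx => h85c_ssV_le_W0 A M ℓ hℓ hM hA hx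
  have hWV : ∀ x : FF (M * ℓ), x ∈ Winf → x ∈ W0 → x ∈ ssV A M ℓ :=
    h85c_hWV A M ℓ hℓ hM hA
  have hvrinf : ∀ x : FF (M * ℓ), x ∈ Winf ∨ x⁻¹ ∈ Winf :=
    fun x => (h85cWinf A M ℓ hℓ hA).mem_or_inv_mem x
  have hvr0 : ∀ x : FF (M * ℓ), x ∈ W0 ∨ x⁻¹ ∈ W0 :=
    fun x => (h85cW0 A M ℓ hℓ hM hA).mem_or_inv_mem x
  have hntinf : ∀ m ∈ maximalIdeal A, ∀ x ∈ Winf, algebraMap A (FF (M * ℓ)) m * x ≠ 1 :=
    fun m hm x hx => h13x_nonunit_mul_ne_one (h85cWinf A M ℓ hℓ hA)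
      (h85c_cst_mem_Winf_nonunits A M ℓ hℓ hA ((GG.mem_maximalIdeal_iff A m).mp hm)) hx
  have hnt0 : ∀ m ∈ maximalIdeal A, ∀ x ∈ W0, algebraMap A (FF (M * ℓ)) m * x ≠ 1 :=
    fun m hm x hx => h13x_nonunit_mul_ne_one (h85cW0 A M ℓ hℓ hM hA)
      (h85c_cst_mem_W0_nonunits A M ℓ hℓ hM hA ((GG.mem_maximalIdeal_iff A m).mp hm)) hx
  have hinvinf := h13x_inv_of_vr Winf hvrinf hntinf
  have hinv0 := h13x_inv_of_vr W0 hvr0 hnt0
  -- the node datum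
  obtain ⟨hboth, x, hx, y, hy, c, hc, a₀, ha₀, hxy, hprin, hxinf, hy0⟩ := hnode
  have hninf : ∀ b : chart (M * ℓ) A (jSS M ℓ), b ∉ 𝔫 → ((b : FF (M * ℓ)))⁻¹ ∈ Winf :=
    fun b hb => by
      by_contra hcon
      exact hb (hboth.1 b hcon)
  have hn0 : ∀ b : chart (M * ℓ) A (jSS M ℓ), b ∉ 𝔫 → ((b : FF (M * ℓ)))⁻¹ ∈ W0 :=
    fun b hb => by
      by_contra hcon
      exact hb (hboth.2 b hcon)
  -- the deep normal form
  have hnf : H59nNormalDeep (chart (M * ℓ) A (jSS M ℓ)) (ssV A M ℓ)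
      (chartVal (M * ℓ) (jSS M ℓ)) Winf W0 𝔫 w r (((r : ℕ) : A) * π) :=
    hNF hC₀ hAF harch Winf W0 hVWinf hVW0 hWV hvrinf hvr0 hinvinf hinv0 hntinf hnt0 𝔫 h𝔫 hle
      hninf hn0 x y c hx hy hc a₀ ha₀ hxy hxinf hy0 hprin
      (fun i hi => hS₀ i 𝔫 h𝔫 hle hi) w hw0 r hr hrA hrw (((r : ℕ) : A) * π) hc₁ hc₁0 hwU'
  -- the automorphism
  set T : FF (M * ℓ) ≃+* FF (M * ℓ) := SemilinearAut.toRingAut (gal (M * ℓ) τ) with hT
  have hTapp : ∀ z : FF (M * ℓ), T z = gal (M * ℓ) τ • z := fun z => rfl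
  have hTθ : ∀ b : A, T (algebraMap A (FF (M * ℓ)) b) =
      algebraMap A (FF (M * ℓ)) (h13qTheta A hd b) := by
    intro b
    rw [hTapp]
    exact gal_smul_cst τ (b : Kbar)
  have hTinf : ∀ z ∈ Winf, T z ∈ Winf := fun z hz =>
    (h85t_gal_mem_Winf_iff A M ℓ hℓ hA hd _).mpr hz
  have hT0 : ∀ z ∈ W0, T z ∈ W0 := fun z hz =>
    (h85t_gal_mem_W0_iff A M ℓ hℓ hM hA hd _).mpr hz
  -- a primitive root of unity in `A`
  haveI : NeZero (((r : ℕ) : ℚ)) := ⟨by exact_mod_cast hr.ne'⟩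
  obtain ⟨ζ, hζ⟩ := HasEnoughRootsOfUnity.exists_primitiveRoot Kbar r
  have hζA : ζ ∈ A := h13q_root_mem A r hr ζ hζ.pow_eq_one
  have hζ' : IsPrimitiveRoot (⟨ζ, hζA⟩ : A) r :=
    (IsPrimitiveRoot.coe_submonoidClass_iff (N := A) (ζ := (⟨ζ, hζA⟩ : A))).mp hζ
  have hθζ : ∀ η : A, η ^ r = 1 → h13qTheta A hd η = η ^ a := by
    intro η hη
    apply Subtype.ext
    rw [h13qTheta_coe]
    have h1 : (η : Kbar) ^ r = 1 := by
      have := congrArg (fun z : A => (z : Kbar)) hη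
      simpa using this
    rw [hcyc (η : Kbar) h1]
    simp
  have hθc : ((r : ℕ) : A) * π ∣ h13qTheta A hd (((r : ℕ) : A) * π) := by
    have hcK : ((((r : ℕ) : A) * π : A) : Kbar) ≠ 0 := fun h => hc₁0 (Subtype.ext h)
    obtain ⟨hu, -⟩ := h75q_inertia_div_mem A hτ ((((r : ℕ) : A) * π : A) : Kbar) hcK
    refine ⟨⟨_, hu⟩, ?_⟩
    apply Subtype.ext
    rw [h13qTheta_coe]
    show τ ((((r : ℕ) : A) * π : A) : Kbar) = ((((r : ℕ) : A) * π : A) : Kbar) *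
      (τ ((((r : ℕ) : A) * π : A) : Kbar) / ((((r : ℕ) : A) * π : A) : Kbar))
    field_simp
  haveI h𝔫p : 𝔫.IsPrime := h𝔫.isPrime
  obtain ⟨g, hg, s, hs, h1, h2⟩ := h59n_node_theta hC₀ hAF Winf W0 hVWinf hVW0 hWV hinvinf hinv0
    hntinf hnt0 𝔫 T (h13qTheta A hd) hTθ a hTinf hT0
    (fun h hh k hk => hPerm τ hτ 𝔫 h𝔫 hle h hh k hk) r hr hζ' hθζ (((r : ℕ) : A) * π) hc₁ hc₁0
    hθc w hw0 hnf
  refine ⟨g, hg, s, hs, ?_, ?_⟩
  · unfold h11Theta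
    rw [div_eq_mul_inv]
    exact h1
  · unfold h11Theta
    rw [div_eq_mul_inv]
    exact h2

end Level

/-- **T3**: the node leaf from the abstract deep normal form. -/
theorem h13q_node_of_nf (hNF : H13qNodeNF.{0, 0, 0}) : H13qNode := by
  intro p hp _ M _ hM haux
  haveI : NeZero p := ⟨hp.ne_zero⟩
  intro A hA k
  have hr : 0 < p ^ k := pow_pos hp.pos k
  have hrA : ((p ^ k : ℕ) : A) ≠ 0 := h13q_natCast_ne_zero A _ hr
  refine ⟨((p ^ k : ℕ) : A) ^ 2, pow_ne_zero 2 hrA, ?_⟩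
  intro 𝔫 h𝔫 hle hnode τ hτ a ha π hπ hπ0 w hwU hrw
  exact h13q_node_at A M hNF hp hM haux hA 𝔫 h𝔫 hle hnode τ hτ (p ^ k) hr a ha π hπ hπ0 w hwU hrw

/-- **TOR-GATE-p from the abstract deep normal form at a node and the weak approximation.** -/
theorem h13q_torGate_of_nf (hNF : H13qNodeNF.{0, 0, 0}) (hApp : H13qApprox) : H11TorGate :=
  h13q_torGate_of_node (h13q_node_of_nf hNF) hApp

end Fermat.Agent.P6
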