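import Mathlib
import Fermat.Agent.Red.LocalAll

/-!
# P6 (wave 6, S33), row B2-LOC-SMOOTH (helper91): the DEEP local gate at a smooth closed point

Setting of `Red/LocalGate.lean` (helper26): `A` a valuation ring, `F` a field, `B ⊆ F` a chart,
`V ⊆ F` the Gauss ring, `v : ι → Valuation F ℤᵐ⁰` the places which are finite on the chart, with
the axioms `H26Chart B V v`; `𝔫 ⊇ 𝔪_A B` a closed point of the special fibre at which
`𝔫 = (t) + 𝔪_A B` locally (smoothness), with sections `φ i` at the places centred at `𝔫`.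

The local gate `h26_local_gate` of P-RED produces, for `w ≡ 1 mod π V` all of whose orders are
divisible by `r`, the generator `g = ∏ (1 - t(P_i)/t) ^ (n_i)` with `w / g ^ r` a unit of `B_𝔫`
and `g ≡ 1 mod π V` for the *shallow* moduli `π ∣ t(P_i)`.

Here the exponent `r` need not be a unit of `A` (`r = p ^ n`, residue characteristic `p`) and
the congruence is *deep*:

* `h91q_local_gate_deep` : if `w ≡ 1 mod (r c) V` (any `c ∈ 𝔪_A`, `c ≠ 0`), then the same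
  generator satisfies `g ≡ 1 mod c V`.

Proof (content induction on the Weierstrass polynomials, no completion): let
`N = ∏_{n_i > 0} (X - c_i) ^ (n_i)`, `D = ∏_{n_i < 0} (X - c_i) ^ (- n_i)` (`c_i = t(P_i)`), monic
of the same degree.  The local factorisation gives `s N(t)^r = b w D(t)^r` with `s, b ∈ B`,
`s ∉ 𝔫`; by QEP `s N(t)^r - b D(t)^r ∈ r c B`.
(I) `h91q_weierstrass` : then `N^r ≡ D^r mod r c A[X]` coefficientwise;
(II) `h91q_root_content` (Gauss lemma over `A`) : then `N ≡ D mod c A[X]`.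
Hence `g - 1 = (N(t) - D(t)) / D(t) ∈ c V`.

* `h91q_local_all_deep` : the same at all closed points of a chart outside an exceptional set
  (the shape of `LGC.h63_local_all_ss`, with the deep modulus).
-/

set_option autoImplicit false
set_option linter.unusedSectionVars false

open WithZero IsLocalRing Polynomial

namespace Fermat.Agent.P6

open Fermat.Agent.Red

/-! ### Contents of polynomials over a valuation ring -/

section Content

variable {A : Type*} [CommRing A] [IsDomain A] [ValuationRing A]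

/-- a nonempty finite family in a valuation ring has a member dividing all members. -/
theorem h91q_exists_dvd_all {α : Type*} (T : Finset α) (hT : T.Nonempty) (c : α → A) :
    ∃ i ∈ T, ∀ j ∈ T, c i ∣ c j := by
  classical
  induction T using Finset.induction_on with
  | empty => exact absurd hT (by simp)
  | insert a T ha ih =>
    rcases T.eq_empty_or_nonempty with rfl | hne
    · refine ⟨a, by simp, fun j hj => ?_⟩
      have : j = a := by simpa using hj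
      rw [this]
    · obtain ⟨i, hi, hdiv⟩ := ih hne
      rcases ValuationRing.dvd_total (c i) (c a) with h | h
      · refine ⟨i, Finset.mem_insert_of_mem hi, fun j hj => ?_⟩
        rcases Finset.mem_insert.mp hj with rfl | hj
        · exact h
        · exact hdiv j hj
      · refine ⟨a, Finset.mem_insert_self a T, fun j hj => ?_⟩
        rcases Finset.mem_insert.mp hj with rfl | hj
        · exact dvd_rfl
        · exact h.trans (hdiv j hj)

/-- **content of a nonzero polynomial**: `f = π g` with `π ≠ 0` and `g` having a coefficient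
equal to one. -/
theorem h91q_content (f : A[X]) (hf : f ≠ 0) :
    ∃ (π : A) (g : A[X]), π ≠ 0 ∧ f = C π * g ∧ ∃ j, g.coeff j = 1 := by
  have hne : f.support.Nonempty := by
    rw [Finset.nonempty_iff_ne_empty, Ne, Polynomial.support_eq_empty]
    exact hf
  obtain ⟨i, hi, hdiv⟩ := h91q_exists_dvd_all f.support hne f.coeff
  have hπ0 : f.coeff i ≠ 0 := Polynomial.mem_support_iff.mp hi
  have hall : ∀ j, f.coeff i ∣ f.coeff j := by
    intro j
    by_cases hj : j ∈ f.support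
    · exact hdiv j hj
    · rw [Polynomial.notMem_support_iff.mp hj]
      exact dvd_zero _
  obtain ⟨g, hg⟩ := (Polynomial.C_dvd_iff_dvd_coeff _ _).mpr hall
  refine ⟨f.coeff i, g, hπ0, hg, i, ?_⟩
  have h1 : f.coeff i = f.coeff i * g.coeff i := by
    conv_lhs => rw [hg, coeff_C_mul]
  exact mul_left_cancel₀ hπ0 (by rw [mul_one]; exact h1.symm)

/-- a polynomial has a unit coefficient iff its reduction is nonzero. -/
theorem h91q_unit_coeff_iff (q : A[X]) :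
    (∃ j, IsUnit (q.coeff j)) ↔ q.map (residue A) ≠ 0 := by
  constructor
  · rintro ⟨j, hj⟩ h0
    have h1 : (q.map (residue A)).coeff j = 0 := by rw [h0, coeff_zero]
    rw [coeff_map, residue_eq_zero_iff] at h1
    exact (mem_maximalIdeal _).mp h1 hj
  · intro h
    by_contra hcon
    push Not at hcon
    apply h
    ext j
    rw [coeff_map, coeff_zero, residue_eq_zero_iff]
    exact (mem_maximalIdeal _).mpr (hcon j)

/-- **Gauss lemma**: the product of two polynomials with a unit coefficient has a unit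
coefficient. -/
theorem h91q_gauss (f g : A[X]) (hf : ∃ j, IsUnit (f.coeff j)) (hg : ∃ j, IsUnit (g.coeff j)) :
    ∃ j, IsUnit ((f * g).coeff j) := by
  rw [h91q_unit_coeff_iff] at hf hg ⊢
  rw [Polynomial.map_mul]
  exact mul_ne_zero hf hg

/-- dichotomy: either `c` divides all coefficients of `f`, or `f = π g` with `g` primitive and
`c = π c'`, `c'` a nonunit. -/
theorem h91q_content_dichotomy (f : A[X]) (c : A) (h : ¬ ∀ j, c ∣ f.coeff j) :
    ∃ (π c' : A) (g : A[X]), π ≠ 0 ∧ f = C π * g ∧ (∃ j, g.coeff j = 1) ∧ c = π * c' ∧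
      c' ∈ maximalIdeal A := by
  have hf : f ≠ 0 := by
    rintro rfl
    exact h fun j => by rw [coeff_zero]; exact dvd_zero _
  obtain ⟨π, g, hπ0, hfg, j, hj⟩ := h91q_content f hf
  have hnd : ¬ c ∣ π := by
    intro hd
    apply h
    intro k
    rw [hfg, coeff_C_mul]
    exact Dvd.dvd.mul_right hd _
  rcases ValuationRing.dvd_total π c with ⟨c', hc'⟩ | hd
  · refine ⟨π, c', g, hπ0, hfg, ⟨j, hj⟩, hc', ?_⟩
    rw [mem_maximalIdeal, mem_nonunits_iff]
    intro hu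
    apply hnd
    obtain ⟨u, rfl⟩ := hu
    exact ⟨(u⁻¹ : Aˣ), by rw [hc', mul_assoc, Units.mul_inv, mul_one]⟩
  · exact absurd hd hnd

end Content

/-! ### From `N ^ r ≡ D ^ r` to `N ≡ D` -/

section Root

variable {A : Type*} [CommRing A] [IsDomain A] [ValuationRing A]

/-- the leading coefficient of `∑_{i<r} N^i D^(r-1-i)` for monic `N`, `D` of the same degree
is `r`. -/
theorem h91q_geom_coeff (N D : A[X]) (hN : N.Monic) (hD : D.Monic)
    (hdeg : N.natDegree = D.natDegree) (r : ℕ) :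
    (∑ i ∈ Finset.range r, N ^ i * D ^ (r - 1 - i)).coeff (D.natDegree * (r - 1)) =
      (r : A) := by
  rw [Polynomial.finsetSum_coeff]
  have h1 : ∀ i ∈ Finset.range r,
      (N ^ i * D ^ (r - 1 - i)).coeff (D.natDegree * (r - 1)) = 1 := by
    intro i hi
    have hi' : i < r := Finset.mem_range.mp hi
    have hmon : (N ^ i * D ^ (r - 1 - i)).Monic := (hN.pow i).mul (hD.pow _)
    have hk : i + (r - 1 - i) = r - 1 := by omega
    have hnd : (N ^ i * D ^ (r - 1 - i)).natDegree = D.natDegree * (r - 1) := by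
      rw [Polynomial.Monic.natDegree_mul (hN.pow i) (hD.pow _), hN.natDegree_pow,
        hD.natDegree_pow, hdeg, ← Nat.add_mul, hk, Nat.mul_comm]
    rw [← hnd]
    exact hmon.coeff_natDegree
  rw [Finset.sum_congr rfl h1]
  simp

/-- **(II)**: for monic `N`, `D` of the same degree, `N ^ r ≡ D ^ r mod r c` coefficientwise
implies `N ≡ D mod c` coefficientwise. -/
theorem h91q_root_content (N D : A[X]) (hN : N.Monic) (hD : D.Monic)
    (hdeg : N.natDegree = D.natDegree) (r : ℕ) (hr : (r : A) ≠ 0) (c : A)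
    (h : ∀ j, ((r : A) * c) ∣ (N ^ r - D ^ r).coeff j) : ∀ j, c ∣ (N - D).coeff j := by
  by_contra hcon
  obtain ⟨π, c', X₁, hπ0, hX, ⟨j₁, hj₁⟩, hc, hc'⟩ := h91q_content_dichotomy (N - D) c hcon
  set S := ∑ i ∈ Finset.range r, N ^ i * D ^ (r - 1 - i) with hS
  have hSlead : S.coeff (D.natDegree * (r - 1)) = (r : A) := h91q_geom_coeff N D hN hD hdeg r
  have hS0 : S ≠ 0 := by
    intro h0
    rw [h0, coeff_zero] at hSlead
    exact hr hSlead.symm
  obtain ⟨σ, S₁, hσ0, hSS, ⟨j₂, hj₂⟩⟩ := h91q_content S hS0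
  have hσr : σ ∣ (r : A) := by
    rw [← hSlead, hSS, coeff_C_mul]
    exact dvd_mul_right _ _
  obtain ⟨ρ, hρ⟩ := hσr
  have hprod : N ^ r - D ^ r = C (π * σ) * (X₁ * S₁) := by
    have h1 := Commute.geom_sum₂_mul (Commute.all N D) r
    rw [← h1, ← hS, hX, C_mul]
    conv_lhs => rw [hSS]
    ring
  obtain ⟨j, hj⟩ := h91q_gauss X₁ S₁ ⟨j₁, by rw [hj₁]; exact isUnit_one⟩
    ⟨j₂, by rw [hj₂]; exact isUnit_one⟩
  have h1 := h j
  rw [hprod, coeff_C_mul] at h1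
  have h2 : (r : A) * c ∣ π * σ := by
    obtain ⟨u, hu⟩ := hj
    have h3 : π * σ = (π * σ * (X₁ * S₁).coeff j) * ((u⁻¹ : Aˣ) : A) := by
      rw [← hu, mul_assoc, Units.mul_inv, mul_one]
    rw [h3]
    exact Dvd.dvd.mul_right h1 _
  rw [hρ, hc] at h2
  have h3 : (π * σ) * (ρ * c') ∣ (π * σ) * 1 := by
    rw [mul_one]
    have h4 : σ * ρ * (π * c') = π * σ * (ρ * c') := by ring
    rw [← h4]
    exact h2
  have h4 : ρ * c' ∣ 1 := (mul_dvd_mul_iff_left (mul_ne_zero hπ0 hσ0)).mp h3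
  have h5 : IsUnit c' := isUnit_of_dvd_one (dvd_of_mul_left_dvd h4)
  exact (mem_maximalIdeal _).mp hc' h5

end Root

/-! ### The Weierstrass step on a chart -/

section Chart

variable {A : Type*} [CommRing A] [IsDomain A] [ValuationRing A]
  {F : Type*} [Field F] [Algebra A F]
  {B : Subalgebra A F} {V : Subring F} {ι : Type*} {v : ι → Valuation F ℤᵐ⁰}

/-- an element of `𝔪_A B` is a multiple of one element of `𝔪_A`. -/
theorem h91q_mem_map (x : B) (hx : x ∈ (maximalIdeal A).map (algebraMap A B)) :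
    ∃ μ ∈ maximalIdeal A, ∃ b : B, x = algebraMap A B μ * b := by
  unfold Ideal.map at hx
  induction hx using Submodule.span_induction with
  | mem x hx =>
    obtain ⟨m, hm, rfl⟩ := hx
    exact ⟨m, hm, 1, by rw [mul_one]⟩
  | zero => exact ⟨0, zero_mem _, 0, by simp⟩
  | add x y _ _ hx hy =>
    obtain ⟨μ, hμ, b, rfl⟩ := hx
    obtain ⟨μ', hμ', b', rfl⟩ := hy
    rcases ValuationRing.dvd_total μ μ' with ⟨a, rfl⟩ | ⟨a, rfl⟩
    · exact ⟨μ, hμ, b + algebraMap A B a * b', by rw [map_mul]; ring⟩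
    · exact ⟨μ', hμ', algebraMap A B a * b + b', by rw [map_mul]; ring⟩
  | smul r x _ hx =>
    obtain ⟨μ, hμ, b, rfl⟩ := hx
    exact ⟨μ, hμ, r * b, by rw [smul_eq_mul]; ring⟩

/-- `t ^ j y ∈ 𝔪_A B` implies `y ∈ 𝔪_A B` for a Gauss unit `t` (QEP). -/
theorem h91q_cancel_pow (hC : H26Chart B V v) (hAF : Function.Injective (algebraMap A F))
    (t : B) (ht0 : (t : F) ≠ 0) (htV : (t : F)⁻¹ ∈ V) (j : ℕ) (y : B)
    (h : t ^ j * y ∈ (maximalIdeal A).map (algebraMap A B)) :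
    y ∈ (maximalIdeal A).map (algebraMap A B) := by
  obtain ⟨μ, hμ, b, hb⟩ := h91q_mem_map _ h
  have hbF : (t : F) ^ j * (y : F) = algebraMap A F μ * (b : F) := by
    have h2 := congrArg (Subtype.val) hb
    simpa only [Subalgebra.coe_mul, Subalgebra.coe_pow, Subalgebra.coe_algebraMap] using h2
  by_cases hμ0 : μ = 0
  · rw [hμ0, map_zero, zero_mul] at hbF
    have hy0 : (y : F) = 0 := (mul_eq_zero.mp hbF).resolve_left (pow_ne_zero _ ht0)
    have hy : y = 0 := Subtype.ext hy0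
    rw [hy]
    exact zero_mem _
  · have hμF : algebraMap A F μ ≠ 0 := fun h0 => hμ0 (hAF (by rw [h0, map_zero]))
    have hxV : (b : F) * ((t : F)⁻¹) ^ j ∈ V := mul_mem (hC.hBV _ b.2) (pow_mem htV j)
    have h1 : algebraMap A F μ * ((b : F) * ((t : F)⁻¹) ^ j) = (y : F) := by
      rw [← mul_assoc, ← hbF, inv_pow]
      field_simp
    have hsm : μ • ((b : F) * ((t : F)⁻¹) ^ j) ∈ B := by
      rw [Algebra.smul_def, h1]
      exact y.2
    have hxB := hC.hQEP μ hμF _ hxV hsm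
    have hy : y = algebraMap A B μ * ⟨_, hxB⟩ := by
      apply Subtype.ext
      simp only [Subalgebra.coe_mul, Subalgebra.coe_algebraMap]
      exact h1.symm
    rw [hy]
    exact Ideal.mul_mem_right _ _ (Ideal.mem_map_of_mem _ hμ)

/-- splitting of `f(t)` at the index `j`: `f(t) = L + t ^ j U` with `L ∈ 𝔪_A B` and
`U ≡ f_j mod t`, when the coefficients below `j` are in `𝔪_A`. -/
theorem h91q_split (t : B) (j : ℕ) (f : A[X]) (hf : ∀ i < j, f.coeff i ∈ maximalIdeal A) :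
    ∃ L U : B, aeval t f = L + t ^ j * U ∧ L ∈ (maximalIdeal A).map (algebraMap A B) ∧
      ∃ U' : B, U = algebraMap A B (f.coeff j) + t * U' := by
  induction j generalizing f with
  | zero =>
    refine ⟨0, aeval t f, by simp, zero_mem _, aeval t f.divX, ?_⟩
    conv_lhs => rw [← Polynomial.divX_mul_X_add f]
    rw [map_add, map_mul, aeval_X, aeval_C]
    ring
  | succ j ih =>
    obtain ⟨L, U, h1, hL, U', hU⟩ := ih f.divX (fun i hi => by
      rw [Polynomial.coeff_divX]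
      exact hf (i + 1) (by omega))
    refine ⟨t * L + algebraMap A B (f.coeff 0), U, ?_, ?_, U', ?_⟩
    · conv_lhs => rw [← Polynomial.divX_mul_X_add f]
      rw [map_add, map_mul, aeval_X, aeval_C, h1]
      ring
    · exact add_mem (Ideal.mul_mem_left _ _ hL) (Ideal.mem_map_of_mem _ (hf 0 (by omega)))
    · rw [hU, Polynomial.coeff_divX]

/-- **(I), the Weierstrass step**: `P`, `Q` monic of the same degree, `Q ≡ X ^ m mod 𝔪_A`,
`Q(t)` a Gauss unit, `s ∉ 𝔫`, and `s P(t) - b Q(t) ∈ c₁ B`.  Then `P ≡ Q mod c₁`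
coefficientwise. -/
theorem h91q_weierstrass (hC : H26Chart B V v) (hAF : Function.Injective (algebraMap A F))
    (𝔫 : Ideal B) [h𝔫 : 𝔫.IsPrime] (h𝔪𝔫 : (maximalIdeal A).map (algebraMap A B) ≤ 𝔫)
    (t : B) (ht : t ∈ 𝔫) (ht0 : (t : F) ≠ 0) (htV : (t : F)⁻¹ ∈ V)
    (P Q : A[X]) (hP : P.Monic) (hQ : Q.Monic) (hdeg : P.natDegree = Q.natDegree)
    (hQm : ∀ j < Q.natDegree, Q.coeff j ∈ maximalIdeal A)
    (hQ0 : ((aeval t Q : B) : F) ≠ 0) (hQV : ((aeval t Q : B) : F)⁻¹ ∈ V)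
    (s b : B) (hs : s ∉ 𝔫) (c₁ : A) (β : B)
    (hβ : s * aeval t P - b * aeval t Q = algebraMap A B c₁ * β) :
    ∀ j, c₁ ∣ (P - Q).coeff j := by
  classical
  by_contra hcon
  obtain ⟨π, c', Δ₁, hπ0, hΔ, ⟨j₁, hj₁⟩, hc, hc'⟩ := h91q_content_dichotomy (P - Q) c₁ hcon
  have hex : ∃ j, IsUnit (Δ₁.coeff j) := ⟨j₁, by rw [hj₁]; exact isUnit_one⟩
  have hju : IsUnit (Δ₁.coeff (Nat.find hex)) := Nat.find_spec hex
  have hjmin : ∀ i < Nat.find hex, Δ₁.coeff i ∈ maximalIdeal A := fun i hi =>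
    (mem_maximalIdeal _).mpr (Nat.find_min hex hi)
  generalize Nat.find hex = j at hju hjmin
  -- `j < m`
  have hjm : j < Q.natDegree := by
    by_contra hge
    push Not at hge
    have h0 : (P - Q).coeff j = 0 := by
      rw [coeff_sub]
      rcases Nat.eq_or_lt_of_le hge with heq | hlt
      · have h1 : P.coeff j = 1 := by
          rw [← heq, ← hdeg]
          exact hP.coeff_natDegree
        have h2 : Q.coeff j = 1 := by
          rw [← heq]
          exact hQ.coeff_natDegree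
        rw [h1, h2, sub_self]
      · rw [coeff_eq_zero_of_natDegree_lt (by rw [hdeg]; exact hlt),
          coeff_eq_zero_of_natDegree_lt hlt, sub_self]
    rw [hΔ, coeff_C_mul] at h0
    have h1 : Δ₁.coeff j = 0 := (mul_eq_zero.mp h0).resolve_left hπ0
    rw [h1] at hju
    exact not_isUnit_zero hju
  have hπF : algebraMap A F π ≠ 0 := fun h0 => hπ0 (hAF (by rw [h0, map_zero]))
  -- `h Q(t) = π (s Δ₁(t) - c' β)`
  have hkey : (b - s) * aeval t Q =
      algebraMap A B π * (s * aeval t Δ₁ - algebraMap A B c' * β) := by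
    have h1 : aeval t P - aeval t Q = algebraMap A B π * aeval t Δ₁ := by
      rw [← map_sub, hΔ, map_mul, aeval_C]
    have h2 : algebraMap A B c₁ = algebraMap A B π * algebraMap A B c' := by
      rw [hc, map_mul]
    rw [h2] at hβ
    linear_combination s * h1 - hβ
  -- `h₁`
  set num : B := s * aeval t Δ₁ - algebraMap A B c' * β with hnum
  have hxV : (num : F) * ((aeval t Q : B) : F)⁻¹ ∈ V := mul_mem (hC.hBV _ num.2) hQV
  have hx1 : algebraMap A F π * ((num : F) * ((aeval t Q : B) : F)⁻¹) = ((b - s : B) : F) := by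
    have h1 := congrArg (Subtype.val) hkey
    simp only [Subalgebra.coe_mul, Subalgebra.coe_algebraMap] at h1
    rw [← mul_assoc, ← h1]
    field_simp
  have hsm : π • ((num : F) * ((aeval t Q : B) : F)⁻¹) ∈ B := by
    rw [Algebra.smul_def, hx1]
    exact (b - s).2
  have hxB := hC.hQEP π hπF _ hxV hsm
  set h₁ : B := ⟨_, hxB⟩ with hh₁
  have hh₁Q : h₁ * aeval t Q = num := by
    apply Subtype.ext
    simp only [Subalgebra.coe_mul, hh₁]
    field_simp
  -- the splittings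
  obtain ⟨L, U, hΔsplit, hL, U', hU⟩ := h91q_split t j Δ₁ hjmin
  obtain ⟨LQ, UQ, hQsplit, hLQ, -, -⟩ := h91q_split t Q.natDegree Q hQm
  obtain ⟨k, hk⟩ : ∃ k, Q.natDegree = j + (k + 1) := ⟨Q.natDegree - j - 1, by omega⟩
  set y : B := h₁ * t ^ (k + 1) * UQ - s * U with hy
  have hty : t ^ j * y ∈ (maximalIdeal A).map (algebraMap A B) := by
    have h1 : t ^ j * y = s * L - algebraMap A B c' * β - h₁ * LQ := by
      have h2 : h₁ * (LQ + t ^ (j + (k + 1)) * UQ) =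
          s * (L + t ^ j * U) - algebraMap A B c' * β := by
        rw [← hk, ← hQsplit, ← hΔsplit, hh₁Q]
      rw [hy]
      linear_combination h2
    rw [h1]
    refine sub_mem (sub_mem (Ideal.mul_mem_left _ _ hL) ?_) (Ideal.mul_mem_left _ _ hLQ)
    exact Ideal.mul_mem_right _ _ (Ideal.mem_map_of_mem _ hc')
  have hy𝔫 : y ∈ 𝔫 := h𝔪𝔫 (h91q_cancel_pow hC hAF t ht0 htV j y hty)
  have hsU : s * U ∈ 𝔫 := by
    have h1 : s * U = h₁ * t ^ (k + 1) * UQ - y := by rw [hy]; ring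
    rw [h1]
    refine sub_mem ?_ hy𝔫
    refine Ideal.mul_mem_right _ _ (Ideal.mul_mem_left _ _ ?_)
    exact Ideal.pow_mem_of_mem 𝔫 ht (k + 1) (Nat.succ_pos k)
  rcases h𝔫.mem_or_mem hsU with h1 | h1
  · exact hs h1
  · have h2 : algebraMap A B (Δ₁.coeff j) ∈ 𝔫 := by
      have h3 : algebraMap A B (Δ₁.coeff j) = U - t * U' := by rw [hU]; ring
      rw [h3]
      exact sub_mem h1 (Ideal.mul_mem_right _ _ ht)
    exact h𝔫.ne_top (Ideal.eq_top_of_isUnit_mem _ h2 (hju.map _))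

end Chart

/-! ### The shallow facts, exported from the proof of `h26_local_gate` -/

section Shallow

variable {A : Type*} [CommRing A] [IsLocalRing A] {F : Type*} [Field F] [Algebra A F]
variable {B : Subalgebra A F} {V : Subring F} {ι : Type*} {v : ι → Valuation F ℤᵐ⁰}

/-- the local factorisation, the vanishing of the total order on the residue disc, and the
invertibility of the factors `t - t(P_i)` in `V`. -/
theorem h91q_factor_zero (hC : H26Chart B V v)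
    (𝔫 : Ideal B) [h𝔫 : 𝔫.IsPrime] (h𝔪𝔫 : (maximalIdeal A).map (algebraMap A B) ≤ 𝔫)
    (t : B) (ht : t ∈ 𝔫) (ht0 : (t : F) ≠ 0) (htV : (t : F)⁻¹ ∈ V)
    (hprin : ∀ y ∈ 𝔫, ∃ s, s ∉ 𝔫 ∧
      s * y ∈ Ideal.span {t} ⊔ (maximalIdeal A).map (algebraMap A B))
    (T : Finset ι) (φ : ι → (B →ₐ[A] A))
    (hφker : ∀ i ∈ T, ∀ b : B, φ i b = 0 ↔ v i (b : F) < 1)
    (hφfg : ∀ i ∈ T, (RingHom.ker (φ i : B →+* A)).FG)
    (hcent : ∀ i ∈ T, h26Centered B v 𝔫 i)
    (π : A) (hπ : π ∈ maximalIdeal A) (hπ0 : algebraMap A F π ≠ 0)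
    (hc : ∀ i ∈ T, ∃ a : A, φ i t = π * a)
    (w : F) (hwU : w ∈ h26U π V)
    (r : ℕ) (n : ι → ℤ) (hn : ∀ i ∈ T, v i w = exp (-((r : ℤ) * n i)))
    (hw1 : ∀ k, h26Centered B v 𝔫 k → k ∉ T → v k w = 1) :
    (∑ i ∈ T, (r : ℤ) * n i = 0) ∧
    (∀ i ∈ T, (t : F) - algebraMap A F (φ i t) ≠ 0 ∧
      ((t : F) - algebraMap A F (φ i t))⁻¹ ∈ V) ∧
    ∃ s : B, s ∉ 𝔫 ∧
      (s : F) * (w * ∏ i ∈ T, ((t : F) - algebraMap A F (φ i t)) ^ (-((r : ℤ) * n i))) ∈ B ∧
      (s : F) *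
        (w * ∏ i ∈ T, ((t : F) - algebraMap A F (φ i t)) ^ (-((r : ℤ) * n i)))⁻¹ ∈ B := by
  classical
  have hAV : ∀ a : A, algebraMap A F a ∈ V := fun a => hC.hBV _ (B.algebraMap_mem a)
  have hVπ : algebraMap A F π ∈ V := hAV π
  have hVinv : ∀ x ∈ V, (1 + algebraMap A F π * x)⁻¹ ∈ V := hC.hVunit π hπ
  have hVnt : ∀ x ∈ V, algebraMap A F π * x ≠ 1 := h26_chart_nt hC 𝔫 h𝔪𝔫 π hπ hπ0
  have hwV : w ∈ V := h26U_mem_V hVπ hwU
  have hwV' : w⁻¹ ∈ V := h26U_mem_V hVπ (h26U_inv hVinv hVnt hwU)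
  obtain ⟨s, hs, h1, h2⟩ := h26_local_factor hC 𝔫 h𝔪𝔫 t ht ht0 htV hprin T φ hφker hφfg hcent
    w hwV hwV' (fun i => (r : ℤ) * n i) hn hw1
  have hex : ∀ i, ∃ a : A, i ∈ T → φ i t = π * a := by
    intro i
    by_cases hi : i ∈ T
    · obtain ⟨a, ha⟩ := hc i hi
      exact ⟨a, fun _ => ha⟩
    · exact ⟨0, fun h => (hi h).elim⟩
  choose a ha using hex
  set y : ι → F := fun i => 1 + algebraMap A F π * (-(algebraMap A F (a i) * (t : F)⁻¹))
    with hy
  have hyU : ∀ i, y i ∈ h26U π V := fun i =>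
    ⟨_, neg_mem (mul_mem (hAV (a i)) htV), rfl⟩
  have huy : ∀ i ∈ T, (t : F) - algebraMap A F (φ i t) = (t : F) * y i := by
    intro i hi
    rw [ha i hi, map_mul, hy]
    field_simp
    ring
  have hfac : ∀ i ∈ T, (t : F) - algebraMap A F (φ i t) ≠ 0 ∧
      ((t : F) - algebraMap A F (φ i t))⁻¹ ∈ V := by
    intro i hi
    rw [huy i hi]
    refine ⟨mul_ne_zero ht0 (h26U_ne_zero hVnt (hyU i)), ?_⟩
    rw [mul_inv]
    exact mul_mem htV (h26U_mem_V hVπ (h26U_inv hVinv hVnt (hyU i)))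
  refine ⟨?_, hfac, s, hs, h1, h2⟩
  set E : ℤ := ∑ i ∈ T, (r : ℤ) * n i with hE
  set Y : F := ∏ i ∈ T, y i ^ (-((r : ℤ) * n i)) with hY
  have hYU : Y ∈ h26U π V :=
    h26U_prod hVπ T _ (fun i _ => h26U_zpow hVπ hVinv hVnt (hyU i) _)
  have hprod : ∏ i ∈ T, ((t : F) - algebraMap A F (φ i t)) ^ (-((r : ℤ) * n i)) =
      (t : F) ^ (-E) * Y := by
    rw [hY, hE, ← Finset.sum_neg_distrib, ← h26_prod_zpow_const T _ ht0,
      ← Finset.prod_mul_distrib]
    refine Finset.prod_congr rfl fun i hi => ?_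
    rw [huy i hi, mul_zpow]
  rw [hprod] at h1 h2
  have hzU : w * Y ∈ h26U π V := h26U_mul hVπ hwU hYU
  have hzU' : (w * Y)⁻¹ ∈ h26U π V := h26U_inv hVinv hVnt hzU
  have hY0 : Y ≠ 0 := h26U_ne_zero hVnt hYU
  have hw0 : w ≠ 0 := h26U_ne_zero hVnt hwU
  have htE : ∀ z : ℤ, (t : F) ^ z ≠ 0 := fun z => zpow_ne_zero _ ht0
  rcases lt_trichotomy E 0 with hlt | heq | hgt
  · exfalso
    have hm : (((-E).toNat : ℕ) : ℤ) = -E := Int.toNat_of_nonneg (by omega)
    have hmpos : 0 < (-E).toNat := by omega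
    refine h26_local_gate_aux hC 𝔫 h𝔪𝔫 t ht π hπ hπ0 s hs _ _ _ hmpos h2 hzU' ?_
    rw [← zpow_natCast, hm]
    have h5 := htE (-E)
    field_simp
  · exact heq
  · exfalso
    have hm : ((E.toNat : ℕ) : ℤ) = E := Int.toNat_of_nonneg (by omega)
    have hmpos : 0 < E.toNat := by omega
    refine h26_local_gate_aux hC 𝔫 h𝔪𝔫 t ht π hπ hπ0 s hs _ _ _ hmpos h1 hzU ?_
    rw [← zpow_natCast, hm, zpow_neg]
    have h5 := htE E
    field_simp

end Shallow

/-! ### The Weierstrass polynomials of a divisor on a residue disc -/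

section Poly

variable {A : Type*} [CommRing A] [IsDomain A] [ValuationRing A]
  {F : Type*} [Field F] [Algebra A F] {B : Subalgebra A F} {ι : Type*}

/-- the polynomial `∏_{i ∈ T} (X - c_i) ^ (e_i)`. -/
noncomputable def h91qPoly (T : Finset ι) (c : ι → A) (e : ι → ℕ) : A[X] :=
  ∏ i ∈ T, (X - C (c i)) ^ (e i)

theorem h91qPoly_monic (T : Finset ι) (c : ι → A) (e : ι → ℕ) : (h91qPoly T c e).Monic :=
  monic_prod_of_monic _ _ (fun _ _ => (monic_X_sub_C _).pow _)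

theorem h91qPoly_natDegree (T : Finset ι) (c : ι → A) (e : ι → ℕ) :
    (h91qPoly T c e).natDegree = ∑ i ∈ T, e i := by
  rw [h91qPoly, natDegree_prod_of_monic _ _ (fun _ _ => (monic_X_sub_C _).pow _)]
  refine Finset.sum_congr rfl fun i _ => ?_
  rw [(monic_X_sub_C _).natDegree_pow, natDegree_X_sub_C, mul_one]

theorem h91qPoly_pow (T : Finset ι) (c : ι → A) (e : ι → ℕ) (r : ℕ) :
    h91qPoly T c e ^ r = h91qPoly T c (fun i => e i * r) := by
  rw [h91qPoly, h91qPoly, ← Finset.prod_pow]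
  refine Finset.prod_congr rfl fun i _ => ?_
  rw [pow_mul]

theorem h91qPoly_coeff_mem (T : Finset ι) (c : ι → A) (e : ι → ℕ)
    (hc : ∀ i ∈ T, c i ∈ maximalIdeal A) (j : ℕ) (hj : j < (h91qPoly T c e).natDegree) :
    (h91qPoly T c e).coeff j ∈ maximalIdeal A := by
  have hmap : (h91qPoly T c e).map (residue A) = X ^ (∑ i ∈ T, e i) := by
    rw [h91qPoly, Polynomial.map_prod, ← Finset.prod_pow_eq_pow_sum]
    refine Finset.prod_congr rfl fun i hi => ?_
    rw [Polynomial.map_pow, Polynomial.map_sub, map_X, map_C,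
      (residue_eq_zero_iff _).mpr (hc i hi), C_0, sub_zero]
  have h1 : ((h91qPoly T c e).map (residue A)).coeff j = 0 := by
    rw [hmap, coeff_X_pow, if_neg]
    rw [h91qPoly_natDegree] at hj
    exact ne_of_lt hj
  rw [coeff_map] at h1
  exact (residue_eq_zero_iff _).mp h1

theorem h91qPoly_aeval (T : Finset ι) (c : ι → A) (e : ι → ℕ) (t : B) :
    ((aeval t (h91qPoly T c e) : B) : F) =
      ∏ i ∈ T, ((t : F) - algebraMap A F (c i)) ^ (e i) := by
  rw [Polynomial.aeval_subalgebra_coe, h91qPoly, map_prod]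
  refine Finset.prod_congr rfl fun i _ => ?_
  rw [map_pow, map_sub, aeval_X, aeval_C]

end Poly

/-! ### The deep local gate -/

section Gate

variable {A : Type*} [CommRing A] [IsDomain A] [ValuationRing A]
  {F : Type*} [Field F] [Algebra A F]
  {B : Subalgebra A F} {V : Subring F} {ι : Type*} {v : ι → Valuation F ℤᵐ⁰}

/-- **The deep local gate at a smooth closed point of the special fibre.**  If
`w ≡ 1 mod (r c) V` and all orders of `w` at the places centred at `𝔫` are divisible by `r`,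
then there is `g ≡ 1 mod c V` such that `w / g ^ r` is a unit of `B_𝔫`.  The exponent `r` is
any natural number which is nonzero in `A` (not necessarily a unit), `c ∈ 𝔪_A` is any nonzero
element. -/
theorem h91q_local_gate_deep (hC : H26Chart B V v)
    (hAF : Function.Injective (algebraMap A F))
    (𝔫 : Ideal B) [h𝔫 : 𝔫.IsPrime] (h𝔪𝔫 : (maximalIdeal A).map (algebraMap A B) ≤ 𝔫)
    (t : B) (ht : t ∈ 𝔫) (ht0 : (t : F) ≠ 0) (htV : (t : F)⁻¹ ∈ V)
    (hprin : ∀ y ∈ 𝔫, ∃ s, s ∉ 𝔫 ∧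
      s * y ∈ Ideal.span {t} ⊔ (maximalIdeal A).map (algebraMap A B))
    (T : Finset ι) (φ : ι → (B →ₐ[A] A))
    (hφker : ∀ i ∈ T, ∀ b : B, φ i b = 0 ↔ v i (b : F) < 1)
    (hφfg : ∀ i ∈ T, (RingHom.ker (φ i : B →+* A)).FG)
    (hcent : ∀ i ∈ T, h26Centered B v 𝔫 i)
    (r : ℕ) (hr : (r : A) ≠ 0)
    (c : A) (hc : c ∈ maximalIdeal A) (hc0 : c ≠ 0)
    (w : F) (hwU : w ∈ h26U ((r : A) * c) V)
    (n : ι → ℤ) (hn : ∀ i ∈ T, v i w = exp (-((r : ℤ) * n i)))
    (hw1 : ∀ k, h26Centered B v 𝔫 k → k ∉ T → v k w = 1) :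
    ∃ g ∈ h26U c V, ∃ s : B, s ∉ 𝔫 ∧
      (s : F) * (w * (g ^ r)⁻¹) ∈ B ∧ (s : F) * (g ^ r * w⁻¹) ∈ B := by
  classical
  have hAV : ∀ a : A, algebraMap A F a ∈ V := fun a => hC.hBV _ (B.algebraMap_mem a)
  set cv : ι → A := fun i => φ i t with hcv
  have hkerle : ∀ i ∈ T, RingHom.ker (φ i : B →+* A) ≤ 𝔫 := fun i hi b hb =>
    hcent i hi b ((hφker i hi b).mp hb)
  have hcm : ∀ i ∈ T, cv i ∈ maximalIdeal A := fun i hi =>
    h26_section_local 𝔫 (φ i) (hkerle i hi) t ht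
  have hrc : (r : A) * c ∈ maximalIdeal A := Ideal.mul_mem_left _ _ hc
  have hrc0 : (r : A) * c ≠ 0 := mul_ne_zero hr hc0
  have hrcF : algebraMap A F ((r : A) * c) ≠ 0 := fun h0 =>
    hrc0 (hAF (by rw [h0, map_zero]))
  obtain ⟨π, hπ, hπ0, hπrc, hπc⟩ := h26_common_divisor T cv hcm _ hrc hrc0
  have hπF : algebraMap A F π ≠ 0 := fun h0 => hπ0 (hAF (by rw [h0, map_zero]))
  have hwπ : w ∈ h26U π V := by
    obtain ⟨a, ha⟩ := hπrc
    obtain ⟨x, hx, rfl⟩ := hwU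
    exact ⟨algebraMap A F a * x, mul_mem (hAV a) hx, by rw [ha, map_mul]; ring⟩
  obtain ⟨hE, hfac, s, hs, h1, h2⟩ := h91q_factor_zero hC 𝔫 h𝔪𝔫 t ht ht0 htV hprin T φ
    hφker hφfg hcent π hπ hπF (fun i hi => hπc i hi) w hwπ r n hn hw1
  have hr0 : (r : ℤ) ≠ 0 := by
    intro h0
    apply hr
    have h3 : r = 0 := by exact_mod_cast h0
    rw [h3, Nat.cast_zero]
  have hsum : ∑ i ∈ T, n i = 0 := by
    rw [← Finset.mul_sum] at hE
    exact (mul_eq_zero.mp hE).resolve_left hr0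
  -- the polynomials
  set eN : ι → ℕ := fun i => (n i).toNat with heN
  set eD : ι → ℕ := fun i => (-(n i)).toNat with heD
  have hNmon := h91qPoly_monic T cv eN
  have hDmon := h91qPoly_monic T cv eD
  have hdeg : (h91qPoly T cv eN).natDegree = (h91qPoly T cv eD).natDegree := by
    rw [h91qPoly_natDegree, h91qPoly_natDegree]
    have h4 : ∑ i ∈ T, ((eN i : ℤ) - (eD i : ℤ)) = 0 := by
      rw [← hsum]
      refine Finset.sum_congr rfl fun i _ => ?_
      exact Int.toNat_sub_toNat_neg (n i)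
    rw [Finset.sum_sub_distrib] at h4
    have h3 : ((∑ i ∈ T, eN i : ℕ) : ℤ) = ((∑ i ∈ T, eD i : ℕ) : ℤ) := by
      push_cast
      linarith
    exact_mod_cast h3
  -- values in `F`
  set u : ι → F := fun i => (t : F) - algebraMap A F (cv i) with hu
  set NF : F := ∏ i ∈ T, u i ^ (eN i) with hNF
  set DF : F := ∏ i ∈ T, u i ^ (eD i) with hDF
  have hu0 : ∀ i ∈ T, u i ≠ 0 := fun i hi => (hfac i hi).1
  have huV : ∀ i ∈ T, (u i)⁻¹ ∈ V := fun i hi => (hfac i hi).2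
  have hNF0 : NF ≠ 0 := Finset.prod_ne_zero_iff.mpr (fun i hi => pow_ne_zero _ (hu0 i hi))
  have hDF0 : DF ≠ 0 := Finset.prod_ne_zero_iff.mpr (fun i hi => pow_ne_zero _ (hu0 i hi))
  have hDFV : DF⁻¹ ∈ V := by
    rw [hDF, ← Finset.prod_inv_distrib]
    refine Subring.prod_mem _ fun i hi => ?_
    rw [← inv_pow]
    exact pow_mem (huV i hi) _
  have hNa : ((aeval t (h91qPoly T cv eN) : B) : F) = NF := h91qPoly_aeval T cv eN t
  have hDa : ((aeval t (h91qPoly T cv eD) : B) : F) = DF := h91qPoly_aeval T cv eD t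
  set g : F := NF / DF with hg
  have hprodg : ∏ i ∈ T, u i ^ (-((r : ℤ) * n i)) = (g ^ r)⁻¹ := by
    have h3 : ∀ i ∈ T, u i ^ (-((r : ℤ) * n i)) =
        ((u i ^ (eN i) / u i ^ (eD i)) ^ r)⁻¹ := by
      intro i hi
      have h4 : u i ^ (n i) = u i ^ (eN i) / u i ^ (eD i) := by
        have h5 : n i = (eN i : ℤ) - (eD i : ℤ) := (Int.toNat_sub_toNat_neg (n i)).symm
        conv_lhs => rw [h5]
        rw [zpow_sub₀ (hu0 i hi), zpow_natCast, zpow_natCast]
      rw [← h4, ← zpow_natCast, ← zpow_mul, ← zpow_neg, mul_comm]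
    rw [Finset.prod_congr rfl h3, Finset.prod_inv_distrib, Finset.prod_pow,
      Finset.prod_div_distrib]
  rw [hprodg] at h1 h2
  have h2' : (s : F) * (g ^ r * w⁻¹) ∈ B := by
    have h3 : (w * (g ^ r)⁻¹)⁻¹ = g ^ r * w⁻¹ := by rw [mul_inv, inv_inv, mul_comm]
    rw [h3] at h2
    exact h2
  refine ⟨g, ?_, s, hs, h1, h2'⟩
  -- the deep congruence
  have hPmon : (h91qPoly T cv eN ^ r).Monic := hNmon.pow r
  have hQmon : (h91qPoly T cv eD ^ r).Monic := hDmon.pow r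
  have hPQdeg : (h91qPoly T cv eN ^ r).natDegree = (h91qPoly T cv eD ^ r).natDegree := by
    rw [hNmon.natDegree_pow, hDmon.natDegree_pow, hdeg]
  have hQm : ∀ j < (h91qPoly T cv eD ^ r).natDegree,
      (h91qPoly T cv eD ^ r).coeff j ∈ maximalIdeal A := by
    intro j hj
    rw [h91qPoly_pow] at hj ⊢
    exact h91qPoly_coeff_mem T cv _ hcm j hj
  have hPa : ((aeval t (h91qPoly T cv eN ^ r) : B) : F) = NF ^ r := by
    rw [map_pow, Subalgebra.coe_pow, hNa]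
  have hQa : ((aeval t (h91qPoly T cv eD ^ r) : B) : F) = DF ^ r := by
    rw [map_pow, Subalgebra.coe_pow, hDa]
  have hQ0 : ((aeval t (h91qPoly T cv eD ^ r) : B) : F) ≠ 0 := by
    rw [hQa]
    exact pow_ne_zero _ hDF0
  have hQV : ((aeval t (h91qPoly T cv eD ^ r) : B) : F)⁻¹ ∈ V := by
    rw [hQa, ← inv_pow]
    exact pow_mem hDFV r
  have hw0 : w ≠ 0 := h26U_ne_zero (h26_chart_nt hC 𝔫 h𝔪𝔫 π hπ hπF) hwπ
  obtain ⟨ω, hω, hwω⟩ := hwU
  set b : B := ⟨_, h2'⟩ with hb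
  have hbD : (b : F) * DF ^ r = (s : F) * NF ^ r * w⁻¹ := by
    have h3 : (b : F) = (s : F) * (g ^ r * w⁻¹) := rfl
    rw [h3, hg, div_pow]
    field_simp
  have hxV : (b : F) * DF ^ r * ω ∈ V := by
    refine mul_mem (mul_mem (hC.hBV _ b.2) ?_) hω
    rw [← hQa]
    exact hC.hBV _ (aeval t (h91qPoly T cv eD ^ r)).2
  have hx1 : algebraMap A F ((r : A) * c) * ((b : F) * DF ^ r * ω) =
      (s : F) * NF ^ r - (b : F) * DF ^ r := by
    have e2 : w⁻¹ * w = 1 := inv_mul_cancel₀ hw0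
    rw [hbD]
    linear_combination (-((s : F) * NF ^ r * w⁻¹)) * hwω + ((s : F) * NF ^ r) * e2
  have hsm : ((r : A) * c) • ((b : F) * DF ^ r * ω) ∈ B := by
    rw [Algebra.smul_def, hx1, ← hPa, ← hQa]
    exact sub_mem (mul_mem s.2 (aeval t _).2) (mul_mem b.2 (aeval t _).2)
  have hxB := hC.hQEP _ hrcF _ hxV hsm
  have hβ : s * aeval t (h91qPoly T cv eN ^ r) - b * aeval t (h91qPoly T cv eD ^ r) =
      algebraMap A B ((r : A) * c) * ⟨_, hxB⟩ := by
    apply Subtype.ext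
    simp only [Subalgebra.coe_sub, Subalgebra.coe_mul, Subalgebra.coe_algebraMap]
    rw [hPa, hQa]
    exact hx1.symm
  have hW := h91q_weierstrass hC hAF 𝔫 h𝔪𝔫 t ht ht0 htV _ _ hPmon hQmon hPQdeg hQm hQ0 hQV
    s b hs ((r : A) * c) _ hβ
  have hND := h91q_root_content _ _ hNmon hDmon hdeg r hr c hW
  obtain ⟨R, hR⟩ := (Polynomial.C_dvd_iff_dvd_coeff _ _).mpr hND
  have hNDF : NF - DF = algebraMap A F c * ((aeval t R : B) : F) := by
    rw [← hNa, ← hDa, ← Subalgebra.coe_sub, ← map_sub, hR, map_mul, aeval_C,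
      Subalgebra.coe_mul, Subalgebra.coe_algebraMap]
  refine ⟨((aeval t R : B) : F) * DF⁻¹, mul_mem (hC.hBV _ (aeval t R).2) hDFV, ?_⟩
  have h3 : NF = DF + algebraMap A F c * ((aeval t R : B) : F) := by
    linear_combination hNDF
  rw [hg, h3]
  field_simp

end Gate

/-! ### All closed points of a chart -/

section All

variable {A : Type*} [CommRing A] [IsDomain A] [ValuationRing A]
  {F : Type*} [Field F] [Algebra A F]
  {B : Subalgebra A F} {V : Subring F} {ι : Type*} {v : ι → Valuation F ℤᵐ⁰}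

/-- **The deep local input of the gate at all closed points of a chart outside an exceptional
set `Nd`** (the shape of `LGC.h63_local_all_ss`): if `w ≡ 1 mod (r c) V` and all orders of `w`
are divisible by `r`, then at every maximal ideal `𝔫` (not in `Nd` if it lies on the special
fibre) there is `g ≠ 0` with `w / g ^ r` a unit of `B_𝔫`, and `g ≡ 1 mod c V` if `𝔫 ⊇ 𝔪_A B`. -/
theorem h91q_local_all_deep (hC : H26Chart B V v)
    (hAF : Function.Injective (algebraMap A F))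
    (harch : ∀ c ∈ maximalIdeal A, c ≠ 0 → ∀ a : A, a ≠ 0 → ∃ k : ℕ, a ∣ c ^ k)
    (Nd : Set (Ideal B))
    (hSM : ∀ 𝔫 : Ideal B, 𝔫.IsMaximal → (maximalIdeal A).map (algebraMap A B) ≤ 𝔫 → 𝔫 ∉ Nd →
      ∃ t ∈ 𝔫, (t : F) ≠ 0 ∧ (t : F)⁻¹ ∈ V ∧ ∀ y ∈ 𝔫, ∃ s, s ∉ 𝔫 ∧
        s * y ∈ Ideal.span {t} ⊔ (maximalIdeal A).map (algebraMap A B))
    (hsec : ∀ (i : ι) (𝔫 : Ideal B), 𝔫.IsMaximal →
      (maximalIdeal A).map (algebraMap A B) ≤ 𝔫 → h26Centered B v 𝔫 i →
      ∃ φ : B →ₐ[A] A, (∀ b : B, φ b = 0 ↔ v i (b : F) < 1) ∧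
        (RingHom.ker (φ : B →+* A)).FG)
    (hgen : ∀ 𝔫 : Ideal B, 𝔫.IsMaximal → ¬ (maximalIdeal A).map (algebraMap A B) ≤ 𝔫 →
      ∀ i k, h26Centered B v 𝔫 i → h26Centered B v 𝔫 k → i = k)
    (w : F) (hw0 : w ≠ 0) (r : ℕ) (hr : (r : A) ≠ 0)
    (hrw : ∀ i, ∃ n : ℤ, v i w = exp (-((r : ℤ) * n)))
    (c : A) (hc : c ∈ maximalIdeal A) (hc0 : c ≠ 0)
    (hwU : w ∈ h26U ((r : A) * c) V) :
    ∀ 𝔫 : Ideal B, 𝔫.IsMaximal →
      ((maximalIdeal A).map (algebraMap A B) ≤ 𝔫 → 𝔫 ∉ Nd) →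
      ∃ g : F, g ≠ 0 ∧ ((maximalIdeal A).map (algebraMap A B) ≤ 𝔫 → g ∈ h26U c V) ∧
        ∃ s : B, s ∉ 𝔫 ∧ (s : F) * (w * (g ^ r)⁻¹) ∈ B ∧ (s : F) * (g ^ r * w⁻¹) ∈ B := by
  classical
  intro 𝔫 h𝔫 hNd
  have := h𝔫.isPrime
  have hAV : ∀ a : A, algebraMap A F a ∈ V := fun a => hC.hBV _ (B.algebraMap_mem a)
  by_cases hle : (maximalIdeal A).map (algebraMap A B) ≤ 𝔫
  swap
  · -- a closed point of the generic fibre
    obtain ⟨g, hg0, s, hs, h1, h2⟩ := h26_local_generic hC 𝔫 (by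
      intro a ha ha𝔫
      have ha0 : a ≠ 0 := fun h => ha (by rw [h, map_zero])
      apply hle
      rw [Ideal.map_le_iff_le_comap]
      intro m hm
      rw [Ideal.mem_comap]
      by_cases hm0 : m = 0
      · rw [hm0, map_zero]; exact 𝔫.zero_mem
      obtain ⟨k, b, hk⟩ := harch m hm hm0 a ha0
      have h1 : algebraMap A B m ^ k ∈ 𝔫 := by
        rw [← map_pow, hk, map_mul]
        exact 𝔫.mul_mem_right _ ha𝔫
      exact h𝔫.isPrime.mem_of_pow_mem k h1) (hgen 𝔫 h𝔫 hle) w r hrw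
    exact ⟨g, hg0, fun h => (hle h).elim, s, hs, h1, h2⟩
  -- a closed point of the special fibre, outside `Nd`
  have hrc : (r : A) * c ∈ maximalIdeal A := Ideal.mul_mem_left _ _ hc
  have hrc0 : (r : A) * c ≠ 0 := mul_ne_zero hr hc0
  have hrcF : algebraMap A F ((r : A) * c) ≠ 0 := fun h0 =>
    hrc0 (hAF (by rw [h0, map_zero]))
  have hcF : algebraMap A F c ≠ 0 := fun h0 => hc0 (hAF (by rw [h0, map_zero]))
  have hVnt : ∀ x ∈ V, algebraMap A F ((r : A) * c) * x ≠ 1 :=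
    h26_chart_nt hC 𝔫 hle _ hrc hrcF
  have hVntc : ∀ x ∈ V, algebraMap A F c * x ≠ 1 := h26_chart_nt hC 𝔫 hle _ hc hcF
  have hVrc : algebraMap A F ((r : A) * c) ∈ V := hAV _
  have hwV : w ∈ V := h26U_mem_V hVrc hwU
  have hwV' : w⁻¹ ∈ V := h26U_mem_V hVrc (h26U_inv (hC.hVunit _ hrc) hVnt hwU)
  obtain ⟨t, ht, ht0, htV, hprin⟩ := hSM 𝔫 h𝔫 hle (hNd hle)
  set Z : Finset ι := (h26_finite_support hC w hw0).toFinset with hZ
  set T : Finset ι := Z.filter (fun i => h26Centered B v 𝔫 i) with hT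
  have hTc : ∀ i ∈ T, h26Centered B v 𝔫 i := fun i hi => (Finset.mem_filter.mp hi).2
  have hw1 : ∀ k, h26Centered B v 𝔫 k → k ∉ T → v k w = 1 := by
    intro k hk hkT
    by_contra hne
    apply hkT
    rw [hT, Finset.mem_filter, hZ, Set.Finite.mem_toFinset]
    exact ⟨hne, hk⟩
  rcases T.eq_empty_or_nonempty with hTe | ⟨i₀, hi₀⟩
  · -- no zero or pole centred at `𝔫`
    obtain ⟨s, hs, h1, h2⟩ := h26_local_unit hC 𝔫 w hwV hwV'
      (fun k hk => hw1 k hk (by rw [hTe]; exact Finset.notMem_empty k))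
    refine ⟨1, one_ne_zero, fun _ => h26U_one, s, hs, ?_, ?_⟩
    · simpa using h1
    · simpa using h2
  · obtain ⟨φ₀, -, -⟩ := hsec i₀ 𝔫 h𝔫 hle (hTc i₀ hi₀)
    have hex : ∀ i : ι, ∃ φ : B →ₐ[A] A, i ∈ T →
        (∀ b : B, φ b = 0 ↔ v i (b : F) < 1) ∧ (RingHom.ker (φ : B →+* A)).FG := by
      intro i
      by_cases hi : i ∈ T
      · obtain ⟨φ, h1, h2⟩ := hsec i 𝔫 h𝔫 hle (hTc i hi)
        exact ⟨φ, fun _ => ⟨h1, h2⟩⟩
      · exact ⟨φ₀, fun h => (hi h).elim⟩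
    choose φ hφ using hex
    choose n hn using hrw
    obtain ⟨g, hgU, s, hs, h1, h2⟩ := h91q_local_gate_deep hC hAF 𝔫 hle t ht ht0 htV hprin T φ
      (fun i hi => (hφ i hi).1) (fun i hi => (hφ i hi).2) hTc r hr c hc hc0 w hwU n
      (fun i _ => hn i) hw1
    exact ⟨g, h26U_ne_zero hVntc hgU, fun _ => hgU, s, hs, h1, h2⟩

/-- **The local input `hL` of the deep gate `h67g_gate_asm_chart`** on a chart: smooth closed
points by the deep local gate, exceptional closed points (nodes) by hypothesis. -/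
theorem h91q_hL_of_nodes (hC : H26Chart B V v)
    (hAF : Function.Injective (algebraMap A F))
    (harch : ∀ c ∈ maximalIdeal A, c ≠ 0 → ∀ a : A, a ≠ 0 → ∃ k : ℕ, a ∣ c ^ k)
    (Nd : Set (Ideal B))
    (hSM : ∀ 𝔫 : Ideal B, 𝔫.IsMaximal → (maximalIdeal A).map (algebraMap A B) ≤ 𝔫 → 𝔫 ∉ Nd →
      ∃ t ∈ 𝔫, (t : F) ≠ 0 ∧ (t : F)⁻¹ ∈ V ∧ ∀ y ∈ 𝔫, ∃ s, s ∉ 𝔫 ∧
        s * y ∈ Ideal.span {t} ⊔ (maximalIdeal A).map (algebraMap A B))
    (hsec : ∀ (i : ι) (𝔫 : Ideal B), 𝔫.IsMaximal →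
      (maximalIdeal A).map (algebraMap A B) ≤ 𝔫 → h26Centered B v 𝔫 i →
      ∃ φ : B →ₐ[A] A, (∀ b : B, φ b = 0 ↔ v i (b : F) < 1) ∧
        (RingHom.ker (φ : B →+* A)).FG)
    (hgen : ∀ 𝔫 : Ideal B, 𝔫.IsMaximal → ¬ (maximalIdeal A).map (algebraMap A B) ≤ 𝔫 →
      ∀ i k, h26Centered B v 𝔫 i → h26Centered B v 𝔫 k → i = k)
    (w : F) (hw0 : w ≠ 0) (r : ℕ) (hr : (r : A) ≠ 0)
    (hrw : ∀ i, ∃ n : ℤ, v i w = exp (-((r : ℤ) * n)))
    (ϖ : A) (hϖ : ϖ ∈ maximalIdeal A) (hϖ0 : ϖ ≠ 0)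
    (hwU : w ∈ h26U ((r : A) ^ 2 * ϖ) V)
    (hnode : ∀ 𝔫 : Ideal B, 𝔫.IsMaximal → (maximalIdeal A).map (algebraMap A B) ≤ 𝔫 →
      𝔫 ∈ Nd → ∃ g ∈ h26U ((r : A) * ϖ) V, ∃ s : B, s ∉ 𝔫 ∧
        (s : F) * (w * (g ^ r)⁻¹) ∈ B ∧ (s : F) * (g ^ r * w⁻¹) ∈ B) :
    ∀ 𝔫 : Ideal B, 𝔫.IsMaximal →
      ∃ g : F, g ≠ 0 ∧
        ((maximalIdeal A).map (algebraMap A B) ≤ 𝔫 → g ∈ h26U ((r : A) * ϖ) V) ∧
        ∃ s : B, s ∉ 𝔫 ∧ (s : F) * (w * (g ^ r)⁻¹) ∈ B ∧ (s : F) * (g ^ r * w⁻¹) ∈ B := by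
  intro 𝔫 h𝔫
  have := h𝔫.isPrime
  have hπ : (r : A) * ϖ ∈ maximalIdeal A := Ideal.mul_mem_left _ _ hϖ
  have hπ0 : (r : A) * ϖ ≠ 0 := mul_ne_zero hr hϖ0
  have hwU' : w ∈ h26U ((r : A) * ((r : A) * ϖ)) V := by
    have h1 : (r : A) * ((r : A) * ϖ) = (r : A) ^ 2 * ϖ := by ring
    rw [h1]
    exact hwU
  by_cases hN : (maximalIdeal A).map (algebraMap A B) ≤ 𝔫 ∧ 𝔫 ∈ Nd
  · obtain ⟨g, hgU, s, hs, h1, h2⟩ := hnode 𝔫 h𝔫 hN.1 hN.2
    have hπF : algebraMap A F ((r : A) * ϖ) ≠ 0 := fun h0 =>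
      hπ0 (hAF (by rw [h0, map_zero]))
    exact ⟨g, h26U_ne_zero (h26_chart_nt hC 𝔫 hN.1 _ hπ hπF) hgU, fun _ => hgU, s, hs, h1, h2⟩
  · exact h91q_local_all_deep hC hAF harch Nd hSM hsec hgen w hw0 r hr hrw _ hπ hπ0 hwU' 𝔫 h𝔫
      (fun hle hNd => hN ⟨hle, hNd⟩)

end All

end Fermat.Agent.P6
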