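import Fermat.Agent.P6.H90DeepTor
import Fermat.Agent.P6.H91LocDeep
import Fermat.Agent.S35.H86TorGate

/-!
# P6 (wave 6, S33), block B2-TOR (helper90): the deep gate, local datum only at the nodes

`ℓ ∤ M` a prime, `M` a good level, `A` a valuation subring of `ℚ̄` over `ℓ`, `r > 0` ANY
exponent (`r = ℓ ^ k` in the application), `π ∈ 𝔪_A` nonzero.

* `h90p_locAt_smooth` : at a closed point of the special fibre of a chart with a refined smooth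
  datum (`S35.TorSmoothAt`) every `W ∈ 1 + r² π ssV` with `r ∣ div W` has the deep local datum
  `H90pLocAt` (helper91's deep local gate `h91q_local_gate_deep`; no Galois input).
* `h90p_deepTor_nodes` : at the good levels, a function `W ∈ 1 + r² π ssV` with `r ∣ div W`
  which has the deep local datum at the NODES (`S35.TorNodeAt`) of the special fibre of the
  finite chart is an `r`-th power.

So the only remaining input of the deep gate is the node datum (which carries the Galois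
input: it fails for a nontrivial toric cocycle).
-/

set_option autoImplicit false
set_option linter.unusedSectionVars false
set_option linter.style.haveILetI false

open AlgebraicCurve ModularCurve WithZero IsLocalRing

noncomputable section

namespace Fermat.Agent.P6

open Fermat.Agent.S37 Fermat.Agent.Red Fermat.Agent.Red.GG Fermat.Agent.Red.GV
  Fermat.Agent.Red.GV.Soft Fermat.Agent.Red.Kron Fermat.Agent.Red.ModelO Fermat.Agent.LGC
  Fermat.Agent.S35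

/-- **the deep local datum at a smooth closed point** of the special fibre of a chart. -/
theorem h90p_locAt_smooth (A : ValuationSubring Kbar) (M ℓ : ℕ) [NeZero M] [NeZero ℓ]
    (hℓ : ℓ.Prime) (hA : A.LiesOverPrime ℓ) (t : FF (M * ℓ))
    (hC : IfaceSSChart A M ℓ t) (hS : IfaceSSSection A M ℓ t) (hG : IfaceSSGeneric A M ℓ t)
    (r : ℕ) (hr : 0 < r) (W : FF (M * ℓ)) (hW0 : W ≠ 0)
    (hrW : ∀ i, ∃ n : ℤ, chartVal (M * ℓ) t i W = exp (-((r : ℤ) * n)))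
    (π : A) (hπ : π ∈ maximalIdeal A) (hπ0 : π ≠ 0)
    (hWU : W ∈ h26U ((r : A) ^ 2 * π) (ssV A M ℓ))
    (𝔫 : Ideal (chart (M * ℓ) A t)) (h𝔫 : 𝔫.IsMaximal) (hle : mExt A M ℓ t ≤ 𝔫)
    (hsm : TorSmoothAt A M ℓ t 𝔫) :
    H90pLocAt A M ℓ t r π W 𝔫 := by
  classical
  have hAF : Function.Injective (algebraMap A (FF (M * ℓ))) := algebraMap_injective_FF (M * ℓ) A
  have harch := harch_of_liesOver A hℓ hA
  have hr0 : r ≠ 0 := Nat.pos_iff_ne_zero.mp hr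
  have hrA : ((r : ℕ) : A) ≠ 0 := by
    intro h
    have h1 : ((r : ℕ) : Kbar) = 0 := by
      have := congrArg (fun x : A => (x : Kbar)) h
      simpa using this
    exact hr0 (Nat.cast_eq_zero.mp h1)
  have hrπ : (r : A) * π ∈ maximalIdeal A := Ideal.mul_mem_left _ _ hπ
  have hrπ0 : (r : A) * π ≠ 0 := mul_ne_zero hrA hπ0
  have hWU' : W ∈ h26U ((r : A) * ((r : A) * π)) (ssV A M ℓ) := by
    have h1 : (r : A) * ((r : A) * π) = (r : A) ^ 2 * π := by ring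
    rw [h1]
    exact hWU
  obtain ⟨g, -, hgU, s, hs, h1, h2⟩ := h91q_local_all_deep hC hAF harch
    {𝔫' | 𝔫' ≠ 𝔫}
    (fun 𝔫' _ _ hNd => by
      have h𝔫' : 𝔫' = 𝔫 := not_not.mp hNd
      subst h𝔫'
      exact hsm)
    hS hG W hW0 r hrA hrW ((r : A) * π) hrπ hrπ0 hWU' 𝔫 h𝔫 (fun _ hNd => hNd rfl)
  exact ⟨g, hgU hle, s, hs, h1, h2⟩

/-- **the deep gate at the good levels, local datum only at the nodes.** -/
theorem h90p_deepTor_nodes (ℓ : ℕ) (hℓ : ℓ.Prime) (M : ℕ) [NeZero M] (hM : ¬ ℓ ∣ M)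
    (haux : auxLevel ℓ ∣ M) (A : ValuationSubring Kbar) (hA : A.LiesOverPrime ℓ)
    (r : ℕ) (hr : 0 < r) :
    haveI : NeZero ℓ := ⟨hℓ.ne_zero⟩
    ∀ (W : FF (M * ℓ)), W ≠ 0 →
    (∀ v : Place Kbar (FF (M * ℓ)), (r : ℤ) ∣ v.ord W) →
    ∀ π : A, π ∈ maximalIdeal A → π ≠ 0 → W ∈ h26U ((r : A) ^ 2 * π) (ssV A M ℓ) →
    (∀ 𝔫 : Ideal (chart (M * ℓ) A (jSS M ℓ)), 𝔫.IsMaximal → mExt A M ℓ (jSS M ℓ) ≤ 𝔫 →
      TorNodeAt A M ℓ hℓ hM hA (jSS M ℓ) 𝔫 → H90pLocAt A M ℓ (jSS M ℓ) r π W 𝔫) →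
    ∃ f : FF (M * ℓ), f ^ r = W := by
  haveI : NeZero ℓ := ⟨hℓ.ne_zero⟩
  intro W hW0 hord π hπ hπ0 hWU hnode
  obtain ⟨hF₀, hF₁⟩ := ifaceSSFiniteAll ℓ hℓ M hM haux A hA
  obtain ⟨hLocal, hCusp, -⟩ := h86t_ifaceTorPieces ℓ hℓ M hM haux A hA
  have hrW₀ := exists_val_eq (M * ℓ) (jSS M ℓ) W hW0 r hord
  have hrW₁ := exists_val_eq (M * ℓ) (jSS M ℓ)⁻¹ W hW0 r hord
  refine h90p_deepTor ℓ hℓ M hM haux A hA r hr W hW0 hord π hπ hπ0 hWU ?_ ?_
  · intro 𝔫 h𝔫 hle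
    rcases hLocal 𝔫 h𝔫 hle with hsm | hnd
    · exact h90p_locAt_smooth A M ℓ hℓ hA (jSS M ℓ) (h85s_ifaceSSChart_fin A M ℓ hℓ hM hA)
        (h85s_ifaceSSSection_of A M ℓ _ hF₀) (h85s_ifaceSSGeneric_fin A M ℓ hℓ hA)
        r hr W hW0 hrW₀ π hπ hπ0 hWU 𝔫 h𝔫 hle hsm
    · exact hnode 𝔫 h𝔫 hle hnd
  · intro 𝔫 h𝔫 hle hcusp
    exact h90p_locAt_smooth A M ℓ hℓ hA (jSS M ℓ)⁻¹ (h85s_ifaceSSChart_inf A M ℓ hℓ hM hA)
      (h85s_ifaceSSSection_of A M ℓ _ hF₁) (h85s_ifaceSSGeneric_inf A M ℓ hℓ hA)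
      r hr W hW0 hrW₁ π hπ hπ0 hWU 𝔫 h𝔫 hle (hCusp 𝔫 h𝔫 hle hcusp)

end Fermat.Agent.P6
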