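import Fermat.Agent.P6.H13TorAsmP
import Fermat.Agent.P6.H90DeepNodes

/-!
# P6 (wave 6, S33), block B2-TOR (helper13): the smooth leaf is closed

* `h13q_smooth : H13qSmooth` (frozen leaf T2 of `P6/H13TorIfaceP.lean`), with `c₀ = r²`, from
  the landed deep local gate at the smooth closed points (`h90p_locAt_smooth`, helper90, on top
  of `h91q_local_all_deep`, helper91).
* `h13q_torGate_of_node : H13qNode → H13qApprox → H11TorGate`.
-/

set_option autoImplicit false
set_option linter.unusedSectionVars false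
set_option linter.style.haveILetI false

open AlgebraicCurve ModularCurve WithZero IsLocalRing

noncomputable section

namespace Fermat.Agent.P6

open Fermat.Agent.S37 Fermat.Agent.Red Fermat.Agent.Red.GG Fermat.Agent.Red.GV
  Fermat.Agent.Red.ModelO Fermat.Agent.Red.Kron Fermat.Agent.LGC Fermat.Agent.S35

/-- **T2**: the deep local datum at the smooth closed points of the two charts. -/
theorem h13q_smooth : H13qSmooth := by
  intro p hp _ M _ hM haux
  haveI : NeZero p := ⟨hp.ne_zero⟩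
  intro A hA k
  have hr : 0 < p ^ k := pow_pos hp.pos k
  have hrA : ((p ^ k : ℕ) : A) ≠ 0 := h13q_natCast_ne_zero A _ hr
  obtain ⟨hF₀, hF₁⟩ := ifaceSSFiniteAll p hp M hM haux A hA
  have hNt : IfaceSSNt A M p := h85s_ifaceSSNt A M p hp hM hA
  refine ⟨((p ^ k : ℕ) : A) ^ 2, pow_ne_zero 2 hrA, ?_⟩
  intro t ht 𝔫 h𝔫 hle hsm π hπ hπ0 W hWU hrW
  have hW0 : W ≠ 0 :=
    h26U_ne_zero (hNt _ (Ideal.mul_mem_left _ (((p ^ k : ℕ) : A) ^ 2) hπ)) hWU
  rcases ht with rfl | rfl
  · exact h90p_locAt_smooth A M p hp hA (jSS M p) (h85s_ifaceSSChart_fin A M p hp hM hA)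
      (h85s_ifaceSSSection_of A M p _ hF₀) (h85s_ifaceSSGeneric_fin A M p hp hA)
      (p ^ k) hr W hW0 hrW π hπ hπ0 hWU 𝔫 h𝔫 hle hsm
  · exact h90p_locAt_smooth A M p hp hA (jSS M p)⁻¹ (h85s_ifaceSSChart_inf A M p hp hM hA)
      (h85s_ifaceSSSection_of A M p _ hF₁) (h85s_ifaceSSGeneric_inf A M p hp hA)
      (p ^ k) hr W hW0 hrW π hπ hπ0 hWU 𝔫 h𝔫 hle hsm

/-- **TOR-GATE-p from the node leaf and the weak approximation.** -/
theorem h13q_torGate_of_node (hN : H13qNode) (hApp : H13qApprox) : H11TorGate :=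
  h13q_torGate_of h13q_smooth hN hApp

end Fermat.Agent.P6
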