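import Fermat.Agent.P6.H91LocDeep

/-!
# Wave 6 (S33), block B2-TOR, row B2-T3-NODE-NF16 (helper16): calculus at a closed point

`A` a valuation ring, `F` a field over `A`, `B ⊆ F` a chart, `𝔫` a prime of `B`.

* `h16nReg 𝔫 f` : `f ∈ B_𝔫`; `h16nVan 𝔫 f` : `f ∈ 𝔫 B_𝔫`; `h16nSm 𝔫 f` : `f ∈ 𝔪_A B_𝔫`;
  `h16nSmW W f` : `f ∈ 𝔪_A W` for a subring `W`.
* `h16n_split` : `P(t) = L + t ^ j (P_j + t U')`, `L ∈ 𝔪_A B_𝔫`, if the coefficients of `P`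
  below `j` are in `𝔪_A`, for ANY `t ∈ B_𝔫` (not necessarily in `B`).
* `h16n_aeval_unit` : the Gauss property: `P(t)` is a unit of a branch `W` if `t ∈ 𝔫 B_𝔫` is a
  unit of `W` and `P` has a unit coefficient.
* `h16n_branch` : **the branch lemma** (Weierstrass step on one branch): if
  `f N(t) + Q(t) ∈ 𝔪_A W` with `N ≡ X ^ d` modulo `𝔪_A`, `N_d = 1`, `f ∈ B_𝔫`, then the
  coefficients of `Q` below `d` are in `𝔪_A` and `f + Q_d ∈ 𝔫 B_𝔫`.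
* `h16n_common_content` : the common content of two polynomials over a valuation ring.
-/

set_option autoImplicit false
set_option linter.unusedSectionVars false
set_option linter.unusedVariables false
set_option linter.style.haveILetI false

open IsLocalRing Polynomial

namespace Fermat.Agent.P6

section Calc

variable {A : Type*} [CommRing A] [IsDomain A] [ValuationRing A]
  {F : Type*} [Field F] [Algebra A F] {B : Subalgebra A F}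

/-- `f` is regular at `𝔫`: `f ∈ B_𝔫`. -/
def h16nReg (𝔫 : Ideal B) (f : F) : Prop := ∃ s : B, s ∉ 𝔫 ∧ (s : F) * f ∈ B

/-- `f` vanishes at `𝔫`: `f ∈ 𝔫 B_𝔫`. -/
def h16nVan (𝔫 : Ideal B) (f : F) : Prop :=
  ∃ s : B, s ∉ 𝔫 ∧ ∃ b : B, b ∈ 𝔫 ∧ (s : F) * f = (b : F)

/-- `f ∈ 𝔪_A B_𝔫`. -/
def h16nSm (𝔫 : Ideal B) (f : F) : Prop :=
  ∃ m ∈ maximalIdeal A, ∃ ρ : F, h16nReg 𝔫 ρ ∧ f = algebraMap A F m * ρ

/-- `f ∈ 𝔪_A W`. -/
def h16nSmW (W : Subring F) (f : F) : Prop :=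
  ∃ m ∈ maximalIdeal A, ∃ ω ∈ W, f = algebraMap A F m * ω

variable (𝔫 : Ideal B) [h𝔫 : 𝔫.IsPrime]

theorem h16n_one_notMem : (1 : B) ∉ 𝔫 := (Ideal.ne_top_iff_one 𝔫).mp h𝔫.ne_top

theorem h16n_mul_notMem {s s' : B} (hs : s ∉ 𝔫) (hs' : s' ∉ 𝔫) : s * s' ∉ 𝔫 := fun h =>
  (h𝔫.mem_or_mem h).elim hs hs'

theorem h16n_coe_ne_zero {s : B} (hs : s ∉ 𝔫) : (s : F) ≠ 0 := by
  intro h0
  apply hs
  have : s = 0 := Subtype.ext h0
  rw [this]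
  exact 𝔫.zero_mem

theorem h16n_reg_coe (b : B) : h16nReg 𝔫 (b : F) :=
  ⟨1, h16n_one_notMem 𝔫, by simp⟩

theorem h16n_reg_algebraMap (a : A) : h16nReg 𝔫 (algebraMap A F a) :=
  h16n_reg_coe 𝔫 (algebraMap A B a)

theorem h16n_reg_zero : h16nReg 𝔫 (0 : F) := by
  simpa using h16n_reg_coe 𝔫 (0 : B)

theorem h16n_reg_one : h16nReg 𝔫 (1 : F) := by
  simpa using h16n_reg_coe 𝔫 (1 : B)

variable {𝔫}

theorem h16n_reg_add {f g : F} (hf : h16nReg 𝔫 f) (hg : h16nReg 𝔫 g) : h16nReg 𝔫 (f + g) := by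
  obtain ⟨s, hs, h1⟩ := hf
  obtain ⟨s', hs', h2⟩ := hg
  refine ⟨s * s', h16n_mul_notMem 𝔫 hs hs', ?_⟩
  have e : ((s * s' : B) : F) * (f + g) = (s' : F) * ((s : F) * f) + (s : F) * ((s' : F) * g) := by
    push_cast
    ring
  rw [e]
  exact add_mem (mul_mem s'.2 h1) (mul_mem s.2 h2)

theorem h16n_reg_mul {f g : F} (hf : h16nReg 𝔫 f) (hg : h16nReg 𝔫 g) : h16nReg 𝔫 (f * g) := by
  obtain ⟨s, hs, h1⟩ := hf
  obtain ⟨s', hs', h2⟩ := hg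
  refine ⟨s * s', h16n_mul_notMem 𝔫 hs hs', ?_⟩
  have e : ((s * s' : B) : F) * (f * g) = ((s : F) * f) * ((s' : F) * g) := by
    push_cast
    ring
  rw [e]
  exact mul_mem h1 h2

theorem h16n_reg_neg {f : F} (hf : h16nReg 𝔫 f) : h16nReg 𝔫 (-f) := by
  obtain ⟨s, hs, h1⟩ := hf
  exact ⟨s, hs, by rw [mul_neg]; exact neg_mem h1⟩

theorem h16n_reg_sub {f g : F} (hf : h16nReg 𝔫 f) (hg : h16nReg 𝔫 g) : h16nReg 𝔫 (f - g) := by
  rw [sub_eq_add_neg]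
  exact h16n_reg_add hf (h16n_reg_neg hg)

theorem h16n_reg_pow {f : F} (hf : h16nReg 𝔫 f) (k : ℕ) : h16nReg 𝔫 (f ^ k) := by
  induction k with
  | zero => rw [pow_zero]; exact h16n_reg_one 𝔫
  | succ k ih => rw [pow_succ]; exact h16n_reg_mul ih hf

theorem h16n_reg_aeval {t : F} (ht : h16nReg 𝔫 t) (P : A[X]) : h16nReg 𝔫 (aeval t P) := by
  induction P using Polynomial.induction_on' with
  | add p q hp hq => rw [map_add]; exact h16n_reg_add hp hq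
  | monomial k a =>
    rw [aeval_monomial]
    exact h16n_reg_mul (h16n_reg_algebraMap 𝔫 a) (h16n_reg_pow ht k)

theorem h16n_van_reg {f : F} (hf : h16nVan 𝔫 f) : h16nReg 𝔫 f := by
  obtain ⟨s, hs, b, -, h1⟩ := hf
  exact ⟨s, hs, by rw [h1]; exact b.2⟩

theorem h16n_van_coe {b : B} (hb : b ∈ 𝔫) : h16nVan 𝔫 (b : F) :=
  ⟨1, h16n_one_notMem 𝔫, b, hb, by simp⟩

theorem h16n_van_zero : h16nVan 𝔫 (0 : F) := by
  simpa using h16n_van_coe (𝔫 := 𝔫) (b := 0) 𝔫.zero_mem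

theorem h16n_van_add {f g : F} (hf : h16nVan 𝔫 f) (hg : h16nVan 𝔫 g) : h16nVan 𝔫 (f + g) := by
  obtain ⟨s, hs, b, hb, h1⟩ := hf
  obtain ⟨s', hs', b', hb', h2⟩ := hg
  refine ⟨s * s', h16n_mul_notMem 𝔫 hs hs', s' * b + s * b',
    𝔫.add_mem (𝔫.mul_mem_left _ hb) (𝔫.mul_mem_left _ hb'), ?_⟩
  push_cast
  rw [← h1, ← h2]
  ring

theorem h16n_van_neg {f : F} (hf : h16nVan 𝔫 f) : h16nVan 𝔫 (-f) := by
  obtain ⟨s, hs, b, hb, h1⟩ := hf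
  refine ⟨s, hs, -b, 𝔫.neg_mem hb, ?_⟩
  push_cast
  rw [← h1]
  ring

theorem h16n_van_mul_reg {f g : F} (hf : h16nVan 𝔫 f) (hg : h16nReg 𝔫 g) :
    h16nVan 𝔫 (f * g) := by
  obtain ⟨s, hs, b, hb, h1⟩ := hf
  obtain ⟨s', hs', h2⟩ := hg
  refine ⟨s * s', h16n_mul_notMem 𝔫 hs hs', b * ⟨_, h2⟩, 𝔫.mul_mem_right _ hb, ?_⟩
  push_cast
  rw [← h1]
  ring

theorem h16n_van_reg_mul {f g : F} (hf : h16nReg 𝔫 f) (hg : h16nVan 𝔫 g) :
    h16nVan 𝔫 (f * g) := by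
  rw [mul_comm]
  exact h16n_van_mul_reg hg hf

/-- if `f + g` and `g` vanish then `f` vanishes. -/
theorem h16n_van_of_add {f g : F} (hfg : h16nVan 𝔫 (f + g)) (hg : h16nVan 𝔫 g) :
    h16nVan 𝔫 f := by
  have := h16n_van_add hfg (h16n_van_neg hg)
  simpa using this

theorem h16n_not_van_unit {a : A} (ha : IsUnit a) : ¬ h16nVan 𝔫 (algebraMap A F a) := by
  rintro ⟨s, hs, b, hb, h1⟩
  have h2 : s * algebraMap A B a = b := by
    apply Subtype.ext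
    simpa using h1
  have h3 : s * algebraMap A B a ∈ 𝔫 := by rw [h2]; exact hb
  rcases h𝔫.mem_or_mem h3 with h4 | h4
  · exact hs h4
  · exact h𝔫.ne_top (Ideal.eq_top_of_isUnit_mem _ h4 (ha.map (algebraMap A B)))

theorem h16n_mem_of_van_const {a : A} (ha : h16nVan 𝔫 (algebraMap A F a)) :
    a ∈ maximalIdeal A := by
  by_contra h
  exact h16n_not_van_unit (IsLocalRing.notMem_maximalIdeal.mp h) ha

/-- a regular function lies in every branch. -/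
theorem h16n_reg_mem (W : Subring F) (hBW : ∀ b : B, (b : F) ∈ W)
    (hnW : ∀ b : B, b ∉ 𝔫 → ((b : F))⁻¹ ∈ W) {f : F} (hf : h16nReg 𝔫 f) : f ∈ W := by
  obtain ⟨s, hs, h1⟩ := hf
  have hs0 := h16n_coe_ne_zero 𝔫 hs
  have e : f = ((s : F))⁻¹ * ((s : F) * f) := by field_simp
  rw [e]
  exact W.mul_mem (hnW s hs) (hBW ⟨_, h1⟩)

/-- a regular function which does not vanish is a unit of every branch. -/
theorem h16n_unit_inv_mem (W : Subring F) (hBW : ∀ b : B, (b : F) ∈ W)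
    (hnW : ∀ b : B, b ∉ 𝔫 → ((b : F))⁻¹ ∈ W) {f : F} (hf : h16nReg 𝔫 f)
    (hfv : ¬ h16nVan 𝔫 f) : f⁻¹ ∈ W := by
  obtain ⟨s, hs, h1⟩ := hf
  have hs0 := h16n_coe_ne_zero 𝔫 hs
  have hb : (⟨_, h1⟩ : B) ∉ 𝔫 := fun hb => hfv ⟨s, hs, ⟨_, h1⟩, hb, rfl⟩
  have hb0 := h16n_coe_ne_zero 𝔫 hb
  have hf0 : f ≠ 0 := by
    intro h0
    apply hb0
    show (s : F) * f = 0
    rw [h0, mul_zero]
  have e : f⁻¹ = (s : F) * (((⟨_, h1⟩ : B) : F))⁻¹ := by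
    show f⁻¹ = (s : F) * ((s : F) * f)⁻¹
    field_simp
  rw [e]
  exact W.mul_mem (hBW s) (hnW _ hb)

theorem h16n_ne_zero_of_not_van {f : F} (hfv : ¬ h16nVan 𝔫 f) : f ≠ 0 := by
  rintro rfl
  exact hfv h16n_van_zero

/-! ### small elements -/

theorem h16n_sm_zero : h16nSm 𝔫 (0 : F) :=
  ⟨0, zero_mem _, 0, h16n_reg_zero 𝔫, by simp⟩

theorem h16n_sm_const {m : A} (hm : m ∈ maximalIdeal A) : h16nSm 𝔫 (algebraMap A F m) :=
  ⟨m, hm, 1, h16n_reg_one 𝔫, by simp⟩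

theorem h16n_sm_add {f g : F} (hf : h16nSm 𝔫 f) (hg : h16nSm 𝔫 g) : h16nSm 𝔫 (f + g) := by
  obtain ⟨m, hm, ρ, hρ, rfl⟩ := hf
  obtain ⟨m', hm', ρ', hρ', rfl⟩ := hg
  rcases ValuationRing.dvd_total m m' with ⟨a, rfl⟩ | ⟨a, rfl⟩
  · exact ⟨m, hm, ρ + algebraMap A F a * ρ',
      h16n_reg_add hρ (h16n_reg_mul (h16n_reg_algebraMap 𝔫 a) hρ'), by rw [map_mul]; ring⟩
  · exact ⟨m', hm', algebraMap A F a * ρ + ρ',
      h16n_reg_add (h16n_reg_mul (h16n_reg_algebraMap 𝔫 a) hρ) hρ', by rw [map_mul]; ring⟩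

theorem h16n_sm_mul_reg {f g : F} (hf : h16nSm 𝔫 f) (hg : h16nReg 𝔫 g) : h16nSm 𝔫 (f * g) := by
  obtain ⟨m, hm, ρ, hρ, rfl⟩ := hf
  exact ⟨m, hm, ρ * g, h16n_reg_mul hρ hg, by ring⟩

theorem h16n_smW_of_sm (W : Subring F) (hBW : ∀ b : B, (b : F) ∈ W)
    (hnW : ∀ b : B, b ∉ 𝔫 → ((b : F))⁻¹ ∈ W) {f : F} (hf : h16nSm 𝔫 f) : h16nSmW (A := A) W f := by
  obtain ⟨m, hm, ρ, hρ, rfl⟩ := hf
  exact ⟨m, hm, ρ, h16n_reg_mem W hBW hnW hρ, rfl⟩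

theorem h16n_smW_sub (W : Subring F) (hAW : ∀ a : A, algebraMap A F a ∈ W) {f g : F}
    (hf : h16nSmW (A := A) W f) (hg : h16nSmW (A := A) W g) : h16nSmW (A := A) W (f - g) := by
  obtain ⟨m, hm, ρ, hρ, rfl⟩ := hf
  obtain ⟨m', hm', ρ', hρ', rfl⟩ := hg
  rcases ValuationRing.dvd_total m m' with ⟨a, rfl⟩ | ⟨a, rfl⟩
  · exact ⟨m, hm, ρ - algebraMap A F a * ρ',
      W.sub_mem hρ (W.mul_mem (hAW a) hρ'), by rw [map_mul]; ring⟩
  · exact ⟨m', hm', algebraMap A F a * ρ - ρ',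
      W.sub_mem (W.mul_mem (hAW a) hρ) hρ', by rw [map_mul]; ring⟩

/-! ### the splitting of a polynomial value -/

/-- `P(t) = L + t ^ j (P_j + t U')` with `L ∈ 𝔪_A B_𝔫`, if the coefficients of `P` below `j`
lie in `𝔪_A`. -/
theorem h16n_split {t : F} (ht : h16nReg 𝔫 t) (j : ℕ) (P : A[X])
    (hP : ∀ i < j, P.coeff i ∈ maximalIdeal A) :
    ∃ L U' : F, h16nSm 𝔫 L ∧ h16nReg 𝔫 U' ∧
      aeval t P = L + t ^ j * (algebraMap A F (P.coeff j) + t * U') := by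
  induction j generalizing P with
  | zero =>
    refine ⟨0, aeval t P.divX, h16n_sm_zero, h16n_reg_aeval ht _, ?_⟩
    conv_lhs => rw [← Polynomial.divX_mul_X_add P]
    rw [map_add, map_mul, aeval_X, aeval_C]
    ring
  | succ j ih =>
    obtain ⟨L, U', hL, hU', h1⟩ := ih P.divX (fun i hi => by
      rw [Polynomial.coeff_divX]
      exact hP (i + 1) (by omega))
    refine ⟨L * t + algebraMap A F (P.coeff 0), U',
      h16n_sm_add (h16n_sm_mul_reg hL ht) (h16n_sm_const (hP 0 (by omega))), hU', ?_⟩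
    conv_lhs => rw [← Polynomial.divX_mul_X_add P]
    rw [map_add, map_mul, aeval_X, aeval_C, h1, Polynomial.coeff_divX]
    ring

/-- **the basic contradiction**: `t ^ j U`, `U` a unit at `𝔫`, `t` a unit of the branch `W`, is
not in `𝔪_A W`. -/
theorem h16n_unit_not_sm (W : Subring F) (hBW : ∀ b : B, (b : F) ∈ W)
    (hnW : ∀ b : B, b ∉ 𝔫 → ((b : F))⁻¹ ∈ W)
    (hntW : ∀ m ∈ maximalIdeal A, ∀ x ∈ W, algebraMap A F m * x ≠ 1)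
    {t : F} (ht0 : t ≠ 0) (htW : t⁻¹ ∈ W) (j : ℕ) {U : F} (hU : h16nReg 𝔫 U)
    (hUv : ¬ h16nVan 𝔫 U) (h : h16nSmW (A := A) W (t ^ j * U)) : False := by
  obtain ⟨m, hm, ω, hω, h1⟩ := h
  have hU0 := h16n_ne_zero_of_not_van hUv
  have hUi := h16n_unit_inv_mem W hBW hnW hU hUv
  apply hntW m hm (ω * (t⁻¹ ^ j * U⁻¹)) (W.mul_mem hω (W.mul_mem (W.pow_mem htW j) hUi))
  rw [← mul_assoc, ← h1, inv_pow]
  have := pow_ne_zero j ht0
  field_simp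

/-- **the Gauss property**: a polynomial with a unit coefficient takes a unit value of the
branch `W` at a function `t ∈ 𝔫 B_𝔫` which is a unit of `W`. -/
theorem h16n_aeval_unit (W : Subring F) (hBW : ∀ b : B, (b : F) ∈ W)
    (hnW : ∀ b : B, b ∉ 𝔫 → ((b : F))⁻¹ ∈ W)
    (hinvW : ∀ π ∈ maximalIdeal A, ∀ x ∈ W, (1 + algebraMap A F π * x)⁻¹ ∈ W)
    (hntW : ∀ m ∈ maximalIdeal A, ∀ x ∈ W, algebraMap A F m * x ≠ 1)
    {t : F} (htv : h16nVan 𝔫 t) (ht0 : t ≠ 0) (htW : t⁻¹ ∈ W) (j : ℕ) (P : A[X])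
    (hP : ∀ i < j, P.coeff i ∈ maximalIdeal A) (hPj : IsUnit (P.coeff j)) :
    aeval t P ≠ 0 ∧ (aeval t P)⁻¹ ∈ W := by
  obtain ⟨L, U', hL, hU', h1⟩ := h16n_split (h16n_van_reg htv) j P hP
  set U : F := algebraMap A F (P.coeff j) + t * U' with hU
  have hUr : h16nReg 𝔫 U :=
    h16n_reg_add (h16n_reg_algebraMap 𝔫 _) (h16n_reg_mul (h16n_van_reg htv) hU')
  have hUv : ¬ h16nVan 𝔫 U := fun hv =>
    h16n_not_van_unit hPj (h16n_van_of_add hv (h16n_van_mul_reg htv hU'))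
  have hU0 := h16n_ne_zero_of_not_van hUv
  have hUi := h16n_unit_inv_mem W hBW hnW hUr hUv
  obtain ⟨m, hm, ρ, hρ, rfl⟩ := hL
  have hρW := h16n_reg_mem W hBW hnW hρ
  set X₀ : F := t ^ j * U with hX₀
  have hX₀0 : X₀ ≠ 0 := mul_ne_zero (pow_ne_zero j ht0) hU0
  have hX₀i : X₀⁻¹ ∈ W := by
    rw [hX₀, mul_inv, ← inv_pow]
    exact W.mul_mem (W.pow_mem htW j) hUi
  have hz := hinvW m hm (ρ * X₀⁻¹) (W.mul_mem hρW hX₀i)
  have e : aeval t P = X₀ * (1 + algebraMap A F m * (ρ * X₀⁻¹)) := by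
    rw [h1]
    field_simp
    ring
  have hne : (1 + algebraMap A F m * (ρ * X₀⁻¹)) ≠ 0 := by
    intro h0
    apply hntW m hm (-(ρ * X₀⁻¹)) (W.neg_mem (W.mul_mem hρW hX₀i))
    linear_combination -h0
  refine ⟨by rw [e]; exact mul_ne_zero hX₀0 hne, ?_⟩
  rw [e, mul_inv]
  exact W.mul_mem hX₀i hz

/-- **The branch lemma** (Weierstrass step on one branch).  `t ∈ 𝔫 B_𝔫` a unit of the branch
`W`, `N ≡ X ^ d` below the degree `d` with `N_d = 1`, `f ∈ B_𝔫`.  If `f N(t) + Q(t) ∈ 𝔪_A W`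
then the coefficients of `Q` below `d` lie in `𝔪_A` and `f + Q_d` vanishes at `𝔫`. -/
theorem h16n_branch (W : Subring F) (hBW : ∀ b : B, (b : F) ∈ W)
    (hnW : ∀ b : B, b ∉ 𝔫 → ((b : F))⁻¹ ∈ W)
    (hntW : ∀ m ∈ maximalIdeal A, ∀ x ∈ W, algebraMap A F m * x ≠ 1)
    {t : F} (htv : h16nVan 𝔫 t) (ht0 : t ≠ 0) (htW : t⁻¹ ∈ W)
    (N Q : A[X]) (d : ℕ) (hNd : N.coeff d = 1) (hNlow : ∀ i < d, N.coeff i ∈ maximalIdeal A)
    {f : F} (hf : h16nReg 𝔫 f)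
    (h : h16nSmW (A := A) W (f * aeval t N + aeval t Q)) :
    (∀ i < d, Q.coeff i ∈ maximalIdeal A) ∧ h16nVan 𝔫 (f + algebraMap A F (Q.coeff d)) := by
  classical
  have hAW : ∀ a : A, algebraMap A F a ∈ W := fun a => hBW (algebraMap A B a)
  have htr := h16n_van_reg htv
  obtain ⟨LN, UN, hLN, hUN, hN⟩ := h16n_split htr d N hNlow
  rw [hNd, map_one] at hN
  have hlow : ∀ i < d, Q.coeff i ∈ maximalIdeal A := by
    by_contra hcon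
    push Not at hcon
    have hex : ∃ i, i < d ∧ Q.coeff i ∉ maximalIdeal A := hcon
    set j₀ := Nat.find hex with hj₀
    obtain ⟨hj₀d, hj₀u⟩ := Nat.find_spec hex
    have hbelow : ∀ i < j₀, Q.coeff i ∈ maximalIdeal A := by
      intro i hi
      by_contra hni
      exact Nat.find_min hex hi ⟨lt_trans hi hj₀d, hni⟩
    have hunit : IsUnit (Q.coeff j₀) := IsLocalRing.notMem_maximalIdeal.mp hj₀u
    obtain ⟨LQ, UQ, hLQ, hUQ, hQ⟩ := h16n_split htr j₀ Q hbelow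
    obtain ⟨k, hk⟩ : ∃ k, d = j₀ + (k + 1) := ⟨d - j₀ - 1, by omega⟩
    set R : F := UQ + f * t ^ k * (1 + t * UN) with hR
    have hRr : h16nReg 𝔫 R :=
      h16n_reg_add hUQ (h16n_reg_mul (h16n_reg_mul hf (h16n_reg_pow htr k))
        (h16n_reg_add (h16n_reg_one 𝔫) (h16n_reg_mul htr hUN)))
    set U : F := algebraMap A F (Q.coeff j₀) + t * R with hU
    have hUr : h16nReg 𝔫 U :=
      h16n_reg_add (h16n_reg_algebraMap 𝔫 _) (h16n_reg_mul htr hRr)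
    have hUv : ¬ h16nVan 𝔫 U := fun hv =>
      h16n_not_van_unit hunit (h16n_van_of_add hv (h16n_van_mul_reg htv hRr))
    have hsm : h16nSm 𝔫 (f * LN + LQ) :=
      h16n_sm_add (by rw [mul_comm]; exact h16n_sm_mul_reg hLN hf) hLQ
    have e : t ^ j₀ * U = (f * aeval t N + aeval t Q) - (f * LN + LQ) := by
      rw [hN, hQ, hU, hR, hk]
      ring
    refine h16n_unit_not_sm W hBW hnW hntW ht0 htW j₀ hUr hUv ?_
    rw [e]
    exact h16n_smW_sub W hAW h (h16n_smW_of_sm W hBW hnW hsm)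
  refine ⟨hlow, ?_⟩
  by_contra hv
  obtain ⟨LQ, UQ, hLQ, hUQ, hQ⟩ := h16n_split htr d Q hlow
  set R : F := f * UN + UQ with hR
  have hRr : h16nReg 𝔫 R := h16n_reg_add (h16n_reg_mul hf hUN) hUQ
  set U : F := (f + algebraMap A F (Q.coeff d)) + t * R with hU
  have hUr : h16nReg 𝔫 U :=
    h16n_reg_add (h16n_reg_add hf (h16n_reg_algebraMap 𝔫 _)) (h16n_reg_mul htr hRr)
  have hUv : ¬ h16nVan 𝔫 U := fun hv' =>
    hv (h16n_van_of_add hv' (h16n_van_mul_reg htv hRr))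
  have hsm : h16nSm 𝔫 (f * LN + LQ) :=
    h16n_sm_add (by rw [mul_comm]; exact h16n_sm_mul_reg hLN hf) hLQ
  have e : t ^ d * U = (f * aeval t N + aeval t Q) - (f * LN + LQ) := by
    rw [hN, hQ, hU, hR]
    ring
  refine h16n_unit_not_sm W hBW hnW hntW ht0 htW d hUr hUv ?_
  rw [e]
  exact h16n_smW_sub W hAW h (h16n_smW_of_sm W hBW hnW hsm)

end Calc

section Content

variable {A : Type*} [CommRing A] [IsDomain A] [ValuationRing A]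

/-- **the common content of two polynomials**: if `c` does not divide all the coefficients of
`P₁` and `P₂`, there is a strict divisor `e₀` of `c` with `P₁ = e₀ Q₁`, `P₂ = e₀ Q₂` and a
coefficient of `Q₁` or of `Q₂` equal to `1`. -/
theorem h16n_common_content (P₁ P₂ : A[X]) (c : A)
    (h : ¬ ((∀ j, c ∣ P₁.coeff j) ∧ (∀ j, c ∣ P₂.coeff j))) :
    ∃ (e₀ m : A) (Q₁ Q₂ : A[X]), e₀ ≠ 0 ∧ m ∈ maximalIdeal A ∧ c = e₀ * m ∧
      P₁ = C e₀ * Q₁ ∧ P₂ = C e₀ * Q₂ ∧ ((∃ j, Q₁.coeff j = 1) ∨ (∃ j, Q₂.coeff j = 1)) := by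
  by_cases h1 : ∀ j, c ∣ P₁.coeff j
  · have h2 : ¬ ∀ j, c ∣ P₂.coeff j := fun h2 => h ⟨h1, h2⟩
    obtain ⟨π, c', G, hπ0, hG, hG1, hc, hc'⟩ := h91q_content_dichotomy P₂ c h2
    have h3 : ∀ j, π ∣ P₁.coeff j := fun j => (Dvd.intro _ hc.symm).trans (h1 j)
    obtain ⟨Q₁, hQ₁⟩ := (Polynomial.C_dvd_iff_dvd_coeff _ _).mpr h3
    exact ⟨π, c', Q₁, G, hπ0, hc', hc, hQ₁, hG, Or.inr hG1⟩
  · obtain ⟨π₁, c₁, G₁, hπ₁0, hG₁, hG₁1, hc₁, hc₁'⟩ := h91q_content_dichotomy P₁ c h1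
    by_cases h2 : ∀ j, c ∣ P₂.coeff j
    · have h3 : ∀ j, π₁ ∣ P₂.coeff j := fun j => (Dvd.intro _ hc₁.symm).trans (h2 j)
      obtain ⟨Q₂, hQ₂⟩ := (Polynomial.C_dvd_iff_dvd_coeff _ _).mpr h3
      exact ⟨π₁, c₁, G₁, Q₂, hπ₁0, hc₁', hc₁, hG₁, hQ₂, Or.inl hG₁1⟩
    · obtain ⟨π₂, c₂, G₂, hπ₂0, hG₂, hG₂1, hc₂, hc₂'⟩ := h91q_content_dichotomy P₂ c h2
      rcases ValuationRing.dvd_total π₁ π₂ with ⟨a, ha⟩ | ⟨a, ha⟩
      · refine ⟨π₁, c₁, G₁, C a * G₂, hπ₁0, hc₁', hc₁, hG₁, ?_, Or.inl hG₁1⟩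
        rw [hG₂, ha, C_mul]
        ring
      · refine ⟨π₂, c₂, C a * G₁, G₂, hπ₂0, hc₂', hc₂, ?_, hG₂, Or.inr hG₂1⟩
        rw [hG₁, ha, C_mul]
        ring

end Content

end Fermat.Agent.P6
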