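import Fermat.Agent.P6.H16NodeCalc

/-!
# Wave 6 (S33), block B2-TOR, row B2-T3-NODE-NF16 (helper16): the deep core at a node

Abstract two-sided content induction.  `𝔫` a closed point lying on two branches `W∞`, `W₀`
(valuation rings of the two components), `tx, ty ∈ 𝔫 B_𝔫` the two branch parameters (`tx` a unit
of `W∞`, `ty` a unit of `W₀`).  A function `g₁` with the two Weierstrass presentations

  `g₁ = N₀(tx) / D₀(tx) = κ · N₁(ty) / D₁(ty)`

(`N₀, D₀, N₁, D₁` monic, `≡ X ^ m₀` modulo `𝔪_A`, `κ ∈ A^×`) and `u = e · g₁ ^ r ≡ 1` modulo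
`r c V`, `e ∈ B_𝔫`.  Then

  `g₁ ≡ 1` modulo `c W∞`,  `g₁ / κ ≡ 1` modulo `c W₀`,  `r c ∣ κ ^ r - 1`.

Proof: let `e₀` be the common content of `N₀^r - D₀^r`, `κ^r N₁^r - D₁^r` and `r c`; if `e₀`
strictly divides `r c` then `f = (e - 1) / e₀` lies in `W∞ ∩ W₀`, hence in `B_𝔫` (QEP), and the
branch lemma `h16n_branch` on both branches shows that the two quotients by `e₀` are `≡ 0`
modulo `𝔪_A`: contradiction.  Then `h91q_root_content` (helper91) extracts the `r`-th roots.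
-/

set_option autoImplicit false
set_option linter.unusedSectionVars false
set_option linter.unusedVariables false
set_option linter.style.haveILetI false

open WithZero IsLocalRing Polynomial

namespace Fermat.Agent.P6

open Fermat.Agent.Red

section Core

variable {A : Type*} [CommRing A] [IsDomain A] [ValuationRing A]

/-- coefficients of a monic polynomial which is `≡ X ^ d` modulo the maximal ideal. -/
theorem h16n_coeff_of_res (N : A[X]) (hN : N.Monic) (d : ℕ)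
    (hr : N.map (residue A) = X ^ d) :
    N.natDegree = d ∧ N.coeff d = 1 ∧ (∀ i < d, N.coeff i ∈ maximalIdeal A) ∧
      ∀ i, d < i → N.coeff i = 0 := by
  have h1 : N.natDegree = d := by
    have h2 := hN.natDegree_map (residue A)
    rw [hr, natDegree_X_pow] at h2
    exact h2.symm
  refine ⟨h1, ?_, ?_, ?_⟩
  · rw [← h1]
    exact hN.coeff_natDegree
  · intro i hi
    have h2 : (N.map (residue A)).coeff i = 0 := by
      rw [hr, coeff_X_pow, if_neg (ne_of_lt hi)]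
    rw [coeff_map] at h2
    exact (residue_eq_zero_iff _).mp h2
  · intro i hi
    exact coeff_eq_zero_of_natDegree_lt (by rw [h1]; exact hi)

theorem h16n_one_notMem_max : (1 : A) ∉ maximalIdeal A :=
  (Ideal.ne_top_iff_one _).mp (maximalIdeal.isMaximal A).ne_top

/-- a polynomial with all coefficients in the maximal ideal has no coefficient `1`. -/
theorem h16n_no_one (Q : A[X]) (d : ℕ) (hlow : ∀ i < d, Q.coeff i ∈ maximalIdeal A)
    (hd : Q.coeff d ∈ maximalIdeal A) (hhigh : ∀ i, d < i → Q.coeff i = 0) :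
    ¬ ∃ j, Q.coeff j = 1 := by
  rintro ⟨j, hj⟩
  rcases lt_trichotomy j d with h | h | h
  · exact h16n_one_notMem_max (hj ▸ hlow j h)
  · exact h16n_one_notMem_max (hj ▸ (h ▸ hd))
  · have := hhigh j h
    rw [hj] at this
    exact one_ne_zero this

variable {F : Type*} [Field F] [Algebra A F]
  {B : Subalgebra A F} {V : Subring F} {ι : Type*} {v : ι → Valuation F ℤᵐ⁰}

set_option maxHeartbeats 1600000 in
/-- **The deep core at a node.** -/
theorem h16n_deep_core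
    (hC : H26Chart B V v) (hAF : Function.Injective (algebraMap A F))
    (Winf W0 : Subring F)
    (hVWinf : ∀ x ∈ V, x ∈ Winf) (hVW0 : ∀ x ∈ V, x ∈ W0)
    (hWV : ∀ x : F, x ∈ Winf → x ∈ W0 → x ∈ V)
    (hinvinf : ∀ π ∈ maximalIdeal A, ∀ x ∈ Winf, (1 + algebraMap A F π * x)⁻¹ ∈ Winf)
    (hinv0 : ∀ π ∈ maximalIdeal A, ∀ x ∈ W0, (1 + algebraMap A F π * x)⁻¹ ∈ W0)
    (hntinf : ∀ π ∈ maximalIdeal A, ∀ x ∈ Winf, algebraMap A F π * x ≠ 1)
    (hnt0 : ∀ π ∈ maximalIdeal A, ∀ x ∈ W0, algebraMap A F π * x ≠ 1)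
    (𝔫 : Ideal B) [h𝔫 : 𝔫.IsPrime]
    (hninf : ∀ b : B, b ∉ 𝔫 → ((b : F))⁻¹ ∈ Winf)
    (hn0 : ∀ b : B, b ∉ 𝔫 → ((b : F))⁻¹ ∈ W0)
    (tx ty : F) (htx : h16nVan 𝔫 tx) (hty : h16nVan 𝔫 ty) (htx0 : tx ≠ 0) (hty0 : ty ≠ 0)
    (htxW : tx⁻¹ ∈ Winf) (htyW : ty⁻¹ ∈ W0)
    (m₀ : ℕ) (N₀ D₀ N₁ D₁ : A[X])
    (hN₀ : N₀.Monic) (hD₀ : D₀.Monic) (hN₁ : N₁.Monic) (hD₁ : D₁.Monic)
    (hN₀r : N₀.map (residue A) = X ^ m₀) (hD₀r : D₀.map (residue A) = X ^ m₀)
    (hN₁r : N₁.map (residue A) = X ^ m₀) (hD₁r : D₁.map (residue A) = X ^ m₀)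
    (κ : A) (hκ : IsUnit κ) (g₁ : F)
    (hgx : g₁ * aeval tx D₀ = aeval tx N₀)
    (hgy : g₁ * aeval ty D₁ = algebraMap A F κ * aeval ty N₁)
    (e : F) (he : h16nReg 𝔫 e)
    (r : ℕ) (hr : (r : A) ≠ 0) (c : A) (hc : c ∈ maximalIdeal A) (hc0 : c ≠ 0)
    (u : F) (hue : u = e * g₁ ^ r) (huU : u ∈ h26U ((r : A) * c) V) :
    g₁ ∈ h26U c Winf ∧ (∃ ε0 ∈ h26U c W0, g₁ = algebraMap A F κ * ε0) ∧
      (r : A) * c ∣ κ ^ r - 1 := by
  classical
  have hBV : ∀ b : B, (b : F) ∈ V := fun b => hC.hBV _ b.2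
  have hBinf : ∀ b : B, (b : F) ∈ Winf := fun b => hVWinf _ (hBV b)
  have hB0 : ∀ b : B, (b : F) ∈ W0 := fun b => hVW0 _ (hBV b)
  have hAinf : ∀ a : A, algebraMap A F a ∈ Winf := fun a => hBinf (algebraMap A B a)
  have hA0 : ∀ a : A, algebraMap A F a ∈ W0 := fun a => hB0 (algebraMap A B a)
  have htxr := h16n_van_reg htx
  have htyr := h16n_van_reg hty
  -- coefficient facts
  obtain ⟨hN₀deg, hN₀d, hN₀low, -⟩ := h16n_coeff_of_res N₀ hN₀ m₀ hN₀r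
  obtain ⟨hD₀deg, hD₀d, hD₀low, -⟩ := h16n_coeff_of_res D₀ hD₀ m₀ hD₀r
  obtain ⟨hN₁deg, hN₁d, hN₁low, -⟩ := h16n_coeff_of_res N₁ hN₁ m₀ hN₁r
  obtain ⟨hD₁deg, hD₁d, hD₁low, -⟩ := h16n_coeff_of_res D₁ hD₁ m₀ hD₁r
  have hpowres : ∀ P : A[X], P.map (residue A) = X ^ m₀ →
      (P ^ r).map (residue A) = X ^ (m₀ * r) := by
    intro P hP
    rw [Polynomial.map_pow, hP, ← pow_mul]
  obtain ⟨-, hNd, hNlow, hNhigh⟩ :=
    h16n_coeff_of_res (N₀ ^ r) (hN₀.pow r) (m₀ * r) (hpowres N₀ hN₀r)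
  obtain ⟨-, hDd, hDlow, hDhigh⟩ :=
    h16n_coeff_of_res (D₀ ^ r) (hD₀.pow r) (m₀ * r) (hpowres D₀ hD₀r)
  obtain ⟨-, hN'd, hN'low, hN'high⟩ :=
    h16n_coeff_of_res (N₁ ^ r) (hN₁.pow r) (m₀ * r) (hpowres N₁ hN₁r)
  obtain ⟨-, hD'd, hD'low, hD'high⟩ :=
    h16n_coeff_of_res (D₁ ^ r) (hD₁.pow r) (m₀ * r) (hpowres D₁ hD₁r)
  -- unit values
  have hD₀u := h16n_aeval_unit Winf hBinf hninf hinvinf hntinf htx htx0 htxW m₀ D₀ hD₀low
    (by rw [hD₀d]; exact isUnit_one)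
  have hD₁u := h16n_aeval_unit W0 hB0 hn0 hinv0 hnt0 hty hty0 htyW m₀ D₁ hD₁low
    (by rw [hD₁d]; exact isUnit_one)
  have hNu := h16n_aeval_unit Winf hBinf hninf hinvinf hntinf htx htx0 htxW (m₀ * r) (N₀ ^ r)
    hNlow (by rw [hNd]; exact isUnit_one)
  have hN'u := h16n_aeval_unit W0 hB0 hn0 hinv0 hnt0 hty hty0 htyW (m₀ * r) (N₁ ^ r)
    hN'low (by rw [hN'd]; exact isUnit_one)
  obtain ⟨ω, hω, huω⟩ := huU
  have hωinf := hVWinf _ hω
  have hω0 := hVW0 _ hω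
  have hgxr : g₁ ^ r * aeval tx (D₀ ^ r) = aeval tx (N₀ ^ r) := by
    rw [map_pow, map_pow, ← mul_pow, hgx]
  have hgyr : g₁ ^ r * aeval ty (D₁ ^ r) = algebraMap A F (κ ^ r) * aeval ty (N₁ ^ r) := by
    rw [map_pow, map_pow, map_pow, ← mul_pow, ← mul_pow, hgy]
  have hrel1 : e * aeval tx (N₀ ^ r) - aeval tx (D₀ ^ r) =
      algebraMap A F ((r : A) * c) * (aeval tx (D₀ ^ r) * ω) := by
    rw [← hgxr]
    have h1 : e * (g₁ ^ r * aeval tx (D₀ ^ r)) = u * aeval tx (D₀ ^ r) := by rw [hue]; ring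
    rw [h1, huω]
    ring
  have hrel2 : e * (algebraMap A F (κ ^ r) * aeval ty (N₁ ^ r)) - aeval ty (D₁ ^ r) =
      algebraMap A F ((r : A) * c) * (aeval ty (D₁ ^ r) * ω) := by
    rw [← hgyr]
    have h1 : e * (g₁ ^ r * aeval ty (D₁ ^ r)) = u * aeval ty (D₁ ^ r) := by rw [hue]; ring
    rw [h1, huω]
    ring
  -- the unit `κ ^ r`
  obtain ⟨κ', hκ'⟩ := (hκ.pow r).exists_right_inv
  have hκF : algebraMap A F (κ ^ r) * algebraMap A F κ' = 1 := by
    rw [← map_mul, hκ', map_one]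
  have hκF0 : algebraMap A F (κ ^ r) ≠ 0 := left_ne_zero_of_mul_eq_one hκF
  have hκinv : (algebraMap A F (κ ^ r))⁻¹ = algebraMap A F κ' :=
    inv_eq_of_mul_eq_one_right hκF
  -- the claim
  have hclaim : (∀ j, (r : A) * c ∣ (N₀ ^ r - D₀ ^ r).coeff j) ∧
      (∀ j, (r : A) * c ∣ (C (κ ^ r) * N₁ ^ r - D₁ ^ r).coeff j) := by
    by_contra hcon
    obtain ⟨e₀, m, Q₁, Q₂, he₀, hm, hrc, hP₁, hP₂, hone⟩ :=
      h16n_common_content (N₀ ^ r - D₀ ^ r) (C (κ ^ r) * N₁ ^ r - D₁ ^ r) _ hcon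
    have he₀F : algebraMap A F e₀ ≠ 0 := fun h0 => he₀ (hAF (by rw [h0, map_zero]))
    set f : F := (e - 1) * (algebraMap A F e₀)⁻¹ with hf
    have hef : e - 1 = algebraMap A F e₀ * f := by
      rw [hf]
      field_simp
    have hP₁e : aeval tx (N₀ ^ r) - aeval tx (D₀ ^ r) = algebraMap A F e₀ * aeval tx Q₁ := by
      rw [← map_sub, hP₁, map_mul, aeval_C]
    have hP₂e : algebraMap A F (κ ^ r) * aeval ty (N₁ ^ r) - aeval ty (D₁ ^ r) =
        algebraMap A F e₀ * aeval ty Q₂ := by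
      have h1 : aeval ty (C (κ ^ r) * N₁ ^ r - D₁ ^ r) = algebraMap A F e₀ * aeval ty Q₂ := by
        rw [hP₂, map_mul, aeval_C]
      rw [← h1, map_sub, map_mul, aeval_C]
    have hrcF : algebraMap A F ((r : A) * c) = algebraMap A F e₀ * algebraMap A F m := by
      rw [hrc, map_mul]
    have hb1 : f * aeval tx (N₀ ^ r) + aeval tx Q₁ =
        algebraMap A F m * (aeval tx (D₀ ^ r) * ω) := by
      apply mul_left_cancel₀ he₀F
      rw [hrcF] at hrel1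
      linear_combination hrel1 - aeval tx (N₀ ^ r) * hef - hP₁e
    have hb2 : f * algebraMap A F (κ ^ r) * aeval ty (N₁ ^ r) + aeval ty Q₂ =
        algebraMap A F m * (aeval ty (D₁ ^ r) * ω) := by
      apply mul_left_cancel₀ he₀F
      rw [hrcF] at hrel2
      linear_combination hrel2 - algebraMap A F (κ ^ r) * aeval ty (N₁ ^ r) * hef - hP₂e
    have hDinf : aeval tx (D₀ ^ r) ∈ Winf :=
      h16n_reg_mem Winf hBinf hninf (h16n_reg_aeval htxr _)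
    have hD0 : aeval ty (D₁ ^ r) ∈ W0 :=
      h16n_reg_mem W0 hB0 hn0 (h16n_reg_aeval htyr _)
    have hsm1 : algebraMap A F m * (aeval tx (D₀ ^ r) * ω) ∈ Winf :=
      Winf.mul_mem (hAinf m) (Winf.mul_mem hDinf hωinf)
    have hsm2 : algebraMap A F m * (aeval ty (D₁ ^ r) * ω) ∈ W0 :=
      W0.mul_mem (hA0 m) (W0.mul_mem hD0 hω0)
    have hfinf : f ∈ Winf := by
      have h1 : f = (algebraMap A F m * (aeval tx (D₀ ^ r) * ω) - aeval tx Q₁) *
          (aeval tx (N₀ ^ r))⁻¹ := by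
        rw [← hb1]
        have := hNu.1
        field_simp
        ring
      rw [h1]
      exact Winf.mul_mem (Winf.sub_mem hsm1
        (h16n_reg_mem Winf hBinf hninf (h16n_reg_aeval htxr _))) hNu.2
    have hf0 : f ∈ W0 := by
      have h1 : f = (algebraMap A F m * (aeval ty (D₁ ^ r) * ω) - aeval ty Q₂) *
          ((aeval ty (N₁ ^ r))⁻¹ * algebraMap A F κ') := by
        rw [← hb2, ← hκinv]
        have := hN'u.1
        field_simp
        ring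
      rw [h1]
      exact W0.mul_mem (W0.sub_mem hsm2
        (h16n_reg_mem W0 hB0 hn0 (h16n_reg_aeval htyr _))) (W0.mul_mem hN'u.2 (hA0 κ'))
    have hfV : f ∈ V := hWV f hfinf hf0
    have hfr : h16nReg 𝔫 f := by
      obtain ⟨s, hs, h1⟩ := h16n_reg_sub he (h16n_reg_one 𝔫)
      refine ⟨s, hs, hC.hQEP e₀ he₀F _ (V.mul_mem (hBV s) hfV) ?_⟩
      rw [Algebra.smul_def]
      have h2 : algebraMap A F e₀ * ((s : F) * f) = (s : F) * (e - 1) := by
        rw [hef]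
        ring
      rw [h2]
      exact h1
    obtain ⟨hQ₁low, hQ₁v⟩ := h16n_branch Winf hBinf hninf hntinf htx htx0 htxW (N₀ ^ r) Q₁
      (m₀ * r) hNd hNlow hfr ⟨m, hm, _, Winf.mul_mem hDinf hωinf, hb1⟩
    obtain ⟨hQ₂low, hQ₂v⟩ := h16n_branch W0 hB0 hn0 hnt0 hty hty0 htyW (N₁ ^ r) Q₂
      (m₀ * r) hN'd hN'low (h16n_reg_mul hfr (h16n_reg_algebraMap 𝔫 _))
      ⟨m, hm, _, W0.mul_mem hD0 hω0, hb2⟩
    -- the top coefficients
    have hcoef₁ : ∀ j, (N₀ ^ r - D₀ ^ r).coeff j = e₀ * Q₁.coeff j := by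
      intro j
      rw [hP₁, coeff_C_mul]
    have hcoef₂ : ∀ j, (C (κ ^ r) * N₁ ^ r - D₁ ^ r).coeff j = e₀ * Q₂.coeff j := by
      intro j
      rw [hP₂, coeff_C_mul]
    have hQ₁d : Q₁.coeff (m₀ * r) = 0 := by
      have h1 := hcoef₁ (m₀ * r)
      rw [coeff_sub, hNd, hDd, sub_self] at h1
      exact (mul_eq_zero.mp h1.symm).resolve_left he₀
    have hQ₁high : ∀ i, m₀ * r < i → Q₁.coeff i = 0 := by
      intro i hi
      have h1 := hcoef₁ i
      rw [coeff_sub, hNhigh i hi, hDhigh i hi, sub_self] at h1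
      exact (mul_eq_zero.mp h1.symm).resolve_left he₀
    have hQ₂high : ∀ i, m₀ * r < i → Q₂.coeff i = 0 := by
      intro i hi
      have h1 := hcoef₂ i
      rw [coeff_sub, coeff_C_mul, hN'high i hi, hD'high i hi, mul_zero, sub_self] at h1
      exact (mul_eq_zero.mp h1.symm).resolve_left he₀
    have hfv : h16nVan 𝔫 f := by
      rw [hQ₁d, map_zero, add_zero] at hQ₁v
      exact hQ₁v
    have hQ₂d : Q₂.coeff (m₀ * r) ∈ maximalIdeal A := by
      apply h16n_mem_of_van_const (𝔫 := 𝔫)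
      have h1 : h16nVan 𝔫 (algebraMap A F (Q₂.coeff (m₀ * r)) + f * algebraMap A F (κ ^ r)) := by
        rw [add_comm]
        exact hQ₂v
      exact h16n_van_of_add h1 (h16n_van_mul_reg hfv (h16n_reg_algebraMap 𝔫 _))
    rcases hone with h1 | h1
    · exact h16n_no_one Q₁ (m₀ * r) hQ₁low (by rw [hQ₁d]; exact zero_mem _) hQ₁high h1
    · exact h16n_no_one Q₂ (m₀ * r) hQ₂low hQ₂d hQ₂high h1
  obtain ⟨hc1, hc2⟩ := hclaim
  have hκr : (r : A) * c ∣ κ ^ r - 1 := by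
    have h1 := hc2 (m₀ * r)
    rw [coeff_sub, coeff_C_mul, hN'd, hD'd, mul_one] at h1
    exact h1
  have hc3 : ∀ j, (r : A) * c ∣ (N₁ ^ r - D₁ ^ r).coeff j := by
    intro j
    have e1 : (N₁ ^ r - D₁ ^ r).coeff j =
        (C (κ ^ r) * N₁ ^ r - D₁ ^ r).coeff j - (κ ^ r - 1) * (N₁ ^ r).coeff j := by
      rw [coeff_sub, coeff_sub, coeff_C_mul]
      ring
    rw [e1]
    exact dvd_sub (hc2 j) (Dvd.dvd.mul_right hκr _)
  have hND := h91q_root_content N₀ D₀ hN₀ hD₀ (hN₀deg.trans hD₀deg.symm) r hr c hc1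
  have hND' := h91q_root_content N₁ D₁ hN₁ hD₁ (hN₁deg.trans hD₁deg.symm) r hr c hc3
  obtain ⟨R, hR⟩ := (Polynomial.C_dvd_iff_dvd_coeff _ _).mpr hND
  obtain ⟨R', hR'⟩ := (Polynomial.C_dvd_iff_dvd_coeff _ _).mpr hND'
  have hRe : aeval tx N₀ = aeval tx D₀ + algebraMap A F c * aeval tx R := by
    have h1 := congrArg (aeval tx) hR
    rw [map_sub, map_mul, aeval_C] at h1
    linear_combination h1
  have hRe' : aeval ty N₁ = aeval ty D₁ + algebraMap A F c * aeval ty R' := by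
    have h1 := congrArg (aeval ty) hR'
    rw [map_sub, map_mul, aeval_C] at h1
    linear_combination h1
  obtain ⟨κ₁, hκ₁⟩ := hκ.exists_right_inv
  have hκ₁F : algebraMap A F κ * algebraMap A F κ₁ = 1 := by rw [← map_mul, hκ₁, map_one]
  have hκ0 : algebraMap A F κ ≠ 0 := left_ne_zero_of_mul_eq_one hκ₁F
  refine ⟨⟨aeval tx R * (aeval tx D₀)⁻¹,
    Winf.mul_mem (h16n_reg_mem Winf hBinf hninf (h16n_reg_aeval htxr _)) hD₀u.2, ?_⟩,
    ⟨aeval ty N₁ * (aeval ty D₁)⁻¹, ⟨aeval ty R' * (aeval ty D₁)⁻¹,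
      W0.mul_mem (h16n_reg_mem W0 hB0 hn0 (h16n_reg_aeval htyr _)) hD₁u.2, ?_⟩, ?_⟩, hκr⟩
  · have h1 : g₁ = aeval tx N₀ * (aeval tx D₀)⁻¹ := by
      rw [← hgx]
      have := hD₀u.1
      field_simp
    rw [h1, hRe]
    have := hD₀u.1
    field_simp
  · rw [hRe']
    have := hD₁u.1
    field_simp
  · have := hD₁u.1
    have h1 : g₁ = algebraMap A F κ * aeval ty N₁ * (aeval ty D₁)⁻¹ := by
      rw [← hgy]
      field_simp
    rw [h1]
    ring

end Core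

end Fermat.Agent.P6
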