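import Fermat.Agent.P6.H16NodeCore
import Fermat.Agent.P6.H59NodeTheta

/-!
# Wave 6 (S33), block B2-TOR, row B2-T3-NODE-NF16 (helper16): the deep normal form at a node

`h16n_node_normal_deep` : under the hypotheses of `S35.h13x_node_normal` (helper13), for a
function `u ≡ 1` modulo `r c₁ V` (`r` ANY exponent with `(r : A) ≠ 0`, `c₁ ∈ 𝔪_A` nonzero) whose
orders are divisible by `r`, the deep normal form `H59nNormalDeep B V v W∞ W₀ 𝔫 u r c₁`
(`P6/H59NodeTheta.lean`, helper59) holds: `u = ε · g₁ ^ r`, `ε` a unit at the node,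
`g₁ ≡ 1` modulo `c₁ W∞`, `g₁ = κ ε₀`, `ε₀ ≡ 1` modulo `c₁ W₀`, `κ ∈ A^×`, `r c₁ ∣ κ ^ r - 1`.

The construction of `g₁ = ∏ (x - x(P_i)) ^ (n_i)` and of the unit `ε` is the one of
`h13x_node_normal` (the first part of the proof is that proof); the deep congruences come from
the two-sided content induction `h16n_deep_core` (`P6/H16NodeCore.lean`) applied to the two
Weierstrass presentations of `g₁` in the branch parameters `x` and `y / c`.
-/

set_option autoImplicit false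
set_option linter.unusedSectionVars false
set_option linter.unusedVariables false
set_option linter.style.haveILetI false

open WithZero IsLocalRing Polynomial

namespace Fermat.Agent.P6

open Fermat.Agent.Red Fermat.Agent.LGC Fermat.Agent.S35

section Node

variable {A : Type*} [CommRing A] [IsDomain A] [ValuationRing A]
  {F : Type*} [Field F] [Algebra A F]
  {B : Subalgebra A F} {V : Subring F} {ι : Type*} {v : ι → Valuation F ℤᵐ⁰}

/-- the reduction of a Weierstrass polynomial with roots in the maximal ideal. -/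
theorem h16nPoly_res (T : Finset ι) (cc : ι → A) (ee : ι → ℕ)
    (hcc : ∀ i ∈ T, cc i ∈ maximalIdeal A) :
    (h91qPoly T cc ee).map (residue A) = X ^ (∑ i ∈ T, ee i) := by
  rw [h91qPoly, Polynomial.map_prod, ← Finset.prod_pow_eq_pow_sum]
  refine Finset.prod_congr rfl fun i hi => ?_
  rw [Polynomial.map_pow, Polynomial.map_sub, map_X, map_C,
    (residue_eq_zero_iff _).mpr (hcc i hi), C_0, sub_zero]

/-- the value of a Weierstrass polynomial at a point of `F`. -/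
theorem h16nPoly_aeval (T : Finset ι) (cc : ι → A) (ee : ι → ℕ) (t : F) :
    aeval t (h91qPoly T cc ee) = ∏ i ∈ T, (t - algebraMap A F (cc i)) ^ (ee i) := by
  rw [h91qPoly, map_prod]
  refine Finset.prod_congr rfl fun i _ => ?_
  rw [map_pow, map_sub, aeval_X, aeval_C]

set_option maxHeartbeats 3200000 in
/-- **The deep normal form at a node.** -/
theorem h16n_node_normal_deep
    (hC : H26Chart B V v) (hAF : Function.Injective (algebraMap A F))
    (Winf W0 : Subring F)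
    (hVWinf : ∀ x ∈ V, x ∈ Winf) (hVW0 : ∀ x ∈ V, x ∈ W0)
    (hWV : ∀ x : F, x ∈ Winf → x ∈ W0 → x ∈ V)
    (hinvinf : ∀ π ∈ maximalIdeal A, ∀ x ∈ Winf, (1 + algebraMap A F π * x)⁻¹ ∈ Winf)
    (hinv0 : ∀ π ∈ maximalIdeal A, ∀ x ∈ W0, (1 + algebraMap A F π * x)⁻¹ ∈ W0)
    (hntinf : ∀ π ∈ maximalIdeal A, ∀ x ∈ Winf, algebraMap A F π * x ≠ 1)
    (hnt0 : ∀ π ∈ maximalIdeal A, ∀ x ∈ W0, algebraMap A F π * x ≠ 1)
    (𝔫 : Ideal B) [h𝔫 : 𝔫.IsPrime] (h𝔪𝔫 : (maximalIdeal A).map (algebraMap A B) ≤ 𝔫)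
    (hninf : ∀ b : B, b ∉ 𝔫 → ((b : F))⁻¹ ∈ Winf)
    (hn0 : ∀ b : B, b ∉ 𝔫 → ((b : F))⁻¹ ∈ W0)
    (x y c : B) (hx : x ∈ 𝔫) (hy : y ∈ 𝔫) (hc : c ∉ 𝔫) (a : A) (ha : a ≠ 0)
    (hxy : x * y = algebraMap A B a * c)
    (hxinf : ((x : F))⁻¹ ∈ Winf) (hy0 : ((y : F))⁻¹ ∈ W0)
    (hprin : ∀ z ∈ 𝔫, ∃ s, s ∉ 𝔫 ∧
      s * z ∈ Ideal.span {x, y} ⊔ (maximalIdeal A).map (algebraMap A B))
    (hsec : ∀ i, h26Centered B v 𝔫 i → ∃ φ : B →ₐ[A] A,
      (∀ b : B, φ b = 0 ↔ v i (b : F) < 1) ∧ (RingHom.ker (φ : B →+* A)).FG)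
    (u : F) (hu : u ≠ 0) (r : ℕ) (hrA : (r : A) ≠ 0)
    (hru : ∀ i, ∃ n : ℤ, v i u = exp (-((r : ℤ) * n)))
    (c₁ : A) (hc₁ : c₁ ∈ maximalIdeal A) (hc₁0 : c₁ ≠ 0)
    (huD : u ∈ h26U ((r : A) * c₁) V) :
    H59nNormalDeep B V v Winf W0 𝔫 u r c₁ := by
  classical
  have hr : 0 < r := by
    rcases Nat.eq_zero_or_pos r with h | h
    · exact absurd (by rw [h, Nat.cast_zero]) hrA
    · exact h
  obtain ⟨π₀, hπ₀def⟩ : ∃ π₀ : A, π₀ = (r : A) * c₁ := ⟨_, rfl⟩
  have hπ₀ : π₀ ∈ maximalIdeal A := by rw [hπ₀def]; exact Ideal.mul_mem_left _ _ hc₁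
  have hπ₀0 : π₀ ≠ 0 := by rw [hπ₀def]; exact mul_ne_zero hrA hc₁0
  have huU : u ∈ h26U π₀ V := by rw [hπ₀def]; exact huD
  -- ===== the construction of `S35.h13x_node_normal` (helper13) =====
  have hAV : ∀ a : A, algebraMap A F a ∈ V := fun a => hC.hBV _ (B.algebraMap_mem a)
  have hAinf : ∀ a : A, algebraMap A F a ∈ Winf := fun a => hVWinf _ (hAV a)
  have hA0 : ∀ a : A, algebraMap A F a ∈ W0 := fun a => hVW0 _ (hAV a)
  have hBinf : ∀ b : B, (b : F) ∈ Winf := fun b => hVWinf _ (hC.hBV _ b.2)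
  have hB0 : ∀ b : B, (b : F) ∈ W0 := fun b => hVW0 _ (hC.hBV _ b.2)
  have haF : algebraMap A F a ≠ 0 := fun h => ha (hAF (by rw [h, map_zero]))
  have hc0 : (c : F) ≠ 0 := by
    intro h0
    apply hc
    have : c = 0 := Subtype.ext h0
    rw [this]; exact 𝔫.zero_mem
  have hxyF : (x : F) * (y : F) = algebraMap A F a * (c : F) := by
    have := congrArg (Subtype.val) hxy
    simpa using this
  have hx0 : (x : F) ≠ 0 := by
    intro h0
    rw [h0, zero_mul] at hxyF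
    exact mul_ne_zero haF hc0 hxyF.symm
  have hy0' : (y : F) ≠ 0 := by
    intro h0
    rw [h0, mul_zero] at hxyF
    exact mul_ne_zero haF hc0 hxyF.symm
  -- the data at the centered places
  have hdata : ∀ i : ι, ∃ ai bi gi : A, h26Centered B v 𝔫 i →
      ai ∈ maximalIdeal A ∧ bi ∈ maximalIdeal A ∧ IsUnit gi ∧ ai * bi = a * gi ∧
      v i (x : F) = 1 ∧
      v i ((x : F) - algebraMap A F ai) = exp (-1 : ℤ) ∧
      (∀ k, h26Centered B v 𝔫 k → k ≠ i → v k ((x : F) - algebraMap A F ai) = 1) := by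
    intro i
    by_cases hi : h26Centered B v 𝔫 i
    · obtain ⟨φ, hφker, hφfg⟩ := hsec i hi
      have hkerle : RingHom.ker (φ : B →+* A) ≤ 𝔫 := fun b hb => hi b ((hφker b).mp hb)
      have hφ𝔫 := h26_section_local 𝔫 φ hkerle
      have hconst : ∀ k, h26Centered B v 𝔫 k → v k (algebraMap A F a) = 1 := by
        intro k hk
        obtain ⟨ψ, hψker, -⟩ := hsec k hk
        exact h75p_const_of_section hC.hB k ψ hψker a ha
      have hφxy : φ x * φ y = a * φ c := by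
        have := congrArg φ hxy
        rw [map_mul, map_mul, AlgHom.commutes] at this
        exact this
      have hφc : IsUnit (φ c) := by
        by_contra hnu
        have hm : φ c ∈ maximalIdeal A := hnu
        apply hc
        have h1 : c - algebraMap A B (φ c) ∈ 𝔫 := by
          apply hkerle
          rw [RingHom.mem_ker]
          show φ (c - algebraMap A B (φ c)) = 0
          rw [map_sub, AlgHom.commutes]
          exact sub_self _
        have h2 : algebraMap A B (φ c) ∈ 𝔫 := h𝔪𝔫 (Ideal.mem_map_of_mem _ hm)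
        have h3 : c = (c - algebraMap A B (φ c)) + algebraMap A B (φ c) := by ring
        rw [h3]
        exact 𝔫.add_mem h1 h2
      refine ⟨φ x, φ y, φ c, fun _ => ⟨hφ𝔫 x hx, hφ𝔫 y hy, hφc, hφxy, ?_,
        h75p_lp_node hC 𝔫 h𝔪𝔫 x y c hx hy hc a hxy hconst hprin i hi φ hφker hφfg⟩⟩
      refine le_antisymm (hC.hB _ x.2 i) (not_lt.mp fun hlt => ?_)
      have h1 : φ x = 0 := (hφker x).mpr hlt
      rw [h1, zero_mul] at hφxy
      exact mul_ne_zero ha hφc.ne_zero hφxy.symm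
    · exact ⟨0, 0, 0, fun h => (hi h).elim⟩
  choose ai bi gi hdat using hdata
  choose n hn using hru
  set Z : Finset ι := (h26_finite_support hC u hu).toFinset with hZ
  set T : Finset ι := Z.filter (fun i => h26Centered B v 𝔫 i) with hT
  have hTc : ∀ i ∈ T, h26Centered B v 𝔫 i := fun i hi => (Finset.mem_filter.mp hi).2
  have hu1 : ∀ k, h26Centered B v 𝔫 k → k ∉ T → v k u = 1 := by
    intro k hk hkT
    by_contra hne
    apply hkT
    rw [hT, Finset.mem_filter, hZ, Set.Finite.mem_toFinset]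
    exact ⟨hne, hk⟩
  -- the common modulus
  obtain ⟨d₁, hd₁, hd₁0, hd₁π, hd₁a⟩ := h26_common_divisor T ai
    (fun i hi => (hdat i (hTc i hi)).1) π₀ hπ₀ hπ₀0
  obtain ⟨π, hπ, hπ0, hπd, hπb⟩ := h26_common_divisor T bi
    (fun i hi => (hdat i (hTc i hi)).2.1) d₁ hd₁ hd₁0
  have hππ₀ : π ∣ π₀ := hπd.trans hd₁π
  have hπa : ∀ i ∈ T, π ∣ ai i := fun i hi => hπd.trans (hd₁a i hi)
  have hπinf : algebraMap A F π ∈ Winf := hAinf π
  have hπW0 : algebraMap A F π ∈ W0 := hA0 π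
  -- the functions of (LP)
  set G : ι → F := fun i => (x : F) - algebraMap A F (ai i) with hG
  have hG1 : ∀ i ∈ T, v i (G i) = exp (-1 : ℤ) := fun i hi => (hdat i (hTc i hi)).2.2.2.2.2.1
  have hG2 : ∀ i ∈ T, ∀ k, h26Centered B v 𝔫 k → k ≠ i → v k (G i) = 1 := fun i hi =>
    (hdat i (hTc i hi)).2.2.2.2.2.2
  set g₁ : F := ∏ i ∈ T, G i ^ n i with hg₁
  set sT : ℤ := ∑ i ∈ T, n i with hsT
  have hai0 : ∀ i ∈ T, algebraMap A F (ai i) ≠ 0 := by
    intro i hi h0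
    have h1 : ai i = 0 := hAF (by rw [h0, map_zero])
    have h2 := (hdat i (hTc i hi)).2.2.2.1
    rw [h1, zero_mul] at h2
    exact mul_ne_zero ha (hdat i (hTc i hi)).2.2.1.ne_zero h2.symm
  -- the first branch
  set ηinf : ι → F := fun i => 1 - algebraMap A F (ai i) * ((x : F))⁻¹ with hηinf
  have hηinfU : ∀ i ∈ T, ηinf i ∈ h26U π Winf := by
    intro i hi
    obtain ⟨q, hq⟩ := hπa i hi
    refine ⟨-(algebraMap A F q * ((x : F))⁻¹),
      Winf.neg_mem (Winf.mul_mem (hAinf q) hxinf), ?_⟩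
    rw [hηinf]
    simp only
    rw [hq, map_mul]
    ring
  have hGinf : ∀ i, G i = (x : F) * ηinf i := by
    intro i
    rw [hG, hηinf]
    simp only
    field_simp
  set εinf : F := ∏ i ∈ T, ηinf i ^ n i with hεinf
  have hεinfU : εinf ∈ h26U π Winf :=
    h26U_prod hπinf T _ fun i hi =>
      h26U_zpow hπinf (hinvinf π hπ) (hntinf π hπ) (hηinfU i hi) _
  have hg₁inf : g₁ = (x : F) ^ sT * εinf := by
    rw [hg₁, hεinf, hsT, ← h26_prod_zpow_const T (x : F) hx0 n, ← Finset.prod_mul_distrib]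
    refine Finset.prod_congr rfl fun i _ => ?_
    rw [hGinf i, mul_zpow]
  -- the second branch
  set η0 : ι → F := fun i => 1 - (x : F) * (algebraMap A F (ai i))⁻¹ with hη0
  have hη0U : ∀ i ∈ T, η0 i ∈ h26U π W0 := by
    intro i hi
    obtain ⟨q, hq⟩ := hπb i hi
    obtain ⟨gi', hgi'⟩ := (hdat i (hTc i hi)).2.2.1.exists_right_inv
    have hab := (hdat i (hTc i hi)).2.2.2.1
    have habF : algebraMap A F (ai i) * algebraMap A F (bi i) =
        algebraMap A F a * algebraMap A F (gi i) := by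
      rw [← map_mul, ← map_mul, hab]
    have hgF : algebraMap A F (gi i) * algebraMap A F gi' = 1 := by
      rw [← map_mul, hgi', map_one]
    refine ⟨-(algebraMap A F q * algebraMap A F gi' * (c : F) * ((y : F))⁻¹),
      W0.neg_mem (W0.mul_mem (W0.mul_mem (W0.mul_mem (hA0 q) (hA0 gi')) (hB0 c)) hy0), ?_⟩
    rw [hη0]
    simp only
    have hai := hai0 i hi
    have hbq : algebraMap A F (bi i) = algebraMap A F π * algebraMap A F q := by
      rw [← map_mul, hq]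
    have hxval : (x : F) = algebraMap A F a * (c : F) * ((y : F))⁻¹ := by
      field_simp
      exact hxyF
    have key : (x : F) * (algebraMap A F (ai i))⁻¹ =
        algebraMap A F π * (algebraMap A F q * algebraMap A F gi' * (c : F) * ((y : F))⁻¹) := by
      have h1 : algebraMap A F a = algebraMap A F (ai i) * algebraMap A F (bi i) *
          algebraMap A F gi' := by
        rw [habF, mul_assoc, hgF, mul_one]
      rw [hxval, h1, hbq]
      field_simp
    rw [key]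
    ring
  have hG0 : ∀ i ∈ T, G i = (-algebraMap A F (ai i)) * η0 i := by
    intro i hi
    have hai := hai0 i hi
    rw [hG, hη0]
    simp only
    field_simp
    ring
  set α : F := ∏ i ∈ T, (-algebraMap A F (ai i)) ^ n i with hα
  set ε0 : F := ∏ i ∈ T, η0 i ^ n i with hε0
  have hε0U : ε0 ∈ h26U π W0 :=
    h26U_prod hπW0 T _ fun i hi =>
      h26U_zpow hπW0 (hinv0 π hπ) (hnt0 π hπ) (hη0U i hi) _
  have hg₁0 : g₁ = α * ε0 := by
    rw [hg₁, hα, hε0, ← Finset.prod_mul_distrib]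
    refine Finset.prod_congr rfl fun i hi => ?_
    rw [hG0 i hi, mul_zpow]
  have hαc : h13x_IsConst A α :=
    h13x_isConst_prod T _ fun i _ =>
      h13x_isConst_zpow hAF (h13x_isConst_neg (h13x_isConst_algebraMap (ai i))) _
  have hα0 : α ≠ 0 := by
    rw [hα]
    exact Finset.prod_ne_zero_iff.mpr fun i hi =>
      zpow_ne_zero _ (neg_ne_zero.mpr (hai0 i hi))
  have hGi0 : ∀ i ∈ T, G i ≠ 0 := by
    intro i hi h0
    have h1 := hG1 i hi
    rw [h0, map_zero] at h1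
    exact exp_ne_zero h1.symm
  have hg₁0' : g₁ ≠ 0 := by
    rw [hg₁]
    exact Finset.prod_ne_zero_iff.mpr fun i hi => zpow_ne_zero _ (hGi0 i hi)
  -- the function `e`
  set e : F := u * (g₁ ^ r)⁻¹ with he
  have hval_e : ∀ k, h26Centered B v 𝔫 k → v k e = 1 := fun k hk =>
    h75s_val_one 𝔫 T G hG1 hG2 u r n (fun i _ => hn i) hu1 k hk
  have hue : u = e * g₁ ^ r := by
    rw [he, mul_assoc, inv_mul_cancel₀ (pow_ne_zero _ hg₁0'), mul_one]
  have huinf : u ∈ h26U π Winf := by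
    obtain ⟨w, hw, huw⟩ := h75s_U_of_dvd hAV hππ₀ huU
    exact ⟨w, hVWinf _ hw, huw⟩
  have hu0 : u ∈ h26U π W0 := by
    obtain ⟨w, hw, huw⟩ := h75s_U_of_dvd hAV hππ₀ huU
    exact ⟨w, hVW0 _ hw, huw⟩
  -- `e₁ = e x ^ (r sT)`
  set z : ℤ := (r : ℤ) * sT with hz
  set e₁ : F := e * (x : F) ^ z with he₁
  have hεinfr : (εinf ^ r)⁻¹ ∈ h26U π Winf :=
    h26U_inv (hinvinf π hπ) (hntinf π hπ) (h26U_pow hπinf hεinfU r)
  have hε0r : (ε0 ^ r)⁻¹ ∈ h26U π W0 :=
    h26U_inv (hinv0 π hπ) (hnt0 π hπ) (h26U_pow hπW0 hε0U r)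
  have hεinf0 : εinf ≠ 0 := h26U_ne_zero (hntinf π hπ) hεinfU
  have hε00 : ε0 ≠ 0 := h26U_ne_zero (hnt0 π hπ) hε0U
  have hxz : ((x : F) ^ sT) ^ r = (x : F) ^ z := by
    rw [hz, ← zpow_natCast, ← zpow_mul, mul_comm]
  have he₁inf : e₁ = u * (εinf ^ r)⁻¹ := by
    rw [he₁, he, hg₁inf, mul_pow, hxz]
    have h1 : (x : F) ^ z ≠ 0 := zpow_ne_zero _ hx0
    field_simp
  have he₁U : e₁ ∈ h26U π Winf := by
    rw [he₁inf]
    exact h26U_mul hπinf huinf hεinfr
  set θ : F := (algebraMap A F a) ^ z * (α ^ r)⁻¹ with hθ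
  set ρ : F := ((c : F) * ((y : F))⁻¹) ^ z with hρ
  set ε : F := u * (ε0 ^ r)⁻¹ with hε
  have hεU : ε ∈ h26U π W0 := h26U_mul hπW0 hu0 hε0r
  have hxcy : (x : F) = algebraMap A F a * ((c : F) * ((y : F))⁻¹) := by
    field_simp
    exact hxyF
  have he₁0 : e₁ = θ * ρ * ε := by
    rw [he₁, he, hg₁0, mul_pow, hθ, hρ, hε]
    have h1 : (x : F) ^ z = (algebraMap A F a) ^ z * ((c : F) * ((y : F))⁻¹) ^ z := by
      rw [← mul_zpow, ← hxcy]
    rw [h1]
    have h2 : α ^ r ≠ 0 := pow_ne_zero _ hα0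
    have h3 : ε0 ^ r ≠ 0 := pow_ne_zero _ hε00
    field_simp
  have hθc : h13x_IsConst A θ :=
    h13x_isConst_mul (h13x_isConst_zpow hAF (h13x_isConst_algebraMap a) _)
      (h13x_isConst_inv hAF (h13x_isConst_pow hαc r))
  have hθ0 : θ ≠ 0 := mul_ne_zero (zpow_ne_zero _ haF) (inv_ne_zero (pow_ne_zero _ hα0))
  have hcy : (c : F) * ((y : F))⁻¹ ∈ W0 := W0.mul_mem (hB0 c) hy0
  have hcy' : ((c : F) * ((y : F))⁻¹)⁻¹ ∈ W0 := by
    rw [mul_inv, inv_inv]
    exact W0.mul_mem (hn0 c hc) (hB0 y)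
  have hρW : ρ ∈ W0 := h13x_zpow_mem W0 hcy hcy' z
  have hρW' : ρ⁻¹ ∈ W0 := by
    rw [hρ, ← zpow_neg]
    exact h13x_zpow_mem W0 hcy hcy' (-z)
  have hvalx : ∀ k, h26Centered B v 𝔫 k → v k (x : F) = 1 := fun k hk =>
    (hdat k hk).2.2.2.2.1
  have hval_e₁ : ∀ k, h26Centered B v 𝔫 k → v k e₁ = 1 := by
    intro k hk
    rw [he₁, map_mul, map_zpow₀, hval_e k hk, hvalx k hk, one_zpow, mul_one]
  obtain ⟨t, htu, hθt⟩ := h13x_const_unit hC hAF Winf W0 hVWinf hVW0 hWV hinvinf hinv0 hntinf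
    hnt0 𝔫 hninf hn0 e₁ hval_e₁ π hπ he₁U θ ρ ε hθc hθ0 hρW hρW' hεU he₁0
  obtain ⟨t', htt'⟩ := htu.exists_right_inv
  have ht'u : IsUnit t' := IsUnit.of_mul_eq_one t (by rw [mul_comm]; exact htt')
  have htF : algebraMap A F t * algebraMap A F t' = 1 := by rw [← map_mul, htt', map_one]
  have htF0 : algebraMap A F t ≠ 0 := left_ne_zero_of_mul_eq_one htF
  have hε' : ε⁻¹ ∈ h26U π W0 := h26U_inv (hinv0 π hπ) (hnt0 π hπ) hεU
  have he₁' : e₁⁻¹ ∈ h26U π Winf := h26U_inv (hinvinf π hπ) (hntinf π hπ) he₁U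
  have he₁V : e₁ ∈ V := by
    refine hWV e₁ (h26U_mem_V hπinf he₁U) ?_
    rw [he₁0, hθt]
    exact W0.mul_mem (W0.mul_mem (hA0 t) hρW) (h26U_mem_V hπW0 hεU)
  have hθinv : θ⁻¹ = algebraMap A F t' := by
    rw [hθt]
    exact inv_eq_of_mul_eq_one_right htF
  have he₁V' : e₁⁻¹ ∈ V := by
    refine hWV _ (h26U_mem_V hπinf he₁') ?_
    rw [he₁0, mul_inv, mul_inv, hθinv]
    exact W0.mul_mem (W0.mul_mem (hA0 t') hρW') (h26U_mem_V hπW0 hε')
  obtain ⟨s, hs, hse, hse'⟩ := h75s_unit_aux hC.hfin hC.hint hC.hB hC.hBV hC.hQEP 𝔫 e₁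
    he₁V he₁V' hval_e₁
  -- the slope vanishes
  have hz0 : z = 0 := by
    rcases lt_trichotomy z 0 with hlt | heq | hgt
    · exfalso
      obtain ⟨m, hm⟩ : ∃ m : ℕ, z = -((m : ℤ) + 1) := ⟨(-z - 1).toNat, by omega⟩
      refine h13x_slope_aux W0 hB0 hnt0 𝔫 hn0 y c hy hc e₁⁻¹ s hs hse' π hπ t' ht'u m ε⁻¹ hε' ?_
      rw [he₁0, mul_inv, mul_inv, hθinv, hρ, hm, zpow_neg, inv_inv]
      have h1 : ((c : F) * ((y : F))⁻¹) ^ ((m : ℤ) + 1) =
          (c : F) ^ (m + 1) * (((y : F)) ^ (m + 1))⁻¹ := by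
        rw [show ((m : ℤ) + 1) = ((m + 1 : ℕ) : ℤ) by push_cast; ring, zpow_natCast, mul_pow,
          inv_pow]
      rw [h1]
      have h2 : (y : F) ^ (m + 1) ≠ 0 := pow_ne_zero _ hy0'
      field_simp
    · exact heq
    · exfalso
      obtain ⟨m, hm⟩ : ∃ m : ℕ, z = (m : ℤ) + 1 := ⟨(z - 1).toNat, by omega⟩
      refine h13x_slope_aux W0 hB0 hnt0 𝔫 hn0 y c hy hc e₁ s hs hse π hπ t htu m ε hεU ?_
      rw [he₁0, hθt, hρ, hm]
      have h1 : ((c : F) * ((y : F))⁻¹) ^ ((m : ℤ) + 1) =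
          (c : F) ^ (m + 1) * (((y : F)) ^ (m + 1))⁻¹ := by
        rw [show ((m : ℤ) + 1) = ((m + 1 : ℕ) : ℤ) by push_cast; ring, zpow_natCast, mul_pow,
          inv_pow]
      rw [h1]
      have h2 : (y : F) ^ (m + 1) ≠ 0 := pow_ne_zero _ hy0'
      field_simp
  have hsT0 : sT = 0 := by
    have h1 : (r : ℤ) ≠ 0 := by exact_mod_cast hr.ne'
    rcases mul_eq_zero.mp hz0 with h | h
    · exact absurd h h1
    · exact h
  -- consequences
  have he₁e : e₁ = e := by rw [he₁, hz0, zpow_zero, mul_one]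
  have hg₁U : g₁ ∈ h26U π Winf := by
    rw [hg₁inf, hsT0, zpow_zero, one_mul]
    exact hεinfU
  -- `α` is a unit constant
  have hαr : α ^ r = algebraMap A F t' := by
    have h1 : θ = (α ^ r)⁻¹ := by rw [hθ, hz0, zpow_zero, one_mul]
    rw [← hθinv, h1, inv_inv]
  obtain ⟨tα, htα, hαt⟩ : ∃ tα : A, IsUnit tα ∧ α = algebraMap A F tα := by
    obtain ⟨p, hp0, hp | hp⟩ := h13x_const_dichotomy hAF hαc hα0
    · refine ⟨p, ?_, hp⟩
      have h1 : p ^ r = t' := by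
        apply hAF
        rw [map_pow, ← hp, hαr]
      exact (isUnit_pow_iff hr.ne').mp (h1 ▸ ht'u)
    · have h1 : p ^ r = t := by
        apply hAF
        rw [map_pow, ← hp, inv_pow, hαr]
        exact (inv_eq_of_mul_eq_one_left htF).symm ▸ rfl
      have hpu : IsUnit p := (isUnit_pow_iff hr.ne').mp (h1 ▸ htu)
      obtain ⟨p', hpp'⟩ := hpu.exists_right_inv
      refine ⟨p', IsUnit.of_mul_eq_one p (by rw [mul_comm]; exact hpp'), ?_⟩
      have h2 : algebraMap A F p * algebraMap A F p' = 1 := by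
        rw [← map_mul, hpp', map_one]
      rw [← hp] at h2
      have h3 : α = (α⁻¹)⁻¹ := (inv_inv α).symm
      rw [h3]
      exact inv_eq_of_mul_eq_one_right h2
  -- ===== the deep part =====
  set eN : ι → ℕ := fun i => (n i).toNat with heN
  set eD : ι → ℕ := fun i => (-(n i)).toNat with heD
  have hn_eq : ∀ i, n i = (eN i : ℤ) - (eD i : ℤ) := fun i =>
    (Int.toNat_sub_toNat_neg (n i)).symm
  have hsum : ∑ i ∈ T, eN i = ∑ i ∈ T, eD i := by
    have h4 : ∑ i ∈ T, ((eN i : ℤ) - (eD i : ℤ)) = 0 := by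
      rw [← hsT0, hsT]
      exact Finset.sum_congr rfl fun i _ => (hn_eq i).symm
    rw [Finset.sum_sub_distrib] at h4
    have h3 : ((∑ i ∈ T, eN i : ℕ) : ℤ) = ((∑ i ∈ T, eD i : ℕ) : ℤ) := by
      push_cast
      linarith
    exact_mod_cast h3
  have hβex : ∀ i, ∃ β : A, i ∈ T → (β ∈ maximalIdeal A ∧ ai i * β = a) := by
    intro i
    by_cases hi : i ∈ T
    · obtain ⟨gi', hgi'⟩ := (hdat i (hTc i hi)).2.2.1.exists_right_inv
      refine ⟨bi i * gi', fun _ => ⟨Ideal.mul_mem_right _ _ (hdat i (hTc i hi)).2.1, ?_⟩⟩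
      have hab := (hdat i (hTc i hi)).2.2.2.1
      calc ai i * (bi i * gi') = (ai i * bi i) * gi' := by ring
        _ = a * (gi i * gi') := by rw [hab]; ring
        _ = a := by rw [hgi', mul_one]
    · exact ⟨0, fun h => (hi h).elim⟩
  choose β hβ using hβex
  set ty : F := (y : F) * ((c : F))⁻¹ with hty
  have hty0 : ty ≠ 0 := mul_ne_zero hy0' (inv_ne_zero hc0)
  have hxty : (x : F) * ty = algebraMap A F a := by
    rw [hty, ← mul_assoc, hxyF]
    field_simp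
  have hη0ty : ∀ i ∈ T, η0 i * ty = ty - algebraMap A F (β i) := by
    intro i hi
    have hai := hai0 i hi
    have h1 : algebraMap A F (ai i) * algebraMap A F (β i) = algebraMap A F a := by
      rw [← map_mul, (hβ i hi).2]
    rw [hη0]
    simp only
    field_simp
    linear_combination h1 - hxty
  have hη00 : ∀ i ∈ T, η0 i ≠ 0 := fun i hi => h26U_ne_zero (hnt0 π hπ) (hη0U i hi)
  have hLy0 : ∀ i ∈ T, ty - algebraMap A F (β i) ≠ 0 := by
    intro i hi
    rw [← hη0ty i hi]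
    exact mul_ne_zero (hη00 i hi) hty0
  have hε0ty : ε0 = ∏ i ∈ T, (ty - algebraMap A F (β i)) ^ n i := by
    have h1 : ∏ i ∈ T, (ty - algebraMap A F (β i)) ^ n i = ε0 * ty ^ sT := by
      rw [hε0, hsT, ← h26_prod_zpow_const T ty hty0 n, ← Finset.prod_mul_distrib]
      refine Finset.prod_congr rfl fun i hi => ?_
      rw [← hη0ty i hi, mul_zpow]
    rw [h1, hsT0, zpow_zero, mul_one]
  have hgx : g₁ * aeval (x : F) (h91qPoly T ai eD) = aeval (x : F) (h91qPoly T ai eN) := by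
    rw [h16nPoly_aeval, h16nPoly_aeval, hg₁, ← Finset.prod_mul_distrib]
    refine Finset.prod_congr rfl fun i hi => ?_
    show G i ^ n i * G i ^ eD i = G i ^ eN i
    have h0 := hGi0 i hi
    rw [hn_eq i, zpow_sub₀ h0, zpow_natCast, zpow_natCast]
    have := pow_ne_zero (eD i) h0
    field_simp
  have hgy : g₁ * aeval ty (h91qPoly T β eD) =
      algebraMap A F tα * aeval ty (h91qPoly T β eN) := by
    rw [h16nPoly_aeval, h16nPoly_aeval, hg₁0, hαt, hε0ty, mul_assoc, ← Finset.prod_mul_distrib]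
    congr 1
    refine Finset.prod_congr rfl fun i hi => ?_
    have h0 := hLy0 i hi
    rw [hn_eq i, zpow_sub₀ h0, zpow_natCast, zpow_natCast]
    have := pow_ne_zero (eD i) h0
    field_simp
  have haim : ∀ i ∈ T, ai i ∈ maximalIdeal A := fun i hi => (hdat i (hTc i hi)).1
  have hβm : ∀ i ∈ T, β i ∈ maximalIdeal A := fun i hi => (hβ i hi).1
  have htxv : h16nVan 𝔫 (x : F) := h16n_van_coe hx
  have htyv : h16nVan 𝔫 ty := by
    refine ⟨c, hc, y, hy, ?_⟩
    rw [hty]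
    field_simp
  have htyW : ty⁻¹ ∈ W0 := by
    rw [hty, mul_inv, inv_inv, mul_comm]
    exact hcy
  have heR : h16nReg 𝔫 e := ⟨s, hs, by rw [← he₁e]; exact hse⟩
  obtain ⟨hD1, ⟨ε0', hε0', hgε⟩, hD3⟩ := h16n_deep_core hC hAF Winf W0 hVWinf hVW0 hWV
    hinvinf hinv0 hntinf hnt0 𝔫 hninf hn0 (x : F) ty htxv htyv hx0 hty0 hxinf htyW
    (∑ i ∈ T, eN i) (h91qPoly T ai eN) (h91qPoly T ai eD) (h91qPoly T β eN) (h91qPoly T β eD)
    (h91qPoly_monic T ai eN) (h91qPoly_monic T ai eD) (h91qPoly_monic T β eN)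
    (h91qPoly_monic T β eD)
    (h16nPoly_res T ai eN haim) (by rw [hsum]; exact h16nPoly_res T ai eD haim)
    (h16nPoly_res T β eN hβm) (by rw [hsum]; exact h16nPoly_res T β eD hβm)
    tα htα g₁ hgx hgy e heR r hrA c₁ hc₁ hc₁0 u hue huD
  exact ⟨g₁, e, ε0', tα, hue, hval_e, he₁e ▸ he₁V, he₁e ▸ he₁V', hD1, htα, hε0', hgε, hD3⟩

end Node

end Fermat.Agent.P6
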