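import Mathlib

/-!
# S33 / B2 (helper18): abstract purity — local `p`-th roots at a closed point

`A` is a valuation ring (a domain), `p` a prime number which is a nonzero nonunit of `A`,
`R` a commutative `A`-algebra, `O ≤ V` subalgebras of `R` (`V` = the Gauss ring, `O` = the local
ring at a closed point of the special fibre).  We write `O + a V` for `{b + a • r}`.

`h18y_purity` : if `O` is saturated in `V`, `p`-th roots and Artin–Schreier roots of elements of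
`O + 𝔪_A V` lie in `O + 𝔪_A V`, every element of `V` outside `O` has an exact depth, and
`G ∈ V` is congruent to a unit of `O` modulo `𝔪_A V`, then

  `G ^ p ∈ O + π V  ⟹  G ∈ O + a V`  with  `π ∣ a ^ p` or `π ∣ p * a`.

(i.e. `v(a) ≥ min (v(π)/p, v(π) - v(p))`).  `h18y_purity_pow` is the form with a fixed
`ϖ`: `G ^ p ∈ O + p ϖ ^ k V ⟹ G ∈ O + ϖ ^ (k / p) V`, and `h18y_purity_iter` iterates it.
Mathlib only.
-/

set_option autoImplicit false
set_option linter.unusedSectionVars false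

open IsLocalRing

namespace Fermat.Agent.P6

section Binom

variable {S : Type*} [CommRing S]

/-- the binomial expansion of `(b + x) ^ p` for a prime `p`, up to the terms in `p x ^ 2`. -/
theorem h18y_binom (p : ℕ) (hp : p.Prime) (b x : S) :
    ∃ Y : S, (b + x) ^ p = b ^ p + (p : S) * b ^ (p - 1) * x + (p : S) * x ^ 2 * Y + x ^ p := by
  obtain ⟨q, rfl⟩ : ∃ q, p = q + 2 := ⟨p - 2, by have := hp.two_le; omega⟩
  refine ⟨∑ i ∈ Finset.range q, x ^ i * b ^ (q - i) *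
    (((q + 2).choose (i + 2) / (q + 2) : ℕ) : S), ?_⟩
  rw [add_comm b x, add_pow, Finset.sum_range_succ, Finset.sum_range_succ',
    Finset.sum_range_succ']
  have h1 : ∀ i ∈ Finset.range q,
      x ^ (i + 1 + 1) * b ^ (q + 2 - (i + 1 + 1)) * (((q + 2).choose (i + 1 + 1) : ℕ) : S) =
        ((q + 2 : ℕ) : S) * x ^ 2 * (x ^ i * b ^ (q - i) *
          (((q + 2).choose (i + 2) / (q + 2) : ℕ) : S)) := by
    intro i hi
    have hi' : i < q := Finset.mem_range.mp hi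
    have hdvd : (q + 2) ∣ (q + 2).choose (i + 2) :=
      hp.dvd_choose_self (by omega) (by omega)
    have hc : (((q + 2).choose (i + 1 + 1) : ℕ) : S) =
        ((q + 2 : ℕ) : S) * (((q + 2).choose (i + 2) / (q + 2) : ℕ) : S) := by
      rw [← Nat.cast_mul, Nat.mul_div_cancel' hdvd]
    have he : q + 2 - (i + 1 + 1) = q - i := by omega
    rw [hc, he]
    ring
  rw [Finset.sum_congr rfl h1, ← Finset.mul_sum]
  simp only [zero_add, pow_one, pow_zero, Nat.sub_zero, Nat.choose_one_right,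
    Nat.choose_zero_right, Nat.choose_self, Nat.cast_one, mul_one, one_mul, Nat.sub_self]
  have he2 : q + 2 - 1 = q + 1 := by omega
  rw [he2]
  ring

end Binom

section Purity

variable {A : Type*} [CommRing A] [IsDomain A] [ValuationRing A]
  {R : Type*} [CommRing R] [Algebra A R]

/-- `G ∈ O + a V`. -/
def h18yNear (O V : Subalgebra A R) (a : A) (G : R) : Prop :=
  ∃ b ∈ O, ∃ r ∈ V, G = b + a • r

/-- `G ∈ O + 𝔪_A V`. -/
def h18yNearM (O V : Subalgebra A R) (G : R) : Prop :=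
  ∃ m ∈ maximalIdeal A, h18yNear O V m G

theorem h18y_near_of_dvd {O V : Subalgebra A R} {a a' : A} (h : a' ∣ a) {G : R}
    (hG : h18yNear O V a G) : h18yNear O V a' G := by
  obtain ⟨c, rfl⟩ := h
  obtain ⟨b, hb, r, hr, rfl⟩ := hG
  exact ⟨b, hb, c • r, V.smul_mem hr c, by rw [mul_smul]⟩

theorem h18y_nearM_of_mem {O V : Subalgebra A R} {G : R} (hG : G ∈ O) : h18yNearM O V G :=
  ⟨0, (maximalIdeal A).zero_mem, G, hG, 0, V.zero_mem, by simp⟩

/-- two nonunits have a common nonunit divisor. -/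
theorem h18y_exists_common {m₁ m₂ : A} (h₁ : m₁ ∈ maximalIdeal A) (h₂ : m₂ ∈ maximalIdeal A) :
    ∃ m ∈ maximalIdeal A, m ∣ m₁ ∧ m ∣ m₂ := by
  rcases ValuationRing.dvd_total m₁ m₂ with h | h
  · exact ⟨m₁, h₁, dvd_rfl, h⟩
  · exact ⟨m₂, h₂, h, dvd_rfl⟩

theorem h18y_nearM_add {O V : Subalgebra A R} {G H : R} (hG : h18yNearM O V G)
    (hH : h18yNearM O V H) : h18yNearM O V (G + H) := by
  obtain ⟨m₁, hm₁, hG⟩ := hG
  obtain ⟨m₂, hm₂, hH⟩ := hH
  obtain ⟨m, hm, hd₁, hd₂⟩ := h18y_exists_common hm₁ hm₂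
  obtain ⟨b, hb, r, hr, rfl⟩ := h18y_near_of_dvd hd₁ hG
  obtain ⟨b', hb', r', hr', rfl⟩ := h18y_near_of_dvd hd₂ hH
  exact ⟨m, hm, b + b', O.add_mem hb hb', r + r', V.add_mem hr hr', by rw [smul_add]; ring⟩

theorem h18y_nearM_neg {O V : Subalgebra A R} {G : R} (hG : h18yNearM O V G) :
    h18yNearM O V (-G) := by
  obtain ⟨m, hm, b, hb, r, hr, rfl⟩ := hG
  exact ⟨m, hm, -b, O.neg_mem hb, -r, V.neg_mem hr, by rw [smul_neg]; ring⟩

theorem h18y_nearM_sub {O V : Subalgebra A R} {G H : R} (hG : h18yNearM O V G)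
    (hH : h18yNearM O V H) : h18yNearM O V (G - H) := by
  rw [sub_eq_add_neg]
  exact h18y_nearM_add hG (h18y_nearM_neg hH)

/-- elements of `𝔪_A V` are in `O + 𝔪_A V`. -/
theorem h18y_nearM_smul {O V : Subalgebra A R} {m : A} (hm : m ∈ maximalIdeal A) {x : R}
    (hx : x ∈ V) : h18yNearM O V (m • x) :=
  ⟨m, hm, 0, O.zero_mem, x, hx, by simp⟩

/-- `O + 𝔪_A V` is stable under multiplication by `O` (as `O ≤ V`). -/
theorem h18y_nearM_mul_left {O V : Subalgebra A R} (hOV : O ≤ V) {u G : R} (hu : u ∈ O)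
    (hG : h18yNearM O V G) : h18yNearM O V (u * G) := by
  obtain ⟨m, hm, b, hb, r, hr, rfl⟩ := hG
  exact ⟨m, hm, u * b, O.mul_mem hu hb, u * r, V.mul_mem (hOV hu) hr, by
    rw [mul_add, mul_smul_comm]⟩

/-- `O + 𝔪_A V` is stable under the action of `A`. -/
theorem h18y_nearM_smul_left {O V : Subalgebra A R} (c : A) {G : R}
    (hG : h18yNearM O V G) : h18yNearM O V (c • G) := by
  obtain ⟨m, hm, b, hb, r, hr, rfl⟩ := hG
  exact ⟨m, hm, c • b, O.smul_mem hb c, c • r, V.smul_mem hr c, by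
    rw [smul_add, smul_comm]⟩

/-- in a valuation ring, `¬ π ∣ x` means `π = x * m` with `m` a nonunit. -/
theorem h18y_exists_of_not_dvd {π x : A} (h : ¬ π ∣ x) : ∃ m ∈ maximalIdeal A, π = x * m := by
  rcases ValuationRing.dvd_total x π with ⟨m, hm⟩ | h'
  · refine ⟨m, ?_, hm⟩
    rw [mem_maximalIdeal, mem_nonunits_iff]
    intro hu
    obtain ⟨m', hm'⟩ := hu.exists_right_inv
    exact h ⟨m', by rw [hm, mul_assoc, hm', mul_one]⟩
  · exact absurd h' h

/-- **Abstract purity**, one step. -/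
theorem h18y_purity (p : ℕ) (hp : p.Prime)
    (hp0 : (p : A) ≠ 0) (O V : Subalgebra A R) (hOV : O ≤ V)
    (hsat : ∀ a : A, a ≠ 0 → ∀ x ∈ V, a • x ∈ O → x ∈ O)
    (hroot : ∀ x ∈ V, h18yNearM O V (x ^ p) → h18yNearM O V x)
    (hAS : ∀ c : A, IsUnit c → ∀ u ∈ O, (∃ u' ∈ O, u * u' = 1) → ∀ x ∈ V,
      h18yNearM O V (x ^ p + c • (u * x)) → h18yNearM O V x)
    (hdepth : ∀ G ∈ V, G ∉ O →
      ∃ a : A, a ≠ 0 ∧ ∃ b ∈ O, ∃ r ∈ V, G = b + a • r ∧ ¬ h18yNearM O V r)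
    (G : R) (hGV : G ∈ V) (u : R) (hu : u ∈ O) (hu' : ∃ u' ∈ O, u * u' = 1)
    (hGu : ∃ m ∈ maximalIdeal A, ∃ y ∈ V, G = u + m • y)
    (π : A) (hGp : h18yNear O V π (G ^ p)) :
    ∃ a : A, h18yNear O V a G ∧ (π ∣ a ^ p ∨ π ∣ (p : A) * a) := by
  classical
  by_cases hGO : G ∈ O
  · exact ⟨0, ⟨G, hGO, 0, V.zero_mem, by simp⟩, Or.inr (by simp)⟩
  obtain ⟨a, ha0, b, hb, r, hr, hGeq, hrn⟩ := hdepth G hGV hGO
  refine ⟨a, ⟨b, hb, r, hr, hGeq⟩, ?_⟩
  by_contra hcon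
  rw [not_or] at hcon
  obtain ⟨hc1, hc2⟩ := hcon
  apply hrn
  obtain ⟨m₁, hm₁, hπ₁⟩ := h18y_exists_of_not_dvd hc1
  obtain ⟨m₂, hm₂, hπ₂⟩ := h18y_exists_of_not_dvd hc2
  obtain ⟨mu, hmu, y, hy, hGu⟩ := hGu
  obtain ⟨u', hu'O, huu'⟩ := hu'
  set φ := algebraMap A R with hφ
  have hφV : ∀ c : A, φ c ∈ V := fun c => V.algebraMap_mem c
  -- `a` is a nonunit
  have haM : a ∈ maximalIdeal A := by
    rw [mem_maximalIdeal, mem_nonunits_iff]
    intro hau
    obtain ⟨a', ha'⟩ := hau.exists_left_inv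
    apply hrn
    have h1 : r = a' • (a • r) := by rw [← mul_smul, ha', one_smul]
    rw [h1]
    apply h18y_nearM_smul_left
    have h2 : a • r = (u - b) + mu • y := by
      have : a • r = G - b := by rw [hGeq]; ring
      rw [this, hGu]; ring
    rw [h2]
    exact h18y_nearM_add (h18y_nearM_of_mem (O.sub_mem hu hb)) (h18y_nearM_smul hmu hy)
  -- `b = u + m'' z`
  obtain ⟨m'', hm'', hd₁, hd₂⟩ := h18y_exists_common hmu haM
  have hm''0 : m'' ≠ 0 := by
    rintro rfl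
    exact ha0 (zero_dvd_iff.mp hd₂)
  obtain ⟨c₁, hc₁⟩ := hd₁
  obtain ⟨c₂, hc₂⟩ := hd₂
  have hz : c₁ • y - c₂ • r ∈ O := by
    apply hsat m'' hm''0 _ (V.sub_mem (V.smul_mem hy _) (V.smul_mem hr _))
    have : m'' • (c₁ • y - c₂ • r) = b - u := by
      have h1 : b = G - a • r := by rw [hGeq]; ring
      rw [h1, hGu, smul_sub, ← mul_smul, ← mul_smul, ← hc₁, ← hc₂]; ring
    rw [this]
    exact O.sub_mem hb hu
  set z := c₁ • y - c₂ • r with hzdef
  have hbu : b = u + m'' • z := by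
    have h1 : b = G - a • r := by rw [hGeq]; ring
    rw [h1, hGu, hzdef, smul_sub, ← mul_smul, ← mul_smul, ← hc₁, ← hc₂]; ring
  -- `b ^ (p - 1) = u ^ (p - 1) + m'' c`
  obtain ⟨c, hcO, hbpow⟩ : ∃ c ∈ O, b ^ (p - 1) = u ^ (p - 1) + m'' • c := by
    obtain ⟨d, hd⟩ := sub_dvd_pow_sub_pow (⟨b, hb⟩ : O) ⟨u, hu⟩ (p - 1)
    have hd' := congrArg Subtype.val hd
    simp only [Subalgebra.coe_sub, Subalgebra.coe_pow, Subalgebra.coe_mul] at hd'
    refine ⟨z * d, O.mul_mem hz d.2, ?_⟩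
    have h2 : b - u = m'' • z := by rw [hbu]; ring
    rw [h2] at hd'
    rw [smul_mul_assoc] at hd'
    rw [← hd']; ring
  -- the expansion of `G ^ p`
  obtain ⟨Y, hY⟩ := h18y_binom p hp (⟨b, hOV hb⟩ : V) ⟨a • r, V.smul_mem hr a⟩
  have hY' := congrArg Subtype.val hY
  simp only [Subalgebra.coe_add, Subalgebra.coe_pow, Subalgebra.coe_mul] at hY'
  have hpφ : (((p : ℕ) : V) : R) = φ (p : A) := by
    rw [hφ, map_natCast]
    exact map_natCast V.val p
  obtain ⟨o, ho, s, hs, hGpeq⟩ := hGp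
  rw [hGeq, hY'] at hGpeq
  -- the key identity
  have hE : φ a ^ p * r ^ p + φ (p * a) * (b ^ (p - 1) * r) +
      φ (p * a) * (φ a * (r ^ 2 * (Y : R))) = (o - b ^ p) + φ π * s := by
    have h3 : o + π • s = b ^ p + φ (p : A) * b ^ (p - 1) * (φ a * r) +
        φ (p : A) * (φ a * r) ^ 2 * (Y : R) + (φ a * r) ^ p := by
      rw [← hGpeq, hpφ, Algebra.smul_def]
    rw [Algebra.smul_def] at h3
    rw [map_mul]
    linear_combination -h3
  have hr2Y : r ^ 2 * (Y : R) ∈ V := V.mul_mem (V.pow_mem hr 2) Y.2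
  have hbr : b ^ (p - 1) * r ∈ V := V.mul_mem (V.pow_mem (hOV hb) _) hr
  have hobp : o - b ^ p ∈ O := O.sub_mem ho (O.pow_mem hb p)
  have hpa0 : (p : A) * a ≠ 0 := mul_ne_zero hp0 ha0
  have hap0 : a ^ p ≠ 0 := pow_ne_zero _ ha0
  -- from `u ^ (p-1) * r ∈ O + 𝔪 V` to `r ∈ O + 𝔪 V`
  have hfin : h18yNearM O V (u ^ (p - 1) * r) → h18yNearM O V r := by
    intro h
    have h1 : r = u' ^ (p - 1) * (u ^ (p - 1) * r) := by
      rw [← mul_assoc, ← mul_pow, mul_comm u' u, huu', one_pow, one_mul]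
    rw [h1]
    exact h18y_nearM_mul_left hOV (O.pow_mem hu'O _) h
  have hbr' : b ^ (p - 1) * r = u ^ (p - 1) * r + m'' • (c * r) := by
    rw [hbpow, add_mul, smul_mul_assoc]
  -- the three cases
  have caseIII : ∀ m : A, IsUnit m → (p : A) * a = a ^ p * m → h18yNearM O V r := by
    intro m hmu' hm
    -- `a ^ p (r ^ p + m b^{p-1} r + m a r² Y - m m₂ s) ∈ O`
    have hX : r ^ p + m • (b ^ (p - 1) * r) + m • (a • (r ^ 2 * (Y : R))) - (m * m₂) • s ∈ O := by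
      apply hsat (a ^ p) hap0
      · exact V.sub_mem (V.add_mem (V.add_mem (V.pow_mem hr p) (V.smul_mem hbr _))
          (V.smul_mem (V.smul_mem hr2Y _) _)) (V.smul_mem hs _)
      · have : a ^ p • (r ^ p + m • (b ^ (p - 1) * r) + m • (a • (r ^ 2 * (Y : R))) -
            (m * m₂) • s) = o - b ^ p := by
          have hπ : φ π = φ a ^ p * φ m * φ m₂ := by
            rw [hπ₂, hm, map_mul, map_mul, map_pow]
          have hpa : φ (p * a) = φ a ^ p * φ m := by rw [hm, map_mul, map_pow]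
          simp only [Algebra.smul_def, map_mul, map_pow]
          rw [← hφ]
          rw [hpa, hπ] at hE
          linear_combination hE
        rw [this]; exact hobp
    have h1 : r ^ p + m • (u ^ (p - 1) * r) =
        (r ^ p + m • (b ^ (p - 1) * r) + m • (a • (r ^ 2 * (Y : R))) - (m * m₂) • s) +
          ((m₂ * m) • s - a • (m • (r ^ 2 * (Y : R))) - m'' • (m • (c * r))) := by
      rw [hbr']
      simp only [Algebra.smul_def, map_mul]
      ring
    apply hAS m hmu' (u ^ (p - 1)) (O.pow_mem hu _)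
      ⟨u' ^ (p - 1), O.pow_mem hu'O _, by rw [← mul_pow, huu', one_pow]⟩ r hr
    rw [h1]
    refine h18y_nearM_add (h18y_nearM_of_mem hX) (h18y_nearM_sub (h18y_nearM_sub ?_ ?_) ?_)
    · exact h18y_nearM_smul (Ideal.mul_mem_right _ _ hm₂) hs
    · exact h18y_nearM_smul haM (V.smul_mem hr2Y _)
    · exact h18y_nearM_smul hm'' (V.smul_mem (V.mul_mem (hOV hcO) hr) _)
  rcases ValuationRing.dvd_total (a ^ p) ((p : A) * a) with ⟨m, hm⟩ | ⟨m, hm⟩
  · by_cases hmu' : IsUnit m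
    · exact caseIII m hmu' hm
    · -- case I
      have hmM : m ∈ maximalIdeal A := by rwa [mem_maximalIdeal, mem_nonunits_iff]
      have hX : r ^ p - m₁ • s + m • (b ^ (p - 1) * r + a • (r ^ 2 * (Y : R))) ∈ O := by
        apply hsat (a ^ p) hap0
        · exact V.add_mem (V.sub_mem (V.pow_mem hr p) (V.smul_mem hs _))
            (V.smul_mem (V.add_mem hbr (V.smul_mem hr2Y _)) _)
        · have : a ^ p • (r ^ p - m₁ • s + m • (b ^ (p - 1) * r + a • (r ^ 2 * (Y : R)))) =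
              o - b ^ p := by
            have hπ : φ π = φ a ^ p * φ m₁ := by rw [hπ₁, map_mul, map_pow]
            have hpa : φ (p * a) = φ a ^ p * φ m := by rw [hm, map_mul, map_pow]
            simp only [Algebra.smul_def, map_pow]
            rw [← hφ]
            rw [hpa, hπ] at hE
            linear_combination hE
          rw [this]; exact hobp
      apply hroot r hr
      have h1 : r ^ p = (r ^ p - m₁ • s + m • (b ^ (p - 1) * r + a • (r ^ 2 * (Y : R)))) +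
          (m₁ • s - m • (b ^ (p - 1) * r + a • (r ^ 2 * (Y : R)))) := by ring
      rw [h1]
      refine h18y_nearM_add (h18y_nearM_of_mem hX) (h18y_nearM_sub ?_ ?_)
      · exact h18y_nearM_smul hm₁ hs
      · exact h18y_nearM_smul hmM (V.add_mem hbr (V.smul_mem hr2Y _))
  · by_cases hmu' : IsUnit m
    · obtain ⟨m', hm'⟩ := hmu'.exists_right_inv
      have hm'u : IsUnit m' := IsUnit.of_mul_eq_one m (by rw [mul_comm]; exact hm')
      refine caseIII m' hm'u ?_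
      rw [hm, mul_assoc, hm', mul_one]
    · -- case II
      have hmM : m ∈ maximalIdeal A := by rwa [mem_maximalIdeal, mem_nonunits_iff]
      have hX : b ^ (p - 1) * r - m₂ • s + a • (r ^ 2 * (Y : R)) + m • r ^ p ∈ O := by
        apply hsat ((p : A) * a) hpa0
        · exact V.add_mem (V.add_mem (V.sub_mem hbr (V.smul_mem hs _)) (V.smul_mem hr2Y _))
            (V.smul_mem (V.pow_mem hr p) _)
        · have : ((p : A) * a) • (b ^ (p - 1) * r - m₂ • s + a • (r ^ 2 * (Y : R)) +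
              m • r ^ p) = o - b ^ p := by
            have hπ : φ π = φ (p * a) * φ m₂ := by rw [hπ₂, map_mul]
            have hap : φ a ^ p = φ (p * a) * φ m := by rw [← map_pow, hm, map_mul]
            simp only [Algebra.smul_def]
            rw [← hφ]
            rw [hap, hπ] at hE
            linear_combination hE
          rw [this]; exact hobp
      apply hfin
      have h1 : u ^ (p - 1) * r =
          (b ^ (p - 1) * r - m₂ • s + a • (r ^ 2 * (Y : R)) + m • r ^ p) +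
            (m₂ • s - a • (r ^ 2 * (Y : R)) - m • r ^ p - m'' • (c * r)) := by
        rw [hbr']; ring
      rw [h1]
      refine h18y_nearM_add (h18y_nearM_of_mem hX)
        (h18y_nearM_sub (h18y_nearM_sub (h18y_nearM_sub ?_ ?_) ?_) ?_)
      · exact h18y_nearM_smul hm₂ hs
      · exact h18y_nearM_smul haM hr2Y
      · exact h18y_nearM_smul hmM (V.pow_mem hr p)
      · exact h18y_nearM_smul hm'' (V.mul_mem (hOV hcO) hr)

/-- in a valuation ring, `x ^ n ∣ y ^ n` implies `x ∣ y` (`n ≠ 0`). -/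
theorem h18y_dvd_of_pow_dvd_pow {x y : A} {n : ℕ} (hn : n ≠ 0) (h : x ^ n ∣ y ^ n) : x ∣ y := by
  by_cases hy : y = 0
  · rw [hy]; exact dvd_zero x
  by_contra hxy
  obtain ⟨m, hm, hx⟩ := h18y_exists_of_not_dvd hxy
  obtain ⟨c, hc⟩ := h
  rw [hx, mul_pow, mul_assoc] at hc
  have h1 : y ^ n * 1 = y ^ n * (m ^ n * c) := by rw [mul_one]; exact hc
  have h2 : (1 : A) = m ^ n * c := mul_left_cancel₀ (pow_ne_zero n hy) h1
  have h3 : IsUnit (m ^ n) := IsUnit.of_mul_eq_one c h2.symm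
  have h4 : IsUnit m := (isUnit_pow_iff hn).mp h3
  rw [mem_maximalIdeal, mem_nonunits_iff] at hm
  exact hm h4

/-- **Abstract purity**, one step, with a fixed `ϖ`:
`G ^ p ∈ O + p ϖ ^ k V ⟹ G ∈ O + ϖ ^ (k / p) V`. -/
theorem h18y_purity_pow (p : ℕ) (hp : p.Prime)
    (hp0 : (p : A) ≠ 0) (O V : Subalgebra A R) (hOV : O ≤ V)
    (hsat : ∀ a : A, a ≠ 0 → ∀ x ∈ V, a • x ∈ O → x ∈ O)
    (hroot : ∀ x ∈ V, h18yNearM O V (x ^ p) → h18yNearM O V x)
    (hAS : ∀ c : A, IsUnit c → ∀ u ∈ O, (∃ u' ∈ O, u * u' = 1) → ∀ x ∈ V,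
      h18yNearM O V (x ^ p + c • (u * x)) → h18yNearM O V x)
    (hdepth : ∀ G ∈ V, G ∉ O →
      ∃ a : A, a ≠ 0 ∧ ∃ b ∈ O, ∃ r ∈ V, G = b + a • r ∧ ¬ h18yNearM O V r)
    (G : R) (hGV : G ∈ V) (u : R) (hu : u ∈ O) (hu' : ∃ u' ∈ O, u * u' = 1)
    (hGu : ∃ m ∈ maximalIdeal A, ∃ y ∈ V, G = u + m • y)
    (ϖ : A) (k : ℕ) (hGp : h18yNear O V ((p : A) * ϖ ^ k) (G ^ p)) :
    h18yNear O V (ϖ ^ (k / p)) G := by
  obtain ⟨a, hna, hdiv⟩ := h18y_purity p hp hp0 O V hOV hsat hroot hAS hdepth G hGV u hu hu'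
    hGu _ hGp
  refine h18y_near_of_dvd ?_ hna
  rcases hdiv with h | h
  · apply h18y_dvd_of_pow_dvd_pow hp.ne_zero
    rw [← pow_mul]
    refine dvd_trans (dvd_trans (pow_dvd_pow ϖ (Nat.div_mul_le_self k p)) ?_) h
    exact Dvd.intro_left _ rfl
  · have h1 : ϖ ^ k ∣ a := (mul_dvd_mul_iff_left hp0).mp h
    exact dvd_trans (pow_dvd_pow ϖ (Nat.div_le_self k p)) h1

/-- **Abstract purity**, iterated: for every exponent `n` and every target precision `j` there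
is a source precision `k` such that `G ^ (p ^ n) ∈ O + ϖ ^ k V ⟹ G ∈ O + ϖ ^ j V`, for the
`G ∈ V` congruent to a unit of `O` modulo `𝔪_A V`. -/
theorem h18y_purity_iter (p : ℕ) (hp : p.Prime)
    (hp0 : (p : A) ≠ 0) (O V : Subalgebra A R) (hOV : O ≤ V)
    (hsat : ∀ a : A, a ≠ 0 → ∀ x ∈ V, a • x ∈ O → x ∈ O)
    (hroot : ∀ x ∈ V, h18yNearM O V (x ^ p) → h18yNearM O V x)
    (hAS : ∀ c : A, IsUnit c → ∀ u ∈ O, (∃ u' ∈ O, u * u' = 1) → ∀ x ∈ V,
      h18yNearM O V (x ^ p + c • (u * x)) → h18yNearM O V x)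
    (hdepth : ∀ G ∈ V, G ∉ O →
      ∃ a : A, a ≠ 0 ∧ ∃ b ∈ O, ∃ r ∈ V, G = b + a • r ∧ ¬ h18yNearM O V r)
    (ϖ : A) (e : ℕ) (he : (p : A) ∣ ϖ ^ e) (n j : ℕ) :
    ∃ k : ℕ, ∀ G ∈ V, (∃ u ∈ O, (∃ u' ∈ O, u * u' = 1) ∧
        ∃ m ∈ maximalIdeal A, ∃ y ∈ V, G = u + m • y) →
      h18yNear O V (ϖ ^ k) (G ^ (p ^ n)) → h18yNear O V (ϖ ^ j) G := by
  induction n generalizing j with
  | zero => exact ⟨j, fun G _ _ h => by simpa using h⟩
  | succ n ih =>
    obtain ⟨k, hk⟩ := ih (e + p * j)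
    refine ⟨k, fun G hGV hGu hG => ?_⟩
    obtain ⟨u, hu, ⟨u', hu', huu'⟩, m, hm, y, hy, hGeq⟩ := hGu
    -- `G ^ p` is congruent to the unit `u ^ p`
    have hGpu : ∃ u₁ ∈ O, (∃ u₁' ∈ O, u₁ * u₁' = 1) ∧
        ∃ m ∈ maximalIdeal A, ∃ y ∈ V, G ^ p = u₁ + m • y := by
      refine ⟨u ^ p, O.pow_mem hu p, ⟨u' ^ p, O.pow_mem hu' p, by rw [← mul_pow, huu', one_pow]⟩,
        m, hm, ?_⟩
      obtain ⟨d, hd⟩ := sub_dvd_pow_sub_pow (⟨G, hGV⟩ : V) ⟨u, hOV hu⟩ p
      have hd' := congrArg Subtype.val hd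
      simp only [Subalgebra.coe_sub, Subalgebra.coe_pow, Subalgebra.coe_mul] at hd'
      refine ⟨y * d, V.mul_mem hy d.2, ?_⟩
      have h2 : G - u = m • y := by rw [hGeq]; ring
      rw [h2, smul_mul_assoc] at hd'
      rw [← hd']; ring
    have h1 : h18yNear O V (ϖ ^ (e + p * j)) (G ^ p) := by
      apply hk (G ^ p) (V.pow_mem hGV p) hGpu
      rw [← pow_mul, ← pow_succ']
      exact hG
    have h2 : h18yNear O V ((p : A) * ϖ ^ (p * j)) (G ^ p) := by
      refine h18y_near_of_dvd ?_ h1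
      rw [pow_add]
      exact mul_dvd_mul_right he _
    have h3 := h18y_purity_pow p hp hp0 O V hOV hsat hroot hAS hdepth G hGV u hu
      ⟨u', hu', huu'⟩ ⟨m, hm, y, hy, hGeq⟩ ϖ (p * j) h2
    rwa [Nat.mul_div_cancel_left j hp.pos] at h3

end Purity

end Fermat.Agent.P6
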