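import Mathlib
import Fermat.Agent.P6.H18Purity

/-!
# S33 / B2 (helper18): the pole form at a smooth closed point and the hypotheses of purity

Abstract setting (Mathlib only): `A` a valuation ring, `F` a field over `A`, `O ≤ V`
subalgebras of `F` (`V` the Gauss ring, `O` the local ring at a closed point `𝔫` of the special
fibre, intersected with `V`), `Sm` the predicate "lies in `𝔫 O`" (a prime ideal of `O` containing
`t` and `𝔪_A O`), `t` a local parameter with `t⁻¹ ∈ V`.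

* `H18zLocal` : the data.
* `H18zPole` : the **pole form** `G = b + a • (u / t ^ k + m • y)`, `b ∈ O`, `u ∈ O` not in
  `𝔫 O`, `k ≥ 1`, `m ∈ 𝔪_A`, `y ∈ V`.
* `h18z_pole_of_list` : Mittag-Leffler by successive division: if `G ∈ V` becomes an element of
  `O` after multiplication by a product of linear factors, then `G ∈ O` or `G` has a pole form.
* `h18z_hdepth`, `h18z_hroot`, `h18z_hAS` : the hypotheses of `h18y_purity`.
* `h18z_root` : the iterated purity at a smooth closed point.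
-/

set_option autoImplicit false
set_option linter.unusedSectionVars false

open IsLocalRing

namespace Fermat.Agent.P6

variable {A : Type*} [CommRing A] [IsDomain A] [ValuationRing A]
  {F : Type*} [Field F] [Algebra A F]

/-- the abstract local data at a smooth closed point. -/
structure H18zLocal (O V : Subalgebra A F) (Sm : F → Prop) (t : F) : Prop where
  hOV : O ≤ V
  hsat : ∀ a : A, a ≠ 0 → ∀ x ∈ V, a • x ∈ O → x ∈ O
  htO : t ∈ O
  htV : t⁻¹ ∈ V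
  ht0 : t ≠ 0
  sm_add : ∀ x y, Sm x → Sm y → Sm (x + y)
  sm_mul : ∀ x y, x ∈ O → Sm y → Sm (x * y)
  sm_t : Sm t
  sm_m : ∀ m ∈ maximalIdeal A, ∀ x ∈ O, Sm (m • x)
  sm_one : ¬ Sm 1
  sm_pow : ∀ x ∈ O, ∀ n : ℕ, Sm (x ^ n) → Sm x

/-- the pole form of order `≤ d`. -/
def H18zPole (O V : Subalgebra A F) (Sm : F → Prop) (t : F) (d : ℕ) (G : F) : Prop :=
  ∃ (a : A) (b u : F) (k : ℕ) (m : A) (y : F), a ≠ 0 ∧ b ∈ O ∧ u ∈ O ∧ ¬ Sm u ∧ 1 ≤ k ∧ k ≤ d ∧
    m ∈ maximalIdeal A ∧ y ∈ V ∧ G = b + a • (u * t⁻¹ ^ k + m • y)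

/-- a linear factor: its inverse is `t⁻¹ (1 + a y)` and the elements of `O` can be divided by
it after subtraction of a constant. -/
def H18zLin (O V : Subalgebra A F) (t : F) (l : F) : Prop :=
  l ≠ 0 ∧ (∃ a ∈ maximalIdeal A, ∃ y ∈ V, l⁻¹ = t⁻¹ * (1 + a • y)) ∧
    ∀ g ∈ O, ∃ c : A, (g - algebraMap A F c) * l⁻¹ ∈ O

section Basic

variable {O V : Subalgebra A F} {Sm : F → Prop} {t : F}

theorem h18z_sm_neg (h : H18zLocal O V Sm t) {x : F} (hx : Sm x) : Sm (-x) := by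
  have := h.sm_mul (-1) x (O.neg_mem O.one_mem) hx
  simpa using this

theorem h18z_sm_sub (h : H18zLocal O V Sm t) {x y : F} (hx : Sm x) (hy : Sm y) : Sm (x - y) := by
  rw [sub_eq_add_neg]
  exact h.sm_add _ _ hx (h18z_sm_neg h hy)

theorem h18z_sm_tpow (h : H18zLocal O V Sm t) {k : ℕ} (hk : 1 ≤ k) : Sm (t ^ k) := by
  obtain ⟨k', rfl⟩ : ∃ k', k = k' + 1 := ⟨k - 1, by omega⟩
  rw [pow_succ]
  exact h.sm_mul _ _ (O.pow_mem h.htO _) h.sm_t

theorem h18z_tinv_mul (h : H18zLocal O V Sm t) (k : ℕ) : t⁻¹ ^ k * t ^ k = 1 := by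
  rw [← mul_pow, inv_mul_cancel₀ h.ht0, one_pow]

/-- `m₁ • y₁ + m₂ • y₂ = m • y` with `m` a common nonunit divisor. -/
theorem h18z_combine {m₁ m₂ : A} (h₁ : m₁ ∈ maximalIdeal A) (h₂ : m₂ ∈ maximalIdeal A)
    {y₁ y₂ : F} (hy₁ : y₁ ∈ V) (hy₂ : y₂ ∈ V) :
    ∃ m ∈ maximalIdeal A, ∃ y ∈ V, m₁ • y₁ + m₂ • y₂ = m • y ∧ (m = 0 → m₁ = 0 ∧ m₂ = 0) := by
  obtain ⟨m, hm, ⟨c₁, hc₁⟩, ⟨c₂, hc₂⟩⟩ := h18y_exists_common h₁ h₂
  refine ⟨m, hm, c₁ • y₁ + c₂ • y₂, V.add_mem (V.smul_mem hy₁ _) (V.smul_mem hy₂ _), ?_, ?_⟩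
  · rw [smul_add, ← mul_smul, ← mul_smul, ← hc₁, ← hc₂]
  · rintro rfl
    rw [zero_mul] at hc₁ hc₂
    exact ⟨hc₁, hc₂⟩

/-- a pole `u / t ^ k + m y` is not in `O + 𝔪_A V`. -/
theorem h18z_pole_not_near (h : H18zLocal O V Sm t) {u : F} (hu : u ∈ O) (hns : ¬ Sm u)
    {k : ℕ} (hk : 1 ≤ k) {m : A} (hm : m ∈ maximalIdeal A) {y : F} (hy : y ∈ V) :
    ¬ h18yNearM O V (u * t⁻¹ ^ k + m • y) := by
  rintro ⟨m', hm', o, ho, y', hy', heq⟩
  apply hns
  have htk : t ^ k ∈ V := V.pow_mem (h.hOV h.htO) k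
  -- `u - t ^ k o = m' (t ^ k y') + (-m) (t ^ k y)`
  have hneg : -m ∈ maximalIdeal A := (maximalIdeal A).neg_mem hm
  obtain ⟨m'', hm'', z, hz, hcomb, hzero⟩ := h18z_combine hm' hneg
    (V.mul_mem htk hy') (V.mul_mem htk hy)
  have h1 : u - t ^ k * o = m'' • z := by
    rw [← hcomb]
    have h2 : u = (u * t⁻¹ ^ k) * t ^ k := by
      rw [mul_assoc, h18z_tinv_mul h, mul_one]
    have h3 : u * t⁻¹ ^ k = o + m' • y' - m • y := by rw [← heq]; ring
    rw [h2, h3]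
    simp only [Algebra.smul_def, map_neg]
    ring
  have hzO : m'' • z ∈ O := by
    rw [← h1]
    exact O.sub_mem hu (O.mul_mem (O.pow_mem h.htO k) ho)
  have h4 : u = t ^ k * o + m'' • z := by rw [← h1]; ring
  rw [h4]
  by_cases hm0 : m'' = 0
  · rw [hm0, zero_smul, add_zero, mul_comm]
    exact h.sm_mul _ _ ho (h18z_sm_tpow h hk)
  · have hzO' : z ∈ O := h.hsat m'' hm0 z hz hzO
    refine h.sm_add _ _ ?_ (h.sm_m m'' hm'' z hzO')
    rw [mul_comm]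
    exact h.sm_mul _ _ ho (h18z_sm_tpow h hk)

/-- the inverse of a product of linear factors. -/
theorem h18z_prod_inv (_h : H18zLocal O V Sm t) (L : List F) (hL : ∀ l ∈ L, H18zLin O V t l) :
    ∃ a ∈ maximalIdeal A, ∃ y ∈ V, L.prod⁻¹ = t⁻¹ ^ L.length * (1 + a • y) := by
  induction L with
  | nil => exact ⟨0, (maximalIdeal A).zero_mem, 0, V.zero_mem, by simp⟩
  | cons l L ih =>
    obtain ⟨a₁, ha₁, y₁, hy₁, h1⟩ := ih (fun l' hl' => hL l' (List.mem_cons_of_mem _ hl'))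
    obtain ⟨-, ⟨a₂, ha₂, y₂, hy₂, h2⟩, -⟩ := hL l List.mem_cons_self
    obtain ⟨m, hm, y, hy, hcomb, -⟩ := h18z_combine ha₁ ha₂
      (show y₁ + a₂ • (y₁ * y₂) ∈ V from V.add_mem hy₁ (V.smul_mem (V.mul_mem hy₁ hy₂) _)) hy₂
    refine ⟨m, hm, y, hy, ?_⟩
    rw [List.prod_cons, List.length_cons, mul_inv, h1, h2, ← hcomb]
    simp only [Algebra.smul_def]
    ring

/-- a pole form of order `≤ d` is a pole form of order `≤ d'` for `d ≤ d'`. -/
theorem h18z_pole_mono {d d' : ℕ} (hd : d ≤ d') {G : F} (hG : H18zPole O V Sm t d G) :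
    H18zPole O V Sm t d' G := by
  obtain ⟨a, b, u, k, m, y, ha, hb, hu, hns, hk1, hkd, hm, hy, hG⟩ := hG
  exact ⟨a, b, u, k, m, y, ha, hb, hu, hns, hk1, le_trans hkd hd, hm, hy, hG⟩

/-- the sum of a unit-like element and an element of `𝔫` is not in `𝔫`. -/
theorem h18z_not_sm_add (h : H18zLocal O V Sm t) {u x : F} (hns : ¬ Sm u) (hx : Sm x) :
    ¬ Sm (u + x) := by
  intro hux
  apply hns
  have := h18z_sm_sub h hux hx
  simpa using this

/-- adding a new simple pole term `c / (l L.prod)` to an element of `O` or to a pole form. -/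
theorem h18z_pole_step (h : H18zLocal O V Sm t) {d : ℕ} {G₁ : F}
    (hG₁ : G₁ ∈ O ∨ H18zPole O V Sm t d G₁) (c : A) (hc : c ≠ 0)
    {a : A} (ha : a ∈ maximalIdeal A) {y : F} (hy : y ∈ V) :
    H18zPole O V Sm t (d + 1) (G₁ + c • (t⁻¹ ^ (d + 1) * (1 + a • y))) := by
  have htV : t⁻¹ ^ (d + 1) ∈ V := V.pow_mem h.htV _
  rcases hG₁ with hO | ⟨a₁, b, u, k, m₁, y₁, ha₁, hb, hu, hns, hk1, hkd, hm₁, hy₁, rfl⟩
  · refine ⟨c, G₁, 1, d + 1, a, t⁻¹ ^ (d + 1) * y, hc, hO, O.one_mem, h.sm_one, by omega,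
      le_rfl, ha, V.mul_mem htV hy, ?_⟩
    simp only [Algebra.smul_def]
    ring
  · -- `t ^ (d + 1 - k) * t⁻¹ ^ (d + 1) = t⁻¹ ^ k`
    have hj : 1 ≤ d + 1 - k := by omega
    have htj : t ^ (d + 1 - k) * t⁻¹ ^ (d + 1) = t⁻¹ ^ k := by
      have h1 : t⁻¹ ^ (d + 1) = t⁻¹ ^ (d + 1 - k) * t⁻¹ ^ k := by
        rw [← pow_add]; congr 1; omega
      rw [h1, ← mul_assoc, mul_comm (t ^ (d + 1 - k)), h18z_tinv_mul h, one_mul]
    by_cases hca : c ∣ a₁
    · obtain ⟨e, rfl⟩ := hca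
      have hsm : Sm (e • (u * t ^ (d + 1 - k))) := by
        have h1 : e • (u * t ^ (d + 1 - k)) = (e • u) * t ^ (d + 1 - k) := by
          rw [smul_mul_assoc]
        rw [h1]
        exact h.sm_mul _ _ (O.smul_mem hu e) (h18z_sm_tpow h hj)
      have hem : e * m₁ ∈ maximalIdeal A := Ideal.mul_mem_left _ _ hm₁
      obtain ⟨m, hm, z, hz, hcomb, -⟩ := h18z_combine hem ha hy₁ (V.mul_mem htV hy)
      refine ⟨c, b, 1 + e • (u * t ^ (d + 1 - k)), d + 1, m, z, hc, hb,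
        O.add_mem O.one_mem (O.smul_mem (O.mul_mem hu (O.pow_mem h.htO _)) e),
        h18z_not_sm_add h h.sm_one hsm, by omega, le_rfl, hm, hz, ?_⟩
      rw [← hcomb, ← htj]
      simp only [Algebra.smul_def, map_mul]
      ring
    · obtain ⟨e, he, rfl⟩ := h18y_exists_of_not_dvd hca
      obtain ⟨m, hm, z, hz, hcomb, -⟩ := h18z_combine hm₁ he hy₁
        (show t⁻¹ ^ (d + 1) * (1 + a • y) ∈ V from
          V.mul_mem htV (V.add_mem V.one_mem (V.smul_mem hy a)))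
      refine ⟨a₁, b, u, k, m, z, ha₁, hb, hu, hns, hk1, by omega, hm, hz, ?_⟩
      rw [← hcomb]
      simp only [Algebra.smul_def, map_mul]
      ring

/-- **Mittag-Leffler by successive division**: if `G ∈ V` becomes an element of `O` after
multiplication by a product of linear factors, then `G ∈ O` or `G` has a pole form. -/
theorem h18z_pole_of_list (h : H18zLocal O V Sm t) (L : List F)
    (hL : ∀ l ∈ L, H18zLin O V t l) (G : F) (hGV : G ∈ V) (hG : L.prod * G ∈ O) :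
    G ∈ O ∨ H18zPole O V Sm t L.length G := by
  induction L generalizing G with
  | nil => left; simpa using hG
  | cons l L ih =>
    have hL' : ∀ l' ∈ L, H18zLin O V t l' := fun l' hl' => hL l' (List.mem_cons_of_mem _ hl')
    obtain ⟨hl0, -, hdiv⟩ := hL l List.mem_cons_self
    obtain ⟨c, hc⟩ := hdiv _ hG
    obtain ⟨a, ha, y, hy, hinv⟩ := h18z_prod_inv h (l :: L) hL
    have hP0 : L.prod ≠ 0 := by
      rw [Ne, List.prod_eq_zero_iff]
      intro h0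
      exact (hL' 0 h0).1 rfl
    have hPV : (l * L.prod)⁻¹ ∈ V := by
      rw [← List.prod_cons, hinv]
      exact V.mul_mem (V.pow_mem h.htV _) (V.add_mem V.one_mem (V.smul_mem hy a))
    have hG₁V : G - c • (l * L.prod)⁻¹ ∈ V := V.sub_mem hGV (V.smul_mem hPV c)
    have hG₁ : L.prod * (G - c • (l * L.prod)⁻¹) ∈ O := by
      have h1 : L.prod * (G - c • (l * L.prod)⁻¹) =
          ((l :: L).prod * G - algebraMap A F c) * l⁻¹ := by
        rw [List.prod_cons, Algebra.smul_def]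
        field_simp
      rw [h1]
      exact hc
    have hrec := ih hL' _ hG₁V hG₁
    have hGeq : G = (G - c • (l * L.prod)⁻¹) +
        c • (t⁻¹ ^ (L.length + 1) * (1 + a • y)) := by
      rw [← List.length_cons (a := l), ← hinv, List.prod_cons]
      ring
    by_cases hc0 : c = 0
    · rw [hc0, zero_smul, sub_zero] at hrec
      rcases hrec with hO | hpole
      · exact Or.inl hO
      · exact Or.inr (h18z_pole_mono (by simp) hpole)
    · right
      rw [hGeq, List.length_cons]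
      exact h18z_pole_step h hrec c hc0 ha hy

/-- the pole form has exact depth: the hypothesis `hdepth` of `h18y_purity`. -/
theorem h18z_hdepth (h : H18zLocal O V Sm t)
    (hfac : ∀ G ∈ V, ∃ L : List F, (∀ l ∈ L, H18zLin O V t l) ∧ L.prod * G ∈ O) :
    ∀ G ∈ V, G ∉ O →
      ∃ a : A, a ≠ 0 ∧ ∃ b ∈ O, ∃ r ∈ V, G = b + a • r ∧ ¬ h18yNearM O V r := by
  intro G hGV hGO
  obtain ⟨L, hL, hLG⟩ := hfac G hGV
  rcases h18z_pole_of_list h L hL G hGV hLG with hO | hpole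
  · exact absurd hO hGO
  · obtain ⟨a, b, u, k, m, y, ha, hb, hu, hns, hk1, -, hm, hy, hG⟩ := hpole
    exact ⟨a, ha, b, hb, u * t⁻¹ ^ k + m • y,
      V.add_mem (V.mul_mem (h.hOV hu) (V.pow_mem h.htV _)) (V.smul_mem hy m), hG,
      h18z_pole_not_near h hu hns hk1 hm hy⟩

/-- `(β + m • y) ^ p = β ^ p + m • z` with `z ∈ V`. -/
theorem h18z_pow_add_smul {β y : F} (hβ : β ∈ V) (hy : y ∈ V) (m : A) (p : ℕ) :
    ∃ z ∈ V, (β + m • y) ^ p = β ^ p + m • z := by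
  obtain ⟨d, hd⟩ := sub_dvd_pow_sub_pow (⟨β + m • y, V.add_mem hβ (V.smul_mem hy m)⟩ : V)
    ⟨β, hβ⟩ p
  have hd' := congrArg Subtype.val hd
  simp only [Subalgebra.coe_sub, Subalgebra.coe_pow, Subalgebra.coe_mul] at hd'
  refine ⟨y * d, V.mul_mem hy d.2, ?_⟩
  have h2 : β + m • y - β = m • y := by ring
  rw [h2, smul_mul_assoc] at hd'
  rw [← hd']; ring

/-- the core of `hroot` and `hAS`: a pole form `x` with `x ^ p + w x ∈ O + 𝔪_A V`
(`w ∈ O`, `p ≥ 2`) is in `O + 𝔪_A V`. -/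
theorem h18z_pole_core (h : H18zLocal O V Sm t) (p : ℕ) (hp : 2 ≤ p) {d : ℕ} {x : F}
    (hx : H18zPole O V Sm t d x) (w : F) (hw : w ∈ O)
    (hN : h18yNearM O V (x ^ p + w * x)) : h18yNearM O V x := by
  obtain ⟨a, b, u, k, m, y, ha0, hb, hu, hns, hk1, -, hm, hy, rfl⟩ := hx
  have hrV : u * t⁻¹ ^ k + m • y ∈ V :=
    V.add_mem (V.mul_mem (h.hOV hu) (V.pow_mem h.htV _)) (V.smul_mem hy m)
  by_cases haU : IsUnit a
  swap
  · exact ⟨a, by rwa [mem_maximalIdeal, mem_nonunits_iff], b, hb, _, hrV, rfl⟩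
  exfalso
  apply hns
  obtain ⟨a', haa'⟩ := haU.exists_right_inv
  obtain ⟨m₀, hm₀, o, ho, y₀, hy₀, heq⟩ := hN
  have hT : t⁻¹ ^ k * t ^ k = 1 := h18z_tinv_mul h k
  have hTO : t ^ k ∈ O := O.pow_mem h.htO k
  have hTV : t ^ k ∈ V := h.hOV hTO
  have hTsm : Sm (t ^ k) := h18z_sm_tpow h hk1
  -- `β = t ^ k b + a u`
  have hβO : t ^ k * b + a • u ∈ O := O.add_mem (O.mul_mem hTO hb) (O.smul_mem hu a)
  have hy'V : t ^ k * y ∈ V := V.mul_mem hTV hy
  have hTX : t ^ k * (b + a • (u * t⁻¹ ^ k + m • y)) =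
      (t ^ k * b + a • u) + (a * m) • (t ^ k * y) := by
    have h1 : t ^ k * (b + a • (u * t⁻¹ ^ k + m • y)) =
        t ^ k * b + a • (u * (t⁻¹ ^ k * t ^ k)) + (a * m) • (t ^ k * y) := by
      simp only [Algebra.smul_def, map_mul]
      ring
    rw [h1, hT, mul_one]
  obtain ⟨z₁, hz₁, hpow⟩ := h18z_pow_add_smul (h.hOV hβO) hy'V (a * m) p
  obtain ⟨p', rfl⟩ : ∃ p', p = p' + 1 := ⟨p - 1, by omega⟩
  have hp' : 1 ≤ p' := by omega
  -- the main identity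
  have hmain : (t ^ k * b + a • u) ^ (p' + 1) -
      ((t ^ k) ^ (p' + 1) * o - w * (t ^ k) ^ p' * (t ^ k * b + a • u)) =
      m₀ • ((t ^ k) ^ (p' + 1) * y₀) +
        (a * m) • (-(z₁ + w * (t ^ k) ^ p' * (t ^ k * y))) := by
    have e1 : (t ^ k * (b + a • (u * t⁻¹ ^ k + m • y))) ^ (p' + 1) +
        w * (t ^ k) ^ p' * (t ^ k * (b + a • (u * t⁻¹ ^ k + m • y))) =
        (t ^ k) ^ (p' + 1) * (o + m₀ • y₀) := by
      rw [← heq]
      generalize b + a • (u * t⁻¹ ^ k + m • y) = X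
      generalize t ^ k = T
      ring
    rw [hTX, hpow] at e1
    have e2 : (t ^ k * b + a • u) ^ (p' + 1) =
        (t ^ k) ^ (p' + 1) * (o + m₀ • y₀) - (a * m) • z₁ -
          w * (t ^ k) ^ p' * ((t ^ k * b + a • u) + (a * m) • (t ^ k * y)) := by
      rw [← e1]; ring
    rw [e2]
    simp only [Algebra.smul_def, map_mul]
    ring
  have hSO : (t ^ k) ^ (p' + 1) * o - w * (t ^ k) ^ p' * (t ^ k * b + a • u) ∈ O :=
    O.sub_mem (O.mul_mem (O.pow_mem hTO _) ho)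
      (O.mul_mem (O.mul_mem hw (O.pow_mem hTO _)) hβO)
  have hSsm : Sm ((t ^ k) ^ (p' + 1) * o - w * (t ^ k) ^ p' * (t ^ k * b + a • u)) := by
    refine h18z_sm_sub h ?_ ?_
    · rw [mul_comm, ← pow_mul]
      exact h.sm_mul _ _ ho (h18z_sm_tpow h (by nlinarith))
    · have h1 : w * (t ^ k) ^ p' * (t ^ k * b + a • u) =
          (w * (t ^ k * b + a • u)) * t ^ (k * p') := by
        rw [← pow_mul]; ring
      rw [h1]
      exact h.sm_mul _ _ (O.mul_mem hw hβO) (h18z_sm_tpow h (by nlinarith))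
  have hamM : a * m ∈ maximalIdeal A := Ideal.mul_mem_left _ _ hm
  obtain ⟨m'', hm'', z, hz, hcomb, -⟩ := h18z_combine hm₀ hamM
    (show (t ^ k) ^ (p' + 1) * y₀ ∈ V from V.mul_mem (V.pow_mem hTV _) hy₀)
    (show -(z₁ + w * (t ^ k) ^ p' * (t ^ k * y)) ∈ V from
      V.neg_mem (V.add_mem hz₁ (V.mul_mem (V.mul_mem (h.hOV hw) (V.pow_mem hTV _)) hy'V)))
  rw [hcomb] at hmain
  have hβpow : Sm ((t ^ k * b + a • u) ^ (p' + 1)) := by
    have h1 : (t ^ k * b + a • u) ^ (p' + 1) =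
        ((t ^ k) ^ (p' + 1) * o - w * (t ^ k) ^ p' * (t ^ k * b + a • u)) + m'' • z := by
      rw [← hmain]; ring
    rw [h1]
    by_cases hm0 : m'' = 0
    · rw [hm0, zero_smul, add_zero]
      exact hSsm
    · have hzO : z ∈ O := by
        apply h.hsat m'' hm0 z hz
        rw [← hmain]
        exact O.sub_mem (O.pow_mem hβO _) hSO
      exact h.sm_add _ _ hSsm (h.sm_m m'' hm'' z hzO)
  have hβsm : Sm (t ^ k * b + a • u) := h.sm_pow _ hβO _ hβpow
  have hau : Sm (a • u) := by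
    have h1 : a • u = (t ^ k * b + a • u) - b * t ^ k := by ring
    rw [h1]
    exact h18z_sm_sub h hβsm (h.sm_mul _ _ hb hTsm)
  have h2 : u = algebraMap A F a' * (a • u) := by
    rw [Algebra.smul_def, ← mul_assoc, ← map_mul, mul_comm a' a, haa', map_one, one_mul]
  rw [h2]
  exact h.sm_mul _ _ (O.algebraMap_mem a') hau

/-- the hypothesis `hroot` of `h18y_purity` at a smooth closed point. -/
theorem h18z_hroot (h : H18zLocal O V Sm t)
    (hfac : ∀ G ∈ V, ∃ L : List F, (∀ l ∈ L, H18zLin O V t l) ∧ L.prod * G ∈ O)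
    (p : ℕ) (hp : 2 ≤ p) :
    ∀ x ∈ V, h18yNearM O V (x ^ p) → h18yNearM O V x := by
  intro x hxV hx
  obtain ⟨L, hL, hLG⟩ := hfac x hxV
  rcases h18z_pole_of_list h L hL x hxV hLG with hO | hpole
  · exact h18y_nearM_of_mem hO
  · refine h18z_pole_core h p hp hpole 0 O.zero_mem ?_
    simpa using hx

/-- the hypothesis `hAS` of `h18y_purity` at a smooth closed point. -/
theorem h18z_hAS (h : H18zLocal O V Sm t)
    (hfac : ∀ G ∈ V, ∃ L : List F, (∀ l ∈ L, H18zLin O V t l) ∧ L.prod * G ∈ O)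
    (p : ℕ) (hp : 2 ≤ p) :
    ∀ c : A, IsUnit c → ∀ u ∈ O, (∃ u' ∈ O, u * u' = 1) → ∀ x ∈ V,
      h18yNearM O V (x ^ p + c • (u * x)) → h18yNearM O V x := by
  intro c _ u hu _ x hxV hx
  obtain ⟨L, hL, hLG⟩ := hfac x hxV
  rcases h18z_pole_of_list h L hL x hxV hLG with hO | hpole
  · exact h18y_nearM_of_mem hO
  · refine h18z_pole_core h p hp hpole (c • u) (O.smul_mem hu c) ?_
    rwa [smul_mul_assoc]

/-- **Purity at a smooth closed point**, one step. -/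
theorem h18z_purity (h : H18zLocal O V Sm t)
    (hfac : ∀ G ∈ V, ∃ L : List F, (∀ l ∈ L, H18zLin O V t l) ∧ L.prod * G ∈ O)
    (p : ℕ) (hp : p.Prime) (hp0 : (p : A) ≠ 0)
    (G : F) (hGV : G ∈ V) (u : F) (hu : u ∈ O) (hu' : ∃ u' ∈ O, u * u' = 1)
    (hGu : ∃ m ∈ maximalIdeal A, ∃ y ∈ V, G = u + m • y)
    (π : A) (hGp : h18yNear O V π (G ^ p)) :
    ∃ a : A, h18yNear O V a G ∧ (π ∣ a ^ p ∨ π ∣ (p : A) * a) :=
  h18y_purity p hp hp0 O V h.hOV h.hsat (h18z_hroot h hfac p hp.two_le)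
    (h18z_hAS h hfac p hp.two_le) (h18z_hdepth h hfac) G hGV u hu hu' hGu π hGp

/-- **Purity at a smooth closed point**, iterated: local `p ^ n`-th roots.  For every `n` and
every target precision `j` there is a source precision `k` such that, for the `G ∈ V` congruent
to a unit of `O` modulo `𝔪_A V`, `G ^ (p ^ n) ∈ O + ϖ ^ k V ⟹ G ∈ O + ϖ ^ j V`. -/
theorem h18z_root (h : H18zLocal O V Sm t)
    (hfac : ∀ G ∈ V, ∃ L : List F, (∀ l ∈ L, H18zLin O V t l) ∧ L.prod * G ∈ O)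
    (p : ℕ) (hp : p.Prime) (hp0 : (p : A) ≠ 0)
    (ϖ : A) (e : ℕ) (he : (p : A) ∣ ϖ ^ e) (n j : ℕ) :
    ∃ k : ℕ, ∀ G ∈ V, (∃ u ∈ O, (∃ u' ∈ O, u * u' = 1) ∧
        ∃ m ∈ maximalIdeal A, ∃ y ∈ V, G = u + m • y) →
      h18yNear O V (ϖ ^ k) (G ^ (p ^ n)) → h18yNear O V (ϖ ^ j) G :=
  h18y_purity_iter p hp hp0 O V h.hOV h.hsat (h18z_hroot h hfac p hp.two_le)
    (h18z_hAS h hfac p hp.two_le) (h18z_hdepth h hfac) ϖ e he n j

end Basic

end Fermat.Agent.P6
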