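import Mathlib
import Fermat.Agent.P6.H18Purity

/-!
# S33 / B2 (helper18): abstract purity, sharp form

Same setting as `P6/H18Purity.lean`.  The sharp form of the one-step purity:

  `G ^ p ∈ O + π V  ⟹  G ∈ O + a V`  with  `π ∣ a ^ p` **and** `π ∣ p * a`

(i.e. `v(a) ≥ max (v(π)/p, v(π) - v(p))`), and its iteration without loss:

  `G ^ (p ^ n) ∈ O + p ^ n ρ V  ⟹  G ∈ O + ρ V`.

With `r = p ^ n` and `ρ = r π` this is the passage from the modulus `r² π` to the modulus `r π`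
of the deep gate.  Mathlib only.
-/

set_option autoImplicit false
set_option linter.unusedSectionVars false

open IsLocalRing

namespace Fermat.Agent.P6

section PuritySharp

variable {A : Type*} [CommRing A] [IsDomain A] [ValuationRing A]
  {R : Type*} [CommRing R] [Algebra A R]

/-- **Abstract purity**, one step, sharp form. -/
theorem h18y_purity_sharp (p : ℕ) (hp : p.Prime)
    (hp0 : (p : A) ≠ 0) (O V : Subalgebra A R) (hOV : O ≤ V)
    (hsat : ∀ a : A, a ≠ 0 → ∀ x ∈ V, a • x ∈ O → x ∈ O)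
    (hroot : ∀ x ∈ V, h18yNearM O V (x ^ p) → h18yNearM O V x)
    (hAS : ∀ c : A, IsUnit c → ∀ u ∈ O, (∃ u' ∈ O, u * u' = 1) → ∀ x ∈ V,
      h18yNearM O V (x ^ p + c • (u * x)) → h18yNearM O V x)
    (hdepth : ∀ G ∈ V, G ∉ O →
      ∃ a : A, a ≠ 0 ∧ ∃ b ∈ O, ∃ r ∈ V, G = b + a • r ∧ ¬ h18yNearM O V r)
    (G : R) (hGV : G ∈ V) (u : R) (hu : u ∈ O) (hu' : ∃ u' ∈ O, u * u' = 1)
    (hGu : ∃ m ∈ maximalIdeal A, ∃ y ∈ V, G = u + m • y)
    (π : A) (hGp : h18yNear O V π (G ^ p)) :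
    ∃ a : A, h18yNear O V a G ∧ π ∣ a ^ p ∧ π ∣ (p : A) * a := by
  classical
  by_cases hGO : G ∈ O
  · exact ⟨0, ⟨G, hGO, 0, V.zero_mem, by simp⟩, by simp [hp.ne_zero], by simp⟩
  obtain ⟨a, ha0, b, hb, r, hr, hGeq, hrn⟩ := hdepth G hGV hGO
  refine ⟨a, ⟨b, hb, r, hr, hGeq⟩, ?_⟩
  obtain ⟨mu, hmu, y, hy, hGu⟩ := hGu
  obtain ⟨u', hu'O, huu'⟩ := hu'
  set φ := algebraMap A R with hφ
  have hφV : ∀ c : A, φ c ∈ V := fun c => V.algebraMap_mem c
  -- `a` is a nonunit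
  have haM : a ∈ maximalIdeal A := by
    rw [mem_maximalIdeal, mem_nonunits_iff]
    intro hau
    obtain ⟨a', ha'⟩ := hau.exists_left_inv
    apply hrn
    have h1 : r = a' • (a • r) := by rw [← mul_smul, ha', one_smul]
    rw [h1]
    apply h18y_nearM_smul_left
    have h2 : a • r = (u - b) + mu • y := by
      have : a • r = G - b := by rw [hGeq]; ring
      rw [this, hGu]; ring
    rw [h2]
    exact h18y_nearM_add (h18y_nearM_of_mem (O.sub_mem hu hb)) (h18y_nearM_smul hmu hy)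
  -- `b = u + m'' z`
  obtain ⟨m'', hm'', hd₁, hd₂⟩ := h18y_exists_common hmu haM
  have hm''0 : m'' ≠ 0 := by
    rintro rfl
    exact ha0 (zero_dvd_iff.mp hd₂)
  obtain ⟨c₁, hc₁⟩ := hd₁
  obtain ⟨c₂, hc₂⟩ := hd₂
  have hz : c₁ • y - c₂ • r ∈ O := by
    apply hsat m'' hm''0 _ (V.sub_mem (V.smul_mem hy _) (V.smul_mem hr _))
    have : m'' • (c₁ • y - c₂ • r) = b - u := by
      have h1 : b = G - a • r := by rw [hGeq]; ring
      rw [h1, hGu, smul_sub, ← mul_smul, ← mul_smul, ← hc₁, ← hc₂]; ring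
    rw [this]
    exact O.sub_mem hb hu
  set z := c₁ • y - c₂ • r with hzdef
  have hbu : b = u + m'' • z := by
    have h1 : b = G - a • r := by rw [hGeq]; ring
    rw [h1, hGu, hzdef, smul_sub, ← mul_smul, ← mul_smul, ← hc₁, ← hc₂]; ring
  -- `b ^ (p - 1) = u ^ (p - 1) + m'' c`
  obtain ⟨c, hcO, hbpow⟩ : ∃ c ∈ O, b ^ (p - 1) = u ^ (p - 1) + m'' • c := by
    obtain ⟨d, hd⟩ := sub_dvd_pow_sub_pow (⟨b, hb⟩ : O) ⟨u, hu⟩ (p - 1)
    have hd' := congrArg Subtype.val hd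
    simp only [Subalgebra.coe_sub, Subalgebra.coe_pow, Subalgebra.coe_mul] at hd'
    refine ⟨z * d, O.mul_mem hz d.2, ?_⟩
    have h2 : b - u = m'' • z := by rw [hbu]; ring
    rw [h2] at hd'
    rw [smul_mul_assoc] at hd'
    rw [← hd']; ring
  -- the expansion of `G ^ p`
  obtain ⟨Y, hY⟩ := h18y_binom p hp (⟨b, hOV hb⟩ : V) ⟨a • r, V.smul_mem hr a⟩
  have hY' := congrArg Subtype.val hY
  simp only [Subalgebra.coe_add, Subalgebra.coe_pow, Subalgebra.coe_mul] at hY'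
  have hpφ : (((p : ℕ) : V) : R) = φ (p : A) := by
    rw [hφ, map_natCast]
    exact map_natCast V.val p
  obtain ⟨o, ho, s, hs, hGpeq⟩ := hGp
  rw [hGeq, hY'] at hGpeq
  -- the key identity
  have hE : φ a ^ p * r ^ p + φ (p * a) * (b ^ (p - 1) * r) +
      φ (p * a) * (φ a * (r ^ 2 * (Y : R))) = (o - b ^ p) + φ π * s := by
    have h3 : o + π • s = b ^ p + φ (p : A) * b ^ (p - 1) * (φ a * r) +
        φ (p : A) * (φ a * r) ^ 2 * (Y : R) + (φ a * r) ^ p := by
      rw [← hGpeq, hpφ, Algebra.smul_def]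
    rw [Algebra.smul_def] at h3
    rw [map_mul]
    linear_combination -h3
  have hr2Y : r ^ 2 * (Y : R) ∈ V := V.mul_mem (V.pow_mem hr 2) Y.2
  have hbr : b ^ (p - 1) * r ∈ V := V.mul_mem (V.pow_mem (hOV hb) _) hr
  have hobp : o - b ^ p ∈ O := O.sub_mem ho (O.pow_mem hb p)
  have hpa0 : (p : A) * a ≠ 0 := mul_ne_zero hp0 ha0
  have hap0 : a ^ p ≠ 0 := pow_ne_zero _ ha0
  -- from `u ^ (p-1) * r ∈ O + 𝔪 V` to `r ∈ O + 𝔪 V`
  have hfin : h18yNearM O V (u ^ (p - 1) * r) → h18yNearM O V r := by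
    intro h
    have h1 : r = u' ^ (p - 1) * (u ^ (p - 1) * r) := by
      rw [← mul_assoc, ← mul_pow, mul_comm u' u, huu', one_pow, one_mul]
    rw [h1]
    exact h18y_nearM_mul_left hOV (O.pow_mem hu'O _) h
  have hbr' : b ^ (p - 1) * r = u ^ (p - 1) * r + m'' • (c * r) := by
    rw [hbpow, add_mul, smul_mul_assoc]
  -- the three cases
  have caseIII : ∀ m : A, IsUnit m → (p : A) * a = a ^ p * m → π ∣ (p : A) * a := by
    intro m hmu' hm
    by_contra hc2
    apply hrn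
    obtain ⟨m₂, hm₂, hπ₂⟩ := h18y_exists_of_not_dvd hc2
    -- `a ^ p (r ^ p + m b^{p-1} r + m a r² Y - m m₂ s) ∈ O`
    have hX : r ^ p + m • (b ^ (p - 1) * r) + m • (a • (r ^ 2 * (Y : R))) - (m * m₂) • s ∈ O := by
      apply hsat (a ^ p) hap0
      · exact V.sub_mem (V.add_mem (V.add_mem (V.pow_mem hr p) (V.smul_mem hbr _))
          (V.smul_mem (V.smul_mem hr2Y _) _)) (V.smul_mem hs _)
      · have : a ^ p • (r ^ p + m • (b ^ (p - 1) * r) + m • (a • (r ^ 2 * (Y : R))) -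
            (m * m₂) • s) = o - b ^ p := by
          have hπ : φ π = φ a ^ p * φ m * φ m₂ := by
            rw [hπ₂, hm, map_mul, map_mul, map_pow]
          have hpa : φ (p * a) = φ a ^ p * φ m := by rw [hm, map_mul, map_pow]
          simp only [Algebra.smul_def, map_mul, map_pow]
          rw [← hφ]
          rw [hpa, hπ] at hE
          linear_combination hE
        rw [this]; exact hobp
    have h1 : r ^ p + m • (u ^ (p - 1) * r) =
        (r ^ p + m • (b ^ (p - 1) * r) + m • (a • (r ^ 2 * (Y : R))) - (m * m₂) • s) +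
          ((m₂ * m) • s - a • (m • (r ^ 2 * (Y : R))) - m'' • (m • (c * r))) := by
      rw [hbr']
      simp only [Algebra.smul_def, map_mul]
      ring
    apply hAS m hmu' (u ^ (p - 1)) (O.pow_mem hu _)
      ⟨u' ^ (p - 1), O.pow_mem hu'O _, by rw [← mul_pow, huu', one_pow]⟩ r hr
    rw [h1]
    refine h18y_nearM_add (h18y_nearM_of_mem hX) (h18y_nearM_sub (h18y_nearM_sub ?_ ?_) ?_)
    · exact h18y_nearM_smul (Ideal.mul_mem_right _ _ hm₂) hs
    · exact h18y_nearM_smul haM (V.smul_mem hr2Y _)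
    · exact h18y_nearM_smul hm'' (V.smul_mem (V.mul_mem (hOV hcO) hr) _)
  rcases ValuationRing.dvd_total (a ^ p) ((p : A) * a) with ⟨m, hm⟩ | ⟨m, hm⟩
  · by_cases hmu' : IsUnit m
    · have h2 := caseIII m hmu' hm
      obtain ⟨m', hm'⟩ := hmu'.exists_right_inv
      refine ⟨?_, h2⟩
      have h3 : a ^ p = (p : A) * a * m' := by rw [hm, mul_assoc, hm', mul_one]
      rw [h3]
      exact Dvd.dvd.mul_right h2 m'
    · -- case I
      have hmM : m ∈ maximalIdeal A := by rwa [mem_maximalIdeal, mem_nonunits_iff]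
      have h1 : π ∣ a ^ p := by
        by_contra hc1
        apply hrn
        obtain ⟨m₁, hm₁, hπ₁⟩ := h18y_exists_of_not_dvd hc1
        have hX : r ^ p - m₁ • s + m • (b ^ (p - 1) * r + a • (r ^ 2 * (Y : R))) ∈ O := by
          apply hsat (a ^ p) hap0
          · exact V.add_mem (V.sub_mem (V.pow_mem hr p) (V.smul_mem hs _))
              (V.smul_mem (V.add_mem hbr (V.smul_mem hr2Y _)) _)
          · have : a ^ p • (r ^ p - m₁ • s + m • (b ^ (p - 1) * r + a • (r ^ 2 * (Y : R)))) =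
                o - b ^ p := by
              have hπ : φ π = φ a ^ p * φ m₁ := by rw [hπ₁, map_mul, map_pow]
              have hpa : φ (p * a) = φ a ^ p * φ m := by rw [hm, map_mul, map_pow]
              simp only [Algebra.smul_def, map_pow]
              rw [← hφ]
              rw [hpa, hπ] at hE
              linear_combination hE
            rw [this]; exact hobp
        apply hroot r hr
        have h1 : r ^ p = (r ^ p - m₁ • s + m • (b ^ (p - 1) * r + a • (r ^ 2 * (Y : R)))) +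
            (m₁ • s - m • (b ^ (p - 1) * r + a • (r ^ 2 * (Y : R)))) := by ring
        rw [h1]
        refine h18y_nearM_add (h18y_nearM_of_mem hX) (h18y_nearM_sub ?_ ?_)
        · exact h18y_nearM_smul hm₁ hs
        · exact h18y_nearM_smul hmM (V.add_mem hbr (V.smul_mem hr2Y _))
      refine ⟨h1, ?_⟩
      rw [hm]
      exact Dvd.dvd.mul_right h1 m
  · by_cases hmu' : IsUnit m
    · obtain ⟨m', hm'⟩ := hmu'.exists_right_inv
      have hm'u : IsUnit m' := IsUnit.of_mul_eq_one m (by rw [mul_comm]; exact hm')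
      have h2 : π ∣ (p : A) * a := by
        refine caseIII m' hm'u ?_
        rw [hm, mul_assoc, hm', mul_one]
      refine ⟨?_, h2⟩
      rw [hm]
      exact Dvd.dvd.mul_right h2 m
    · -- case II
      have hmM : m ∈ maximalIdeal A := by rwa [mem_maximalIdeal, mem_nonunits_iff]
      have h2 : π ∣ (p : A) * a := by
        by_contra hc2
        apply hrn
        obtain ⟨m₂, hm₂, hπ₂⟩ := h18y_exists_of_not_dvd hc2
        have hX : b ^ (p - 1) * r - m₂ • s + a • (r ^ 2 * (Y : R)) + m • r ^ p ∈ O := by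
          apply hsat ((p : A) * a) hpa0
          · exact V.add_mem (V.add_mem (V.sub_mem hbr (V.smul_mem hs _)) (V.smul_mem hr2Y _))
              (V.smul_mem (V.pow_mem hr p) _)
          · have : ((p : A) * a) • (b ^ (p - 1) * r - m₂ • s + a • (r ^ 2 * (Y : R)) +
                m • r ^ p) = o - b ^ p := by
              have hπ : φ π = φ (p * a) * φ m₂ := by rw [hπ₂, map_mul]
              have hap : φ a ^ p = φ (p * a) * φ m := by rw [← map_pow, hm, map_mul]
              simp only [Algebra.smul_def]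
              rw [← hφ]
              rw [hap, hπ] at hE
              linear_combination hE
            rw [this]; exact hobp
        apply hfin
        have h1 : u ^ (p - 1) * r =
            (b ^ (p - 1) * r - m₂ • s + a • (r ^ 2 * (Y : R)) + m • r ^ p) +
              (m₂ • s - a • (r ^ 2 * (Y : R)) - m • r ^ p - m'' • (c * r)) := by
          rw [hbr']; ring
        rw [h1]
        refine h18y_nearM_add (h18y_nearM_of_mem hX)
          (h18y_nearM_sub (h18y_nearM_sub (h18y_nearM_sub ?_ ?_) ?_) ?_)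
        · exact h18y_nearM_smul hm₂ hs
        · exact h18y_nearM_smul haM hr2Y
        · exact h18y_nearM_smul hmM (V.pow_mem hr p)
        · exact h18y_nearM_smul hm'' (V.mul_mem (hOV hcO) hr)
      refine ⟨?_, h2⟩
      rw [hm]
      exact Dvd.dvd.mul_right h2 m

/-- **Abstract purity**, one step, without loss: `G ^ p ∈ O + p ρ V ⟹ G ∈ O + ρ V`. -/
theorem h18y_purity_step (p : ℕ) (hp : p.Prime)
    (hp0 : (p : A) ≠ 0) (O V : Subalgebra A R) (hOV : O ≤ V)
    (hsat : ∀ a : A, a ≠ 0 → ∀ x ∈ V, a • x ∈ O → x ∈ O)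
    (hroot : ∀ x ∈ V, h18yNearM O V (x ^ p) → h18yNearM O V x)
    (hAS : ∀ c : A, IsUnit c → ∀ u ∈ O, (∃ u' ∈ O, u * u' = 1) → ∀ x ∈ V,
      h18yNearM O V (x ^ p + c • (u * x)) → h18yNearM O V x)
    (hdepth : ∀ G ∈ V, G ∉ O →
      ∃ a : A, a ≠ 0 ∧ ∃ b ∈ O, ∃ r ∈ V, G = b + a • r ∧ ¬ h18yNearM O V r)
    (G : R) (hGV : G ∈ V) (u : R) (hu : u ∈ O) (hu' : ∃ u' ∈ O, u * u' = 1)
    (hGu : ∃ m ∈ maximalIdeal A, ∃ y ∈ V, G = u + m • y)
    (ρ : A) (hGp : h18yNear O V ((p : A) * ρ) (G ^ p)) :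
    h18yNear O V ρ G := by
  obtain ⟨a, hna, -, hdiv⟩ := h18y_purity_sharp p hp hp0 O V hOV hsat hroot hAS hdepth G hGV
    u hu hu' hGu _ hGp
  exact h18y_near_of_dvd ((mul_dvd_mul_iff_left hp0).mp hdiv) hna

/-- **Abstract purity**, iterated without loss:
`G ^ (p ^ n) ∈ O + p ^ n ρ V ⟹ G ∈ O + ρ V`, for the `G ∈ V` congruent to a unit of `O`
modulo `𝔪_A V`. -/
theorem h18y_purity_deep (p : ℕ) (hp : p.Prime)
    (hp0 : (p : A) ≠ 0) (O V : Subalgebra A R) (hOV : O ≤ V)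
    (hsat : ∀ a : A, a ≠ 0 → ∀ x ∈ V, a • x ∈ O → x ∈ O)
    (hroot : ∀ x ∈ V, h18yNearM O V (x ^ p) → h18yNearM O V x)
    (hAS : ∀ c : A, IsUnit c → ∀ u ∈ O, (∃ u' ∈ O, u * u' = 1) → ∀ x ∈ V,
      h18yNearM O V (x ^ p + c • (u * x)) → h18yNearM O V x)
    (hdepth : ∀ G ∈ V, G ∉ O →
      ∃ a : A, a ≠ 0 ∧ ∃ b ∈ O, ∃ r ∈ V, G = b + a • r ∧ ¬ h18yNearM O V r)
    (n : ℕ) (ρ : A) (G : R) (hGV : G ∈ V)
    (hGu : ∃ u ∈ O, (∃ u' ∈ O, u * u' = 1) ∧ ∃ m ∈ maximalIdeal A, ∃ y ∈ V, G = u + m • y)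
    (hG : h18yNear O V ((p : A) ^ n * ρ) (G ^ (p ^ n))) :
    h18yNear O V ρ G := by
  induction n generalizing ρ G with
  | zero => simpa using hG
  | succ n ih =>
    obtain ⟨u, hu, ⟨u', hu', huu'⟩, m, hm, y, hy, hGeq⟩ := hGu
    -- `G ^ p` is congruent to the unit `u ^ p`
    have hGpu : ∃ u₁ ∈ O, (∃ u₁' ∈ O, u₁ * u₁' = 1) ∧
        ∃ m ∈ maximalIdeal A, ∃ y ∈ V, G ^ p = u₁ + m • y := by
      refine ⟨u ^ p, O.pow_mem hu p, ⟨u' ^ p, O.pow_mem hu' p, by rw [← mul_pow, huu', one_pow]⟩,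
        m, hm, ?_⟩
      obtain ⟨d, hd⟩ := sub_dvd_pow_sub_pow (⟨G, hGV⟩ : V) ⟨u, hOV hu⟩ p
      have hd' := congrArg Subtype.val hd
      simp only [Subalgebra.coe_sub, Subalgebra.coe_pow, Subalgebra.coe_mul] at hd'
      refine ⟨y * d, V.mul_mem hy d.2, ?_⟩
      have h2 : G - u = m • y := by rw [hGeq]; ring
      rw [h2, smul_mul_assoc] at hd'
      rw [← hd']; ring
    have h1 : h18yNear O V ((p : A) * ρ) (G ^ p) := by
      apply ih ((p : A) * ρ) (G ^ p) (V.pow_mem hGV p) hGpu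
      rw [← pow_mul, ← pow_succ', ← mul_assoc, ← pow_succ]
      exact hG
    exact h18y_purity_step p hp hp0 O V hOV hsat hroot hAS hdepth G hGV u hu
      ⟨u', hu', huu'⟩ ⟨m, hm, y, hy, hGeq⟩ ρ h1

end PuritySharp

end Fermat.Agent.P6
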