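import Mathlib
import Fermat.Agent.Red.LocalAll
import Fermat.Agent.P6.H18PoleForm
import Fermat.Agent.P6.H18PuritySharp

/-!
# S33 / B2 (helper18): the smooth package — deep local roots at the smooth closed points

Setting: `H26Chart B V v` (`Red/LocalFact.lean`), `𝔫` a prime of the chart `B` containing
`𝔪_A B` with a local parameter `t` (`𝔫 = (t) + 𝔪_A B` locally, `t⁻¹ ∈ V`) and sections at the
places centered at `𝔫`.

* `h18zV`, `h18zO`, `h18zSm` : the Gauss ring as a subalgebra, the local ring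
  `O = B_𝔫 ∩ V`, and the predicate "lies in `𝔫 B_𝔫`".
* `h18z_local` : `H18zLocal O V Sm t`.
* `h18z_lin` : the linear factors `t - φ(t)` are `H18zLin`.
* `h18z_hfac` : every `G ∈ V` becomes an element of `O` after multiplication by a product of
  linear factors.
* `h18z_chart_deep` : `G ^ (p ^ n) ∈ O + p ^ n ρ V ⟹ G ∈ O + ρ V`.
* `h18z_local_deep` : **the deep local datum at a smooth closed point**: for
  `w ∈ 1 + p ^ n ρ V` all of whose orders are divisible by `p ^ n` there is `g ∈ 1 + ρ V` with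
  `w / g ^ (p ^ n)` a unit of `B_𝔫` (the local hypothesis of the deep gate `h90p_gate_asm_loc`,
  with `ρ = r π`, `r = p ^ n`).
-/

set_option autoImplicit false
set_option linter.unusedSectionVars false

open WithZero IsLocalRing

namespace Fermat.Agent.P6

open Fermat.Agent.Red

section Pkg

variable {A : Type*} [CommRing A] [IsDomain A] [ValuationRing A]
  {F : Type*} [Field F] [Algebra A F]
  {B : Subalgebra A F} {V : Subring F} {ι : Type*} {v : ι → Valuation F ℤᵐ⁰}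

/-- the Gauss ring as a subalgebra. -/
def h18zV (B : Subalgebra A F) (V : Subring F) (hBV : ∀ x ∈ B, x ∈ V) : Subalgebra A F :=
  { V.toSubsemiring with algebraMap_mem' := fun a => hBV _ (B.algebraMap_mem a) }

theorem h18z_mem_V {hBV : ∀ x ∈ B, x ∈ V} {x : F} : x ∈ h18zV B V hBV ↔ x ∈ V := Iff.rfl

/-- the local ring `B_𝔫 ∩ V`. -/
def h18zO (B : Subalgebra A F) (V : Subring F) (hBV : ∀ x ∈ B, x ∈ V) (𝔫 : Ideal B)
    [h𝔫 : 𝔫.IsPrime] : Subalgebra A F where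
  carrier := {x | x ∈ V ∧ ∃ s : B, s ∉ 𝔫 ∧ (s : F) * x ∈ B}
  mul_mem' := by
    rintro x y ⟨hx, s₁, hs₁, h₁⟩ ⟨hy, s₂, hs₂, h₂⟩
    refine ⟨V.mul_mem hx hy, s₁ * s₂, fun h => (h𝔫.mem_or_mem h).elim hs₁ hs₂, ?_⟩
    have : ((s₁ * s₂ : B) : F) * (x * y) = ((s₁ : F) * x) * ((s₂ : F) * y) := by
      push_cast; ring
    rw [this]
    exact B.mul_mem h₁ h₂
  one_mem' := ⟨V.one_mem, 1, (Ideal.ne_top_iff_one 𝔫).mp h𝔫.ne_top, by simp [B.one_mem]⟩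
  add_mem' := by
    rintro x y ⟨hx, s₁, hs₁, h₁⟩ ⟨hy, s₂, hs₂, h₂⟩
    refine ⟨V.add_mem hx hy, s₁ * s₂, fun h => (h𝔫.mem_or_mem h).elim hs₁ hs₂, ?_⟩
    have : ((s₁ * s₂ : B) : F) * (x + y) =
        (s₂ : F) * ((s₁ : F) * x) + (s₁ : F) * ((s₂ : F) * y) := by
      push_cast; ring
    rw [this]
    exact B.add_mem (B.mul_mem s₂.2 h₁) (B.mul_mem s₁.2 h₂)
  zero_mem' := ⟨V.zero_mem, 1, (Ideal.ne_top_iff_one 𝔫).mp h𝔫.ne_top, by simp [B.zero_mem]⟩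
  algebraMap_mem' := fun a => ⟨hBV _ (B.algebraMap_mem a), 1,
    (Ideal.ne_top_iff_one 𝔫).mp h𝔫.ne_top, by simp⟩

theorem h18z_mem_O {hBV : ∀ x ∈ B, x ∈ V} {𝔫 : Ideal B} [𝔫.IsPrime] {x : F} :
    x ∈ h18zO B V hBV 𝔫 ↔ x ∈ V ∧ ∃ s : B, s ∉ 𝔫 ∧ (s : F) * x ∈ B := Iff.rfl

theorem h18z_mem_O_of_mem {hBV : ∀ x ∈ B, x ∈ V} {𝔫 : Ideal B} [h𝔫 : 𝔫.IsPrime] {x : F}
    (hx : x ∈ B) : x ∈ h18zO B V hBV 𝔫 :=
  ⟨hBV x hx, 1, (Ideal.ne_top_iff_one 𝔫).mp h𝔫.ne_top, by simpa using hx⟩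

/-- the predicate "lies in `𝔫 B_𝔫`". -/
def h18zSm (B : Subalgebra A F) (𝔫 : Ideal B) (x : F) : Prop :=
  ∃ s : B, s ∉ 𝔫 ∧ ∃ b : B, b ∈ 𝔫 ∧ (s : F) * x = b

/-- the local data at a closed point with a local parameter. -/
theorem h18z_local (hC : H26Chart B V v) (hAF : Function.Injective (algebraMap A F))
    (𝔫 : Ideal B) [h𝔫 : 𝔫.IsPrime] (h𝔪𝔫 : (maximalIdeal A).map (algebraMap A B) ≤ 𝔫)
    (t : B) (ht : t ∈ 𝔫) (ht0 : (t : F) ≠ 0) (htV : (t : F)⁻¹ ∈ V) :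
    H18zLocal (h18zO B V hC.hBV 𝔫) (h18zV B V hC.hBV) (h18zSm B 𝔫) (t : F) where
  hOV := fun x hx => hx.1
  hsat := by
    rintro a ha x hx ⟨-, s, hs, hsx⟩
    refine ⟨hx, s, hs, ?_⟩
    have haF : algebraMap A F a ≠ 0 := fun h => ha (hAF (by rw [h, map_zero]))
    apply hC.hQEP a haF _ (V.mul_mem (hC.hBV _ s.2) hx)
    rw [← mul_smul_comm]
    exact hsx
  htO := h18z_mem_O_of_mem t.2
  htV := htV
  ht0 := ht0
  sm_add := by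
    rintro x y ⟨s₁, hs₁, b₁, hb₁, e₁⟩ ⟨s₂, hs₂, b₂, hb₂, e₂⟩
    refine ⟨s₁ * s₂, fun h => (h𝔫.mem_or_mem h).elim hs₁ hs₂, s₂ * b₁ + s₁ * b₂,
      𝔫.add_mem (𝔫.mul_mem_left _ hb₁) (𝔫.mul_mem_left _ hb₂), ?_⟩
    push_cast
    rw [← e₁, ← e₂]
    ring
  sm_mul := by
    rintro x y ⟨-, s₁, hs₁, h₁⟩ ⟨s₂, hs₂, b₂, hb₂, e₂⟩
    refine ⟨s₁ * s₂, fun h => (h𝔫.mem_or_mem h).elim hs₁ hs₂, ⟨(s₁ : F) * x, h₁⟩ * b₂,
      𝔫.mul_mem_left _ hb₂, ?_⟩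
    push_cast
    rw [← e₂]
    ring
  sm_t := ⟨1, (Ideal.ne_top_iff_one 𝔫).mp h𝔫.ne_top, t, ht, by simp⟩
  sm_m := by
    rintro m hm x ⟨-, s, hs, hsx⟩
    refine ⟨s, hs, algebraMap A B m * ⟨(s : F) * x, hsx⟩,
      𝔫.mul_mem_right _ (h𝔪𝔫 (Ideal.mem_map_of_mem _ hm)), ?_⟩
    rw [Algebra.smul_def]
    push_cast
    ring
  sm_one := by
    rintro ⟨s, hs, b, hb, e⟩
    apply hs
    have : s = b := Subtype.ext (by rw [← e, mul_one])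
    rw [this]
    exact hb
  sm_pow := by
    rintro x ⟨-, s₁, hs₁, h₁⟩ n ⟨s₂, hs₂, b₂, hb₂, e₂⟩
    refine ⟨s₁, hs₁, ⟨(s₁ : F) * x, h₁⟩, ?_, rfl⟩
    have h3 : s₂ * (⟨(s₁ : F) * x, h₁⟩ : B) ^ n = s₁ ^ n * b₂ := by
      apply Subtype.ext
      push_cast
      rw [← e₂]
      ring
    have h4 : s₂ * (⟨(s₁ : F) * x, h₁⟩ : B) ^ n ∈ 𝔫 := by
      rw [h3]
      exact 𝔫.mul_mem_left _ hb₂
    rcases h𝔫.mem_or_mem h4 with h5 | h5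
    · exact absurd h5 hs₂
    · exact h𝔫.mem_of_pow_mem n h5

/-- a section through `𝔫` maps the complement of `𝔫` to units. -/
theorem h18z_section_unit (𝔫 : Ideal B)
    (h𝔪𝔫 : (maximalIdeal A).map (algebraMap A B) ≤ 𝔫) (φ : B →ₐ[A] A)
    (hker : RingHom.ker (φ : B →+* A) ≤ 𝔫) {s : B} (hs : s ∉ 𝔫) : IsUnit (φ s) := by
  by_contra hne
  have hm : φ s ∈ maximalIdeal A := by rwa [mem_maximalIdeal, mem_nonunits_iff]
  apply hs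
  have h1 : s - algebraMap A B (φ s) ∈ 𝔫 := hker (by rw [RingHom.mem_ker]; simp)
  have h2 : algebraMap A B (φ s) ∈ 𝔫 := h𝔪𝔫 (Ideal.mem_map_of_mem _ hm)
  have := 𝔫.add_mem h1 h2
  simpa using this

/-- the elements of the complement of `𝔫` have valuation one at the centered places. -/
theorem h18z_val_one (hC : H26Chart B V v) (𝔫 : Ideal B) {k : ι}
    (hk : h26Centered B v 𝔫 k) {s : B} (hs : s ∉ 𝔫) : v k (s : F) = 1 :=
  le_antisymm (hC.hB _ s.2 k) (not_lt.mp fun hlt => hs (hk s hlt))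

/-- the linear factor `t - φ(t)` is nonzero. -/
theorem h18z_lin_ne_zero (hC : H26Chart B V v)
    (𝔫 : Ideal B) [h𝔫 : 𝔫.IsPrime] (h𝔪𝔫 : (maximalIdeal A).map (algebraMap A B) ≤ 𝔫)
    (t : B) (ht : t ∈ 𝔫)
    (hprin : ∀ y ∈ 𝔫, ∃ s, s ∉ 𝔫 ∧
      s * y ∈ Ideal.span {t} ⊔ (maximalIdeal A).map (algebraMap A B))
    (i : ι) (φ : B →ₐ[A] A) (hφker : ∀ b : B, φ b = 0 ↔ v i (b : F) < 1)
    (hφfg : (RingHom.ker (φ : B →+* A)).FG) (hcent : h26Centered B v 𝔫 i) :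
    (t : F) - algebraMap A F (φ t) ≠ 0 := by
  intro h0
  have hkerle : RingHom.ker (φ : B →+* A) ≤ 𝔫 := fun b hb => hcent b ((hφker b).mp hb)
  have hφ𝔫 := h26_section_local 𝔫 φ hkerle
  have hA := h26_local_ker_principal (maximalIdeal A) 𝔫 t ht hprin h𝔪𝔫 φ hφ𝔫 hkerle hφfg
  obtain ⟨b₀, hb₀⟩ := hC.hunif i
  have hb₀ker : b₀ ∈ RingHom.ker (φ : B →+* A) := by
    rw [RingHom.mem_ker]
    refine (hφker b₀).mpr ?_
    rw [hb₀]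
    exact exp_lt_exp.mpr (by norm_num)
  obtain ⟨s, hs, hsb⟩ := hA b₀ hb₀ker
  obtain ⟨c, hc⟩ := Ideal.mem_span_singleton'.mp hsb
  have hl0 : t - algebraMap A B (φ t) = 0 := Subtype.ext h0
  rw [hl0, mul_zero] at hc
  have h1 : v i ((s : F) * (b₀ : F)) = 0 := by
    have : ((s * b₀ : B) : F) = 0 := by rw [← hc]; rfl
    rw [← map_zero (v i)]
    congr 1
  rw [map_mul, h18z_val_one hC 𝔫 hcent hs, one_mul, hb₀] at h1
  exact absurd h1 (by simp)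

/-- the linear factors `t - φ(t)` at the places centered at `𝔫`. -/
theorem h18z_lin (hC : H26Chart B V v)
    (𝔫 : Ideal B) [h𝔫 : 𝔫.IsPrime] (h𝔪𝔫 : (maximalIdeal A).map (algebraMap A B) ≤ 𝔫)
    (t : B) (ht : t ∈ 𝔫) (ht0 : (t : F) ≠ 0) (htV : (t : F)⁻¹ ∈ V)
    (hprin : ∀ y ∈ 𝔫, ∃ s, s ∉ 𝔫 ∧
      s * y ∈ Ideal.span {t} ⊔ (maximalIdeal A).map (algebraMap A B))
    (i : ι) (φ : B →ₐ[A] A) (hφker : ∀ b : B, φ b = 0 ↔ v i (b : F) < 1)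
    (hφfg : (RingHom.ker (φ : B →+* A)).FG) (hcent : h26Centered B v 𝔫 i) :
    H18zLin (h18zO B V hC.hBV 𝔫) (h18zV B V hC.hBV) (t : F)
      ((t : F) - algebraMap A F (φ t)) := by
  have hl0 := h18z_lin_ne_zero hC 𝔫 h𝔪𝔫 t ht hprin i φ hφker hφfg hcent
  have hkerle : RingHom.ker (φ : B →+* A) ≤ 𝔫 := fun b hb => hcent b ((hφker b).mp hb)
  have hφ𝔫 := h26_section_local 𝔫 φ hkerle
  have hA := h26_local_ker_principal (maximalIdeal A) 𝔫 t ht hprin h𝔪𝔫 φ hφ𝔫 hkerle hφfg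
  have hci : φ t ∈ maximalIdeal A := hφ𝔫 t ht
  have hz := hC.hVunit _ hci (-(t : F)⁻¹) (V.neg_mem htV)
  have hfac : (t : F) - algebraMap A F (φ t) =
      (t : F) * (1 + algebraMap A F (φ t) * (-(t : F)⁻¹)) := by
    field_simp
    ring
  have hne : 1 + algebraMap A F (φ t) * (-(t : F)⁻¹) ≠ 0 := by
    intro h
    apply hl0
    rw [hfac, h, mul_zero]
  have hinv : ((t : F) - algebraMap A F (φ t))⁻¹ = (t : F)⁻¹ *
      (1 + (φ t) • ((1 + algebraMap A F (φ t) * (-(t : F)⁻¹))⁻¹ * (t : F)⁻¹)) := by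
    have hz1 : (1 + algebraMap A F (φ t) * (-(t : F)⁻¹))⁻¹ *
        (1 + algebraMap A F (φ t) * (-(t : F)⁻¹)) = 1 := inv_mul_cancel₀ hne
    rw [hfac, mul_inv, Algebra.smul_def]
    congr 1
    generalize (1 + algebraMap A F (φ t) * (-(t : F)⁻¹))⁻¹ = z at hz1 ⊢
    linear_combination hz1
  have hlV : ((t : F) - algebraMap A F (φ t))⁻¹ ∈ V := by
    rw [hfac, mul_inv]
    exact V.mul_mem htV hz
  refine ⟨hl0, ⟨φ t, hci, _, V.mul_mem hz htV, hinv⟩, ?_⟩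
  rintro g ⟨hgV, s, hs, hsg⟩
  obtain ⟨e, he⟩ := (h18z_section_unit 𝔫 h𝔪𝔫 φ hkerle hs).exists_right_inv
  set b : B := ⟨(s : F) * g, hsg⟩ with hb
  set c : A := φ b * e with hc
  have hy₀ : b - algebraMap A B c * s ∈ RingHom.ker (φ : B →+* A) := by
    rw [RingHom.mem_ker]
    have h1 : (φ : B →+* A) (b - algebraMap A B c * s) = φ b - c * φ s := by
      simp
    rw [h1, hc, mul_assoc, mul_comm e, he, mul_one, sub_self]
  obtain ⟨s', hs', hsy⟩ := hA _ hy₀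
  obtain ⟨d, hd⟩ := Ideal.mem_span_singleton'.mp hsy
  refine ⟨c, ?_, s' * s, fun h => (h𝔫.mem_or_mem h).elim hs' hs, ?_⟩
  · exact V.mul_mem (V.sub_mem hgV (hC.hBV _ (B.algebraMap_mem c))) hlV
  · have hdF : (d : F) * ((t : F) - algebraMap A F (φ t)) =
        (s' : F) * ((s : F) * g - algebraMap A F c * (s : F)) := by
      have := congrArg (Subtype.val : B → F) hd
      simpa using this
    have h2 : ((s' * s : B) : F) * ((g - algebraMap A F c) *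
        ((t : F) - algebraMap A F (φ t))⁻¹) = (d : F) := by
      have h3 : ((s' * s : B) : F) * ((g - algebraMap A F c) *
          ((t : F) - algebraMap A F (φ t))⁻¹) =
          ((s' : F) * ((s : F) * g - algebraMap A F c * (s : F))) *
            ((t : F) - algebraMap A F (φ t))⁻¹ := by
        push_cast; ring
      rw [h3, ← hdF, mul_assoc, mul_inv_cancel₀ hl0, mul_one]
    rw [h2]
    exact d.2

/-- products of powers of linear factors as lists. -/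
theorem h18z_list_of_finset (O V' : Subalgebra A F) (t : F) {α : Type*} (T : Finset α)
    (l : α → F) (N : α → ℕ) (hl : ∀ i ∈ T, H18zLin O V' t (l i)) :
    ∃ L : List F, (∀ x ∈ L, H18zLin O V' t x) ∧ L.prod = ∏ i ∈ T, l i ^ N i := by
  classical
  induction T using Finset.induction_on with
  | empty => exact ⟨[], by simp, by simp⟩
  | insert a T ha ih =>
    obtain ⟨L, hL, hprod⟩ := ih (fun i hi => hl i (Finset.mem_insert_of_mem hi))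
    refine ⟨List.replicate (N a) (l a) ++ L, ?_, ?_⟩
    · intro x hx
      rcases List.mem_append.mp hx with h | h
      · rw [List.eq_of_mem_replicate h]
        exact hl a (Finset.mem_insert_self a T)
      · exact hL x h
    · rw [List.prod_append, List.prod_replicate, hprod, Finset.prod_insert ha]

/-- every element of `V` becomes an element of `O` after multiplication by a product of linear
factors (clearing the finitely many poles centered at `𝔫`). -/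
theorem h18z_hfac (hC : H26Chart B V v)
    (𝔫 : Ideal B) [h𝔫 : 𝔫.IsPrime] (h𝔪𝔫 : (maximalIdeal A).map (algebraMap A B) ≤ 𝔫)
    (t : B) (ht : t ∈ 𝔫) (ht0 : (t : F) ≠ 0) (htV : (t : F)⁻¹ ∈ V)
    (hprin : ∀ y ∈ 𝔫, ∃ s, s ∉ 𝔫 ∧
      s * y ∈ Ideal.span {t} ⊔ (maximalIdeal A).map (algebraMap A B))
    (hsec : ∀ i, h26Centered B v 𝔫 i →
      ∃ φ : B →ₐ[A] A, (∀ b : B, φ b = 0 ↔ v i (b : F) < 1) ∧
        (RingHom.ker (φ : B →+* A)).FG) :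
    ∀ G ∈ h18zV B V hC.hBV, ∃ L : List F,
      (∀ l ∈ L, H18zLin (h18zO B V hC.hBV 𝔫) (h18zV B V hC.hBV) (t : F) l) ∧
        L.prod * G ∈ h18zO B V hC.hBV 𝔫 := by
  classical
  intro G hGV
  rcases eq_or_ne G 0 with rfl | hG0
  · exact ⟨[], by simp, by simp [zero_mem]⟩
  set Z : Finset ι := (hC.hfin G hG0).toFinset.filter (fun i => h26Centered B v 𝔫 i) with hZ
  have hex : ∀ i : ι, ∃ (l : B) (N : ℕ), i ∈ Z →
      H18zLin (h18zO B V hC.hBV 𝔫) (h18zV B V hC.hBV) (t : F) (l : F) ∧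
        v i (l : F) ^ N * v i G ≤ 1 := by
    intro i
    by_cases hi : i ∈ Z
    · have hc : h26Centered B v 𝔫 i := (Finset.mem_filter.mp hi).2
      obtain ⟨φ, hφker, hφfg⟩ := hsec i hc
      have hlin := h18z_lin hC 𝔫 h𝔪𝔫 t ht ht0 htV hprin i φ hφker hφfg hc
      have hlt : v i ((t - algebraMap A B (φ t) : B) : F) < 1 := (hφker _).mp (by simp)
      obtain ⟨N, hN⟩ := h26_exists_pow_mul_le_one _ (v i G) hlt
      exact ⟨t - algebraMap A B (φ t), N, fun _ => ⟨hlin, hN⟩⟩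
    · exact ⟨0, 0, fun h => (hi h).elim⟩
  choose l N hlN using hex
  obtain ⟨L, hL, hprod⟩ := h18z_list_of_finset (h18zO B V hC.hBV 𝔫) (h18zV B V hC.hBV) (t : F)
    Z (fun i => (l i : F)) N (fun i hi => (hlN i hi).1)
  refine ⟨L, hL, ?_⟩
  rw [hprod]
  have hval : ∀ k, h26Centered B v 𝔫 k → v k ((∏ i ∈ Z, (l i : F) ^ N i) * G) ≤ 1 := by
    intro k hk
    rw [map_mul, map_prod]
    simp only [map_pow]
    have hle : ∀ i, v k (l i : F) ^ N i ≤ 1 := fun i => pow_le_one' (hC.hB _ (l i).2 k) _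
    by_cases hkZ : k ∈ Z
    · rw [← Finset.mul_prod_erase Z _ hkZ, mul_assoc,
        mul_comm (∏ i ∈ Z.erase k, v k (l i : F) ^ N i), ← mul_assoc]
      exact mul_le_one' (hlN k hkZ).2 (Finset.prod_le_one' (fun i _ => hle i))
    · have h1 : v k G ≤ 1 := by
        refine not_lt.mp (fun h => hkZ ?_)
        rw [hZ, Finset.mem_filter, Set.Finite.mem_toFinset]
        exact ⟨h, hk⟩
      exact mul_le_one' (Finset.prod_le_one' (fun i _ => hle i)) h1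
  have hprodB : (∏ i ∈ Z, (l i : F) ^ N i) ∈ B :=
    Subalgebra.prod_mem _ (fun i _ => B.pow_mem (l i).2 _)
  have hfV : (∏ i ∈ Z, (l i : F) ^ N i) * G ∈ V := V.mul_mem (hC.hBV _ hprodB) hGV
  obtain ⟨a, ha, s, hs, has⟩ := h26_stepC hC.hfin hC.hint hC.hB 𝔫 _ hval
  exact ⟨hfV, s, hs, hC.hQEP a ha _ (V.mul_mem (hC.hBV _ s.2) hfV) has⟩

/-- **Purity at a smooth closed point of a chart**, deep form:
`G ^ (p ^ n) ∈ O + p ^ n ρ V ⟹ G ∈ O + ρ V`. -/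
theorem h18z_chart_deep (hC : H26Chart B V v) (hAF : Function.Injective (algebraMap A F))
    (𝔫 : Ideal B) [h𝔫 : 𝔫.IsPrime] (h𝔪𝔫 : (maximalIdeal A).map (algebraMap A B) ≤ 𝔫)
    (t : B) (ht : t ∈ 𝔫) (ht0 : (t : F) ≠ 0) (htV : (t : F)⁻¹ ∈ V)
    (hprin : ∀ y ∈ 𝔫, ∃ s, s ∉ 𝔫 ∧
      s * y ∈ Ideal.span {t} ⊔ (maximalIdeal A).map (algebraMap A B))
    (hsec : ∀ i, h26Centered B v 𝔫 i →
      ∃ φ : B →ₐ[A] A, (∀ b : B, φ b = 0 ↔ v i (b : F) < 1) ∧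
        (RingHom.ker (φ : B →+* A)).FG)
    (p : ℕ) (hp : p.Prime) (hp0 : (p : A) ≠ 0) (n : ℕ) (ρ : A)
    (G : F) (hGV : G ∈ h18zV B V hC.hBV)
    (hGu : ∃ u ∈ h18zO B V hC.hBV 𝔫, (∃ u' ∈ h18zO B V hC.hBV 𝔫, u * u' = 1) ∧
      ∃ m ∈ maximalIdeal A, ∃ y ∈ h18zV B V hC.hBV, G = u + m • y)
    (hG : h18yNear (h18zO B V hC.hBV 𝔫) (h18zV B V hC.hBV) ((p : A) ^ n * ρ) (G ^ (p ^ n))) :
    h18yNear (h18zO B V hC.hBV 𝔫) (h18zV B V hC.hBV) ρ G := by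
  have h := h18z_local hC hAF 𝔫 h𝔪𝔫 t ht ht0 htV
  have hfac := h18z_hfac hC 𝔫 h𝔪𝔫 t ht ht0 htV hprin hsec
  exact h18y_purity_deep p hp hp0 _ _ h.hOV h.hsat (h18z_hroot h hfac p hp.two_le)
    (h18z_hAS h hfac p hp.two_le) (h18z_hdepth h hfac) n ρ G hGV hGu hG

/-- an element of `B_𝔫 ∩ V` which is `≡ 1 mod π' V` (`π' ≠ 0` in `𝔪_A`) is a unit of `B_𝔫`. -/
theorem h18z_unit_of_near_one (hC : H26Chart B V v)
    (hAF : Function.Injective (algebraMap A F))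
    (𝔫 : Ideal B) (h𝔪𝔫 : (maximalIdeal A).map (algebraMap A B) ≤ 𝔫)
    (π' : A) (hπ' : π' ∈ maximalIdeal A) (hπ'0 : π' ≠ 0) (η z : F) (hz : z ∈ V)
    (hη : η = 1 + algebraMap A F π' * z) (s₁ : B) (hs₁ : s₁ ∉ 𝔫) (hs₁η : (s₁ : F) * η ∈ B) :
    (⟨(s₁ : F) * η, hs₁η⟩ : B) ∉ 𝔫 := by
  intro hb
  apply hs₁
  have hπF : algebraMap A F π' ≠ 0 := fun h => hπ'0 (hAF (by rw [h, map_zero]))
  have h1 : π' • ((s₁ : F) * z) ∈ B := by
    have h2 : π' • ((s₁ : F) * z) = (s₁ : F) * η - (s₁ : F) := by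
      rw [Algebra.smul_def, hη]; ring
    rw [h2]
    exact B.sub_mem hs₁η s₁.2
  have h3 : (s₁ : F) * z ∈ B := hC.hQEP π' hπF _ (V.mul_mem (hC.hBV _ s₁.2) hz) h1
  have h4 : s₁ = (⟨(s₁ : F) * η, hs₁η⟩ : B) - algebraMap A B π' * ⟨(s₁ : F) * z, h3⟩ := by
    apply Subtype.ext
    have h5 : (((⟨(s₁ : F) * η, hs₁η⟩ : B) - algebraMap A B π' * ⟨(s₁ : F) * z, h3⟩ : B) : F) =
        (s₁ : F) * η - algebraMap A F π' * ((s₁ : F) * z) := rfl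
    rw [h5, hη]
    ring
  rw [h4]
  exact 𝔫.sub_mem hb (𝔫.mul_mem_right _ (h𝔪𝔫 (Ideal.mem_map_of_mem _ hπ')))

/-- **The deep local datum at a smooth closed point**: for `w ∈ 1 + p ^ n ρ V` all of whose
orders are divisible by `p ^ n` there is `g ∈ 1 + ρ V` with `w / g ^ (p ^ n)` a unit of
`B_𝔫`. -/
theorem h18z_local_deep (hC : H26Chart B V v) (hAF : Function.Injective (algebraMap A F))
    (𝔫 : Ideal B) [h𝔫 : 𝔫.IsPrime] (h𝔪𝔫 : (maximalIdeal A).map (algebraMap A B) ≤ 𝔫)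
    (t : B) (ht : t ∈ 𝔫) (ht0 : (t : F) ≠ 0) (htV : (t : F)⁻¹ ∈ V)
    (hprin : ∀ y ∈ 𝔫, ∃ s, s ∉ 𝔫 ∧
      s * y ∈ Ideal.span {t} ⊔ (maximalIdeal A).map (algebraMap A B))
    (hsec : ∀ i, h26Centered B v 𝔫 i →
      ∃ φ : B →ₐ[A] A, (∀ b : B, φ b = 0 ↔ v i (b : F) < 1) ∧
        (RingHom.ker (φ : B →+* A)).FG)
    (p : ℕ) (hp : p.Prime) (hp0 : (p : A) ≠ 0) (n : ℕ)
    (ρ : A) (hρ : ρ ∈ maximalIdeal A) (hρ0 : ρ ≠ 0)
    (w : F) (hw0 : w ≠ 0) (hrw : ∀ i, ∃ m : ℤ, v i w = exp (-(((p ^ n : ℕ) : ℤ) * m)))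
    (hwU : w ∈ h26U ((p : A) ^ n * ρ) V) :
    ∃ g ∈ h26U ρ V, ∃ s : B, s ∉ 𝔫 ∧
      (s : F) * (w * (g ^ (p ^ n))⁻¹) ∈ B ∧ (s : F) * (g ^ (p ^ n) * w⁻¹) ∈ B := by
  classical
  have hAV : ∀ a : A, algebraMap A F a ∈ V := fun a => hC.hBV _ (B.algebraMap_mem a)
  have hπ₁m : (p : A) ^ n * ρ ∈ maximalIdeal A := Ideal.mul_mem_left _ _ hρ
  have hπ₁0 : (p : A) ^ n * ρ ≠ 0 := mul_ne_zero (pow_ne_zero _ hp0) hρ0
  have hπ₁F : algebraMap A F ((p : A) ^ n * ρ) ≠ 0 := fun h =>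
    hπ₁0 (hAF (by rw [h, map_zero]))
  have hVnt₁ := h26_chart_nt hC 𝔫 h𝔪𝔫 _ hπ₁m hπ₁F
  have hwV : w ∈ V := h26U_mem_V (hAV _) hwU
  have hwinvU : w⁻¹ ∈ h26U ((p : A) ^ n * ρ) V := h26U_inv (hC.hVunit _ hπ₁m) hVnt₁ hwU
  have hwV' : w⁻¹ ∈ V := h26U_mem_V (hAV _) hwinvU
  set T : Finset ι := (h26_finite_support hC w hw0).toFinset.filter
    (fun i => h26Centered B v 𝔫 i) with hT
  have hTc : ∀ i ∈ T, h26Centered B v 𝔫 i := fun i hi => (Finset.mem_filter.mp hi).2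
  have hw1 : ∀ k, h26Centered B v 𝔫 k → k ∉ T → v k w = 1 := by
    intro k hk hkT
    by_contra hne
    apply hkT
    rw [hT, Finset.mem_filter, Set.Finite.mem_toFinset]
    exact ⟨hne, hk⟩
  rcases T.eq_empty_or_nonempty with hT0 | ⟨i₀, hi₀⟩
  · -- no zero or pole in the residue disc: `w` is a local unit
    obtain ⟨s, hs, h1, h2⟩ := h26_local_unit hC 𝔫 w hwV hwV'
      (fun k hk => hw1 k hk (by rw [hT0]; exact Finset.notMem_empty k))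
    exact ⟨1, h26U_one, s, hs, by simpa using h1, by simpa using h2⟩
  -- the sections
  obtain ⟨φ₀, -, -⟩ := hsec i₀ (hTc i₀ hi₀)
  have hex : ∀ i : ι, ∃ φ : B →ₐ[A] A, h26Centered B v 𝔫 i →
      (∀ b : B, φ b = 0 ↔ v i (b : F) < 1) ∧ (RingHom.ker (φ : B →+* A)).FG := by
    intro i
    by_cases h : h26Centered B v 𝔫 i
    · obtain ⟨φ, h1, h2⟩ := hsec i h
      exact ⟨φ, fun _ => ⟨h1, h2⟩⟩
    · exact ⟨φ₀, fun hc => (h hc).elim⟩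
  choose φ hφ using hex
  have hcm : ∀ i ∈ T, φ i t ∈ maximalIdeal A := by
    intro i hi
    have hkerle : RingHom.ker (φ i : B →+* A) ≤ 𝔫 := fun b hb =>
      hTc i hi b (((hφ i (hTc i hi)).1 b).mp hb)
    exact h26_section_local 𝔫 (φ i) hkerle t ht
  -- the shallow modulus
  obtain ⟨π, hπm, hπ0, hππ₁, hπc⟩ := h26_common_divisor T (fun i => φ i t) hcm _ hπ₁m hπ₁0
  have hπF : algebraMap A F π ≠ 0 := fun h => hπ0 (hAF (by rw [h, map_zero]))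
  have hVnt := h26_chart_nt hC 𝔫 h𝔪𝔫 π hπm hπF
  have hwπ : w ∈ h26U π V := by
    obtain ⟨a, ha⟩ := hππ₁
    obtain ⟨x, hx, rfl⟩ := hwU
    exact ⟨algebraMap A F a * x, V.mul_mem (hAV a) hx, by rw [ha, map_mul]; ring⟩
  choose n' hn' using hrw
  obtain ⟨g₀, hg₀U, s, hs, h1, h2⟩ := h26_local_gate hC 𝔫 h𝔪𝔫 t ht ht0 htV hprin T φ
    (fun i hi => (hφ i (hTc i hi)).1) (fun i hi => (hφ i (hTc i hi)).2) hTc π hπm hπF
    (fun i hi => hπc i hi) w hwπ (p ^ n) n' (fun i _ => hn' i) hw1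
  -- purity
  have hg₀V : g₀ ∈ V := h26U_mem_V (hAV π) hg₀U
  have hg₀0 : g₀ ≠ 0 := h26U_ne_zero hVnt hg₀U
  have hGU : g₀⁻¹ ∈ h26U π V := h26U_inv (hC.hVunit π hπm) hVnt hg₀U
  have hGV : g₀⁻¹ ∈ V := h26U_mem_V (hAV π) hGU
  have hεV : w * (g₀ ^ (p ^ n))⁻¹ ∈ V := by
    rw [← inv_pow]
    exact V.mul_mem hwV (V.pow_mem hGV _)
  have hεO : w * (g₀ ^ (p ^ n))⁻¹ ∈ h18zO B V hC.hBV 𝔫 := ⟨hεV, s, hs, h1⟩
  obtain ⟨y₀, hy₀, hGy₀⟩ := hGU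
  obtain ⟨x', hx', hwx'⟩ := hwinvU
  have hnear : h18yNear (h18zO B V hC.hBV 𝔫) (h18zV B V hC.hBV) ((p : A) ^ n * ρ)
      (g₀⁻¹ ^ (p ^ n)) := by
    refine ⟨w * (g₀ ^ (p ^ n))⁻¹, hεO, w * (g₀ ^ (p ^ n))⁻¹ * x', V.mul_mem hεV hx', ?_⟩
    have h3 : g₀⁻¹ ^ (p ^ n) = w * (g₀ ^ (p ^ n))⁻¹ * w⁻¹ := by
      rw [inv_pow, mul_comm w, mul_assoc, mul_inv_cancel₀ hw0, mul_one]
    rw [h3, hwx', Algebra.smul_def]
    ring
  obtain ⟨η, hηO, y₁, hy₁, hGη⟩ := h18z_chart_deep hC hAF 𝔫 h𝔪𝔫 t ht ht0 htV hprin hsec p hp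
    hp0 n ρ g₀⁻¹ hGV
    ⟨1, Subalgebra.one_mem _, ⟨1, Subalgebra.one_mem _, one_mul 1⟩, π, hπm, y₀, hy₀, by
      rw [hGy₀, Algebra.smul_def]⟩ hnear
  -- `η` is a unit of `B_𝔫`
  obtain ⟨hηV, s₁, hs₁, hs₁η⟩ := hηO
  obtain ⟨π', hπ', ⟨c₁, hc₁⟩, ⟨c₂, hc₂⟩⟩ := h18y_exists_common hπm hρ
  have hπ'0 : π' ≠ 0 := by
    rintro rfl
    rw [zero_mul] at hc₁
    exact hπ0 hc₁
  have hηeq : η = 1 + algebraMap A F π' * (algebraMap A F c₁ * y₀ - algebraMap A F c₂ * y₁) := by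
    have h3 : η = g₀⁻¹ - ρ • y₁ := by rw [hGη]; ring
    rw [h3, hGy₀, Algebra.smul_def, hc₁, hc₂, map_mul, map_mul]
    ring
  have hb₁ := h18z_unit_of_near_one hC hAF 𝔫 h𝔪𝔫 π' hπ' hπ'0 η _
    (V.sub_mem (V.mul_mem (hAV c₁) hy₀) (V.mul_mem (hAV c₂) hy₁)) hηeq s₁ hs₁ hs₁η
  have hη0 : η ≠ 0 := by
    rintro rfl
    apply hb₁
    have : (⟨(s₁ : F) * 0, hs₁η⟩ : B) = 0 := Subtype.ext (by simp)
    rw [this]
    exact 𝔫.zero_mem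
  -- the deep local root
  refine ⟨g₀ * η, ⟨-(g₀ * y₁), V.neg_mem (V.mul_mem hg₀V hy₁), ?_⟩,
    s * ⟨(s₁ : F) * η, hs₁η⟩ ^ (p ^ n) * s₁ ^ (p ^ n), ?_, ?_, ?_⟩
  · have h3 : η = g₀⁻¹ - ρ • y₁ := by rw [hGη]; ring
    rw [h3, Algebra.smul_def, mul_sub, mul_inv_cancel₀ hg₀0]
    ring
  · intro h
    rcases h𝔫.mem_or_mem h with h | h
    · rcases h𝔫.mem_or_mem h with h | h
      · exact hs h
      · exact hb₁ (h𝔫.mem_of_pow_mem _ h)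
    · exact hs₁ (h𝔫.mem_of_pow_mem _ h)
  · have h3 : ((s * ⟨(s₁ : F) * η, hs₁η⟩ ^ (p ^ n) * s₁ ^ (p ^ n) : B) : F) *
        (w * ((g₀ * η) ^ (p ^ n))⁻¹) =
        ((s : F) * (w * (g₀ ^ (p ^ n))⁻¹)) * ((s₁ : F) ^ (p ^ n) * (s₁ : F) ^ (p ^ n)) := by
      push_cast
      rw [mul_pow, mul_pow, mul_inv]
      have h4 : η ^ (p ^ n) * (η ^ (p ^ n))⁻¹ = 1 := mul_inv_cancel₀ (pow_ne_zero _ hη0)
      linear_combination ((s : F) * (s₁ : F) ^ (p ^ n) * (s₁ : F) ^ (p ^ n) * w *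
        (g₀ ^ (p ^ n))⁻¹) * h4
    rw [h3]
    exact B.mul_mem h1 (B.mul_mem (B.pow_mem s₁.2 _) (B.pow_mem s₁.2 _))
  · have h3 : ((s * ⟨(s₁ : F) * η, hs₁η⟩ ^ (p ^ n) * s₁ ^ (p ^ n) : B) : F) *
        ((g₀ * η) ^ (p ^ n) * w⁻¹) =
        ((s : F) * (g₀ ^ (p ^ n) * w⁻¹)) *
          (((s₁ : F) * η) ^ (p ^ n) * ((s₁ : F) * η) ^ (p ^ n)) := by
      push_cast
      ring
    rw [h3]
    exact B.mul_mem h2 (B.mul_mem (B.pow_mem hs₁η _) (B.pow_mem hs₁η _))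

/-- **The deep local datum at a smooth closed point**, in the shape of the local hypothesis
of the deep gate (`h90p_gate_asm_loc`, `P6/H90DeepAsm.lean`): `r = p ^ n`,
`w ∈ 1 + r² π V ⟹ ∃ g ∈ 1 + r π V` with `w / g ^ r` a unit of `B_𝔫`. -/
theorem h18z_local_deep_gate (hC : H26Chart B V v)
    (hAF : Function.Injective (algebraMap A F))
    (𝔫 : Ideal B) [h𝔫 : 𝔫.IsPrime] (h𝔪𝔫 : (maximalIdeal A).map (algebraMap A B) ≤ 𝔫)
    (t : B) (ht : t ∈ 𝔫) (ht0 : (t : F) ≠ 0) (htV : (t : F)⁻¹ ∈ V)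
    (hprin : ∀ y ∈ 𝔫, ∃ s, s ∉ 𝔫 ∧
      s * y ∈ Ideal.span {t} ⊔ (maximalIdeal A).map (algebraMap A B))
    (hsec : ∀ i, h26Centered B v 𝔫 i →
      ∃ φ : B →ₐ[A] A, (∀ b : B, φ b = 0 ↔ v i (b : F) < 1) ∧
        (RingHom.ker (φ : B →+* A)).FG)
    (p : ℕ) (hp : p.Prime) (hp0 : (p : A) ≠ 0) (n : ℕ) (r : ℕ) (hr : r = p ^ n)
    (π : A) (hπ : π ∈ maximalIdeal A) (hπ0 : π ≠ 0)
    (w : F) (hw0 : w ≠ 0) (hrw : ∀ i, ∃ m : ℤ, v i w = exp (-((r : ℤ) * m)))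
    (hwU : w ∈ h26U ((r : A) ^ 2 * π) V) :
    ∃ g ∈ h26U ((r : A) * π) V, ∃ s : B, s ∉ 𝔫 ∧
      (s : F) * (w * (g ^ r)⁻¹) ∈ B ∧ (s : F) * (g ^ r * w⁻¹) ∈ B := by
  subst hr
  have hrA : ((p ^ n : ℕ) : A) ≠ 0 := by
    rw [Nat.cast_pow]
    exact pow_ne_zero _ hp0
  have hρ : ((p ^ n : ℕ) : A) * π ∈ maximalIdeal A := Ideal.mul_mem_left _ _ hπ
  have hρ0 : ((p ^ n : ℕ) : A) * π ≠ 0 := mul_ne_zero hrA hπ0
  have hwU' : w ∈ h26U ((p : A) ^ n * (((p ^ n : ℕ) : A) * π)) V := by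
    have h1 : (p : A) ^ n * (((p ^ n : ℕ) : A) * π) = ((p ^ n : ℕ) : A) ^ 2 * π := by
      rw [Nat.cast_pow]; ring
    rw [h1]
    exact hwU
  exact h18z_local_deep hC hAF 𝔫 h𝔪𝔫 t ht ht0 htV hprin hsec p hp hp0 n _ hρ hρ0 w hw0 hrw hwU'

end Pkg

end Fermat.Agent.P6
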