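import Mathlib

/-!
# Wave 6 (S33), block B4: the ordinary-type chain, abstract core (helper1, prefix `h1c_`)

Setting (the shape of `H30xKey` / of the output of `h30x_cheb`): a group `G` acting on an
additive group `W` (`ρW`), a commutative ring `P` of Hecke elements acting on `W` (`Θ`) and
commuting with `G`, and the Eichler–Shimura relation `g + Θ(δ g) g⁻¹ = Θ(τ g)` on `W`, with
`δ` multiplicative on `W`.

* `h1c_pol` : the **polarised identity**, exact in `End W`: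
  `x y + y x = Θ(t x) y + Θ(t y) x + Θ(t (x y)) - Θ(t x) Θ(t y)` for `x, y ∈ ℤ[G]`,
  `t` the additive extension of `τ`.
* `h1cN J` : the additive subgroup of `End W` generated by the `Θ(u) x`, `u ∈ J`, `x ∈ ℤ[G]`.
* `h1c_anti` : if `ρ̄ : G → R̄` has "trace" `π̄ ∘ τ` (any additive `tr : R̄ → k`) then for
  `z, z' ∈ ker ρ̄`: `z z' + z' z ∈ h1cN (ker π̄)`.
* `h1c_triple` : (Nagata–Higman in index 2) `z₁ z₂ z₃ ∈ h1cN (ker π̄)` when an odd integer
  kills `W`.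
* `h1c_nil` : every product of `3 m` elements of `ker ρ̄` kills every `w` killed by
  `Θ ((ker π̄) ^ m)`.
* `h1c_nil_star` : the same for products of elements `(a - e)(b - 1)`.

No absolute irreducibility, no determinant of `ρ̄`, no finiteness.
-/

set_option autoImplicit false

open MonoidAlgebra

noncomputable section

namespace Fermat.Agent.P6

section Hat

variable {G : Type*} [Group G] {R : Type*} [Ring R]

/-- the extension of a homomorphism `G → R` to the integral group ring. -/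
def h1cHat (ρ : G →* R) : MonoidAlgebra ℤ G →+* R :=
  ((MonoidAlgebra.lift ℤ R G ρ : MonoidAlgebra ℤ G →ₐ[ℤ] R) : MonoidAlgebra ℤ G →+* R)

theorem h1cHat_of (ρ : G →* R) (g : G) : h1cHat ρ (of ℤ G g) = ρ g :=
  MonoidAlgebra.lift_of ρ g

end Hat

section Abstract

variable {G : Type*} [Group G] {W : Type*} [AddCommGroup W] {P : Type*} [CommRing P]

/-- the additive extension of `τ : G → P` to the integral group ring. -/
def h1cTr (τ : G → P) : MonoidAlgebra ℤ G →+ P :=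
  liftNC (Int.castAddHom P) τ

theorem h1cTr_of (τ : G → P) (g : G) : h1cTr τ (of ℤ G g) = τ g := by
  rw [h1cTr, of_apply, liftNC_single]
  simp

variable (ρW : G →* AddMonoid.End W) (Θ : P →+* AddMonoid.End W) (τ δ : G → P)

/-- the defect of the polarised identity. -/
def h1cD (x y : MonoidAlgebra ℤ G) : AddMonoid.End W :=
  h1cHat ρW x * h1cHat ρW y + h1cHat ρW y * h1cHat ρW x -
    (Θ (h1cTr τ x) * h1cHat ρW y + Θ (h1cTr τ y) * h1cHat ρW x + Θ (h1cTr τ (x * y)) -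
      Θ (h1cTr τ x) * Θ (h1cTr τ y))

theorem h1cD_add_right (x y₁ y₂ : MonoidAlgebra ℤ G) :
    h1cD ρW Θ τ x (y₁ + y₂) = h1cD ρW Θ τ x y₁ + h1cD ρW Θ τ x y₂ := by
  unfold h1cD
  simp only [map_add, mul_add, add_mul]
  abel

theorem h1cD_add_left (x₁ x₂ y : MonoidAlgebra ℤ G) :
    h1cD ρW Θ τ (x₁ + x₂) y = h1cD ρW Θ τ x₁ y + h1cD ρW Θ τ x₂ y := by
  unfold h1cD
  simp only [map_add, mul_add, add_mul]
  abel

theorem h1cD_smul_right (r : ℤ) (x y : MonoidAlgebra ℤ G) :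
    h1cD ρW Θ τ x (r • y) = r • h1cD ρW Θ τ x y := by
  unfold h1cD
  simp only [map_zsmul, mul_smul_comm, smul_mul_assoc]
  module

theorem h1cD_smul_left (r : ℤ) (x y : MonoidAlgebra ℤ G) :
    h1cD ρW Θ τ (r • x) y = r • h1cD ρW Θ τ x y := by
  unfold h1cD
  simp only [map_zsmul, mul_smul_comm, smul_mul_assoc]
  module

variable {ρW Θ τ δ}

/-- the polarised identity on group elements. -/
theorem h1cD_of_of (hcomm : ∀ (a : P) (g : G), Commute (Θ a) (ρW g))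
    (hES : ∀ g : G, ρW g + Θ (δ g) * ρW g⁻¹ = Θ (τ g))
    (hmul : ∀ g h : G, Θ (δ (g * h)) = Θ (δ g) * Θ (δ h)) (g h : G) :
    h1cD ρW Θ τ (of ℤ G g) (of ℤ G h) = 0 := by
  unfold h1cD
  rw [← map_mul (of ℤ G), h1cHat_of, h1cHat_of, h1cTr_of, h1cTr_of, h1cTr_of, sub_eq_zero]
  have h1 : Θ (δ g) * ρW g⁻¹ = Θ (τ g) - ρW g := eq_sub_of_add_eq' (hES g)
  have h2 : Θ (δ h) * ρW h⁻¹ = Θ (τ h) - ρW h := eq_sub_of_add_eq' (hES h)
  have h3 := hES (g * h)
  rw [hmul, mul_inv_rev, map_mul, map_mul] at h3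
  have h4 : Θ (δ g) * Θ (δ h) * (ρW h⁻¹ * ρW g⁻¹) =
      (Θ (δ h) * ρW h⁻¹) * (Θ (δ g) * ρW g⁻¹) := by
    have e1 : Θ (δ g) * Θ (δ h) = Θ (δ h) * Θ (δ g) := by
      rw [← map_mul, ← map_mul, mul_comm]
    have e2 : Θ (δ g) * ρW h⁻¹ = ρW h⁻¹ * Θ (δ g) := (hcomm (δ g) h⁻¹).eq
    calc Θ (δ g) * Θ (δ h) * (ρW h⁻¹ * ρW g⁻¹)
        = Θ (δ h) * (Θ (δ g) * ρW h⁻¹) * ρW g⁻¹ := by rw [e1]; simp only [mul_assoc]
      _ = Θ (δ h) * (ρW h⁻¹ * Θ (δ g)) * ρW g⁻¹ := by rw [e2]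
      _ = (Θ (δ h) * ρW h⁻¹) * (Θ (δ g) * ρW g⁻¹) := by simp only [mul_assoc]
  rw [h4, h1, h2] at h3
  have hAb : ρW h * Θ (τ g) = Θ (τ g) * ρW h := ((hcomm (τ g) h).eq).symm
  have hBA : Θ (τ h) * Θ (τ g) = Θ (τ g) * Θ (τ h) := by
    rw [← map_mul, ← map_mul, mul_comm]
  rw [← h3, sub_mul, mul_sub, mul_sub, hAb, hBA]
  abel

/-- **the polarised identity**, exact in `End W`. -/
theorem h1cD_eq_zero (hcomm : ∀ (a : P) (g : G), Commute (Θ a) (ρW g))
    (hES : ∀ g : G, ρW g + Θ (δ g) * ρW g⁻¹ = Θ (τ g))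
    (hmul : ∀ g h : G, Θ (δ (g * h)) = Θ (δ g) * Θ (δ h)) (x y : MonoidAlgebra ℤ G) :
    h1cD ρW Θ τ x y = 0 := by
  refine MonoidAlgebra.induction_on (motive := fun x => ∀ y, h1cD ρW Θ τ x y = 0) x ?_ ?_ ?_ y
  · intro g y
    refine MonoidAlgebra.induction_on (motive := fun y => h1cD ρW Θ τ (of ℤ G g) y = 0) y
      ?_ ?_ ?_
    · intro h
      exact h1cD_of_of hcomm hES hmul g h
    · intro y₁ y₂ h₁ h₂
      rw [h1cD_add_right, h₁, h₂, add_zero]
    · intro r y hy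
      rw [h1cD_smul_right, hy]
      exact smul_zero r
  · intro x₁ x₂ h₁ h₂ y
    rw [h1cD_add_left, h₁ y, h₂ y, add_zero]
  · intro r x hx y
    rw [h1cD_smul_left, hx y]
    exact smul_zero r

theorem h1c_pol (hcomm : ∀ (a : P) (g : G), Commute (Θ a) (ρW g))
    (hES : ∀ g : G, ρW g + Θ (δ g) * ρW g⁻¹ = Θ (τ g))
    (hmul : ∀ g h : G, Θ (δ (g * h)) = Θ (δ g) * Θ (δ h)) (x y : MonoidAlgebra ℤ G) :
    h1cHat ρW x * h1cHat ρW y + h1cHat ρW y * h1cHat ρW x =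
      Θ (h1cTr τ x) * h1cHat ρW y + Θ (h1cTr τ y) * h1cHat ρW x + Θ (h1cTr τ (x * y)) -
        Θ (h1cTr τ x) * Θ (h1cTr τ y) :=
  sub_eq_zero.mp (h1cD_eq_zero hcomm hES hmul x y)


/-! ## The subgroup `h1cN J` -/

variable (ρW Θ)

/-- the additive subgroup of `End W` generated by the `Θ(u) x`, `u ∈ J`, `x ∈ ℤ[G]`. -/
def h1cN (J : Ideal P) : AddSubgroup (AddMonoid.End W) :=
  AddSubgroup.closure {X | ∃ u ∈ J, ∃ x : MonoidAlgebra ℤ G, X = Θ u * h1cHat ρW x}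

variable {ρW Θ}

theorem h1c_gen_mem {J : Ideal P} {u : P} (hu : u ∈ J) (x : MonoidAlgebra ℤ G) :
    Θ u * h1cHat ρW x ∈ h1cN ρW Θ J :=
  AddSubgroup.subset_closure ⟨u, hu, x, rfl⟩

theorem h1c_theta_mem {J : Ideal P} {u : P} (hu : u ∈ J) : Θ u ∈ h1cN ρW Θ J := by
  have h := h1c_gen_mem (ρW := ρW) (Θ := Θ) hu 1
  rwa [map_one, mul_one] at h

theorem h1c_comm_hat (hcomm : ∀ (a : P) (g : G), Commute (Θ a) (ρW g)) (u : P)
    (x : MonoidAlgebra ℤ G) : Commute (Θ u) (h1cHat ρW x) := by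
  refine MonoidAlgebra.induction_on (motive := fun x => Commute (Θ u) (h1cHat ρW x)) x ?_ ?_ ?_
  · intro g
    rw [h1cHat_of]
    exact hcomm u g
  · intro x y hx hy
    rw [map_add]
    exact hx.add_right hy
  · intro r x hx
    rw [map_zsmul]
    exact Commute.smul_right hx r

theorem h1c_N_mul_hat {J : Ideal P} {X : AddMonoid.End W} (hX : X ∈ h1cN ρW Θ J)
    (y : MonoidAlgebra ℤ G) : X * h1cHat ρW y ∈ h1cN ρW Θ J := by
  induction hX using AddSubgroup.closure_induction with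
  | mem X hX =>
    obtain ⟨u, hu, x, rfl⟩ := hX
    rw [mul_assoc, ← map_mul]
    exact h1c_gen_mem hu _
  | zero => rw [zero_mul]; exact AddSubgroup.zero_mem _
  | add X Y _ _ hX hY => rw [add_mul]; exact AddSubgroup.add_mem _ hX hY
  | neg X _ hX => rw [neg_mul]; exact AddSubgroup.neg_mem _ hX

theorem h1c_hat_mul_N (hcomm : ∀ (a : P) (g : G), Commute (Θ a) (ρW g)) {J : Ideal P}
    {X : AddMonoid.End W} (hX : X ∈ h1cN ρW Θ J) (y : MonoidAlgebra ℤ G) :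
    h1cHat ρW y * X ∈ h1cN ρW Θ J := by
  induction hX using AddSubgroup.closure_induction with
  | mem X hX =>
    obtain ⟨u, hu, x, rfl⟩ := hX
    rw [← mul_assoc, ← (h1c_comm_hat hcomm u y).eq, mul_assoc, ← map_mul]
    exact h1c_gen_mem hu _
  | zero => rw [mul_zero]; exact AddSubgroup.zero_mem _
  | add X Y _ _ hX hY => rw [mul_add]; exact AddSubgroup.add_mem _ hX hY
  | neg X _ hX => rw [mul_neg]; exact AddSubgroup.neg_mem _ hX

theorem h1c_N_mul_N (hcomm : ∀ (a : P) (g : G), Commute (Θ a) (ρW g)) {J J' : Ideal P}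
    {X Y : AddMonoid.End W} (hX : X ∈ h1cN ρW Θ J) (hY : Y ∈ h1cN ρW Θ J') :
    X * Y ∈ h1cN ρW Θ (J * J') := by
  induction hX using AddSubgroup.closure_induction with
  | mem X hX =>
    obtain ⟨u, hu, x, rfl⟩ := hX
    induction hY using AddSubgroup.closure_induction with
    | mem Y hY =>
      obtain ⟨u', hu', x', rfl⟩ := hY
      have e : Θ u * h1cHat ρW x * (Θ u' * h1cHat ρW x') = Θ (u * u') * h1cHat ρW (x * x') := by
        rw [map_mul, map_mul]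
        calc Θ u * h1cHat ρW x * (Θ u' * h1cHat ρW x')
            = Θ u * (h1cHat ρW x * Θ u') * h1cHat ρW x' := by simp only [mul_assoc]
          _ = Θ u * (Θ u' * h1cHat ρW x) * h1cHat ρW x' := by
              rw [(h1c_comm_hat hcomm u' x).eq]
          _ = Θ u * Θ u' * (h1cHat ρW x * h1cHat ρW x') := by simp only [mul_assoc]
      rw [e]
      exact h1c_gen_mem (Ideal.mul_mem_mul hu hu') _
    | zero => rw [mul_zero]; exact AddSubgroup.zero_mem _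
    | add Y Z _ _ hY hZ => rw [mul_add]; exact AddSubgroup.add_mem _ hY hZ
    | neg Y _ hY => rw [mul_neg]; exact AddSubgroup.neg_mem _ hY
  | zero => rw [zero_mul]; exact AddSubgroup.zero_mem _
  | add X Z _ _ hX hZ => rw [add_mul]; exact AddSubgroup.add_mem _ hX hZ
  | neg X _ hX => rw [neg_mul]; exact AddSubgroup.neg_mem _ hX

/-- elements of `h1cN J` kill the vectors killed by `Θ J`. -/
theorem h1c_N_kills (hcomm : ∀ (a : P) (g : G), Commute (Θ a) (ρW g)) {J : Ideal P}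
    {X : AddMonoid.End W} (hX : X ∈ h1cN ρW Θ J) (w : W) (hw : ∀ u ∈ J, Θ u w = 0) :
    X w = 0 := by
  induction hX using AddSubgroup.closure_induction with
  | mem X hX =>
    obtain ⟨u, hu, x, rfl⟩ := hX
    rw [(h1c_comm_hat hcomm u x).eq]
    show h1cHat ρW x (Θ u w) = 0
    rw [hw u hu, map_zero]
  | zero => rfl
  | add X Y _ _ hX hY =>
    show X w + Y w = 0
    rw [hX, hY, add_zero]
  | neg X _ hX =>
    show -(X w) = 0
    rw [hX, neg_zero]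

/-! ## The kernel of `ρ̄` -/

section Ker

variable {k : Type*} [CommRing k] (πb : P →+* k) {Rb : Type*} [Ring Rb] (ρb : G →* Rb)
  (tr : Rb →+ k)

theorem h1c_tr_compat (htr : ∀ g : G, tr (ρb g) = πb (τ g)) (x : MonoidAlgebra ℤ G) :
    πb (h1cTr τ x) = tr (h1cHat ρb x) := by
  refine MonoidAlgebra.induction_on
    (motive := fun x => πb (h1cTr τ x) = tr (h1cHat ρb x)) x ?_ ?_ ?_
  · intro g
    rw [h1cTr_of, h1cHat_of, htr]
  · intro x y hx hy
    rw [map_add, map_add, map_add, map_add, hx, hy]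
  · intro r x hx
    rw [map_zsmul, map_zsmul, map_zsmul, map_zsmul, hx]

variable {πb ρb tr}

theorem h1c_tr_mem (htr : ∀ g : G, tr (ρb g) = πb (τ g)) {z : MonoidAlgebra ℤ G}
    (hz : h1cHat ρb z = 0) : h1cTr τ z ∈ RingHom.ker πb := by
  rw [RingHom.mem_ker, h1c_tr_compat πb ρb tr htr, hz, map_zero]

/-- anticommutation modulo `h1cN (ker π̄)`. -/
theorem h1c_anti (hcomm : ∀ (a : P) (g : G), Commute (Θ a) (ρW g))
    (hES : ∀ g : G, ρW g + Θ (δ g) * ρW g⁻¹ = Θ (τ g))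
    (hmul : ∀ g h : G, Θ (δ (g * h)) = Θ (δ g) * Θ (δ h))
    (htr : ∀ g : G, tr (ρb g) = πb (τ g)) {z z' : MonoidAlgebra ℤ G}
    (hz : h1cHat ρb z = 0) (hz' : h1cHat ρb z' = 0) :
    h1cHat ρW z * h1cHat ρW z' + h1cHat ρW z' * h1cHat ρW z ∈ h1cN ρW Θ (RingHom.ker πb) := by
  rw [h1c_pol hcomm hES hmul z z']
  have hzz : h1cHat ρb (z * z') = 0 := by rw [map_mul, hz, zero_mul]
  have m1 := h1c_tr_mem (τ := τ) htr hz
  have m2 := h1c_tr_mem (τ := τ) htr hz'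
  have m3 := h1c_tr_mem (τ := τ) htr hzz
  refine AddSubgroup.sub_mem _ (AddSubgroup.add_mem _ (AddSubgroup.add_mem _ ?_ ?_) ?_) ?_
  · exact h1c_gen_mem m1 _
  · exact h1c_gen_mem m2 _
  · exact h1c_theta_mem m3
  · rw [← map_mul]
    exact h1c_theta_mem (Ideal.mul_mem_right _ _ m1)

/-- twice a triple product lies in `h1cN (ker π̄)`. -/
theorem h1c_two_triple (hcomm : ∀ (a : P) (g : G), Commute (Θ a) (ρW g))
    (hES : ∀ g : G, ρW g + Θ (δ g) * ρW g⁻¹ = Θ (τ g))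
    (hmul : ∀ g h : G, Θ (δ (g * h)) = Θ (δ g) * Θ (δ h))
    (htr : ∀ g : G, tr (ρb g) = πb (τ g)) {z₁ z₂ z₃ : MonoidAlgebra ℤ G}
    (h₁ : h1cHat ρb z₁ = 0) (h₂ : h1cHat ρb z₂ = 0) (h₃ : h1cHat ρb z₃ = 0) :
    (2 : ℤ) • h1cHat ρW (z₁ * z₂ * z₃) ∈ h1cN ρW Θ (RingHom.ker πb) := by
  have h23 : h1cHat ρb (z₂ * z₃) = 0 := by rw [map_mul, h₂, zero_mul]
  have E1 := h1c_anti (ρW := ρW) hcomm hES hmul htr h₁ h23
  have E2 := h1c_hat_mul_N hcomm (h1c_anti (ρW := ρW) hcomm hES hmul htr h₃ h₁) z₂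
  have E3 := h1c_N_mul_hat (h1c_anti (ρW := ρW) hcomm hES hmul htr h₂ h₁) z₃
  have key : (2 : ℤ) • h1cHat ρW (z₁ * z₂ * z₃) =
      (h1cHat ρW z₁ * h1cHat ρW (z₂ * z₃) + h1cHat ρW (z₂ * z₃) * h1cHat ρW z₁) -
        h1cHat ρW z₂ * (h1cHat ρW z₃ * h1cHat ρW z₁ + h1cHat ρW z₁ * h1cHat ρW z₃) +
        (h1cHat ρW z₂ * h1cHat ρW z₁ + h1cHat ρW z₁ * h1cHat ρW z₂) * h1cHat ρW z₃ := by
    simp only [map_mul, mul_add, add_mul, mul_assoc]
    abel
  rw [key]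
  exact AddSubgroup.add_mem _ (AddSubgroup.sub_mem _ E1 E2) E3

/-- **Nagata–Higman in index 2**: a triple product of elements of `ker ρ̄` lies in
`h1cN (ker π̄)`, when an odd integer kills `W`. -/
theorem h1c_triple (hcomm : ∀ (a : P) (g : G), Commute (Θ a) (ρW g))
    (hES : ∀ g : G, ρW g + Θ (δ g) * ρW g⁻¹ = Θ (τ g))
    (hmul : ∀ g h : G, Θ (δ (g * h)) = Θ (δ g) * Θ (δ h))
    (htr : ∀ g : G, tr (ρb g) = πb (τ g))
    (q : ℕ) (hq : Odd q) (hqW : ∀ w : W, q • w = 0) {z₁ z₂ z₃ : MonoidAlgebra ℤ G}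
    (h₁ : h1cHat ρb z₁ = 0) (h₂ : h1cHat ρb z₂ = 0) (h₃ : h1cHat ρb z₃ = 0) :
    h1cHat ρW (z₁ * z₂ * z₃) ∈ h1cN ρW Θ (RingHom.ker πb) := by
  obtain ⟨j, hj⟩ := hq
  have h2 := h1c_two_triple (ρW := ρW) hcomm hES hmul htr h₁ h₂ h₃
  set X := h1cHat ρW (z₁ * z₂ * z₃) with hX
  have hqX : (q : ℤ) • X = 0 := by
    refine AddMonoidHom.ext fun w => ?_
    show (q : ℤ) • X w = 0
    rw [natCast_zsmul]
    exact hqW _
  have e : X = -((j : ℤ) • ((2 : ℤ) • X)) := by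
    have e1 : (q : ℤ) • X = (j : ℤ) • ((2 : ℤ) • X) + X := by
      rw [hj]
      push_cast
      module
    rw [hqX] at e1
    rw [eq_neg_iff_add_eq_zero, add_comm]
    exact e1.symm
  rw [e]
  exact AddSubgroup.neg_mem _ (AddSubgroup.zsmul_mem _ h2 _)

/-- products of `3 m` elements of `ker ρ̄` lie in `h1cN ((ker π̄) ^ m)`. -/
theorem h1c_list (hcomm : ∀ (a : P) (g : G), Commute (Θ a) (ρW g))
    (hES : ∀ g : G, ρW g + Θ (δ g) * ρW g⁻¹ = Θ (τ g))
    (hmul : ∀ g h : G, Θ (δ (g * h)) = Θ (δ g) * Θ (δ h))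
    (htr : ∀ g : G, tr (ρb g) = πb (τ g))
    (q : ℕ) (hq : Odd q) (hqW : ∀ w : W, q • w = 0) (m : ℕ) :
    ∀ L : List (MonoidAlgebra ℤ G), (∀ z ∈ L, h1cHat ρb z = 0) → L.length = 3 * m →
      h1cHat ρW L.prod ∈ h1cN ρW Θ (RingHom.ker πb ^ m) := by
  induction m with
  | zero =>
    intro L _ hlen
    have hL : L = [] := List.length_eq_zero_iff.mp (by omega)
    rw [hL, List.prod_nil, map_one, pow_zero, Ideal.one_eq_top]
    have h := h1c_theta_mem (ρW := ρW) (Θ := Θ) (J := ⊤) (u := 1) Submodule.mem_top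
    rwa [map_one] at h
  | succ m ih =>
    intro L hL hlen
    match L, hL, hlen with
    | z₁ :: z₂ :: z₃ :: L', hL, hlen =>
      have hlen' : L'.length = 3 * m := by
        simp only [List.length_cons] at hlen
        omega
      have h₁ := hL z₁ (by simp)
      have h₂ := hL z₂ (by simp)
      have h₃ := hL z₃ (by simp)
      have hL' : ∀ z ∈ L', h1cHat ρb z = 0 := fun z hz => hL z (by simp [hz])
      have e : (z₁ :: z₂ :: z₃ :: L').prod = (z₁ * z₂ * z₃) * L'.prod := by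
        simp only [List.prod_cons, mul_assoc]
      rw [e, map_mul, pow_succ']
      exact h1c_N_mul_N hcomm
        (h1c_triple (ρW := ρW) hcomm hES hmul htr q hq hqW h₁ h₂ h₃) (ih L' hL' hlen')
    | [], _, hlen => simp at hlen
    | [_], _, hlen => simp at hlen; omega
    | [_, _], _, hlen => simp at hlen; omega

/-- **the nilpotency theorem**: every product of `3 m` elements of `ker ρ̄` kills every vector
killed by `Θ ((ker π̄) ^ m)`. -/
theorem h1c_nil (hcomm : ∀ (a : P) (g : G), Commute (Θ a) (ρW g))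
    (hES : ∀ g : G, ρW g + Θ (δ g) * ρW g⁻¹ = Θ (τ g))
    (hmul : ∀ g h : G, Θ (δ (g * h)) = Θ (δ g) * Θ (δ h))
    (htr : ∀ g : G, tr (ρb g) = πb (τ g))
    (q : ℕ) (hq : Odd q) (hqW : ∀ w : W, q • w = 0) (m : ℕ)
    (L : List (MonoidAlgebra ℤ G)) (hL : ∀ z ∈ L, h1cHat ρb z = 0) (hlen : L.length = 3 * m)
    (w : W) (hw : ∀ u ∈ RingHom.ker πb ^ m, Θ u w = 0) :
    h1cHat ρW L.prod w = 0 :=
  h1c_N_kills hcomm (h1c_list (ρW := ρW) hcomm hES hmul htr q hq hqW m L hL hlen) w hw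


/-! ## The chain -/

variable (ρW) (ρb)

/-- the `i`-th step of the chain: the vectors killed by all `x₁ ⋯ xᵢ y`, `xⱼ ∈ ker ρ̄`,
`y ∈ ℤ[G]`. -/
def h1cF (i : ℕ) : AddSubgroup W where
  carrier := {w | ∀ L : List (MonoidAlgebra ℤ G), (∀ z ∈ L, h1cHat ρb z = 0) → L.length = i →
    ∀ y : MonoidAlgebra ℤ G, h1cHat ρW (L.prod * y) w = 0}
  zero_mem' := fun _ _ _ _ => map_zero _
  add_mem' := by
    intro a b ha hb L hL hlen y
    rw [map_add, ha L hL hlen y, hb L hL hlen y, add_zero]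
  neg_mem' := by
    intro a ha L hL hlen y
    rw [map_neg, ha L hL hlen y, neg_zero]

variable {ρW} {ρb}

theorem h1c_mem_F {i : ℕ} {w : W} :
    w ∈ h1cF ρW ρb i ↔ ∀ L : List (MonoidAlgebra ℤ G), (∀ z ∈ L, h1cHat ρb z = 0) →
      L.length = i → ∀ y : MonoidAlgebra ℤ G, h1cHat ρW (L.prod * y) w = 0 := Iff.rfl

theorem h1cF_zero : h1cF ρW ρb 0 = ⊥ := by
  rw [eq_bot_iff]
  intro w hw
  have h := hw [] (fun _ h => absurd h List.not_mem_nil) rfl 1
  rw [List.prod_nil, mul_one, map_one] at h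
  exact h

theorem h1cF_mono (i : ℕ) : h1cF ρW ρb i ≤ h1cF ρW ρb (i + 1) := by
  intro w hw L hL hlen y
  match L, hL, hlen with
  | z :: L', hL, hlen =>
    have hlen' : L'.length = i := by simpa using hlen
    rw [List.prod_cons, mul_assoc, map_mul]
    show h1cHat ρW z (h1cHat ρW (L'.prod * y) w) = 0
    rw [hw L' (fun z hz => hL z (by simp [hz])) hlen' y, map_zero]
  | [], _, hlen => simp at hlen

/-- the chain is stable under `ℤ[G]`. -/
theorem h1cF_hat (i : ℕ) (x : MonoidAlgebra ℤ G) {w : W} (hw : w ∈ h1cF ρW ρb i) :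
    h1cHat ρW x w ∈ h1cF ρW ρb i := by
  intro L hL hlen y
  have h := hw L hL hlen (y * x)
  rw [← mul_assoc, map_mul] at h
  exact h

/-- the chain is stable under `G`. -/
theorem h1cF_gal (i : ℕ) (g : G) {w : W} (hw : w ∈ h1cF ρW ρb i) :
    ρW g w ∈ h1cF ρW ρb i := by
  have h := h1cF_hat (ρW := ρW) (ρb := ρb) i (of ℤ G g) hw
  rwa [h1cHat_of] at h

/-- the chain is stable under the Hecke elements. -/
theorem h1cF_theta (hcomm : ∀ (a : P) (g : G), Commute (Θ a) (ρW g)) (i : ℕ) (u : P) {w : W}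
    (hw : w ∈ h1cF ρW ρb i) : Θ u w ∈ h1cF ρW ρb i := by
  intro L hL hlen y
  have e : h1cHat ρW (L.prod * y) (Θ u w) = Θ u (h1cHat ρW (L.prod * y) w) :=
    congrArg (fun φ : AddMonoid.End W => φ w) (h1c_comm_hat hcomm u (L.prod * y)).eq.symm
  rw [e, hw L hL hlen y, map_zero]

/-- elements of `ker ρ̄` lower the chain. -/
theorem h1cF_step (i : ℕ) {z : MonoidAlgebra ℤ G} (hz : h1cHat ρb z = 0) {w : W}
    (hw : w ∈ h1cF ρW ρb (i + 1)) : h1cHat ρW z w ∈ h1cF ρW ρb i := by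
  intro L hL hlen y
  have hyz : h1cHat ρb (y * z) = 0 := by rw [map_mul, hz, mul_zero]
  have h := hw (L ++ [y * z]) (by
    intro x hx
    rcases List.mem_append.mp hx with h | h
    · exact hL x h
    · rw [List.mem_singleton.mp h]; exact hyz) (by simp [hlen]) 1
  rw [List.prod_append, List.prod_singleton, mul_one, ← mul_assoc, map_mul] at h
  exact h

/-- the chain reaches everything after `3 m` steps when `Θ ((ker π̄) ^ m) = 0`. -/
theorem h1cF_top {k : Type*} [CommRing k] {πb : P →+* k} {tr : Rb →+ k}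
    (hcomm : ∀ (a : P) (g : G), Commute (Θ a) (ρW g))
    (hES : ∀ g : G, ρW g + Θ (δ g) * ρW g⁻¹ = Θ (τ g))
    (hmul : ∀ g h : G, Θ (δ (g * h)) = Θ (δ g) * Θ (δ h))
    (htr : ∀ g : G, tr (ρb g) = πb (τ g))
    (q : ℕ) (hq : Odd q) (hqW : ∀ w : W, q • w = 0) (m : ℕ)
    (hm : ∀ u ∈ RingHom.ker πb ^ m, Θ u = 0) :
    h1cF ρW ρb (3 * m) = ⊤ := by
  rw [eq_top_iff]
  intro w _ L hL hlen y
  rw [map_mul]
  exact h1c_nil (ρW := ρW) hcomm hES hmul htr q hq hqW m L hL hlen _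
    (fun u hu => by rw [hm u hu]; rfl)

/-- **the ordinary-type chain** (abstract form): a chain of subgroups of `W`, stable under `G`
and the Hecke elements, from `0` to `W`, such that every integer combination of group elements
killed by `ρ̄` maps each step into the previous one. -/
theorem h1c_chain {k : Type*} [CommRing k] {πb : P →+* k} {tr : Rb →+ k}
    (hcomm : ∀ (a : P) (g : G), Commute (Θ a) (ρW g))
    (hES : ∀ g : G, ρW g + Θ (δ g) * ρW g⁻¹ = Θ (τ g))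
    (hmul : ∀ g h : G, Θ (δ (g * h)) = Θ (δ g) * Θ (δ h))
    (htr : ∀ g : G, tr (ρb g) = πb (τ g))
    (q : ℕ) (hq : Odd q) (hqW : ∀ w : W, q • w = 0) (m : ℕ)
    (hm : ∀ u ∈ RingHom.ker πb ^ m, Θ u = 0) :
    ∃ (n : ℕ) (F : ℕ → AddSubgroup W), F 0 = ⊥ ∧ F n = ⊤ ∧ (∀ i, F i ≤ F (i + 1)) ∧
      (∀ i, ∀ g : G, ∀ w ∈ F i, ρW g w ∈ F i) ∧
      (∀ i, ∀ u : P, ∀ w ∈ F i, Θ u w ∈ F i) ∧
      (∀ i, ∀ z : MonoidAlgebra ℤ G, h1cHat ρb z = 0 → ∀ w ∈ F (i + 1),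
        h1cHat ρW z w ∈ F i) :=
  ⟨3 * m, h1cF ρW ρb, h1cF_zero, h1cF_top hcomm hES hmul htr q hq hqW m hm, h1cF_mono,
    fun i g _ hw => h1cF_gal i g hw, fun i u _ hw => h1cF_theta hcomm i u hw,
    fun i _ hz _ hw => h1cF_step i hz hw⟩

/-! ## Elements `(a - e)(b - 1)` -/

/-- the element `(a - e)(b - 1)` of `ℤ[G]`. -/
def h1cStar (a b : G) (e : ℤ) : MonoidAlgebra ℤ G :=
  (of ℤ G a - e • (1 : MonoidAlgebra ℤ G)) * (of ℤ G b - 1)

theorem h1cHat_star {R : Type*} [Ring R] (ρ : G →* R) (a b : G) (e : ℤ) :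
    h1cHat ρ (h1cStar a b e) = (ρ a - e • (1 : R)) * (ρ b - 1) := by
  rw [h1cStar, map_mul, map_sub, map_sub, map_zsmul, map_one, h1cHat_of, h1cHat_of]

theorem h1cHat_star_apply (a b : G) (e : ℤ) (w : W) :
    h1cHat ρW (h1cStar a b e) w = ρW a (ρW b w - w) - e • (ρW b w - w) := by
  rw [h1cHat_star]
  rfl

end Ker

end Abstract

end Fermat.Agent.P6
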