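import Fermat.Agent.P6.H1ChainRes
import Fermat.Agent.P6.H36OldIface
import Fermat.Agent.P5.H30LatCheb

/-!
# Wave 6 (S33), block B4: the ordinary-type chain on the `𝔪`-part of `J₀(M)[p ^ k]`
(helper1, prefix `h1c_`)

`H` a Hecke–Galois datum of level `N` away from `S` with ordinary residual representation,
`M` any level with Chebotarev data `H1cChebAt` (for `M = N` this is the landed `h30x_cheb`; for
`M ∣ N` it is helper80's `h80m_cheb`).

* `h1c_nilp_of_finite` (Mathlib only) : on a finite module an ideal of pointwise nilpotent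
  Hecke elements acts nilpotently.
* `H1cChebAt p H M hcM k` : the Chebotarev data at level `M`: `τ, δ` with the Eichler–Shimura
  relation on `J₀(M)[p ^ k]`, `δ` multiplicative, `tr ρ(g) ≡ π τ(g)` modulo `𝔪_T`.
* `h1c_chain_mPart` : **the ordinary-type chain**: subgroups `F 0 = ⊥ ≤ F 1 ≤ … ≤ F n =
  h36oMPart M p H hcM k` of `J₀(M)[p ^ k]`, stable under `G_ℚ` and the Hecke operators, such that
  for every `P ∣ p`, `a, b` in the inertia group of `P` and every exponent `e` of `a` on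
  `μ_{p^k}`: `(a - e)(b - 1) F (i + 1) ⊆ F i`.  This is the hypothesis of `H97fGlobal` /
  `H97fLocal` (B3, helper97).
* `h1c_chain_sub` : the same chain on the `𝔪`-part as a type, for any action agreeing with the
  Galois action.
-/

set_option autoImplicit false
set_option linter.style.haveILetI false
set_option linter.unusedSectionVars false

open ModularCurve GaloisRep

noncomputable section

namespace Fermat.Agent.P6

open Fermat.Agent.P5
open Fermat.Agent.S29 (GQ)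
open Fermat.Agent.S31 (TI_evS tpjGal tpjHecke)

/-- on a finite module, an ideal of pointwise nilpotent Hecke elements acts nilpotently. -/
theorem h1c_nilp_of_finite {P : Type*} [CommRing P] {W : Type*} [AddCommGroup W] [Finite W]
    (Θ : P →+* AddMonoid.End W) (J : Ideal P)
    (hJ : ∀ u ∈ J, ∀ w : W, ∃ r : ℕ, (Θ u ^ r) w = 0) :
    ∃ m : ℕ, ∀ u ∈ J ^ m, Θ u = 0 := by
  classical
  haveI : Finite (AddMonoid.End W) :=
    Finite.of_injective (fun f : AddMonoid.End W => (f : W → W)) DFunLike.coe_injective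
  haveI : Finite (P ⧸ RingHom.ker Θ) :=
    Finite.of_injective _ (RingHom.kerLift_injective Θ)
  -- uniform nilpotency of each element
  have hunif : ∀ u ∈ J, ∃ r : ℕ, Θ u ^ r = 0 := by
    intro u hu
    choose r hr using hJ u hu
    haveI : Fintype W := Fintype.ofFinite W
    refine ⟨∑ w : W, r w, AddMonoidHom.ext fun w => ?_⟩
    have hle : r w ≤ ∑ w : W, r w :=
      Finset.single_le_sum (f := r) (fun _ _ => Nat.zero_le _) (Finset.mem_univ w)
    obtain ⟨j, hj⟩ := Nat.exists_eq_add_of_le hle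
    rw [hj, add_comm, pow_add]
    show (Θ u ^ j) ((Θ u ^ r w) w) = 0
    rw [hr w, map_zero]
  set I : Ideal (P ⧸ RingHom.ker Θ) := J.map (Ideal.Quotient.mk (RingHom.ker Θ)) with hI
  have hfg : I.FG := (isNoetherianRing_iff_ideal_fg _).mp inferInstance I
  have hle : I ≤ nilradical (P ⧸ RingHom.ker Θ) := by
    intro x hx
    obtain ⟨u, hu, rfl⟩ :=
      (Ideal.mem_map_iff_of_surjective _ Ideal.Quotient.mk_surjective).mp hx
    obtain ⟨r, hr⟩ := hunif u hu
    rw [mem_nilradical]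
    refine ⟨r, ?_⟩
    rw [← map_pow, Ideal.Quotient.eq_zero_iff_mem, RingHom.mem_ker, map_pow, hr]
  obtain ⟨m, hm⟩ := (Ideal.FG.isNilpotent_iff_le_nilradical hfg).mpr hle
  refine ⟨m, fun u hu => ?_⟩
  have h1 : Ideal.Quotient.mk (RingHom.ker Θ) u ∈ I ^ m := by
    rw [hI, ← Ideal.map_pow]
    exact Ideal.mem_map_of_mem _ hu
  rw [hm] at h1
  have h2 : Ideal.Quotient.mk (RingHom.ker Θ) u = 0 := by simpa using h1
  exact RingHom.mem_ker.mp (Ideal.Quotient.eq_zero_iff_mem.mp h2)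

variable {p : ℕ} {N : ℕ} [NeZero N] {S : Finset ℕ}
  {𝒪 : Type} [CommRing 𝒪] [IsDomain 𝒪] [IsDiscreteValuationRing 𝒪]
  [IsAdicComplete (IsLocalRing.maximalIdeal 𝒪) 𝒪]
  {θ : CuspForm.heckeAlgebra N 2 (↑S : Set ℕ) →+* IsLocalRing.ResidueField 𝒪}
  {T : Type} [CommRing T] [IsLocalRing T] [IsNoetherianRing T]
  [IsAdicComplete (IsLocalRing.maximalIdeal T) T] [Algebra 𝒪 T] [IsLocalHom (algebraMap 𝒪 T)]
  [Module.Finite 𝒪 T] [Module.Free 𝒪 T]

/-- **the Chebotarev data at level `M`** for a datum of level `N`: `τ, δ` with the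
Eichler–Shimura relation on `J₀(M)[p ^ k]`, `δ` multiplicative there, and
`tr ρ(g) ≡ π τ(g)` modulo `𝔪_T`. -/
def H1cChebAt (p : ℕ) (H : CuspForm.HeckeGaloisRepDatum N (↑S : Set ℕ) 𝒪 θ T)
    (M : ℕ) [NeZero M] (hcM : HeckeOperatorsCommuteBar M) (k : ℕ) : Prop :=
  ∃ τ δ : GQ → MvPolynomial Nat.Primes ℤ,
    (∀ g : GQ, h30xGal M p k g + h30xHecke M p k S hcM (δ g) * h30xGal M p k g⁻¹ =
      h30xHecke M p k S hcM (τ g)) ∧
    (∀ g h : GQ, h30xHecke M p k S hcM (δ (g * h)) =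
      h30xHecke M p k S hcM (δ g) * h30xHecke M p k S hcM (δ h)) ∧
    (∀ g : GQ, LinearMap.trace T H.ρ.V (H.ρ.ρ g) - H.π (TI_evS N S (τ g)) ∈
      IsLocalRing.maximalIdeal T)

/-- at the level of the datum the Chebotarev data is the landed `h30x_cheb`. -/
theorem h1c_chebAt_self (hp : p.Prime) (hp𝒪 : (p : 𝒪) ∈ IsLocalRing.maximalIdeal 𝒪)
    (hpS : p ∈ S) (hNS : ∀ q : ℕ, q.Prime → q ∣ N → q ∈ S)
    (H : CuspForm.HeckeGaloisRepDatum N (↑S : Set ℕ) 𝒪 θ T)
    (hc : HeckeOperatorsCommuteBar N) (k : ℕ) : H1cChebAt p H N hc k := by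
  obtain ⟨τ, δ, h1, h2, -, h4, -⟩ := h30x_cheb hp hp𝒪 hpS hNS H hc k 1
  refine ⟨τ, δ, h1, h2, fun g => ?_⟩
  have := h4 g
  rwa [pow_one] at this

set_option maxHeartbeats 4000000 in
/-- **the ordinary-type chain on the `𝔪`-part of `J₀(M)[p ^ k]`.** -/
theorem h1c_chain_mPart (hp : p.Prime) (hp2 : p ≠ 2)
    (hp𝒪 : (p : 𝒪) ∈ IsLocalRing.maximalIdeal 𝒪) (hpS : p ∈ S)
    (H : CuspForm.HeckeGaloisRepDatum N (↑S : Set ℕ) 𝒪 θ T)
    (hres : (GaloisRepAdic.ofResidualGaloisRep H.ρ.residual).IsOrdinaryAt p)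
    (M : ℕ) [NeZero M] (hcM : HeckeOperatorsCommuteBar M) (k : ℕ)
    (hcheb : H1cChebAt p H M hcM k) :
    ∃ (n : ℕ) (F : ℕ → AddSubgroup (h30xTors M p k)),
      F 0 = ⊥ ∧ F n = h36oMPart M p H hcM k ∧ (∀ i, F i ≤ F (i + 1)) ∧
      (∀ i, ∀ σ : GQ, ∀ w ∈ F i, h30xGal M p k σ w ∈ F i) ∧
      (∀ i, ∀ u : MvPolynomial Nat.Primes ℤ, ∀ w ∈ F i, h30xHecke M p k S hcM u w ∈ F i) ∧
      (∀ i, ∀ P : ValuationSubring (AlgebraicClosure ℚ), P.LiesOverPrime p →
        ∀ a ∈ P.inertiaSubgroupIn ℚ, ∀ b ∈ P.inertiaSubgroupIn ℚ, ∀ e : ℕ,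
          (∀ μ : AlgebraicClosure ℚ, μ ^ p ^ k = 1 → a μ = μ ^ e) →
          ∀ w ∈ F (i + 1),
            h30xGal M p k a (h30xGal M p k b w - w) - e • (h30xGal M p k b w - w) ∈ F i) := by
  classical
  obtain ⟨τ, δ, hES₀, hmul₀, htr₀⟩ := hcheb
  have hHG := Fermat.Agent.S30.geometricInputsFull.1 M
  haveI hfinW : Finite (h30xTors M p k) := h30x_finite_tors M p k hp
  -- notation
  let Θ₀ : MvPolynomial Nat.Primes ℤ →+* AddMonoid.End (h30xTors M p k) :=
    h30xHecke M p k S hcM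
  let ρ₀ : GQ →* AddMonoid.End (h30xTors M p k) := h30xGal M p k
  let MP : AddSubgroup (h30xTors M p k) := h36oMPart M p H hcM k
  have hcomm₀ : ∀ (a : MvPolynomial Nat.Primes ℤ) (g : GQ), Commute (Θ₀ a) (ρ₀ g) := by
    intro a g
    exact (Fermat.Agent.S31.tpj_commute M hHG (h30xKap S a) g).map (h30xResT M p k)
  have hΘΘ : ∀ a b : MvPolynomial Nat.Primes ℤ, Commute (Θ₀ a) (Θ₀ b) := by
    intro a b
    show Θ₀ a * Θ₀ b = Θ₀ b * Θ₀ a
    rw [← map_mul, ← map_mul, mul_comm]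
  -- the `𝔪`-part is stable
  have hstab : ∀ φ : AddMonoid.End (h30xTors M p k),
      (∀ a : MvPolynomial Nat.Primes ℤ, Commute (Θ₀ a) φ) → ∀ w ∈ MP, φ w ∈ MP := by
    intro φ hφ w hw u hu
    obtain ⟨r, hr⟩ := hw u hu
    refine ⟨r, ?_⟩
    have e : (Θ₀ u ^ r) (φ w) = φ ((Θ₀ u ^ r) w) :=
      congrArg (fun ψ : AddMonoid.End (h30xTors M p k) => ψ w) ((hφ u).pow_left r).eq
    exact e.trans (by rw [hr, map_zero])
  have hMPG : ∀ g : GQ, ∀ w ∈ MP, ρ₀ g w ∈ MP := fun g =>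
    hstab (ρ₀ g) (fun a => hcomm₀ a g)
  have hMPΘ : ∀ a : MvPolynomial Nat.Primes ℤ, ∀ w ∈ MP, Θ₀ a w ∈ MP := fun a =>
    hstab (Θ₀ a) (fun b => hΘΘ b a)
  let ρW : GQ →* AddMonoid.End MP := h30xResG MP ρ₀ hMPG
  let Θ : MvPolynomial Nat.Primes ℤ →+* AddMonoid.End MP := h30xResR MP Θ₀ hMPΘ
  have hcomm : ∀ (a : MvPolynomial Nat.Primes ℤ) (g : GQ), Commute (Θ a) (ρW g) := by
    intro a g
    show Θ a * ρW g = ρW g * Θ a
    refine AddMonoidHom.ext fun w => Subtype.ext ?_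
    exact congrArg (fun φ : AddMonoid.End (h30xTors M p k) => φ (w : h30xTors M p k))
      (hcomm₀ a g).eq
  have hES : ∀ g : GQ, ρW g + Θ (δ g) * ρW g⁻¹ = Θ (τ g) := by
    intro g
    refine AddMonoidHom.ext fun w => Subtype.ext ?_
    exact congrArg (fun φ : AddMonoid.End (h30xTors M p k) => φ (w : h30xTors M p k))
      (hES₀ g)
  have hmul : ∀ g h : GQ, Θ (δ (g * h)) = Θ (δ g) * Θ (δ h) := by
    intro g h
    refine AddMonoidHom.ext fun w => Subtype.ext ?_
    exact congrArg (fun φ : AddMonoid.End (h30xTors M p k) => φ (w : h30xTors M p k))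
      (hmul₀ g h)
  -- the residual data
  let πb : MvPolynomial Nat.Primes ℤ →+* IsLocalRing.ResidueField T :=
    (IsLocalRing.residue T).comp (H.π.comp
      (TI_evS N S : MvPolynomial Nat.Primes ℤ →+* CuspForm.heckeAlgebra N 2 (↑S : Set ℕ)))
  let tr : Module.End (IsLocalRing.ResidueField T) H.ρ.residual.V →+
      IsLocalRing.ResidueField T :=
    (LinearMap.trace (IsLocalRing.ResidueField T) H.ρ.residual.V).toAddMonoidHom
  have htr : ∀ g : GQ, tr (H.ρ.residual.ρ g) = πb (τ g) := by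
    intro g
    show LinearMap.trace (IsLocalRing.ResidueField T) H.ρ.residual.V (H.ρ.residual.ρ g) =
      IsLocalRing.residue T (H.π (TI_evS N S (τ g)))
    rw [h1c_trace_residual, ← sub_eq_zero, ← map_sub]
    exact (IsLocalRing.residue_eq_zero_iff _).mpr (htr₀ g)
  -- the odd exponent
  have hodd : Odd (p ^ k) := (hp.odd_of_ne_two hp2).pow
  have hqW : ∀ w : MP, (p ^ k) • w = 0 := by
    intro w
    apply Subtype.ext
    apply Subtype.ext
    have := h30x_nsmul_eq_zero M p k (w : h30xTors M p k)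
    simpa using this
  -- nilpotency
  obtain ⟨m, hm⟩ := h1c_nilp_of_finite Θ (RingHom.ker πb) (by
    intro u hu w
    have hu' : H.π (TI_evS N S u) ∈ IsLocalRing.maximalIdeal T :=
      (IsLocalRing.residue_eq_zero_iff _).mp (RingHom.mem_ker.mp hu)
    obtain ⟨r, hr⟩ := w.2 u hu'
    refine ⟨r, Subtype.ext ?_⟩
    have e : (((Θ u ^ r) w : MP) : h30xTors M p k) = (Θ₀ u ^ r) (w : h30xTors M p k) := by
      rw [← map_pow, ← map_pow]
      rfl
    rw [e, hr]
    rfl)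
  -- the abstract chain
  obtain ⟨n, F', hF0, hFn, hFmono, hFG, hFΘ, hFstep⟩ :=
    h1c_chain (ρW := ρW) (Θ := Θ) (τ := τ) (δ := δ) (ρb := H.ρ.residual.ρ) (πb := πb)
      (tr := tr) hcomm hES hmul htr (p ^ k) hodd hqW m hm
  refine ⟨n, fun i => (F' i).map MP.subtype, ?_, ?_, ?_, ?_, ?_, ?_⟩
  · show (F' 0).map MP.subtype = ⊥
    rw [hF0, AddSubgroup.map_bot]
  · show (F' n).map MP.subtype = MP
    rw [hFn, ← AddMonoidHom.range_eq_map, AddSubgroup.range_subtype]
  · intro i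
    exact AddSubgroup.map_mono (hFmono i)
  · intro i σ w hw
    obtain ⟨w', hw', rfl⟩ := AddSubgroup.mem_map.mp hw
    exact AddSubgroup.mem_map.mpr ⟨ρW σ w', hFG i σ w' hw', rfl⟩
  · intro i u w hw
    obtain ⟨w', hw', rfl⟩ := AddSubgroup.mem_map.mp hw
    exact AddSubgroup.mem_map.mpr ⟨Θ u w', hFΘ i u w' hw', rfl⟩
  · intro i P hP a ha b hb e he w hw
    obtain ⟨w', hw', rfl⟩ := AddSubgroup.mem_map.mp hw
    rcases Nat.eq_zero_or_pos k with hk | hk
    · -- `k = 0`: the torsion is trivial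
      have hz : ∀ x : h30xTors M p k, x = 0 := by
        intro x
        apply Subtype.ext
        have := h30x_nsmul_eq_zero M p k x
        have hpk : p ^ k = 1 := by rw [hk, pow_zero]
        rw [hpk, one_smul] at this
        exact this
      rw [hz (h30xGal M p k a (h30xGal M p k b (MP.subtype w') - MP.subtype w') -
        e • (h30xGal M p k b (MP.subtype w') - MP.subtype w'))]
      exact AddSubgroup.zero_mem _
    · have hz := h1c_residual_star hp hp𝒪 hpS H hres P hP ha hb k hk e he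
      have h1 := hFstep i _ hz w' hw'
      rw [h1cHat_star_apply] at h1
      refine AddSubgroup.mem_map.mpr ⟨_, h1, ?_⟩
      show ((ρW a (ρW b w' - w') - (e : ℤ) • (ρW b w' - w') : MP) : h30xTors M p k) = _
      rw [natCast_zsmul]
      rfl

end Fermat.Agent.P6
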