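import Fermat.Agent.P6.H23DetUnit
import Fermat.Prelude.Def_GaloisRep_LocalConditions

/-!
# Wave 6 (S33), block B1 (algebra): the determinant of a Hecke–Galois datum is cyclotomic
(helper23)

* `h23u_mem_of_forall_sup` : in a noetherian local ring an element lying in `J + m ^ i` for all
  `i` lies in `J` (Krull intersection on `T ⧸ J`);
* `h23u_detIsCyclotomic` : for a Hecke–Galois datum `H` (`p ∈ S`, `p ∈ m_𝒪`):
  `H.ρ.DetIsCyclotomic p` (the Prelude predicate, with congruences modulo `p ^ n`).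

Proof: for `m ≥ n` let `b` be the exponent of `σ` on a primitive `p ^ m`-th root of unity;
`det ρ(σ) ≡ b` modulo `m_T ^ m` (`h23u_det_congr`) and `b ≡ a` modulo `p ^ n`; so
`det ρ(σ) - a ∈ (p ^ n) + m_T ^ m` for all `m`.
-/

set_option autoImplicit false
set_option linter.style.haveILetI false
set_option linter.unusedSectionVars false

noncomputable section

namespace Fermat.Agent.P6

open Fermat.Agent.S29 (GQ)

/-- Krull intersection modulo an ideal. -/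
theorem h23u_mem_of_forall_sup {T : Type*} [CommRing T] [IsLocalRing T] [IsNoetherianRing T]
    (J : Ideal T) (x : T)
    (h : ∀ i : ℕ, ∃ y ∈ IsLocalRing.maximalIdeal T ^ i, x - y ∈ J) : x ∈ J := by
  have hK : (⨅ i : ℕ, (IsLocalRing.maximalIdeal T) ^ i • (⊤ : Submodule T (T ⧸ J))) = ⊥ :=
    Ideal.iInf_pow_smul_eq_bot_of_isLocalRing _ (IsLocalRing.maximalIdeal.isMaximal T).ne_top
  have hx : (Ideal.Quotient.mk J x : T ⧸ J) ∈
      (⨅ i : ℕ, (IsLocalRing.maximalIdeal T) ^ i • (⊤ : Submodule T (T ⧸ J))) := by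
    rw [Submodule.mem_iInf]
    intro i
    obtain ⟨y, hy, hxy⟩ := h i
    have e : (Ideal.Quotient.mk J x : T ⧸ J) = y • (Ideal.Quotient.mk J 1 : T ⧸ J) := by
      rw [Algebra.smul_def, map_one, mul_one]
      exact (Ideal.Quotient.eq.mpr hxy)
    rw [e]
    exact Submodule.smul_mem_smul hy Submodule.mem_top
  rw [hK, Submodule.mem_bot] at hx
  exact Ideal.Quotient.eq_zero_iff_mem.mp hx

variable {p : ℕ} {N : ℕ} [NeZero N] {S : Finset ℕ}
  {𝒪 : Type} [CommRing 𝒪] [IsDomain 𝒪] [IsDiscreteValuationRing 𝒪]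
  [IsAdicComplete (IsLocalRing.maximalIdeal 𝒪) 𝒪]
  {θ : CuspForm.heckeAlgebra N 2 (↑S : Set ℕ) →+* IsLocalRing.ResidueField 𝒪}
  {T : Type} [CommRing T] [IsLocalRing T] [IsNoetherianRing T]
  [IsAdicComplete (IsLocalRing.maximalIdeal T) T] [Algebra 𝒪 T] [IsLocalHom (algebraMap 𝒪 T)]
  [Module.Finite 𝒪 T] [Module.Free 𝒪 T]

/-- **The determinant of a Hecke–Galois datum is the cyclotomic character** (the Prelude
predicate `GaloisRepAdic.DetIsCyclotomic`). -/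
theorem h23u_detIsCyclotomic (hp : p.Prime) (hp𝒪 : (p : 𝒪) ∈ IsLocalRing.maximalIdeal 𝒪)
    (hpS : p ∈ S) (H : CuspForm.HeckeGaloisRepDatum N (↑S : Set ℕ) 𝒪 θ T) :
    H.ρ.DetIsCyclotomic p := by
  refine ⟨h23u_p_mem hp𝒪, fun n σ a hσ => ?_⟩
  haveI : Fact p.Prime := ⟨hp⟩
  apply h23u_mem_of_forall_sup
  intro i
  -- a primitive `p ^ (n + i)`-th root of unity
  haveI := Fermat.Agent.S30.CycCharAdic.hasEnoughRootsOfUnity_Qb p (n + i)
  obtain ⟨ζ, hζ⟩ :=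
    HasEnoughRootsOfUnity.exists_primitiveRoot (AlgebraicClosure ℚ) (p ^ (n + i))
  have hpos : 0 < p ^ (n + i) := pow_pos hp.pos _
  haveI : NeZero (p ^ (n + i)) := ⟨hpos.ne'⟩
  have hσζ : (σ ζ) ^ p ^ (n + i) = 1 := by rw [← map_pow, hζ.pow_eq_one, map_one]
  obtain ⟨b, -, hb⟩ := hζ.eq_pow_of_pow_eq_one hσζ
  -- `det ρ(σ) ≡ b` modulo `m_T ^ (n + i)`
  have h1 := h23u_det_congr hp hp𝒪 hpS H σ (n + i) b hζ hb.symm
  -- `b ≡ a` modulo `p ^ n`
  have hζn : IsPrimitiveRoot (ζ ^ p ^ i) (p ^ n) := by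
    refine hζ.pow hpos ?_
    rw [pow_add, mul_comm]
  have h2 : σ (ζ ^ p ^ i) = (ζ ^ p ^ i) ^ b := by
    rw [map_pow, ← hb, ← pow_mul, ← pow_mul, mul_comm]
  have h3 : σ (ζ ^ p ^ i) = (ζ ^ p ^ i) ^ a := hσ _ hζn.pow_eq_one
  have h4 : b ≡ a [MOD p ^ n] :=
    Fermat.Agent.S29.CycChar.modEq_of_pow_eq hζn (pow_pos hp.pos n) (h2.symm.trans h3)
  have h5 : ((a : ℕ) : T) - (b : T) ∈ Ideal.span {((p ^ n : ℕ) : T)} := by
    have h6 : ((p ^ n : ℕ) : ℤ) ∣ ((a : ℕ) : ℤ) - ((b : ℕ) : ℤ) := Nat.modEq_iff_dvd.mp h4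
    obtain ⟨c, hc⟩ := h6
    rw [Ideal.mem_span_singleton]
    refine ⟨(c : T), ?_⟩
    have := congrArg (Int.cast : ℤ → T) hc
    push_cast at this
    push_cast
    exact this
  refine ⟨LinearMap.det (H.ρ.ρ σ) - (b : T),
    Ideal.pow_le_pow_right (Nat.le_add_left i n) h1, ?_⟩
  have e : LinearMap.det (H.ρ.ρ σ) - (a : T) - (LinearMap.det (H.ρ.ρ σ) - (b : T)) =
      -(((a : ℕ) : T) - (b : T)) := by ring
  rw [e]
  exact neg_mem h5

end Fermat.Agent.P6
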