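import Fermat.Agent.P6.H1Chain
import Fermat.Agent.P6.H23DetCyc
import Fermat.Prelude.Def_GaloisRep_LocalConditions

/-!
# Wave 6 (S33), block B4: the elements `(a - e)(b - 1)` die in an ordinary residual
representation (helper1, prefix `h1c_`)

* `h1c_ord_star` : for a representation `ρ` over a local ring which is ordinary at `p` and
  `a, b` in an inertia group at `p`: `(ρ a - det ρ a)(ρ b - 1) = 0`.
* `h1c_residual_star` : for a Hecke–Galois datum with ordinary residual representation, `a, b`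
  in an inertia group at `p`, `a` acting on `μ_{p^k}` (`k ≥ 1`) by `e`-th powers:
  `h1cHat ρ̄ (h1cStar a b e) = 0`.
-/

set_option autoImplicit false
set_option linter.unusedSectionVars false

noncomputable section

namespace Fermat.Agent.P6

local notation "h1c_Qb" => AlgebraicClosure ℚ
local notation "h1c_GQ" => (AlgebraicClosure ℚ ≃ₐ[ℚ] AlgebraicClosure ℚ)

theorem h1c_inertia_le (P : ValuationSubring h1c_Qb) {s : h1c_GQ}
    (hs : s ∈ P.inertiaSubgroupIn ℚ) : s ∈ P.decompositionSubgroup ℚ := by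
  obtain ⟨s', -, rfl⟩ := Subgroup.mem_map.mp hs
  exact s'.2

section Ord

variable {A : Type} [CommRing A] [IsLocalRing A]

/-- in an ordinary representation, inertia acts on the line by the determinant. -/
theorem h1c_ord_line (ρ : GaloisRepAdic A) (P : ValuationSubring h1c_Qb)
    (L : Submodule A ρ.V) (bs : Module.Basis (Fin 2) A ρ.V) (hL : L = A ∙ bs 0)
    (hD : ∀ σ ∈ P.decompositionSubgroup ℚ, ∀ v ∈ L, ρ.ρ σ v ∈ L)
    (hI : ∀ σ ∈ P.inertiaSubgroupIn ℚ, ∀ v : ρ.V, ρ.ρ σ v - v ∈ L)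
    {a : h1c_GQ} (ha : a ∈ P.inertiaSubgroupIn ℚ) :
    ρ.ρ a (bs 0) = LinearMap.det (ρ.ρ a) • bs 0 := by
  have h0 : ρ.ρ a (bs 0) ∈ L :=
    hD a (h1c_inertia_le P ha) (bs 0) (by rw [hL]; exact Submodule.mem_span_singleton_self _)
  have h1 : ρ.ρ a (bs 1) - bs 1 ∈ L := hI a ha (bs 1)
  rw [hL] at h0 h1
  obtain ⟨l, hl⟩ := Submodule.mem_span_singleton.mp h0
  obtain ⟨m, hm⟩ := Submodule.mem_span_singleton.mp h1
  have hm' : ρ.ρ a (bs 1) = m • bs 0 + bs 1 := by rw [hm]; abel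
  have hdet : LinearMap.det (ρ.ρ a) = l := by
    rw [← LinearMap.det_toMatrix bs, Matrix.det_fin_two]
    simp only [LinearMap.toMatrix_apply, ← hl, hm', map_add, map_smul,
      Module.Basis.repr_self, Finsupp.smul_single, smul_eq_mul, mul_one, Finsupp.add_apply,
      Finsupp.single_apply]
    simp
  rw [hdet, hl]

/-- **ordinary `⟹` STAR** for the representation itself. -/
theorem h1c_ord_star (ρ : GaloisRepAdic A) {p : ℕ} (hord : ρ.IsOrdinaryAt p)
    (P : ValuationSubring h1c_Qb) (hP : P.LiesOverPrime p) {a b : h1c_GQ}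
    (ha : a ∈ P.inertiaSubgroupIn ℚ) (hb : b ∈ P.inertiaSubgroupIn ℚ) :
    (ρ.ρ a - LinearMap.det (ρ.ρ a) • (1 : Module.End A ρ.V)) * (ρ.ρ b - 1) = 0 := by
  obtain ⟨L, ⟨bs, hL⟩, hD, hI⟩ := hord P hP
  refine LinearMap.ext fun v => ?_
  have h1 : ρ.ρ b v - v ∈ L := hI b hb v
  rw [hL] at h1
  obtain ⟨c, hc⟩ := Submodule.mem_span_singleton.mp h1
  show (ρ.ρ a - LinearMap.det (ρ.ρ a) • (1 : Module.End A ρ.V)) ((ρ.ρ b - 1) v) = 0
  rw [LinearMap.sub_apply (ρ.ρ b), Module.End.one_apply, ← hc, map_smul, LinearMap.sub_apply,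
    LinearMap.smul_apply, Module.End.one_apply, h1c_ord_line ρ P L bs hL hD hI ha, sub_self,
    smul_zero]

end Ord

section Datum

variable {p : ℕ} {N : ℕ} [NeZero N] {S : Finset ℕ}
  {𝒪 : Type} [CommRing 𝒪] [IsDomain 𝒪] [IsDiscreteValuationRing 𝒪]
  [IsAdicComplete (IsLocalRing.maximalIdeal 𝒪) 𝒪]
  {θ : CuspForm.heckeAlgebra N 2 (↑S : Set ℕ) →+* IsLocalRing.ResidueField 𝒪}
  {T : Type} [CommRing T] [IsLocalRing T] [IsNoetherianRing T]
  [IsAdicComplete (IsLocalRing.maximalIdeal T) T] [Algebra 𝒪 T] [IsLocalHom (algebraMap 𝒪 T)]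
  [Module.Finite 𝒪 T] [Module.Free 𝒪 T]

/-- the determinant of the residual representation is the residue of the determinant. -/
theorem h1c_det_residual (ρ : GaloisRepAdic T) (σ : h1c_GQ) :
    LinearMap.det (ρ.residual.ρ σ) = IsLocalRing.residue T (LinearMap.det (ρ.ρ σ)) := by
  show LinearMap.det ((ρ.ρ σ).baseChange (IsLocalRing.ResidueField T)) = _
  rw [LinearMap.det_baseChange]
  rfl

/-- the trace of the residual representation is the residue of the trace. -/
theorem h1c_trace_residual (ρ : GaloisRepAdic T) (σ : h1c_GQ) :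
    LinearMap.trace (IsLocalRing.ResidueField T) ρ.residual.V (ρ.residual.ρ σ) =
      IsLocalRing.residue T (LinearMap.trace T ρ.V (ρ.ρ σ)) := by
  show LinearMap.trace (IsLocalRing.ResidueField T) _
    ((ρ.ρ σ).baseChange (IsLocalRing.ResidueField T)) = _
  rw [LinearMap.trace_baseChange]
  rfl

/-- **the elements `(a - e)(b - 1)` die in the ordinary residual representation.** -/
theorem h1c_residual_star (hp : p.Prime) (hp𝒪 : (p : 𝒪) ∈ IsLocalRing.maximalIdeal 𝒪)
    (hpS : p ∈ S) (H : CuspForm.HeckeGaloisRepDatum N (↑S : Set ℕ) 𝒪 θ T)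
    (hres : (GaloisRepAdic.ofResidualGaloisRep H.ρ.residual).IsOrdinaryAt p)
    (P : ValuationSubring h1c_Qb) (hP : P.LiesOverPrime p) {a b : h1c_GQ}
    (ha : a ∈ P.inertiaSubgroupIn ℚ) (hb : b ∈ P.inertiaSubgroupIn ℚ)
    (k : ℕ) (hk : 1 ≤ k) (e : ℕ) (he : ∀ μ : h1c_Qb, μ ^ p ^ k = 1 → a μ = μ ^ e) :
    h1cHat H.ρ.residual.ρ (h1cStar a b (e : ℤ)) = 0 := by
  rw [h1cHat_star]
  have h1 := h1c_ord_star (GaloisRepAdic.ofResidualGaloisRep H.ρ.residual) hres P hP ha hb
  have hdet := h23u_detIsCyclotomic hp hp𝒪 hpS H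
  have h2 := hdet.2 k a e he
  have h3 : LinearMap.det (H.ρ.ρ a) - (e : T) ∈ IsLocalRing.maximalIdeal T := by
    obtain ⟨c, hc⟩ := Ideal.mem_span_singleton'.mp h2
    rw [← hc]
    refine Ideal.mul_mem_left _ _ ?_
    obtain ⟨j, rfl⟩ : ∃ j, k = j + 1 := ⟨k - 1, by omega⟩
    rw [Nat.cast_pow, pow_succ]
    exact Ideal.mul_mem_left _ _ hdet.1
  have h4 : LinearMap.det (H.ρ.residual.ρ a) = ((e : ℕ) : IsLocalRing.ResidueField T) := by
    rw [h1c_det_residual, ← map_natCast (IsLocalRing.residue T), ← sub_eq_zero, ← map_sub]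
    exact (IsLocalRing.residue_eq_zero_iff _).mpr h3
  have h5 : ((e : ℤ) • (1 : Module.End (IsLocalRing.ResidueField T) H.ρ.residual.V)) =
      LinearMap.det (H.ρ.residual.ρ a) •
        (1 : Module.End (IsLocalRing.ResidueField T) H.ρ.residual.V) := by
    rw [h4, natCast_zsmul, Nat.cast_smul_eq_nsmul]
  rw [h5]
  exact h1

end Datum

end Fermat.Agent.P6
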