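import Fermat.Agent.S56F.IfaceRank1

/-!
# Wave 6 (S33), block B3 FLAT-ORD, devissage (helper97): frozen interface

Local language of the landed pillar S56F: `Om p = PadicAlgCl p`, `Gq p = Gal(Om p / ℚ_p)`,
`inertia p ≤ Gq p`, `FHO p (inertia p) X act` a function Hopf order over the integers of `ℚ_p^ur`
on the finite `Gq p`-module `X`; `𝓗.PtLE x t` : `‖f x - f 0‖ ≤ t` for all `f` of the order
(`x ≡ 0` modulo `{‖·‖ ≤ t}`).  The connected part is `X⁰ = {x | ∃ t < 1, 𝓗.PtLE x t}`.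

* `h97fCyc p k σ e` : `σ` acts on `μ_{p^k}` by `e`-th powers.
* `H97fET` (**ET**, leaf): `p` odd; if inertia acts unipotently on `X` (chain with trivial graded
  pieces) then `X⁰ = 0`.
* `H97fMult` (**MULT** = DUAL + ET on the Cartier dual, leaf): `p` odd; if inertia acts by the
  cyclotomic character on the graded pieces of a chain of `X`, then it acts by the cyclotomic
  character on `X`.
* `H97fLocal` (**DEV**, proved in `P6/H97Dev.lean` from ET and MULT): `p` odd, `W` with an order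
  stable under conjugation and a `Gq p`-stable chain of ordinary type
  (`(a - e)(b - 1) F (i+1) ⊆ F i` for `a, b` in inertia) satisfies `(a - e)(b - 1) W = 0`.
-/

set_option autoImplicit false

open Fermat.Agent.PT.Loc Fermat.Agent.S56F

noncomputable section

namespace Fermat.Agent.P6

/-- `σ` acts on `μ_{p^k}` by `e`-th powers. -/
def h97fCyc (p : ℕ) [Fact p.Prime] (k : ℕ) (σ : Gq p) (e : ℕ) : Prop :=
  ∀ μ : Om p, μ ^ p ^ k = 1 → σ μ = μ ^ e

/-- **ET.**  Unipotent inertia action on a module with an order: the connected part is zero. -/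
def H97fET : Prop :=
  ∀ (p : ℕ) [Fact p.Prime], p ≠ 2 → ∀ (k : ℕ) (X : Type) [AddCommGroup X] [Finite X]
    (act : Gq p → X → X), IsAct act → (∀ x : X, p ^ k • x = 0) →
    ∀ 𝓗 : FHO p (inertia p) X act,
    (∃ (n : ℕ) (F : ℕ → AddSubgroup X), F 0 = ⊥ ∧ F n = ⊤ ∧ (∀ i, F i ≤ F (i + 1)) ∧
      ∀ i, ∀ σ ∈ inertia p, ∀ x ∈ F (i + 1), act σ x - x ∈ F i) →
    ∀ x : X, (∃ t : ℝ, t < 1 ∧ 𝓗.PtLE x t) → x = 0

/-- **MULT.**  Inertia acting by the cyclotomic character on the graded pieces of a module with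
an order acts by the cyclotomic character. -/
def H97fMult : Prop :=
  ∀ (p : ℕ) [Fact p.Prime], p ≠ 2 → ∀ (k : ℕ) (X : Type) [AddCommGroup X] [Finite X]
    (act : Gq p → X → X), IsAct act → (∀ x : X, p ^ k • x = 0) →
    ∀ 𝓗 : FHO p (inertia p) X act,
    (∃ (n : ℕ) (F : ℕ → AddSubgroup X), F 0 = ⊥ ∧ F n = ⊤ ∧ (∀ i, F i ≤ F (i + 1)) ∧
      ∀ i, ∀ σ ∈ inertia p, ∀ e : ℕ, h97fCyc p k σ e → ∀ x ∈ F (i + 1),
        act σ x - e • x ∈ F i) →
    ∀ σ ∈ inertia p, ∀ e : ℕ, h97fCyc p k σ e → ∀ x : X, act σ x = e • x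

/-- **DEV** (local FLAT-ORD): a module of ordinary type with an order satisfies the monodromy
identity `(a - e)(b - 1) = 0`. -/
def H97fLocal : Prop :=
  ∀ (p : ℕ) [Fact p.Prime], p ≠ 2 → ∀ (k : ℕ) (W : Type) [AddCommGroup W] [Finite W]
    (act : Gq p → W → W), IsAct act → (∀ x : W, p ^ k • x = 0) →
    ∀ 𝓗 : FHO p (inertia p) W act, (∀ τ : Gq p, 𝓗.ConjStable τ) →
    ∀ (n : ℕ) (F : ℕ → AddSubgroup W), F 0 = ⊥ → F n = ⊤ → (∀ i, F i ≤ F (i + 1)) →
      (∀ i, ∀ τ : Gq p, ∀ x ∈ F i, act τ x ∈ F i) →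
      (∀ i, ∀ a ∈ inertia p, ∀ b ∈ inertia p, ∀ e : ℕ, h97fCyc p k a e → ∀ x ∈ F (i + 1),
        act a (act b x - x) - e • (act b x - x) ∈ F i) →
    ∀ a ∈ inertia p, ∀ b ∈ inertia p, ∀ e : ℕ, h97fCyc p k a e → ∀ w : W,
      act a (act b w - w) = e • (act b w - w)

end Fermat.Agent.P6
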