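import Fermat.Agent.S56F.FLO5_helper4
import Fermat.Agent.S56F.FLC5Final_helper89
import Fermat.Agent.S56F.FLC0_helper34
import Fermat.Agent.S56F.FLB123_helper38
import Fermat.Agent.S56F.FLB56_helper87
import Fermat.Agent.S56F.FLB7_helper87
import Fermat.Agent.S56F.FLA3_helper15
import Fermat.Agent.S56F.FLO8Kum_helper34
import Fermat.Agent.P6.H97DevIface

/-!
# S33 / wave 6, leaf B3-ET (helper24, prefix `h24e_`): the étale criterion

Local language of S56F (`FHO p Γ M act`, `Om p`, `Gq p`, `inertia p`).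

For a function Hopf order `𝓗` over the inertia group on a finite module `M` (`p` odd), let
`M⁰ = {y | ∃ t < 1, 𝓗.PtLE y t}` be the points `≡ 0` modulo the maximal ideal (the points of the
connected component).

* `h24e_conn_ptorsion`   : a point of `M⁰` killed by an integer prime to `p` is `0`
                           (any `Γ`; character completeness).
* `h24e_unit_of_fixed`   : a non-zero inertia-fixed point `y` with `p • y = 0` has a function
                           `f ∈ 𝓗` with `f 0 = 0`, `‖f y‖ = 1` (rank one, `m = 0`).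
* `h24e_fixed_conn_zero` : an inertia-fixed point of `M⁰` is `0`.
* `h24e_unip_conn_zero`  : if inertia acts unipotently on `M` then `M⁰ = 0`;
* `h24e_unip_trivial`    : ... and inertia acts trivially on `M`.
* `h24e_et : H97fET`     : the frozen leaf ET of `P6/H97DevIface.lean` (helper97).
-/

set_option autoImplicit false
set_option linter.unusedSectionVars false
set_option linter.style.haveILetI false

open Fermat.Agent.PT.Loc Fermat.Agent.S56F

noncomputable section

namespace Fermat.Agent.P6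

section General

variable {p : ℕ} [Fact p.Prime] {Γ : Subgroup (Gq p)} {M : Type} [AddCommGroup M]
  {act : Gq p → M → M}

/-- The points `≡ 0` modulo the maximal ideal. -/
def h24eConn (𝓗 : FHO p Γ M act) (y : M) : Prop := ∃ t : ℝ, t < 1 ∧ 𝓗.PtLE y t

/-- `Γ` acts unipotently: a finite filtration with trivial action on the graded pieces. -/
def h24eUnip (Γ : Subgroup (Gq p)) (act : Gq p → M → M) : Prop :=
  ∃ (n : ℕ) (F : ℕ → AddSubgroup M), F 0 = ⊥ ∧ F n = ⊤ ∧
    ∀ i, ∀ σ ∈ Γ, ∀ x ∈ F (i + 1), act σ x - x ∈ F i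

theorem h24e_act_nsmul (hact : IsAct act) (σ : Gq p) (n : ℕ) (y : M) :
    act σ (n • y) = n • act σ y := by
  induction n with
  | zero => rw [zero_nsmul, zero_nsmul]; exact h87f_act_zero hact σ
  | succ n ih => rw [succ_nsmul, succ_nsmul, hact.add, ih]

/-- An order is stable under `x ↦ (n + 1) • x`. -/
theorem h24e_nsmul_mem (𝓗 : FHO p Γ M act) (n : ℕ) :
    ∀ f ∈ 𝓗.carrier, (fun x => f ((n + 1) • x)) ∈ 𝓗.carrier := by
  induction n with
  | zero =>
    intro f hf
    have e : (fun x => f ((0 + 1) • x)) = f := by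
      funext x
      rw [zero_add, one_nsmul]
    rw [e]
    exact hf
  | succ n ih =>
    intro f hf
    obtain ⟨m, a, b, ha, hb, hab⟩ := 𝓗.comul f hf
    have e : (fun x => f ((n + 1 + 1) • x))
        = ∑ i, (fun x => a i ((n + 1) • x)) * b i := by
      funext x
      rw [succ_nsmul x (n + 1), hab, Finset.sum_apply]
      rfl
    rw [e]
    exact Subalgebra.sum_mem _ (fun i _ => Subalgebra.mul_mem _ (ih _ (ha i)) (hb i))

theorem h24e_ptLE_nsmul (𝓗 : FHO p Γ M act) {y : M} {t : ℝ} (hy : 𝓗.PtLE y t) (n : ℕ) :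
    𝓗.PtLE ((n + 1) • y) t := by
  induction n with
  | zero => rw [zero_add, one_nsmul]; exact hy
  | succ n ih =>
    rw [succ_nsmul]
    exact (h38f_ptSubgroup p Γ M act 𝓗 t).2.1 _ _ ih hy

/-- The bound passes to the `intOm`-span. -/
theorem h24e_span_bound (𝓗 : FHO p Γ M act) {y : M} {t : ℝ} (hy : 𝓗.PtLE y t)
    (ξ : M → Om p) (hξ : ξ ∈ Submodule.span (intOm p) (𝓗.carrier : Set (M → Om p))) :
    ‖ξ y - ξ 0‖ ≤ t := by
  have ht0 : 0 ≤ t := (norm_nonneg _).trans (hy 1 (Subalgebra.one_mem _))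
  induction hξ using Submodule.span_induction with
  | mem s hs => exact hy s hs
  | zero => simpa using ht0
  | add f g _ _ hf hg =>
    have e : (f + g) y - (f + g) 0 = (f y - f 0) + (g y - g 0) := by
      rw [Pi.add_apply, Pi.add_apply]
      ring
    rw [e]
    exact (IsUltrametricDist.norm_add_le_max _ _).trans (max_le hf hg)
  | smul c f _ hf =>
    have e : (c • f) y - (c • f) 0 = (c : Om p) * (f y - f 0) := by
      rw [Pi.smul_apply, Pi.smul_apply, Subring.smul_def, Subring.smul_def, smul_eq_mul,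
        smul_eq_mul]
      ring
    rw [e, norm_mul]
    calc ‖(c : Om p)‖ * ‖f y - f 0‖ ≤ 1 * t :=
          mul_le_mul c.2.1 hf (norm_nonneg _) zero_le_one
      _ = t := one_mul _

/-- Characters of a finite abelian group with values in `Om p` separate the points. -/
theorem h24e_exists_char [Finite M] {y : M} (hy : y ≠ 0) :
    ∃ ξ : M → Om p, ξ 0 = 1 ∧ (∀ x x', ξ (x + x') = ξ x * ξ x') ∧ ξ y ≠ 1 := by
  classical
  have hexp : Monoid.exponent (Multiplicative M) ≠ 0 := Monoid.exponent_ne_zero_of_finite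
  haveI : NeZero ((Monoid.exponent (Multiplicative M) : ℕ) : Om p) :=
    ⟨by exact_mod_cast hexp⟩
  have hy' : Multiplicative.ofAdd y ≠ 1 := fun h => hy (by simpa using h)
  obtain ⟨φ, hφ⟩ := CommGroup.exists_apply_ne_one_of_hasEnoughRootsOfUnity
    (Multiplicative M) (Om p) hy'
  refine ⟨fun x => ((φ (Multiplicative.ofAdd x) : (Om p)ˣ) : Om p), ?_, ?_, ?_⟩
  · show ((φ (Multiplicative.ofAdd 0) : (Om p)ˣ) : Om p) = 1
    rw [ofAdd_zero, map_one, Units.val_one]
  · intro x x'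
    show ((φ (Multiplicative.ofAdd (x + x')) : (Om p)ˣ) : Om p) = _
    rw [ofAdd_add, map_mul, Units.val_mul]
  · intro h
    exact hφ (Units.ext h)

/-- **The connected part is a `p`-group**: a point `≡ 0 mod 𝔪` killed by an integer prime to
`p` is zero. -/
theorem h24e_conn_ptorsion [Finite M] (𝓗 : FHO p Γ M act) {y : M} (hy : h24eConn 𝓗 y)
    {n : ℕ} (hn : ¬ p ∣ n) (hny : n • y = 0) : y = 0 := by
  by_contra hy0
  obtain ⟨t, ht1, hyt⟩ := hy
  obtain ⟨ξ, hξ0, hξmul, hξy⟩ := h24e_exists_char (p := p) hy0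
  have hξn : ∀ k : ℕ, ξ (k • y) = ξ y ^ k := by
    intro k
    induction k with
    | zero => rw [zero_nsmul, pow_zero, hξ0]
    | succ k ih => rw [succ_nsmul, hξmul, ih, pow_succ]
  have h1 : ξ y ^ n = 1 := by rw [← hξn, hny, hξ0]
  have h2 := h24e_span_bound 𝓗 hyt ξ (h15f_charCompleteAll p Γ M act 𝓗 ξ hξ0 hξmul)
  rw [hξ0] at h2
  exact hξy (h34k_root_eq_one hn h1 (lt_of_le_of_lt h2 ht1))

end General

section Inertia

variable {p : ℕ} [Fact p.Prime] {M : Type} [AddCommGroup M] {act : Gq p → M → M}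

/-- **Rank one with trivial character**: a non-zero inertia-fixed point of order `p` is
separated from `0` modulo the maximal ideal by a function of the order. -/
theorem h24e_unit_of_fixed (hp2 : p ≠ 2) [Finite M] (hact : IsAct act)
    (𝓗 : FHO p (inertia p) M act) {y : M} (hy0 : y ≠ 0) (hpy : p • y = 0)
    (hfix : ∀ σ ∈ inertia p, act σ y = y) :
    ∃ f ∈ 𝓗.carrier, f 0 = 0 ∧ ‖f y‖ = 1 := by
  classical
  have hp : p.Prime := Fact.out
  have hp3 : 3 ≤ p := by
    have := hp.two_le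
    omega
  haveI : Fact (1 < p) := ⟨hp.one_lt⟩
  -- the line
  have hord : addOrderOf y = p := addOrderOf_eq_prime hpy hy0
  let j : ZMod p →+ M := ZMod.lift p ⟨zmultiplesHom M y, by
    show ((p : ℕ) : ℤ) • y = 0
    rw [natCast_zsmul]
    exact hpy⟩
  have hj : ∀ c : ZMod p, j c = c.val • y := by
    intro c
    have h1 : j (((c.val : ℕ) : ℤ) : ZMod p) = ((c.val : ℕ) : ℤ) • y :=
      ZMod.lift_coe p _ _
    rw [natCast_zsmul] at h1
    rw [← h1]
    congr 1
    rw [Int.cast_natCast, ZMod.natCast_zmod_val]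
  have hjinj : Function.Injective j := by
    rw [injective_iff_map_eq_zero]
    intro c hc
    rw [hj] at hc
    have h1 : addOrderOf y ∣ c.val := addOrderOf_dvd_of_nsmul_eq_zero hc
    rw [hord] at h1
    have h2 : c.val = 0 := Nat.eq_zero_of_dvd_of_lt h1 (ZMod.val_lt c)
    exact (ZMod.val_eq_zero c).mp h2
  obtain ⟨𝓗L, h𝓗L, -⟩ := h87f_subOrder p (inertia p) M act 𝓗 (ZMod p)
    (fun _ c => c) j hjinj
    (fun σ hσ c => by
      show j c = act σ (j c)
      rw [hj, h24e_act_nsmul hact, hfix σ hσ])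
  have hstabL : ∀ a : (ZMod p)ˣ, 𝓗L.StableUnder (fun x => a • x) := by
    intro a g hg
    obtain ⟨f, hf, rfl⟩ := (h𝓗L g).mp hg
    rw [h𝓗L]
    have hapos : 0 < (a : ZMod p).val := by
      rcases Nat.eq_zero_or_pos (a : ZMod p).val with h | h
      · exact absurd ((ZMod.val_eq_zero _).mp h) a.ne_zero
      · exact h
    obtain ⟨n, hn⟩ : ∃ n, (a : ZMod p).val = n + 1 := ⟨(a : ZMod p).val - 1, by omega⟩
    refine ⟨fun x => f ((n + 1) • x), h24e_nsmul_mem 𝓗 n f hf, ?_⟩
    funext c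
    show f (j (a • c)) = f ((n + 1) • j c)
    congr 1
    rw [← map_nsmul, ← hn, Units.smul_def, smul_eq_mul, nsmul_eq_mul, ZMod.natCast_zmod_val]
  obtain ⟨τ, hτ⟩ := h34t_teichExists p (ZMod p)
  have hn : 0 < p ^ 1 - 1 := by
    rw [pow_one]
    omega
  have hpn : ¬ p ∣ p ^ 1 - 1 := by
    rw [pow_one]
    intro h
    have := Nat.le_of_dvd (by omega) h
    omega
  obtain ⟨π, hπ⟩ := IsAlgClosed.exists_pow_nat_eq ((p : ℕ) : Om p) hn
  have hp0 : ((p : ℕ) : Om p) ≠ 0 := by exact_mod_cast hp.ne_zero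
  have hπ0 : π ≠ 0 := by
    intro h
    rw [h, zero_pow hn.ne'] at hπ
    exact hp0 hπ.symm
  obtain ⟨m, ⟨S, hS⟩, hχm, hX⟩ := h4o_rankOne p hp2 (ZMod p) 1
    (by rw [ZMod.card, pow_one]) (ZMod p) (Module.finrank_self _) (fun _ c => c)
    (fun _ => 1) (fun σ _ x => (one_smul _ x).symm) 𝓗L hstabL
    (h15f_charCompleteAll p (inertia p) (ZMod p) _ 𝓗L) τ hτ π hπ
  -- `m = 0`
  have hm : m = 0 := by
    have hm1 : m ≤ 1 := by
      rw [hS]
      calc ∑ i ∈ S, p ^ (i : ℕ) ≤ ∑ i : Fin 1, p ^ (i : ℕ) :=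
            Finset.sum_le_sum_of_subset (Finset.subset_univ S)
        _ = 1 := by simp
    haveI : NeZero (((p ^ 1 - 1 : ℕ) : ℕ) : Om p) := ⟨by exact_mod_cast hn.ne'⟩
    obtain ⟨ζ, hζ⟩ := HasEnoughRootsOfUnity.exists_primitiveRoot (Om p) (p ^ 1 - 1)
    obtain ⟨σ, hσ, hσπ⟩ := h89f_fundSurjective p _ hn hpn π hπ ζ hζ.pow_eq_one
    have hψ : σ π / π = ζ := by rw [hσπ, mul_div_assoc, div_self hπ0, mul_one]
    have h1 := hχm σ hσ
    rw [map_one, Units.val_one, hψ] at h1
    have h2 : p ^ 1 - 1 ∣ m := hζ.dvd_of_pow_eq_one _ h1.symm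
    have h3 : m < p ^ 1 - 1 := by
      rw [pow_one]
      omega
    exact Nat.eq_zero_of_dvd_of_lt h2 h3
  obtain ⟨X, hXmem, hX0, hXn⟩ := hX 0 Nat.one_pos
  obtain ⟨f, hf, rfl⟩ := (h𝓗L X).mp hXmem
  refine ⟨f, hf, ?_, ?_⟩
  · have := hX0
    rwa [Function.comp_apply, map_zero] at this
  · have h3 := hXn 1 one_ne_zero
    rw [hm, mul_zero, Nat.zero_mod, pow_zero, Function.comp_apply, hj, ZMod.val_one,
      one_nsmul] at h3
    exact (pow_eq_one_iff_of_nonneg (norm_nonneg _) hn.ne').mp h3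

/-- **ET, core**: an inertia-fixed point which is `≡ 0` modulo the maximal ideal is zero. -/
theorem h24e_fixed_conn_zero (hp2 : p ≠ 2) [Finite M] (hact : IsAct act)
    (𝓗 : FHO p (inertia p) M act) {y : M} (hfix : ∀ σ ∈ inertia p, act σ y = y)
    (hy : h24eConn 𝓗 y) : y = 0 := by
  classical
  by_contra hy0
  have hp : p.Prime := Fact.out
  obtain ⟨t, ht1, hyt⟩ := hy
  -- the `p`-primary reduction
  have hpos : 0 < addOrderOf y := addOrderOf_pos y
  obtain ⟨k, n, hn, hkn⟩ := Nat.exists_eq_pow_mul_and_not_dvd hpos.ne' p hp.ne_one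
  have hnpos : 0 < n := Nat.pos_of_ne_zero (fun h => hn (h ▸ dvd_zero p))
  have hk : k ≠ 0 := by
    rintro rfl
    rw [pow_zero, one_mul] at hkn
    have h1 : n • y = 0 := by rw [← hkn]; exact addOrderOf_nsmul_eq_zero y
    exact hy0 (h24e_conn_ptorsion 𝓗 ⟨t, ht1, hyt⟩ hn h1)
  obtain ⟨k', rfl⟩ : ∃ k', k = k' + 1 := ⟨k - 1, by omega⟩
  -- `z = (p ^ k' * n) • y` has order `p`
  have hcpos : 0 < p ^ k' * n := Nat.mul_pos (pow_pos hp.pos _) hnpos
  obtain ⟨c, hc⟩ : ∃ c, p ^ k' * n = c + 1 := ⟨p ^ k' * n - 1, by omega⟩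
  have hz0 : (p ^ k' * n) • y ≠ 0 := by
    intro h
    have h1 : addOrderOf y ∣ p ^ k' * n := addOrderOf_dvd_of_nsmul_eq_zero h
    have h2 := Nat.le_of_dvd hcpos h1
    rw [hkn, pow_succ] at h2
    have h3 : p ^ k' * n * 2 ≤ p ^ k' * p * n := by
      have := Nat.mul_le_mul_left (p ^ k' * n) hp.two_le
      calc p ^ k' * n * 2 ≤ p ^ k' * n * p := this
        _ = p ^ k' * p * n := by ring
    omega
  have hpz : p • (p ^ k' * n) • y = 0 := by
    rw [← mul_nsmul', ← mul_assoc, ← pow_succ', ← hkn]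
    exact addOrderOf_nsmul_eq_zero y
  have hzfix : ∀ σ ∈ inertia p, act σ ((p ^ k' * n) • y) = (p ^ k' * n) • y := by
    intro σ hσ
    rw [h24e_act_nsmul hact, hfix σ hσ]
  have hzt : 𝓗.PtLE ((p ^ k' * n) • y) t := by
    rw [hc]
    exact h24e_ptLE_nsmul 𝓗 hyt c
  obtain ⟨f, hf, hf0, hfz⟩ := h24e_unit_of_fixed hp2 hact 𝓗 hz0 hpz hzfix
  have h1 := hzt f hf
  rw [hf0, sub_zero, hfz] at h1
  exact absurd (lt_of_le_of_lt h1 ht1) (lt_irrefl _)

/-- The connected part is stable under inertia and under subtraction. -/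
theorem h24e_conn_sub (𝓗 : FHO p (inertia p) M act) {y y' : M} (hy : h24eConn 𝓗 y)
    (hy' : h24eConn 𝓗 y') : h24eConn 𝓗 (y - y') := by
  obtain ⟨t, ht1, hyt⟩ := hy
  obtain ⟨t', ht1', hyt'⟩ := hy'
  have hsub := h38f_ptSubgroup p (inertia p) M act 𝓗 (max t t')
  refine ⟨max t t', max_lt ht1 ht1', ?_⟩
  rw [sub_eq_add_neg]
  exact hsub.2.1 _ _ (fun f hf => (hyt f hf).trans (le_max_left _ _))
    (hsub.2.2 _ (fun f hf => (hyt' f hf).trans (le_max_right _ _)))

theorem h24e_conn_act (hact : IsAct act) (𝓗 : FHO p (inertia p) M act) {y : M}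
    (hy : h24eConn 𝓗 y) {σ : Gq p} (hσ : σ ∈ inertia p) : h24eConn 𝓗 (act σ y) := by
  obtain ⟨t, ht1, hyt⟩ := hy
  exact ⟨t, ht1, (h87f_ptStable p (inertia p) M act hact 𝓗 t y hyt).1 σ hσ⟩

/-- **ET**: if inertia acts unipotently, the connected part is zero. -/
theorem h24e_unip_conn_zero (hp2 : p ≠ 2) [Finite M] (hact : IsAct act)
    (𝓗 : FHO p (inertia p) M act) (hU : h24eUnip (inertia p) act) {y : M}
    (hy : h24eConn 𝓗 y) : y = 0 := by
  classical
  obtain ⟨n, F, hF0, hFn, hF⟩ := hU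
  have key : ∀ i, ∀ z ∈ F i, h24eConn 𝓗 z → z = 0 := by
    intro i
    induction i with
    | zero =>
      intro z hz _
      rw [hF0] at hz
      exact (AddSubgroup.mem_bot).mp hz
    | succ i ih =>
      intro z hz hzc
      refine h24e_fixed_conn_zero hp2 hact 𝓗 (fun σ hσ => ?_) hzc
      have h1 := ih _ (hF i σ hσ z hz) (h24e_conn_sub 𝓗 (h24e_conn_act hact 𝓗 hzc hσ) hzc)
      exact sub_eq_zero.mp h1
  exact key n y (by rw [hFn]; exact AddSubgroup.mem_top y) hy

/-- **ET**: if inertia acts unipotently on a module with an order over inertia (`p` odd), it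
acts trivially. -/
theorem h24e_unip_trivial (hp2 : p ≠ 2) [Finite M] (hact : IsAct act)
    (𝓗 : FHO p (inertia p) M act) (hU : h24eUnip (inertia p) act) :
    ∀ σ ∈ inertia p, ∀ x : M, act σ x = x := by
  intro σ hσ x
  have h1 : h24eConn 𝓗 (act σ x - x) :=
    h87f_inertiaTrivial p (inertia p) M act 𝓗 le_rfl σ hσ x
  exact sub_eq_zero.mp (h24e_unip_conn_zero hp2 hact 𝓗 hU h1)

/-- **ET**, the frozen leaf of `P6/H97DevIface.lean` (the hypotheses `p ^ k • x = 0` and
monotonicity of the chain are not needed). -/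
theorem h24e_et : H97fET := by
  intro p _ hp2 k X _ _ act hact _ 𝓗 hU x hx
  obtain ⟨n, F, hF0, hFn, -, hF⟩ := hU
  exact h24e_unip_conn_zero hp2 hact 𝓗 ⟨n, F, hF0, hFn, hF⟩ hx

end Inertia

end Fermat.Agent.P6
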