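import Fermat.Agent.P6.H24Et
import Fermat.Agent.S56F.FLB8_helper9
import Fermat.Agent.S56F.FLB8artin_helper15
import Fermat.Agent.S56F.FLD1_helper45
import Fermat.Agent.S56F.FLC1_helper7
import Fermat.Agent.S56F.FLB10P_helper15

/-!
# S33 / wave 6, leaf B3-MULT (helper24, prefix `h24m_`): `H97fMult` without the dual order

`h24m_mult : H97fMult` (exact frozen Prop of `P6/H97DevIface.lean`): `p` odd, `X` finite with
`p ^ k • x = 0`, an order `𝓗` over inertia on `X`, a chain of subgroups with inertia acting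
through the cyclotomic character on the graded pieces.  Then inertia acts through the cyclotomic
character on `X`.

Proof.  Let `Λ` be the `intOm`-span of `𝓗`; it is a ring and contains every character of `X`
(`h15f_charCompleteAll`).  For `σ` in inertia and a function `F` put
`F^σ x = σ⁻¹ (F (act σ x))`.

1. `f^σ = f` for `f ∈ 𝓗`; so for `F ∈ Λ` the difference `F^σ - F` is *small*: a combination of
   elements of `Λ` with coefficients of norm `< 1` (`h24m_twist`).  For a character `ξ` the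
   character `η = ξ^σ / ξ` has `η - 1` small.
2. (`h24m_key`) an inertia-equivariant small function `G` has `‖G x‖ ≤ ‖p‖`: an `R`-basis of `𝓗`
   (`R = fixInt p (inertia p)` is a discrete valuation ring with uniformiser `p`) is linearly
   independent over `Om p` (Artin), so the coefficients of `G` are fixed by inertia, of norm
   `< 1`, hence divisible by `p`; values of the order are integral.
3. (`h24m_root_eq_one`) a root of unity `z` of `p`-power order with `‖z - 1‖ ≤ ‖p‖` is `1`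
   (`p` odd).
4. Downward induction on the chain: every character which is trivial on `F i` is equivariant.
5. All characters are equivariant: `ξ (act σ x) = σ (ξ x) = ξ (e • x)`; characters separate points.
-/

set_option autoImplicit false
set_option linter.unusedSectionVars false
set_option linter.style.haveILetI false

open Fermat.Agent.PT.Loc Fermat.Agent.S56F

noncomputable section

namespace Fermat.Agent.P6

section Roots

variable {p : ℕ} [Fact p.Prime]

theorem h24m_inv_apply (σ : Gq p) (x : Om p) : σ⁻¹ (σ x) = x := by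
  rw [← AlgEquiv.mul_apply, inv_mul_cancel, AlgEquiv.one_apply]

theorem h24m_apply_inv (σ : Gq p) (x : Om p) : σ (σ⁻¹ x) = x := by
  rw [← AlgEquiv.mul_apply, mul_inv_cancel, AlgEquiv.one_apply]

/-- an inertia-fixed element of norm `< 1` is divisible by `p`. -/
theorem h24m_fixed_small {c : Om p} (hfix : ∀ σ ∈ inertia p, σ c = c) (hc : ‖c‖ < 1) :
    ‖c‖ ≤ ‖((p : ℕ) : Om p)‖ := by
  obtain ⟨-, hp1, -, hdec⟩ := h45f_inertiaDiscrete p
  by_cases h0 : c = 0
  · rw [h0, norm_zero]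
    exact norm_nonneg _
  obtain ⟨n, u, -, hu, rfl⟩ := hdec c ⟨hc.le, hfix⟩ h0
  rw [norm_mul, hu, mul_one, norm_pow] at hc ⊢
  rcases n with _ | n
  · rw [pow_zero] at hc
    exact absurd hc (lt_irrefl _)
  · rw [pow_succ]
    exact mul_le_of_le_one_left (norm_nonneg _) (pow_le_one₀ (norm_nonneg _) hp1.le)

/-- a root of unity of `p`-power order which is `≡ 1` modulo `p` is `1` (`p` odd). -/
theorem h24m_root_eq_one (hp2 : p ≠ 2) (k : ℕ) :
    ∀ z : Om p, z ^ p ^ k = 1 → ‖z - 1‖ ≤ ‖((p : ℕ) : Om p)‖ → z = 1 := by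
  have hp : p.Prime := Fact.out
  obtain ⟨-, hp1, hp0, -⟩ := h45f_inertiaDiscrete p
  induction k with
  | zero =>
    intro z hz _
    simpa using hz
  | succ k ih =>
    intro z hz hn
    have hz1 : ‖z‖ ≤ 1 :=
      (h7g_norm_root_of_unity (pow_ne_zero _ hp.ne_zero) hz).le
    have h1 : (z ^ p) ^ p ^ k = 1 := by
      rw [← pow_mul, ← pow_succ']
      exact hz
    have h2 : ‖z ^ p - 1‖ ≤ ‖z - 1‖ := h7g_norm_pow_sub_one_le hz1 p
    have h3 : z ^ p = 1 := ih _ h1 (h2.trans hn)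
    by_contra hne
    have hprim : IsPrimitiveRoot z p := by
      have h4 := orderOf_eq_prime h3 hne
      refine ⟨h3, fun l hl => ?_⟩
      have h5 := orderOf_dvd_of_pow_eq_one hl
      rw [h4] at h5
      exact h5
    have h4 : ‖z - 1‖ ^ (p - 1) = ‖((p : ℕ) : Om p)‖ := h7g_norm_zeta_sub_one hprim
    have hpos : 0 < ‖((p : ℕ) : Om p)‖ := norm_pos_iff.mpr hp0
    have hp3 : 2 ≤ p - 1 := by
      have := hp.two_le
      omega
    have h5 : ‖z - 1‖ ^ (p - 1) ≤ ‖((p : ℕ) : Om p)‖ ^ (p - 1) :=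
      pow_le_pow_left₀ (norm_nonneg _) hn _
    have h6 : ‖((p : ℕ) : Om p)‖ ^ (p - 1) ≤ ‖((p : ℕ) : Om p)‖ ^ 2 :=
      pow_le_pow_of_le_one hpos.le hp1.le hp3
    have h7 : ‖((p : ℕ) : Om p)‖ ^ 2 < ‖((p : ℕ) : Om p)‖ := by
      rw [pow_two]
      exact mul_lt_of_lt_one_left hpos hp1
    rw [h4] at h5
    exact absurd (lt_of_le_of_lt (h5.trans h6) h7) (lt_irrefl _)

/-- every element of `Gq p` acts on `μ_{p^k}` through a power. -/
theorem h24m_exists_cyc (k : ℕ) (σ : Gq p) : ∃ e : ℕ, h97fCyc p k σ e := by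
  have hp : p.Prime := Fact.out
  have hpk : p ^ k ≠ 0 := pow_ne_zero _ hp.ne_zero
  haveI : NeZero (p ^ k) := ⟨hpk⟩
  haveI : NeZero (((p ^ k : ℕ) : ℕ) : Om p) := ⟨by exact_mod_cast hpk⟩
  obtain ⟨ζ, hζ⟩ := HasEnoughRootsOfUnity.exists_primitiveRoot (Om p) (p ^ k)
  have h1 : (σ ζ) ^ (p ^ k) = 1 := by rw [← map_pow, hζ.pow_eq_one, map_one]
  obtain ⟨a, -, ha⟩ := hζ.eq_pow_of_pow_eq_one h1
  refine ⟨a, fun μ hμ => ?_⟩
  obtain ⟨j, -, hj⟩ := hζ.eq_pow_of_pow_eq_one hμ
  rw [← hj, map_pow, ← ha, ← pow_mul, ← pow_mul, mul_comm]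

end Roots

section Lattice

variable {p : ℕ} [Fact p.Prime] {Γ : Subgroup (Gq p)} {M : Type} [AddCommGroup M]
  {act : Gq p → M → M}

/-- coefficients of an element of the `intOm`-span in a basis of the order. -/
theorem h24m_coeff (𝓗 : FHO p Γ M act) {n : ℕ}
    (e : Module.Basis (Fin n) (fixInt p Γ) (Subalgebra.toSubmodule 𝓗.carrier))
    {F : M → Om p} (hF : F ∈ h15u_N 𝓗) :
    ∃ a : Fin n → Om p, (∀ j, ‖a j‖ ≤ 1) ∧ ∀ x, F x = ∑ j, a j * (e j : M → Om p) x := by
  induction hF using Submodule.span_induction with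
  | mem f hf =>
    refine ⟨fun j => ((e.repr ⟨f, hf⟩ j : fixInt p Γ) : Om p), fun j => ?_, fun x => ?_⟩
    · exact (e.repr ⟨f, hf⟩ j).2.1
    · exact h9q_expand (Subalgebra.toSubmodule 𝓗.carrier) e f hf x
  | zero =>
    refine ⟨fun _ => 0, fun j => ?_, fun x => ?_⟩
    · rw [norm_zero]
      exact zero_le_one
    · simp
  | add f g _ _ hf hg =>
    obtain ⟨a, ha, haf⟩ := hf
    obtain ⟨b, hb, hbg⟩ := hg
    refine ⟨fun j => a j + b j, fun j => ?_, fun x => ?_⟩
    · exact (IsUltrametricDist.norm_add_le_max _ _).trans (max_le (ha j) (hb j))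
    · rw [Pi.add_apply, haf x, hbg x, ← Finset.sum_add_distrib]
      exact Finset.sum_congr rfl fun j _ => by ring
  | smul c f _ hf =>
    obtain ⟨a, ha, haf⟩ := hf
    refine ⟨fun j => (c : Om p) * a j, fun j => ?_, fun x => ?_⟩
    · rw [norm_mul]
      calc ‖(c : Om p)‖ * ‖a j‖ ≤ 1 * 1 :=
            mul_le_mul c.2.1 (ha j) (norm_nonneg _) zero_le_one
        _ = 1 := one_mul _
    · rw [Pi.smul_apply, Subring.smul_def, smul_eq_mul, haf x, Finset.mul_sum]
      exact Finset.sum_congr rfl fun j _ => by ring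

/-- `G` is *small*: a combination of elements of the `intOm`-span with coefficients of norm
`< 1`. -/
def h24mSmall (𝓗 : FHO p Γ M act) (G : M → Om p) : Prop :=
  ∃ (m : ℕ) (d : Fin m → Om p) (Fs : Fin m → M → Om p), (∀ i, ‖d i‖ < 1) ∧
    (∀ i, Fs i ∈ h15u_N 𝓗) ∧ ∀ x, G x = ∑ i, d i * Fs i x

theorem h24m_small_mul (𝓗 : FHO p Γ M act) {ξ G : M → Om p} (hξ : ξ ∈ h15u_N 𝓗)
    (hG : h24mSmall 𝓗 G) : h24mSmall 𝓗 (fun x => ξ x * G x) := by
  obtain ⟨m, d, Fs, hd, hFs, hG⟩ := hG
  refine ⟨m, d, fun i => ξ * Fs i, hd, fun i => h15u_mul_mem 𝓗 hξ (hFs i), fun x => ?_⟩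
  show ξ x * G x = ∑ i, d i * (ξ x * Fs i x)
  rw [hG x, Finset.mul_sum]
  exact Finset.sum_congr rfl fun i _ => by ring

end Lattice

section Inertia

variable {p : ℕ} [Fact p.Prime] {M : Type} [AddCommGroup M] {act : Gq p → M → M}

theorem h24m_act_surj (hact : IsAct act) (σ : Gq p) : Function.Surjective (act σ) := by
  intro x
  refine ⟨act σ⁻¹ x, ?_⟩
  rw [← hact.mul, mul_inv_cancel, hact.one]

/-- a basis of the order, linearly independent over `Om p`. -/
theorem h24m_exists_basis (hact : IsAct act) (𝓗 : FHO p (inertia p) M act) :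
    ∃ (n : ℕ) (e : Module.Basis (Fin n) (fixInt p (inertia p))
      (Subalgebra.toSubmodule 𝓗.carrier)),
      LinearIndependent (Om p) (fun j => (e j : M → Om p)) := by
  haveI : IsPrincipalIdealRing (fixInt p (inertia p)) :=
    h9q_isPrincipalIdealRing (h45f_inertiaDiscrete p)
  obtain ⟨n, ⟨e⟩⟩ := h9q_exists_basis (Subalgebra.toSubmodule 𝓗.carrier) 𝓗.fg
  refine ⟨n, e, ?_⟩
  refine h15q_artin p (inertia p) act (fun σ _ => h24m_act_surj hact σ)
    (fun j => (e j : M → Om p)) (fun j σ hσ x => 𝓗.equivariant _ (e j).2 σ hσ x) ?_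
  have h1 : LinearIndependent (fixInt p (inertia p)) (fun j => e j) := e.linearIndependent
  have h2 := h1.map' (Subalgebra.toSubmodule 𝓗.carrier).subtype
    (Submodule.ker_subtype _)
  exact h2

/-- **Step 1**: the twist of an element of the `intOm`-span differs from it by a small
function. -/
theorem h24m_twist (hact : IsAct act) (𝓗 : FHO p (inertia p) M act) {σ : Gq p}
    (hσ : σ ∈ inertia p) {F : M → Om p} (hF : F ∈ h15u_N 𝓗) :
    h24mSmall 𝓗 (fun x => σ⁻¹ (F (act σ x)) - F x) := by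
  obtain ⟨n, e, -⟩ := h24m_exists_basis hact 𝓗
  obtain ⟨a, ha, haF⟩ := h24m_coeff 𝓗 e hF
  have hσi : σ⁻¹ ∈ inertia p := (inertia p).inv_mem hσ
  refine ⟨n, fun j => σ⁻¹ (a j) - a j, fun j => (e j : M → Om p), fun j => hσi (a j) (ha j),
    fun j => Submodule.subset_span (e j).2, fun x => ?_⟩
  show σ⁻¹ (F (act σ x)) - F x = ∑ j, (σ⁻¹ (a j) - a j) * (e j : M → Om p) x
  rw [haF (act σ x), haF x, map_sum, ← Finset.sum_sub_distrib]
  refine Finset.sum_congr rfl fun j _ => ?_
  rw [map_mul, 𝓗.equivariant _ (e j).2 σ hσ x, h24m_inv_apply]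
  ring

/-- **Step 2** (key): an inertia-equivariant small function has values divisible by `p`. -/
theorem h24m_key (hact : IsAct act) (𝓗 : FHO p (inertia p) M act) {G : M → Om p}
    (hG : h24mSmall 𝓗 G) (hGeq : ∀ σ ∈ inertia p, ∀ x, G (act σ x) = σ (G x)) :
    ∀ x, ‖G x‖ ≤ ‖((p : ℕ) : Om p)‖ := by
  classical
  obtain ⟨n, e, hli⟩ := h24m_exists_basis hact 𝓗
  obtain ⟨m, d, Fs, hd, hFs, hGd⟩ := hG
  -- a common bound for the `d i`
  obtain ⟨t, ht0, ht1, hdt⟩ := h87f_exists_bound (Finset.univ : Finset (Fin m))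
    (fun i => ‖d i‖) (fun i _ => hd i)
  have hcoef : ∀ i, ∃ a : Fin n → Om p, (∀ j, ‖a j‖ ≤ 1) ∧
      ∀ x, Fs i x = ∑ j, a j * (e j : M → Om p) x := fun i => h24m_coeff 𝓗 e (hFs i)
  choose a ha haF using hcoef
  -- the coefficients of `G`
  have hGc : ∀ x, G x = ∑ j, (∑ i, d i * a i j) * (e j : M → Om p) x := by
    intro x
    rw [hGd x]
    have h1 : ∀ i, d i * Fs i x = ∑ j, d i * a i j * (e j : M → Om p) x := by
      intro i
      rw [haF i x, Finset.mul_sum]
      exact Finset.sum_congr rfl fun j _ => by ring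
    simp only [h1]
    rw [Finset.sum_comm]
    refine Finset.sum_congr rfl fun j _ => ?_
    rw [Finset.sum_mul]
  have hcn : ∀ j, ‖∑ i, d i * a i j‖ < 1 := by
    intro j
    refine lt_of_le_of_lt ?_ ht1
    refine IsUltrametricDist.norm_sum_le_of_forall_le_of_nonneg ht0 (fun i _ => ?_)
    rw [norm_mul]
    calc ‖d i‖ * ‖a i j‖ ≤ t * 1 :=
          mul_le_mul (hdt i (Finset.mem_univ i)) (ha i j) (norm_nonneg _) ht0
      _ = t := mul_one _
  -- the coefficients are fixed by inertia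
  have hfix : ∀ σ ∈ inertia p, ∀ j, σ (∑ i, d i * a i j) = ∑ i, d i * a i j := by
    intro σ hσ j
    have hrel : ∑ j, (σ⁻¹ (∑ i, d i * a i j) - ∑ i, d i * a i j) • (fun x => (e j : M → Om p) x)
        = 0 := by
      funext x
      have h1 : σ⁻¹ (G (act σ x)) = G x := by rw [hGeq σ hσ x, h24m_inv_apply]
      rw [hGc (act σ x), hGc x, map_sum] at h1
      rw [Finset.sum_apply, Pi.zero_apply]
      have h2 : ∀ j, σ⁻¹ ((∑ i, d i * a i j) * (e j : M → Om p) (act σ x))
          = σ⁻¹ (∑ i, d i * a i j) * (e j : M → Om p) x := by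
        intro j
        rw [map_mul, 𝓗.equivariant _ (e j).2 σ hσ x, h24m_inv_apply]
      simp only [h2] at h1
      have h3 : ∀ j, ((σ⁻¹ (∑ i, d i * a i j) - ∑ i, d i * a i j) •
          (fun x => (e j : M → Om p) x)) x
          = σ⁻¹ (∑ i, d i * a i j) * (e j : M → Om p) x
            - (∑ i, d i * a i j) * (e j : M → Om p) x := by
        intro j
        rw [Pi.smul_apply, smul_eq_mul, sub_mul]
      simp only [h3]
      rw [Finset.sum_sub_distrib, h1, sub_self]
    have h4 := Fintype.linearIndependent_iff.mp hli _ hrel j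
    have h5 : σ⁻¹ (∑ i, d i * a i j) = ∑ i, d i * a i j := sub_eq_zero.mp h4
    have h6 := congrArg σ h5
    rw [h24m_apply_inv] at h6
    exact h6.symm
  intro x
  rw [hGc x]
  refine IsUltrametricDist.norm_sum_le_of_forall_le_of_nonneg (norm_nonneg _) (fun j _ => ?_)
  rw [norm_mul]
  calc ‖∑ i, d i * a i j‖ * ‖(e j : M → Om p) x‖ ≤ ‖((p : ℕ) : Om p)‖ * 1 :=
        mul_le_mul (h24m_fixed_small (fun σ hσ => hfix σ hσ j) (hcn j))
          (h38f_valuesIntegral p (inertia p) M act 𝓗 _ (e j).2 x) (norm_nonneg _)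
          (norm_nonneg _)
    _ = ‖((p : ℕ) : Om p)‖ := mul_one _

/-- powers of a character. -/
theorem h24m_char_nsmul {ξ : M → Om p} (h0 : ξ 0 = 1) (hmul : ∀ x y, ξ (x + y) = ξ x * ξ y)
    (n : ℕ) (x : M) : ξ (n • x) = ξ x ^ n := by
  induction n with
  | zero => rw [zero_nsmul, pow_zero, h0]
  | succ n ih => rw [succ_nsmul, hmul, ih, pow_succ]

theorem h24m_char_neg {ξ : M → Om p} (h0 : ξ 0 = 1) (hmul : ∀ x y, ξ (x + y) = ξ x * ξ y)
    (x : M) : ξ (-x) * ξ x = 1 := by
  rw [← hmul, neg_add_cancel, h0]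

/-- **MULT**: all characters are inertia-equivariant. -/
theorem h24m_char_equivariant (hp2 : p ≠ 2) (k : ℕ) [Finite M] (hact : IsAct act)
    (htors : ∀ x : M, p ^ k • x = 0) (𝓗 : FHO p (inertia p) M act)
    (n : ℕ) (F : ℕ → AddSubgroup M) (hF0 : F 0 = ⊥) (hFn : F n = ⊤)
    (hF : ∀ i, ∀ σ ∈ inertia p, ∀ e : ℕ, h97fCyc p k σ e → ∀ x ∈ F (i + 1),
      act σ x - e • x ∈ F i)
    (ξ : M → Om p) (h0 : ξ 0 = 1) (hmul : ∀ x y, ξ (x + y) = ξ x * ξ y) :
    ∀ σ ∈ inertia p, ∀ x, ξ (act σ x) = σ (ξ x) := by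
  have key : ∀ j, j ≤ n → ∀ ξ : M → Om p, ξ 0 = 1 → (∀ x y, ξ (x + y) = ξ x * ξ y) →
      (∀ x ∈ F (n - j), ξ x = 1) → ∀ σ ∈ inertia p, ∀ x, ξ (act σ x) = σ (ξ x) := by
    intro j
    induction j with
    | zero =>
      intro _ ξ _ _ htriv σ _ x
      have h1 : ∀ y, ξ y = 1 := fun y => htriv y (by
        rw [Nat.sub_zero, hFn]
        exact AddSubgroup.mem_top y)
      rw [h1, h1, map_one]
    | succ j ih =>
      intro hj ξ h0 hmul htriv σ hσ x
      have hidx : n - j = (n - (j + 1)) + 1 := by omega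
      obtain ⟨e, he⟩ := h24m_exists_cyc k σ
      have hpow : ∀ y, ξ y ^ p ^ k = 1 := fun y => by
        rw [← h24m_char_nsmul h0 hmul, htors, h0]
      have hact0 : act σ 0 = 0 := h87f_act_zero hact σ
      -- the character `η = ξ^σ / ξ`
      obtain ⟨η, hη⟩ : ∃ η : M → Om p, ∀ y, η y = σ⁻¹ (ξ (act σ y)) * ξ (-y) :=
        ⟨fun y => σ⁻¹ (ξ (act σ y)) * ξ (-y), fun _ => rfl⟩
      have hη0 : η 0 = 1 := by
        rw [hη, hact0, neg_zero, h0, map_one, mul_one]
      have hηmul : ∀ y y', η (y + y') = η y * η y' := by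
        intro y y'
        rw [hη, hη, hη, hact.add, hmul, map_mul, neg_add, hmul]
        ring
      have hηtriv : ∀ y ∈ F (n - j), η y = 1 := by
        intro y hy
        rw [hidx] at hy
        have h1 := htriv _ (hF (n - (j + 1)) σ hσ e he y hy)
        have h2 : ξ (act σ y) = ξ (e • y) := by
          have h3 : act σ y = (act σ y - e • y) + e • y := by abel
          rw [h3, hmul, h1, one_mul]
        have h4 : ξ (act σ y) = σ (ξ y) := by
          rw [h2, h24m_char_nsmul h0 hmul, he _ (hpow y)]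
        rw [hη, h4, h24m_inv_apply, mul_comm]
        exact h24m_char_neg h0 hmul y
      have hηeq := ih (by omega) η hη0 hηmul hηtriv
      -- `η - 1` is small
      have hξΛ : ξ ∈ h15u_N 𝓗 := h15f_charCompleteAll p (inertia p) M act 𝓗 ξ h0 hmul
      have hξ'Λ : (fun y => ξ (-y)) ∈ h15u_N 𝓗 :=
        h15f_charCompleteAll p (inertia p) M act 𝓗 _ (by rw [neg_zero]; exact h0)
          (fun y y' => by rw [neg_add, hmul])
      have hsmall : h24mSmall 𝓗 (fun y => η y - 1) := by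
        have h1 := h24m_small_mul 𝓗 hξ'Λ (h24m_twist hact 𝓗 hσ hξΛ)
        have h2 : (fun y => η y - 1)
            = fun y => ξ (-y) * (σ⁻¹ (ξ (act σ y)) - ξ y) := by
          funext y
          rw [hη, mul_sub, h24m_char_neg h0 hmul y]
          ring
        rw [h2]
        exact h1
      have hbound := h24m_key hact 𝓗 hsmall (fun τ hτ y => by
        show η (act τ y) - 1 = τ (η y - 1)
        rw [hηeq τ hτ y, map_sub, map_one])
      have hη1 : η x = 1 := by
        have hηpow : η x ^ p ^ k = 1 := by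
          rw [← h24m_char_nsmul hη0 hηmul, htors, hη0]
        exact h24m_root_eq_one hp2 k _ hηpow (hbound x)
      rw [hη] at hη1
      have h5 : σ⁻¹ (ξ (act σ x)) = ξ x := by
        have h6 := h24m_char_neg h0 hmul x
        calc σ⁻¹ (ξ (act σ x)) = σ⁻¹ (ξ (act σ x)) * (ξ (-x) * ξ x) := by rw [h6, mul_one]
          _ = (σ⁻¹ (ξ (act σ x)) * ξ (-x)) * ξ x := by ring
          _ = ξ x := by rw [hη1, one_mul]
      have h7 := congrArg σ h5
      rw [h24m_apply_inv] at h7
      exact h7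
  intro σ hσ x
  refine key n le_rfl ξ h0 hmul (fun y hy => ?_) σ hσ x
  rw [Nat.sub_self, hF0] at hy
  rw [(AddSubgroup.mem_bot).mp hy, h0]

/-- **MULT**, the frozen leaf of `P6/H97DevIface.lean` (monotonicity of the chain is not
needed). -/
theorem h24m_mult : H97fMult := by
  intro p _ hp2 k X _ _ act hact htors 𝓗 hU σ hσ e he x
  obtain ⟨n, F, hF0, hFn, -, hF⟩ := hU
  by_contra hne
  have hy : act σ x - e • x ≠ 0 := fun h => hne (sub_eq_zero.mp h)
  obtain ⟨ξ, h0, hmul, hξy⟩ := h24e_exists_char (p := p) hy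
  have h1 := h24m_char_equivariant hp2 k hact htors 𝓗 n F hF0 hFn hF ξ h0 hmul σ hσ x
  have hpow : ξ x ^ p ^ k = 1 := by
    rw [← h24m_char_nsmul h0 hmul, htors, h0]
  have h2 : ξ (act σ x) = ξ (e • x) := by
    rw [h1, h24m_char_nsmul h0 hmul, he _ hpow]
  apply hξy
  have h3 : act σ x = (act σ x - e • x) + e • x := by abel
  rw [h3, hmul] at h2
  have hne0 : ξ (e • x) ≠ 0 := by
    intro h
    have h4 := h24m_char_neg h0 hmul (e • x)
    rw [h, mul_zero] at h4
    exact zero_ne_one h4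
  exact mul_right_cancel₀ hne0 (by rw [h2, one_mul])

end Inertia

end Fermat.Agent.P6
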