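import Fermat.Agent.P6.H71Depth
import Fermat.Agent.LGC.Gal75
import Fermat.Agent.S36.H78TorBasic
import Fermat.Agent.Red.GateGoodOf

/-!
# P6 (wave 6, S33), row B2-NEWGATE-FF (helper74): G-NEW-p in the function field

`ℓ ∤ M` prime, `A` a valuation subring of `ℚ̄` over `ℓ`, `W_∞ = softV A (Mℓ)`, `w = kFricke`,
`W_0 = w W_∞`, `α, β : F_M → F_{Mℓ}` the degeneracy maps, `r ≠ 0` any exponent (`r = ℓ ^ n` in
the application).

* `h74gDeepInf A N r e x` : the class of `x` modulo `r`-th powers is `≡ 1` modulo `e W_∞`: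
  `x = H ^ r * (1 + e s)`, `H ≠ 0`, `s ∈ W_∞`.
* `h74gDeepZero` : the same for `w x` (depth at `W_0`).
* `h74g_step_alpha` : deep at `W_0` to the depth `c` and `Nm_α x` an `r`-th power
  ⟹ deep at `W_∞` to the depth `d`, for every `d ∈ 𝔪_A` dividing `c ℓ` and `c²`.
* `h74g_step_beta` : the symmetric statement.
* `h74g_deep_all` : if both norms of `x` are `r`-th powers and `x` is deep at `W_∞` to some
  depth `c₀ ∈ 𝔪_A`, `c₀ ≠ 0`, then `x` is deep at `W_∞` and at `W_0` to EVERY depth `e ≠ 0`.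
* `h74g_start` : for `b` in the inertia group and `u ≠ 0`, `b u / u` is deep at `W_∞` to some
  depth `c₀ ∈ 𝔪_A`, `c₀ ≠ 0`.
* `h74gNewGateP`, `h74g_newGateP` : **G-NEW-p**: if the norms of `u` along `α` and `β` are
  `r`-th powers then `b u / u` is deep at both Gauss valuations to every depth.
-/

set_option autoImplicit false
set_option linter.style.haveILetI false
set_option linter.unusedSectionVars false
set_option linter.unusedVariables false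
set_option synthInstance.maxHeartbeats 400000

open AlgebraicCurve ModularCurve IsLocalRing

noncomputable section

namespace Fermat.Agent.P6

open Fermat.Agent.S37 (Kbar GQ FF cst gal CongOne)
open Fermat.Agent.Red.KR (normAlong normAlong_mul normAlong_map)
open Fermat.Agent.Red.GV Fermat.Agent.Red.GV.Soft Fermat.Agent.Red.Kron Fermat.Agent.LGC

/-! ## Depth of a class modulo `r`-th powers -/

section Deep

variable (A : ValuationSubring Kbar) (N : ℕ)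

/-- the class of `x` modulo `r`-th powers is `≡ 1` modulo `e W_∞`. -/
def h74gDeepInf (r : ℕ) (e : Kbar) (x : FF N) : Prop :=
  ∃ H : FF N, H ≠ 0 ∧ ∃ s ∈ softV A N, x = H ^ r * (1 + cst N e * s)

/-- monotonicity of the depth. -/
theorem h74g_deep_mono {r : ℕ} {e d : Kbar} {x : FF N} (hd : d ≠ 0) (hed : e * d⁻¹ ∈ A)
    (h : h74gDeepInf A N r e x) : h74gDeepInf A N r d x := by
  obtain ⟨H, hH, s, hs, hx⟩ := h
  refine ⟨H, hH, cst N (e * d⁻¹) * s, mul_mem ((cst_mem_softV_iff A N _).mpr hed) hs, ?_⟩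
  rw [hx, ← mul_assoc (cst N d), ← map_mul]
  congr 4
  field_simp

/-- `1 + d z` is a unit of `W_∞` for `d ∈ 𝔪_A`, with inverse of the same shape. -/
theorem h74g_one_add_inv {d : Kbar} (hd : d ∈ A.nonunits) {z : FF N} (hz : z ∈ softV A N) :
    1 + cst N d * z ≠ 0 ∧ ∃ z' ∈ softV A N, (1 + cst N d * z)⁻¹ = 1 + cst N d * z' := by
  have hdA : d ∈ A := A.nonunits_subset hd
  have hcV : cst N d ∈ softV A N := (cst_mem_softV_iff A N d).mpr hdA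
  have hmem : 1 + cst N d * z ∈ softV A N := add_mem (one_mem _) (mul_mem hcV hz)
  have hred : softR A N ⟨_, hmem⟩ = 1 := by
    have e : (⟨1 + cst N d * z, hmem⟩ : softV A N) = 1 + ⟨_, hcV⟩ * ⟨z, hz⟩ := rfl
    rw [e, map_add, map_one, map_mul, softR_cst_of_nonunit A N d hd hcV, zero_mul, add_zero]
  have hne : softR A N ⟨_, hmem⟩ ≠ 0 := by
    rw [hred]; exact one_ne_zero
  obtain ⟨h0, hinv⟩ := (softR_ne_zero_iff A N ⟨_, hmem⟩).mp hne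
  refine ⟨h0, -(z * (1 + cst N d * z)⁻¹), neg_mem (mul_mem hz hinv), ?_⟩
  field_simp
  ring

end Deep

/-! ## The two steps -/

section Steps

variable (A : ValuationSubring Kbar) (M ℓ : ℕ) [NeZero M] [NeZero ℓ]

/-- the class of `x` modulo `r`-th powers is `≡ 1` modulo `e W_0` (`W_0 = w W_∞`). -/
def h74gDeepZero (hℓ : ℓ.Prime) (hM : ¬ ℓ ∣ M) (r : ℕ) (e : Kbar) (x : FF (M * ℓ)) : Prop :=
  h74gDeepInf A (M * ℓ) r e (kFricke M ℓ hℓ hM x)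

theorem h74g_normAlong_pow {N N' : ℕ} (φ : FF N →ₐ[Kbar] FF N') (y : FF N') (r : ℕ) :
    normAlong φ (y ^ r) = normAlong φ y ^ r := by
  letI := algebraAlong φ
  exact map_pow (Algebra.norm (FF N)) y r

theorem h74g_normAlong_ne_zero {N N' : ℕ} (φ : FF N →ₐ[Kbar] FF N') (hfin : FiniteAlong Kbar φ)
    {y : FF N'} (hy : y ≠ 0) : normAlong φ y ≠ 0 := by
  letI := algebraAlong φ
  haveI : Module.Finite (FF N) (FF N') := hfin
  exact Algebra.norm_ne_zero_iff.mpr hy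

/-- the algebraic core of both steps: from `x' = x / K ^ r`, `ψ (Nm_φ x') = y' (1 + d z)` and
`Nm_φ x = g ^ r`, a representation `y' K' ^ r = H ^ r (1 + d z')`. -/
theorem h74g_core {N : ℕ} [NeZero N] (φ ψ : FF N →ₐ[Kbar] FF (N * ℓ))
    (hfin : FiniteAlong Kbar φ)
    {r : ℕ} (hr : r ≠ 0) {x K K' y' : FF (N * ℓ)} (hx0 : x ≠ 0) (hK : K ≠ 0) (hK' : K' ≠ 0)
    (hn : ∃ g : FF N, normAlong φ x = g ^ r)
    {d : Kbar} (hdn : d ∈ A.nonunits) {z : FF (N * ℓ)} (hz : z ∈ softV A (N * ℓ))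
    (h : ψ (normAlong φ (x * (K ^ r)⁻¹)) = y' * (1 + cst (N * ℓ) d * z)) :
    h74gDeepInf A (N * ℓ) r d (y' * K' ^ r) := by
  obtain ⟨g, hg⟩ := hn
  obtain ⟨hne, z', hz', hinv⟩ := h74g_one_add_inv A (N * ℓ) hdn hz
  have hnK : normAlong φ K ≠ 0 := h74g_normAlong_ne_zero φ hfin hK
  have hg0 : g ≠ 0 := by
    intro h0
    have h1 := h74g_normAlong_ne_zero φ hfin hx0
    rw [hg, h0, zero_pow hr] at h1
    exact h1 rfl
  have hnx' : normAlong φ (x * (K ^ r)⁻¹) = (g * (normAlong φ K)⁻¹) ^ r := by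
    have h1 : normAlong φ (x * (K ^ r)⁻¹) * normAlong φ K ^ r = g ^ r := by
      rw [← h74g_normAlong_pow, ← normAlong_mul, ← hg]
      congr 1
      field_simp
    rw [mul_pow, inv_pow]
    exact (eq_mul_inv_iff_mul_eq₀ (pow_ne_zero r hnK)).mpr h1
  refine ⟨ψ (g * (normAlong φ K)⁻¹) * K', ?_, z', hz', ?_⟩
  · refine mul_ne_zero ?_ hK'
    exact (map_ne_zero ψ).mpr (mul_ne_zero hg0 (inv_ne_zero hnK))
  · have h2 : y' = ψ (normAlong φ (x * (K ^ r)⁻¹)) * (1 + cst (N * ℓ) d * z)⁻¹ := by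
      rw [h]
      field_simp
    rw [h2, hnx', hinv, map_pow, mul_pow]
    ring

/-- **step `α`**: deep at `W_0` to the depth `c`, `Nm_α x` an `r`-th power ⟹ deep at `W_∞` to
the depth `d`, for `d ∈ 𝔪_A`, `d ∣ c ℓ`, `d ∣ c²`. -/
theorem h74g_step_alpha (hℓ : ℓ.Prime) (hM : ¬ ℓ ∣ M) (hA : A.LiesOverPrime ℓ) {r : ℕ}
    (hr : r ≠ 0) {x : FF (M * ℓ)} (hx0 : x ≠ 0) {c : Kbar} (hc : c ∈ A)
    (hdeep : h74gDeepZero A M ℓ hℓ hM r c x)
    (hn : ∃ g : FF M, normAlong (heckeAlphaBar Kbar M ℓ) x = g ^ r)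
    {d : Kbar} (hd : d ≠ 0) (hdn : d ∈ A.nonunits) (hd1 : c * ℓ * d⁻¹ ∈ A)
    (hd2 : c ^ 2 * d⁻¹ ∈ A) :
    h74gDeepInf A (M * ℓ) r d x := by
  obtain ⟨H, hH, s, hs, hκ⟩ := hdeep
  set κ := kFricke M ℓ hℓ hM with hκdef
  have hκH : κ H ≠ 0 := by
    rw [Ne, map_eq_zero_iff _ κ.injective]
    exact hH
  set x' : FF (M * ℓ) := x * ((κ H) ^ r)⁻¹ with hx'
  have hx'0 : x' ≠ 0 := mul_ne_zero hx0 (inv_ne_zero (pow_ne_zero r hκH))
  have hκx' : κ x' = 1 + cst (M * ℓ) c * s := by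
    rw [hx', map_mul, map_inv₀, map_pow, hκdef, kFricke_kFricke, hκ]
    field_simp
  obtain ⟨z, hz, hnorm⟩ := h71p_depth_alpha A M ℓ hℓ hM hA x' hx'0 c hc s hs hκx' d hd hd1 hd2
  have hfin : FiniteAlong Kbar (heckeAlphaBar Kbar M ℓ) :=
    Fermat.Agent.Red.HKMod.finiteAlong_heckeAlphaBar M ℓ
  have key := h74g_core A ℓ (heckeAlphaBar Kbar M ℓ) (heckeAlphaBar Kbar M ℓ) hfin hr hx0
    hκH hκH hn hdn hz (y' := x') hnorm
  have e : x' * κ H ^ r = x := by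
    rw [hx']
    field_simp
  rwa [e] at key

/-- **step `β`**: deep at `W_∞` to the depth `c`, `Nm_β x` an `r`-th power ⟹ deep at `W_0` to
the depth `d`, for `d ∈ 𝔪_A`, `d ∣ c ℓ`, `d ∣ c²`. -/
theorem h74g_step_beta (hℓ : ℓ.Prime) (hM : ¬ ℓ ∣ M) (hA : A.LiesOverPrime ℓ) {r : ℕ}
    (hr : r ≠ 0) {x : FF (M * ℓ)} (hx0 : x ≠ 0) {c : Kbar} (hc : c ∈ A)
    (hdeep : h74gDeepInf A (M * ℓ) r c x)
    (hn : ∃ g : FF M, normAlong (heckeBetaBar Kbar M ℓ) x = g ^ r)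
    {d : Kbar} (hd : d ≠ 0) (hdn : d ∈ A.nonunits) (hd1 : c * ℓ * d⁻¹ ∈ A)
    (hd2 : c ^ 2 * d⁻¹ ∈ A) :
    h74gDeepZero A M ℓ hℓ hM r d x := by
  obtain ⟨H, hH, s, hs, hxH⟩ := hdeep
  set κ := kFricke M ℓ hℓ hM with hκdef
  have hκH : κ H ≠ 0 := by
    rw [Ne, map_eq_zero_iff _ κ.injective]
    exact hH
  set x' : FF (M * ℓ) := x * (H ^ r)⁻¹ with hx'
  have hx'0 : x' ≠ 0 := mul_ne_zero hx0 (inv_ne_zero (pow_ne_zero r hH))
  have hx'1 : x' = 1 + cst (M * ℓ) c * s := by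
    rw [hx', hxH]
    field_simp
  obtain ⟨z, hz, hnorm⟩ := h71p_depth_beta A M ℓ hℓ hM hA x' hx'0 c hc s hs hx'1 d hd hd1 hd2
  have hfin : FiniteAlong Kbar (heckeBetaBar Kbar M ℓ) :=
    Fermat.Agent.Red.HKMod.finiteAlong_heckeBetaBar M ℓ
  have key := h74g_core A ℓ (heckeBetaBar Kbar M ℓ) (heckeAlphaBar Kbar M ℓ) hfin hr hx0
    hH hκH hn hdn hz (y' := κ x') hnorm
  have e : κ x' * κ H ^ r = κ x := by
    rw [hx', map_mul, map_inv₀, map_pow]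
    field_simp
  rw [e] at key
  exact key

/-! ## The iteration -/

/-- rank one, in `ℚ̄`: a power of `δ ∈ 𝔪_A`, `δ ≠ 0`, is divisible by `e ≠ 0`. -/
theorem h74g_arch (hℓ : ℓ.Prime) (hA : A.LiesOverPrime ℓ) {δ : Kbar} (hδ0 : δ ≠ 0)
    (hδn : δ ∈ A.nonunits) {e : Kbar} (he0 : e ≠ 0) (he : e ∈ A) :
    ∃ k : ℕ, δ ^ k * e⁻¹ ∈ A := by
  have hδA : δ ∈ A := A.nonunits_subset hδn
  have hδm : (⟨δ, hδA⟩ : A) ∈ maximalIdeal A :=
    ((ValuationSubring.mem_nonunits_iff_exists_mem_maximalIdeal).mp hδn).2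
  have hδ0' : (⟨δ, hδA⟩ : A) ≠ 0 := fun h => hδ0 (congrArg Subtype.val h)
  have he0' : (⟨e, he⟩ : A) ≠ 0 := fun h => he0 (congrArg Subtype.val h)
  obtain ⟨k, a, hk⟩ := Fermat.Agent.Red.GG.harch_of_liesOver A hℓ hA _ hδm hδ0' _ he0'
  refine ⟨k, ?_⟩
  have hk' : δ ^ k = e * (a : Kbar) := by
    have := congrArg Subtype.val hk
    simpa using this
  rw [hk']
  have e1 : e * (a : Kbar) * e⁻¹ = (a : Kbar) := by field_simp
  rw [e1]
  exact a.2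

theorem h74g_mul_mem_nonunits {c δ : Kbar} (hc : c ∈ A) (hδ : δ ∈ A.nonunits) :
    c * δ ∈ A.nonunits := by
  rw [ValuationSubring.mem_nonunits_iff, map_mul]
  exact mul_lt_one_of_nonneg_of_lt_one_right ((ValuationSubring.valuation_le_one_iff A _).mpr hc)
    zero_le ((ValuationSubring.mem_nonunits_iff A).mp hδ)

/-- **the iteration**, with a common divisor `δ ∈ 𝔪_A` of `ℓ` and `c₀`. -/
theorem h74g_deep_pow (hℓ : ℓ.Prime) (hM : ¬ ℓ ∣ M) (hA : A.LiesOverPrime ℓ) {r : ℕ}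
    (hr : r ≠ 0) {x : FF (M * ℓ)} (hx0 : x ≠ 0)
    (hnα : ∃ g : FF M, normAlong (heckeAlphaBar Kbar M ℓ) x = g ^ r)
    (hnβ : ∃ g : FF M, normAlong (heckeBetaBar Kbar M ℓ) x = g ^ r)
    {c₀ δ : Kbar} (hc₀ : c₀ ∈ A) (hc₀0 : c₀ ≠ 0) (hδ0 : δ ≠ 0) (hδn : δ ∈ A.nonunits)
    (hδc : c₀ * δ⁻¹ ∈ A) (hδℓ : (ℓ : Kbar) * δ⁻¹ ∈ A)
    (h0 : h74gDeepInf A (M * ℓ) r c₀ x) (n : ℕ) :
    h74gDeepInf A (M * ℓ) r (c₀ * δ ^ (2 * n)) x ∧
      h74gDeepZero A M ℓ hℓ hM r (c₀ * δ ^ (2 * n + 1)) x := by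
  have hδA : δ ∈ A := A.nonunits_subset hδn
  -- one step `c ↦ c δ` for `c = c₀ δ ^ k`
  have hd : ∀ k : ℕ, c₀ * δ ^ (k + 1) ≠ 0 ∧ c₀ * δ ^ (k + 1) ∈ A.nonunits ∧
      c₀ * δ ^ k ∈ A ∧ c₀ * δ ^ k * ℓ * (c₀ * δ ^ (k + 1))⁻¹ ∈ A ∧
      (c₀ * δ ^ k) ^ 2 * (c₀ * δ ^ (k + 1))⁻¹ ∈ A := by
    intro k
    have hck : c₀ * δ ^ k ∈ A := mul_mem hc₀ (pow_mem hδA k)
    refine ⟨mul_ne_zero hc₀0 (pow_ne_zero _ hδ0), ?_, hck, ?_, ?_⟩
    · rw [pow_succ, ← mul_assoc]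
      exact h74g_mul_mem_nonunits A hck hδn
    · have e : c₀ * δ ^ k * ℓ * (c₀ * δ ^ (k + 1))⁻¹ = (ℓ : Kbar) * δ⁻¹ := by
        rw [pow_succ δ k]
        field_simp
      rw [e]
      exact hδℓ
    · have e : (c₀ * δ ^ k) ^ 2 * (c₀ * δ ^ (k + 1))⁻¹ = c₀ * δ⁻¹ * δ ^ k := by
        rw [pow_succ δ k]
        field_simp
      rw [e]
      exact mul_mem hδc (pow_mem hδA k)
  have hβ : ∀ k : ℕ, h74gDeepInf A (M * ℓ) r (c₀ * δ ^ k) x →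
      h74gDeepZero A M ℓ hℓ hM r (c₀ * δ ^ (k + 1)) x := by
    intro k hk
    obtain ⟨h1, h2, h3, h4, h5⟩ := hd k
    exact h74g_step_beta A M ℓ hℓ hM hA hr hx0 h3 hk hnβ h1 h2 h4 h5
  have hα : ∀ k : ℕ, h74gDeepZero A M ℓ hℓ hM r (c₀ * δ ^ k) x →
      h74gDeepInf A (M * ℓ) r (c₀ * δ ^ (k + 1)) x := by
    intro k hk
    obtain ⟨h1, h2, h3, h4, h5⟩ := hd k
    exact h74g_step_alpha A M ℓ hℓ hM hA hr hx0 h3 hk hnα h1 h2 h4 h5
  induction n with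
  | zero =>
    have h1 : h74gDeepInf A (M * ℓ) r (c₀ * δ ^ 0) x := by
      rw [pow_zero, mul_one]; exact h0
    exact ⟨h1, hβ 0 h1⟩
  | succ n ih =>
    have h1 : h74gDeepInf A (M * ℓ) r (c₀ * δ ^ (2 * (n + 1))) x := hα (2 * n + 1) ih.2
    exact ⟨h1, hβ (2 * (n + 1)) h1⟩

/-- **the class of `x` is deep at both Gauss valuations to every depth.** -/
theorem h74g_deep_all (hℓ : ℓ.Prime) (hM : ¬ ℓ ∣ M) (hA : A.LiesOverPrime ℓ) {r : ℕ}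
    (hr : r ≠ 0) {x : FF (M * ℓ)} (hx0 : x ≠ 0)
    (hnα : ∃ g : FF M, normAlong (heckeAlphaBar Kbar M ℓ) x = g ^ r)
    (hnβ : ∃ g : FF M, normAlong (heckeBetaBar Kbar M ℓ) x = g ^ r)
    {c₀ : Kbar} (hc₀0 : c₀ ≠ 0) (hc₀n : c₀ ∈ A.nonunits)
    (h0 : h74gDeepInf A (M * ℓ) r c₀ x) {e : Kbar} (he0 : e ≠ 0) (he : e ∈ A) :
    h74gDeepInf A (M * ℓ) r e x ∧ h74gDeepZero A M ℓ hℓ hM r e x := by
  have hc₀ : c₀ ∈ A := A.nonunits_subset hc₀n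
  have hℓ0 : (ℓ : Kbar) ≠ 0 := by exact_mod_cast hℓ.ne_zero
  have hℓn : (ℓ : Kbar) ∈ A.nonunits := hA
  -- the common divisor `δ`
  obtain ⟨δ, hδ0, hδn, hδc, hδℓ⟩ : ∃ δ : Kbar, δ ≠ 0 ∧ δ ∈ A.nonunits ∧ c₀ * δ⁻¹ ∈ A ∧
      (ℓ : Kbar) * δ⁻¹ ∈ A := by
    rcases A.mem_or_inv_mem ((ℓ : Kbar) * c₀⁻¹) with h | h
    · refine ⟨c₀, hc₀0, hc₀n, ?_, h⟩
      rw [mul_inv_cancel₀ hc₀0]
      exact A.one_mem
    · refine ⟨ℓ, hℓ0, hℓn, ?_, ?_⟩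
      · rw [mul_inv, inv_inv, mul_comm] at h
        exact h
      · rw [mul_inv_cancel₀ hℓ0]
        exact A.one_mem
  have hδA : δ ∈ A := A.nonunits_subset hδn
  obtain ⟨k, hk⟩ := h74g_arch A ℓ hℓ hA hδ0 hδn he0 he
  obtain ⟨h1, h2⟩ := h74g_deep_pow A M ℓ hℓ hM hA hr hx0 hnα hnβ hc₀ hc₀0 hδ0 hδn hδc hδℓ h0 k
  constructor
  · refine h74g_deep_mono A (M * ℓ) he0 ?_ h1
    have e1 : c₀ * δ ^ (2 * k) * e⁻¹ = c₀ * δ ^ k * (δ ^ k * e⁻¹) := by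
      rw [two_mul, pow_add]; ring
    rw [e1]
    exact mul_mem (mul_mem hc₀ (pow_mem hδA k)) hk
  · refine h74g_deep_mono A (M * ℓ) he0 ?_ h2
    have e1 : c₀ * δ ^ (2 * k + 1) * e⁻¹ = c₀ * δ ^ (k + 1) * (δ ^ k * e⁻¹) := by
      rw [show 2 * k + 1 = (k + 1) + k by omega, pow_add]; ring
    rw [e1]
    exact mul_mem (mul_mem hc₀ (pow_mem hδA (k + 1))) hk

end Steps

/-! ## The start: `b u / u` for `b` in the inertia group -/

section Start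

variable (A : ValuationSubring Kbar) (N : ℕ) {ℓ : ℕ}

/-- for `b` in the inertia group and `u ≠ 0`, the class of `b u / u` modulo `r`-th powers is
`≡ 1` modulo `c₀ W_∞` for some `c₀ ∈ 𝔪_A`, `c₀ ≠ 0`. -/
theorem h74g_start (hℓ : ℓ.Prime) (hA : A.LiesOverPrime ℓ) {b : GQ}
    (hb : b ∈ A.inertiaSubgroupIn ℚ) {r : ℕ} (hr : r ≠ 0) {u : FF N} (hu : u ≠ 0) :
    ∃ c₀ : Kbar, c₀ ≠ 0 ∧ c₀ ∈ A.nonunits ∧ h74gDeepInf A N r c₀ (gal N b • u / u) := by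
  obtain ⟨c, hc, hy, hyi⟩ := exists_cst_mul_unit_soft A N hℓ hA u hu
  have hc0 : cst N c ≠ 0 := by
    rw [Ne, map_eq_zero_iff _ (algebraMap Kbar (FF N)).injective]
    exact hc
  have hy0 : cst N c * u ≠ 0 := mul_ne_zero hc0 hu
  obtain ⟨ht, htr⟩ := h75q_congOne_of_unit A N hb hy0 hy hyi
  set t : FF N := gal N b • (cst N c * u) / (cst N c * u) with htdef
  have hbc : (b : Kbar →+* Kbar) c ≠ 0 := (map_ne_zero_iff _ b.injective).mpr hc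
  have hbc0 : cst N (b c) ≠ 0 := by
    rw [Ne, map_eq_zero_iff _ (algebraMap Kbar (FF N)).injective]
    exact hbc
  have hsm : gal N b • (cst N c * u) = cst N (b c) * gal N b • u := by
    rw [smul_mul', Fermat.Agent.S37.GalI.gal_smul_cst]
  obtain ⟨γ, hγ⟩ := IsAlgClosed.exists_pow_nat_eq (c / b c) (Nat.pos_of_ne_zero hr)
  have hγ0 : γ ≠ 0 := by
    intro h
    rw [h, zero_pow hr] at hγ
    exact div_ne_zero hc hbc hγ.symm
  have hγc : cst N γ ≠ 0 := by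
    rw [Ne, map_eq_zero_iff _ (algebraMap Kbar (FF N)).injective]
    exact hγ0
  have hw : gal N b • u / u = cst N γ ^ r * t := by
    rw [← map_pow, hγ, htdef, hsm, cst, map_div₀]
    field_simp
  have hℓ0 : (ℓ : Kbar) ≠ 0 := by exact_mod_cast hℓ.ne_zero
  by_cases h1 : t - 1 = 0
  · refine ⟨ℓ, hℓ0, hA, cst N γ, hγc, 0, zero_mem _, ?_⟩
    rw [hw, mul_zero, add_zero, sub_eq_zero.mp h1]
  · have hmem : t - 1 ∈ softV A N := sub_mem ht (one_mem _)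
    have hred : softR A N ⟨t - 1, hmem⟩ = 0 := by
      have e : (⟨t - 1, hmem⟩ : softV A N) = ⟨t, ht⟩ - 1 := rfl
      rw [e, map_sub, map_one, htr, sub_self]
    obtain ⟨c₁, hc₁n, hc₁0, hs⟩ := h75q_exists_scale_of_red_zero A N hℓ hA h1 hmem hred
    refine ⟨c₁, hc₁0, hc₁n, cst N γ, hγc, cst N c₁⁻¹ * (t - 1), hs, ?_⟩
    rw [hw, ← mul_assoc (cst N c₁), ← map_mul, mul_inv_cancel₀ hc₁0, map_one, one_mul]
    congr 1
    ring

end Start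

/-! ## G-NEW-p -/

section Gate

/-- the norm of `b u / u` is an `r`-th power if the norm of `u` is. -/
theorem h74g_norm_quot {N N' : ℕ} (φ : FF N →ₐ[Kbar] FF N') (hfin : FiniteAlong Kbar φ)
    (b : GQ) (hφ : ∀ y : FF N', gal N b • normAlong φ y = normAlong φ (gal N' b • y))
    {r : ℕ} {u : FF N'} (hu : u ≠ 0) (hn : ∃ g : FF N, normAlong φ u = g ^ r) :
    ∃ g : FF N, normAlong φ (gal N' b • u / u) = g ^ r := by
  obtain ⟨g, hg⟩ := hn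
  have hnu : normAlong φ u ≠ 0 := h74g_normAlong_ne_zero φ hfin hu
  refine ⟨gal N b • g / g, ?_⟩
  have h1 : normAlong φ (gal N' b • u / u) * normAlong φ u = normAlong φ (gal N' b • u) := by
    rw [← normAlong_mul]
    congr 1
    field_simp
  rw [div_pow, ← smul_pow', ← hg, hφ]
  exact (eq_div_iff hnu).mpr h1

/-- **G-NEW-p** (function form): for `b` in the inertia group at `A` over `ℓ ∤ M` and
`u ∈ F_{Mℓ}ˣ` whose norms along `α` and `β` are `r`-th powers (`r ≠ 0` any exponent, `r = ℓ ^ n`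
in the application), the class of `b u / u` modulo `r`-th powers is `≡ 1` modulo `e W_∞` and
modulo `e W_0`, for EVERY `e ≠ 0` in `A`. -/
def h74gNewGateP : Prop :=
  ∀ (ℓ : ℕ) (hℓ : ℓ.Prime) (M : ℕ) [NeZero M] (hM : ¬ ℓ ∣ M),
    haveI : NeZero ℓ := ⟨hℓ.ne_zero⟩
    ∀ A : ValuationSubring Kbar, A.LiesOverPrime ℓ → ∀ b ∈ A.inertiaSubgroupIn ℚ,
    ∀ r : ℕ, r ≠ 0 → ∀ u : FF (M * ℓ), u ≠ 0 →
      (∃ h : FF M, normAlong (heckeAlphaBar Kbar M ℓ) u = h ^ r) →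
      (∃ h : FF M, normAlong (heckeBetaBar Kbar M ℓ) u = h ^ r) →
      ∀ e : Kbar, e ≠ 0 → e ∈ A →
        h74gDeepInf A (M * ℓ) r e (gal (M * ℓ) b • u / u) ∧
        h74gDeepZero A M ℓ hℓ hM r e (gal (M * ℓ) b • u / u)

theorem h74g_newGateP : h74gNewGateP := by
  intro ℓ hℓ M _ hM
  haveI : NeZero ℓ := ⟨hℓ.ne_zero⟩
  intro A hA b hb r hr u hu hnα hnβ e he0 he
  have hgu : gal (M * ℓ) b • u ≠ 0 := by
    intro h
    apply hu
    have := congrArg (fun y => (gal (M * ℓ) b)⁻¹ • y) h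
    simpa using this
  have hw0 : gal (M * ℓ) b • u / u ≠ 0 := div_ne_zero hgu hu
  obtain ⟨c₀, hc₀0, hc₀n, hstart⟩ := h74g_start A (M * ℓ) hℓ hA hb hr hu
  have h1 := h74g_norm_quot (heckeAlphaBar Kbar M ℓ)
    (Fermat.Agent.Red.HKMod.finiteAlong_heckeAlphaBar M ℓ) b
    (fun y => Fermat.Agent.S36.h78b_gal_norm_alpha M ℓ b y) hu hnα
  have h2 := h74g_norm_quot (heckeBetaBar Kbar M ℓ)
    (Fermat.Agent.Red.HKMod.finiteAlong_heckeBetaBar M ℓ) b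
    (fun y => Fermat.Agent.S36.h78b_gal_norm_beta M ℓ b y) hu hnβ
  exact h74g_deep_all A M ℓ hℓ hM hA hr hw0 h1 h2 hc₀0 hc₀n hstart he0 he

end Gate

end Fermat.Agent.P6
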