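import Fermat.Agent.S35.H31Desc
import Fermat.Agent.S35.H33Tors
import Fermat.Agent.P6.H11NewIface
import Fermat.Agent.P6.H74NewGate

/-!
# Wave 6 (S33), block B2, row B2-KUM (helper25): the Kummer dictionary for the frozen plus form

`h25p_starNewPlus_of_twGate : H11TwGate → H11StarNewPlus` (frozen `Prop`s of
`P6/H11NewIface.lean`), with the exponent `t = 1`, and the corollary
`h25p_starNewPlus_of_tor : H11TorGate → H11StarNewPlus`.

Steps (`p` prime, `p ∤ M`, `A` over `p`, `I` the inertia group of `A`, `n = p ^ k`):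

* `h25pStart A N r x` : the start congruence: `x = H ^ r * (1 + c s)`, `H ≠ 0`, `s ∈ W_∞`, for
  some NONZERO `c ∈ 𝔪_A`.  It is stable under products and inverses (`h25p_start_mul`,
  `h25p_start_inv`) and holds for `b f / f`, `b ∈ I` (`h25p_start_gal`, from the landed
  `h74g_start`).
* `h25p_exists_kummer` : every class `u` in the subgroup generated by the `b x - x`, `b ∈ I`,
  `n x = 0`, has a Kummer representative with the start congruence.
* `H25pTwGateAt p M A τ` : the function form `H11TwGate` at one level; `h25p_twGateAt_descent` :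
  the function form at the good level above `M` gives the function form at `M` (the start
  congruence goes up by `degen_mem_softV_iff`, the root comes down by `h63_descent_pow`).
* `h25p_class_of_gateAt` : the class form at one level from the function form.

Nothing is assumed.
-/

set_option autoImplicit false
set_option linter.unusedSectionVars false
set_option linter.unusedVariables false
set_option linter.style.haveILetI false
set_option synthInstance.maxHeartbeats 400000

open AlgebraicCurve ModularCurve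

noncomputable section

namespace Fermat.Agent.P6

open Fermat.Agent.S37 Fermat.Agent.Red.KR Fermat.Agent.Red.Kron Fermat.Agent.Red.TRK
  Fermat.Agent.LGC Fermat.Agent.Red.GateAll Fermat.Agent.S35
open Fermat.Agent.Red.GV Fermat.Agent.Red.GV.Soft
open Fermat.Agent.Jac.K1 (IsKummerPair exists_kummerPair_JZero)

/-! ## The start congruence -/

section Start

variable (A : ValuationSubring Kbar) (N : ℕ)

/-- **the start congruence**: `x` is an `r`-th power modulo `c W_∞` for some nonzero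
`c ∈ 𝔪_A`. -/
def h25pStart (r : ℕ) (x : FF N) : Prop :=
  ∃ c : Kbar, c ≠ 0 ∧ c ∈ A.nonunits ∧ h74gDeepInf A N r c x

theorem h25p_start_one {ℓ : ℕ} (hℓ : ℓ.Prime) (hA : A.LiesOverPrime ℓ) (r : ℕ) :
    h25pStart A N r (1 : FF N) := by
  have hℓ0 : (ℓ : Kbar) ≠ 0 := by exact_mod_cast hℓ.ne_zero
  refine ⟨ℓ, hℓ0, hA, 1, one_ne_zero, 0, zero_mem _, ?_⟩
  rw [one_pow, mul_zero, add_zero, mul_one]

/-- two start congruences have a common depth. -/
theorem h25p_start_common {r : ℕ} {x y : FF N} (hx : h25pStart A N r x)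
    (hy : h25pStart A N r y) :
    ∃ c : Kbar, c ≠ 0 ∧ c ∈ A.nonunits ∧ h74gDeepInf A N r c x ∧ h74gDeepInf A N r c y := by
  obtain ⟨c₁, h10, h1n, h1⟩ := hx
  obtain ⟨c₂, h20, h2n, h2⟩ := hy
  rcases A.mem_or_inv_mem (c₁ * c₂⁻¹) with h | h
  · exact ⟨c₂, h20, h2n, h74g_deep_mono A N h20 h h1, h2⟩
  · rw [mul_inv, inv_inv, mul_comm] at h
    exact ⟨c₁, h10, h1n, h1, h74g_deep_mono A N h10 h h2⟩

theorem h25p_start_mul {r : ℕ} {x y : FF N} (hx : h25pStart A N r x)
    (hy : h25pStart A N r y) : h25pStart A N r (x * y) := by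
  obtain ⟨c, hc0, hcn, ⟨H₁, hH₁, s₁, hs₁, e₁⟩, ⟨H₂, hH₂, s₂, hs₂, e₂⟩⟩ :=
    h25p_start_common A N hx hy
  have hcV : cst N c ∈ softV A N := (cst_mem_softV_iff A N c).mpr (A.nonunits_subset hcn)
  refine ⟨c, hc0, hcn, H₁ * H₂, mul_ne_zero hH₁ hH₂, s₁ + s₂ + cst N c * s₁ * s₂,
    add_mem (add_mem hs₁ hs₂) (mul_mem (mul_mem hcV hs₁) hs₂), ?_⟩
  rw [e₁, e₂]
  ring

theorem h25p_start_inv {r : ℕ} {x : FF N} (hx : h25pStart A N r x) :
    h25pStart A N r x⁻¹ := by
  obtain ⟨c, hc0, hcn, H, hH, s, hs, e⟩ := hx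
  obtain ⟨-, s', hs', hinv⟩ := h74g_one_add_inv A N hcn hs
  refine ⟨c, hc0, hcn, H⁻¹, inv_ne_zero hH, s', hs', ?_⟩
  rw [e, mul_inv, hinv, inv_pow]

theorem h25p_start_gal {ℓ : ℕ} (hℓ : ℓ.Prime) (hA : A.LiesOverPrime ℓ) {b : GQ}
    (hb : b ∈ A.inertiaSubgroupIn ℚ) {r : ℕ} (hr : r ≠ 0) {u : FF N} (hu : u ≠ 0) :
    h25pStart A N r (gal N b • u / u) :=
  h74g_start A N hℓ hA hb hr hu

end Start

/-! ## Kummer representatives with the start congruence -/

/-- **every class in the subgroup generated by the `b x - x`, `b` in the inertia group,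
`n x = 0`, has a Kummer representative with the start congruence.** -/
theorem h25p_exists_kummer (A : ValuationSubring Kbar) {ℓ : ℕ} (hℓ : ℓ.Prime)
    (hA : A.LiesOverPrime ℓ) (N : ℕ) [NeZero N] {n : ℕ} (hn : n ≠ 0) {u : JZero N}
    (hu : u ∈ AddSubgroup.closure {y : JZero N | ∃ b ∈ A.inertiaSubgroupIn ℚ,
      ∃ x : JZero N, n • x = 0 ∧ y = b • x - x}) :
    ∃ w : FF N, IsKummerPair n u w ∧ h25pStart A N n w := by
  induction hu using AddSubgroup.closure_induction with
  | mem y hy =>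
    obtain ⟨b, hb, x, hx, rfl⟩ := hy
    obtain ⟨f, hf⟩ := exists_kummerPair_JZero N hx
    exact ⟨gal N b • f / f, (hf.smul (gal N b)).div hf,
      h25p_start_gal A N hℓ hA hb hn hf.ne_zero⟩
  | zero => exact ⟨1, IsKummerPair.one, h25p_start_one A N hℓ hA n⟩
  | add x y _ _ ihx ihy =>
    obtain ⟨f, hf, hfs⟩ := ihx
    obtain ⟨g, hg, hgs⟩ := ihy
    exact ⟨f * g, hf.mul hg, h25p_start_mul A N hfs hgs⟩
  | neg x _ ihx =>
    obtain ⟨f, hf, hfs⟩ := ihx
    exact ⟨f⁻¹, hf.inv, h25p_start_inv A N hfs⟩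

/-! ## The function form at one level -/

/-- **the function form `H11TwGate` at one level `M * p`.** -/
def H25pTwGateAt (p M : ℕ) [NeZero M] [NeZero p] (A : ValuationSubring Kbar) (τ : GQ) : Prop :=
  ∀ (k a : ℕ), H11Cyc p k τ a →
    ∀ z : FF (M * p), z ≠ 0 →
      (∀ v : Place Kbar (FF (M * p)), ((p ^ k : ℕ) : ℤ) ∣ v.ord z) →
      h94iNew M p (p ^ k) z →
      (∃ c ∈ A.nonunits, h94iDeep A M p (p ^ k) z c) →
        ∃ h : FF (M * p), h ^ (p ^ k) = h11Theta (M * p) τ a z

theorem h25p_theta_ne_zero (N : ℕ) (τ : GQ) (a : ℕ) {z : FF N} (hz : z ≠ 0) :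
    h11Theta N τ a z ≠ 0 := by
  unfold h11Theta
  exact div_ne_zero (gal_smul_ne_zero τ hz) (pow_ne_zero _ hz)

/-- the twisted difference commutes with the degeneracy inclusions. -/
theorem h25p_theta_degen {N N' : ℕ} [NeZero N] [NeZero N'] (h : N ∣ N') (τ : GQ) (a : ℕ)
    (z : FF N) : degen h (h11Theta N τ a z) = h11Theta N' τ a (degen h z) := by
  unfold h11Theta
  rw [map_div₀, map_pow, h63_degen_gal]

/-- the divisor of the twisted difference is divisible by `m` if the divisor of `z` is. -/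
theorem h25p_dvd_ord_theta {N : ℕ} (τ : GQ) (a : ℕ) {m : ℕ} {z : FF N} (hz : z ≠ 0)
    (hord : ∀ v : Place Kbar (FF N), (m : ℤ) ∣ v.ord z) (v : Place Kbar (FF N)) :
    (m : ℤ) ∣ v.ord (h11Theta N τ a z) := by
  have hτ := h31s_dvd_ord_gal τ hord
  have hτz : gal N τ • z ≠ 0 := gal_smul_ne_zero τ hz
  unfold h11Theta
  rw [div_eq_mul_inv, Place.ord_mul _ hτz (inv_ne_zero (pow_ne_zero _ hz)), Place.ord_inv,
    ← zpow_natCast, Place.ord_zpow]
  exact dvd_add (hτ v) ((dvd_neg).2 (Dvd.dvd.mul_left (hord v) _))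

/-- the start congruence goes up along the degeneracy inclusions. -/
theorem h25p_deep_degen (A : ValuationSubring Kbar) {N N' : ℕ} [NeZero N] [NeZero N']
    (h : N ∣ N') {r : ℕ} {c : Kbar} {z : FF N} (hz : h74gDeepInf A N r c z) :
    h74gDeepInf A N' r c (degen h z) := by
  obtain ⟨H, hH, s, hs, e⟩ := hz
  refine ⟨degen h H, h31s_degen_ne_zero h hH, degen h s,
    (degen_mem_softV_iff A h s).mpr hs, ?_⟩
  have hcc : degen h (cst N c) = cst N' c := (degen h).commutes c
  rw [e, map_mul, map_pow, map_add, map_one, map_mul, hcc]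

/-- **descent**: the function form at the good level above `M` gives the function form at
`M`. -/
theorem h25p_twGateAt_descent {p : ℕ} (hp : p.Prime) (M : ℕ) [NeZero M] (hpM : ¬ p ∣ M)
    (A : ValuationSubring Kbar) (τ : GQ)
    (H : haveI : NeZero p := ⟨hp.ne_zero⟩; H25pTwGateAt p (goodLevel p M) A τ) :
    haveI : NeZero p := ⟨hp.ne_zero⟩; H25pTwGateAt p M A τ := by
  haveI : NeZero p := ⟨hp.ne_zero⟩
  intro k a ha z hz hord hnew hstart
  have hm0 : p ^ k ≠ 0 := pow_ne_zero _ hp.ne_zero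
  have hd : M ∣ goodLevel p M := dvd_goodLevel p M
  have hdq : M * p ∣ goodLevel p M * p := Nat.mul_dvd_mul_right hd p
  obtain ⟨⟨h₁, hh₁⟩, ⟨h₂, hh₂⟩⟩ := hnew
  obtain ⟨c, hcn, hc⟩ := hstart
  obtain ⟨h', hh'⟩ := H k a ha (degen hdq z) (h31s_degen_ne_zero hdq hz)
    (by
      intro v
      rw [Place.ord_restrictAlong (degen hdq) (h99_isIntegral_degen _) v z]
      exact Dvd.dvd.mul_left (hord _) _)
    ⟨⟨degen hd h₁, by
        have e := h31s_norm_alpha_degen p hp hpM (not_dvd_goodLevel hp hpM) hd z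
        have e' : normAlong (heckeAlphaBar Kbar M p) z = h₁ ^ p ^ k := hh₁
        rw [e'] at e
        rw [← map_pow]
        exact e⟩,
      ⟨degen hd h₂, by
        have e := h31s_norm_beta_degen p hp hpM (not_dvd_goodLevel hp hpM) hd z
        have e' : normAlong (heckeBetaBar Kbar M p) z = h₂ ^ p ^ k := hh₂
        rw [e'] at e
        rw [← map_pow]
        exact e⟩⟩
    ⟨c, hcn, h25p_deep_degen A hdq hc⟩
  rw [← h25p_theta_degen hdq] at hh'
  have hw : h11Theta (M * p) τ a z ≠ 0 := h25p_theta_ne_zero _ τ a hz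
  have hgl := h31s_goodLevel_mul_dvd hp hpM
  obtain ⟨h, hh⟩ := h63_descent_pow p (M * p) (p ^ k) hm0 (h11Theta (M * p) τ a z) hw
    (h25p_dvd_ord_theta τ a hz hord)
    ⟨degen hgl h', by rw [← map_pow, hh', h31s_degen_degen]⟩
  exact ⟨h, hh⟩

/-! ## From functions to divisor classes -/

/-- the twisted difference of a Kummer representative represents the twisted difference of
the class. -/
theorem h25p_kummer_theta (N : ℕ) (τ : GQ) (a : ℕ) {n : ℕ} {u : JZero N} {w : FF N}
    (hw : IsKummerPair n u w) :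
    IsKummerPair n (gal N τ • u - a • u) (h11Theta N τ a w) :=
  (hw.smul (gal N τ)).div (h33s_kummer_nsmul hw a)

/-- **the class identity from one root.** -/
theorem h25p_class_of_pow (N : ℕ) [NeZero N] (τ : GQ) (a : ℕ) {n : ℕ} (hn : n ≠ 0)
    {u : JZero N} {w : FF N} (hw : IsKummerPair n u w) (H : FF N)
    (hH : H ^ n = h11Theta N τ a w) : τ • u = a • u := by
  have h0 := Fermat.Agent.Red.EST.h76_kummer_eq_zero_of_pow hn (h25p_kummer_theta N τ a hw) hH
  exact sub_eq_zero.mp h0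

/-- **the class form at the level `M * p`, from the function form at this level.** -/
theorem h25p_class_of_gateAt {p : ℕ} (hp : p.Prime) (M : ℕ) [NeZero M]
    (A : ValuationSubring Kbar) (hA : A.LiesOverPrime p) (τ : GQ)
    (H : haveI : NeZero p := ⟨hp.ne_zero⟩; H25pTwGateAt p M A τ) :
    haveI : NeZero p := ⟨hp.ne_zero⟩
    ∀ k a : ℕ, H11Cyc p k τ a →
      ∀ u : JZero (M * p), pushAlpha M p u = 0 → pushBeta M p u = 0 →
        u ∈ AddSubgroup.closure {y : JZero (M * p) | ∃ b ∈ A.inertiaSubgroupIn ℚ,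
          ∃ x : JZero (M * p), (p ^ k) • x = 0 ∧ y = b • x - x} →
        τ • u = a • u := by
  haveI : NeZero p := ⟨hp.ne_zero⟩
  intro k a ha u hα hβ hu
  have hn : p ^ k ≠ 0 := pow_ne_zero _ hp.ne_zero
  obtain ⟨w, hw, c, hc0, hcn, hc⟩ := h25p_exists_kummer A hp hA (M * p) hn hu
  obtain ⟨g₁, -, hg₁⟩ := h33s_norm_eq_pow_of_pushAlpha M p hn hw hα
  obtain ⟨g₂, -, hg₂⟩ := h33s_norm_eq_pow_of_pushBeta M p hn hw hβ
  obtain ⟨h, hh⟩ := H k a ha w hw.ne_zero (fun v => hw.dvd_ord v)
    ⟨⟨g₁, hg₁⟩, ⟨g₂, hg₂⟩⟩ ⟨c, hcn, hc⟩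
  exact h25p_class_of_pow (M * p) τ a hn hw h hh

/-! ## The frozen statements -/

/-- **B2-KUM (frozen plus form)**: the function form at the good levels gives the torsion
form at all levels, with the exponent `t = 1`. -/
theorem h25p_starNewPlus_of_twGate (hG : H11TwGate) : H11StarNewPlus := by
  intro p hp hp2 M _ hpM
  haveI : NeZero p := ⟨hp.ne_zero⟩
  refine ⟨1, one_pos, ?_⟩
  intro k P hP a ha e he u _ hα hβ hu
  have hgate : H25pTwGateAt p M P a :=
    h25p_twGateAt_descent hp M hpM P a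
      (hG p hp hp2 (goodLevel p M) (not_dvd_goodLevel hp hpM) (auxLevel_dvd_goodLevel p M)
        P hP a ha)
  have h := h25p_class_of_gateAt hp M P hP a hgate k e he u hα hβ hu
  rw [one_nsmul, one_nsmul]
  exact h

/-- **the conditional top of B2**: the gate on the toric part gives the torsion form. -/
theorem h25p_starNewPlus_of_tor (hT : H11TorGate) : H11StarNewPlus :=
  h25p_starNewPlus_of_twGate (h11n_twGate_of_tor hT)

end Fermat.Agent.P6
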