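import Mathlib

/-!
# P6 (wave 6, S33), row B2-DEPTH-ITER (helper27): the depth iteration, abstract form

Setting: `K` a field with a valuation subring `A` (the constants, rank one), `F` a field,
`cst : K →+* F`, two subrings `O₁, O₂ ⊆ F` (the two Gauss valuation rings `W_∞`, `W_0` of the
two-component model), `r` an exponent (`r = p ^ n`), `ν₁, ν₂ : F →* F` (the maps
`α ∘ Nm_α`, `β ∘ Nm_β`).

* `h27iU cst c O` : the set `1 + c · O`;  `h27iS cst c O` : the set `c · O`.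
* `h27i_step` : one step.  If `x ≡ 1` modulo `c` at `O'`, the depth lemma holds for `x`
  (`ν x = x (1 + d z)`, `z ∈ O`), `ν x = h ^ r` and `E` is a partition of unity
  (`E ≡ 1` modulo `d` at `O`, `E ≡ 0` modulo `c` at `O'`), then `G = 1 + E (h - 1)` satisfies
  `x / G ^ r ≡ 1` modulo `d` at `O` and modulo `c` at `O'`.
* `h27i_partition` : a partition of unity of some depth gives partitions of unity of every
  depth (`E = 1 - (1 - E₁ ^ n) ^ n`).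
* `h27i_iter` : **the iteration.**  If `w ≡ 1` modulo `c₀` at both rings, `ν₁ w` and `ν₂ w`
  are `r`-th powers, and the depth lemma holds in both directions (depth `c` at one ring gives
  depth `d` at the other one for the norm, as soon as `d ∣ c p` and `d ∣ c ^ 2`), then for every
  `t ≠ 0` there is `G ≠ 0` with `w / G ^ r ≡ 1` modulo `t` at both rings.
* `h27i_iter'` : the same with `μ` chosen automatically and the conclusion in `O₁ ⊓ O₂`.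
-/

set_option autoImplicit false

namespace Fermat.Agent.P6

section Abs

variable {K F : Type*} [Field K] [Field F]

/-- the set `1 + c · O`. -/
def h27iU (cst : K →+* F) (c : K) (O : Subring F) : Set F :=
  {y | ∃ z ∈ O, y = 1 + cst c * z}

/-- the set `c · O`. -/
def h27iS (cst : K →+* F) (c : K) (O : Subring F) : Set F :=
  {y | ∃ z ∈ O, y = cst c * z}

variable {cst : K →+* F} {O : Subring F}

theorem h27iU_one (c : K) : (1 : F) ∈ h27iU cst c O := ⟨0, O.zero_mem, by simp⟩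

theorem h27iU_mul {c : K} (hc : cst c ∈ O) {y y' : F} (hy : y ∈ h27iU cst c O)
    (hy' : y' ∈ h27iU cst c O) : y * y' ∈ h27iU cst c O := by
  obtain ⟨z, hz, rfl⟩ := hy
  obtain ⟨z', hz', rfl⟩ := hy'
  exact ⟨z + z' + cst c * z * z',
    O.add_mem (O.add_mem hz hz') (O.mul_mem (O.mul_mem hc hz) hz'), by ring⟩

theorem h27iU_pow {c : K} (hc : cst c ∈ O) {y : F} (hy : y ∈ h27iU cst c O) (n : ℕ) :
    y ^ n ∈ h27iU cst c O := by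
  induction n with
  | zero => rw [pow_zero]; exact h27iU_one c
  | succ n ih => rw [pow_succ]; exact h27iU_mul hc ih hy

theorem h27iU_mem {c : K} (hc : cst c ∈ O) {y : F} (hy : y ∈ h27iU cst c O) : y ∈ O := by
  obtain ⟨z, hz, rfl⟩ := hy
  exact O.add_mem O.one_mem (O.mul_mem hc hz)

theorem h27iU_mono {c c' a : K} (ha : cst a ∈ O) (h : c = c' * a) {y : F}
    (hy : y ∈ h27iU cst c O) : y ∈ h27iU cst c' O := by
  obtain ⟨z, hz, rfl⟩ := hy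
  exact ⟨cst a * z, O.mul_mem ha hz, by rw [h, map_mul]; ring⟩

theorem h27iS_mono {c c' a : K} (ha : cst a ∈ O) (h : c = c' * a) {y : F}
    (hy : y ∈ h27iS cst c O) : y ∈ h27iS cst c' O := by
  obtain ⟨z, hz, rfl⟩ := hy
  exact ⟨cst a * z, O.mul_mem ha hz, by rw [h, map_mul]; ring⟩

theorem h27iU_ne_zero {c : K} (hnz : ∀ z ∈ O, 1 + cst c * z ≠ 0) {y : F}
    (hy : y ∈ h27iU cst c O) : y ≠ 0 := by
  obtain ⟨z, hz, rfl⟩ := hy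
  exact hnz z hz

theorem h27iU_inv {c : K} (hinv : ∀ z ∈ O, (1 + cst c * z)⁻¹ ∈ O)
    (hnz : ∀ z ∈ O, 1 + cst c * z ≠ 0) {y : F} (hy : y ∈ h27iU cst c O) :
    y⁻¹ ∈ h27iU cst c O := by
  obtain ⟨z, hz, rfl⟩ := hy
  refine ⟨-(z * (1 + cst c * z)⁻¹), O.neg_mem (O.mul_mem hz (hinv z hz)), ?_⟩
  have h0 := hnz z hz
  field_simp
  ring

/-- membership in `1 + c (O₁ ⊓ O₂)` from the two memberships. -/
theorem h27iU_inf {O₁ O₂ : Subring F} {c : K} (hc : c ≠ 0) {y : F}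
    (h1 : y ∈ h27iU cst c O₁) (h2 : y ∈ h27iU cst c O₂) : y ∈ h27iU cst c (O₁ ⊓ O₂) := by
  obtain ⟨z, hz, e⟩ := h1
  obtain ⟨z', hz', e'⟩ := h2
  have hcc : cst c ≠ 0 := (map_ne_zero cst).mpr hc
  have hzz : z = z' := by
    have h : cst c * z = cst c * z' := by
      have := e.symm.trans e'
      linear_combination this
    exact mul_left_cancel₀ hcc h
  exact ⟨z, ⟨hz, hzz ▸ hz'⟩, e⟩

end Abs

section Step

variable {K F : Type*} [Field K] [Field F]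

/-- **One step of the depth iteration.** -/
theorem h27i_step (cst : K →+* F) (O O' : Subring F)
    (r : ℕ) (hr : 0 < r)
    (hroot : ∀ y : F, y ^ r ∈ O → y ∈ O) (hroot' : ∀ y : F, y ^ r ∈ O' → y ∈ O')
    (ν : F →* F) (hR : ∀ y : F, ν y ∈ O → ν y ∈ O')
    (a c d : K) (ha : cst a ∈ O) (hc : cst c ∈ O') (hd : cst d ∈ O)
    (hinva : ∀ z ∈ O, (1 + cst a * z)⁻¹ ∈ O) (hnza : ∀ z ∈ O, 1 + cst a * z ≠ 0)
    (hinvd : ∀ z ∈ O, (1 + cst d * z)⁻¹ ∈ O) (hnzd : ∀ z ∈ O, 1 + cst d * z ≠ 0)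
    (hinvc : ∀ z ∈ O', (1 + cst c * z)⁻¹ ∈ O') (hnzc : ∀ z ∈ O', 1 + cst c * z ≠ 0)
    (x : F) (hxa : x ∈ h27iU cst a O) (hxc : x ∈ h27iU cst c O')
    (hD : ∃ z ∈ O, ν x = x * (1 + cst d * z))
    (E : F) (hE : E ∈ h27iU cst d O) (hE' : E ∈ h27iS cst c O')
    (h : F) (hh : ν x = h ^ r) :
    ∃ G : F, G ≠ 0 ∧ x / G ^ r ∈ h27iU cst d O ∧ x / G ^ r ∈ h27iU cst c O' := by
  have hx0 : x ≠ 0 := h27iU_ne_zero hnzc hxc
  have hxO : x ∈ O := h27iU_mem ha hxa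
  have hxiO : x⁻¹ ∈ O := h27iU_mem ha (h27iU_inv hinva hnza hxa)
  obtain ⟨z, hz, hν⟩ := hD
  have hu0 : (1 + cst d * z) ≠ 0 := hnzd z hz
  have hνO : ν x ∈ O := by
    rw [hν]; exact O.mul_mem hxO (O.add_mem O.one_mem (O.mul_mem hd hz))
  have hνinv : ν x⁻¹ = (ν x)⁻¹ := by
    apply eq_inv_of_mul_eq_one_right
    rw [← map_mul, mul_inv_cancel₀ hx0, map_one]
  have hνiO : ν x⁻¹ ∈ O := by
    rw [hνinv, hν, mul_inv]
    exact O.mul_mem hxiO (hinvd z hz)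
  have hν0 : ν x ≠ 0 := by rw [hν]; exact mul_ne_zero hx0 hu0
  have hh0 : h ≠ 0 := by
    rintro rfl
    rw [zero_pow hr.ne'] at hh
    exact hν0 hh
  have hhO : h ∈ O := hroot h (hh ▸ hνO)
  have hhiO : h⁻¹ ∈ O := by
    apply hroot
    rw [inv_pow, ← hh, ← hνinv]
    exact hνiO
  have hhO' : h ∈ O' := hroot' h (hh ▸ hR x hνO)
  obtain ⟨e₁, he₁, hE1⟩ := hE
  obtain ⟨e₂, he₂, hE2⟩ := hE'
  set G : F := 1 + E * (h - 1) with hG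
  -- at `O'`
  have hGU' : G ∈ h27iU cst c O' :=
    ⟨e₂ * (h - 1), O'.mul_mem he₂ (O'.sub_mem hhO' O'.one_mem), by rw [hG, hE2]; ring⟩
  have hG0 : G ≠ 0 := h27iU_ne_zero hnzc hGU'
  have hx' : x / G ^ r ∈ h27iU cst c O' := by
    rw [div_eq_mul_inv]
    exact h27iU_mul hc hxc (h27iU_inv hinvc hnzc (h27iU_pow hc hGU' r))
  -- at `O`
  set u : F := 1 + cst d * (e₁ * (h - 1) * h⁻¹) with hu
  have huU : u ∈ h27iU cst d O :=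
    ⟨e₁ * (h - 1) * h⁻¹, O.mul_mem (O.mul_mem he₁ (O.sub_mem hhO O.one_mem)) hhiO, rfl⟩
  have hGhu : G = h * u := by
    rw [hG, hu, hE1]
    field_simp
    ring
  have hzU : (1 + cst d * z) ∈ h27iU cst d O := ⟨z, hz, rfl⟩
  have hprod : (1 + cst d * z) * u ^ r ∈ h27iU cst d O :=
    h27iU_mul hd hzU (h27iU_pow hd huU r)
  have hx : x / G ^ r ∈ h27iU cst d O := by
    have e : x / G ^ r = ((1 + cst d * z) * u ^ r)⁻¹ := by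
      have hur0 : u ^ r ≠ 0 := pow_ne_zero r (h27iU_ne_zero hnzd huU)
      rw [hGhu, mul_pow, ← hh, hν]
      field_simp
    rw [e]
    exact h27iU_inv hinvd hnzd hprod
  exact ⟨G, hG0, hx, hx'⟩

end Step

section Iter

variable {K F : Type*} [Field K] [Field F]

theorem h27i_nonunits_mul (A : ValuationSubring K) {x a : K} (hx : x ∈ A.nonunits)
    (ha : a ∈ A) : x * a ∈ A.nonunits := by
  rw [ValuationSubring.mem_nonunits_iff] at hx ⊢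
  rw [map_mul]
  have h1 : A.valuation a ≤ 1 := (A.valuation_le_one_iff a).mpr ha
  exact lt_of_le_of_lt (mul_le_of_le_one_right' h1) hx

theorem h27i_nonunits_mem (A : ValuationSubring K) {x : K} (hx : x ∈ A.nonunits) : x ∈ A := by
  rw [ValuationSubring.mem_nonunits_iff] at hx
  exact (A.valuation_le_one_iff x).mp hx.le

/-- **Partitions of unity of every depth** from one partition of unity. -/
theorem h27i_partition (A : ValuationSubring K) (cst : K →+* F) (O₁ O₂ : Subring F)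
    (hcO₁ : ∀ a ∈ A, cst a ∈ O₁) (hcO₂ : ∀ a ∈ A, cst a ∈ O₂)
    (harch : ∀ μ ∈ A.nonunits, μ ≠ 0 → ∀ t : K, t ≠ 0 → ∃ k : ℕ, μ ^ k * t⁻¹ ∈ A)
    (π : K) (hπ : π ∈ A.nonunits) (hπ0 : π ≠ 0)
    (E₁ : F) (h1 : E₁ ∈ h27iU cst π O₁) (h2 : E₁ ∈ h27iS cst π O₂) :
    ∀ c : K, c ≠ 0 → ∃ E : F, E ∈ h27iU cst c O₁ ∧ E ∈ h27iS cst c O₂ := by
  intro c hc
  obtain ⟨k, hk⟩ := harch π hπ hπ0 c hc
  have hπA : π ∈ A := h27i_nonunits_mem A hπ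
  have hn : π ^ (k + 1) * c⁻¹ ∈ A := by
    have e : π ^ (k + 1) * c⁻¹ = π ^ k * c⁻¹ * π := by rw [pow_succ]; ring
    rw [e]
    exact mul_mem hk hπA
  have hpn : π ^ (k + 1) = c * (π ^ (k + 1) * c⁻¹) := by field_simp
  have hπn : π ^ (k + 1) ∈ A := A.pow_mem hπA _
  refine ⟨1 - (1 - E₁ ^ (k + 1)) ^ (k + 1), ?_, ?_⟩
  · obtain ⟨e', he', hE⟩ := h27iU_pow (hcO₁ π hπA) h1 (k + 1)
    apply h27iU_mono (hcO₁ _ hn) hpn
    refine ⟨-((-e') ^ (k + 1)), O₁.neg_mem (O₁.pow_mem (O₁.neg_mem he') _), ?_⟩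
    rw [hE, map_pow]
    ring
  · obtain ⟨e₂, he₂, hE⟩ := h2
    apply h27iS_mono (hcO₂ _ hn) hpn
    have hU : 1 - E₁ ^ (k + 1) ∈ h27iU cst (π ^ (k + 1)) O₂ :=
      ⟨-(e₂ ^ (k + 1)), O₂.neg_mem (O₂.pow_mem he₂ _), by rw [hE, map_pow]; ring⟩
    obtain ⟨z, hz, hzE⟩ := h27iU_pow (hcO₂ _ hπn) hU (k + 1)
    exact ⟨-z, O₂.neg_mem hz, by rw [hzE]; ring⟩

/-- `ν (w / G ^ r)` is an `r`-th power when `ν w` is. -/
theorem h27i_nu_div (ν : F →* F) (r : ℕ) {w G h : F} (hG : G ≠ 0) (hν : ν w = h ^ r) :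
    ν (w / G ^ r) = (h / ν G) ^ r := by
  have hνG : ν G ≠ 0 := by
    intro h0
    have : ν G * ν G⁻¹ = 1 := by rw [← map_mul, mul_inv_cancel₀ hG, map_one]
    rw [h0, zero_mul] at this
    exact zero_ne_one this
  have h1 : ν (w / G ^ r) * ν G ^ r = h ^ r := by
    rw [← map_pow, ← map_mul, div_mul_cancel₀ _ (pow_ne_zero r hG), hν]
  rw [div_pow, eq_div_iff (pow_ne_zero r hνG), h1]

/-- **The depth iteration.** -/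
theorem h27i_iter (A : ValuationSubring K) (cst : K →+* F) (O₁ O₂ : Subring F)
    (hcO₁ : ∀ a ∈ A, cst a ∈ O₁) (hcO₂ : ∀ a ∈ A, cst a ∈ O₂)
    (hinv₁ : ∀ c ∈ A.nonunits, ∀ z ∈ O₁, (1 + cst c * z)⁻¹ ∈ O₁ ∧ 1 + cst c * z ≠ 0)
    (hinv₂ : ∀ c ∈ A.nonunits, ∀ z ∈ O₂, (1 + cst c * z)⁻¹ ∈ O₂ ∧ 1 + cst c * z ≠ 0)
    (r : ℕ) (hr : 0 < r)
    (hroot₁ : ∀ y : F, y ^ r ∈ O₁ → y ∈ O₁) (hroot₂ : ∀ y : F, y ^ r ∈ O₂ → y ∈ O₂)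
    (ν₁ ν₂ : F →* F)
    (hR₁ : ∀ y : F, ν₁ y ∈ O₁ → ν₁ y ∈ O₂) (hR₂ : ∀ y : F, ν₂ y ∈ O₂ → ν₂ y ∈ O₁)
    (p : K)
    (hD₁ : ∀ (x : F) (c d : K), x ≠ 0 → c ∈ A → d ≠ 0 → c * p * d⁻¹ ∈ A → c ^ 2 * d⁻¹ ∈ A →
      x ∈ h27iU cst c O₂ → ∃ z ∈ O₁, ν₁ x = x * (1 + cst d * z))
    (hD₂ : ∀ (x : F) (c d : K), x ≠ 0 → c ∈ A → d ≠ 0 → c * p * d⁻¹ ∈ A → c ^ 2 * d⁻¹ ∈ A →
      x ∈ h27iU cst c O₁ → ∃ z ∈ O₂, ν₂ x = x * (1 + cst d * z))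
    (hE : ∀ c : K, c ≠ 0 → ∃ E : F, E ∈ h27iU cst c O₁ ∧ E ∈ h27iS cst c O₂)
    (harch : ∀ μ ∈ A.nonunits, μ ≠ 0 → ∀ t : K, t ≠ 0 → ∃ k : ℕ, μ ^ k * t⁻¹ ∈ A)
    (hp : p ∈ A)
    (μ : K) (hμ : μ ∈ A.nonunits) (hμ0 : μ ≠ 0) (hμp : p * μ⁻¹ ∈ A)
    (c₀ : K) (hc₀0 : c₀ ≠ 0) (hμc : c₀ * μ⁻¹ ∈ A)
    (w : F) (hw₁ : w ∈ h27iU cst c₀ O₁) (hw₂ : w ∈ h27iU cst c₀ O₂)
    (h₁ h₂ : F) (hν₁ : ν₁ w = h₁ ^ r) (hν₂ : ν₂ w = h₂ ^ r) :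
    ∀ t : K, t ≠ 0 → ∃ G : F, G ≠ 0 ∧ w / G ^ r ∈ h27iU cst t O₁ ∧
      w / G ^ r ∈ h27iU cst t O₂ := by
  have hμA : μ ∈ A := h27i_nonunits_mem A hμ
  have hc₀ : c₀ ∈ A.nonunits := by
    have e : c₀ = μ * (c₀ * μ⁻¹) := by field_simp
    rw [e]
    exact h27i_nonunits_mul A hμ hμc
  -- the invariant
  have key : ∀ k : ℕ, ∃ G : F, G ≠ 0 ∧ w / G ^ r ∈ h27iU cst (c₀ * μ ^ k) O₁ ∧
      w / G ^ r ∈ h27iU cst (c₀ * μ ^ k) O₂ := by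
    intro k
    induction k with
    | zero =>
      refine ⟨1, one_ne_zero, ?_, ?_⟩
      · rw [one_pow, div_one, pow_zero, mul_one]; exact hw₁
      · rw [one_pow, div_one, pow_zero, mul_one]; exact hw₂
    | succ k ih =>
      obtain ⟨G, hG0, hx₁, hx₂⟩ := ih
      set x : F := w / G ^ r with hx
      set c : K := c₀ * μ ^ k with hc
      set d : K := c₀ * μ ^ (k + 1) with hd
      have hdc : d = c * μ := by rw [hd, hc, pow_succ]; ring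
      have hcN : c ∈ A.nonunits := h27i_nonunits_mul A hc₀ (A.pow_mem hμA k)
      have hdN : d ∈ A.nonunits := h27i_nonunits_mul A hc₀ (A.pow_mem hμA (k + 1))
      have hcA : c ∈ A := h27i_nonunits_mem A hcN
      have hdA : d ∈ A := h27i_nonunits_mem A hdN
      have hc0 : c ≠ 0 := mul_ne_zero hc₀0 (pow_ne_zero k hμ0)
      have hd0 : d ≠ 0 := mul_ne_zero hc₀0 (pow_ne_zero (k + 1) hμ0)
      have hx0 : x ≠ 0 := h27iU_ne_zero (fun z hz => (hinv₁ c hcN z hz).2) hx₁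
      -- first step: along `ν₁`
      have hdiv1 : c * p * d⁻¹ ∈ A := by
        have e : c * p * d⁻¹ = p * μ⁻¹ := by rw [hdc]; field_simp
        rw [e]; exact hμp
      have hdiv2 : c ^ 2 * d⁻¹ ∈ A := by
        have e : c ^ 2 * d⁻¹ = c₀ * μ⁻¹ * μ ^ k := by rw [hdc, hc]; field_simp
        rw [e]; exact mul_mem hμc (A.pow_mem hμA k)
      have hD := hD₁ x c d hx0 hcA hd0 hdiv1 hdiv2 hx₂
      obtain ⟨E, hE1, hE2⟩ := hE d hd0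
      have hE2' : E ∈ h27iS cst c O₂ := h27iS_mono (hcO₂ μ hμA) hdc hE2
      obtain ⟨G₁, hG₁0, hy₁, hy₂⟩ := h27i_step cst O₁ O₂ r hr hroot₁ hroot₂ ν₁ hR₁ c c d
        (hcO₁ c hcA) (hcO₂ c hcA) (hcO₁ d hdA)
        (fun z hz => (hinv₁ c hcN z hz).1) (fun z hz => (hinv₁ c hcN z hz).2)
        (fun z hz => (hinv₁ d hdN z hz).1) (fun z hz => (hinv₁ d hdN z hz).2)
        (fun z hz => (hinv₂ c hcN z hz).1) (fun z hz => (hinv₂ c hcN z hz).2)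
        x hx₁ hx₂ hD E hE1 hE2' (h₁ / ν₁ G) (h27i_nu_div ν₁ r hG0 hν₁)
      -- second step: along `ν₂`
      set y : F := x / G₁ ^ r with hy
      have hyw : y = w / (G * G₁) ^ r := by
        rw [hy, hx, mul_pow, div_div]
      have hy0 : y ≠ 0 := h27iU_ne_zero (fun z hz => (hinv₁ d hdN z hz).2) hy₁
      have hdiv3 : d * p * d⁻¹ ∈ A := by
        have e : d * p * d⁻¹ = p := by field_simp
        rw [e]; exact hp
      have hdiv4 : d ^ 2 * d⁻¹ ∈ A := by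
        have e : d ^ 2 * d⁻¹ = d := by field_simp
        rw [e]; exact hdA
      have hD' := hD₂ y d d hy0 hdA hd0 hdiv3 hdiv4 hy₁
      have hGG : G * G₁ ≠ 0 := mul_ne_zero hG0 hG₁0
      obtain ⟨e₁, he₁, hEe₁⟩ := hE1
      obtain ⟨e₂, he₂, hEe₂⟩ := hE2
      have hE1' : 1 - E ∈ h27iU cst d O₂ := ⟨-e₂, O₂.neg_mem he₂, by rw [hEe₂]; ring⟩
      have hE2'' : 1 - E ∈ h27iS cst d O₁ := ⟨-e₁, O₁.neg_mem he₁, by rw [hEe₁]; ring⟩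
      obtain ⟨G₂, hG₂0, hz₂, hz₁⟩ := h27i_step cst O₂ O₁ r hr hroot₂ hroot₁ ν₂ hR₂ c d d
        (hcO₂ c hcA) (hcO₁ d hdA) (hcO₂ d hdA)
        (fun z hz => (hinv₂ c hcN z hz).1) (fun z hz => (hinv₂ c hcN z hz).2)
        (fun z hz => (hinv₂ d hdN z hz).1) (fun z hz => (hinv₂ d hdN z hz).2)
        (fun z hz => (hinv₁ d hdN z hz).1) (fun z hz => (hinv₁ d hdN z hz).2)
        y hy₂ hy₁ hD' (1 - E) hE1' hE2'' (h₂ / ν₂ (G * G₁))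
        (by rw [hyw]; exact h27i_nu_div ν₂ r hGG hν₂)
      refine ⟨G * G₁ * G₂, mul_ne_zero hGG hG₂0, ?_, ?_⟩
      · have e : w / (G * G₁ * G₂) ^ r = y / G₂ ^ r := by
          rw [hyw, mul_pow (G * G₁), div_div]
        rw [e]; exact hz₁
      · have e : w / (G * G₁ * G₂) ^ r = y / G₂ ^ r := by
          rw [hyw, mul_pow (G * G₁), div_div]
        rw [e]; exact hz₂
  intro t ht
  obtain ⟨k, hk⟩ := harch μ hμ hμ0 t ht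
  obtain ⟨G, hG0, h1, h2⟩ := key k
  have hc₀A : c₀ ∈ A := h27i_nonunits_mem A hc₀
  have ha : c₀ * (μ ^ k * t⁻¹) ∈ A := mul_mem hc₀A hk
  have e : c₀ * μ ^ k = t * (c₀ * (μ ^ k * t⁻¹)) := by field_simp
  exact ⟨G, hG0, h27iU_mono (hcO₁ _ ha) e h1, h27iU_mono (hcO₂ _ ha) e h2⟩

/-- **The depth iteration**, with `μ` chosen automatically and the conclusion in `O₁ ⊓ O₂`. -/
theorem h27i_iter' (A : ValuationSubring K) (cst : K →+* F) (O₁ O₂ : Subring F)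
    (hcO₁ : ∀ a ∈ A, cst a ∈ O₁) (hcO₂ : ∀ a ∈ A, cst a ∈ O₂)
    (hinv₁ : ∀ c ∈ A.nonunits, ∀ z ∈ O₁, (1 + cst c * z)⁻¹ ∈ O₁ ∧ 1 + cst c * z ≠ 0)
    (hinv₂ : ∀ c ∈ A.nonunits, ∀ z ∈ O₂, (1 + cst c * z)⁻¹ ∈ O₂ ∧ 1 + cst c * z ≠ 0)
    (r : ℕ) (hr : 0 < r)
    (hroot₁ : ∀ y : F, y ^ r ∈ O₁ → y ∈ O₁) (hroot₂ : ∀ y : F, y ^ r ∈ O₂ → y ∈ O₂)
    (ν₁ ν₂ : F →* F)
    (hR₁ : ∀ y : F, ν₁ y ∈ O₁ → ν₁ y ∈ O₂) (hR₂ : ∀ y : F, ν₂ y ∈ O₂ → ν₂ y ∈ O₁)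
    (p : K)
    (hD₁ : ∀ (x : F) (c d : K), x ≠ 0 → c ∈ A → d ≠ 0 → c * p * d⁻¹ ∈ A → c ^ 2 * d⁻¹ ∈ A →
      x ∈ h27iU cst c O₂ → ∃ z ∈ O₁, ν₁ x = x * (1 + cst d * z))
    (hD₂ : ∀ (x : F) (c d : K), x ≠ 0 → c ∈ A → d ≠ 0 → c * p * d⁻¹ ∈ A → c ^ 2 * d⁻¹ ∈ A →
      x ∈ h27iU cst c O₁ → ∃ z ∈ O₂, ν₂ x = x * (1 + cst d * z))
    (π : K) (hπ : π ∈ A.nonunits) (hπ0 : π ≠ 0)
    (E₁ : F) (hE₁ : E₁ ∈ h27iU cst π O₁) (hE₂ : E₁ ∈ h27iS cst π O₂)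
    (harch : ∀ μ ∈ A.nonunits, μ ≠ 0 → ∀ t : K, t ≠ 0 → ∃ k : ℕ, μ ^ k * t⁻¹ ∈ A)
    (hp : p ∈ A.nonunits) (hp0 : p ≠ 0)
    (c₀ : K) (hc₀ : c₀ ∈ A.nonunits) (hc₀0 : c₀ ≠ 0)
    (w : F) (hw₁ : w ∈ h27iU cst c₀ O₁) (hw₂ : w ∈ h27iU cst c₀ O₂)
    (h₁ h₂ : F) (hν₁ : ν₁ w = h₁ ^ r) (hν₂ : ν₂ w = h₂ ^ r) :
    ∀ t : K, t ≠ 0 → ∃ G : F, G ≠ 0 ∧ w / G ^ r ∈ h27iU cst t (O₁ ⊓ O₂) := by
  have hE := h27i_partition A cst O₁ O₂ hcO₁ hcO₂ harch π hπ hπ0 E₁ hE₁ hE₂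
  have hpA : p ∈ A := h27i_nonunits_mem A hp
  have hcA : c₀ ∈ A := h27i_nonunits_mem A hc₀
  intro t ht
  -- choice of `μ`: the one of `p`, `c₀` of smaller depth
  rcases A.mem_or_inv_mem (p * c₀⁻¹) with h | h
  · -- `c₀ ∣ p`
    obtain ⟨G, hG, h1, h2⟩ := h27i_iter A cst O₁ O₂ hcO₁ hcO₂ hinv₁ hinv₂ r hr hroot₁ hroot₂
      ν₁ ν₂ hR₁ hR₂ p hD₁ hD₂ hE harch hpA c₀ hc₀ hc₀0 h c₀ hc₀0
      (by rw [mul_inv_cancel₀ hc₀0]; exact A.one_mem) w hw₁ hw₂ h₁ h₂ hν₁ hν₂ t ht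
    exact ⟨G, hG, h27iU_inf ht h1 h2⟩
  · -- `p ∣ c₀`
    have h' : c₀ * p⁻¹ ∈ A := by
      have e : c₀ * p⁻¹ = (p * c₀⁻¹)⁻¹ := by rw [mul_inv, inv_inv, mul_comm]
      rw [e]; exact h
    obtain ⟨G, hG, h1, h2⟩ := h27i_iter A cst O₁ O₂ hcO₁ hcO₂ hinv₁ hinv₂ r hr hroot₁ hroot₂
      ν₁ ν₂ hR₁ hR₂ p hD₁ hD₂ hE harch hpA p hp hp0
      (by rw [mul_inv_cancel₀ hp0]; exact A.one_mem) c₀ hc₀0 h' w hw₁ hw₂ h₁ h₂ hν₁ hν₂ t ht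
    exact ⟨G, hG, h27iU_inf ht h1 h2⟩

end Iter

end Fermat.Agent.P6
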