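import Fermat.Agent.P6.H71NewIface
import Fermat.Agent.P6.H27DepthIter
import Fermat.Agent.Red.GateGoodOf

/-!
# P6 (wave 6, S33), block B2 (1) NEW-DEPTH, leaf GLUE (helper27)

`h27g_glue : H71Glue` (the exact frozen Prop of `P6/H71NewIface.lean`): representatives of every
depth at `W_∞` and at `W_0` give ONE representative of every depth at both.

Proof.  `w / g₁^r ∈ 1 + e W_∞`, `w / g₂^r ∈ 1 + e W_0`.  Put `q = g₂ / g₁`, choose constants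
`c₁, c₂ ∈ A` nonzero with `c₁ (q - 1) ∈ W_∞`, `c₂ (q⁻¹ - 1) ∈ W_0`, and a partition of unity
`E` of depth `d = e c₁ c₂` (`E ∈ 1 + d W_∞`, `E ∈ d W_0`; deepening `h27i_partition` of
`h71u_partition`).  Then `h = E g₁ + (1 - E) g₂` satisfies `h / g₁ ∈ 1 + e W_∞` and
`h / g₂ ∈ 1 + e W_0`, hence `w / h^r ∈ 1 + e (W_∞ ∩ W_0)`.
-/

set_option autoImplicit false
set_option linter.style.haveILetI false
set_option linter.unusedSectionVars false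
set_option synthInstance.maxHeartbeats 400000

open AlgebraicCurve ModularCurve IsLocalRing

noncomputable section

namespace Fermat.Agent.P6

open Fermat.Agent.Red.GV Fermat.Agent.Red.GV.Soft Fermat.Agent.Red.Kron Fermat.Agent.LGC
  Fermat.Agent.S37 Fermat.Agent.Red Fermat.Agent.Red.KR

section Glue

variable (A : ValuationSubring Kbar) (M ℓ : ℕ) [NeZero M] [NeZero ℓ]

/-- the Gauss ring at the other component: `W_0 = w⁻¹ (W_∞)`. -/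
def h27gW0 (hℓ : ℓ.Prime) (hM : ¬ ℓ ∣ M) : Subring (FF (M * ℓ)) :=
  (softV A (M * ℓ)).comap ((kFricke M ℓ hℓ hM : FF (M * ℓ) ≃ₐ[Kbar] FF (M * ℓ)) :
    FF (M * ℓ) →+* FF (M * ℓ))

theorem h27g_mem_W0 (hℓ : ℓ.Prime) (hM : ¬ ℓ ∣ M) (x : FF (M * ℓ)) :
    x ∈ h27gW0 A M ℓ hℓ hM ↔ kFricke M ℓ hℓ hM x ∈ softV A (M * ℓ) := Iff.rfl

theorem h27g_fricke_mem_W0 (hℓ : ℓ.Prime) (hM : ¬ ℓ ∣ M) {x : FF (M * ℓ)}
    (hx : x ∈ softV A (M * ℓ)) : kFricke M ℓ hℓ hM x ∈ h27gW0 A M ℓ hℓ hM := by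
  rw [h27g_mem_W0, kFricke_kFricke]
  exact hx

/-- constants of `A` are in `W_∞`. -/
theorem h27g_cst_mem (a : Kbar) (ha : a ∈ A) :
    algebraMap Kbar (FF (M * ℓ)) a ∈ softV A (M * ℓ) :=
  (cst_mem_softV_iff A (M * ℓ) a).mpr ha

/-- constants of `A` are in `W_0`. -/
theorem h27g_cst_mem0 (hℓ : ℓ.Prime) (hM : ¬ ℓ ∣ M) (a : Kbar) (ha : a ∈ A) :
    algebraMap Kbar (FF (M * ℓ)) a ∈ h27gW0 A M ℓ hℓ hM := by
  rw [h27g_mem_W0]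
  have h := kFricke_cst (N := M) (ℓ := ℓ) hℓ hM a
  change kFricke M ℓ hℓ hM (cst (M * ℓ) a) ∈ softV A (M * ℓ)
  rw [h]
  exact (cst_mem_softV_iff A (M * ℓ) a).mpr ha

/-- `1 + c z` is a unit of `W_∞` for `c ∈ 𝔪_A`. -/
theorem h27g_inv (c : Kbar) (hc : c ∈ A.nonunits) (z : FF (M * ℓ))
    (hz : z ∈ softV A (M * ℓ)) :
    (1 + algebraMap Kbar (FF (M * ℓ)) c * z)⁻¹ ∈ softV A (M * ℓ) ∧
      1 + algebraMap Kbar (FF (M * ℓ)) c * z ≠ 0 := by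
  obtain ⟨h0, z', hz', e⟩ := h71u_one_add_inv A (M * ℓ) hc hz
  refine ⟨?_, h0⟩
  have e' : (1 + algebraMap Kbar (FF (M * ℓ)) c * z)⁻¹ = 1 + cst (M * ℓ) c * z' := e
  rw [e']
  exact add_mem (one_mem _)
    (mul_mem ((cst_mem_softV_iff A (M * ℓ) c).mpr (A.nonunits_le hc)) hz')

/-- `1 + c z` is a unit of `W_0` for `c ∈ 𝔪_A`. -/
theorem h27g_inv0 (hℓ : ℓ.Prime) (hM : ¬ ℓ ∣ M) (c : Kbar) (hc : c ∈ A.nonunits)
    (z : FF (M * ℓ)) (hz : z ∈ h27gW0 A M ℓ hℓ hM) :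
    (1 + algebraMap Kbar (FF (M * ℓ)) c * z)⁻¹ ∈ h27gW0 A M ℓ hℓ hM ∧
      1 + algebraMap Kbar (FF (M * ℓ)) c * z ≠ 0 := by
  rw [h27g_mem_W0] at hz
  obtain ⟨h1, h2⟩ := h27g_inv A M ℓ c hc _ hz
  have hk : kFricke M ℓ hℓ hM (1 + algebraMap Kbar (FF (M * ℓ)) c * z) =
      1 + algebraMap Kbar (FF (M * ℓ)) c * kFricke M ℓ hℓ hM z := by
    rw [map_add, map_one, map_mul]
    congr 2
    exact kFricke_cst (N := M) (ℓ := ℓ) hℓ hM c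
  refine ⟨?_, ?_⟩
  · rw [h27g_mem_W0, map_inv₀, hk]
    exact h1
  · intro h0
    apply h2
    rw [← hk, h0, map_zero]

/-- every function becomes Gauss-integral after multiplication by a nonzero constant of `A`. -/
theorem h27g_scale {ℓ' : ℕ} (N : ℕ) [NeZero N] (hℓ : ℓ'.Prime) (hA : A.LiesOverPrime ℓ')
    (x : FF N) : ∃ c : Kbar, c ∈ A ∧ c ≠ 0 ∧ cst N c * x ∈ softV A N := by
  by_cases hx : x = 0
  · exact ⟨1, A.one_mem, one_ne_zero, by rw [hx, mul_zero]; exact zero_mem _⟩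
  obtain ⟨c, hc0, hu, -⟩ := exists_cst_mul_unit_soft A N hℓ hA x hx
  by_cases hcA : c ∈ A
  · exact ⟨c, hcA, hc0, hu⟩
  · have hci : c⁻¹ ∈ A := (A.mem_or_inv_mem c).resolve_left hcA
    refine ⟨1, A.one_mem, one_ne_zero, ?_⟩
    have e : cst N 1 * x = cst N c⁻¹ * (cst N c * x) := by
      rw [← mul_assoc, ← map_mul, inv_mul_cancel₀ hc0]
    rw [e]
    exact mul_mem ((cst_mem_softV_iff A N c⁻¹).mpr hci) hu

/-- the archimedean property of `A`, field form. -/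
theorem h27g_arch (hℓ : ℓ.Prime) (hA : A.LiesOverPrime ℓ) :
    ∀ μ ∈ A.nonunits, μ ≠ 0 → ∀ t : Kbar, t ≠ 0 → ∃ k : ℕ, μ ^ k * t⁻¹ ∈ A := by
  intro μ hμ hμ0 t ht0
  by_cases htA : t ∈ A
  · have hμA : μ ∈ A := A.nonunits_le hμ
    have hm : (⟨μ, hμA⟩ : A) ∈ maximalIdeal A := by
      rw [mem_maximalIdeal, mem_nonunits_iff]
      intro hu
      exact (A.mem_nonunits_iff_exists_mem_maximalIdeal.mp hμ).elim fun h hh => by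
        have := hh
        rw [mem_maximalIdeal, mem_nonunits_iff] at this
        exact this hu
    have hm0 : (⟨μ, hμA⟩ : A) ≠ 0 := fun h => hμ0 (congrArg Subtype.val h)
    have ht0' : (⟨t, htA⟩ : A) ≠ 0 := fun h => ht0 (congrArg Subtype.val h)
    obtain ⟨k, b, hb⟩ := Fermat.Agent.Red.GG.harch_of_liesOver (A := A) hℓ hA _ hm hm0 ⟨t, htA⟩ ht0'
    refine ⟨k, ?_⟩
    have hb' : μ ^ k = t * (b : Kbar) := by
      have := congrArg Subtype.val hb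
      simpa using this
    rw [hb', mul_comm t, mul_assoc, mul_inv_cancel₀ ht0, mul_one]
    exact b.2
  · refine ⟨0, ?_⟩
    rw [pow_zero, one_mul]
    exact (A.mem_or_inv_mem t).resolve_left htA

/-- **partitions of unity of every depth** at the two Gauss valuations. -/
theorem h27g_partition (hℓ : ℓ.Prime) (hM : ¬ ℓ ∣ M) (hA : A.LiesOverPrime ℓ) :
    ∀ c : Kbar, c ≠ 0 → ∃ E : FF (M * ℓ),
      E ∈ h27iU (algebraMap Kbar (FF (M * ℓ))) c (softV A (M * ℓ)) ∧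
      E ∈ h27iS (algebraMap Kbar (FF (M * ℓ))) c (h27gW0 A M ℓ hℓ hM) := by
  obtain ⟨π, hπ, hπ0, E, z, z', hz, hz', e1, e2⟩ := h71u_partition A M ℓ hℓ hM hA
  refine h27i_partition A (algebraMap Kbar (FF (M * ℓ))) (softV A (M * ℓ))
    (h27gW0 A M ℓ hℓ hM) (h27g_cst_mem A M ℓ) (h27g_cst_mem0 A M ℓ hℓ hM)
    (h27g_arch A ℓ hℓ hA) π hπ hπ0 E ⟨z, hz, e1⟩ ⟨kFricke M ℓ hℓ hM z', ?_, ?_⟩
  · exact h27g_fricke_mem_W0 A M ℓ hℓ hM hz'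
  · have h := congrArg (kFricke M ℓ hℓ hM) e2
    rw [kFricke_kFricke, map_mul] at h
    rw [h]
    congr 1
    exact kFricke_cst (N := M) (ℓ := ℓ) hℓ hM π

end Glue

/-- **GLUE**: the exact frozen Prop `H71Glue`. -/
theorem h27g_glue : H71Glue := by
  intro ℓ hℓ M _ hM
  haveI : NeZero ℓ := ⟨hℓ.ne_zero⟩
  intro A hA r hr w hw0 hall e he he0
  obtain ⟨⟨g₁, hg₁0, z₁, hz₁, e₁⟩, ⟨g₂, hg₂0, z₂, hz₂, e₂⟩⟩ := hall e he he0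
  -- notation
  set κ := kFricke M ℓ hℓ hM with hκ
  set W := softV A (M * ℓ) with hW
  set W0 := h27gW0 A M ℓ hℓ hM with hW0
  set c := algebraMap Kbar (FF (M * ℓ)) with hc
  have heA : e ∈ A := A.nonunits_le he
  have hcW : ∀ a ∈ A, c a ∈ W := h27g_cst_mem A M ℓ
  have hcW0 : ∀ a ∈ A, c a ∈ W0 := h27g_cst_mem0 A M ℓ hℓ hM
  have hinvW : ∀ z ∈ W, (1 + c e * z)⁻¹ ∈ W := fun z hz => (h27g_inv A M ℓ e he z hz).1
  have hnzW : ∀ z ∈ W, 1 + c e * z ≠ 0 := fun z hz => (h27g_inv A M ℓ e he z hz).2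
  have hinvW0 : ∀ z ∈ W0, (1 + c e * z)⁻¹ ∈ W0 :=
    fun z hz => (h27g_inv0 A M ℓ hℓ hM e he z hz).1
  have hnzW0 : ∀ z ∈ W0, 1 + c e * z ≠ 0 :=
    fun z hz => (h27g_inv0 A M ℓ hℓ hM e he z hz).2
  -- the two representatives
  have hx₁ : w * (g₁ ^ r)⁻¹ ∈ h27iU c e W := ⟨z₁, hz₁, e₁⟩
  have hx₂ : w * (g₂ ^ r)⁻¹ ∈ h27iU c e W0 := by
    refine ⟨κ z₂, h27g_fricke_mem_W0 A M ℓ hℓ hM hz₂, ?_⟩
    have h := congrArg κ e₂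
    rw [hκ, kFricke_kFricke, map_add, map_one, map_mul] at h
    rw [h]
    congr 2
    exact kFricke_cst (N := M) (ℓ := ℓ) hℓ hM e
  -- the quotient of the two representatives and its denominators
  set q : FF (M * ℓ) := g₂ / g₁ with hq
  have hq0 : q ≠ 0 := div_ne_zero hg₂0 hg₁0
  obtain ⟨c₁, hc₁A, hc₁0, hc₁⟩ := h27g_scale A (M * ℓ) hℓ hA (q - 1)
  obtain ⟨c₂, hc₂A, hc₂0, hc₂⟩ := h27g_scale A (M * ℓ) hℓ hA (κ (q⁻¹ - 1))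
  have hc₂' : c c₂ * (q⁻¹ - 1) ∈ W0 := by
    rw [hW0, h27g_mem_W0, map_mul]
    have h := kFricke_cst (N := M) (ℓ := ℓ) hℓ hM c₂
    change kFricke M ℓ hℓ hM (cst (M * ℓ) c₂) * _ ∈ _
    rw [h]
    exact hc₂
  -- the partition of unity of depth `e c₁ c₂`
  have hd0 : e * c₁ * c₂ ≠ 0 := mul_ne_zero (mul_ne_zero he0 hc₁0) hc₂0
  obtain ⟨E, ⟨s₁, hs₁, hE₁⟩, ⟨s₂, hs₂, hE₂⟩⟩ :=
    h27g_partition A M ℓ hℓ hM hA (e * c₁ * c₂) hd0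
  -- the glued representative
  set y₁ : FF (M * ℓ) := 1 + (1 - E) * (q - 1) with hy₁
  set y₂ : FF (M * ℓ) := 1 + E * (q⁻¹ - 1) with hy₂
  have hy₁U : y₁ ∈ h27iU c e W := by
    refine ⟨-((c c₂ * s₁) * (c c₁ * (q - 1))), neg_mem (mul_mem (mul_mem (hcW _ hc₂A) hs₁) hc₁),
      ?_⟩
    rw [hy₁, hE₁, map_mul, map_mul]
    ring
  have hy₂U : y₂ ∈ h27iU c e W0 := by
    refine ⟨(c c₁ * s₂) * (c c₂ * (q⁻¹ - 1)), mul_mem (mul_mem (hcW0 _ hc₁A) hs₂) hc₂', ?_⟩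
    rw [hy₂, hE₂, map_mul, map_mul]
    ring
  have hy₁0 : y₁ ≠ 0 := h27iU_ne_zero hnzW hy₁U
  have hy₂0 : y₂ ≠ 0 := h27iU_ne_zero hnzW0 hy₂U
  have hh₁ : g₁ * y₁ = g₂ * y₂ := by
    rw [hy₁, hy₂, hq]
    field_simp
    ring
  refine ⟨g₁ * y₁, mul_ne_zero hg₁0 hy₁0, ?_⟩
  have hU₁ : w * ((g₁ * y₁) ^ r)⁻¹ ∈ h27iU c e W := by
    have e' : w * ((g₁ * y₁) ^ r)⁻¹ = (w * (g₁ ^ r)⁻¹) * (y₁ ^ r)⁻¹ := by
      rw [mul_pow, mul_inv, mul_assoc]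
    rw [e']
    exact h27iU_mul (hcW e heA) hx₁ (h27iU_inv hinvW hnzW (h27iU_pow (hcW e heA) hy₁U r))
  have hU₂ : w * ((g₁ * y₁) ^ r)⁻¹ ∈ h27iU c e W0 := by
    have e' : w * ((g₁ * y₁) ^ r)⁻¹ = (w * (g₂ ^ r)⁻¹) * (y₂ ^ r)⁻¹ := by
      rw [hh₁, mul_pow, mul_inv, mul_assoc]
    rw [e']
    exact h27iU_mul (hcW0 e heA) hx₂ (h27iU_inv hinvW0 hnzW0 (h27iU_pow (hcW0 e heA) hy₂U r))
  obtain ⟨z, ⟨hzW, hzW0⟩, hz⟩ := h27iU_inf he0 hU₁ hU₂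
  exact ⟨z, (h44r_mem_ssV_iff A M ℓ hℓ hM hA z).mpr ⟨hzW, hzW0⟩, hz⟩

end Fermat.Agent.P6
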