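import Fermat.Agent.P6.H29NodePur

/-!
# S33 / B2-TOR (helper29): twisted purity at a node, iterated (`p ^ n`-th roots)

Setting of `P6/H29NodePur.lean`.  `Z : ℕ → A` is a compatible system of `p`-power roots of unity
(`Z 0 = 1`, `Z (i + 1) ^ p = Z i`), `E` a partition of unity of precision `π₀`.

* `h29y_twist_iter` : for all `n`, `j` there is `k ≥ j` such that, if `ϖ ^ k ∣ π₀`,
  `G ^ (p ^ n) ∈ O + ϖ ^ k V ⟹ ∃ i, G (1 + (Z n ^ i - 1) E) ∈ O + ϖ ^ j V`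
  for the `G ∈ V` congruent to a unit of `O` modulo `𝔪_A V`.
-/

set_option autoImplicit false
set_option linter.unusedSectionVars false

open IsLocalRing

namespace Fermat.Agent.P6

section Roots

variable {A : Type*} [CommRing A] [IsLocalRing A]

/-- a compatible system of `p`-power roots. -/
theorem h29y_Z_pow (p : ℕ) (Z : ℕ → A) (hZs : ∀ i, Z (i + 1) ^ p = Z i) (m k : ℕ) :
    Z (m + k) ^ (p ^ k) = Z m := by
  induction k with
  | zero => simp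
  | succ k ih =>
    rw [← add_assoc, pow_succ', pow_mul, hZs, ih]

/-- in residue characteristic `p`, a `p`-power root of unity is congruent to `1`. -/
theorem h29y_root_sub_one_mem (p : ℕ) (hp : p.Prime) (hpM : (p : A) ∈ maximalIdeal A)
    (x : A) (m : ℕ) (hx : x ^ (p ^ m) = 1) : x - 1 ∈ maximalIdeal A := by
  have : Fact p.Prime := ⟨hp⟩
  have : CharP (ResidueField A) p := by
    rw [CharP.charP_iff_prime_eq_zero hp]
    have h := (residue_eq_zero_iff (p : A)).mpr hpM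
    rwa [map_natCast] at h
  rw [← residue_eq_zero_iff]
  have h1 : (residue A (x - 1)) ^ (p ^ m) = 0 := by
    rw [map_sub, map_one, sub_pow_char_pow, one_pow, ← map_pow, hx, map_one, sub_self]
  exact pow_eq_zero_iff (pow_ne_zero _ hp.ne_zero) |>.mp h1

end Roots

section Iter

variable {A : Type*} [CommRing A] [IsDomain A] [ValuationRing A]
  {R : Type*} [CommRing R] [Algebra A R]

/-- `O + a V` absorbs `c V` for `a ∣ c`. -/
theorem h29y_near_add_smul {O V : Subalgebra A R} {a c : A} (hac : a ∣ c) {X y : R}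
    (hX : h18yNear O V a X) (hy : y ∈ V) : h18yNear O V a (X + c • y) := by
  obtain ⟨d, rfl⟩ := hac
  obtain ⟨b, hb, r, hr, rfl⟩ := hX
  exact ⟨b, hb, r + d • y, V.add_mem hr (V.smul_mem hy _), by rw [smul_add, mul_smul]; ring⟩

/-- **Twisted purity at a node, iterated.** -/
theorem h29y_twist_iter (p : ℕ) (hp : p.Prime)
    (hp0 : (p : A) ≠ 0) (hpM : (p : A) ∈ maximalIdeal A)
    (O V : Subalgebra A R) (hOV : O ≤ V)
    (hsat : ∀ a : A, a ≠ 0 → ∀ x ∈ V, a • x ∈ O → x ∈ O)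
    (hroot : ∀ x ∈ V, h18yNearM O V (x ^ p) → h18yNearM O V x)
    (hdepth : ∀ G ∈ V, G ∉ O →
      ∃ a : A, a ≠ 0 ∧ ∃ b ∈ O, ∃ r ∈ V, G = b + a • r ∧ ¬ h18yNearM O V r)
    (ϖ : A) (e : ℕ) (he : (p : A) ∣ ϖ ^ e)
    (Z : ℕ → A) (hZ0 : Z 0 = 1) (hZs : ∀ i, Z (i + 1) ^ p = Z i)
    (ε : A) (hε : ε - 1 ∈ maximalIdeal A) (hpζ : (p : A) = -((Z 1 - 1) ^ (p - 1) * ε))
    (n j : ℕ) :
    ∃ k : ℕ, j ≤ k ∧ ∀ (E vE : R), E ∈ V → vE ∈ V → ∀ π₀ : A, ϖ ^ k ∣ π₀ →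
      E * E = E + π₀ • vE →
      (∀ c : A, IsUnit c → ∀ u ∈ O, (∃ u' ∈ O, u * u' = 1) → ∀ x ∈ V,
        h18yNearM O V (x ^ p + c • (u ^ (p - 1) * x)) →
        ∃ θ : A, θ ^ p + c * θ ∈ maximalIdeal A ∧ h18yNearM O V (x + θ • (u * E))) →
      ∀ G ∈ V, (∃ u ∈ O, (∃ u' ∈ O, u * u' = 1) ∧
        ∃ m ∈ maximalIdeal A, ∃ y ∈ V, G = u + m • y) →
      h18yNear O V (ϖ ^ k) (G ^ (p ^ n)) →
      ∃ i : ℕ, h18yNear O V (ϖ ^ j) (G * (1 + (Z n ^ i - 1) • E)) := by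
  induction n generalizing j with
  | zero =>
    refine ⟨j, le_rfl, fun E vE _ _ π₀ _ _ _ G _ _ h => ⟨0, ?_⟩⟩
    simpa using h
  | succ n ih =>
    obtain ⟨k, hkj, hk⟩ := ih (e + p * j)
    have hjk : j ≤ k := by
      have h1 : j ≤ p * j := Nat.le_mul_of_pos_left j hp.pos
      omega
    refine ⟨k, hjk, fun E vE hEV hvE π₀ hπ₀ hE hASn G hGV hGu hG => ?_⟩
    obtain ⟨u, hu, ⟨u', hu', huu'⟩, m, hm, y, hy, hGeq⟩ := hGu
    -- `G ^ p` is congruent to the unit `u ^ p`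
    have hGpu : ∃ u₁ ∈ O, (∃ u₁' ∈ O, u₁ * u₁' = 1) ∧
        ∃ m ∈ maximalIdeal A, ∃ y ∈ V, G ^ p = u₁ + m • y := by
      refine ⟨u ^ p, O.pow_mem hu p, ⟨u' ^ p, O.pow_mem hu' p, by rw [← mul_pow, huu', one_pow]⟩,
        m, hm, ?_⟩
      obtain ⟨d, hd⟩ := sub_dvd_pow_sub_pow (⟨G, hGV⟩ : V) ⟨u, hOV hu⟩ p
      have hd' := congrArg Subtype.val hd
      simp only [Subalgebra.coe_sub, Subalgebra.coe_pow, Subalgebra.coe_mul] at hd'
      refine ⟨y * d, V.mul_mem hy d.2, ?_⟩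
      have h2 : G - u = m • y := by rw [hGeq]; ring
      rw [h2, smul_mul_assoc] at hd'
      rw [← hd']; ring
    obtain ⟨i', hi'⟩ := hk E vE hEV hvE π₀ hπ₀ hE hASn (G ^ p) (V.pow_mem hGV p) hGpu (by
      rw [← pow_mul, ← pow_succ']
      exact hG)
    -- the `p`-th root of the twist
    set x : A := Z (n + 1) ^ i' - 1 with hx
    have hxp : (1 + x) ^ p = Z n ^ i' := by
      rw [hx, add_sub_cancel, ← pow_mul, mul_comm, pow_mul, hZs]
    have hxM : x ∈ maximalIdeal A := by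
      apply h29y_root_sub_one_mem p hp hpM _ (n + 1)
      rw [← pow_mul, mul_comm, pow_mul]
      have h1 := h29y_Z_pow p Z hZs 0 (n + 1)
      rw [zero_add] at h1
      rw [h1, hZ0, one_pow]
    obtain ⟨w, hw, hpw⟩ := h29y_pow_twist V hEV hvE π₀ hE x p
    rw [hxp] at hpw
    have hdvd1 : ϖ ^ (e + p * j) ∣ π₀ := dvd_trans (pow_dvd_pow ϖ hkj) hπ₀
    have hdvd2 : (p : A) * ϖ ^ (p * j) ∣ ϖ ^ (e + p * j) := by
      rw [pow_add]
      exact mul_dvd_mul_right he _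
    have hG'V : G * (1 + x • E) ∈ V := V.mul_mem hGV (V.add_mem V.one_mem (V.smul_mem hEV _))
    have hG'p : h18yNear O V ((p : A) * ϖ ^ (p * j)) ((G * (1 + x • E)) ^ p) := by
      refine h18y_near_of_dvd hdvd2 ?_
      have h1 : (G * (1 + x • E)) ^ p =
          G ^ p * (1 + (Z n ^ i' - 1) • E) + π₀ • (G ^ p * w) := by
        rw [mul_pow, hpw, mul_add, mul_smul_comm]
      rw [h1]
      exact h29y_near_add_smul hdvd1 hi' (V.mul_mem (V.pow_mem hGV p) hw)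
    have hG'u : ∃ m ∈ maximalIdeal A, ∃ y ∈ V, G * (1 + x • E) = u + m • y := by
      obtain ⟨m₇, hm₇, y₇, hy₇, h7⟩ : h29yInM V (m • y + x • (G * E)) :=
        h29y_inM_add (h29y_inM_smul hm hy) (h29y_inM_smul hxM (V.mul_mem hGV hEV))
      refine ⟨m₇, hm₇, y₇, hy₇, ?_⟩
      rw [← h7, mul_add, mul_one, mul_smul_comm]
      nth_rewrite 1 [hGeq]
      ring
    have hZ1 : Z 1 ^ p = 1 := by rw [hZs, hZ0]
    obtain ⟨i₀, a, hna, hdiv⟩ := h29y_twist_step p hp hp0 O V hOV hsat hroot hdepth E vE hEV hvE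
      π₀ hE (Z 1) ε hZ1 hε hpζ hASn (G * (1 + x • E)) hG'V u hu ⟨u', hu', huu'⟩ hG'u
      ((p : A) * ϖ ^ (p * j)) (dvd_trans hdvd2 hdvd1) hG'p
    have hϖa : ϖ ^ j ∣ a := by
      rcases hdiv with h | h
      · apply h18y_dvd_of_pow_dvd_pow hp.ne_zero
        rw [← pow_mul, mul_comm j p]
        exact dvd_trans (Dvd.intro_left _ rfl) h
      · have h1 : ϖ ^ (p * j) ∣ a := (mul_dvd_mul_iff_left hp0).mp h
        exact dvd_trans (pow_dvd_pow ϖ (Nat.le_mul_of_pos_left j hp.pos)) h1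
    have hna' := h18y_near_of_dvd hϖa hna
    -- the product of the two twists
    obtain ⟨w', hw', hmw⟩ := h29y_mul_twist V hvE π₀ hE x (Z 1 ^ i₀ - 1)
    have hZ1' : Z 1 = Z (n + 1) ^ (p ^ n) := by
      have h1 := h29y_Z_pow p Z hZs 1 n
      rw [add_comm 1 n] at h1
      exact h1.symm
    have hprod : (1 + x) * (1 + (Z 1 ^ i₀ - 1)) = Z (n + 1) ^ (i' + p ^ n * i₀) := by
      rw [hx, add_sub_cancel, add_sub_cancel, hZ1', ← pow_mul, ← pow_add]
    rw [hprod] at hmw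
    refine ⟨i' + p ^ n * i₀, ?_⟩
    have h1 : G * (1 + (Z (n + 1) ^ (i' + p ^ n * i₀) - 1) • E) =
        G * (1 + x • E) * (1 + (Z 1 ^ i₀ - 1) • E) + π₀ • (-(G * w')) := by
      rw [mul_assoc, hmw, smul_neg, mul_add G _ (π₀ • w'), mul_smul_comm]
      ring
    rw [h1]
    exact h29y_near_add_smul (dvd_trans (pow_dvd_pow ϖ hjk) hπ₀) hna'
      (V.neg_mem (V.mul_mem hGV hw'))

end Iter

end Fermat.Agent.P6
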