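import Fermat.Agent.P6.H18Purity

/-!
# S33 / B2-TOR (helper29): abstract TWISTED purity at a node

Setting of `P6/H18Purity.lean` (helper18): `A` a valuation ring, `p` a prime number, nonzero in
`A`, `R` a commutative `A`-algebra, `O ≤ V` subalgebras (`V` = the semistable Gauss ring
`W_∞ ∩ W_0`, `O` = the local ring at a closed point of the special fibre).

At a NODE the Artin–Schreier hypothesis `hAS` of `h18y_purity` FAILS (the two branches may carry
different values): the `p`-th root of a function of `O + π V` lies in `O + a V` only up to a twist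
by `E_ζ = 1 + (ζ - 1) E`, `E` a partition of unity of the two branches, `ζ` a `p`-th root of `1`.

* `h29y_tri` : the trichotomy behind `h18y_purity` (no Artin–Schreier hypothesis): the exact depth
  `a` of `G` satisfies `π ∣ a ^ p`, or `π ∣ p a`, or it is CRITICAL: `p a = a ^ p m` with `m` a
  unit and `r ^ p + m u ^ (p - 1) r ∈ O + 𝔪_A V` for the remainder `r`.
* `h29y_pow_twist` : `(1 + x E) ^ n ∈ 1 + ((1 + x) ^ n - 1) E + π₀ V` if `E ^ 2 - E ∈ π₀ V`.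
* `h29y_split` : in a local ring of residue characteristic `p`, `t ^ p ≡ t` forces `t ≡ j ∈ ℕ`.
* `h29y_twist_step` : **twisted purity, one step**: with the node form `hASn` of the
  Artin–Schreier hypothesis (root up to `θ u E`, `θ ^ p + c θ ∈ 𝔪_A`), a `p`-th root of unity `ζ₀`
  with `p = -(ζ₀ - 1) ^ (p - 1) ε`, `ε ≡ 1`, and `π ∣ π₀`:
  `G ^ p ∈ O + π V ⟹ ∃ j, G (1 + (ζ₀ ^ j - 1) E) ∈ O + a V` with `π ∣ a ^ p` or `π ∣ p a`.
-/

set_option autoImplicit false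
set_option linter.unusedSectionVars false

open IsLocalRing

namespace Fermat.Agent.P6

section Tri

variable {A : Type*} [CommRing A] [IsDomain A] [ValuationRing A]
  {R : Type*} [CommRing R] [Algebra A R]

/-- the depth of an element outside `O + 𝔪_A V` which is congruent to an element of `O` is a
nonunit. -/
theorem h29y_depth_mem (O V : Subalgebra A R) {G u b r y : R} {a mu : A}
    (hu : u ∈ O) (hb : b ∈ O) (hmu : mu ∈ maximalIdeal A) (hy : y ∈ V)
    (hGu : G = u + mu • y) (hGeq : G = b + a • r) (hrn : ¬ h18yNearM O V r) :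
    a ∈ maximalIdeal A := by
  rw [mem_maximalIdeal, mem_nonunits_iff]
  intro hau
  obtain ⟨a', ha'⟩ := hau.exists_left_inv
  apply hrn
  have h1 : r = a' • (a • r) := by rw [← mul_smul, ha', one_smul]
  rw [h1]
  apply h18y_nearM_smul_left
  have h2 : a • r = (u - b) + mu • y := by
    have : a • r = G - b := by rw [hGeq]; ring
    rw [this, hGu]; ring
  rw [h2]
  exact h18y_nearM_add (h18y_nearM_of_mem (O.sub_mem hu hb)) (h18y_nearM_smul hmu hy)

/-- `b ≡ u` modulo a nonunit, inside `O`. -/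
theorem h29y_b_eq (O V : Subalgebra A R)
    (hsat : ∀ a : A, a ≠ 0 → ∀ x ∈ V, a • x ∈ O → x ∈ O)
    {G u b r y : R} {a mu : A} (ha0 : a ≠ 0)
    (hu : u ∈ O) (hb : b ∈ O) (hr : r ∈ V) (hmu : mu ∈ maximalIdeal A) (hy : y ∈ V)
    (hGu : G = u + mu • y) (hGeq : G = b + a • r) (haM : a ∈ maximalIdeal A) :
    ∃ m'' ∈ maximalIdeal A, m'' ∣ a ∧ ∃ z ∈ O, b = u + m'' • z := by
  obtain ⟨m'', hm'', hd₁, hd₂⟩ := h18y_exists_common hmu haM
  have hm''0 : m'' ≠ 0 := by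
    rintro rfl
    exact ha0 (zero_dvd_iff.mp hd₂)
  refine ⟨m'', hm'', hd₂, ?_⟩
  obtain ⟨c₁, hc₁⟩ := hd₁
  obtain ⟨c₂, hc₂⟩ := hd₂
  have hz : c₁ • y - c₂ • r ∈ O := by
    apply hsat m'' hm''0 _ (V.sub_mem (V.smul_mem hy _) (V.smul_mem hr _))
    have : m'' • (c₁ • y - c₂ • r) = b - u := by
      have h1 : b = G - a • r := by rw [hGeq]; ring
      rw [h1, hGu, smul_sub, ← mul_smul, ← mul_smul, ← hc₁, ← hc₂]; ring
    rw [this]
    exact O.sub_mem hb hu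
  refine ⟨c₁ • y - c₂ • r, hz, ?_⟩
  have h1 : b = G - a • r := by rw [hGeq]; ring
  rw [h1, hGu, smul_sub, ← mul_smul, ← mul_smul, ← hc₁, ← hc₂]; ring

/-- **the trichotomy** behind `h18y_purity`: if the exact depth `a` of `G` is not deep
(`π ∤ a ^ p`, `π ∤ p a`), then it is critical. -/
theorem h29y_tri (p : ℕ) (hp : p.Prime)
    (hp0 : (p : A) ≠ 0) (O V : Subalgebra A R) (hOV : O ≤ V)
    (hsat : ∀ a : A, a ≠ 0 → ∀ x ∈ V, a • x ∈ O → x ∈ O)
    (hroot : ∀ x ∈ V, h18yNearM O V (x ^ p) → h18yNearM O V x)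
    (G : R) (u : R) (hu : u ∈ O) (hu' : ∃ u' ∈ O, u * u' = 1)
    (hGu : ∃ m ∈ maximalIdeal A, ∃ y ∈ V, G = u + m • y)
    (π : A) (hGp : h18yNear O V π (G ^ p))
    (a : A) (ha0 : a ≠ 0) (b : R) (hb : b ∈ O) (r : R) (hr : r ∈ V) (hGeq : G = b + a • r)
    (hrn : ¬ h18yNearM O V r) (hc1 : ¬ π ∣ a ^ p) (hc2 : ¬ π ∣ (p : A) * a) :
    ∃ m : A, IsUnit m ∧ (p : A) * a = a ^ p * m ∧
      h18yNearM O V (r ^ p + m • (u ^ (p - 1) * r)) := by
  classical
  obtain ⟨m₁, hm₁, hπ₁⟩ := h18y_exists_of_not_dvd hc1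
  obtain ⟨m₂, hm₂, hπ₂⟩ := h18y_exists_of_not_dvd hc2
  obtain ⟨mu, hmu, y, hy, hGu⟩ := hGu
  obtain ⟨u', hu'O, huu'⟩ := hu'
  set φ := algebraMap A R with hφ
  have haM : a ∈ maximalIdeal A := h29y_depth_mem O V hu hb hmu hy hGu hGeq hrn
  obtain ⟨m'', hm'', -, z, hz, hbu⟩ := h29y_b_eq O V hsat ha0 hu hb hr hmu hy hGu hGeq haM
  -- `b ^ (p - 1) = u ^ (p - 1) + m'' c`
  obtain ⟨c, hcO, hbpow⟩ : ∃ c ∈ O, b ^ (p - 1) = u ^ (p - 1) + m'' • c := by
    obtain ⟨d, hd⟩ := sub_dvd_pow_sub_pow (⟨b, hb⟩ : O) ⟨u, hu⟩ (p - 1)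
    have hd' := congrArg Subtype.val hd
    simp only [Subalgebra.coe_sub, Subalgebra.coe_pow, Subalgebra.coe_mul] at hd'
    refine ⟨z * d, O.mul_mem hz d.2, ?_⟩
    have h2 : b - u = m'' • z := by rw [hbu]; ring
    rw [h2] at hd'
    rw [smul_mul_assoc] at hd'
    rw [← hd']; ring
  -- the expansion of `G ^ p`
  obtain ⟨Y, hY⟩ := h18y_binom p hp (⟨b, hOV hb⟩ : V) ⟨a • r, V.smul_mem hr a⟩
  have hY' := congrArg Subtype.val hY
  simp only [Subalgebra.coe_add, Subalgebra.coe_pow, Subalgebra.coe_mul] at hY'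
  have hpφ : (((p : ℕ) : V) : R) = φ (p : A) := by
    rw [hφ, map_natCast]
    exact map_natCast V.val p
  obtain ⟨o, ho, s, hs, hGpeq⟩ := hGp
  rw [hGeq, hY'] at hGpeq
  -- the key identity
  have hE : φ a ^ p * r ^ p + φ (p * a) * (b ^ (p - 1) * r) +
      φ (p * a) * (φ a * (r ^ 2 * (Y : R))) = (o - b ^ p) + φ π * s := by
    have h3 : o + π • s = b ^ p + φ (p : A) * b ^ (p - 1) * (φ a * r) +
        φ (p : A) * (φ a * r) ^ 2 * (Y : R) + (φ a * r) ^ p := by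
      rw [← hGpeq, hpφ, Algebra.smul_def]
    rw [Algebra.smul_def] at h3
    rw [map_mul]
    linear_combination -h3
  have hr2Y : r ^ 2 * (Y : R) ∈ V := V.mul_mem (V.pow_mem hr 2) Y.2
  have hbr : b ^ (p - 1) * r ∈ V := V.mul_mem (V.pow_mem (hOV hb) _) hr
  have hobp : o - b ^ p ∈ O := O.sub_mem ho (O.pow_mem hb p)
  have hpa0 : (p : A) * a ≠ 0 := mul_ne_zero hp0 ha0
  have hap0 : a ^ p ≠ 0 := pow_ne_zero _ ha0
  -- from `u ^ (p-1) * r ∈ O + 𝔪 V` to `r ∈ O + 𝔪 V`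
  have hfin : h18yNearM O V (u ^ (p - 1) * r) → h18yNearM O V r := by
    intro h
    have h1 : r = u' ^ (p - 1) * (u ^ (p - 1) * r) := by
      rw [← mul_assoc, ← mul_pow, mul_comm u' u, huu', one_pow, one_mul]
    rw [h1]
    exact h18y_nearM_mul_left hOV (O.pow_mem hu'O _) h
  have hbr' : b ^ (p - 1) * r = u ^ (p - 1) * r + m'' • (c * r) := by
    rw [hbpow, add_mul, smul_mul_assoc]
  -- the critical case
  have caseIII : ∀ m : A, IsUnit m → (p : A) * a = a ^ p * m →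
      h18yNearM O V (r ^ p + m • (u ^ (p - 1) * r)) := by
    intro m _ hm
    have hX : r ^ p + m • (b ^ (p - 1) * r) + m • (a • (r ^ 2 * (Y : R))) - (m * m₂) • s ∈ O := by
      apply hsat (a ^ p) hap0
      · exact V.sub_mem (V.add_mem (V.add_mem (V.pow_mem hr p) (V.smul_mem hbr _))
          (V.smul_mem (V.smul_mem hr2Y _) _)) (V.smul_mem hs _)
      · have : a ^ p • (r ^ p + m • (b ^ (p - 1) * r) + m • (a • (r ^ 2 * (Y : R))) -
            (m * m₂) • s) = o - b ^ p := by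
          have hπ : φ π = φ a ^ p * φ m * φ m₂ := by
            rw [hπ₂, hm, map_mul, map_mul, map_pow]
          have hpa : φ (p * a) = φ a ^ p * φ m := by rw [hm, map_mul, map_pow]
          simp only [Algebra.smul_def, map_mul, map_pow]
          rw [← hφ]
          rw [hpa, hπ] at hE
          linear_combination hE
        rw [this]; exact hobp
    have h1 : r ^ p + m • (u ^ (p - 1) * r) =
        (r ^ p + m • (b ^ (p - 1) * r) + m • (a • (r ^ 2 * (Y : R))) - (m * m₂) • s) +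
          ((m₂ * m) • s - a • (m • (r ^ 2 * (Y : R))) - m'' • (m • (c * r))) := by
      rw [hbr']
      simp only [Algebra.smul_def, map_mul]
      ring
    rw [h1]
    refine h18y_nearM_add (h18y_nearM_of_mem hX) (h18y_nearM_sub (h18y_nearM_sub ?_ ?_) ?_)
    · exact h18y_nearM_smul (Ideal.mul_mem_right _ _ hm₂) hs
    · exact h18y_nearM_smul haM (V.smul_mem hr2Y _)
    · exact h18y_nearM_smul hm'' (V.smul_mem (V.mul_mem (hOV hcO) hr) _)
  rcases ValuationRing.dvd_total (a ^ p) ((p : A) * a) with ⟨m, hm⟩ | ⟨m, hm⟩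
  · by_cases hmu' : IsUnit m
    · exact ⟨m, hmu', hm, caseIII m hmu' hm⟩
    · -- case I
      exfalso
      apply hrn
      have hmM : m ∈ maximalIdeal A := by rwa [mem_maximalIdeal, mem_nonunits_iff]
      have hX : r ^ p - m₁ • s + m • (b ^ (p - 1) * r + a • (r ^ 2 * (Y : R))) ∈ O := by
        apply hsat (a ^ p) hap0
        · exact V.add_mem (V.sub_mem (V.pow_mem hr p) (V.smul_mem hs _))
            (V.smul_mem (V.add_mem hbr (V.smul_mem hr2Y _)) _)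
        · have : a ^ p • (r ^ p - m₁ • s + m • (b ^ (p - 1) * r + a • (r ^ 2 * (Y : R)))) =
              o - b ^ p := by
            have hπ : φ π = φ a ^ p * φ m₁ := by rw [hπ₁, map_mul, map_pow]
            have hpa : φ (p * a) = φ a ^ p * φ m := by rw [hm, map_mul, map_pow]
            simp only [Algebra.smul_def, map_pow]
            rw [← hφ]
            rw [hpa, hπ] at hE
            linear_combination hE
          rw [this]; exact hobp
      apply hroot r hr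
      have h1 : r ^ p = (r ^ p - m₁ • s + m • (b ^ (p - 1) * r + a • (r ^ 2 * (Y : R)))) +
          (m₁ • s - m • (b ^ (p - 1) * r + a • (r ^ 2 * (Y : R)))) := by ring
      rw [h1]
      refine h18y_nearM_add (h18y_nearM_of_mem hX) (h18y_nearM_sub ?_ ?_)
      · exact h18y_nearM_smul hm₁ hs
      · exact h18y_nearM_smul hmM (V.add_mem hbr (V.smul_mem hr2Y _))
  · by_cases hmu' : IsUnit m
    · obtain ⟨m', hm'⟩ := hmu'.exists_right_inv
      have hm'u : IsUnit m' := IsUnit.of_mul_eq_one m (by rw [mul_comm]; exact hm')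
      have hm2 : (p : A) * a = a ^ p * m' := by rw [hm, mul_assoc, hm', mul_one]
      exact ⟨m', hm'u, hm2, caseIII m' hm'u hm2⟩
    · -- case II
      exfalso
      apply hrn
      have hmM : m ∈ maximalIdeal A := by rwa [mem_maximalIdeal, mem_nonunits_iff]
      have hX : b ^ (p - 1) * r - m₂ • s + a • (r ^ 2 * (Y : R)) + m • r ^ p ∈ O := by
        apply hsat ((p : A) * a) hpa0
        · exact V.add_mem (V.add_mem (V.sub_mem hbr (V.smul_mem hs _)) (V.smul_mem hr2Y _))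
            (V.smul_mem (V.pow_mem hr p) _)
        · have : ((p : A) * a) • (b ^ (p - 1) * r - m₂ • s + a • (r ^ 2 * (Y : R)) +
              m • r ^ p) = o - b ^ p := by
            have hπ : φ π = φ (p * a) * φ m₂ := by rw [hπ₂, map_mul]
            have hap : φ a ^ p = φ (p * a) * φ m := by rw [← map_pow, hm, map_mul]
            simp only [Algebra.smul_def]
            rw [← hφ]
            rw [hap, hπ] at hE
            linear_combination hE
          rw [this]; exact hobp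
      apply hfin
      have h1 : u ^ (p - 1) * r =
          (b ^ (p - 1) * r - m₂ • s + a • (r ^ 2 * (Y : R)) + m • r ^ p) +
            (m₂ • s - a • (r ^ 2 * (Y : R)) - m • r ^ p - m'' • (c * r)) := by
        rw [hbr']; ring
      rw [h1]
      refine h18y_nearM_add (h18y_nearM_of_mem hX)
        (h18y_nearM_sub (h18y_nearM_sub (h18y_nearM_sub ?_ ?_) ?_) ?_)
      · exact h18y_nearM_smul hm₂ hs
      · exact h18y_nearM_smul haM hr2Y
      · exact h18y_nearM_smul hmM (V.pow_mem hr p)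
      · exact h18y_nearM_smul hm'' (V.mul_mem (hOV hcO) hr)

end Tri

section Twist

variable {A : Type*} [CommRing A] {R : Type*} [CommRing R] [Algebra A R]

/-- `(1 + x) ^ n = 1 + n x + x ^ 2 q`. -/
theorem h29y_one_add_pow (x : A) (n : ℕ) : ∃ q : A, (1 + x) ^ n = 1 + (n : A) * x + x ^ 2 * q := by
  induction n with
  | zero => exact ⟨0, by simp⟩
  | succ n ih =>
    obtain ⟨q, hq⟩ := ih
    refine ⟨q + (n : A) + x * q, ?_⟩
    rw [pow_succ, hq]
    push_cast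
    ring

/-- the twist `1 + x E`, `E` a partition of unity of precision `π₀`: modulo `π₀ V` the powers are
computed as if `E` were idempotent. -/
theorem h29y_pow_twist (V : Subalgebra A R) {E vE : R} (hEV : E ∈ V) (hvE : vE ∈ V) (π₀ : A)
    (hE : E * E = E + π₀ • vE) (x : A) (n : ℕ) :
    ∃ w ∈ V, (1 + x • E) ^ n = 1 + ((1 + x) ^ n - 1) • E + π₀ • w := by
  induction n with
  | zero => exact ⟨0, V.zero_mem, by simp⟩
  | succ n ih =>
    obtain ⟨w, hw, hn⟩ := ih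
    refine ⟨(((1 + x) ^ n - 1) * x) • vE + w * (1 + x • E),
      V.add_mem (V.smul_mem hvE _) (V.mul_mem hw (V.add_mem V.one_mem (V.smul_mem hEV _))), ?_⟩
    rw [pow_succ, hn]
    have h1 : (1 + ((1 + x) ^ n - 1) • E + π₀ • w) * (1 + x • E) =
        1 + ((1 + x) ^ n - 1) • E + x • E + (((1 + x) ^ n - 1) * x) • (E * E) +
          π₀ • (w * (1 + x • E)) := by
      simp only [Algebra.smul_def, map_mul]
      ring
    rw [h1, hE]
    simp only [Algebra.smul_def, map_mul, map_sub, map_pow, map_add, map_one]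
    ring

/-- the product of two twists. -/
theorem h29y_mul_twist (V : Subalgebra A R) {E vE : R} (hvE : vE ∈ V) (π₀ : A)
    (hE : E * E = E + π₀ • vE) (x y : A) :
    ∃ w ∈ V, (1 + x • E) * (1 + y • E) = 1 + ((1 + x) * (1 + y) - 1) • E + π₀ • w := by
  refine ⟨(x * y) • vE, V.smul_mem hvE _, ?_⟩
  have h1 : (1 + x • E) * (1 + y • E) = 1 + x • E + y • E + (x * y) • (E * E) := by
    simp only [Algebra.smul_def, map_mul]
    ring
  rw [h1, hE]
  simp only [Algebra.smul_def, map_mul, map_sub, map_add, map_one]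
  ring

end Twist

section Split

variable {A : Type*} [CommRing A] [IsLocalRing A]

/-- in a local ring of residue characteristic `p`, the solutions of `t ^ p = t` modulo `𝔪` are the
natural numbers. -/
theorem h29y_split (p : ℕ) (hp : p.Prime)
    (hpM : (p : A) ∈ maximalIdeal A) (t : A) (ht : t ^ p - t ∈ maximalIdeal A) :
    ∃ j : ℕ, t - (j : A) ∈ maximalIdeal A := by
  have : Fact p.Prime := ⟨hp⟩
  have : CharP (ResidueField A) p := by
    rw [CharP.charP_iff_prime_eq_zero hp]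
    have h := (residue_eq_zero_iff (p : A)).mpr hpM
    rwa [map_natCast] at h
  have h1 : (residue A t) ^ p = residue A t := by
    have h := (residue_eq_zero_iff (t ^ p - t)).mpr ht
    rw [map_sub, map_pow, sub_eq_zero] at h
    exact h
  have h2 := (Subfield.mem_bot_iff_pow_eq_self (ResidueField A) p).mpr h1
  rw [← ZMod.fieldRange_castHom_eq_bot p] at h2
  obtain ⟨z, hz⟩ := h2
  refine ⟨z.val, ?_⟩
  rw [← residue_eq_zero_iff, map_sub, map_natCast, sub_eq_zero, ← hz]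
  conv_lhs => rw [← ZMod.natCast_zmod_val z]
  rw [map_natCast]

/-- an element congruent to `1` is a unit. -/
theorem h29y_isUnit_of_sub_one {ε : A} (hε : ε - 1 ∈ maximalIdeal A) : IsUnit ε := by
  by_contra h
  have h1 : ε ∈ maximalIdeal A := by rwa [mem_maximalIdeal, mem_nonunits_iff]
  have h2 : (1 : A) ∈ maximalIdeal A := by
    have h3 := (maximalIdeal A).sub_mem h1 hε
    rwa [sub_sub_cancel] at h3
  exact (maximalIdeal A).ne_top_iff_one.mp (maximalIdeal.isMaximal A).ne_top h2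

end Split

section Step

variable {A : Type*} [CommRing A] [IsDomain A] [ValuationRing A]
  {R : Type*} [CommRing R] [Algebra A R]

/-- `X ∈ 𝔪_A V`. -/
def h29yInM (V : Subalgebra A R) (X : R) : Prop :=
  ∃ m ∈ maximalIdeal A, ∃ v ∈ V, X = m • v

theorem h29y_inM_smul {V : Subalgebra A R} {m : A} (hm : m ∈ maximalIdeal A) {v : R}
    (hv : v ∈ V) : h29yInM V (m • v) :=
  ⟨m, hm, v, hv, rfl⟩

theorem h29y_inM_add {V : Subalgebra A R} {X Y : R} (hX : h29yInM V X) (hY : h29yInM V Y) :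
    h29yInM V (X + Y) := by
  obtain ⟨m₁, hm₁, v₁, hv₁, rfl⟩ := hX
  obtain ⟨m₂, hm₂, v₂, hv₂, rfl⟩ := hY
  obtain ⟨m, hm, ⟨c₁, rfl⟩, ⟨c₂, rfl⟩⟩ := h18y_exists_common hm₁ hm₂
  exact ⟨m, hm, c₁ • v₁ + c₂ • v₂, V.add_mem (V.smul_mem hv₁ _) (V.smul_mem hv₂ _), by
    rw [smul_add, mul_smul, mul_smul]⟩

/-- the critical depth is unique: two elements with `p a = a ^ p m`, `m` a unit, divide each
other. -/
theorem h29y_crit_dvd (p : ℕ) (hp : p.Prime) {a a₁ m m₁ : A} (ha0 : a ≠ 0) (ha₁0 : a₁ ≠ 0)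
    (hm : IsUnit m) (h : (p : A) * a = a ^ p * m) (h₁ : (p : A) * a₁ = a₁ ^ p * m₁) :
    a₁ ∣ a := by
  have hp1 : p - 1 ≠ 0 := by have := hp.two_le; omega
  have hpp : (p : A) = a ^ (p - 1) * m := by
    have h1 : a * (p : A) = a * (a ^ (p - 1) * m) := by
      rw [← mul_assoc, ← pow_succ', Nat.sub_add_cancel hp.one_le, mul_comm]; exact h
    exact mul_left_cancel₀ ha0 h1
  have hpp₁ : (p : A) = a₁ ^ (p - 1) * m₁ := by
    have h1 : a₁ * (p : A) = a₁ * (a₁ ^ (p - 1) * m₁) := by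
      rw [← mul_assoc, ← pow_succ', Nat.sub_add_cancel hp.one_le, mul_comm]; exact h₁
    exact mul_left_cancel₀ ha₁0 h1
  obtain ⟨m', hm'⟩ := hm.exists_right_inv
  apply h18y_dvd_of_pow_dvd_pow hp1
  refine ⟨m₁ * m', ?_⟩
  have h2 : a ^ (p - 1) * m = a₁ ^ (p - 1) * m₁ := hpp.symm.trans hpp₁
  linear_combination m' * h2 - a ^ (p - 1) * hm'

/-- **Twisted purity at a node, one step.**  Setting of `h18y_purity`, the Artin–Schreier
hypothesis being replaced by its NODE form `hASn` (the Artin–Schreier root exists up to a constant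
multiple `θ u E` of the partition of unity `E`, `θ ^ p + c θ ∈ 𝔪_A`), in presence of a `p`-th root
of unity `ζ₀` with `p = - (ζ₀ - 1) ^ (p - 1) ε`, `ε ≡ 1`.  If `G ^ p ∈ O + π V`, `π ∣ π₀`
(`π₀` the precision of `E`), then for some `j` the twist `G (1 + (ζ₀ ^ j - 1) E)` is in `O + a V`
with `π ∣ a ^ p` or `π ∣ p a`. -/
theorem h29y_twist_step (p : ℕ) (hp : p.Prime)
    (hp0 : (p : A) ≠ 0) (O V : Subalgebra A R) (hOV : O ≤ V)
    (hsat : ∀ a : A, a ≠ 0 → ∀ x ∈ V, a • x ∈ O → x ∈ O)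
    (hroot : ∀ x ∈ V, h18yNearM O V (x ^ p) → h18yNearM O V x)
    (hdepth : ∀ G ∈ V, G ∉ O →
      ∃ a : A, a ≠ 0 ∧ ∃ b ∈ O, ∃ r ∈ V, G = b + a • r ∧ ¬ h18yNearM O V r)
    (E vE : R) (hEV : E ∈ V) (hvE : vE ∈ V) (π₀ : A) (hE : E * E = E + π₀ • vE)
    (ζ₀ ε : A) (hζ₀ : ζ₀ ^ p = 1) (hε : ε - 1 ∈ maximalIdeal A)
    (hpζ : (p : A) = -((ζ₀ - 1) ^ (p - 1) * ε))
    (hASn : ∀ c : A, IsUnit c → ∀ u ∈ O, (∃ u' ∈ O, u * u' = 1) → ∀ x ∈ V,
      h18yNearM O V (x ^ p + c • (u ^ (p - 1) * x)) →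
      ∃ θ : A, θ ^ p + c * θ ∈ maximalIdeal A ∧ h18yNearM O V (x + θ • (u * E)))
    (G : R) (hGV : G ∈ V) (u : R) (hu : u ∈ O) (hu' : ∃ u' ∈ O, u * u' = 1)
    (hGu : ∃ m ∈ maximalIdeal A, ∃ y ∈ V, G = u + m • y)
    (π : A) (hππ₀ : π ∣ π₀) (hGp : h18yNear O V π (G ^ p)) :
    ∃ j : ℕ, ∃ a : A, h18yNear O V a (G * (1 + (ζ₀ ^ j - 1) • E)) ∧
      (π ∣ a ^ p ∨ π ∣ (p : A) * a) := by
  classical
  by_cases hGO : G ∈ O
  · exact ⟨0, 0, ⟨G, hGO, 0, V.zero_mem, by simp⟩, Or.inr (by simp)⟩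
  obtain ⟨a, ha0, b, hb, r, hr, hGeq, hrn⟩ := hdepth G hGV hGO
  by_cases hdeep : π ∣ a ^ p ∨ π ∣ (p : A) * a
  · exact ⟨0, a, ⟨b, hb, r, hr, by simpa using hGeq⟩, hdeep⟩
  rw [not_or] at hdeep
  obtain ⟨hc1, hc2⟩ := hdeep
  obtain ⟨m, hmu, hpa, hAS⟩ := h29y_tri p hp hp0 O V hOV hsat hroot G u hu hu' hGu π hGp a ha0
    b hb r hr hGeq hrn hc1 hc2
  obtain ⟨θ, hθ, hrθ⟩ := hASn m hmu u hu hu' r hr hAS
  have hGu₀ := hGu
  obtain ⟨mu, hmuM, y, hy, hGu'⟩ := hGu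
  have haM : a ∈ maximalIdeal A := h29y_depth_mem O V hu hb hmuM hy hGu' hGeq hrn
  obtain ⟨m'', hm'', ⟨c₂, hc₂⟩, z, hz, hbu⟩ :=
    h29y_b_eq O V hsat ha0 hu hb hr hmuM hy hGu' hGeq haM
  have hp1 : p - 1 ≠ 0 := by have := hp.two_le; omega
  -- `p = a ^ (p - 1) m`
  have hpp : (p : A) = a ^ (p - 1) * m := by
    have h1 : a * (p : A) = a * (a ^ (p - 1) * m) := by
      rw [← mul_assoc, ← pow_succ', Nat.sub_add_cancel hp.one_le, mul_comm]; exact hpa
    exact mul_left_cancel₀ ha0 h1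
  have hpM : (p : A) ∈ maximalIdeal A := by
    rw [hpp]
    exact Ideal.mul_mem_right _ _ (Ideal.pow_mem_of_mem _ haM _ (Nat.pos_of_ne_zero hp1))
  have hεu : IsUnit ε := h29y_isUnit_of_sub_one hε
  obtain ⟨ε', hε'⟩ := hεu.exists_right_inv
  obtain ⟨m', hm'⟩ := hmu.exists_right_inv
  -- `ζ₀ - 1 = a κ`, `κ` a unit
  have hkey : a ^ (p - 1) * m = -((ζ₀ - 1) ^ (p - 1) * ε) := hpp.symm.trans hpζ
  have hx₀a : a ∣ ζ₀ - 1 := by
    apply h18y_dvd_of_pow_dvd_pow hp1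
    exact ⟨-(m * ε'), by linear_combination ε' * hkey - (ζ₀ - 1) ^ (p - 1) * hε'⟩
  have hax₀ : ζ₀ - 1 ∣ a := by
    apply h18y_dvd_of_pow_dvd_pow hp1
    exact ⟨-(ε * m'), by linear_combination m' * hkey - a ^ (p - 1) * hm'⟩
  obtain ⟨κ, hκ⟩ := hx₀a
  obtain ⟨κ', hκ'⟩ := hax₀
  have hκκ' : κ * κ' = 1 := by
    have h1 : a * (κ * κ') = a * 1 := by
      rw [mul_one, ← mul_assoc, ← hκ, ← hκ']
    exact mul_left_cancel₀ ha0 h1
  have hx₀M : ζ₀ - 1 ∈ maximalIdeal A := by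
    rw [hκ]; exact Ideal.mul_mem_right _ _ haM
  -- `m + κ ^ (p - 1) ∈ 𝔪`
  have hmκ : m + κ ^ (p - 1) * ε = 0 := by
    have h1 : a ^ (p - 1) * (m + κ ^ (p - 1) * ε) = a ^ (p - 1) * 0 := by
      rw [hκ, mul_pow] at hkey
      rw [mul_zero]
      linear_combination hkey
    exact mul_left_cancel₀ (pow_ne_zero _ ha0) h1
  have hmκ' : m + κ ^ (p - 1) ∈ maximalIdeal A := by
    have h1 : m + κ ^ (p - 1) = -(κ ^ (p - 1)) * (ε - 1) := by linear_combination hmκ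
    rw [h1]
    exact Ideal.mul_mem_left _ _ hε
  -- `θ = j κ` modulo `𝔪`
  have hκ'p : κ' ^ p * κ ^ (p - 1) = κ' := by
    have h1 : κ' ^ p = κ' * κ' ^ (p - 1) := by
      rw [← pow_succ', Nat.sub_add_cancel hp.one_le]
    rw [h1, mul_assoc, ← mul_pow, mul_comm κ' κ, hκκ', one_pow, mul_one]
  obtain ⟨j, hj⟩ := h29y_split p hp hpM (θ * κ') (by
    have h1 : (θ * κ') ^ p - θ * κ' = κ' ^ p * (θ ^ p + m * θ) -
        (κ' ^ p * θ) * (m + κ ^ (p - 1)) := by
      linear_combination θ * hκ'p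
    rw [h1]
    exact (maximalIdeal A).sub_mem (Ideal.mul_mem_left _ _ hθ) (Ideal.mul_mem_left _ _ hmκ'))
  have hθj : θ - (j : A) * κ ∈ maximalIdeal A := by
    have h1 : θ - (j : A) * κ = (θ * κ' - (j : A)) * κ := by
      linear_combination (-θ) * hκκ'
    rw [h1]
    exact Ideal.mul_mem_right _ _ hj
  have huE : u * E ∈ V := V.mul_mem (hOV hu) hEV
  have hrj : h18yNearM O V (r + ((j : A) * κ) • (u * E)) := by
    have h1 : r + ((j : A) * κ) • (u * E) = (r + θ • (u * E)) - (θ - (j : A) * κ) • (u * E) := by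
      rw [sub_smul]; ring
    rw [h1]
    exact h18y_nearM_sub hrθ (h18y_nearM_smul hθj huE)
  obtain ⟨m₅, hm₅, o₁, ho₁, v, hv, hreq⟩ := hrj
  -- the twist
  obtain ⟨q, hq⟩ := h29y_one_add_pow (ζ₀ - 1) j
  have hq' : ζ₀ ^ j - 1 = (j : A) * (ζ₀ - 1) + (ζ₀ - 1) ^ 2 * q := by
    have h1 : (1 + (ζ₀ - 1)) ^ j = ζ₀ ^ j := by rw [add_sub_cancel]
    rw [h1] at hq
    linear_combination hq
  set x : A := ζ₀ ^ j - 1 with hx
  have hxM : x ∈ maximalIdeal A := by
    have h1 : x = (ζ₀ - 1) * ((j : A) + (ζ₀ - 1) * q) := by rw [hq']; ring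
    rw [h1]
    exact Ideal.mul_mem_right _ _ hx₀M
  set φ := algebraMap A R with hφ
  -- `G₁ = b' + a M`, `M ∈ 𝔪 V`
  have hM : h29yInM V (m₅ • v + (κ * (ζ₀ - 1) * q) • (u * E) +
      (κ * ((j : A) + (ζ₀ - 1) * q) * m'') • (z * E) + x • (r * E)) := by
    refine h29y_inM_add (h29y_inM_add (h29y_inM_add (h29y_inM_smul hm₅ hv) ?_) ?_) ?_
    · exact h29y_inM_smul (Ideal.mul_mem_right _ _ (Ideal.mul_mem_left _ _ hx₀M)) huE
    · exact h29y_inM_smul (Ideal.mul_mem_left _ _ hm'') (V.mul_mem (hOV hz) hEV)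
    · exact h29y_inM_smul hxM (V.mul_mem hr hEV)
  have hG₁ : G * (1 + x • E) = (b + a • o₁) + a • (m₅ • v + (κ * (ζ₀ - 1) * q) • (u * E) +
      (κ * ((j : A) + (ζ₀ - 1) * q) * m'') • (z * E) + x • (r * E)) := by
    have hr' : r = o₁ + φ m₅ * v - φ ((j : A) * κ) * (u * E) := by
      rw [Algebra.smul_def, Algebra.smul_def] at hreq
      linear_combination hreq
    have hb' : b = u + φ m'' * z := by rw [hbu, Algebra.smul_def]
    have hφx : φ x = φ (j : A) * φ (ζ₀ - 1) + φ (ζ₀ - 1) ^ 2 * φ q := by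
      rw [hq', map_add, map_mul, map_mul, map_pow]
    have hφx₀ : φ (ζ₀ - 1) = φ a * φ κ := by rw [hκ, map_mul]
    rw [hGeq]
    simp only [Algebra.smul_def, map_mul, map_add]
    rw [← hφ]
    generalize φ (ζ₀ - 1) = X₀ at hφx hφx₀ ⊢
    rw [hφx, hφx₀]
    have hr'' : r = o₁ + φ m₅ * v - φ (j : A) * φ κ * (u * E) := by rw [hr', map_mul]
    linear_combination (φ a * φ κ * φ (j : A) * E + φ a * φ κ * φ a * φ κ * φ q * E) *
      hb' + φ a * hr''
  obtain ⟨n₂, hn₂, v₂, hv₂, hMeq⟩ := hM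
  rw [hMeq] at hG₁
  have hG₁V : G * (1 + x • E) ∈ V := V.mul_mem hGV (V.add_mem V.one_mem (V.smul_mem hEV _))
  -- `G₁ ≡ u`
  have hG₁u : ∃ m ∈ maximalIdeal A, ∃ y ∈ V, G * (1 + x • E) = u + m • y := by
    obtain ⟨m₇, hm₇, y₇, hy₇, h7⟩ : h29yInM V (m'' • z + a • o₁ + a • (n₂ • v₂)) :=
      h29y_inM_add (h29y_inM_add (h29y_inM_smul hm'' (hOV hz)) (h29y_inM_smul haM (hOV ho₁)))
        (h29y_inM_smul haM (V.smul_mem hv₂ _))
    refine ⟨m₇, hm₇, y₇, hy₇, ?_⟩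
    rw [← h7, hG₁, hbu]; ring
  -- `G₁ ^ p ∈ O + π V`
  obtain ⟨w, hw, hpw⟩ := h29y_pow_twist V hEV hvE π₀ hE x p
  have hxp : (1 + x) ^ p = 1 := by
    rw [hx, add_sub_cancel, ← pow_mul, mul_comm, pow_mul, hζ₀, one_pow]
  rw [hxp, sub_self, zero_smul, add_zero] at hpw
  have hG₁p : h18yNear O V π ((G * (1 + x • E)) ^ p) := by
    obtain ⟨o, ho, s, hs, hGpeq⟩ := hGp
    obtain ⟨c₀, hc₀⟩ := hππ₀
    refine ⟨o, ho, s + c₀ • (G ^ p * w),
      V.add_mem hs (V.smul_mem (V.mul_mem (V.pow_mem hGV p) hw) _), ?_⟩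
    rw [mul_pow, hpw, hc₀]
    rw [Algebra.smul_def] at hGpeq
    simp only [Algebra.smul_def, map_mul]
    linear_combination hGpeq
  by_cases hG₁O : G * (1 + x • E) ∈ O
  · exact ⟨j, 0, ⟨_, hG₁O, 0, V.zero_mem, by rw [smul_zero, add_zero]⟩, Or.inr (by simp)⟩
  obtain ⟨a₁, ha₁0, b₁, hb₁, r₁, hr₁, hG₁eq, hrn₁⟩ := hdepth _ hG₁V hG₁O
  refine ⟨j, a₁, ⟨b₁, hb₁, r₁, hr₁, hG₁eq⟩, ?_⟩
  by_contra hcon
  rw [not_or] at hcon
  obtain ⟨hd1, hd2⟩ := hcon
  obtain ⟨m₁, -, hpa₁, -⟩ := h29y_tri p hp hp0 O V hOV hsat hroot _ u hu hu' hG₁u π hG₁p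
    a₁ ha₁0 b₁ hb₁ r₁ hr₁ hG₁eq hrn₁ hd1 hd2
  obtain ⟨c₃, hc₃⟩ := h29y_crit_dvd p hp ha0 ha₁0 hmu hpa hpa₁
  apply hrn₁
  have hO : r₁ - (c₃ * n₂) • v₂ ∈ O := by
    apply hsat a₁ ha₁0 _ (V.sub_mem hr₁ (V.smul_mem hv₂ _))
    have h1 : a₁ • (r₁ - (c₃ * n₂) • v₂) = (b + a • o₁) - b₁ := by
      have h2 : b₁ + a₁ • r₁ = (b + a • o₁) + a • (n₂ • v₂) := hG₁eq.symm.trans hG₁
      have h3 : φ a = φ a₁ * φ c₃ := by rw [hc₃, map_mul]
      simp only [Algebra.smul_def, map_mul] at h2 ⊢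
      rw [← hφ] at h2 ⊢
      rw [h3] at h2
      rw [h3]
      linear_combination h2
    rw [h1]
    exact O.sub_mem (O.add_mem hb (O.smul_mem ho₁ _)) hb₁
  have h1 : r₁ = (r₁ - (c₃ * n₂) • v₂) + (c₃ * n₂) • v₂ := by ring
  rw [h1]
  exact h18y_nearM_add (h18y_nearM_of_mem hO)
    (h18y_nearM_smul (Ideal.mul_mem_left _ _ hn₂) hv₂)

end Step

end Fermat.Agent.P6
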