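import Mathlib

/-!
# P6 (S33), block B2-T3 (helper2): polynomial algebra over a valuation ring

Mathlib only.  `A` is a valuation ring (a domain).

* `h2n_exists_dvd_all` : a finite nonempty family has a member dividing all members.
* `h2n_exists_content` : a nonzero polynomial is `C γ * f₀` with `f₀` having a coefficient `1`.
* `h2n_unit_coeff_mul` : Gauss lemma (a product of two polynomials with a unit coefficient has a
  unit coefficient).
* `h2n_pow_sub_pow_coeff` : for monic `N`, `D` of the same degree, if `r * c` divides all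
  coefficients of `N ^ r - D ^ r` then `c` divides all coefficients of `N - D`.
* `h2n_root_approx` : if `r * c ∣ κ ^ r - 1` then `κ` is congruent modulo `c` to an `r`-th root
  of unity (when `A` contains a primitive `r`-th root of unity).
-/

set_option autoImplicit false
set_option linter.style.haveILetI false
set_option linter.unusedSectionVars false

open Polynomial IsLocalRing

namespace Fermat.Agent.P6

section Alg

variable {A : Type*} [CommRing A] [IsDomain A] [ValuationRing A]

theorem h2n_exists_dvd_all {α : Type*} (T : Finset α) (hT : T.Nonempty) (f : α → A) :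
    ∃ i ∈ T, ∀ k ∈ T, f i ∣ f k := by
  classical
  refine Finset.Nonempty.cons_induction (fun a => ?_) (fun a s ha _ ih => ?_) hT
  · exact ⟨a, Finset.mem_singleton_self a, fun k hk => by rw [Finset.mem_singleton.mp hk]⟩
  · obtain ⟨i, hi, hik⟩ := ih
    rcases ValuationRing.dvd_total (f i) (f a) with h | h
    · refine ⟨i, Finset.mem_cons.mpr (Or.inr hi), fun k hk => ?_⟩
      rcases Finset.mem_cons.mp hk with rfl | hk
      · exact h
      · exact hik k hk
    · refine ⟨a, Finset.mem_cons_self a s, fun k hk => ?_⟩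
      rcases Finset.mem_cons.mp hk with rfl | hk
      · exact dvd_rfl
      · exact h.trans (hik k hk)

theorem h2n_exists_all_dvd {α : Type*} (T : Finset α) (hT : T.Nonempty) (f : α → A) :
    ∃ i ∈ T, ∀ k ∈ T, f k ∣ f i := by
  classical
  refine Finset.Nonempty.cons_induction (fun a => ?_) (fun a s ha _ ih => ?_) hT
  · exact ⟨a, Finset.mem_singleton_self a, fun k hk => by rw [Finset.mem_singleton.mp hk]⟩
  · obtain ⟨i, hi, hik⟩ := ih
    rcases ValuationRing.dvd_total (f i) (f a) with h | h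
    · refine ⟨a, Finset.mem_cons_self a s, fun k hk => ?_⟩
      rcases Finset.mem_cons.mp hk with rfl | hk
      · exact dvd_rfl
      · exact (hik k hk).trans h
    · refine ⟨i, Finset.mem_cons.mpr (Or.inr hi), fun k hk => ?_⟩
      rcases Finset.mem_cons.mp hk with rfl | hk
      · exact h
      · exact hik k hk

theorem h2n_exists_content (f : A[X]) (hf : f ≠ 0) :
    ∃ γ : A, γ ≠ 0 ∧ (∃ i, f.coeff i = γ) ∧ ∃ f₀ : A[X], f = C γ * f₀ ∧ ∃ k, f₀.coeff k = 1 := by
  have hs : f.support.Nonempty := Polynomial.support_nonempty.mpr hf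
  obtain ⟨i, hi, hik⟩ := h2n_exists_dvd_all f.support hs f.coeff
  have hγ : f.coeff i ≠ 0 := Polynomial.mem_support_iff.mp hi
  have hdvd : C (f.coeff i) ∣ f := by
    rw [Polynomial.C_dvd_iff_dvd_coeff]
    intro k
    by_cases hk : k ∈ f.support
    · exact hik k hk
    · rw [Polynomial.notMem_support_iff.mp hk]; exact dvd_zero _
  obtain ⟨f₀, hf₀⟩ := hdvd
  refine ⟨f.coeff i, hγ, ⟨i, rfl⟩, f₀, hf₀, i, ?_⟩
  have h1 : f.coeff i * f₀.coeff i = f.coeff i * 1 := by
    rw [mul_one]
    conv_rhs => rw [hf₀, Polynomial.coeff_C_mul]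
  exact mul_left_cancel₀ hγ h1

theorem h2n_unit_coeff_iff (h : A[X]) :
    (∃ k, IsUnit (h.coeff k)) ↔ h.map (residue A) ≠ 0 := by
  constructor
  · rintro ⟨k, hk⟩ h0
    have h1 := congrArg (fun q => q.coeff k) h0
    simp only [coeff_map, coeff_zero] at h1
    exact (residue_ne_zero_iff_isUnit _).mpr hk h1
  · intro h0
    by_contra hcon
    apply h0
    ext k
    rw [coeff_map, coeff_zero]
    by_contra hk
    exact hcon ⟨k, (residue_ne_zero_iff_isUnit _).mp hk⟩

theorem h2n_unit_coeff_mul {f g : A[X]} (hf : ∃ k, IsUnit (f.coeff k))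
    (hg : ∃ k, IsUnit (g.coeff k)) : ∃ k, IsUnit ((f * g).coeff k) := by
  rw [h2n_unit_coeff_iff] at hf hg ⊢
  rw [Polynomial.map_mul]
  exact mul_ne_zero hf hg

theorem h2n_pow_sub_pow_coeff {N D : A[X]} (hN : N.Monic) (hD : D.Monic)
    (hdeg : N.natDegree = D.natDegree) (r : ℕ) (hr : (r : A) ≠ 0) (c : A)
    (h : ∀ k, (r : A) * c ∣ (N ^ r - D ^ r).coeff k) : ∀ k, c ∣ (N - D).coeff k := by
  classical
  set S : A[X] := ∑ i ∈ Finset.range r, N ^ i * D ^ (r - 1 - i) with hS
  have hfac : N ^ r - D ^ r = (N - D) * S := by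
    rw [hS]
    exact ((Commute.all N D).mul_geom_sum₂ r).symm
  set d := D.natDegree with hd
  have hScoeff : S.coeff ((r - 1) * d) = (r : A) := by
    rw [hS, Polynomial.finsetSum_coeff]
    have h1 : ∀ i ∈ Finset.range r, (N ^ i * D ^ (r - 1 - i)).coeff ((r - 1) * d) = 1 := by
      intro i hi
      have hi' : i < r := Finset.mem_range.mp hi
      have hm : (N ^ i * D ^ (r - 1 - i)).Monic := (hN.pow i).mul (hD.pow _)
      have hdg : (N ^ i * D ^ (r - 1 - i)).natDegree = (r - 1) * d := by
        rw [(hN.pow i).natDegree_mul (hD.pow _), hN.natDegree_pow, hD.natDegree_pow, hdeg,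
          ← add_mul]
        congr 1
        omega
      rw [← hdg]
      exact hm.coeff_natDegree
    rw [Finset.sum_congr rfl h1]
    simp
  have hS0 : S ≠ 0 := by
    intro h0
    rw [h0, coeff_zero] at hScoeff
    exact hr hScoeff.symm
  rcases eq_or_ne (N - D) 0 with h0 | h0
  · intro k; rw [h0, coeff_zero]; exact dvd_zero _
  obtain ⟨γ, hγ0, -, f₀, hf₀, kf, hkf⟩ := h2n_exists_content (N - D) h0
  obtain ⟨σ, hσ0, -, S₀, hS₀, kS, hkS⟩ := h2n_exists_content S hS0
  have hσr : σ ∣ (r : A) := by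
    rw [← hScoeff, hS₀, coeff_C_mul]
    exact dvd_mul_right _ _
  obtain ⟨k₀, hk₀⟩ := h2n_unit_coeff_mul (f := f₀) (g := S₀) ⟨kf, by rw [hkf]; exact isUnit_one⟩
    ⟨kS, by rw [hkS]; exact isUnit_one⟩
  have h1 : (N ^ r - D ^ r).coeff k₀ = γ * σ * (f₀ * S₀).coeff k₀ := by
    rw [hfac, hf₀, hS₀]
    have : C γ * f₀ * (C σ * S₀) = C (γ * σ) * (f₀ * S₀) := by
      rw [C_mul]; ring
    rw [this, coeff_C_mul]
  have h2 : (r : A) * c ∣ γ * σ := by
    have h3 := h k₀
    rw [h1] at h3
    exact (hk₀.dvd_mul_right).mp h3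
  obtain ⟨r', hr'⟩ := hσr
  have h4 : c ∣ γ := by
    obtain ⟨q, hq⟩ := h2
    have h5 : σ * γ = σ * (r' * c * q) := by
      rw [hr'] at hq
      linear_combination hq
    have h6 := mul_left_cancel₀ hσ0 h5
    exact ⟨r' * q, by rw [h6]; ring⟩
  intro k
  rw [hf₀, coeff_C_mul]
  exact Dvd.dvd.mul_right h4 _

end Alg

end Fermat.Agent.P6
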