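import Mathlib
import Fermat.Agent.P6.H2NodeAlg

/-!
# P6 (S33), block B2-T3 (helper2): the local ring of a chart at a closed point, inside `F`

`A` a valuation ring, `F` a field over `A`, `B ⊆ F` a chart, `𝔫` a prime of `B`.

* `h2nLoc B 𝔫` : the localisation `B_𝔫` as a subalgebra of `F`.
* `h2nMax B 𝔫` : its maximal ideal, as a subset of `F`.
* `h2nML B 𝔫` : the subset `𝔪_A · B_𝔫`.
-/

set_option autoImplicit false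
set_option linter.style.haveILetI false
set_option linter.unusedSectionVars false

open Polynomial IsLocalRing

namespace Fermat.Agent.P6

section Loc

variable {A : Type*} [CommRing A] [IsDomain A] [ValuationRing A]
  {F : Type*} [Field F] [Algebra A F]
  (B : Subalgebra A F) (𝔫 : Ideal B) [h𝔫 : 𝔫.IsPrime]

/-- the localisation `B_𝔫` inside `F`. -/
def h2nLoc : Subalgebra A F where
  carrier := {z | ∃ s : B, s ∉ 𝔫 ∧ (s : F) * z ∈ B}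
  mul_mem' := by
    rintro z₁ z₂ ⟨s₁, hs₁, h₁⟩ ⟨s₂, hs₂, h₂⟩
    refine ⟨s₁ * s₂, fun h => (h𝔫.mem_or_mem h).elim hs₁ hs₂, ?_⟩
    have : ((s₁ * s₂ : B) : F) * (z₁ * z₂) = ((s₁ : F) * z₁) * ((s₂ : F) * z₂) := by
      push_cast; ring
    rw [this]
    exact B.mul_mem h₁ h₂
  add_mem' := by
    rintro z₁ z₂ ⟨s₁, hs₁, h₁⟩ ⟨s₂, hs₂, h₂⟩
    refine ⟨s₁ * s₂, fun h => (h𝔫.mem_or_mem h).elim hs₁ hs₂, ?_⟩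
    have : ((s₁ * s₂ : B) : F) * (z₁ + z₂) =
        (s₂ : F) * ((s₁ : F) * z₁) + (s₁ : F) * ((s₂ : F) * z₂) := by
      push_cast; ring
    rw [this]
    exact B.add_mem (B.mul_mem s₂.2 h₁) (B.mul_mem s₁.2 h₂)
  algebraMap_mem' := by
    intro a
    refine ⟨1, (Ideal.ne_top_iff_one 𝔫).mp h𝔫.ne_top, ?_⟩
    simp only [OneMemClass.coe_one, one_mul]
    exact B.algebraMap_mem a

/-- the maximal ideal of `B_𝔫`, as a subset of `F`. -/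
def h2nMax : Set F := {z | ∃ s : B, s ∉ 𝔫 ∧ ∃ b : B, b ∈ 𝔫 ∧ (s : F) * z = (b : F)}

variable {B 𝔫}

theorem h2n_mem_loc_iff {z : F} : z ∈ h2nLoc B 𝔫 ↔ ∃ s : B, s ∉ 𝔫 ∧ (s : F) * z ∈ B := Iff.rfl

theorem h2n_coe_mem_loc (b : B) : (b : F) ∈ h2nLoc B 𝔫 :=
  ⟨1, (Ideal.ne_top_iff_one 𝔫).mp h𝔫.ne_top, by
    simp only [OneMemClass.coe_one, one_mul]; exact b.2⟩

theorem h2n_max_le_loc {z : F} (hz : z ∈ h2nMax B 𝔫) : z ∈ h2nLoc B 𝔫 := by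
  obtain ⟨s, hs, b, -, hb⟩ := hz
  exact ⟨s, hs, by rw [hb]; exact b.2⟩

theorem h2n_coe_mem_max {b : B} (hb : b ∈ 𝔫) : (b : F) ∈ h2nMax B 𝔫 :=
  ⟨1, (Ideal.ne_top_iff_one 𝔫).mp h𝔫.ne_top, b, hb, by simp⟩

theorem h2n_coe_ne_zero {s : B} (hs : s ∉ 𝔫) : (s : F) ≠ 0 := by
  intro h0
  apply hs
  have : s = 0 := Subtype.ext h0
  rw [this]; exact 𝔫.zero_mem

theorem h2n_coe_notMem_max {b : B} (hb : b ∉ 𝔫) : (b : F) ∉ h2nMax B 𝔫 := by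
  rintro ⟨s, hs, b', hb', h⟩
  have h1 : s * b = b' := Subtype.ext (by push_cast; exact h)
  have h2 : s * b ∈ 𝔫 := h1 ▸ hb'
  exact (h𝔫.mem_or_mem h2).elim hs hb

theorem h2n_max_add {z₁ z₂ : F} (h₁ : z₁ ∈ h2nMax B 𝔫) (h₂ : z₂ ∈ h2nMax B 𝔫) :
    z₁ + z₂ ∈ h2nMax B 𝔫 := by
  obtain ⟨s₁, hs₁, b₁, hb₁, e₁⟩ := h₁
  obtain ⟨s₂, hs₂, b₂, hb₂, e₂⟩ := h₂
  refine ⟨s₁ * s₂, fun h => (h𝔫.mem_or_mem h).elim hs₁ hs₂, s₂ * b₁ + s₁ * b₂,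
    𝔫.add_mem (𝔫.mul_mem_left _ hb₁) (𝔫.mul_mem_left _ hb₂), ?_⟩
  push_cast
  rw [← e₁, ← e₂]
  ring

theorem h2n_max_neg {z : F} (h : z ∈ h2nMax B 𝔫) : -z ∈ h2nMax B 𝔫 := by
  obtain ⟨s, hs, b, hb, e⟩ := h
  refine ⟨s, hs, -b, 𝔫.neg_mem hb, ?_⟩
  push_cast
  rw [← e]
  ring

theorem h2n_max_sub {z₁ z₂ : F} (h₁ : z₁ ∈ h2nMax B 𝔫) (h₂ : z₂ ∈ h2nMax B 𝔫) :
    z₁ - z₂ ∈ h2nMax B 𝔫 := by
  rw [sub_eq_add_neg]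
  exact h2n_max_add h₁ (h2n_max_neg h₂)

theorem h2n_max_mul {z n : F} (hz : z ∈ h2nLoc B 𝔫) (hn : n ∈ h2nMax B 𝔫) :
    z * n ∈ h2nMax B 𝔫 := by
  obtain ⟨s₁, hs₁, h₁⟩ := hz
  obtain ⟨s₂, hs₂, b₂, hb₂, e₂⟩ := hn
  refine ⟨s₁ * s₂, fun h => (h𝔫.mem_or_mem h).elim hs₁ hs₂, ⟨_, h₁⟩ * b₂,
    𝔫.mul_mem_left _ hb₂, ?_⟩
  push_cast
  rw [← e₂]
  ring

theorem h2n_max_mul' {z n : F} (hn : n ∈ h2nMax B 𝔫) (hz : z ∈ h2nLoc B 𝔫) :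
    n * z ∈ h2nMax B 𝔫 := by
  rw [mul_comm]; exact h2n_max_mul hz hn

theorem h2n_max_pow {n : F} (hn : n ∈ h2nMax B 𝔫) {k : ℕ} (hk : 0 < k) :
    n ^ k ∈ h2nMax B 𝔫 := by
  obtain ⟨j, rfl⟩ : ∃ j, k = j + 1 := ⟨k - 1, by omega⟩
  rw [pow_succ]
  exact h2n_max_mul ((h2nLoc B 𝔫).pow_mem (h2n_max_le_loc hn) j) hn

theorem h2n_one_notMem_max : (1 : F) ∉ h2nMax B 𝔫 := by
  have := h2n_coe_notMem_max (B := B) (𝔫 := 𝔫) (b := 1) ((Ideal.ne_top_iff_one 𝔫).mp h𝔫.ne_top)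
  simpa using this

/-- an element of `B_𝔫` outside the maximal ideal is a unit of `B_𝔫`. -/
theorem h2n_inv_mem_loc {z : F} (hz : z ∈ h2nLoc B 𝔫) (hz' : z ∉ h2nMax B 𝔫) :
    z⁻¹ ∈ h2nLoc B 𝔫 := by
  obtain ⟨s, hs, hb⟩ := hz
  have hbn : (⟨_, hb⟩ : B) ∉ 𝔫 := fun h => hz' ⟨s, hs, ⟨_, hb⟩, h, rfl⟩
  have hs0 := h2n_coe_ne_zero (B := B) hs
  have hb0 : (s : F) * z ≠ 0 := h2n_coe_ne_zero (B := B) (s := ⟨_, hb⟩) hbn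
  have hz0 : z ≠ 0 := right_ne_zero_of_mul hb0
  refine ⟨⟨_, hb⟩, hbn, ?_⟩
  have : (s : F) * z * z⁻¹ = s := by field_simp
  show (s : F) * z * z⁻¹ ∈ B
  rw [this]
  exact s.2

theorem h2n_inv_notMem_max {z : F} (hz : z ∈ h2nLoc B 𝔫) (hz' : z ∉ h2nMax B 𝔫) :
    z⁻¹ ∉ h2nMax B 𝔫 := by
  intro h
  have hz0 : z ≠ 0 := by
    rintro rfl
    apply hz'
    exact ⟨1, (Ideal.ne_top_iff_one 𝔫).mp h𝔫.ne_top, 0, 𝔫.zero_mem, by simp⟩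
  have := h2n_max_mul hz h
  rw [mul_inv_cancel₀ hz0] at this
  exact h2n_one_notMem_max this

/-- an element of `B_𝔫` outside the maximal ideal is a unit of every subring `W ⊇ B` in which
the elements of `B` outside `𝔫` are units. -/
theorem h2n_inv_mem_W (W : Subring F) (hBW : ∀ b : B, (b : F) ∈ W)
    (hn : ∀ b : B, b ∉ 𝔫 → ((b : F))⁻¹ ∈ W) {z : F} (hz : z ∈ h2nLoc B 𝔫)
    (hz' : z ∉ h2nMax B 𝔫) : z⁻¹ ∈ W := by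
  obtain ⟨s, hs, hb⟩ := hz
  have hbn : (⟨_, hb⟩ : B) ∉ 𝔫 := fun h => hz' ⟨s, hs, ⟨_, hb⟩, h, rfl⟩
  have hs0 := h2n_coe_ne_zero (B := B) hs
  have hb0 : (s : F) * z ≠ 0 := h2n_coe_ne_zero (B := B) (s := ⟨_, hb⟩) hbn
  have hz0 : z ≠ 0 := right_ne_zero_of_mul hb0
  have h1 : z⁻¹ = (s : F) * ((s : F) * z)⁻¹ := by field_simp
  rw [h1]
  exact W.mul_mem (hBW s) (hn ⟨_, hb⟩ hbn)

theorem h2n_loc_le_W (W : Subring F) (hBW : ∀ b : B, (b : F) ∈ W)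
    (hn : ∀ b : B, b ∉ 𝔫 → ((b : F))⁻¹ ∈ W) {z : F} (hz : z ∈ h2nLoc B 𝔫) : z ∈ W := by
  obtain ⟨s, hs, hb⟩ := hz
  have hs0 := h2n_coe_ne_zero (B := B) hs
  have h1 : z = ((s : F))⁻¹ * ((s : F) * z) := by field_simp
  rw [h1]
  exact W.mul_mem (hn s hs) (hBW ⟨_, hb⟩)

/-- QEP for the local ring. -/
theorem h2n_loc_qep (V : Subring F) (hBV : ∀ x ∈ B, x ∈ V)
    (hQEP : ∀ a : A, algebraMap A F a ≠ 0 → ∀ x ∈ V, a • x ∈ B → x ∈ B)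
    (a : A) (ha : algebraMap A F a ≠ 0) {z : F} (hzV : z ∈ V)
    (hz : algebraMap A F a * z ∈ h2nLoc B 𝔫) : z ∈ h2nLoc B 𝔫 := by
  obtain ⟨s, hs, hb⟩ := hz
  refine ⟨s, hs, hQEP a ha _ (V.mul_mem (hBV _ s.2) hzV) ?_⟩
  rw [Algebra.smul_def]
  have : algebraMap A F a * ((s : F) * z) = (s : F) * (algebraMap A F a * z) := by ring
  rw [this]
  exact hb

variable (B 𝔫) in
/-- the subset `𝔪_A · B_𝔫` of `F`. -/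
def h2nML : Set F :=
  {z | ∃ π ∈ maximalIdeal A, ∃ l ∈ h2nLoc B 𝔫, z = algebraMap A F π * l}

theorem h2nML_zero : (0 : F) ∈ h2nML B 𝔫 :=
  ⟨0, Ideal.zero_mem _, 0, (h2nLoc B 𝔫).zero_mem, by simp⟩

theorem h2nML_add {z₁ z₂ : F} (h₁ : z₁ ∈ h2nML B 𝔫) (h₂ : z₂ ∈ h2nML B 𝔫) :
    z₁ + z₂ ∈ h2nML B 𝔫 := by
  obtain ⟨π₁, hπ₁, l₁, hl₁, rfl⟩ := h₁
  obtain ⟨π₂, hπ₂, l₂, hl₂, rfl⟩ := h₂
  rcases ValuationRing.dvd_total π₁ π₂ with ⟨q, hq⟩ | ⟨q, hq⟩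
  · refine ⟨π₁, hπ₁, l₁ + algebraMap A F q * l₂,
      (h2nLoc B 𝔫).add_mem hl₁ ((h2nLoc B 𝔫).mul_mem ((h2nLoc B 𝔫).algebraMap_mem q) hl₂), ?_⟩
    rw [hq, map_mul]; ring
  · refine ⟨π₂, hπ₂, algebraMap A F q * l₁ + l₂,
      (h2nLoc B 𝔫).add_mem ((h2nLoc B 𝔫).mul_mem ((h2nLoc B 𝔫).algebraMap_mem q) hl₁) hl₂, ?_⟩
    rw [hq, map_mul]; ring

theorem h2nML_neg {z : F} (h : z ∈ h2nML B 𝔫) : -z ∈ h2nML B 𝔫 := by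
  obtain ⟨π, hπ, l, hl, rfl⟩ := h
  exact ⟨π, hπ, -l, (h2nLoc B 𝔫).neg_mem hl, by ring⟩

theorem h2nML_sub {z₁ z₂ : F} (h₁ : z₁ ∈ h2nML B 𝔫) (h₂ : z₂ ∈ h2nML B 𝔫) :
    z₁ - z₂ ∈ h2nML B 𝔫 := by
  rw [sub_eq_add_neg]; exact h2nML_add h₁ (h2nML_neg h₂)

theorem h2nML_mul {z l : F} (hl : l ∈ h2nLoc B 𝔫) (h : z ∈ h2nML B 𝔫) : l * z ∈ h2nML B 𝔫 := by
  obtain ⟨π, hπ, l', hl', rfl⟩ := h
  exact ⟨π, hπ, l * l', (h2nLoc B 𝔫).mul_mem hl hl', by ring⟩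

theorem h2nML_const {π : A} (hπ : π ∈ maximalIdeal A) {l : F} (hl : l ∈ h2nLoc B 𝔫) :
    algebraMap A F π * l ∈ h2nML B 𝔫 := ⟨π, hπ, l, hl, rfl⟩

/-- the value at `t ∈ B_𝔫` of a polynomial lies in `B_𝔫`. -/
theorem h2n_aeval_mem {t : F} (ht : t ∈ h2nLoc B 𝔫) (f : A[X]) :
    aeval t f ∈ h2nLoc B 𝔫 := by
  have h1 := Polynomial.aeval_subalgebra_coe f (h2nLoc B 𝔫) ⟨t, ht⟩
  simp only at h1
  rw [← h1]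
  exact (aeval (⟨t, ht⟩ : h2nLoc B 𝔫) f).2

/-- the value at `t ∈ B_𝔫` of a polynomial with coefficients in `𝔪_A` lies in `𝔪_A · B_𝔫`. -/
theorem h2n_aeval_mem_ML {t : F} (ht : t ∈ h2nLoc B 𝔫) (f : A[X])
    (hf : ∀ k, f.coeff k ∈ maximalIdeal A) : aeval t f ∈ h2nML B 𝔫 := by
  rcases eq_or_ne f 0 with rfl | h0
  · rw [map_zero]; exact h2nML_zero
  obtain ⟨γ, -, ⟨i, hi⟩, f₀, hf₀, -⟩ := h2n_exists_content f h0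
  refine ⟨γ, hi ▸ hf i, aeval t f₀, h2n_aeval_mem ht f₀, ?_⟩
  conv_lhs => rw [hf₀]
  rw [map_mul, aeval_C]

/-- an element `z` of `B_𝔫` with `t ^ j * z ∈ 𝔪_A B_𝔫`, `t` a unit of `W`, lies in the maximal
ideal. -/
theorem h2n_mem_max_of_pow_mul (W : Subring F) (hBW : ∀ b : B, (b : F) ∈ W)
    (hn : ∀ b : B, b ∉ 𝔫 → ((b : F))⁻¹ ∈ W)
    (hnt : ∀ π ∈ maximalIdeal A, ∀ x ∈ W, algebraMap A F π * x ≠ 1)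
    {t : F} (ht0 : t ≠ 0) (htW : t⁻¹ ∈ W) (j : ℕ) {z : F} (hz : z ∈ h2nLoc B 𝔫)
    (h : t ^ j * z ∈ h2nML B 𝔫) : z ∈ h2nMax B 𝔫 := by
  by_contra hz'
  obtain ⟨π, hπ, l, hl, e⟩ := h
  have hzW : z⁻¹ ∈ W := h2n_inv_mem_W W hBW hn hz hz'
  have hlW : l ∈ W := h2n_loc_le_W W hBW hn hl
  have hz0 : z ≠ 0 := by
    rintro rfl
    exact hz' ⟨1, (Ideal.ne_top_iff_one 𝔫).mp h𝔫.ne_top, 0, 𝔫.zero_mem, by simp⟩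
  refine hnt π hπ (l * (t⁻¹) ^ j * z⁻¹)
    (W.mul_mem (W.mul_mem hlW (W.pow_mem htW j)) hzW) ?_
  have h1 : algebraMap A F π * (l * (t⁻¹) ^ j * z⁻¹) =
      (algebraMap A F π * l) * (t⁻¹) ^ j * z⁻¹ := by ring
  rw [h1, ← e, inv_pow]
  have : t ^ j ≠ 0 := pow_ne_zero _ ht0
  field_simp

end Loc

end Fermat.Agent.P6
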