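import Mathlib
import Fermat.Agent.P6.H2NodeLoc

/-!
# P6 (S33), block B2-T3 (helper2): the two-branch content lemma at a node

`A` a valuation ring, `F` a field over `A`, `B ⊆ F` a chart, `𝔫` a prime of `B` lying on the two
components `W∞`, `W₀` of the special fibre, `tx, ty ∈ 𝔫 B_𝔫` with `tx` a unit of `W∞` and `ty` a
unit of `W₀` (the two branches of a node).

* `h2n_branch` : on one branch, if `s R(t) - h₁ Q(t) ∈ 𝔪_A B_𝔫` with `s` a unit of `B_𝔫`,
  `Q ≡ X ^ m` modulo `𝔪_A` and `deg R ≤ m`, then (`deg R < m` or `h₁ ∈ 𝔫 B_𝔫`) forces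
  `R ≡ 0` modulo `𝔪_A`, and `R ≡ 0` forces `h₁ ∈ 𝔫 B_𝔫`.
* `h2n_two_branch` : if `s P(tx) ≡ b Q(tx)` and `κ s P'(ty) ≡ b Q'(ty)` modulo `D₀ B_𝔫`, all four
  polynomials monic of degree `m`, `Q ≡ Q' ≡ X ^ m` modulo `𝔪_A`, then `P ≡ Q` and
  `κ P' ≡ Q'` modulo `D₀` (coefficientwise); in particular `κ ≡ 1` modulo `D₀`.
-/

set_option autoImplicit false
set_option linter.style.haveILetI false
set_option linter.unusedSectionVars false

open Polynomial IsLocalRing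

namespace Fermat.Agent.P6

section Branch

variable {A : Type*} [CommRing A] [IsDomain A] [ValuationRing A]
  {F : Type*} [Field F] [Algebra A F]
  {B : Subalgebra A F} {𝔫 : Ideal B} [h𝔫 : 𝔫.IsPrime]

/-- splitting of a polynomial at the degree `j`. -/
theorem h2n_split (R : A[X]) (j : ℕ) :
    ∃ Rlow U : A[X], R = Rlow + X ^ j * (U * X + C (R.coeff j)) ∧
      ∀ k, Rlow.coeff k = if k < j then R.coeff k else 0 := by
  classical
  set Rlow : A[X] := ∑ i ∈ Finset.range j, monomial i (R.coeff i) with hRlow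
  have hcoeff : ∀ k, Rlow.coeff k = if k < j then R.coeff k else 0 := by
    intro k
    rw [hRlow, Polynomial.finsetSum_coeff]
    simp only [coeff_monomial]
    rw [Finset.sum_ite_eq' (Finset.range j) k (fun i => R.coeff i)]
    simp only [Finset.mem_range]
  have hdvd : X ^ j ∣ R - Rlow := by
    rw [Polynomial.X_pow_dvd_iff]
    intro d hd
    rw [coeff_sub, hcoeff d, if_pos hd, sub_self]
  obtain ⟨U₀, hU₀⟩ := hdvd
  have hU₀0 : U₀.coeff 0 = R.coeff j := by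
    have h1 : (R - Rlow).coeff (0 + j) = U₀.coeff 0 := by
      rw [hU₀, coeff_X_pow_mul]
    rw [zero_add, coeff_sub, hcoeff j, if_neg (lt_irrefl j), sub_zero] at h1
    exact h1.symm
  refine ⟨Rlow, U₀.divX, ?_, hcoeff⟩
  rw [← hU₀0, Polynomial.divX_mul_X_add, ← hU₀]
  ring

/-- `Q - X ^ m` has coefficients in `𝔪_A` when `Q ≡ X ^ m`. -/
theorem h2n_sub_pow_coeff (Q : A[X]) (m : ℕ) (hQ : Q.map (residue A) = X ^ m) :
    ∀ k, (Q - X ^ m).coeff k ∈ maximalIdeal A := by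
  intro k
  rw [← residue_eq_zero_iff]
  have h1 : (Q - X ^ m).map (residue A) = 0 := by
    rw [Polynomial.map_sub, hQ, Polynomial.map_pow, Polynomial.map_X, sub_self]
  have h2 := congrArg (fun q => q.coeff k) h1
  simpa only [coeff_map, coeff_zero] using h2

theorem h2n_aeval_sub_pow_mem {t : F} (ht : t ∈ h2nLoc B 𝔫) (Q : A[X]) (m : ℕ)
    (hQ : Q.map (residue A) = X ^ m) : aeval t Q - t ^ m ∈ h2nML B 𝔫 := by
  have h1 := h2n_aeval_mem_ML ht (Q - X ^ m) (h2n_sub_pow_coeff Q m hQ)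
  rwa [map_sub, map_pow, aeval_X] at h1

/-- the value of `Q ≡ X ^ m` at a unit `t` of `W` is a unit of `W`. -/
theorem h2n_aeval_inv_mem (W : Subring F) (hBW : ∀ b : B, (b : F) ∈ W)
    (hn : ∀ b : B, b ∉ 𝔫 → ((b : F))⁻¹ ∈ W)
    (hnt : ∀ π ∈ maximalIdeal A, ∀ x ∈ W, algebraMap A F π * x ≠ 1)
    (hinv : ∀ π ∈ maximalIdeal A, ∀ x ∈ W, (1 + algebraMap A F π * x)⁻¹ ∈ W)
    {t : F} (ht : t ∈ h2nLoc B 𝔫) (ht0 : t ≠ 0) (htW : t⁻¹ ∈ W) (Q : A[X]) (m : ℕ)
    (hQ : Q.map (residue A) = X ^ m) : aeval t Q ≠ 0 ∧ (aeval t Q)⁻¹ ∈ W := by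
  obtain ⟨π, hπ, l, hl, e⟩ := h2n_aeval_sub_pow_mem ht Q m hQ
  have hlW : l ∈ W := h2n_loc_le_W W hBW hn hl
  have hw : l * (t⁻¹) ^ m ∈ W := W.mul_mem hlW (W.pow_mem htW m)
  have htm : t ^ m ≠ 0 := pow_ne_zero _ ht0
  have h1 : aeval t Q = t ^ m * (1 + algebraMap A F π * (l * (t⁻¹) ^ m)) := by
    have : aeval t Q = t ^ m + algebraMap A F π * l := by rw [← e]; ring
    rw [this, inv_pow]
    field_simp
  have h2 : (1 + algebraMap A F π * (l * (t⁻¹) ^ m)) ≠ 0 := by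
    intro h0
    refine hnt π hπ (-(l * (t⁻¹) ^ m)) (W.neg_mem hw) ?_
    linear_combination -h0
  refine ⟨by rw [h1]; exact mul_ne_zero htm h2, ?_⟩
  rw [h1, mul_inv, ← inv_pow]
  exact W.mul_mem (W.pow_mem htW m) (hinv π hπ _ hw)

/-- **the branch lemma.** -/
theorem h2n_branch (W : Subring F) (hBW : ∀ b : B, (b : F) ∈ W)
    (hn : ∀ b : B, b ∉ 𝔫 → ((b : F))⁻¹ ∈ W)
    (hnt : ∀ π ∈ maximalIdeal A, ∀ x ∈ W, algebraMap A F π * x ≠ 1)
    {t : F} (ht : t ∈ h2nMax B 𝔫) (ht0 : t ≠ 0) (htW : t⁻¹ ∈ W) (m : ℕ) (R Q : A[X])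
    (hR : ∀ k, m < k → R.coeff k = 0) (hQ : Q.map (residue A) = X ^ m)
    {s h1 : F} (hs : s ∈ h2nLoc B 𝔫) (hs' : s ∉ h2nMax B 𝔫) (hh1 : h1 ∈ h2nLoc B 𝔫)
    (heq : s * aeval t R - h1 * aeval t Q ∈ h2nML B 𝔫) :
    (((∀ k, m ≤ k → R.coeff k = 0) ∨ h1 ∈ h2nMax B 𝔫) → ∀ k, R.coeff k ∈ maximalIdeal A) ∧
    ((∀ k, R.coeff k ∈ maximalIdeal A) → h1 ∈ h2nMax B 𝔫) := by
  classical
  have htL : t ∈ h2nLoc B 𝔫 := h2n_max_le_loc ht
  have hQ' : aeval t Q - t ^ m ∈ h2nML B 𝔫 := h2n_aeval_sub_pow_mem htL Q m hQ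
  constructor
  · intro hcase
    by_contra hcon
    have hex : ∃ k, R.coeff k ∉ maximalIdeal A := by
      by_contra h0
      exact hcon fun k => by
        by_contra hk
        exact h0 ⟨k, hk⟩
    set j := Nat.find hex with hj
    have hjn : R.coeff j ∉ maximalIdeal A := Nat.find_spec hex
    have hmin : ∀ i, i < j → R.coeff i ∈ maximalIdeal A := fun i hi => by
      by_contra h0
      exact Nat.find_min hex hi h0
    have hjm : j ≤ m := by
      by_contra h0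
      apply hjn
      rw [hR j (not_le.mp h0)]
      exact Ideal.zero_mem _
    obtain ⟨Rlow, U, hsplit, hlow⟩ := h2n_split R j
    have hlowm : ∀ k, Rlow.coeff k ∈ maximalIdeal A := by
      intro k
      rw [hlow k]
      split_ifs with hk
      · exact hmin k hk
      · exact Ideal.zero_mem _
    have hRlow : aeval t Rlow ∈ h2nML B 𝔫 := h2n_aeval_mem_ML htL Rlow hlowm
    set ρ : F := algebraMap A F (R.coeff j) with hρ
    set Ut : F := aeval t U with hUt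
    have hUtL : Ut ∈ h2nLoc B 𝔫 := h2n_aeval_mem htL U
    have hRt : aeval t R = aeval t Rlow + t ^ j * (Ut * t + ρ) := by
      conv_lhs => rw [hsplit]
      simp only [map_add, map_mul, map_pow, aeval_X, aeval_C]
      rfl
    set z : F := s * (Ut * t + ρ) - h1 * t ^ (m - j) with hz
    have hzL : z ∈ h2nLoc B 𝔫 :=
      (h2nLoc B 𝔫).sub_mem
        ((h2nLoc B 𝔫).mul_mem hs ((h2nLoc B 𝔫).add_mem ((h2nLoc B 𝔫).mul_mem hUtL htL)
          ((h2nLoc B 𝔫).algebraMap_mem _)))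
        ((h2nLoc B 𝔫).mul_mem hh1 ((h2nLoc B 𝔫).pow_mem htL _))
    have hzML : t ^ j * z ∈ h2nML B 𝔫 := by
      have h1' : t ^ j * z = (s * aeval t R - h1 * aeval t Q) - s * aeval t Rlow
          + h1 * (aeval t Q - t ^ m) := by
        have htm : t ^ m = t ^ j * t ^ (m - j) := by
          rw [← pow_add]; congr 1; omega
        rw [hz, hRt, htm]
        ring
      rw [h1']
      exact h2nML_add (h2nML_sub heq (h2nML_mul hs hRlow)) (h2nML_mul hh1 hQ')
    have hzmax : z ∈ h2nMax B 𝔫 := h2n_mem_max_of_pow_mul W hBW hn hnt ht0 htW j hzL hzML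
    have hh1t : h1 * t ^ (m - j) ∈ h2nMax B 𝔫 := by
      rcases hcase with hc | hc
      · have hlt : j < m := by
          rcases lt_or_eq_of_le hjm with h | h
          · exact h
          · exfalso
            apply hjn
            rw [hc j (h ▸ le_refl _)]
            exact Ideal.zero_mem _
        exact h2n_max_mul hh1 (h2n_max_pow ht (by omega))
      · exact h2n_max_mul' hc ((h2nLoc B 𝔫).pow_mem htL _)
    have h3 : s * (Ut * t + ρ) ∈ h2nMax B 𝔫 := by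
      have : s * (Ut * t + ρ) = z + h1 * t ^ (m - j) := by rw [hz]; ring
      rw [this]
      exact h2n_max_add hzmax hh1t
    have hs0 : s ≠ 0 := by
      rintro rfl
      exact hs' ⟨1, (Ideal.ne_top_iff_one 𝔫).mp h𝔫.ne_top, 0, 𝔫.zero_mem, by simp⟩
    have h4 : Ut * t + ρ ∈ h2nMax B 𝔫 := by
      have h5 := h2n_max_mul (h2n_inv_mem_loc hs hs') h3
      rwa [← mul_assoc, inv_mul_cancel₀ hs0, one_mul] at h5
    have h6 : ρ ∈ h2nMax B 𝔫 := by
      have : ρ = (Ut * t + ρ) - Ut * t := by ring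
      rw [this]
      exact h2n_max_sub h4 (h2n_max_mul hUtL ht)
    have hu : IsUnit (R.coeff j) := IsLocalRing.notMem_maximalIdeal.mp hjn
    obtain ⟨q, hq⟩ := hu.exists_right_inv
    have h7 : (1 : F) ∈ h2nMax B 𝔫 := by
      have h8 := h2n_max_mul' h6 ((h2nLoc B 𝔫).algebraMap_mem q)
      rwa [hρ, ← map_mul, hq, map_one] at h8
    exact h2n_one_notMem_max h7
  · intro hRm
    have hRt : aeval t R ∈ h2nML B 𝔫 := h2n_aeval_mem_ML htL R hRm
    have h2 : t ^ m * h1 ∈ h2nML B 𝔫 := by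
      have : t ^ m * h1 = s * aeval t R - (s * aeval t R - h1 * aeval t Q)
          - h1 * (aeval t Q - t ^ m) := by ring
      rw [this]
      exact h2nML_sub (h2nML_sub (h2nML_mul hs hRt) heq) (h2nML_mul hh1 hQ')
    exact h2n_mem_max_of_pow_mul W hBW hn hnt ht0 htW m hh1 h2

end Branch

end Fermat.Agent.P6
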