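import Mathlib
import Fermat.Agent.P6.H2NodeBranch

/-!
# P6 (S33), block B2-T3 (helper2): the two-branch content lemma at a node

See `h2n_two_branch`.
-/

set_option autoImplicit false
set_option linter.style.haveILetI false
set_option linter.unusedSectionVars false

open Polynomial IsLocalRing

namespace Fermat.Agent.P6

section Claim

variable {A : Type*} [CommRing A] [IsDomain A] [ValuationRing A]
  {F : Type*} [Field F] [Algebra A F]
  {B : Subalgebra A F} {𝔫 : Ideal B} [h𝔫 : 𝔫.IsPrime]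

theorem h2n_monic_sub_coeff {P Q : A[X]} (m : ℕ) (hP : P.Monic) (hPd : P.natDegree = m)
    (hQ : Q.Monic) (hQd : Q.natDegree = m) : ∀ k, m ≤ k → (P - Q).coeff k = 0 := by
  intro k hk
  rw [coeff_sub]
  rcases eq_or_lt_of_le hk with rfl | hlt
  · have h1 : P.coeff m = 1 := by rw [← hPd]; exact hP.coeff_natDegree
    have h2 : Q.coeff m = 1 := by rw [← hQd]; exact hQ.coeff_natDegree
    rw [h1, h2, sub_self]
  · rw [coeff_eq_zero_of_natDegree_lt (hPd ▸ hlt), coeff_eq_zero_of_natDegree_lt (hQd ▸ hlt),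
      sub_self]

theorem h2n_twist_sub_coeff {P Q : A[X]} (m : ℕ) (κ : A) (hPd : P.natDegree = m)
    (hQd : Q.natDegree = m) : ∀ k, m < k → (C κ * P - Q).coeff k = 0 := by
  intro k hk
  rw [coeff_sub, coeff_C_mul, coeff_eq_zero_of_natDegree_lt (hPd ▸ hk),
    coeff_eq_zero_of_natDegree_lt (hQd ▸ hk), mul_zero, sub_self]

/-- **the two-branch content lemma.** -/
theorem h2n_two_branch (hAF : Function.Injective (algebraMap A F))
    (V Winf W0 : Subring F) (hBV : ∀ x ∈ B, x ∈ V)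
    (hQEP : ∀ a : A, algebraMap A F a ≠ 0 → ∀ x ∈ V, a • x ∈ B → x ∈ B)
    (hWV : ∀ x : F, x ∈ Winf → x ∈ W0 → x ∈ V)
    (hBinf : ∀ b : B, (b : F) ∈ Winf) (hB0 : ∀ b : B, (b : F) ∈ W0)
    (hninf : ∀ b : B, b ∉ 𝔫 → ((b : F))⁻¹ ∈ Winf)
    (hn0 : ∀ b : B, b ∉ 𝔫 → ((b : F))⁻¹ ∈ W0)
    (hntinf : ∀ π ∈ maximalIdeal A, ∀ x ∈ Winf, algebraMap A F π * x ≠ 1)
    (hnt0 : ∀ π ∈ maximalIdeal A, ∀ x ∈ W0, algebraMap A F π * x ≠ 1)
    (hinvinf : ∀ π ∈ maximalIdeal A, ∀ x ∈ Winf, (1 + algebraMap A F π * x)⁻¹ ∈ Winf)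
    (hinv0 : ∀ π ∈ maximalIdeal A, ∀ x ∈ W0, (1 + algebraMap A F π * x)⁻¹ ∈ W0)
    {tx ty : F} (htx : tx ∈ h2nMax B 𝔫) (htx0 : tx ≠ 0) (htxW : tx⁻¹ ∈ Winf)
    (hty : ty ∈ h2nMax B 𝔫) (hty0 : ty ≠ 0) (htyW : ty⁻¹ ∈ W0)
    (m : ℕ) (P Q P' Q' : A[X])
    (hP : P.Monic) (hPd : P.natDegree = m) (hQ : Q.Monic) (hQd : Q.natDegree = m)
    (hQr : Q.map (residue A) = X ^ m)
    (hP'd : P'.natDegree = m) (hQ'd : Q'.natDegree = m)
    (hQ'r : Q'.map (residue A) = X ^ m)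
    (κ : A) {s b : F} (hs : s ∈ h2nLoc B 𝔫) (hs' : s ∉ h2nMax B 𝔫) (hb : b ∈ h2nLoc B 𝔫)
    (D₀ : A) (hD₀ : D₀ ≠ 0)
    (h1 : ∃ l ∈ h2nLoc B 𝔫, s * aeval tx P - b * aeval tx Q = algebraMap A F D₀ * l)
    (h2 : ∃ l ∈ h2nLoc B 𝔫,
      algebraMap A F κ * s * aeval ty P' - b * aeval ty Q' = algebraMap A F D₀ * l) :
    (∀ k, D₀ ∣ (P - Q).coeff k) ∧ (∀ k, D₀ ∣ (C κ * P' - Q').coeff k) := by
  classical
  set f₁ : A[X] := P - Q with hf₁
  set f₂ : A[X] := C κ * P' - Q' with hf₂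
  have hf₁0 : ∀ k, m ≤ k → f₁.coeff k = 0 := h2n_monic_sub_coeff m hP hPd hQ hQd
  have hf₂0 : ∀ k, m < k → f₂.coeff k = 0 := h2n_twist_sub_coeff m κ hP'd hQ'd
  -- the content of the pair
  set g : ℕ → A := fun k => if k ≤ m then f₁.coeff k else f₂.coeff (k - (m + 1)) with hg
  have hgle : ∀ k, k ≤ m → g k = f₁.coeff k := fun k hk => if_pos hk
  have hggt : ∀ k, ¬ k ≤ m → g k = f₂.coeff (k - (m + 1)) := fun k hk => if_neg hk
  obtain ⟨i₀, -, hi₀⟩ := h2n_exists_dvd_all (Finset.range (2 * (m + 1)))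
    ⟨0, Finset.mem_range.mpr (by omega)⟩ g
  set π₃ : A := g i₀ with hπ₃
  have hdiv₁ : ∀ k, π₃ ∣ f₁.coeff k := by
    intro k
    by_cases hk : k ≤ m
    · have := hi₀ k (Finset.mem_range.mpr (by omega))
      rwa [hgle k hk] at this
    · rw [hf₁0 k (by omega)]; exact dvd_zero _
  have hdiv₂ : ∀ k, π₃ ∣ f₂.coeff k := by
    intro k
    by_cases hk : k ≤ m
    · have := hi₀ (k + (m + 1)) (Finset.mem_range.mpr (by omega))
      rwa [hggt _ (by omega), Nat.add_sub_cancel] at this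
    · rw [hf₂0 k (by omega)]; exact dvd_zero _
  -- the easy case
  rcases ValuationRing.dvd_total D₀ π₃ with hd | ⟨μ, hμ⟩
  · exact ⟨fun k => hd.trans (hdiv₁ k), fun k => hd.trans (hdiv₂ k)⟩
  by_cases hμu : IsUnit μ
  · have hd : D₀ ∣ π₃ := by
      obtain ⟨μ', hμ'⟩ := hμu.exists_right_inv
      exact ⟨μ', by rw [hμ, mul_assoc, hμ', mul_one]⟩
    exact ⟨fun k => hd.trans (hdiv₁ k), fun k => hd.trans (hdiv₂ k)⟩
  exfalso
  have hμm : μ ∈ maximalIdeal A := hμu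
  have hπ₃0 : π₃ ≠ 0 := by
    intro h0
    rw [h0, zero_mul] at hμ
    exact hD₀ hμ
  have hπF : algebraMap A F π₃ ≠ 0 := fun h => hπ₃0 (hAF (by rw [h, map_zero]))
  obtain ⟨R, hR⟩ := (Polynomial.C_dvd_iff_dvd_coeff π₃ f₁).mpr hdiv₁
  obtain ⟨R', hR'⟩ := (Polynomial.C_dvd_iff_dvd_coeff π₃ f₂).mpr hdiv₂
  have hRc : ∀ k, f₁.coeff k = π₃ * R.coeff k := fun k => by rw [hR, coeff_C_mul]
  have hR'c : ∀ k, f₂.coeff k = π₃ * R'.coeff k := fun k => by rw [hR', coeff_C_mul]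
  have hR0 : ∀ k, m ≤ k → R.coeff k = 0 := by
    intro k hk
    have := hf₁0 k hk
    rw [hRc k] at this
    exact (mul_eq_zero.mp this).resolve_left hπ₃0
  have hR'0 : ∀ k, m < k → R'.coeff k = 0 := by
    intro k hk
    have := hf₂0 k hk
    rw [hR'c k] at this
    exact (mul_eq_zero.mp this).resolve_left hπ₃0
  -- a coefficient equal to one
  have hone : (∃ k, R.coeff k = 1) ∨ (∃ k, R'.coeff k = 1) := by
    by_cases hi : i₀ ≤ m
    · left
      refine ⟨i₀, ?_⟩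
      have h3 : f₁.coeff i₀ = π₃ := by rw [hπ₃, hgle i₀ hi]
      rw [hRc i₀] at h3
      exact mul_left_cancel₀ hπ₃0 (by rw [h3, mul_one])
    · right
      refine ⟨i₀ - (m + 1), ?_⟩
      have h3 : f₂.coeff (i₀ - (m + 1)) = π₃ := by rw [hπ₃, hggt i₀ hi]
      rw [hR'c] at h3
      exact mul_left_cancel₀ hπ₃0 (by rw [h3, mul_one])
  -- the two values
  have htxL : tx ∈ h2nLoc B 𝔫 := h2n_max_le_loc htx
  have htyL : ty ∈ h2nLoc B 𝔫 := h2n_max_le_loc hty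
  obtain ⟨l₁, hl₁, e₁⟩ := h1
  obtain ⟨l₂, hl₂, e₂⟩ := h2
  have hf₁t : aeval tx P - aeval tx Q = algebraMap A F π₃ * aeval tx R := by
    have : aeval tx f₁ = aeval tx (C π₃ * R) := by rw [← hR]
    rwa [hf₁, map_sub, map_mul, aeval_C] at this
  have hf₂t : algebraMap A F κ * aeval ty P' - aeval ty Q' =
      algebraMap A F π₃ * aeval ty R' := by
    have : aeval ty f₂ = aeval ty (C π₃ * R') := by rw [← hR']
    rwa [hf₂, map_sub, map_mul, map_mul, aeval_C, aeval_C] at this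
  have hDF : algebraMap A F D₀ = algebraMap A F π₃ * algebraMap A F μ := by
    rw [hμ, map_mul]
  obtain ⟨hQ0, hQinv⟩ := h2n_aeval_inv_mem Winf hBinf hninf hntinf hinvinf htxL htx0 htxW Q m hQr
  obtain ⟨hQ'0, hQ'inv⟩ := h2n_aeval_inv_mem W0 hB0 hn0 hnt0 hinv0 htyL hty0 htyW Q' m hQ'r
  -- `h = b - s` is divisible by `π₃`
  set h1 : F := (b - s) * (algebraMap A F π₃)⁻¹ with hh1
  have hRtL : aeval tx R ∈ h2nLoc B 𝔫 := h2n_aeval_mem htxL R
  have hR'tL : aeval ty R' ∈ h2nLoc B 𝔫 := h2n_aeval_mem htyL R'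
  have key₁ : s * aeval tx R - h1 * aeval tx Q = algebraMap A F μ * l₁ := by
    have h3 : algebraMap A F π₃ * (s * aeval tx R - h1 * aeval tx Q) =
        algebraMap A F π₃ * (algebraMap A F μ * l₁) := by
      have h4 : algebraMap A F π₃ * h1 = b - s := by
        rw [hh1]; field_simp
      calc algebraMap A F π₃ * (s * aeval tx R - h1 * aeval tx Q)
          = s * (algebraMap A F π₃ * aeval tx R) - (algebraMap A F π₃ * h1) * aeval tx Q := by
            ring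
        _ = s * (aeval tx P - aeval tx Q) - (b - s) * aeval tx Q := by rw [← hf₁t, h4]
        _ = s * aeval tx P - b * aeval tx Q := by ring
        _ = algebraMap A F π₃ * (algebraMap A F μ * l₁) := by rw [e₁, hDF]; ring
    exact mul_left_cancel₀ hπF h3
  have key₂ : s * aeval ty R' - h1 * aeval ty Q' = algebraMap A F μ * l₂ := by
    have h3 : algebraMap A F π₃ * (s * aeval ty R' - h1 * aeval ty Q') =
        algebraMap A F π₃ * (algebraMap A F μ * l₂) := by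
      have h4 : algebraMap A F π₃ * h1 = b - s := by
        rw [hh1]; field_simp
      calc algebraMap A F π₃ * (s * aeval ty R' - h1 * aeval ty Q')
          = s * (algebraMap A F π₃ * aeval ty R') - (algebraMap A F π₃ * h1) * aeval ty Q' := by
            ring
        _ = s * (algebraMap A F κ * aeval ty P' - aeval ty Q') - (b - s) * aeval ty Q' := by
            rw [← hf₂t, h4]
        _ = algebraMap A F κ * s * aeval ty P' - b * aeval ty Q' := by ring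
        _ = algebraMap A F π₃ * (algebraMap A F μ * l₂) := by rw [e₂, hDF]; ring
    exact mul_left_cancel₀ hπF h3
  have hsinf : s ∈ Winf := h2n_loc_le_W Winf hBinf hninf hs
  have hs0 : s ∈ W0 := h2n_loc_le_W W0 hB0 hn0 hs
  have hAinf : ∀ a : A, algebraMap A F a ∈ Winf := fun a => by
    have := hBinf ⟨_, B.algebraMap_mem a⟩
    exact this
  have hA0 : ∀ a : A, algebraMap A F a ∈ W0 := fun a => by
    have := hB0 ⟨_, B.algebraMap_mem a⟩
    exact this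
  have hh1inf : h1 ∈ Winf := by
    have h3 : h1 = (s * aeval tx R - algebraMap A F μ * l₁) * (aeval tx Q)⁻¹ := by
      rw [← key₁]; field_simp; ring
    rw [h3]
    exact Winf.mul_mem (Winf.sub_mem (Winf.mul_mem hsinf (h2n_loc_le_W Winf hBinf hninf hRtL))
      (Winf.mul_mem (hAinf μ) (h2n_loc_le_W Winf hBinf hninf hl₁))) hQinv
  have hh10 : h1 ∈ W0 := by
    have h3 : h1 = (s * aeval ty R' - algebraMap A F μ * l₂) * (aeval ty Q')⁻¹ := by
      rw [← key₂]; field_simp; ring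
    rw [h3]
    exact W0.mul_mem (W0.sub_mem (W0.mul_mem hs0 (h2n_loc_le_W W0 hB0 hn0 hR'tL))
      (W0.mul_mem (hA0 μ) (h2n_loc_le_W W0 hB0 hn0 hl₂))) hQ'inv
  have hh1L : h1 ∈ h2nLoc B 𝔫 := by
    refine h2n_loc_qep V hBV hQEP π₃ hπF (hWV h1 hh1inf hh10) ?_
    have h4 : algebraMap A F π₃ * h1 = b - s := by
      rw [hh1]; field_simp
    rw [h4]
    exact (h2nLoc B 𝔫).sub_mem hb hs
  -- the two branches
  have hML₁ : s * aeval tx R - h1 * aeval tx Q ∈ h2nML B 𝔫 := by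
    rw [key₁]; exact h2nML_const hμm hl₁
  have hML₂ : s * aeval ty R' - h1 * aeval ty Q' ∈ h2nML B 𝔫 := by
    rw [key₂]; exact h2nML_const hμm hl₂
  obtain ⟨hA₁, hB₁⟩ := h2n_branch Winf hBinf hninf hntinf htx htx0 htxW m R Q
    (fun k hk => hR0 k hk.le) hQr hs hs' hh1L hML₁
  obtain ⟨hA₂, -⟩ := h2n_branch W0 hB0 hn0 hnt0 hty hty0 htyW m R' Q' hR'0 hQ'r hs hs' hh1L hML₂
  have hRm := hA₁ (Or.inl hR0)
  have hh1max := hB₁ hRm
  have hR'm := hA₂ (Or.inr hh1max)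
  have h1m : (1 : A) ∉ maximalIdeal A := fun h =>
    (Ideal.ne_top_iff_one (maximalIdeal A)).mp (maximalIdeal.isMaximal A).ne_top h
  rcases hone with ⟨k, hk⟩ | ⟨k, hk⟩
  · exact h1m (hk ▸ hRm k)
  · exact h1m (hk ▸ hR'm k)

end Claim

end Fermat.Agent.P6
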