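import Mathlib
import Fermat.Agent.S35.H13TorNode

/-!
# P6 (S33), block B2-T3 (helper2): the explicit normal form at a node

The proof of `S35/H13TorNode.lean`, `h13x_node_normal` (helper13), with the explicit data in the
conclusion: a function `u ≡ 1` modulo `π₀ V` whose divisor is divisible by `r` is, at a node `𝔫`
(`x y = a c`), of the form `u = e · (∏ (x - a_i) ^ n_i) ^ r` with `e` a Gauss unit without zeros
or poles centered at `𝔫`, `a_i b_i = a g_i`, `a_i, b_i ∈ 𝔪_A`, `g_i ∈ A^×`, `∑ n_i = 0` and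
`∏ (- a_i) ^ n_i ∈ A^×`.
-/

set_option autoImplicit false
set_option linter.unusedSectionVars false
set_option linter.style.haveILetI false

open WithZero IsLocalRing

namespace Fermat.Agent.P6

open Fermat.Agent.Red Fermat.Agent.LGC Fermat.Agent.S35

section Node

variable {A : Type*} [CommRing A] [IsDomain A] [ValuationRing A]
  {F : Type*} [Field F] [Algebra A F]
  {B : Subalgebra A F} {V : Subring F} {ι : Type*} {v : ι → Valuation F ℤᵐ⁰}

/-- **Explicit normal form at a node.** -/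
theorem h2n_node_explicit
    (hC : H26Chart B V v) (hAF : Function.Injective (algebraMap A F))
    (Winf W0 : Subring F)
    (hVWinf : ∀ x ∈ V, x ∈ Winf) (hVW0 : ∀ x ∈ V, x ∈ W0)
    (hWV : ∀ x : F, x ∈ Winf → x ∈ W0 → x ∈ V)
    (hinvinf : ∀ π ∈ maximalIdeal A, ∀ x ∈ Winf, (1 + algebraMap A F π * x)⁻¹ ∈ Winf)
    (hinv0 : ∀ π ∈ maximalIdeal A, ∀ x ∈ W0, (1 + algebraMap A F π * x)⁻¹ ∈ W0)
    (hntinf : ∀ π ∈ maximalIdeal A, ∀ x ∈ Winf, algebraMap A F π * x ≠ 1)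
    (hnt0 : ∀ π ∈ maximalIdeal A, ∀ x ∈ W0, algebraMap A F π * x ≠ 1)
    (𝔫 : Ideal B) [h𝔫 : 𝔫.IsPrime] (h𝔪𝔫 : (maximalIdeal A).map (algebraMap A B) ≤ 𝔫)
    (hninf : ∀ b : B, b ∉ 𝔫 → ((b : F))⁻¹ ∈ Winf)
    (hn0 : ∀ b : B, b ∉ 𝔫 → ((b : F))⁻¹ ∈ W0)
    (x y c : B) (hx : x ∈ 𝔫) (hy : y ∈ 𝔫) (hc : c ∉ 𝔫) (a : A) (ha : a ≠ 0)
    (hxy : x * y = algebraMap A B a * c)
    (hxinf : ((x : F))⁻¹ ∈ Winf) (hy0 : ((y : F))⁻¹ ∈ W0)
    (hprin : ∀ z ∈ 𝔫, ∃ s, s ∉ 𝔫 ∧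
      s * z ∈ Ideal.span {x, y} ⊔ (maximalIdeal A).map (algebraMap A B))
    (hsec : ∀ i, h26Centered B v 𝔫 i → ∃ φ : B →ₐ[A] A,
      (∀ b : B, φ b = 0 ↔ v i (b : F) < 1) ∧ (RingHom.ker (φ : B →+* A)).FG)
    (u : F) (hu : u ≠ 0) (r : ℕ) (hr : 0 < r)
    (hru : ∀ i, ∃ n : ℤ, v i u = exp (-((r : ℤ) * n)))
    (π₀ : A) (hπ₀ : π₀ ∈ maximalIdeal A) (hπ₀0 : π₀ ≠ 0) (huU : u ∈ h26U π₀ V) :
    ∃ (T : Finset ι) (ai bi gi : ι → A) (n : ι → ℤ) (e : F) (tα : A),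
      (∀ i ∈ T, ai i ∈ maximalIdeal A ∧ bi i ∈ maximalIdeal A ∧ IsUnit (gi i) ∧
        ai i * bi i = a * gi i) ∧
      ∑ i ∈ T, n i = 0 ∧
      u = e * (∏ i ∈ T, ((x : F) - algebraMap A F (ai i)) ^ n i) ^ r ∧
      (∀ k, h26Centered B v 𝔫 k → v k e = 1) ∧ e ∈ V ∧ e⁻¹ ∈ V ∧
      IsUnit tα ∧ ∏ i ∈ T, (-algebraMap A F (ai i)) ^ n i = algebraMap A F tα := by
  classical
  have hAV : ∀ a : A, algebraMap A F a ∈ V := fun a => hC.hBV _ (B.algebraMap_mem a)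
  have hAinf : ∀ a : A, algebraMap A F a ∈ Winf := fun a => hVWinf _ (hAV a)
  have hA0 : ∀ a : A, algebraMap A F a ∈ W0 := fun a => hVW0 _ (hAV a)
  have hBinf : ∀ b : B, (b : F) ∈ Winf := fun b => hVWinf _ (hC.hBV _ b.2)
  have hB0 : ∀ b : B, (b : F) ∈ W0 := fun b => hVW0 _ (hC.hBV _ b.2)
  have haF : algebraMap A F a ≠ 0 := fun h => ha (hAF (by rw [h, map_zero]))
  have hc0 : (c : F) ≠ 0 := by
    intro h0
    apply hc
    have : c = 0 := Subtype.ext h0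
    rw [this]; exact 𝔫.zero_mem
  have hxyF : (x : F) * (y : F) = algebraMap A F a * (c : F) := by
    have := congrArg (Subtype.val) hxy
    simpa using this
  have hx0 : (x : F) ≠ 0 := by
    intro h0
    rw [h0, zero_mul] at hxyF
    exact mul_ne_zero haF hc0 hxyF.symm
  have hy0' : (y : F) ≠ 0 := by
    intro h0
    rw [h0, mul_zero] at hxyF
    exact mul_ne_zero haF hc0 hxyF.symm
  -- the data at the centered places
  have hdata : ∀ i : ι, ∃ ai bi gi : A, h26Centered B v 𝔫 i →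
      ai ∈ maximalIdeal A ∧ bi ∈ maximalIdeal A ∧ IsUnit gi ∧ ai * bi = a * gi ∧
      v i (x : F) = 1 ∧
      v i ((x : F) - algebraMap A F ai) = exp (-1 : ℤ) ∧
      (∀ k, h26Centered B v 𝔫 k → k ≠ i → v k ((x : F) - algebraMap A F ai) = 1) := by
    intro i
    by_cases hi : h26Centered B v 𝔫 i
    · obtain ⟨φ, hφker, hφfg⟩ := hsec i hi
      have hkerle : RingHom.ker (φ : B →+* A) ≤ 𝔫 := fun b hb => hi b ((hφker b).mp hb)
      have hφ𝔫 := h26_section_local 𝔫 φ hkerle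
      have hconst : ∀ k, h26Centered B v 𝔫 k → v k (algebraMap A F a) = 1 := by
        intro k hk
        obtain ⟨ψ, hψker, -⟩ := hsec k hk
        exact h75p_const_of_section hC.hB k ψ hψker a ha
      have hφxy : φ x * φ y = a * φ c := by
        have := congrArg φ hxy
        rw [map_mul, map_mul, AlgHom.commutes] at this
        exact this
      have hφc : IsUnit (φ c) := by
        by_contra hnu
        have hm : φ c ∈ maximalIdeal A := hnu
        apply hc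
        have h1 : c - algebraMap A B (φ c) ∈ 𝔫 := by
          apply hkerle
          rw [RingHom.mem_ker]
          show φ (c - algebraMap A B (φ c)) = 0
          rw [map_sub, AlgHom.commutes]
          exact sub_self _
        have h2 : algebraMap A B (φ c) ∈ 𝔫 := h𝔪𝔫 (Ideal.mem_map_of_mem _ hm)
        have h3 : c = (c - algebraMap A B (φ c)) + algebraMap A B (φ c) := by ring
        rw [h3]
        exact 𝔫.add_mem h1 h2
      refine ⟨φ x, φ y, φ c, fun _ => ⟨hφ𝔫 x hx, hφ𝔫 y hy, hφc, hφxy, ?_,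
        h75p_lp_node hC 𝔫 h𝔪𝔫 x y c hx hy hc a hxy hconst hprin i hi φ hφker hφfg⟩⟩
      refine le_antisymm (hC.hB _ x.2 i) (not_lt.mp fun hlt => ?_)
      have h1 : φ x = 0 := (hφker x).mpr hlt
      rw [h1, zero_mul] at hφxy
      exact mul_ne_zero ha hφc.ne_zero hφxy.symm
    · exact ⟨0, 0, 0, fun h => (hi h).elim⟩
  choose ai bi gi hdat using hdata
  choose n hn using hru
  set Z : Finset ι := (h26_finite_support hC u hu).toFinset with hZ
  set T : Finset ι := Z.filter (fun i => h26Centered B v 𝔫 i) with hT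
  have hTc : ∀ i ∈ T, h26Centered B v 𝔫 i := fun i hi => (Finset.mem_filter.mp hi).2
  have hu1 : ∀ k, h26Centered B v 𝔫 k → k ∉ T → v k u = 1 := by
    intro k hk hkT
    by_contra hne
    apply hkT
    rw [hT, Finset.mem_filter, hZ, Set.Finite.mem_toFinset]
    exact ⟨hne, hk⟩
  -- the common modulus
  obtain ⟨d₁, hd₁, hd₁0, hd₁π, hd₁a⟩ := h26_common_divisor T ai
    (fun i hi => (hdat i (hTc i hi)).1) π₀ hπ₀ hπ₀0
  obtain ⟨π, hπ, hπ0, hπd, hπb⟩ := h26_common_divisor T bi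
    (fun i hi => (hdat i (hTc i hi)).2.1) d₁ hd₁ hd₁0
  have hππ₀ : π ∣ π₀ := hπd.trans hd₁π
  have hπa : ∀ i ∈ T, π ∣ ai i := fun i hi => hπd.trans (hd₁a i hi)
  have hπinf : algebraMap A F π ∈ Winf := hAinf π
  have hπW0 : algebraMap A F π ∈ W0 := hA0 π
  -- the functions of (LP)
  set G : ι → F := fun i => (x : F) - algebraMap A F (ai i) with hG
  have hG1 : ∀ i ∈ T, v i (G i) = exp (-1 : ℤ) := fun i hi => (hdat i (hTc i hi)).2.2.2.2.2.1
  have hG2 : ∀ i ∈ T, ∀ k, h26Centered B v 𝔫 k → k ≠ i → v k (G i) = 1 := fun i hi =>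
    (hdat i (hTc i hi)).2.2.2.2.2.2
  set g₁ : F := ∏ i ∈ T, G i ^ n i with hg₁
  set sT : ℤ := ∑ i ∈ T, n i with hsT
  have hai0 : ∀ i ∈ T, algebraMap A F (ai i) ≠ 0 := by
    intro i hi h0
    have h1 : ai i = 0 := hAF (by rw [h0, map_zero])
    have h2 := (hdat i (hTc i hi)).2.2.2.1
    rw [h1, zero_mul] at h2
    exact mul_ne_zero ha (hdat i (hTc i hi)).2.2.1.ne_zero h2.symm
  -- the first branch
  set ηinf : ι → F := fun i => 1 - algebraMap A F (ai i) * ((x : F))⁻¹ with hηinf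
  have hηinfU : ∀ i ∈ T, ηinf i ∈ h26U π Winf := by
    intro i hi
    obtain ⟨q, hq⟩ := hπa i hi
    refine ⟨-(algebraMap A F q * ((x : F))⁻¹),
      Winf.neg_mem (Winf.mul_mem (hAinf q) hxinf), ?_⟩
    rw [hηinf]
    simp only
    rw [hq, map_mul]
    ring
  have hGinf : ∀ i, G i = (x : F) * ηinf i := by
    intro i
    rw [hG, hηinf]
    simp only
    field_simp
  set εinf : F := ∏ i ∈ T, ηinf i ^ n i with hεinf
  have hεinfU : εinf ∈ h26U π Winf :=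
    h26U_prod hπinf T _ fun i hi =>
      h26U_zpow hπinf (hinvinf π hπ) (hntinf π hπ) (hηinfU i hi) _
  have hg₁inf : g₁ = (x : F) ^ sT * εinf := by
    rw [hg₁, hεinf, hsT, ← h26_prod_zpow_const T (x : F) hx0 n, ← Finset.prod_mul_distrib]
    refine Finset.prod_congr rfl fun i _ => ?_
    rw [hGinf i, mul_zpow]
  -- the second branch
  set η0 : ι → F := fun i => 1 - (x : F) * (algebraMap A F (ai i))⁻¹ with hη0
  have hη0U : ∀ i ∈ T, η0 i ∈ h26U π W0 := by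
    intro i hi
    obtain ⟨q, hq⟩ := hπb i hi
    obtain ⟨gi', hgi'⟩ := (hdat i (hTc i hi)).2.2.1.exists_right_inv
    have hab := (hdat i (hTc i hi)).2.2.2.1
    have habF : algebraMap A F (ai i) * algebraMap A F (bi i) =
        algebraMap A F a * algebraMap A F (gi i) := by
      rw [← map_mul, ← map_mul, hab]
    have hgF : algebraMap A F (gi i) * algebraMap A F gi' = 1 := by
      rw [← map_mul, hgi', map_one]
    refine ⟨-(algebraMap A F q * algebraMap A F gi' * (c : F) * ((y : F))⁻¹),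
      W0.neg_mem (W0.mul_mem (W0.mul_mem (W0.mul_mem (hA0 q) (hA0 gi')) (hB0 c)) hy0), ?_⟩
    rw [hη0]
    simp only
    have hai := hai0 i hi
    have hbq : algebraMap A F (bi i) = algebraMap A F π * algebraMap A F q := by
      rw [← map_mul, hq]
    have hxval : (x : F) = algebraMap A F a * (c : F) * ((y : F))⁻¹ := by
      field_simp
      exact hxyF
    have key : (x : F) * (algebraMap A F (ai i))⁻¹ =
        algebraMap A F π * (algebraMap A F q * algebraMap A F gi' * (c : F) * ((y : F))⁻¹) := by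
      have h1 : algebraMap A F a = algebraMap A F (ai i) * algebraMap A F (bi i) *
          algebraMap A F gi' := by
        rw [habF, mul_assoc, hgF, mul_one]
      rw [hxval, h1, hbq]
      field_simp
    rw [key]
    ring
  have hG0 : ∀ i ∈ T, G i = (-algebraMap A F (ai i)) * η0 i := by
    intro i hi
    have hai := hai0 i hi
    rw [hG, hη0]
    simp only
    field_simp
    ring
  set α : F := ∏ i ∈ T, (-algebraMap A F (ai i)) ^ n i with hα
  set ε0 : F := ∏ i ∈ T, η0 i ^ n i with hε0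
  have hε0U : ε0 ∈ h26U π W0 :=
    h26U_prod hπW0 T _ fun i hi =>
      h26U_zpow hπW0 (hinv0 π hπ) (hnt0 π hπ) (hη0U i hi) _
  have hg₁0 : g₁ = α * ε0 := by
    rw [hg₁, hα, hε0, ← Finset.prod_mul_distrib]
    refine Finset.prod_congr rfl fun i hi => ?_
    rw [hG0 i hi, mul_zpow]
  have hαc : h13x_IsConst A α :=
    h13x_isConst_prod T _ fun i _ =>
      h13x_isConst_zpow hAF (h13x_isConst_neg (h13x_isConst_algebraMap (ai i))) _
  have hα0 : α ≠ 0 := by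
    rw [hα]
    exact Finset.prod_ne_zero_iff.mpr fun i hi =>
      zpow_ne_zero _ (neg_ne_zero.mpr (hai0 i hi))
  have hGi0 : ∀ i ∈ T, G i ≠ 0 := by
    intro i hi h0
    have h1 := hG1 i hi
    rw [h0, map_zero] at h1
    exact exp_ne_zero h1.symm
  have hg₁0' : g₁ ≠ 0 := by
    rw [hg₁]
    exact Finset.prod_ne_zero_iff.mpr fun i hi => zpow_ne_zero _ (hGi0 i hi)
  -- the function `e`
  set e : F := u * (g₁ ^ r)⁻¹ with he
  have hval_e : ∀ k, h26Centered B v 𝔫 k → v k e = 1 := fun k hk =>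
    h75s_val_one 𝔫 T G hG1 hG2 u r n (fun i _ => hn i) hu1 k hk
  have hue : u = e * g₁ ^ r := by
    rw [he, mul_assoc, inv_mul_cancel₀ (pow_ne_zero _ hg₁0'), mul_one]
  have huinf : u ∈ h26U π Winf := by
    obtain ⟨w, hw, huw⟩ := h75s_U_of_dvd hAV hππ₀ huU
    exact ⟨w, hVWinf _ hw, huw⟩
  have hu0 : u ∈ h26U π W0 := by
    obtain ⟨w, hw, huw⟩ := h75s_U_of_dvd hAV hππ₀ huU
    exact ⟨w, hVW0 _ hw, huw⟩
  -- `e₁ = e x ^ (r sT)`
  set z : ℤ := (r : ℤ) * sT with hz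
  set e₁ : F := e * (x : F) ^ z with he₁
  have hεinfr : (εinf ^ r)⁻¹ ∈ h26U π Winf :=
    h26U_inv (hinvinf π hπ) (hntinf π hπ) (h26U_pow hπinf hεinfU r)
  have hε0r : (ε0 ^ r)⁻¹ ∈ h26U π W0 :=
    h26U_inv (hinv0 π hπ) (hnt0 π hπ) (h26U_pow hπW0 hε0U r)
  have hεinf0 : εinf ≠ 0 := h26U_ne_zero (hntinf π hπ) hεinfU
  have hε00 : ε0 ≠ 0 := h26U_ne_zero (hnt0 π hπ) hε0U
  have hxz : ((x : F) ^ sT) ^ r = (x : F) ^ z := by
    rw [hz, ← zpow_natCast, ← zpow_mul, mul_comm]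
  have he₁inf : e₁ = u * (εinf ^ r)⁻¹ := by
    rw [he₁, he, hg₁inf, mul_pow, hxz]
    have h1 : (x : F) ^ z ≠ 0 := zpow_ne_zero _ hx0
    field_simp
  have he₁U : e₁ ∈ h26U π Winf := by
    rw [he₁inf]
    exact h26U_mul hπinf huinf hεinfr
  set θ : F := (algebraMap A F a) ^ z * (α ^ r)⁻¹ with hθ
  set ρ : F := ((c : F) * ((y : F))⁻¹) ^ z with hρ
  set ε : F := u * (ε0 ^ r)⁻¹ with hε
  have hεU : ε ∈ h26U π W0 := h26U_mul hπW0 hu0 hε0r
  have hxcy : (x : F) = algebraMap A F a * ((c : F) * ((y : F))⁻¹) := by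
    field_simp
    exact hxyF
  have he₁0 : e₁ = θ * ρ * ε := by
    rw [he₁, he, hg₁0, mul_pow, hθ, hρ, hε]
    have h1 : (x : F) ^ z = (algebraMap A F a) ^ z * ((c : F) * ((y : F))⁻¹) ^ z := by
      rw [← mul_zpow, ← hxcy]
    rw [h1]
    have h2 : α ^ r ≠ 0 := pow_ne_zero _ hα0
    have h3 : ε0 ^ r ≠ 0 := pow_ne_zero _ hε00
    field_simp
  have hθc : h13x_IsConst A θ :=
    h13x_isConst_mul (h13x_isConst_zpow hAF (h13x_isConst_algebraMap a) _)
      (h13x_isConst_inv hAF (h13x_isConst_pow hαc r))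
  have hθ0 : θ ≠ 0 := mul_ne_zero (zpow_ne_zero _ haF) (inv_ne_zero (pow_ne_zero _ hα0))
  have hcy : (c : F) * ((y : F))⁻¹ ∈ W0 := W0.mul_mem (hB0 c) hy0
  have hcy' : ((c : F) * ((y : F))⁻¹)⁻¹ ∈ W0 := by
    rw [mul_inv, inv_inv]
    exact W0.mul_mem (hn0 c hc) (hB0 y)
  have hρW : ρ ∈ W0 := h13x_zpow_mem W0 hcy hcy' z
  have hρW' : ρ⁻¹ ∈ W0 := by
    rw [hρ, ← zpow_neg]
    exact h13x_zpow_mem W0 hcy hcy' (-z)
  have hvalx : ∀ k, h26Centered B v 𝔫 k → v k (x : F) = 1 := fun k hk =>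
    (hdat k hk).2.2.2.2.1
  have hval_e₁ : ∀ k, h26Centered B v 𝔫 k → v k e₁ = 1 := by
    intro k hk
    rw [he₁, map_mul, map_zpow₀, hval_e k hk, hvalx k hk, one_zpow, mul_one]
  obtain ⟨t, htu, hθt⟩ := h13x_const_unit hC hAF Winf W0 hVWinf hVW0 hWV hinvinf hinv0 hntinf
    hnt0 𝔫 hninf hn0 e₁ hval_e₁ π hπ he₁U θ ρ ε hθc hθ0 hρW hρW' hεU he₁0
  obtain ⟨t', htt'⟩ := htu.exists_right_inv
  have ht'u : IsUnit t' := IsUnit.of_mul_eq_one t (by rw [mul_comm]; exact htt')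
  have htF : algebraMap A F t * algebraMap A F t' = 1 := by rw [← map_mul, htt', map_one]
  have htF0 : algebraMap A F t ≠ 0 := left_ne_zero_of_mul_eq_one htF
  have hε' : ε⁻¹ ∈ h26U π W0 := h26U_inv (hinv0 π hπ) (hnt0 π hπ) hεU
  have he₁' : e₁⁻¹ ∈ h26U π Winf := h26U_inv (hinvinf π hπ) (hntinf π hπ) he₁U
  have he₁V : e₁ ∈ V := by
    refine hWV e₁ (h26U_mem_V hπinf he₁U) ?_
    rw [he₁0, hθt]
    exact W0.mul_mem (W0.mul_mem (hA0 t) hρW) (h26U_mem_V hπW0 hεU)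
  have hθinv : θ⁻¹ = algebraMap A F t' := by
    rw [hθt]
    exact inv_eq_of_mul_eq_one_right htF
  have he₁V' : e₁⁻¹ ∈ V := by
    refine hWV _ (h26U_mem_V hπinf he₁') ?_
    rw [he₁0, mul_inv, mul_inv, hθinv]
    exact W0.mul_mem (W0.mul_mem (hA0 t') hρW') (h26U_mem_V hπW0 hε')
  obtain ⟨s, hs, hse, hse'⟩ := h75s_unit_aux hC.hfin hC.hint hC.hB hC.hBV hC.hQEP 𝔫 e₁
    he₁V he₁V' hval_e₁
  -- the slope vanishes
  have hz0 : z = 0 := by
    rcases lt_trichotomy z 0 with hlt | heq | hgt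
    · exfalso
      obtain ⟨m, hm⟩ : ∃ m : ℕ, z = -((m : ℤ) + 1) := ⟨(-z - 1).toNat, by omega⟩
      refine h13x_slope_aux W0 hB0 hnt0 𝔫 hn0 y c hy hc e₁⁻¹ s hs hse' π hπ t' ht'u m ε⁻¹ hε' ?_
      rw [he₁0, mul_inv, mul_inv, hθinv, hρ, hm, zpow_neg, inv_inv]
      have h1 : ((c : F) * ((y : F))⁻¹) ^ ((m : ℤ) + 1) =
          (c : F) ^ (m + 1) * (((y : F)) ^ (m + 1))⁻¹ := by
        rw [show ((m : ℤ) + 1) = ((m + 1 : ℕ) : ℤ) by push_cast; ring, zpow_natCast, mul_pow,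
          inv_pow]
      rw [h1]
      have h2 : (y : F) ^ (m + 1) ≠ 0 := pow_ne_zero _ hy0'
      field_simp
    · exact heq
    · exfalso
      obtain ⟨m, hm⟩ : ∃ m : ℕ, z = (m : ℤ) + 1 := ⟨(z - 1).toNat, by omega⟩
      refine h13x_slope_aux W0 hB0 hnt0 𝔫 hn0 y c hy hc e₁ s hs hse π hπ t htu m ε hεU ?_
      rw [he₁0, hθt, hρ, hm]
      have h1 : ((c : F) * ((y : F))⁻¹) ^ ((m : ℤ) + 1) =
          (c : F) ^ (m + 1) * (((y : F)) ^ (m + 1))⁻¹ := by
        rw [show ((m : ℤ) + 1) = ((m + 1 : ℕ) : ℤ) by push_cast; ring, zpow_natCast, mul_pow,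
          inv_pow]
      rw [h1]
      have h2 : (y : F) ^ (m + 1) ≠ 0 := pow_ne_zero _ hy0'
      field_simp
  have hsT0 : sT = 0 := by
    have h1 : (r : ℤ) ≠ 0 := by exact_mod_cast hr.ne'
    rcases mul_eq_zero.mp hz0 with h | h
    · exact absurd h h1
    · exact h
  -- consequences
  have he₁e : e₁ = e := by rw [he₁, hz0, zpow_zero, mul_one]
  have hg₁U : g₁ ∈ h26U π Winf := by
    rw [hg₁inf, hsT0, zpow_zero, one_mul]
    exact hεinfU
  -- `α` is a unit constant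
  have hαr : α ^ r = algebraMap A F t' := by
    have h1 : θ = (α ^ r)⁻¹ := by rw [hθ, hz0, zpow_zero, one_mul]
    rw [← hθinv, h1, inv_inv]
  obtain ⟨tα, htα, hαt⟩ : ∃ tα : A, IsUnit tα ∧ α = algebraMap A F tα := by
    obtain ⟨p, hp0, hp | hp⟩ := h13x_const_dichotomy hAF hαc hα0
    · refine ⟨p, ?_, hp⟩
      have h1 : p ^ r = t' := by
        apply hAF
        rw [map_pow, ← hp, hαr]
      exact (isUnit_pow_iff hr.ne').mp (h1 ▸ ht'u)
    · have h1 : p ^ r = t := by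
        apply hAF
        rw [map_pow, ← hp, inv_pow, hαr]
        exact (inv_eq_of_mul_eq_one_left htF).symm ▸ rfl
      have hpu : IsUnit p := (isUnit_pow_iff hr.ne').mp (h1 ▸ htu)
      obtain ⟨p', hpp'⟩ := hpu.exists_right_inv
      refine ⟨p', IsUnit.of_mul_eq_one p (by rw [mul_comm]; exact hpp'), ?_⟩
      have h2 : algebraMap A F p * algebraMap A F p' = 1 := by
        rw [← map_mul, hpp', map_one]
      rw [← hp] at h2
      have h3 : α = (α⁻¹)⁻¹ := (inv_inv α).symm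
      rw [h3]
      exact inv_eq_of_mul_eq_one_right h2
  exact ⟨T, ai, bi, gi, n, e, tα, fun i hi => ⟨(hdat i (hTc i hi)).1, (hdat i (hTc i hi)).2.1,
    (hdat i (hTc i hi)).2.2.1, (hdat i (hTc i hi)).2.2.2.1⟩, hsT0, hue, hval_e, he₁e ▸ he₁V,
    he₁e ▸ he₁V', htα, hαt⟩

end Node

end Fermat.Agent.P6
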