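import Mathlib
import Fermat.Agent.P6.H2NodeAlg

/-!
# P6 (S33), block B2-T3 (helper2): the Weierstrass polynomials `∏ (X - a_i) ^ p_i`

Mathlib only.
-/

set_option autoImplicit false
set_option linter.style.haveILetI false
set_option linter.unusedSectionVars false

open Polynomial IsLocalRing

namespace Fermat.Agent.P6

section Poly

variable {A : Type*} [CommRing A] [IsDomain A] [ValuationRing A]
  {F : Type*} [Field F] [Algebra A F] {ι : Type*}

/-- the polynomial `∏ (X - C (a i)) ^ (p i)`. -/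
noncomputable def h2nPoly (T : Finset ι) (a : ι → A) (p : ι → ℕ) : A[X] :=
  ∏ i ∈ T, (X - C (a i)) ^ p i

theorem h2nPoly_monic (T : Finset ι) (a : ι → A) (p : ι → ℕ) : (h2nPoly T a p).Monic :=
  monic_prod_of_monic _ _ (fun i _ => (monic_X_sub_C (a i)).pow _)

theorem h2nPoly_natDegree (T : Finset ι) (a : ι → A) (p : ι → ℕ) :
    (h2nPoly T a p).natDegree = ∑ i ∈ T, p i := by
  rw [h2nPoly, natDegree_prod_of_monic _ _ (fun i _ => (monic_X_sub_C (a i)).pow _)]
  refine Finset.sum_congr rfl fun i _ => ?_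
  rw [(monic_X_sub_C (a i)).natDegree_pow, natDegree_X_sub_C, mul_one]

theorem h2nPoly_map (T : Finset ι) (a : ι → A) (p : ι → ℕ)
    (ha : ∀ i ∈ T, a i ∈ maximalIdeal A) :
    (h2nPoly T a p).map (residue A) = X ^ (∑ i ∈ T, p i) := by
  rw [h2nPoly, Polynomial.map_prod, ← Finset.prod_pow_eq_pow_sum]
  refine Finset.prod_congr rfl fun i hi => ?_
  rw [Polynomial.map_pow, Polynomial.map_sub, map_X, map_C,
    (residue_eq_zero_iff _).mpr (ha i hi), C_0, sub_zero]

theorem h2nPoly_aeval (T : Finset ι) (a : ι → A) (p : ι → ℕ) (t : F) :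
    aeval t (h2nPoly T a p) = ∏ i ∈ T, (t - algebraMap A F (a i)) ^ p i := by
  rw [h2nPoly, map_prod]
  refine Finset.prod_congr rfl fun i _ => ?_
  rw [map_pow, map_sub, aeval_X, aeval_C]

theorem h2nPoly_pow_monic (T : Finset ι) (a : ι → A) (p : ι → ℕ) (r : ℕ) :
    (h2nPoly T a p ^ r).Monic := (h2nPoly_monic T a p).pow r

theorem h2nPoly_pow_natDegree (T : Finset ι) (a : ι → A) (p : ι → ℕ) (r : ℕ) :
    (h2nPoly T a p ^ r).natDegree = r * ∑ i ∈ T, p i := by
  rw [(h2nPoly_monic T a p).natDegree_pow, h2nPoly_natDegree]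

theorem h2nPoly_pow_map (T : Finset ι) (a : ι → A) (p : ι → ℕ) (r : ℕ)
    (ha : ∀ i ∈ T, a i ∈ maximalIdeal A) :
    (h2nPoly T a p ^ r).map (residue A) = X ^ (r * ∑ i ∈ T, p i) := by
  rw [Polynomial.map_pow, h2nPoly_map T a p ha, ← pow_mul, mul_comm]

theorem h2n_zpow_split (z : F) (n : ℤ) : z ^ n = z ^ n.toNat * (z ^ (-n).toNat)⁻¹ := by
  obtain ⟨k, rfl | rfl⟩ := n.eq_nat_or_neg
  · simp
  · rcases Nat.eq_zero_or_pos k with rfl | hk
    · simp
    · have h1 : (-(k : ℤ)).toNat = 0 := by omega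
      have h2 : (- -(k : ℤ)).toNat = k := by omega
      rw [h1, h2, pow_zero, one_mul, zpow_neg, zpow_natCast]

theorem h2n_prod_zpow_split (T : Finset ι) (z : ι → F) (n : ι → ℤ) :
    ∏ i ∈ T, z i ^ n i =
      (∏ i ∈ T, z i ^ (n i).toNat) * (∏ i ∈ T, z i ^ (-(n i)).toNat)⁻¹ := by
  rw [← Finset.prod_inv_distrib, ← Finset.prod_mul_distrib]
  exact Finset.prod_congr rfl fun i _ => h2n_zpow_split (z i) (n i)

theorem h2n_sum_toNat (T : Finset ι) (n : ι → ℤ) (h : ∑ i ∈ T, n i = 0) :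
    ∑ i ∈ T, (n i).toNat = ∑ i ∈ T, (-(n i)).toNat := by
  have h1 : ∀ i, n i = ((n i).toNat : ℤ) - ((-(n i)).toNat : ℤ) := fun i => by omega
  have h2 : ((∑ i ∈ T, (n i).toNat : ℕ) : ℤ) - ((∑ i ∈ T, (-(n i)).toNat : ℕ) : ℤ) = 0 := by
    rw [← h]
    push_cast
    rw [← Finset.sum_sub_distrib]
    exact Finset.sum_congr rfl fun i _ => (h1 i).symm
  have h3 := sub_eq_zero.mp h2
  exact_mod_cast h3

end Poly

end Fermat.Agent.P6
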