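import Mathlib
import Fermat.Agent.P6.H2NodeExplicit
import Fermat.Agent.P6.H2NodeClaim
import Fermat.Agent.P6.H2NodePoly

/-!
# P6 (S33), block B2-T3 (helper2): the DEEP normal form at a node

Vocabulary of `Red/LocalFact.lean` and `S35/H13TorNode.lean`: `A` a valuation ring, `F` a field
over `A`, `B ⊆ F` a chart, `V = W∞ ∩ W₀` the semistable Gauss ring, `v` the places finite on the
chart; `𝔫` a closed point of the special fibre lying on both components, with a node datum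
`x y = a c` and sections at the places centered at `𝔫`.

* `h2n_node_normal_deep` : a function `u ≡ 1` modulo `r c₀ V` (ANY exponent `r`, not
  necessarily a unit of `A`) whose divisor is divisible by `r` is, at the node `𝔫`, of the form
  `u = e · g₁ ^ r` with `e` a unit of `B_𝔫`, `g₁ ≡ 1` modulo `c₀ W∞`, `g₁ = κ ε₀`,
  `ε₀ ≡ 1` modulo `c₀ W₀`, `κ ∈ A^×` and `κ ^ r ≡ 1` modulo `r c₀`.

Same conclusion as `h13x_node_normal` (S35), but with the DEEP modulus `c₀` (there: some modulus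
`π`), plus the congruence on the constant `κ` (the root-of-unity cocycle of the node).
The proof is the two-branch content induction on the Weierstrass polynomials
(`h2n_two_branch`) and the Gauss lemma over the valuation ring (`h2n_pow_sub_pow_coeff`).
-/

set_option autoImplicit false
set_option linter.unusedSectionVars false
set_option linter.style.haveILetI false

open WithZero IsLocalRing Polynomial

namespace Fermat.Agent.P6

open Fermat.Agent.Red Fermat.Agent.LGC Fermat.Agent.S35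

section Node

variable {A : Type*} [CommRing A] [IsDomain A] [ValuationRing A]
  {F : Type*} [Field F] [Algebra A F]
  {B : Subalgebra A F} {V : Subring F} {ι : Type*} {v : ι → Valuation F ℤᵐ⁰}

/-- a quotient `N(t) / D(t)` of two polynomials congruent modulo `c₀` is `≡ 1` modulo `c₀ W`. -/
theorem h2n_quot_mem_U {𝔫 : Ideal B} [h𝔫 : 𝔫.IsPrime] (W : Subring F)
    (hBW : ∀ b : B, (b : F) ∈ W) (hn : ∀ b : B, b ∉ 𝔫 → ((b : F))⁻¹ ∈ W)
    {t : F} (ht : t ∈ h2nLoc B 𝔫) (N D : A[X]) (c₀ : A)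
    (hND : ∀ k, c₀ ∣ (N - D).coeff k) (hD0 : aeval t D ≠ 0) (hDW : (aeval t D)⁻¹ ∈ W) :
    aeval t N * (aeval t D)⁻¹ ∈ h26U c₀ W := by
  obtain ⟨F₀, hF₀⟩ := (Polynomial.C_dvd_iff_dvd_coeff c₀ (N - D)).mpr hND
  refine ⟨aeval t F₀ * (aeval t D)⁻¹,
    W.mul_mem (h2n_loc_le_W W hBW hn (h2n_aeval_mem ht F₀)) hDW, ?_⟩
  have h1 : aeval t N - aeval t D = algebraMap A F c₀ * aeval t F₀ := by
    have : aeval t (N - D) = aeval t (C c₀ * F₀) := by rw [hF₀]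
    rwa [map_sub, map_mul, aeval_C] at this
  have h2 : aeval t N = aeval t D + algebraMap A F c₀ * aeval t F₀ := by
    rw [← h1]; ring
  rw [h2]
  field_simp

/-- **Deep normal form at a node.** -/
theorem h2n_node_normal_deep
    (hC : H26Chart B V v) (hAF : Function.Injective (algebraMap A F))
    (Winf W0 : Subring F)
    (hVWinf : ∀ x ∈ V, x ∈ Winf) (hVW0 : ∀ x ∈ V, x ∈ W0)
    (hWV : ∀ x : F, x ∈ Winf → x ∈ W0 → x ∈ V)
    (hinvinf : ∀ π ∈ maximalIdeal A, ∀ x ∈ Winf, (1 + algebraMap A F π * x)⁻¹ ∈ Winf)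
    (hinv0 : ∀ π ∈ maximalIdeal A, ∀ x ∈ W0, (1 + algebraMap A F π * x)⁻¹ ∈ W0)
    (hntinf : ∀ π ∈ maximalIdeal A, ∀ x ∈ Winf, algebraMap A F π * x ≠ 1)
    (hnt0 : ∀ π ∈ maximalIdeal A, ∀ x ∈ W0, algebraMap A F π * x ≠ 1)
    (𝔫 : Ideal B) [h𝔫 : 𝔫.IsPrime] (h𝔪𝔫 : (maximalIdeal A).map (algebraMap A B) ≤ 𝔫)
    (hninf : ∀ b : B, b ∉ 𝔫 → ((b : F))⁻¹ ∈ Winf)
    (hn0 : ∀ b : B, b ∉ 𝔫 → ((b : F))⁻¹ ∈ W0)
    (x y c : B) (hx : x ∈ 𝔫) (hy : y ∈ 𝔫) (hc : c ∉ 𝔫) (a : A) (ha : a ≠ 0)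
    (hxy : x * y = algebraMap A B a * c)
    (hxinf : ((x : F))⁻¹ ∈ Winf) (hy0 : ((y : F))⁻¹ ∈ W0)
    (hprin : ∀ z ∈ 𝔫, ∃ s, s ∉ 𝔫 ∧
      s * z ∈ Ideal.span {x, y} ⊔ (maximalIdeal A).map (algebraMap A B))
    (hsec : ∀ i, h26Centered B v 𝔫 i → ∃ φ : B →ₐ[A] A,
      (∀ b : B, φ b = 0 ↔ v i (b : F) < 1) ∧ (RingHom.ker (φ : B →+* A)).FG)
    (u : F) (hu : u ≠ 0) (r : ℕ) (hr : 0 < r) (hrA : (r : A) ≠ 0)
    (hru : ∀ i, ∃ n : ℤ, v i u = exp (-((r : ℤ) * n)))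
    (c₀ : A) (hc₀ : c₀ ≠ 0) (hrc : (r : A) * c₀ ∈ maximalIdeal A)
    (huU : u ∈ h26U ((r : A) * c₀) V) :
    ∃ (g₁ e ε0 : F) (tα : A),
      u = e * g₁ ^ r ∧ (∀ k, h26Centered B v 𝔫 k → v k e = 1) ∧ e ∈ V ∧ e⁻¹ ∈ V ∧
      g₁ ∈ h26U c₀ Winf ∧ IsUnit tα ∧ ε0 ∈ h26U c₀ W0 ∧ g₁ = algebraMap A F tα * ε0 ∧
      (r : A) * c₀ ∣ tα ^ r - 1 := by
  classical
  have hD₀0 : (r : A) * c₀ ≠ 0 := mul_ne_zero hrA hc₀
  obtain ⟨T, ai, bi, gi, n, e, tα, hdat, hsum, hue, hval_e, heV, heV', htα, hαt⟩ :=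
    h2n_node_explicit hC hAF Winf W0 hVWinf hVW0 hWV hinvinf hinv0 hntinf hnt0 𝔫 h𝔪𝔫 hninf hn0
      x y c hx hy hc a ha hxy hxinf hy0 hprin hsec u hu r hr hru _ hrc hD₀0 huU
  -- basics
  have hBinf : ∀ b : B, (b : F) ∈ Winf := fun b => hVWinf _ (hC.hBV _ b.2)
  have hB0 : ∀ b : B, (b : F) ∈ W0 := fun b => hVW0 _ (hC.hBV _ b.2)
  have hLV : ∀ z ∈ h2nLoc B 𝔫, z ∈ V := fun z hz =>
    hWV z (h2n_loc_le_W Winf hBinf hninf hz) (h2n_loc_le_W W0 hB0 hn0 hz)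
  have haF : algebraMap A F a ≠ 0 := fun h => ha (hAF (by rw [h, map_zero]))
  have hDF : algebraMap A F ((r : A) * c₀) ≠ 0 := fun h => hD₀0 (hAF (by rw [h, map_zero]))
  have hc0 : (c : F) ≠ 0 := h2n_coe_ne_zero hc
  have hxyF : (x : F) * (y : F) = algebraMap A F a * (c : F) := by
    have := congrArg (Subtype.val) hxy
    simpa using this
  have hx0 : (x : F) ≠ 0 := by
    intro h0
    rw [h0, zero_mul] at hxyF
    exact mul_ne_zero haF hc0 hxyF.symm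
  have hy0' : (y : F) ≠ 0 := by
    intro h0
    rw [h0, mul_zero] at hxyF
    exact mul_ne_zero haF hc0 hxyF.symm
  -- `e` is a unit of the local ring
  obtain ⟨s, hs, hse, hse'⟩ := h75s_unit_aux hC.hfin hC.hint hC.hB hC.hBV hC.hQEP 𝔫 e heV heV'
    hval_e
  have heL : e ∈ h2nLoc B 𝔫 := ⟨s, hs, hse⟩
  have heL' : e⁻¹ ∈ h2nLoc B 𝔫 := ⟨s, hs, hse'⟩
  have he0 : e ≠ 0 := left_ne_zero_of_mul (hue ▸ hu)
  have heM : e ∉ h2nMax B 𝔫 := fun h => h2n_one_notMem_max (B := B) (𝔫 := 𝔫) (by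
    have := h2n_max_mul' h heL'
    rwa [mul_inv_cancel₀ he0] at this)
  -- the two coordinates
  have htx : (x : F) ∈ h2nMax B 𝔫 := h2n_coe_mem_max hx
  have htxL : (x : F) ∈ h2nLoc B 𝔫 := h2n_coe_mem_loc x
  set ty : F := (y : F) * ((c : F))⁻¹ with hty_def
  have hcL : ((c : F))⁻¹ ∈ h2nLoc B 𝔫 :=
    h2n_inv_mem_loc (h2n_coe_mem_loc c) (h2n_coe_notMem_max hc)
  have hty : ty ∈ h2nMax B 𝔫 := h2n_max_mul' (h2n_coe_mem_max hy) hcL
  have htyL : ty ∈ h2nLoc B 𝔫 := h2n_max_le_loc hty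
  have hty0 : ty ≠ 0 := mul_ne_zero hy0' (inv_ne_zero hc0)
  have htyinv : ty⁻¹ = (c : F) * ((y : F))⁻¹ := by
    rw [hty_def, mul_inv, inv_inv, mul_comm]
  have htyW : ty⁻¹ ∈ W0 := by
    rw [htyinv]; exact W0.mul_mem (hB0 c) hy0
  -- the exponents
  set p : ι → ℕ := fun i => (n i).toNat with hp
  set q : ι → ℕ := fun i => (-(n i)).toNat with hq
  have hpq : ∑ i ∈ T, p i = ∑ i ∈ T, q i := h2n_sum_toNat T n hsum
  set d : ℕ := ∑ i ∈ T, q i with hd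
  -- the constants on the second branch
  set βi : ι → A := fun i => bi i * Ring.inverse (gi i) with hβi
  have hai : ∀ i ∈ T, ai i ∈ maximalIdeal A := fun i hi => (hdat i hi).1
  have hβ : ∀ i ∈ T, βi i ∈ maximalIdeal A := fun i hi =>
    Ideal.mul_mem_right _ _ (hdat i hi).2.1
  have haβ : ∀ i ∈ T, ai i * βi i = a := by
    intro i hi
    obtain ⟨-, -, hg, hab⟩ := hdat i hi
    show ai i * (bi i * Ring.inverse (gi i)) = a
    rw [← mul_assoc, hab, mul_assoc, Ring.mul_inverse_cancel _ hg, mul_one]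
  -- the polynomials
  set N : A[X] := h2nPoly T ai p with hN
  set D : A[X] := h2nPoly T ai q with hD
  set N' : A[X] := h2nPoly T βi p with hN'
  set D' : A[X] := h2nPoly T βi q with hD'
  have hNd : N.natDegree = D.natDegree := by
    rw [hN, hD, h2nPoly_natDegree, h2nPoly_natDegree, hpq]
  have hN'd : N'.natDegree = D'.natDegree := by
    rw [hN', hD', h2nPoly_natDegree, h2nPoly_natDegree, hpq]
  have hDr : D.map (residue A) = X ^ d := h2nPoly_map T ai q hai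
  have hD'r : D'.map (residue A) = X ^ d := h2nPoly_map T βi q hβ
  obtain ⟨hDx0, hDxW⟩ := h2n_aeval_inv_mem Winf hBinf hninf hntinf hinvinf htxL hx0 hxinf D d hDr
  obtain ⟨hDy0, hDyW⟩ := h2n_aeval_inv_mem W0 hB0 hn0 hnt0 hinv0 htyL hty0 htyW D' d hD'r
  -- `g₁` on the two branches
  set g₁ : F := ∏ i ∈ T, ((x : F) - algebraMap A F (ai i)) ^ n i with hg₁
  have hg₁x : g₁ = aeval (x : F) N * (aeval (x : F) D)⁻¹ := by
    rw [hN, hD, h2nPoly_aeval, h2nPoly_aeval]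
    exact h2n_prod_zpow_split T _ n
  have hfac : ∀ i ∈ T, (x : F) - algebraMap A F (ai i) =
      (-algebraMap A F (ai i)) * ((ty - algebraMap A F (βi i)) * ty⁻¹) := by
    intro i hi
    have h1 : algebraMap A F (ai i) * algebraMap A F (βi i) = algebraMap A F a := by
      rw [← map_mul, haβ i hi]
    have h2 : (x : F) = algebraMap A F a * ty⁻¹ := by
      rw [htyinv, ← mul_assoc, ← hxyF]
      field_simp
    rw [h2, ← h1]
    field_simp
    ring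
  have hg₁y : g₁ = algebraMap A F tα * (aeval ty N' * (aeval ty D')⁻¹) := by
    rw [hN', hD', h2nPoly_aeval, h2nPoly_aeval, ← h2n_prod_zpow_split T _ n, ← hαt,
      ← Finset.prod_mul_distrib, hg₁]
    have h3 : ∏ i ∈ T, (ty⁻¹) ^ n i = 1 := by
      rw [h26_prod_zpow_const T (ty⁻¹) (inv_ne_zero hty0) n, hsum, zpow_zero]
    have h4 : ∏ i ∈ T, ((x : F) - algebraMap A F (ai i)) ^ n i =
        (∏ i ∈ T, ((-algebraMap A F (ai i)) ^ n i * (ty - algebraMap A F (βi i)) ^ n i)) *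
          ∏ i ∈ T, (ty⁻¹) ^ n i := by
      rw [← Finset.prod_mul_distrib]
      refine Finset.prod_congr rfl fun i hi => ?_
      rw [hfac i hi, mul_zpow, mul_zpow, mul_assoc]
    rw [h4, h3, mul_one]
  -- the two congruences
  obtain ⟨v₀, hv₀, huv⟩ := huU
  set P : A[X] := N ^ r with hP
  set Q : A[X] := D ^ r with hQ
  set P' : A[X] := N' ^ r with hP'
  set Q' : A[X] := D' ^ r with hQ'
  set κ : A := tα ^ r with hκ
  have hQxL : aeval (x : F) Q ∈ h2nLoc B 𝔫 := h2n_aeval_mem htxL Q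
  have hQyL : aeval ty Q' ∈ h2nLoc B 𝔫 := h2n_aeval_mem htyL Q'
  have hPxL : aeval (x : F) P ∈ h2nLoc B 𝔫 := h2n_aeval_mem htxL P
  have hPyL : aeval ty P' ∈ h2nLoc B 𝔫 := h2n_aeval_mem htyL P'
  have e₁ : e * aeval (x : F) P - 1 * aeval (x : F) Q =
      algebraMap A F ((r : A) * c₀) * (v₀ * aeval (x : F) Q) := by
    have h1 : u * aeval (x : F) Q = e * aeval (x : F) P := by
      rw [hue, hg₁x, hP, hQ, map_pow, map_pow, mul_pow, inv_pow]
      have : aeval (x : F) D ^ r ≠ 0 := pow_ne_zero _ hDx0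
      field_simp
    rw [← h1, huv]
    ring
  have e₂ : algebraMap A F κ * e * aeval ty P' - 1 * aeval ty Q' =
      algebraMap A F ((r : A) * c₀) * (v₀ * aeval ty Q') := by
    have h1 : u * aeval ty Q' = algebraMap A F κ * e * aeval ty P' := by
      rw [hue, hg₁y, hP', hQ', hκ, map_pow, map_pow, map_pow, mul_pow, mul_pow, inv_pow]
      have : aeval ty D' ^ r ≠ 0 := pow_ne_zero _ hDy0
      field_simp
    rw [← h1, huv]
    ring
  have hl₁ : v₀ * aeval (x : F) Q ∈ h2nLoc B 𝔫 := by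
    refine h2n_loc_qep V hC.hBV hC.hQEP _ hDF (V.mul_mem hv₀ (hLV _ hQxL)) ?_
    rw [← e₁]
    exact (h2nLoc B 𝔫).sub_mem ((h2nLoc B 𝔫).mul_mem heL hPxL)
      ((h2nLoc B 𝔫).mul_mem (h2nLoc B 𝔫).one_mem hQxL)
  have hl₂ : v₀ * aeval ty Q' ∈ h2nLoc B 𝔫 := by
    refine h2n_loc_qep V hC.hBV hC.hQEP _ hDF (V.mul_mem hv₀ (hLV _ hQyL)) ?_
    rw [← e₂]
    exact (h2nLoc B 𝔫).sub_mem
      ((h2nLoc B 𝔫).mul_mem ((h2nLoc B 𝔫).mul_mem ((h2nLoc B 𝔫).algebraMap_mem κ) heL) hPyL)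
      ((h2nLoc B 𝔫).mul_mem (h2nLoc B 𝔫).one_mem hQyL)
  -- the two-branch content lemma
  have hPd : P.natDegree = r * d := by
    rw [hP, hN, h2nPoly_pow_natDegree, hpq]
  have hQd : Q.natDegree = r * d := by
    rw [hQ, hD, h2nPoly_pow_natDegree]
  have hP'd : P'.natDegree = r * d := by
    rw [hP', hN', h2nPoly_pow_natDegree, hpq]
  have hQ'd : Q'.natDegree = r * d := by
    rw [hQ', hD', h2nPoly_pow_natDegree]
  obtain ⟨hc₁, hc₂⟩ := h2n_two_branch hAF V Winf W0 hC.hBV hC.hQEP hWV hBinf hB0 hninf hn0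
    hntinf hnt0 hinvinf hinv0 htx hx0 hxinf hty hty0 htyW (r * d) P Q P' Q'
    (h2nPoly_pow_monic T ai p r) hPd (h2nPoly_pow_monic T ai q r) hQd
    (h2nPoly_pow_map T ai q r hai) hP'd hQ'd (h2nPoly_pow_map T βi q r hβ)
    κ heL heM (h2nLoc B 𝔫).one_mem ((r : A) * c₀) hD₀0 ⟨_, hl₁, e₁⟩ ⟨_, hl₂, e₂⟩
  -- consequences
  have hND : ∀ k, c₀ ∣ (N - D).coeff k :=
    h2n_pow_sub_pow_coeff (h2nPoly_monic T ai p) (h2nPoly_monic T ai q) hNd r hrA c₀ hc₁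
  have hκ1 : (r : A) * c₀ ∣ κ - 1 := by
    have h1 := hc₂ (r * d)
    have h2 : P'.coeff (r * d) = 1 := by
      rw [← hP'd]; exact (h2nPoly_pow_monic T βi p r).coeff_natDegree
    have h3 : Q'.coeff (r * d) = 1 := by
      rw [← hQ'd]; exact (h2nPoly_pow_monic T βi q r).coeff_natDegree
    rwa [coeff_sub, coeff_C_mul, h2, h3, mul_one] at h1
  have hc₃ : ∀ k, (r : A) * c₀ ∣ (N' ^ r - D' ^ r).coeff k := by
    intro k
    have h1 : (N' ^ r - D' ^ r).coeff k = (C κ * P' - Q').coeff k - (κ - 1) * P'.coeff k := by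
      rw [coeff_sub, coeff_sub, coeff_C_mul]
      ring
    rw [h1]
    exact dvd_sub (hc₂ k) (Dvd.dvd.mul_right hκ1 _)
  have hN'D' : ∀ k, c₀ ∣ (N' - D').coeff k :=
    h2n_pow_sub_pow_coeff (h2nPoly_monic T βi p) (h2nPoly_monic T βi q) hN'd r hrA c₀ hc₃
  refine ⟨g₁, e, aeval ty N' * (aeval ty D')⁻¹, tα, hue, hval_e, heV, heV', ?_, htα, ?_, hg₁y,
    hκ1⟩
  · rw [hg₁x]
    exact h2n_quot_mem_U Winf hBinf hninf htxL N D c₀ hND hDx0 hDxW
  · exact h2n_quot_mem_U W0 hB0 hn0 htyL N' D' c₀ hN'D' hDy0 hDyW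

end Node

end Fermat.Agent.P6
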