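import Mathlib
import Fermat.Agent.P6.H2NodeDeep
import Fermat.Agent.P6.H59NodeTheta

/-!
# P6 (S33), block B2-TOR, row T3b (helper2): the deep node normal form, canonical shape

`h2n_normalDeep` : binders of `S35.h13x_node_normal` up to `hru`, then `(r : A) ≠ 0`, the depth
`c₀ ∈ 𝔪_A`, `c₀ ≠ 0`, `u ∈ h26U (r * c₀) V`; conclusion `H59nNormalDeep B V v Winf W0 𝔫 u r c₀`
(the frozen shape of `P6/H59NodeTheta.lean`, consumed by `h59n_node_theta`).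
-/

set_option autoImplicit false
set_option linter.unusedSectionVars false
set_option linter.style.haveILetI false

open WithZero IsLocalRing

namespace Fermat.Agent.P6

open Fermat.Agent.Red Fermat.Agent.LGC Fermat.Agent.S35

section Node

variable {A : Type*} [CommRing A] [IsDomain A] [ValuationRing A]
  {F : Type*} [Field F] [Algebra A F]
  {B : Subalgebra A F} {V : Subring F} {ι : Type*} {v : ι → Valuation F ℤᵐ⁰}

/-- **T3b, the deep node normal form** in the canonical shape `H59nNormalDeep`. -/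
theorem h2n_normalDeep
    (hC : H26Chart B V v) (hAF : Function.Injective (algebraMap A F))
    (Winf W0 : Subring F)
    (hVWinf : ∀ x ∈ V, x ∈ Winf) (hVW0 : ∀ x ∈ V, x ∈ W0)
    (hWV : ∀ x : F, x ∈ Winf → x ∈ W0 → x ∈ V)
    (hinvinf : ∀ π ∈ maximalIdeal A, ∀ x ∈ Winf, (1 + algebraMap A F π * x)⁻¹ ∈ Winf)
    (hinv0 : ∀ π ∈ maximalIdeal A, ∀ x ∈ W0, (1 + algebraMap A F π * x)⁻¹ ∈ W0)
    (hntinf : ∀ π ∈ maximalIdeal A, ∀ x ∈ Winf, algebraMap A F π * x ≠ 1)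
    (hnt0 : ∀ π ∈ maximalIdeal A, ∀ x ∈ W0, algebraMap A F π * x ≠ 1)
    (𝔫 : Ideal B) [h𝔫 : 𝔫.IsPrime] (h𝔪𝔫 : (maximalIdeal A).map (algebraMap A B) ≤ 𝔫)
    (hninf : ∀ b : B, b ∉ 𝔫 → ((b : F))⁻¹ ∈ Winf)
    (hn0 : ∀ b : B, b ∉ 𝔫 → ((b : F))⁻¹ ∈ W0)
    (x y c : B) (hx : x ∈ 𝔫) (hy : y ∈ 𝔫) (hc : c ∉ 𝔫) (a : A) (ha : a ≠ 0)
    (hxy : x * y = algebraMap A B a * c)
    (hxinf : ((x : F))⁻¹ ∈ Winf) (hy0 : ((y : F))⁻¹ ∈ W0)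
    (hprin : ∀ z ∈ 𝔫, ∃ s, s ∉ 𝔫 ∧
      s * z ∈ Ideal.span {x, y} ⊔ (maximalIdeal A).map (algebraMap A B))
    (hsec : ∀ i, h26Centered B v 𝔫 i → ∃ φ : B →ₐ[A] A,
      (∀ b : B, φ b = 0 ↔ v i (b : F) < 1) ∧ (RingHom.ker (φ : B →+* A)).FG)
    (u : F) (hu : u ≠ 0) (r : ℕ) (hr : 0 < r)
    (hru : ∀ i, ∃ n : ℤ, v i u = exp (-((r : ℤ) * n)))
    (hrA : (r : A) ≠ 0) (c₀ : A) (hc₀ : c₀ ∈ maximalIdeal A) (hc₀0 : c₀ ≠ 0)
    (huU : u ∈ h26U ((r : A) * c₀) V) :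
    H59nNormalDeep B V v Winf W0 𝔫 u r c₀ :=
  h2n_node_normal_deep hC hAF Winf W0 hVWinf hVW0 hWV hinvinf hinv0 hntinf hnt0 𝔫 h𝔪𝔫 hninf hn0
    x y c hx hy hc a ha hxy hxinf hy0 hprin hsec u hu r hr hrA hru c₀ hc₀0
    (Ideal.mul_mem_left _ _ hc₀) huU

end Node

end Fermat.Agent.P6
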