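import Mathlib
import Fermat.Agent.P6.H2NodeNF
import Fermat.Agent.P6.H13TorNodeP

/-!
# P6 (S33), block B2-TOR (helper2): the abstract deep normal form at a node, frozen shape

`h2n_nodeNF : H13qNodeNF` (the frozen Prop of `P6/H13TorNodeP.lean`, helper13), from
`h2n_normalDeep` (`P6/H2NodeNF.lean`): the hypotheses of `H13qNodeNF` contain those of
`h2n_normalDeep`.
-/

set_option autoImplicit false
set_option linter.unusedSectionVars false
set_option linter.unusedVariables false
set_option linter.style.haveILetI false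

open WithZero IsLocalRing

namespace Fermat.Agent.P6

open Fermat.Agent.Red Fermat.Agent.LGC Fermat.Agent.S35

universe u v w

/-- **the abstract deep normal form at a node**, frozen shape of helper13. -/
theorem h2n_nodeNF : H13qNodeNF.{u, v, w} := by
  intro A _ _ _ F _ _ B V ι val hC hAF _ Winf W0 hVWinf hVW0 hWV _ _ hinvinf hinv0 hntinf hnt0
    𝔫 h𝔫 h𝔪𝔫 hninf hn0 x y c hx hy hc a ha hxy hxinf hy0 hprin hsec f hf r hr hrA hru c₁ hc₁
    hc₁0 hfU
  haveI := h𝔫.isPrime
  exact h2n_normalDeep hC hAF Winf W0 hVWinf hVW0 hWV hinvinf hinv0 hntinf hnt0 𝔫 h𝔪𝔫 hninf hn0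
    x y c hx hy hc a ha hxy hxinf hy0 hprin hsec f hf r hr hru hrA c₁ hc₁ hc₁0 hfU

end Fermat.Agent.P6
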