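import Fermat.Agent.P6.H60WApprox
import Fermat.Agent.P6.H13TorIfaceP

/-!
# P6 (wave 6, S33), block B2-TOR: the leaf `H13qApprox` (helper71)

`H13qApprox` (frozen by helper13 in `P6/H13TorIfaceP.lean`): a function `z` which is an `r`-th
power modulo every depth at `W∞` and at `W₀` (the hypothesis of `H11TorGate`) is, for every
nonzero `D ∈ 𝔪_A`, of the form `cst c * H ^ r * w` with `w ≡ 1` modulo `D · ssV`.

Proof: the landed glue `h60w_glue_ss` (weak approximation at the two Gauss valuations).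
-/

set_option autoImplicit false
set_option linter.unusedSectionVars false
set_option linter.style.haveILetI false

open AlgebraicCurve ModularCurve WithZero IsLocalRing

noncomputable section

namespace Fermat.Agent.P6

open Fermat.Agent.S37 Fermat.Agent.Red Fermat.Agent.Red.GG Fermat.Agent.Red.GV
  Fermat.Agent.Red.ModelO Fermat.Agent.Red.Kron Fermat.Agent.LGC Fermat.Agent.S35

/-- one-level form of `H13qApprox` (any prime `ℓ`, any level `M` prime to `ℓ`, no good-level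
hypothesis, depth data only at the ONE depth `D`). -/
theorem h71a_approx_at (A : ValuationSubring Kbar) (M ℓ : ℕ) [NeZero M] [NeZero ℓ]
    (hℓ : ℓ.Prime) (hM : ¬ ℓ ∣ M) (hA : A.LiesOverPrime ℓ) (r : ℕ) (hr : 0 < r)
    (z : FF (M * ℓ)) (D : A) (hD : D ∈ maximalIdeal A) (hD0 : D ≠ 0)
    (h1 : h94iDeep A M ℓ r z (D : Kbar))
    (h2 : h94iDeep A M ℓ r (kFricke M ℓ hℓ hM z) (D : Kbar)) :
    ∃ (c : Kbar) (H w : FF (M * ℓ)), c ≠ 0 ∧ H ≠ 0 ∧ z = cst (M * ℓ) c * H ^ r * w ∧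
      w ∈ h26U D (ssV A M ℓ) := by
  obtain ⟨h₁, hh₁, s₁, hs₁, e₁⟩ := h1
  obtain ⟨h₀', hh₀', s₀, hs₀, e₀⟩ := h2
  have hh₀ : (kFricke M ℓ hℓ hM).symm h₀' ≠ 0 := by
    intro h
    apply hh₀'
    have := congrArg (kFricke M ℓ hℓ hM) h
    rwa [AlgEquiv.apply_symm_apply, map_zero] at this
  have hp₁ : h₁ ^ r ≠ 0 := pow_ne_zero r hh₁
  have hp₀ : h₀' ^ r ≠ 0 := pow_ne_zero r hh₀'
  have E₁ : cst (M * ℓ) (1 : Kbar) * z * (h₁ ^ r)⁻¹ = 1 + cst (M * ℓ) (D : Kbar) * s₁ := by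
    rw [show cst (M * ℓ) (1 : Kbar) = 1 from map_one (algebraMap Kbar (FF (M * ℓ))), one_mul, e₁]
    field_simp
  have E₀ : kFricke M ℓ hℓ hM
      (cst (M * ℓ) (1 : Kbar) * z * (((kFricke M ℓ hℓ hM).symm h₀') ^ r)⁻¹) =
      1 + cst (M * ℓ) (D : Kbar) * s₀ := by
    rw [show cst (M * ℓ) (1 : Kbar) = 1 from map_one (algebraMap Kbar (FF (M * ℓ))), one_mul,
      map_mul, map_inv₀, map_pow, AlgEquiv.apply_symm_apply, e₀]
    field_simp
  obtain ⟨c, h, hc, hh, hw⟩ := h60w_glue_ss A M ℓ hℓ hM hA r hr.ne' z 1 1 one_ne_zero one_ne_zero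
    h₁ ((kFricke M ℓ hℓ hM).symm h₀') hh₁ hh₀ D hD hD0 s₁ s₀ hs₁ hs₀ E₁ E₀
  have hcc : cst (M * ℓ) c ≠ 0 := by
    rw [Ne, map_eq_zero_iff _ (algebraMap Kbar (FF (M * ℓ))).injective]
    exact hc
  have hhr : h ^ r ≠ 0 := pow_ne_zero r hh
  refine ⟨c⁻¹, h, cst (M * ℓ) c * z * (h ^ r)⁻¹, inv_ne_zero hc, hh, ?_, hw⟩
  rw [show cst (M * ℓ) c⁻¹ = (cst (M * ℓ) c)⁻¹ from map_inv₀ (algebraMap Kbar (FF (M * ℓ))) c]
  field_simp

/-- **`H13qApprox`** (weak approximation at the two Gauss valuations, in the shape of the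
hypothesis of `H11TorGate`), unconditional. -/
theorem h71a_approx : H13qApprox := by
  intro p hp _ M _ hM _
  haveI : NeZero p := ⟨hp.ne_zero⟩
  intro A hA r hr z _ hdeep D hD hD0
  have hD0' : (D : Kbar) ≠ 0 := fun h => hD0 (Subtype.ext h)
  obtain ⟨h1, h2⟩ := hdeep (D : Kbar) D.2 hD0'
  exact h71a_approx_at A M p hp hM hA r hr z D hD hD0 h1 h2

end Fermat.Agent.P6
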