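import Fermat.Agent.P6.H2NodeNFTop
import Fermat.Agent.P6.H71Approx
import Fermat.Agent.P6.H25KummerPlus

/-!
# P6 (S33), block B2 (helper2): TOR-GATE-p and the `p`-new STAR, unconditional

* `h2n_torGate : H11TorGate` (the crux of block B2, frozen Prop of `P6/H11NewIface.lean`), from
  `h13q_torGate_of_nf` (helper13), `h2n_nodeNF` (the deep normal form at a node) and
  `h71a_approx` (helper71).
* `h2n_starNewPlus : H11StarNewPlus` (the output of block B2), from `h25p_starNewPlus_of_tor`
  (helper25).
-/

set_option autoImplicit false

namespace Fermat.Agent.P6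

/-- **TOR-GATE-p**, unconditional. -/
theorem h2n_torGate : H11TorGate :=
  h13q_torGate_of_nf h2n_nodeNF h71a_approx

/-- **STAR on the `p`-new classes**, unconditional. -/
theorem h2n_starNewPlus : H11StarNewPlus :=
  h25p_starNewPlus_of_tor h2n_torGate

end Fermat.Agent.P6
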