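import Mathlib

/-!
# S33 (ordinary at `p`), the algebraic core ALG33 (helper79)

Mathlib only.  `T` a local ring, `V` a free `T`-module of rank two with a basis `β`,
`ρ : G →* End_T V` a representation, `I ≤ D ≤ G` subgroups with `I` normal in `D`
(inertia and decomposition group).  Assume

* `(X)` `(ρ a - det (ρ a)) ∘ (ρ b - 1) = 0` for all `a, b ∈ I`;
* `(U)` there is `s₀ ∈ I` with `det (ρ s₀) - 1` a unit of `T`.

Then `V` has a basis `b` such that the line `L = T ∙ b 0` is stable under `D` and `I` acts
trivially on `V ⧸ L` (`h79o_ordinary`): this is `GaloisRepAdic.IsOrdinaryAt` of the Prelude.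

Proof: `A = ρ s₀`, `ε₀ = det A`, `u = ε₀ - 1`.  Cayley–Hamilton and `(X)` give
`tr A = 1 + ε₀`; `E = u⁻¹ (A - 1)` is an idempotent of trace `1`; over a local ring one of the
diagonal entries of `E` is a unit, which gives an adapted basis `E b₀ = b₀`, `E b₁ = 0`
(`h79o_idem_basis`).  Then `L = T b₀ = ker (A - ε₀)`, and `(X)` gives the two stabilities.
-/

set_option autoImplicit false

noncomputable section

namespace Fermat.Agent.P6

open Module

variable {T : Type*} [CommRing T] {V : Type*} [AddCommGroup V] [Module T V]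

/-- the determinant of a pair of vectors in a basis indexed by `Fin 2`. -/
theorem h79o_det_pair (β : Basis (Fin 2) T V) (v : Fin 2 → V) :
    β.det v = β.repr (v 0) 0 * β.repr (v 1) 1 - β.repr (v 1) 0 * β.repr (v 0) 1 := by
  rw [Basis.det_apply, Matrix.det_fin_two]
  simp only [Basis.toMatrix_apply]

/-- a pair of vectors with unit determinant is a basis. -/
theorem h79o_basis_of_det (β : Basis (Fin 2) T V) (v : Fin 2 → V) (h : IsUnit (β.det v)) :
    ∃ b : Basis (Fin 2) T V, ∀ i, b i = v i := by
  obtain ⟨h1, h2⟩ := (Module.Basis.is_basis_iff_det β).2 h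
  exact ⟨Basis.mk h1 (le_of_eq h2.symm), fun i => Basis.mk_apply h1 _ i⟩

/-- expansion of a vector in a basis indexed by `Fin 2`. -/
theorem h79o_expand (β : Basis (Fin 2) T V) (v : V) :
    v = β.repr v 0 • β 0 + β.repr v 1 • β 1 := by
  conv_lhs => rw [← β.sum_repr v]
  rw [Fin.sum_univ_two]

/-- the trace in a basis indexed by `Fin 2`. -/
theorem h79o_trace (β : Basis (Fin 2) T V) (f : V →ₗ[T] V) :
    LinearMap.trace T V f = β.repr (f (β 0)) 0 + β.repr (f (β 1)) 1 := by
  rw [LinearMap.trace_eq_matrix_trace T β f, Matrix.trace_fin_two]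
  simp only [LinearMap.toMatrix_apply]

variable [IsLocalRing T]

/-- **an idempotent of trace one on a free module of rank two over a local ring has an adapted
basis.** -/
theorem h79o_idem_basis (β : Basis (Fin 2) T V) (E : V →ₗ[T] V) (hE : E ∘ₗ E = E)
    (htr : LinearMap.trace T V E = 1) :
    ∃ b : Basis (Fin 2) T V, E (b 0) = b 0 ∧ E (b 1) = 0 := by
  have hEE : ∀ v, E (E v) = E v := fun v => by
    have := congrArg (fun f : V →ₗ[T] V => f v) hE
    simpa using this
  set a := β.repr (E (β 0)) 0 with ha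
  set c := β.repr (E (β 0)) 1 with hc
  set b' := β.repr (E (β 1)) 0 with hb'
  set d := β.repr (E (β 1)) 1 with hd
  have had : a + d = 1 := by rw [← htr, h79o_trace β E]
  have h0 : E (β 0) = a • β 0 + c • β 1 := h79o_expand β (E (β 0))
  have h1 : E (β 1) = b' • β 0 + d • β 1 := h79o_expand β (E (β 1))
  -- the relations of idempotency
  have r0 : E (E (β 0)) = (a * a + c * b') • β 0 + (a * c + c * d) • β 1 := by
    conv_lhs => rw [h0]
    rw [map_add, map_smul, map_smul, h0, h1]
    simp only [smul_add, smul_smul, add_smul]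
    abel
  have r1 : E (E (β 1)) = (b' * a + d * b') • β 0 + (b' * c + d * d) • β 1 := by
    conv_lhs => rw [h1]
    rw [map_add, map_smul, map_smul, h0, h1]
    simp only [smul_add, smul_smul, add_smul]
    abel
  have e00 : a * a + c * b' = a := by
    have := congrArg (fun v => β.repr v 0) (r0.symm.trans (hEE (β 0)))
    simpa [ha] using this
  have e11 : b' * c + d * d = d := by
    have := congrArg (fun v => β.repr v 1) (r1.symm.trans (hEE (β 1)))
    simpa [hd] using this
  -- one of the diagonal entries is a unit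
  rcases IsLocalRing.isUnit_or_isUnit_of_add_one had with hau | hdu
  · -- `a` is a unit
    let v : Fin 2 → V := ![E (β 0), β 1 - E (β 1)]
    have hdet : β.det v = a := by
      rw [h79o_det_pair]
      simp only [v, Matrix.cons_val_zero, Matrix.cons_val_one, map_sub, Finsupp.sub_apply,
        Basis.repr_self, Finsupp.single_apply]
      simp only [← ha, ← hc, ← hb', ← hd]
      have : (1 : T) - d = a := by rw [← had]; ring
      simp only [if_true, Fin.isValue]
      have h10 : ((1 : Fin 2) = 0) = False := by simp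
      simp only [h10, if_false, zero_sub]
      rw [this]
      linear_combination e00
    obtain ⟨b, hb⟩ := h79o_basis_of_det β v (by rw [hdet]; exact hau)
    refine ⟨b, ?_, ?_⟩
    · rw [hb 0]
      exact hEE (β 0)
    · rw [hb 1]
      show E (β 1 - E (β 1)) = 0
      rw [map_sub, hEE, sub_self]
  · -- `d` is a unit
    let v : Fin 2 → V := ![E (β 1), β 0 - E (β 0)]
    have hdet : β.det v = -d := by
      rw [h79o_det_pair]
      simp only [v, Matrix.cons_val_zero, Matrix.cons_val_one, map_sub, Finsupp.sub_apply,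
        Basis.repr_self, Finsupp.single_apply]
      simp only [← ha, ← hc, ← hb', ← hd]
      have : (1 : T) - a = d := by rw [← had]; ring
      simp only [if_true, Fin.isValue]
      have h01 : ((0 : Fin 2) = 1) = False := by simp
      simp only [h01, if_false, zero_sub]
      rw [this]
      linear_combination -e11
    obtain ⟨b, hb⟩ := h79o_basis_of_det β v (by rw [hdet]; exact hdu.neg)
    refine ⟨b, ?_, ?_⟩
    · rw [hb 0]
      exact hEE (β 1)
    · rw [hb 1]
      show E (β 0 - E (β 0)) = 0
      rw [map_sub, hEE, sub_self]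


/-- Cayley–Hamilton on a free module of rank two. -/
theorem h79o_cayley (β : Basis (Fin 2) T V) (A : V →ₗ[T] V) :
    A * A - LinearMap.trace T V A • A + LinearMap.det A • (1 : V →ₗ[T] V) = 0 := by
  have : Module.Free T V := Module.Free.of_basis β
  have : Module.Finite T V := Module.Finite.of_basis β
  have h1 : A.charpoly = Polynomial.X ^ 2 - Polynomial.C (LinearMap.trace T V A) * Polynomial.X +
      Polynomial.C (LinearMap.det A) := by
    rw [← LinearMap.charpoly_toMatrix A β, Matrix.charpoly_fin_two,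
      ← LinearMap.trace_eq_matrix_trace T β A, LinearMap.det_toMatrix]
  have h2 := LinearMap.aeval_self_charpoly A
  rw [h1] at h2
  simp only [map_add, map_sub, map_mul, map_pow, Polynomial.aeval_X, Polynomial.aeval_C,
    Algebra.algebraMap_eq_smul_one] at h2
  rw [← h2]
  simp only [smul_mul_assoc, one_mul, sq]

omit [IsLocalRing T] in
/-- a scalar which kills the identity of a free module of rank two is zero. -/
theorem h79o_scalar_eq_zero (β : Basis (Fin 2) T V) (c : T)
    (h : c • (1 : V →ₗ[T] V) = 0) : c = 0 := by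
  have h1 : c • β 0 = 0 := by
    have := congrArg (fun f : V →ₗ[T] V => f (β 0)) h
    simpa using this
  have h2 := congrArg (fun v => β.repr v 0) h1
  simpa using h2

variable {G : Type*} [Group G]

/-- **ALG33.** The ordinary line from the inertia identity `(X)` and a unit `det (ρ s₀) - 1`. -/
theorem h79o_ordinary (β : Basis (Fin 2) T V) (ρ : G →* Module.End T V) (I D : Subgroup G)
    (hnorm : ∀ τ ∈ D, ∀ s ∈ I, τ⁻¹ * s * τ ∈ I)
    (hX : ∀ a ∈ I, ∀ b ∈ I,
      (ρ a - LinearMap.det (ρ a) • (1 : Module.End T V)) * (ρ b - 1) = 0)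
    (s₀ : G) (hs₀ : s₀ ∈ I) (hu : IsUnit (LinearMap.det (ρ s₀) - 1)) :
    ∃ L : Submodule T V, (∃ b : Basis (Fin 2) T V, L = Submodule.span T {b 0}) ∧
      (∀ σ ∈ D, ∀ v ∈ L, ρ σ v ∈ L) ∧ (∀ σ ∈ I, ∀ v : V, ρ σ v - v ∈ L) := by
  have : Module.Free T V := Module.Free.of_basis β
  have : Module.Finite T V := Module.Finite.of_basis β
  set A : V →ₗ[T] V := ρ s₀ with hA
  set ε₀ : T := LinearMap.det A with hε
  obtain ⟨u, hu'⟩ := hu
  have huε : (u : T) = ε₀ - 1 := hu'
  -- the quadratic relation
  have hq : A * A = (1 + ε₀) • A - ε₀ • (1 : V →ₗ[T] V) := by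
    have := hX s₀ hs₀ s₀ hs₀
    have e : (A - ε₀ • (1 : V →ₗ[T] V)) * (A - 1) =
        A * A - (1 + ε₀) • A + ε₀ • (1 : V →ₗ[T] V) := by
      simp only [sub_mul, mul_sub, mul_one, smul_mul_assoc, one_mul, add_smul, one_smul]
      abel
    rw [e] at this
    have h2 : A * A = A * A - (1 + ε₀) • A + ε₀ • (1 : V →ₗ[T] V) +
        ((1 + ε₀) • A - ε₀ • (1 : V →ₗ[T] V)) := by abel
    rw [h2, this, zero_add]
  -- the trace
  have htrA : LinearMap.trace T V A = 1 + ε₀ := by
    have hch := h79o_cayley β A
    rw [hq] at hch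
    have h3 : (1 + ε₀ - LinearMap.trace T V A) • A = 0 := by
      rw [sub_smul]
      rw [← hch]
      abel
    have hinv : A * ρ s₀⁻¹ = 1 := by
      rw [hA, ← map_mul, mul_inv_cancel, map_one]
    have h4 : (1 + ε₀ - LinearMap.trace T V A) • (1 : V →ₗ[T] V) = 0 := by
      rw [← hinv, ← smul_mul_assoc, h3, zero_mul]
    have := h79o_scalar_eq_zero β _ h4
    rw [sub_eq_zero] at this
    exact this.symm
  -- the idempotent
  set E : V →ₗ[T] V := ((u⁻¹ : Tˣ) : T) • (A - 1) with hE
  have hsq : (A - 1) * (A - 1) = (u : T) • (A - 1) := by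
    have e : (A - 1) * (A - 1) = A * A - (2 : T) • A + 1 := by
      simp only [sub_mul, mul_sub, mul_one, one_mul, two_smul]
      abel
    rw [e, hq, huε]
    simp only [sub_smul, add_smul, one_smul, smul_sub, two_smul]
    abel
  have hEE : E ∘ₗ E = E := by
    show E * E = E
    rw [hE, smul_mul_smul_comm, hsq, smul_smul, mul_assoc, Units.inv_mul, mul_one]
  have htr1 : LinearMap.trace T V (1 : V →ₗ[T] V) = 2 := by
    rw [LinearMap.trace_one, Module.finrank_eq_card_basis β]
    simp
  have htrE : LinearMap.trace T V E = 1 := by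
    rw [hE, map_smul, map_sub, htrA, htr1, smul_eq_mul]
    have : (1 + ε₀ - 2 : T) = u := by rw [huε]; ring
    rw [this, Units.inv_mul]
  obtain ⟨b, hb0, hb1⟩ := h79o_idem_basis β E hEE htrE
  -- the action of `A` on the adapted basis
  have hAb0' : (A - 1) (b 0) = (u : T) • b 0 := by
    have := congrArg (fun v => (u : T) • v) hb0
    simp only [hE, LinearMap.smul_apply, smul_smul, Units.mul_inv, one_smul] at this
    exact this
  have hAb1' : (A - 1) (b 1) = 0 := by
    have := congrArg (fun v => (u : T) • v) hb1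
    simp only [hE, LinearMap.smul_apply, smul_smul, Units.mul_inv, one_smul, smul_zero] at this
    exact this
  have hAb0 : A (b 0) = ε₀ • b 0 := by
    have h1 : A (b 0) = (A - 1) (b 0) + b 0 := by
      simp [LinearMap.sub_apply]
    rw [h1, hAb0', huε, sub_smul, one_smul]
    abel
  have hAb1 : A (b 1) = b 1 := by
    have h1 : A (b 1) = (A - 1) (b 1) + b 1 := by
      simp [LinearMap.sub_apply]
    rw [h1, hAb1', zero_add]
  -- the kernel of `A - ε₀`
  have hK : ∀ v : V, A v = ε₀ • v → v ∈ Submodule.span T {b 0} := by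
    intro v hv
    have hexp := h79o_expand b v
    set x := b.repr v 0
    set y := b.repr v 1
    have h1 : A v = (x * ε₀) • b 0 + y • b 1 := by
      conv_lhs => rw [hexp]
      rw [map_add, map_smul, map_smul, hAb0, hAb1, smul_smul]
    have h2 : ε₀ • v = (ε₀ * x) • b 0 + (ε₀ * y) • b 1 := by
      conv_lhs => rw [hexp]
      rw [smul_add, smul_smul, smul_smul]
    have h3 : (x * ε₀) • b 0 + y • b 1 = (ε₀ * x) • b 0 + (ε₀ * y) • b 1 := by
      rw [← h1, ← h2, hv]
    have h4 := congrArg (fun w => b.repr w 1) h3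
    simp only [map_add, map_smul, Basis.repr_self, Finsupp.add_apply, Finsupp.smul_apply,
      Finsupp.single_apply, smul_eq_mul] at h4
    have h01 : ((0 : Fin 2) = 1) = False := by simp
    simp only [h01, if_false, if_true, mul_zero, zero_add, mul_one] at h4
    have h5 : (u : T) * y = 0 := by
      rw [huε]
      linear_combination -h4
    have hy : y = 0 := by
      have := congrArg (fun t => ((u⁻¹ : Tˣ) : T) * t) h5
      simpa [← mul_assoc] using this
    rw [hexp, hy, zero_smul, add_zero]
    exact Submodule.smul_mem _ _ (Submodule.mem_span_singleton_self _)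
  refine ⟨Submodule.span T {b 0}, ⟨b, rfl⟩, ?_, ?_⟩
  · -- stability under `D`
    intro τ hτ v hv
    obtain ⟨x, rfl⟩ := Submodule.mem_span_singleton.1 hv
    rw [map_smul]
    refine Submodule.smul_mem _ _ (hK _ ?_)
    have ha' : τ⁻¹ * s₀ * τ ∈ I := hnorm τ hτ s₀ hs₀
    have hdet : LinearMap.det (ρ (τ⁻¹ * s₀ * τ)) = ε₀ := by
      have h1 : LinearMap.det (ρ τ⁻¹) * LinearMap.det (ρ τ) = 1 := by
        rw [← map_mul, ← map_mul, inv_mul_cancel, map_one, map_one]
      rw [map_mul, map_mul, map_mul, map_mul, mul_right_comm, h1, one_mul]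
    have hkey := hX (τ⁻¹ * s₀ * τ) ha' s₀ hs₀
    rw [hdet] at hkey
    have h1 : (ρ (τ⁻¹ * s₀ * τ) - ε₀ • (1 : Module.End T V)) ((A - 1) (b 0)) = 0 := by
      have := congrArg (fun f : Module.End T V => f (b 0)) hkey
      simpa using this
    rw [hAb0', map_smul] at h1
    have h2 : (ρ (τ⁻¹ * s₀ * τ) - ε₀ • (1 : Module.End T V)) (b 0) = 0 := by
      have := congrArg (fun v => ((u⁻¹ : Tˣ) : T) • v) h1
      simpa [smul_smul] using this
    have h3 : ρ (τ⁻¹ * s₀ * τ) (b 0) = ε₀ • b 0 := by
      have : (ρ (τ⁻¹ * s₀ * τ) - ε₀ • (1 : Module.End T V)) (b 0) =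
          ρ (τ⁻¹ * s₀ * τ) (b 0) - ε₀ • b 0 := by
        simp [LinearMap.sub_apply]
      rw [this, sub_eq_zero] at h2
      exact h2
    have h4 : A (ρ τ (b 0)) = ρ τ (ρ (τ⁻¹ * s₀ * τ) (b 0)) := by
      have e : ρ s₀ * ρ τ = ρ τ * ρ (τ⁻¹ * s₀ * τ) := by
        rw [← map_mul, ← map_mul]
        congr 1
        group
      exact LinearMap.congr_fun e (b 0)
    rw [h4, h3, map_smul]
  · -- inertia acts trivially on the quotient
    intro σ hσ v
    have hkey := hX s₀ hs₀ σ hσ
    have h1 : (A - ε₀ • (1 : Module.End T V)) ((ρ σ - 1) v) = 0 := by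
      have := congrArg (fun f : Module.End T V => f v) hkey
      simpa using this
    have h2 : (ρ σ - 1) v = ρ σ v - v := by simp [LinearMap.sub_apply]
    rw [h2] at h1
    refine hK _ ?_
    have : (A - ε₀ • (1 : Module.End T V)) (ρ σ v - v) =
        A (ρ σ v - v) - ε₀ • (ρ σ v - v) := by
      simp [LinearMap.sub_apply]
    rw [this, sub_eq_zero] at h1
    exact h1

end Fermat.Agent.P6
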