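import Mathlib
import Fermat.Agent.P6.H79OrdAlg
import Fermat.Agent.S36.H81Cyc
import Fermat.Prelude.Def_GaloisRep_LocalConditions
import Fermat.Prelude.Def_FLTPrelim_Ramification

/-!
# S33 (ordinary at `p`), block B1-ALG, STEP 2 wired to the Prelude (helper79)

`ρ : GaloisRepAdic A`, `p` an odd prime, `ρ.DetIsCyclotomic p`.

* `h79o_inertia_conj`  : inertia is normal in the decomposition group;
* `h79o_exists_unit`   : `(U)` there is `s₀ ∈ I_P` with `det ρ(s₀) - 1 ∈ Aˣ` (inertia moves `ζ_p` to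
  `ζ_p ^ 2`: `h81c_transitive`, helper81);
* `h79o_isOrdinaryAt`  : `(X)` for all `P` over `p`  ⟹  `ρ.IsOrdinaryAt p`;
* `h79o_hX_of_approx`  : `(X)` from its approximate versions modulo `𝔪 ^ n`, with an integer
  exponent `e` of the action on `μ_{p^n}` in place of the determinant (Krull intersection);
* `h79o_isOrdinaryAt_of_approx` : the two combined.
-/

set_option autoImplicit false

noncomputable section

namespace Fermat.Agent.P6

local notation "h79o_Qb" => AlgebraicClosure ℚ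
local notation "h79o_GQ" => (AlgebraicClosure ℚ ≃ₐ[ℚ] AlgebraicClosure ℚ)

/-- Inertia is normal in the decomposition group. -/
theorem h79o_inertia_conj (P : ValuationSubring h79o_Qb) {τ s : h79o_GQ}
    (hτ : τ ∈ P.decompositionSubgroup ℚ) (hs : s ∈ P.inertiaSubgroupIn ℚ) :
    τ⁻¹ * s * τ ∈ P.inertiaSubgroupIn ℚ := by
  obtain ⟨s', hs', rfl⟩ := Subgroup.mem_map.mp hs
  have hn : (P.inertiaSubgroup ℚ).Normal := by
    unfold ValuationSubring.inertiaSubgroup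
    infer_instance
  have h1 := hn.conj_mem s' hs' (⟨τ, hτ⟩ : P.decompositionSubgroup ℚ)⁻¹
  refine Subgroup.mem_map.mpr ⟨_, h1, ?_⟩
  simp

variable {A : Type} [CommRing A] [IsLocalRing A]

/-- `(U)`: for `p` odd and `det ρ` cyclotomic there is `s₀` in the inertia group at `P ∣ p` with
`det ρ(s₀) - 1` a unit. -/
theorem h79o_exists_unit (ρ : GaloisRepAdic A) {p : ℕ} (hp : p.Prime) (hp2 : p ≠ 2)
    (hdet : ρ.DetIsCyclotomic p) (P : ValuationSubring h79o_Qb) (hP : P.LiesOverPrime p) :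
    ∃ s₀ ∈ P.inertiaSubgroupIn ℚ, IsUnit (LinearMap.det (ρ.ρ s₀) - 1) := by
  have : NeZero (p : h79o_Qb) := ⟨by exact_mod_cast hp.ne_zero⟩
  have : NeZero p := ⟨hp.ne_zero⟩
  obtain ⟨ζ, hζ⟩ : ∃ ζ : h79o_Qb, IsPrimitiveRoot ζ p :=
    HasEnoughRootsOfUnity.exists_primitiveRoot h79o_Qb p
  have hb : ¬ p ∣ 2 := by
    intro h
    exact hp2 ((Nat.prime_dvd_prime_iff_eq hp Nat.prime_two).mp h)
  obtain ⟨σ, hσ, hσζ⟩ := Fermat.Agent.S36.h81c_transitive hζ hp hP hb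
  refine ⟨σ, hσ, ?_⟩
  have hμ : ∀ μ : h79o_Qb, μ ^ p ^ 1 = 1 → σ μ = μ ^ 2 := by
    intro μ hμ
    rw [pow_one] at hμ
    obtain ⟨i, -, rfl⟩ := hζ.eq_pow_of_pow_eq_one hμ
    rw [map_pow, hσζ, ← pow_mul, ← pow_mul, mul_comm]
  have h2 := hdet.2 1 σ 2 hμ
  have hm : LinearMap.det (ρ.ρ σ) - ((2 : ℕ) : A) ∈ IsLocalRing.maximalIdeal A := by
    obtain ⟨c, hc⟩ := Ideal.mem_span_singleton'.mp h2
    rw [← hc]
    refine Ideal.mul_mem_left _ _ ?_
    have := hdet.1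
    simpa using this
  have e : LinearMap.det (ρ.ρ σ) - 1 = 1 + (LinearMap.det (ρ.ρ σ) - ((2 : ℕ) : A)) := by
    push_cast
    ring
  rw [e]
  by_contra hnu
  have h1 : (1 : A) + (LinearMap.det (ρ.ρ σ) - ((2 : ℕ) : A)) ∈ IsLocalRing.maximalIdeal A :=
    (IsLocalRing.mem_maximalIdeal _).mpr hnu
  have h3 := Ideal.sub_mem _ h1 hm
  rw [add_sub_cancel_right] at h3
  exact (Ideal.ne_top_iff_one _).mp (IsLocalRing.maximalIdeal.isMaximal A).ne_top h3

/-- **S33, STEP 2 in Prelude form.**  For `p` odd and `det ρ` cyclotomic, the identities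
`(ρ a - det ρ a)(ρ b - 1) = 0` on inertia at every place over `p` give `ρ.IsOrdinaryAt p`. -/
theorem h79o_isOrdinaryAt (ρ : GaloisRepAdic A) {p : ℕ} (hp : p.Prime) (hp2 : p ≠ 2)
    (hdet : ρ.DetIsCyclotomic p)
    (hX : ∀ P : ValuationSubring h79o_Qb, P.LiesOverPrime p →
      ∀ a ∈ P.inertiaSubgroupIn ℚ, ∀ b ∈ P.inertiaSubgroupIn ℚ,
        (ρ.ρ a - LinearMap.det (ρ.ρ a) • (1 : Module.End A ρ.V)) * (ρ.ρ b - 1) = 0) :
    ρ.IsOrdinaryAt p := by
  intro P hP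
  obtain ⟨s₀, hs₀, hu⟩ := h79o_exists_unit ρ hp hp2 hdet P hP
  exact h79o_ordinary (Module.finBasisOfFinrankEq A ρ.V ρ.finrank_eq) ρ.ρ
    (P.inertiaSubgroupIn ℚ) (P.decompositionSubgroup ℚ)
    (fun τ hτ s hs => h79o_inertia_conj P hτ hs) (hX P hP) s₀ hs₀ hu

/-- `(X)` from its approximate versions: if for every `n` the operator
`(ρ a - e)(ρ b - 1)` maps `V` into `𝔪 ^ n V`, where `e` is an integer exponent of the action of
`a` on `μ_{p^n}`, then `(ρ a - det ρ a)(ρ b - 1) = 0`. -/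
theorem h79o_hX_of_approx [IsNoetherianRing A] (ρ : GaloisRepAdic A) {p : ℕ}
    (hdet : ρ.DetIsCyclotomic p) (a b : h79o_GQ)
    (happ : ∀ n : ℕ, ∃ e : ℕ, (∀ μ : h79o_Qb, μ ^ p ^ n = 1 → a μ = μ ^ e) ∧
      ∀ v : ρ.V, (ρ.ρ a - (e : A) • (1 : Module.End A ρ.V)) ((ρ.ρ b - 1) v) ∈
        (IsLocalRing.maximalIdeal A ^ n) • (⊤ : Submodule A ρ.V)) :
    (ρ.ρ a - LinearMap.det (ρ.ρ a) • (1 : Module.End A ρ.V)) * (ρ.ρ b - 1) = 0 := by
  apply LinearMap.ext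
  intro v
  rw [LinearMap.zero_apply]
  have hall : ∀ n : ℕ, ((ρ.ρ a - LinearMap.det (ρ.ρ a) • (1 : Module.End A ρ.V)) * (ρ.ρ b - 1)) v ∈
      (IsLocalRing.maximalIdeal A ^ n) • (⊤ : Submodule A ρ.V) := by
    intro n
    obtain ⟨e, he, hv⟩ := happ n
    have hd := hdet.2 n a e he
    have hd' : LinearMap.det (ρ.ρ a) - (e : A) ∈ IsLocalRing.maximalIdeal A ^ n := by
      obtain ⟨c, hc⟩ := Ideal.mem_span_singleton'.mp hd
      rw [← hc]
      refine Ideal.mul_mem_left _ _ ?_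
      have hpm : (p : A) ∈ IsLocalRing.maximalIdeal A := hdet.1
      have := Ideal.pow_mem_pow hpm n
      simpa using this
    have e1 : ((ρ.ρ a - LinearMap.det (ρ.ρ a) • (1 : Module.End A ρ.V)) * (ρ.ρ b - 1)) v =
        (ρ.ρ a - (e : A) • (1 : Module.End A ρ.V)) ((ρ.ρ b - 1) v) -
          (LinearMap.det (ρ.ρ a) - (e : A)) • ((ρ.ρ b - 1) v) := by
      simp only [Module.End.mul_apply, LinearMap.sub_apply, LinearMap.smul_apply,
        Module.End.one_apply, sub_smul]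
      abel
    rw [e1]
    exact Submodule.sub_mem _ (hv v) (Submodule.smul_mem_smul hd' Submodule.mem_top)
  have hK : (⨅ n : ℕ, (IsLocalRing.maximalIdeal A ^ n) • (⊤ : Submodule A ρ.V)) = ⊥ :=
    Ideal.iInf_pow_smul_eq_bot_of_isLocalRing (IsLocalRing.maximalIdeal A)
      (IsLocalRing.maximalIdeal.isMaximal A).ne_top
  have hmem : ((ρ.ρ a - LinearMap.det (ρ.ρ a) • (1 : Module.End A ρ.V)) * (ρ.ρ b - 1)) v ∈
      (⨅ n : ℕ, (IsLocalRing.maximalIdeal A ^ n) • (⊤ : Submodule A ρ.V)) :=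
    (Submodule.mem_iInf _).mpr hall
  rw [hK] at hmem
  exact (Submodule.mem_bot A).mp hmem

/-- **S33, STEP 2 from the approximate identities.** -/
theorem h79o_isOrdinaryAt_of_approx [IsNoetherianRing A] (ρ : GaloisRepAdic A) {p : ℕ}
    (hp : p.Prime) (hp2 : p ≠ 2) (hdet : ρ.DetIsCyclotomic p)
    (happ : ∀ P : ValuationSubring h79o_Qb, P.LiesOverPrime p →
      ∀ a ∈ P.inertiaSubgroupIn ℚ, ∀ b ∈ P.inertiaSubgroupIn ℚ,
        ∀ n : ℕ, ∃ e : ℕ, (∀ μ : h79o_Qb, μ ^ p ^ n = 1 → a μ = μ ^ e) ∧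
          ∀ v : ρ.V, (ρ.ρ a - (e : A) • (1 : Module.End A ρ.V)) ((ρ.ρ b - 1) v) ∈
            (IsLocalRing.maximalIdeal A ^ n) • (⊤ : Submodule A ρ.V)) :
    ρ.IsOrdinaryAt p :=
  h79o_isOrdinaryAt ρ hp hp2 hdet fun P hP a ha b hb =>
    h79o_hX_of_approx ρ hdet a b (happ P hP a ha b hb)

end Fermat.Agent.P6
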