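import Fermat.Agent.P6.H30Transfer
import Fermat.Agent.P6.H79OrdInert

/-!
# Wave 6 (S33), block B1: STEP 1 and the conditional top (helper30)

* `H30xStarAt p H hc` : **STAR** for a Hecke–Galois datum: for all `k`, all `a, b` in an inertia
  group at `p`, every exponent `e` of the action of `a` on `μ_{p^k}` and every `w` in the
  `𝔪`-part of `J₀(N)[p ^ k]`:  `(a - e)(b - 1) w = 0`.
* `h30x_approx_of_star` : STAR gives the approximate identities
  `(ρ a - e)(ρ b - 1) V ⊆ 𝔪 ^ n V` (trace transfer `h30x_transfer` applied to the combination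
  `a b - a - e b + e`).
* `h30x_isOrdinaryAt_of_star` : STAR and `det ρ` cyclotomic give `H.ρ.IsOrdinaryAt p`
  (projector lemma of helper79, `h79o_isOrdinaryAt_of_approx`).
-/

set_option autoImplicit false
set_option linter.style.haveILetI false
set_option linter.unusedSectionVars false

open ModularCurve GaloisRep

noncomputable section

namespace Fermat.Agent.P6

open Fermat.Agent.P5
open Fermat.Agent.S29 (GQ)

variable {p : ℕ} {N : ℕ} [NeZero N] {S : Finset ℕ}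
  {𝒪 : Type} [CommRing 𝒪] [IsDomain 𝒪] [IsDiscreteValuationRing 𝒪]
  [IsAdicComplete (IsLocalRing.maximalIdeal 𝒪) 𝒪]
  {θ : CuspForm.heckeAlgebra N 2 (↑S : Set ℕ) →+* IsLocalRing.ResidueField 𝒪}
  {T : Type} [CommRing T] [IsLocalRing T] [IsNoetherianRing T]
  [IsAdicComplete (IsLocalRing.maximalIdeal T) T] [Algebra 𝒪 T] [IsLocalHom (algebraMap 𝒪 T)]
  [Module.Finite 𝒪 T] [Module.Free 𝒪 T]

/-- **STAR** for a Hecke–Galois datum: the monodromy identity on the `𝔪`-part of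
`J₀(N)[p ^ k]`. -/
def H30xStarAt (p : ℕ) (H : CuspForm.HeckeGaloisRepDatum N (↑S : Set ℕ) 𝒪 θ T)
    (hc : HeckeOperatorsCommuteBar N) : Prop :=
  ∀ (k : ℕ) (P : ValuationSubring (AlgebraicClosure ℚ)), P.LiesOverPrime p →
    ∀ a ∈ P.inertiaSubgroupIn ℚ, ∀ b ∈ P.inertiaSubgroupIn ℚ, ∀ e : ℕ,
      (∀ μ : AlgebraicClosure ℚ, μ ^ p ^ k = 1 → a μ = μ ^ e) →
      ∀ w ∈ h30xMPart p H hc k,
        h30xGal N p k (a * b) w - h30xGal N p k a w - e • h30xGal N p k b w + e • w = 0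

/-- every element of `G_ℚ` acts on `μ_{p^k}` by a power. -/
theorem h30x_exists_exponent (hp : p.Prime) (k : ℕ) (a : GQ) :
    ∃ e : ℕ, ∀ μ : AlgebraicClosure ℚ, μ ^ p ^ k = 1 → a μ = μ ^ e := by
  haveI : NeZero (p ^ k) := ⟨pow_ne_zero k hp.ne_zero⟩
  haveI : NeZero ((p ^ k : ℕ) : AlgebraicClosure ℚ) :=
    ⟨by exact_mod_cast pow_ne_zero k hp.ne_zero⟩
  obtain ⟨ζ, hζ⟩ : ∃ ζ : AlgebraicClosure ℚ, IsPrimitiveRoot ζ (p ^ k) :=
    HasEnoughRootsOfUnity.exists_primitiveRoot (AlgebraicClosure ℚ) (p ^ k)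
  have h1 : (a ζ) ^ (p ^ k) = 1 := by rw [← map_pow, hζ.pow_eq_one, map_one]
  obtain ⟨e, -, he⟩ := hζ.eq_pow_of_pow_eq_one h1
  refine ⟨e, fun μ hμ => ?_⟩
  obtain ⟨i, -, rfl⟩ := hζ.eq_pow_of_pow_eq_one hμ
  rw [map_pow, ← he, ← pow_mul, ← pow_mul, mul_comm]

/-- **STEP 1**: STAR gives the approximate monodromy identities. -/
theorem h30x_approx_of_star [Finite (IsLocalRing.ResidueField 𝒪)]
    (hp : p.Prime) (hp2 : p ≠ 2) (hp𝒪 : (p : 𝒪) ∈ IsLocalRing.maximalIdeal 𝒪)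
    (hpS : p ∈ S) (hNS : ∀ q : ℕ, q.Prime → q ∣ N → q ∈ S)
    (H : CuspForm.HeckeGaloisRepDatum N (↑S : Set ℕ) 𝒪 θ T)
    (hc : HeckeOperatorsCommuteBar N) (hstar : H30xStarAt p H hc)
    (P : ValuationSubring (AlgebraicClosure ℚ)) (hP : P.LiesOverPrime p)
    (a : GQ) (ha : a ∈ P.inertiaSubgroupIn ℚ) (b : GQ) (hb : b ∈ P.inertiaSubgroupIn ℚ)
    (n : ℕ) :
    ∃ e : ℕ, (∀ μ : AlgebraicClosure ℚ, μ ^ p ^ n = 1 → a μ = μ ^ e) ∧
      ∀ v : H.ρ.V, (H.ρ.ρ a - (e : T) • (1 : Module.End T H.ρ.V)) ((H.ρ.ρ b - 1) v) ∈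
        (IsLocalRing.maximalIdeal T ^ n) • (⊤ : Submodule T H.ρ.V) := by
  haveI : Finite (IsLocalRing.ResidueField T) := h30x_finite_residueField H
  haveI : Finite (T ⧸ IsLocalRing.maximalIdeal T) := ‹Finite (IsLocalRing.ResidueField T)›
  haveI : Finite (T ⧸ IsLocalRing.maximalIdeal T ^ n) :=
    Ideal.finite_quotient_pow (IsNoetherian.noetherian _) n
  obtain ⟨k₀, hk₀⟩ := h30x_transfer hp hp2 hp𝒪 hpS hNS H hc (IsLocalRing.maximalIdeal T ^ n)
  obtain ⟨e, he⟩ := h30x_exists_exponent hp (max k₀ n) a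
  refine ⟨e, fun μ hμ => he μ ?_, fun v => ?_⟩
  · obtain ⟨j, hj⟩ : ∃ j : ℕ, max k₀ n = n + j := ⟨max k₀ n - n, by omega⟩
    rw [hj, pow_add, pow_mul, hμ, one_pow]
  · have hfam := hk₀ (max k₀ n) (le_max_left _ _) 4 ![1, -1, -(e : ℤ), (e : ℤ)]
      ![a * b, a, b, 1] (fun w hw => by
        have h := hstar (max k₀ n) P hP a ha b hb e he w hw
        rw [Fin.sum_univ_four]
        simp only [Matrix.cons_val_zero, Matrix.cons_val_one, Matrix.cons_val_two,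
          Matrix.cons_val_three, Matrix.head_cons, Matrix.tail_cons]
        rw [map_one, one_smul, neg_one_smul, neg_smul, natCast_zsmul, natCast_zsmul]
        rw [← h]
        show _ = (h30xGal N p (max k₀ n)) (a * b) w - (h30xGal N p (max k₀ n)) a w
          - e • (h30xGal N p (max k₀ n)) b w + e • w
        abel) v
    rw [Fin.sum_univ_four] at hfam
    simp only [Matrix.cons_val_zero, Matrix.cons_val_one, Matrix.cons_val_two,
      Matrix.cons_val_three, Matrix.head_cons, Matrix.tail_cons] at hfam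
    have e1 : (H.ρ.ρ a - (e : T) • (1 : Module.End T H.ρ.V)) ((H.ρ.ρ b - 1) v) =
        (1 : ℤ) • (H.ρ.ρ (a * b)) v + (-1 : ℤ) • (H.ρ.ρ a) v + (-(e : ℤ)) • (H.ρ.ρ b) v
          + (e : ℤ) • (H.ρ.ρ 1) v := by
      rw [map_mul, map_one]
      simp only [LinearMap.sub_apply, LinearMap.smul_apply, Module.End.one_apply,
        Module.End.mul_apply, map_sub, one_smul, neg_smul,
        Nat.cast_smul_eq_nsmul]
      abel
    rw [e1]
    exact hfam

/-- **the conditional top of S33**: STAR and `det ρ` cyclotomic give ordinarity. -/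
theorem h30x_isOrdinaryAt_of_star [Finite (IsLocalRing.ResidueField 𝒪)]
    (hp : p.Prime) (hp2 : p ≠ 2) (hp𝒪 : (p : 𝒪) ∈ IsLocalRing.maximalIdeal 𝒪)
    (hpS : p ∈ S) (hNS : ∀ q : ℕ, q.Prime → q ∣ N → q ∈ S)
    (H : CuspForm.HeckeGaloisRepDatum N (↑S : Set ℕ) 𝒪 θ T)
    (hc : HeckeOperatorsCommuteBar N) (hdet : H.ρ.DetIsCyclotomic p)
    (hstar : H30xStarAt p H hc) :
    H.ρ.IsOrdinaryAt p :=
  h79o_isOrdinaryAt_of_approx H.ρ hp hp2 hdet fun P hP a ha b hb n =>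
    h30x_approx_of_star hp hp2 hp𝒪 hpS hNS H hc hstar P hP a ha b hb n

end Fermat.Agent.P6
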