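import Fermat.Agent.P6.H30StarUnit

/-!
# Wave 6 (S33): STAR up to a bounded power of `p` (helper30)

* `H30xStarBdd p H hc` : there is `c` such that for all `k`, `a, b` in an inertia group at `p`,
  `e` an exponent of `a` on `μ_{p^k}` and `w` in the `𝔪`-part of `J₀(N)[p ^ k]`:
  `p ^ c • (a - e)(b - 1) w = 0`.
* `h30x_isOrdinaryAt_of_starBdd`, `h30x_s33_of_starBdd` : the bounded form suffices for S33
  (trace transfer, Krull's intersection theorem, and `T` has no `p`-torsion).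
-/

set_option autoImplicit false
set_option linter.style.haveILetI false
set_option linter.unusedSectionVars false

open ModularCurve GaloisRep

noncomputable section

namespace Fermat.Agent.P6

open Fermat.Agent.P5
open Fermat.Agent.S29 (GQ)
open Fermat.Agent.S31 (TI_evS)

/-- a regular scalar acts injectively on a free module. -/
theorem h30x_regular_of_free {R M : Type*} [CommRing R] [AddCommGroup M] [Module R M]
    [Module.Free R M] (r : R) (hr : ∀ x : R, r * x = 0 → x = 0) (m : M) (h : r • m = 0) :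
    m = 0 := by
  classical
  let b := Module.Free.chooseBasis R M
  have h1 : b.repr m = 0 := by
    ext i
    have h2 : b.repr (r • m) i = 0 := by rw [h, map_zero]; rfl
    rw [map_smul, Finsupp.smul_apply, smul_eq_mul] at h2
    exact hr _ h2
  exact (LinearEquiv.map_eq_zero_iff b.repr).mp h1

variable {p : ℕ} {N : ℕ} [NeZero N] {S : Finset ℕ}
  {𝒪 : Type} [CommRing 𝒪] [IsDomain 𝒪] [IsDiscreteValuationRing 𝒪]
  [IsAdicComplete (IsLocalRing.maximalIdeal 𝒪) 𝒪]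
  {θ : CuspForm.heckeAlgebra N 2 (↑S : Set ℕ) →+* IsLocalRing.ResidueField 𝒪}
  {T : Type} [CommRing T] [IsLocalRing T] [IsNoetherianRing T]
  [IsAdicComplete (IsLocalRing.maximalIdeal T) T] [Algebra 𝒪 T] [IsLocalHom (algebraMap 𝒪 T)]
  [Module.Finite 𝒪 T] [Module.Free 𝒪 T]

/-- **STAR up to a bounded power of `p`.** -/
def H30xStarBdd (p : ℕ) (H : CuspForm.HeckeGaloisRepDatum N (↑S : Set ℕ) 𝒪 θ T)
    (hc : HeckeOperatorsCommuteBar N) : Prop :=
  ∃ c : ℕ, ∀ (k : ℕ) (P : ValuationSubring (AlgebraicClosure ℚ)), P.LiesOverPrime p →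
    ∀ a ∈ P.inertiaSubgroupIn ℚ, ∀ b ∈ P.inertiaSubgroupIn ℚ, ∀ e : ℕ,
      (∀ μ : AlgebraicClosure ℚ, μ ^ p ^ k = 1 → a μ = μ ^ e) →
      ∀ w ∈ h30xMPart p H hc k,
        p ^ c • (h30xGal N p k (a * b) w - h30xGal N p k a w - e • h30xGal N p k b w + e • w)
          = 0

theorem h30x_starBdd_of_star (H : CuspForm.HeckeGaloisRepDatum N (↑S : Set ℕ) 𝒪 θ T)
    (hc : HeckeOperatorsCommuteBar N) (h : H30xStarAt p H hc) : H30xStarBdd p H hc :=
  ⟨0, fun k P hP a ha b hb e he w hw => by rw [h k P hP a ha b hb e he w hw, smul_zero]⟩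

/-- a power of `p` is regular on `T`. -/
theorem h30x_p_regular [CharZero 𝒪] (hp : p.Prime) (c : ℕ) (t : T)
    (h : ((p : T) ^ c) * t = 0) : t = 0 := by
  have hne : ((p : 𝒪) ^ c) ≠ 0 := pow_ne_zero c (Nat.cast_ne_zero.mpr hp.ne_zero)
  refine h30x_regular_of_free ((p : 𝒪) ^ c) (fun x hx => ?_) t ?_
  · rcases mul_eq_zero.mp hx with h1 | h1
    · exact absurd h1 hne
    · exact h1
  · rw [Algebra.smul_def, map_pow, map_natCast]
    exact h

set_option maxHeartbeats 1000000 in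
/-- **S33 from the bounded STAR.** -/
theorem h30x_isOrdinaryAt_of_starBdd [Finite (IsLocalRing.ResidueField 𝒪)] [CharZero 𝒪]
    (hp : p.Prime) (hp2 : p ≠ 2) (hp𝒪 : (p : 𝒪) ∈ IsLocalRing.maximalIdeal 𝒪)
    (hpS : p ∈ S) (hNS : ∀ q : ℕ, q.Prime → q ∣ N → q ∈ S)
    (H : CuspForm.HeckeGaloisRepDatum N (↑S : Set ℕ) 𝒪 θ T)
    (hc : HeckeOperatorsCommuteBar N) (hstar : H30xStarBdd p H hc) :
    H.ρ.IsOrdinaryAt p := by
  obtain ⟨c, hc'⟩ := hstar
  refine h79o_isOrdinaryAt H.ρ hp hp2 (h23u_detIsCyclotomic hp hp𝒪 hpS H) ?_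
  intro P hP a ha b hb
  apply LinearMap.ext
  intro v
  rw [LinearMap.zero_apply]
  -- the approximate identities
  have hall : ∀ n : ℕ, ((p : T) ^ c) •
      (((H.ρ.ρ a - LinearMap.det (H.ρ.ρ a) • (1 : Module.End T H.ρ.V)) * (H.ρ.ρ b - 1)) v) ∈
      (IsLocalRing.maximalIdeal T ^ n) • (⊤ : Submodule T H.ρ.V) := by
    intro n
    haveI : Finite (IsLocalRing.ResidueField T) := h30x_finite_residueField H
    haveI : Finite (T ⧸ IsLocalRing.maximalIdeal T) := ‹Finite (IsLocalRing.ResidueField T)›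
    haveI : Finite (T ⧸ IsLocalRing.maximalIdeal T ^ n) :=
      Ideal.finite_quotient_pow (IsNoetherian.noetherian _) n
    obtain ⟨k₀, hk₀⟩ := h30x_transfer hp hp2 hp𝒪 hpS hNS H hc (IsLocalRing.maximalIdeal T ^ n)
    obtain ⟨e, he⟩ := h30x_exists_exponent hp (max k₀ n) a
    have hfam := hk₀ (max k₀ n) (le_max_left _ _) 4
      ![((p ^ c : ℕ) : ℤ), -((p ^ c : ℕ) : ℤ), -(((p ^ c : ℕ) : ℤ) * (e : ℤ)),
        ((p ^ c : ℕ) : ℤ) * (e : ℤ)]
      ![a * b, a, b, 1] (fun w hw => by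
        have h := hc' (max k₀ n) P hP a ha b hb e he w hw
        rw [Fin.sum_univ_four]
        simp only [Matrix.cons_val_zero, Matrix.cons_val_one, Matrix.cons_val_two,
          Matrix.cons_val_three, Matrix.head_cons, Matrix.tail_cons]
        have e1 : ((p ^ c : ℕ) : ℤ) • (h30xGal N p (max k₀ n)) (a * b) w =
            p ^ c • (h30xGal N p (max k₀ n)) (a * b) w := natCast_zsmul _ _
        have e2 : (-((p ^ c : ℕ) : ℤ)) • (h30xGal N p (max k₀ n)) a w =
            -(p ^ c • (h30xGal N p (max k₀ n)) a w) := by rw [neg_smul, natCast_zsmul]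
        have e3 : (-(((p ^ c : ℕ) : ℤ) * (e : ℤ))) • (h30xGal N p (max k₀ n)) b w =
            -(p ^ c • (e • (h30xGal N p (max k₀ n)) b w)) := by
          rw [neg_smul, mul_smul, natCast_zsmul, natCast_zsmul]
        have e4 : (((p ^ c : ℕ) : ℤ) * (e : ℤ)) • (h30xGal N p (max k₀ n)) 1 w =
            p ^ c • (e • w) := by
          rw [map_one, mul_smul, natCast_zsmul, natCast_zsmul]
          rfl
        rw [e1, e2, e3, e4, ← h, smul_add, smul_sub, smul_sub]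
        abel) v
    rw [Fin.sum_univ_four] at hfam
    simp only [Matrix.cons_val_zero, Matrix.cons_val_one, Matrix.cons_val_two,
      Matrix.cons_val_three, Matrix.head_cons, Matrix.tail_cons] at hfam
    have hdet : LinearMap.det (H.ρ.ρ a) - (e : T) ∈ IsLocalRing.maximalIdeal T ^ n :=
      Ideal.pow_le_pow_right (le_max_right k₀ n)
        (h23u_det_congr' hp hp𝒪 hpS H a (max k₀ n) e he)
    have e1 : ((p : T) ^ c) •
        (((H.ρ.ρ a - LinearMap.det (H.ρ.ρ a) • (1 : Module.End T H.ρ.V)) * (H.ρ.ρ b - 1)) v) =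
        (((p ^ c : ℕ) : ℤ) • (H.ρ.ρ (a * b)) v + (-((p ^ c : ℕ) : ℤ)) • (H.ρ.ρ a) v
          + (-(((p ^ c : ℕ) : ℤ) * (e : ℤ))) • (H.ρ.ρ b) v
          + (((p ^ c : ℕ) : ℤ) * (e : ℤ)) • (H.ρ.ρ 1) v)
        - (LinearMap.det (H.ρ.ρ a) - (e : T)) • (((p : T) ^ c) • ((H.ρ.ρ b - 1) v)) := by
      have hab : H.ρ.ρ (a * b) v = H.ρ.ρ a (H.ρ.ρ b v) := by rw [map_mul]; rfl
      have h1v : H.ρ.ρ 1 v = v := by rw [map_one]; rfl
      rw [hab, h1v]
      simp only [Module.End.mul_apply, LinearMap.sub_apply, LinearMap.smul_apply,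
        Module.End.one_apply, map_sub]
      simp only [← Int.cast_smul_eq_zsmul T]
      push_cast
      module
    rw [e1]
    exact Submodule.sub_mem _ hfam (Submodule.smul_mem_smul hdet Submodule.mem_top)
  have hK : (⨅ n : ℕ, (IsLocalRing.maximalIdeal T ^ n) • (⊤ : Submodule T H.ρ.V)) = ⊥ :=
    Ideal.iInf_pow_smul_eq_bot_of_isLocalRing (IsLocalRing.maximalIdeal T)
      (IsLocalRing.maximalIdeal.isMaximal T).ne_top
  have hmem : ((p : T) ^ c) •
      (((H.ρ.ρ a - LinearMap.det (H.ρ.ρ a) • (1 : Module.End T H.ρ.V)) * (H.ρ.ρ b - 1)) v) ∈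
      (⨅ n : ℕ, (IsLocalRing.maximalIdeal T ^ n) • (⊤ : Submodule T H.ρ.V)) :=
    (Submodule.mem_iInf _).mpr hall
  rw [hK] at hmem
  exact h30x_regular_of_free ((p : T) ^ c) (fun t ht => h30x_p_regular (𝒪 := 𝒪) hp c t ht) _
    ((Submodule.mem_bot T).mp hmem)

/-- **S33 from the bounded STAR** (hypotheses of the frozen statement, except `hres`). -/
theorem h30x_s33_of_starBdd [Finite (IsLocalRing.ResidueField 𝒪)] [CharZero 𝒪]
    (hp : p.Prime) (hp2 : p ≠ 2) (hp𝒪 : (p : 𝒪) ∈ IsLocalRing.maximalIdeal 𝒪)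
    (hN : p ∣ N ∧ ¬ p ^ 2 ∣ N) (hNS : ∀ q : ℕ, q.Prime → q ∣ N → q ∈ S)
    (H : CuspForm.HeckeGaloisRepDatum N (↑S : Set ℕ) 𝒪 θ T)
    (hstar : H30xStarBdd p H (Fermat.Agent.S30.geometricInputsFull.1 N).1) :
    H.ρ.IsOrdinaryAt p :=
  h30x_isOrdinaryAt_of_starBdd hp hp2 hp𝒪 (hNS p hp hN.1) hNS H _ hstar

end Fermat.Agent.P6
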