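import Fermat.Agent.P6.H30Star
import Fermat.Agent.P6.H23DetCyc

/-!
# Wave 6 (S33): STAR from its "approximate idempotent" form (helper30)

* `h30x_mPart_le_range` : for a Hecke element `u` with unit image in `T`, every point of the
  `𝔪`-part of `J₀(N)[p ^ k]` is of the form `Θ(u) w'`.
* `h30x_kills_mPart_of_unit` : an endomorphism of `J₀(N)[p ^ k]` which kills `Θ(u) J₀(N)[p ^ k]`
  for some `u` with unit image in `T` kills the `𝔪`-part.
* `h30x_starAt_of_unit` : STAR from the form "for every `k`, `a`, `b`, `e` there is `u` with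
  unit image such that `(a - e)(b - 1) Θ(u) = 0` on `J₀(N)[p ^ k]`".
-/

set_option autoImplicit false
set_option linter.style.haveILetI false
set_option linter.unusedSectionVars false

open ModularCurve GaloisRep

noncomputable section

namespace Fermat.Agent.P6

open Fermat.Agent.P5
open Fermat.Agent.S29 (GQ)
open Fermat.Agent.S31 (TI_evS)

variable {p : ℕ} {N : ℕ} [NeZero N] {S : Finset ℕ}
  {𝒪 : Type} [CommRing 𝒪] [IsDomain 𝒪] [IsDiscreteValuationRing 𝒪]
  [IsAdicComplete (IsLocalRing.maximalIdeal 𝒪) 𝒪]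
  {θ : CuspForm.heckeAlgebra N 2 (↑S : Set ℕ) →+* IsLocalRing.ResidueField 𝒪}
  {T : Type} [CommRing T] [IsLocalRing T] [IsNoetherianRing T]
  [IsAdicComplete (IsLocalRing.maximalIdeal T) T] [Algebra 𝒪 T] [IsLocalHom (algebraMap 𝒪 T)]
  [Module.Finite 𝒪 T] [Module.Free 𝒪 T]

/-- a unit of a local ring with finite residue field has a power congruent to `1`. -/
theorem h30x_exists_pow_sub_one_mem [Finite (IsLocalRing.ResidueField T)] {x : T}
    (hx : x ∉ IsLocalRing.maximalIdeal T) :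
    ∃ j : ℕ, 0 < j ∧ x ^ j - 1 ∈ IsLocalRing.maximalIdeal T := by
  have hu : IsUnit x := by
    by_contra h
    exact hx ((IsLocalRing.mem_maximalIdeal _).mpr h)
  have hu' : IsUnit (IsLocalRing.residue T x) := hu.map _
  obtain ⟨y, hy⟩ := hu'
  obtain ⟨j, hj, hyj⟩ := (isOfFinOrder_of_finite y).exists_pow_eq_one
  refine ⟨j, hj, ?_⟩
  rw [← IsLocalRing.residue_eq_zero_iff, map_sub, map_pow, map_one, ← hy,
    ← Units.val_pow_eq_pow_val, hyj, Units.val_one, sub_self]

/-- for `u` with unit image in `T`, every point of the `𝔪`-part is in the image of `Θ(u)`. -/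
theorem h30x_mPart_le_range [Finite (IsLocalRing.ResidueField 𝒪)]
    (H : CuspForm.HeckeGaloisRepDatum N (↑S : Set ℕ) 𝒪 θ T)
    (hc : HeckeOperatorsCommuteBar N) (k : ℕ) (u : MvPolynomial Nat.Primes ℤ)
    (hu : H.π (TI_evS N S u) ∉ IsLocalRing.maximalIdeal T)
    (w : h30xTors N p k) (hw : w ∈ h30xMPart p H hc k) :
    ∃ w' : h30xTors N p k, h30xHecke N p k S hc u w' = w := by
  haveI : Finite (IsLocalRing.ResidueField T) := h30x_finite_residueField H
  obtain ⟨j, hj, hmem⟩ := h30x_exists_pow_sub_one_mem hu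
  have hmem' : H.π (TI_evS N S (1 - u ^ j)) ∈ IsLocalRing.maximalIdeal T := by
    have e : H.π (TI_evS N S (1 - u ^ j)) = -(H.π (TI_evS N S u) ^ j - 1) := by
      rw [map_sub, map_sub, map_one, map_one, map_pow, map_pow]
      ring
    rw [e]
    exact neg_mem hmem
  obtain ⟨r, hr⟩ := hw (1 - u ^ j) hmem'
  -- `1 - (1 - u ^ j) ^ r = u * q`
  obtain ⟨q, hq⟩ : ∃ q : MvPolynomial Nat.Primes ℤ, 1 - (1 - u ^ j) ^ r = u * q := by
    have h1 : (1 - (1 - u ^ j)) ∣ 1 - (1 - u ^ j) ^ r := by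
      have := sub_dvd_pow_sub_pow (1 : MvPolynomial Nat.Primes ℤ) (1 - u ^ j) r
      rwa [one_pow] at this
    have h2 : u ∣ 1 - (1 - u ^ j) := by
      rw [sub_sub_cancel]
      exact dvd_pow_self u hj.ne'
    exact h2.trans h1
  refine ⟨h30xHecke N p k S hc q w, ?_⟩
  have e1 : h30xHecke N p k S hc u (h30xHecke N p k S hc q w) =
      h30xHecke N p k S hc (1 - (1 - u ^ j) ^ r) w := by
    rw [hq, map_mul]
    rfl
  rw [e1, map_sub, map_one, map_pow]
  show w - (h30xHecke N p k S hc (1 - u ^ j) ^ r) w = w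
  rw [hr, sub_zero]

/-- an endomorphism killing `Θ(u) J₀(N)[p ^ k]`, `u` with unit image, kills the `𝔪`-part. -/
theorem h30x_kills_mPart_of_unit [Finite (IsLocalRing.ResidueField 𝒪)]
    (H : CuspForm.HeckeGaloisRepDatum N (↑S : Set ℕ) 𝒪 θ T)
    (hc : HeckeOperatorsCommuteBar N) (k : ℕ) (u : MvPolynomial Nat.Primes ℤ)
    (hu : H.π (TI_evS N S u) ∉ IsLocalRing.maximalIdeal T)
    (φ : h30xTors N p k → h30xTors N p k)
    (hφ : ∀ x : h30xTors N p k, φ (h30xHecke N p k S hc u x) = 0)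
    (w : h30xTors N p k) (hw : w ∈ h30xMPart p H hc k) : φ w = 0 := by
  obtain ⟨w', rfl⟩ := h30x_mPart_le_range H hc k u hu w hw
  exact hφ w'

/-- **STAR from its approximate idempotent form.** -/
theorem h30x_starAt_of_unit [Finite (IsLocalRing.ResidueField 𝒪)]
    (H : CuspForm.HeckeGaloisRepDatum N (↑S : Set ℕ) 𝒪 θ T)
    (hc : HeckeOperatorsCommuteBar N)
    (h : ∀ (k : ℕ) (P : ValuationSubring (AlgebraicClosure ℚ)), P.LiesOverPrime p →
      ∀ a ∈ P.inertiaSubgroupIn ℚ, ∀ b ∈ P.inertiaSubgroupIn ℚ, ∀ e : ℕ,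
        (∀ μ : AlgebraicClosure ℚ, μ ^ p ^ k = 1 → a μ = μ ^ e) →
        ∃ u : MvPolynomial Nat.Primes ℤ, H.π (TI_evS N S u) ∉ IsLocalRing.maximalIdeal T ∧
          ∀ x : h30xTors N p k,
            h30xGal N p k (a * b) (h30xHecke N p k S hc u x)
              - h30xGal N p k a (h30xHecke N p k S hc u x)
              - e • h30xGal N p k b (h30xHecke N p k S hc u x)
              + e • (h30xHecke N p k S hc u x) = 0) :
    H30xStarAt p H hc := by
  intro k P hP a ha b hb e he w hw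
  obtain ⟨u, hu, hx⟩ := h k P hP a ha b hb e he
  exact h30x_kills_mPart_of_unit H hc k u hu
    (fun y => h30xGal N p k (a * b) y - h30xGal N p k a y - e • h30xGal N p k b y + e • y)
    hx w hw

/-- **S33 from STAR** (the exact hypotheses of the frozen statement S33, except `hres`, which is
only needed to prove STAR). -/
theorem h30x_s33_of_star [Finite (IsLocalRing.ResidueField 𝒪)]
    (hp : p.Prime) (hp2 : p ≠ 2) (hp𝒪 : (p : 𝒪) ∈ IsLocalRing.maximalIdeal 𝒪)
    (hN : p ∣ N ∧ ¬ p ^ 2 ∣ N) (hNS : ∀ q : ℕ, q.Prime → q ∣ N → q ∈ S)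
    (H : CuspForm.HeckeGaloisRepDatum N (↑S : Set ℕ) 𝒪 θ T)
    (hstar : H30xStarAt p H (Fermat.Agent.S30.geometricInputsFull.1 N).1) :
    H.ρ.IsOrdinaryAt p :=
  h30x_isOrdinaryAt_of_star hp hp2 hp𝒪 (hNS p hp hN.1) hNS H _
    (h23u_detIsCyclotomic hp hp𝒪 (hNS p hp hN.1) H) hstar

end Fermat.Agent.P6
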