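import Fermat.Agent.P5.H30LatFinal

/-!
# Wave 6 (S33), block B1: the trace transfer from the `𝔪`-part of `J₀(N)[p ^ k]` (helper30)

For a Hecke–Galois datum `(T, ρ)` of level `N` away from `S` (`p ∈ S`, the primes of `N` in `S`,
`p` odd; `p` may divide `N`) and an ideal `I` of finite index:

* `h30xMPart p H hc k` : the `𝔪`-primary part of `J₀(N)[p ^ k]` for the Hecke action
  `h30xHecke N p k S hc` (polynomials in the `T_ℓ`, `ℓ ∉ S`) and the maximal ideal of `T`: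
  the points killed by a power of every `u` with `π u ∈ 𝔪_T`;
* `h30x_transfer` : there is `k₀` such that for all `k ≥ k₀`, every integer combination of
  elements of `G_ℚ` which kills `h30xMPart p H hc k` maps `V` into `I V`.

Same proof as the lattice comparison `h30x_lc_of` (localisation `h23x_loc`, key lemma
`h80k5_key`, Chebotarev approximation `h30x_cheb`, global key `h23x_gkey`).
-/

set_option autoImplicit false
set_option linter.style.haveILetI false
set_option linter.unusedSectionVars false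

open ModularCurve GaloisRep

noncomputable section

namespace Fermat.Agent.P6

open Fermat.Agent.P5
open Fermat.Agent.S29 (GQ)
open Fermat.Agent.S31 (TI_evS tpjGal tpjHecke)

section MPart

variable {N : ℕ} [NeZero N] {S : Finset ℕ}
  {𝒪 : Type} [CommRing 𝒪] [IsDomain 𝒪] [IsDiscreteValuationRing 𝒪]
  [IsAdicComplete (IsLocalRing.maximalIdeal 𝒪) 𝒪]
  {θ : CuspForm.heckeAlgebra N 2 (↑S : Set ℕ) →+* IsLocalRing.ResidueField 𝒪}
  {T : Type} [CommRing T] [IsLocalRing T] [IsNoetherianRing T]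
  [IsAdicComplete (IsLocalRing.maximalIdeal T) T] [Algebra 𝒪 T] [IsLocalHom (algebraMap 𝒪 T)]
  [Module.Finite 𝒪 T] [Module.Free 𝒪 T]

/-- the `𝔪`-primary part of `J₀(N)[p ^ k]`. -/
def h30xMPart (p : ℕ) (H : CuspForm.HeckeGaloisRepDatum N (↑S : Set ℕ) 𝒪 θ T)
    (hc : HeckeOperatorsCommuteBar N) (k : ℕ) : AddSubgroup (h30xTors N p k) where
  carrier := {w | ∀ u : MvPolynomial Nat.Primes ℤ,
    H.π (TI_evS N S u) ∈ IsLocalRing.maximalIdeal T →
      ∃ r : ℕ, (h30xHecke N p k S hc u ^ r) w = 0}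
  zero_mem' := fun u _ => ⟨0, map_zero _⟩
  add_mem' := by
    intro a b ha hb u hu
    obtain ⟨r, hr⟩ := ha u hu
    obtain ⟨s, hs⟩ := hb u hu
    refine ⟨r + s, ?_⟩
    rw [map_add]
    have e1 : (h30xHecke N p k S hc u ^ (r + s)) a = 0 := by
      rw [pow_add, (Commute.pow_pow (Commute.refl _) r s).eq]
      show (h30xHecke N p k S hc u ^ s) ((h30xHecke N p k S hc u ^ r) a) = 0
      rw [hr, map_zero]
    have e2 : (h30xHecke N p k S hc u ^ (r + s)) b = 0 := by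
      rw [pow_add]
      show (h30xHecke N p k S hc u ^ r) ((h30xHecke N p k S hc u ^ s) b) = 0
      rw [hs, map_zero]
    rw [e1, e2, add_zero]
  neg_mem' := by
    intro a ha u hu
    obtain ⟨r, hr⟩ := ha u hu
    exact ⟨r, by rw [map_neg, hr, neg_zero]⟩

theorem h30x_mem_mPart (p : ℕ) (H : CuspForm.HeckeGaloisRepDatum N (↑S : Set ℕ) 𝒪 θ T)
    (hc : HeckeOperatorsCommuteBar N) (k : ℕ) (w : h30xTors N p k) :
    w ∈ h30xMPart p H hc k ↔ ∀ u : MvPolynomial Nat.Primes ℤ,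
      H.π (TI_evS N S u) ∈ IsLocalRing.maximalIdeal T →
        ∃ r : ℕ, (h30xHecke N p k S hc u ^ r) w = 0 := Iff.rfl

end MPart

section Transfer

variable {p : ℕ} {N : ℕ} [NeZero N] {S : Finset ℕ}
  {𝒪 : Type} [CommRing 𝒪] [IsDomain 𝒪] [IsDiscreteValuationRing 𝒪]
  [IsAdicComplete (IsLocalRing.maximalIdeal 𝒪) 𝒪]
  {θ : CuspForm.heckeAlgebra N 2 (↑S : Set ℕ) →+* IsLocalRing.ResidueField 𝒪}
  {T : Type} [CommRing T] [IsLocalRing T] [IsNoetherianRing T]
  [IsAdicComplete (IsLocalRing.maximalIdeal T) T] [Algebra 𝒪 T] [IsLocalHom (algebraMap 𝒪 T)]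
  [Module.Finite 𝒪 T] [Module.Free 𝒪 T]

set_option maxHeartbeats 4000000 in
/-- **the trace transfer**: for `k` large, an integer combination of elements of `G_ℚ` killing
the `𝔪`-part of `J₀(N)[p ^ k]` maps `V` into `I V`. -/
theorem h30x_transfer [Finite (IsLocalRing.ResidueField 𝒪)]
    (hp : p.Prime) (hp2 : p ≠ 2) (hp𝒪 : (p : 𝒪) ∈ IsLocalRing.maximalIdeal 𝒪)
    (hpS : p ∈ S) (hNS : ∀ q : ℕ, q.Prime → q ∣ N → q ∈ S)
    (H : CuspForm.HeckeGaloisRepDatum N (↑S : Set ℕ) 𝒪 θ T)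
    (hc : HeckeOperatorsCommuteBar N) (I : Ideal T) [Finite (T ⧸ I)] :
    ∃ k₀ : ℕ, ∀ k : ℕ, k₀ ≤ k → ∀ (m : ℕ) (nn : Fin m → ℤ) (g : Fin m → GQ),
      (∀ w ∈ h30xMPart p H hc k, ∑ i, nn i • h30xGal N p k (g i) w = 0) →
      ∀ v : H.ρ.V, ∑ i, nn i • H.ρ.ρ (g i) v ∈ I • (⊤ : Submodule T H.ρ.V) := by
  have hHG := Fermat.Agent.S30.geometricInputsFull.1 N
  -- `p` is not a unit of `T`, `2` is
  have hpT : (p : T) ∈ IsLocalRing.maximalIdeal T := by
    have h1 : (p : T) = algebraMap 𝒪 T (p : 𝒪) := (map_natCast (algebraMap 𝒪 T) p).symm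
    rw [h1, IsLocalRing.mem_maximalIdeal, mem_nonunits_iff]
    intro hu
    exact (IsLocalRing.mem_maximalIdeal _).mp hp𝒪 (isUnit_of_map_unit (algebraMap 𝒪 T) _ hu)
  have h2T : (2 : T) ∉ IsLocalRing.maximalIdeal T := by
    have hnd : ¬ p ∣ 2 := fun h => hp2 ((Nat.prime_dvd_prime_iff_eq hp Nat.prime_two).mp h)
    have hu : IsUnit ((2 : ℕ) : T) := Fermat.Agent.S31.TI_isUnit_natCast hp hpT hnd
    rw [Nat.cast_ofNat] at hu
    intro hmem
    exact (IsLocalRing.mem_maximalIdeal _).mp hmem hu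
  -- the exponents
  obtain ⟨n₀, hn₀⟩ := h30x_pow_le I
  obtain ⟨c, hgk⟩ := h23x_gkey hp hp𝒪 hpS hNS H hc
  refine ⟨c + n₀, fun k hk m nn g hw => ?_⟩
  obtain ⟨n, rfl⟩ : ∃ n : ℕ, k = c + n := ⟨k - c, by omega⟩
  have hn : IsLocalRing.maximalIdeal T ^ n ≤ I :=
    (Ideal.pow_le_pow_right (by omega)).trans hn₀
  have hX := h30x_cheb hp hp𝒪 hpS hNS H hc (c + n) n
  obtain ⟨τ, δ, h1, h2, h3, h4, h5⟩ := hX
  haveI hfinW : Finite (h30xTors N p (c + n)) := h30x_finite_tors N p (c + n) hp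
  haveI : Finite (IsLocalRing.ResidueField T) := h30x_finite_residueField H
  -- notation
  let Θ₀ : MvPolynomial Nat.Primes ℤ →+* AddMonoid.End (h30xTors N p (c + n)) :=
    h30xHecke N p (c + n) S hc
  let ρ₀ : GQ →* AddMonoid.End (h30xTors N p (c + n)) := h30xGal N p (c + n)
  let π' : MvPolynomial Nat.Primes ℤ →+* T :=
    H.π.comp (TI_evS N S : MvPolynomial Nat.Primes ℤ →+* CuspForm.heckeAlgebra N 2 (↑S : Set ℕ))
  have hcomm₀ : ∀ (a : MvPolynomial Nat.Primes ℤ) (g : GQ), Commute (Θ₀ a) (ρ₀ g) := by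
    intro a g
    exact (Fermat.Agent.S31.tpj_commute N hHG (h30xKap S a) g).map (h30xResT N p (c + n))
  -- localisation
  obtain ⟨W, hW1, hW2, hW3⟩ := h23x_loc (h30xTors N p (c + n)) (MvPolynomial Nat.Primes ℤ) Θ₀ T
    π' I (fun Q hQ => hn (hgk n Q hQ))
  have hWG : ∀ g : GQ, ∀ w ∈ W, ρ₀ g w ∈ W := fun g =>
    hW1 (ρ₀ g) (fun a => hcomm₀ a g)
  have hWΘ : ∀ a : MvPolynomial Nat.Primes ℤ, ∀ w ∈ W, Θ₀ a w ∈ W := fun a =>
    hW1 (Θ₀ a) (fun b => by
      show Θ₀ b * Θ₀ a = Θ₀ a * Θ₀ b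
      rw [← map_mul, ← map_mul, mul_comm])
  let ρW : GQ →* AddMonoid.End W := h30xResG W ρ₀ hWG
  let Θ : MvPolynomial Nat.Primes ℤ →+* AddMonoid.End W := h30xResR W Θ₀ hWΘ
  -- the hypotheses of the key lemma
  have hcomm : ∀ (a : MvPolynomial Nat.Primes ℤ) (g : GQ), Commute (Θ a) (ρW g) := by
    intro a g
    show Θ a * ρW g = ρW g * Θ a
    refine AddMonoidHom.ext fun w => Subtype.ext ?_
    exact congrArg (fun φ : AddMonoid.End (h30xTors N p (c + n)) => φ (w : h30xTors N p (c + n)))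
      (hcomm₀ a g).eq
  have hrel : ∀ g : GQ, ρW g + Θ (δ g) * ρW g⁻¹ = Θ (τ g) := by
    intro g
    refine AddMonoidHom.ext fun w => Subtype.ext ?_
    exact congrArg (fun φ : AddMonoid.End (h30xTors N p (c + n)) => φ (w : h30xTors N p (c + n)))
      (h1 g)
  have hmul : ∀ g h : GQ, Θ (δ (g * h)) = Θ (δ g) * Θ (δ h) := by
    intro g h
    refine AddMonoidHom.ext fun w => Subtype.ext ?_
    exact congrArg (fun φ : AddMonoid.End (h30xTors N p (c + n)) => φ (w : h30xTors N p (c + n)))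
      (h2 g h)
  have hone : Θ (δ 1) = 1 := by
    refine AddMonoidHom.ext fun w => Subtype.ext ?_
    exact congrArg (fun φ : AddMonoid.End (h30xTors N p (c + n)) => φ (w : h30xTors N p (c + n)))
      h3
  have htr : ∀ g : GQ, LinearMap.trace T H.ρ.V (H.ρ.ρ g) - π' (τ g) ∈ I := fun g => hn (h4 g)
  have hdet : ∀ g : GQ, LinearMap.det (H.ρ.ρ g) - π' (δ g) ∈ I := fun g => hn (h5 g)
  have hspan : Submodule.span T (Set.range H.ρ.ρ) = ⊤ :=
    Fermat.Agent.S31.rig_span_range_eq_top H.ρ H.residual_absIrr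
  have hkeyW : ∀ Q : MvPolynomial Nat.Primes ℤ, Θ Q = 0 → π' Q ∈ I := by
    intro Q hQ
    refine hW2 Q (fun w hw => ?_)
    have := congrArg (fun φ : AddMonoid.End W => ((φ ⟨w, hw⟩ : W) : h30xTors N p (c + n))) hQ
    exact this
  have hinj : ∀ u : MvPolynomial Nat.Primes ℤ, π' u ∉ IsLocalRing.maximalIdeal T →
      Function.Injective (Θ u) := by
    intro u hu
    rw [injective_iff_map_eq_zero]
    intro w hw
    apply Subtype.ext
    refine hW3 u hu (w : h30xTors N p (c + n)) w.2 ?_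
    exact congrArg (fun z : W => (z : h30xTors N p (c + n))) hw
  have hkey := h80k5_key GQ W ρW (MvPolynomial Nat.Primes ℤ) Θ T π' I H.ρ.V H.ρ.ρ τ δ
    H.ρ.finrank_eq h2T hcomm hrel hmul hone htr hdet hspan hkeyW hinj
  -- `W` lies in the `𝔪`-part
  have hsub : ∀ w ∈ W, w ∈ h30xMPart p H hc (c + n) := by
    intro w hw u hu
    have hninj : ¬ Function.Injective
        (fun i : ℕ => (⇑(Θ₀ u ^ i) : h30xTors N p (c + n) → h30xTors N p (c + n))) :=
      not_injective_infinite_finite _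
    have hex : ∃ a b : ℕ, a < b ∧
        (⇑(Θ₀ u ^ a) : h30xTors N p (c + n) → h30xTors N p (c + n)) = ⇑(Θ₀ u ^ b) := by
      by_contra hcon
      refine hninj fun a b hab => ?_
      by_contra hne
      rcases Nat.lt_or_gt_of_ne hne with h | h
      · exact hcon ⟨a, b, h, hab⟩
      · exact hcon ⟨b, a, h, hab.symm⟩
    obtain ⟨a, b, hlt, hab⟩ := hex
    refine ⟨a, ?_⟩
    -- `x = u ^ a w` is killed by `1 - u ^ (b - a)`
    have hxW : (Θ₀ u ^ a) w ∈ W := by
      rw [← map_pow]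
      exact hWΘ _ w hw
    have hunit : π' (1 - u ^ (b - a)) ∉ IsLocalRing.maximalIdeal T := by
      intro hmem
      have h1 : π' u ^ (b - a) ∈ IsLocalRing.maximalIdeal T :=
        Ideal.pow_mem_of_mem _ hu _ (Nat.sub_pos_of_lt hlt)
      have h2 : (1 : T) ∈ IsLocalRing.maximalIdeal T := by
        have e : (1 : T) = π' (1 - u ^ (b - a)) + π' u ^ (b - a) := by
          rw [map_sub, map_one, map_pow]
          ring
        rw [e]
        exact Ideal.add_mem _ hmem h1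
      exact (Ideal.ne_top_iff_one _).mp (IsLocalRing.maximalIdeal.isMaximal T).ne_top h2
    refine hW3 (1 - u ^ (b - a)) hunit _ hxW ?_
    have e : Θ₀ (1 - u ^ (b - a)) ((Θ₀ u ^ a) w) = (Θ₀ u ^ a) w - (Θ₀ u ^ b) w := by
      rw [map_sub, map_one, map_pow]
      show (Θ₀ u ^ a) w - (Θ₀ u ^ (b - a) * Θ₀ u ^ a) w = _
      rw [← pow_add, Nat.sub_add_cancel hlt.le]
    rw [e, sub_eq_zero]
    exact congrFun hab w
  -- conclusion
  refine hkey m nn g (fun w => ?_)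
  apply W.subtype_injective
  rw [map_sum, map_zero]
  simp only [map_zsmul]
  exact hw (w : h30xTors N p (c + n)) (hsub _ w.2)

end Transfer

end Fermat.Agent.P6
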