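import Fermat.Agent.P5.H97Order
import Fermat.Prelude.Def_FLTPrelim_Ramification

/-!
# Wave 6 (S33), block B3 FLAT-ORD (helper39): frozen statement

`H39FlatOrd` : **the connected part of an ordinary flat module is of multiplicative type.**

`M` a `G_ℚ`-module killed by `p ^ k` (`p` odd) which is flat at `p` in the sense of the Prelude
(`h97c_Flat`, the conclusion of S19 / closed under sub-quotients and products by the landed
`h97c_flat_sub`, `h97c_flat_quot`, `h97c_flat_prod`); `P` a place over `p`.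

* ORDINARITY (hypothesis, elementwise): for every `σ` in the inertia group of `P` and every
  `a : ℕ` with `σ ζ = ζ ^ a` on `μ_p`, the endomorphism `(σ - 1) (σ - a)` of `M` is nilpotent
  (i.e. the eigenvalues of inertia on `M` are `1` and the cyclotomic character only; this is what
  the Eichler–Shimura relation `σ² - T σ + D = 0` gives on the `𝔪`-part when
  `T ≡ 1 + a`, `D ≡ a` modulo `𝔪`).
* CONCLUSION (`STAR` for `M`): `(s' - a) (s - 1) = 0` on `M` for all `s, s'` in the inertia group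
  of `P` and every `a : ℕ` with `s' ζ = ζ ^ a` on `μ_{p ^ k}`.

No statement here is assumed: this file contains only the definition of the `Prop`.
-/

set_option autoImplicit false

namespace Fermat.Agent.P6

/-- **B3 FLAT-ORD** (frozen). -/
def H39FlatOrd : Prop :=
  ∀ (p : ℕ), p.Prime → p ≠ 2 → ∀ (k : ℕ) (M : Type) [AddCommGroup M]
    (ρ : (AlgebraicClosure ℚ ≃ₐ[ℚ] AlgebraicClosure ℚ) →* AddMonoid.End M),
    (∀ x : M, p ^ k • x = 0) →
    Fermat.Agent.P5.h97c_Flat p M (fun σ x => ρ σ x) →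
    ∀ P : ValuationSubring (AlgebraicClosure ℚ), P.LiesOverPrime p →
      (∀ σ ∈ P.inertiaSubgroupIn ℚ, ∀ a : ℕ,
        (∀ ζ : AlgebraicClosure ℚ, ζ ^ p = 1 → σ ζ = ζ ^ a) →
        IsNilpotent ((ρ σ - 1) * (ρ σ - (a : AddMonoid.End M)))) →
      ∀ s ∈ P.inertiaSubgroupIn ℚ, ∀ s' ∈ P.inertiaSubgroupIn ℚ, ∀ a : ℕ,
        (∀ ζ : AlgebraicClosure ℚ, ζ ^ p ^ k = 1 → s' ζ = ζ ^ a) →
        (ρ s' - (a : AddMonoid.End M)) * (ρ s - 1) = 0

end Fermat.Agent.P6
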