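import Mathlib

/-!
# Wave 6 (S33), bridge B3-ORD2CHAIN (helper48): elementwise ORD ⟹ chain of ordinary type

Mathlib only.  `D` a group acting additively on a finite abelian group `X` killed by `p ^ k`,
`I ≤ D` a normal subgroup ("inertia"), `Cyc : D → ℕ → Prop` a "cyclotomic exponent" relation
(`Cyc s e` : `s` acts on the `p`-power roots of unity by `e`-th powers).

* `h48cQuad act s c x = (s - 1)(s - c) x`, `h48cMono act a b e x = (a - e)(b - 1) x`
  (the same expressions as `h36oQuad`, `h36oMono` of `P6/H36OldIface.lean`).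
* **ORD** (elementwise): for every `s ∈ I` with `Cyc s e` the map `(s - 1)(s - e)` is nilpotent.
* `h48c_key` : a nonzero module with ORD has a nonzero point killed by all `(a - e)(b - 1)`.
* `h48c_chain` : ORD ⟹ there is a `D`-stable chain `0 = F 0 ≤ F 1 ≤ … ≤ F n = X` with
  `(a - e)(b - 1) F (i+1) ≤ F i` for `a, b ∈ I`, `Cyc a e`: the hypothesis of the
  devissage `H97fLocal` of `P6/H97DevIface.lean`.

Proof of the key lemma (on `V = X[p]`): `I₁ = {s | Cyc s e, e ≡ 1 mod p}` acts unipotently, so its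
image is a finite `p`-group and has a nonzero fixed point; on the fixed points `V₁` the action of
`I` is commutative, `s ^ p = s`, and the Frobenius gives `(s - 1)(s - e) = 0`; with one `s₀` of
exponent `c₀ ≢ 1`, `V₁ = ker (s₀ - 1) ⊕ ker (s₀ - c₀)` where `I` acts trivially on the first and
by the exponent on the second summand.
-/

set_option autoImplicit false
set_option linter.style.haveILetI false
set_option linter.unusedSectionVars false

namespace Fermat.Agent.P6

section Defs

variable {Γ : Type*} {X : Type*} [AddCommGroup X]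

/-- `(s - 1)(s - c) x`. -/
def h48cQuad (act : Γ → X → X) (s : Γ) (c : ℕ) (x : X) : X :=
  act s (act s x - c • x) - (act s x - c • x)

/-- `(a - e)(b - 1) x`. -/
def h48cMono (act : Γ → X → X) (a b : Γ) (e : ℕ) (x : X) : X :=
  act a (act b x - x) - e • (act b x - x)

end Defs

/-- `act` is an action of the group `G` on the additive group `M` by additive maps. -/
structure H48cAct {G : Type*} [Group G] {M : Type*} [AddCommGroup M] (act : G → M → M) :
    Prop where
  one : ∀ x, act 1 x = x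
  mul : ∀ σ τ x, act (σ * τ) x = act σ (act τ x)
  add : ∀ σ x y, act σ (x + y) = act σ x + act σ y

/-- the axioms of a cyclotomic exponent relation modulo `p`. -/
structure H48cCyc {Γ : Type*} [Group Γ] (p : ℕ) (Cyc : Γ → ℕ → Prop) : Prop where
  ex : ∀ s, ∃ e, Cyc s e
  one : Cyc 1 1
  mul : ∀ s t e f, Cyc s e → Cyc t f → Cyc (s * t) (e * f)
  congr : ∀ s e e', Cyc s e → Cyc s e' → e ≡ e' [MOD p]

section Act

variable {Γ : Type*} [Group Γ] {X : Type*} [AddCommGroup X] {act : Γ → X → X}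

theorem h48c_act_zero (hact : H48cAct act) (σ : Γ) : act σ 0 = 0 := by
  have h := hact.add σ 0 0
  rw [add_zero] at h
  exact left_eq_add.mp h

/-- the action as a homomorphism to the endomorphism ring. -/
def h48cHom (hact : H48cAct act) : Γ →* AddMonoid.End X where
  toFun σ := { toFun := act σ, map_zero' := h48c_act_zero hact σ, map_add' := hact.add σ }
  map_one' := by ext x; exact hact.one x
  map_mul' σ τ := by ext x; exact hact.mul σ τ x

@[simp] theorem h48c_hom_apply (hact : H48cAct act) (σ : Γ) (x : X) :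
    h48cHom hact σ x = act σ x := rfl

theorem h48c_act_sub (hact : H48cAct act) (σ : Γ) (x y : X) :
    act σ (x - y) = act σ x - act σ y := map_sub (h48cHom hact σ) x y

theorem h48c_act_neg (hact : H48cAct act) (σ : Γ) (x : X) :
    act σ (-x) = -act σ x := map_neg (h48cHom hact σ) x

theorem h48c_act_nsmul (hact : H48cAct act) (σ : Γ) (n : ℕ) (x : X) :
    act σ (n • x) = n • act σ x := map_nsmul (h48cHom hact σ) n x

theorem h48c_act_inv_act (hact : H48cAct act) (σ : Γ) (x : X) : act σ⁻¹ (act σ x) = x := by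
  rw [← hact.mul, inv_mul_cancel, hact.one]

theorem h48c_act_act_inv (hact : H48cAct act) (σ : Γ) (x : X) : act σ (act σ⁻¹ x) = x := by
  rw [← hact.mul, mul_inv_cancel, hact.one]

theorem h48c_act_pow (hact : H48cAct act) (σ : Γ) (n : ℕ) (x : X) :
    act (σ ^ n) x = (act σ)^[n] x := by
  induction n generalizing x with
  | zero => rw [pow_zero, hact.one]; rfl
  | succ n ih => rw [pow_succ, hact.mul, ih, Function.iterate_succ_apply]

/-- `(s - 1)(s - c)` in the endomorphism ring. -/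
theorem h48c_quad_eq (hact : H48cAct act) (s : Γ) (c : ℕ) (x : X) :
    h48cQuad act s c x = ((h48cHom hact s - 1) * (h48cHom hact s - (c : AddMonoid.End X))) x := by
  rfl

theorem h48c_quad_iter (hact : H48cAct act) (s : Γ) (c : ℕ) (r : ℕ) (x : X) :
    (h48cQuad act s c)^[r] x =
      (((h48cHom hact s - 1) * (h48cHom hact s - (c : AddMonoid.End X))) ^ r) x := by
  induction r generalizing x with
  | zero => rfl
  | succ r ih =>
    rw [Function.iterate_succ_apply, ih, pow_succ, h48c_quad_eq hact]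
    rfl

end Act

section Cyc

variable {Γ : Type*} [Group Γ] {p : ℕ} [Fact p.Prime] {Cyc : Γ → ℕ → Prop}

theorem h48c_cyc_cast (hc : H48cCyc p Cyc) {s : Γ} {e e' : ℕ} (h : Cyc s e) (h' : Cyc s e') :
    (e : ZMod p) = e' := (ZMod.natCast_eq_natCast_iff _ _ _).2 (hc.congr s e e' h h')

theorem h48c_cyc_inv (hc : H48cCyc p Cyc) {s : Γ} {e e' : ℕ} (h : Cyc s e) (h' : Cyc s⁻¹ e') :
    (e : ZMod p) * e' = 1 := by
  have h1 := hc.mul s s⁻¹ e e' h h'
  rw [mul_inv_cancel] at h1
  have := h48c_cyc_cast hc h1 hc.one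
  simpa using this

theorem h48c_cyc_ne_zero (hc : H48cCyc p Cyc) {s : Γ} {e : ℕ} (h : Cyc s e) :
    (e : ZMod p) ≠ 0 := by
  obtain ⟨e', h'⟩ := hc.ex s⁻¹
  intro h0
  have := h48c_cyc_inv hc h h'
  rw [h0, zero_mul] at this
  exact zero_ne_one this

theorem h48c_cyc_pow (hc : H48cCyc p Cyc) {s : Γ} {e : ℕ} (h : Cyc s e) (n : ℕ) :
    Cyc (s ^ n) (e ^ n) := by
  induction n with
  | zero => simpa using hc.one
  | succ n ih => rw [pow_succ, pow_succ]; exact hc.mul _ _ _ _ ih h

/-- the kernel of the exponent modulo `p`. -/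
def h48cI1 (hc : H48cCyc p Cyc) : Subgroup Γ where
  carrier := {s | ∃ e, Cyc s e ∧ (e : ZMod p) = 1}
  mul_mem' := by
    rintro s t ⟨e, he, he1⟩ ⟨f, hf, hf1⟩
    exact ⟨e * f, hc.mul s t e f he hf, by rw [Nat.cast_mul, he1, hf1, mul_one]⟩
  one_mem' := ⟨1, hc.one, Nat.cast_one⟩
  inv_mem' := by
    rintro s ⟨e, he, he1⟩
    obtain ⟨e', he'⟩ := hc.ex s⁻¹
    refine ⟨e', he', ?_⟩
    have := h48c_cyc_inv hc he he'
    rwa [he1, one_mul] at this

theorem h48c_mem_I1 (hc : H48cCyc p Cyc) {s : Γ} :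
    s ∈ h48cI1 hc ↔ ∃ e, Cyc s e ∧ (e : ZMod p) = 1 := Iff.rfl

theorem h48c_conj_mem_I1 (hc : H48cCyc p Cyc) {s : Γ} (hs : s ∈ h48cI1 hc) (t : Γ) :
    t⁻¹ * s * t ∈ h48cI1 hc := by
  obtain ⟨e, he, he1⟩ := hs
  obtain ⟨f, hf⟩ := hc.ex t
  obtain ⟨f', hf'⟩ := hc.ex t⁻¹
  refine ⟨f' * e * f, hc.mul _ _ _ _ (hc.mul _ _ _ _ hf' he) hf, ?_⟩
  have h1 := h48c_cyc_inv hc hf hf'
  push_cast
  rw [he1, mul_one, mul_comm, h1]

theorem h48c_comm_mem_I1 (hc : H48cCyc p Cyc) (s t : Γ) :
    s * t * s⁻¹ * t⁻¹ ∈ h48cI1 hc := by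
  obtain ⟨e, he⟩ := hc.ex s
  obtain ⟨e', he'⟩ := hc.ex s⁻¹
  obtain ⟨f, hf⟩ := hc.ex t
  obtain ⟨f', hf'⟩ := hc.ex t⁻¹
  refine ⟨e * f * e' * f', hc.mul _ _ _ _ (hc.mul _ _ _ _ (hc.mul _ _ _ _ he hf) he') hf', ?_⟩
  have h1 := h48c_cyc_inv hc he he'
  have h2 := h48c_cyc_inv hc hf hf'
  push_cast
  calc (e : ZMod p) * f * e' * f' = (e * e') * (f * f') := by ring
    _ = 1 := by rw [h1, h2, mul_one]

theorem h48c_pow_mem_I1 (hc : H48cCyc p Cyc) (s : Γ) : s ^ (p - 1) ∈ h48cI1 hc := by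
  obtain ⟨e, he⟩ := hc.ex s
  refine ⟨e ^ (p - 1), h48c_cyc_pow hc he _, ?_⟩
  push_cast
  exact ZMod.pow_card_sub_one_eq_one (h48c_cyc_ne_zero hc he)

end Cyc

section KeyElem

variable {Γ : Type*} [Group Γ] {X : Type*} [AddCommGroup X] {act : Γ → X → X}
  {p : ℕ} [Fact p.Prime] {Cyc : Γ → ℕ → Prop}

theorem h48c_nsmul_congr {y : X} (hy : p • y = 0) {n m : ℕ} (h : (n : ZMod p) = m) :
    n • y = m • y :=
  nsmul_eq_nsmul_iff_modEq.2
    (((ZMod.natCast_eq_natCast_iff _ _ _).1 h).of_dvd (addOrderOf_dvd_of_nsmul_eq_zero hy))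

theorem h48c_cancel {y : X} (hy : p • y = 0) {n m : ℕ} (hnm : (n : ZMod p) ≠ m)
    (h : n • y = m • y) : y = 0 := by
  by_contra hy0
  have h2 : addOrderOf y = p := addOrderOf_eq_prime hy hy0
  have h3 := nsmul_eq_nsmul_iff_modEq.1 h
  rw [h2] at h3
  exact hnm ((ZMod.natCast_eq_natCast_iff _ _ _).2 h3)

theorem h48c_charP (p : ℕ) [Fact p.Prime] [Nontrivial X] (hp : ∀ x : X, p • x = 0) :
    CharP (AddMonoid.End X) p := by
  constructor
  intro n
  constructor
  · intro h
    obtain ⟨x, hx⟩ := exists_ne (0 : X)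
    have h1 : n • x = 0 := by
      have := congrArg (fun f : AddMonoid.End X => f x) h
      simpa using this
    have h2 : addOrderOf x = p := addOrderOf_eq_prime (hp x) hx
    rw [← h2]
    exact addOrderOf_dvd_of_nsmul_eq_zero h1
  · rintro ⟨m, rfl⟩
    ext x
    show (p * m) • x = 0
    rw [mul_comm, mul_nsmul, hp]

theorem h48c_I1_pow (hact : H48cAct act) (hc : H48cCyc p Cyc) [Nontrivial X]
    (hp : ∀ x : X, p • x = 0)
    (ord : ∀ s e, Cyc s e → ∃ r : ℕ, ∀ x, (h48cQuad act s e)^[r] x = 0)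
    {s : Γ} (hs : s ∈ h48cI1 hc) : ∃ m : ℕ, ∀ x, act (s ^ p ^ m) x = x := by
  obtain ⟨e, he, he1⟩ := hs
  obtain ⟨r, hr⟩ := ord s e he
  haveI := h48c_charP p hp
  have hE : ((e : ℕ) : AddMonoid.End X) = 1 := by
    have h1 : ((e : ℕ) : AddMonoid.End X) = ((1 : ℕ) : AddMonoid.End X) :=
      (CharP.natCast_eq_natCast (AddMonoid.End X) p).2
        ((ZMod.natCast_eq_natCast_iff _ _ _).1 (by simpa using he1))
    simpa using h1
  have hN : ((h48cHom hact s - 1) * (h48cHom hact s - 1)) ^ r = 0 := by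
    have : ((h48cHom hact s - 1) * (h48cHom hact s - (e : AddMonoid.End X))) ^ r = 0 := by
      ext x
      rw [← h48c_quad_iter hact]
      exact hr x
    rwa [hE] at this
  have hN2 : (h48cHom hact s - 1) ^ (2 * r) = 0 := by
    rw [pow_mul, pow_two]; exact hN
  obtain ⟨m, hm⟩ : ∃ m, 2 * r ≤ p ^ m :=
    ⟨2 * r, (Nat.lt_pow_self (Fact.out : p.Prime).one_lt).le⟩
  have hN3 : (h48cHom hact s - 1) ^ (p ^ m) = 0 := pow_eq_zero_of_le hm hN2
  rw [sub_pow_char_pow_of_commute p m (Commute.one_right _), one_pow, sub_eq_zero,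
    ← map_pow] at hN3
  refine ⟨m, fun x => ?_⟩
  exact congrArg (fun f : AddMonoid.End X => f x) hN3

theorem h48c_exists_fixed (hact : H48cAct act) (hc : H48cCyc p Cyc) [Finite X] [Nontrivial X]
    (hp : ∀ x : X, p • x = 0)
    (ord : ∀ s e, Cyc s e → ∃ r : ℕ, ∀ x, (h48cQuad act s e)^[r] x = 0) :
    ∃ v : X, v ≠ 0 ∧ ∀ s ∈ h48cI1 hc, act s v = v := by
  letI : MulAction Γ X := { smul := act, one_smul := hact.one, mul_smul := hact.mul }
  have hsmul : ∀ (s : Γ) (x : X), s • x = act s x := fun _ _ => rfl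
  let φ : Γ →* Equiv.Perm X := MulAction.toPermHom Γ X
  let G : Subgroup (Equiv.Perm X) := (h48cI1 hc).map φ
  have hG : IsPGroup p G := by
    rintro ⟨g, s, hs, rfl⟩
    obtain ⟨m, hm⟩ := h48c_I1_pow hact hc hp ord hs
    refine ⟨m, ?_⟩
    apply Subtype.ext
    show (φ s) ^ p ^ m = 1
    rw [← map_pow]
    ext x
    show (s ^ p ^ m) • x = x
    rw [hsmul]; exact hm x
  have hcard : p ∣ Nat.card X := by
    obtain ⟨x, hx⟩ := exists_ne (0 : X)
    have := addOrderOf_eq_prime (hp x) hx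
    rw [← this]
    exact addOrderOf_dvd_natCard x
  have h0 : (0 : X) ∈ MulAction.fixedPoints G X := by
    rintro ⟨g, s, hs, rfl⟩
    exact h48c_act_zero hact s
  obtain ⟨b, hb, hb0⟩ := hG.exists_fixed_point_of_prime_dvd_card_of_fixed_point X hcard h0
  refine ⟨b, fun h => hb0 h.symm, fun s hs => ?_⟩
  exact hb ⟨φ s, s, hs, rfl⟩

/-- the points fixed by `I₁`. -/
def h48cFix (hc : H48cCyc p Cyc) (act : Γ → X → X) (v : X) : Prop :=
  ∀ s ∈ h48cI1 hc, act s v = v

theorem h48c_fix_act (hact : H48cAct act) (hc : H48cCyc p Cyc) {v : X}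
    (hv : h48cFix hc act v) (t : Γ) : h48cFix hc act (act t v) := by
  intro s hs
  have h1 := hv _ (h48c_conj_mem_I1 hc hs t)
  rw [hact.mul, hact.mul] at h1
  have := congrArg (act t) h1
  rwa [h48c_act_act_inv hact] at this

theorem h48c_fix_sub (hact : H48cAct act) (hc : H48cCyc p Cyc) {v w : X}
    (hv : h48cFix hc act v) (hw : h48cFix hc act w) : h48cFix hc act (v - w) := by
  intro s hs
  rw [h48c_act_sub hact, hv s hs, hw s hs]

theorem h48c_fix_nsmul (hact : H48cAct act) (hc : H48cCyc p Cyc) {v : X}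
    (hv : h48cFix hc act v) (n : ℕ) : h48cFix hc act (n • v) := by
  intro s hs
  rw [h48c_act_nsmul hact, hv s hs]

theorem h48c_fix_comm (hact : H48cAct act) (hc : H48cCyc p Cyc) {v : X}
    (hv : h48cFix hc act v) (s t : Γ) : act s (act t v) = act t (act s v) := by
  have hw : h48cFix hc act (act t (act s v)) := h48c_fix_act hact hc (h48c_fix_act hact hc hv s) t
  have h1 := hw _ (h48c_comm_mem_I1 hc s t)
  have h2 : act (s * t * s⁻¹ * t⁻¹) (act t (act s v)) = act s (act t v) := by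
    rw [hact.mul (s * t * s⁻¹), h48c_act_inv_act hact, hact.mul (s * t), h48c_act_inv_act hact,
      hact.mul]
  rw [← h2, h1]

theorem h48c_fix_pow_p (hact : H48cAct act) (hc : H48cCyc p Cyc) {v : X}
    (hv : h48cFix hc act v) (s : Γ) : act (s ^ p) v = act s v := by
  have h := h48c_pow_mem_I1 hc s
  have h1 : s ^ p = s * s ^ (p - 1) := by
    rw [← pow_succ', Nat.sub_add_cancel (Fact.out : p.Prime).pos]
  rw [h1, hact.mul, hv _ h]

theorem h48c_fix_pow_pm (hact : H48cAct act) (hc : H48cCyc p Cyc) {v : X}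
    (hv : h48cFix hc act v) (s : Γ) (m : ℕ) : act (s ^ p ^ m) v = act s v := by
  induction m with
  | zero => simp
  | succ m ih => rw [pow_succ, pow_mul, h48c_fix_pow_p hact hc hv, ih]

theorem h48c_fix_quad (hact : H48cAct act) (hc : H48cCyc p Cyc) [Nontrivial X]
    (hp : ∀ x : X, p • x = 0)
    (ord : ∀ s e, Cyc s e → ∃ r : ℕ, ∀ x, (h48cQuad act s e)^[r] x = 0)
    {v : X} (hv : h48cFix hc act v) {s : Γ} {e : ℕ} (he : Cyc s e) :
    act s (act s v - e • v) = act s v - e • v := by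
  obtain ⟨r, hr⟩ := ord s e he
  haveI := h48c_charP p hp
  obtain ⟨m, hm⟩ : ∃ m, r ≤ p ^ m := ⟨r, (Nat.lt_pow_self (Fact.out : p.Prime).one_lt).le⟩
  have hN : ((h48cHom hact s - 1) * (h48cHom hact s - (e : AddMonoid.End X))) ^ (p ^ m) = 0 := by
    apply pow_eq_zero_of_le hm
    ext x
    rw [← h48c_quad_iter hact]
    exact hr x
  have hcomm : Commute (h48cHom hact s - 1) (h48cHom hact s - (e : AddMonoid.End X)) :=
    ((Commute.refl _).sub_left (Commute.one_left _)).sub_right
      ((Nat.cast_commute e _).symm.sub_left (Commute.one_left _))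
  rw [hcomm.mul_pow, sub_pow_char_pow_of_commute p m (Commute.one_right _),
    sub_pow_char_pow_of_commute p m (Nat.commute_cast _ _), one_pow, ← map_pow,
    ← Nat.cast_pow] at hN
  have h1 := congrArg (fun f : AddMonoid.End X => f v) hN
  have h1' : act (s ^ p ^ m) (act (s ^ p ^ m) v - (e ^ p ^ m) • v)
      - (act (s ^ p ^ m) v - (e ^ p ^ m) • v) = 0 := h1
  have h2 : (e ^ p ^ m) • v = e • v :=
    h48c_nsmul_congr (hp v) (by push_cast; rw [ZMod.pow_card_pow])
  rw [h48c_fix_pow_pm hact hc hv, h2] at h1'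
  have hw : h48cFix hc act (act s v - e • v) :=
    h48c_fix_sub hact hc (h48c_fix_act hact hc hv s) (h48c_fix_nsmul hact hc hv e)
  rw [h48c_fix_pow_pm hact hc hw] at h1'
  exact sub_eq_zero.1 h1'

/-- subtracting two relations `A - P = B - Q`, `A - R = B - S`. -/
theorem h48c_aux_sub {A B P Q R S : X} (h1 : A - P = B - Q) (h2 : A - R = B - S) :
    R - S = P - Q := by
  have h3 : R - P = (A - P) - (A - R) := by abel
  rw [h1, h2] at h3
  have h4 : R - S = (R - P) + (P - S) := by abel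
  rw [h4, h3]
  abel

/-- **key lemma, elementary abelian case**: a nonzero finite module killed by `p` with ORD has a
nonzero point killed by all `(a - e)(b - 1)`. -/
theorem h48c_key_elem (hact : H48cAct act) (hc : H48cCyc p Cyc) [Finite X] [Nontrivial X]
    (hp : ∀ x : X, p • x = 0)
    (ord : ∀ s e, Cyc s e → ∃ r : ℕ, ∀ x, (h48cQuad act s e)^[r] x = 0) :
    ∃ x : X, x ≠ 0 ∧ ∀ a b e, Cyc a e → h48cMono act a b e x = 0 := by
  obtain ⟨v, hv0, hv⟩ := h48c_exists_fixed hact hc hp ord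
  have hvfix : h48cFix hc act v := hv
  have quad : ∀ {v : X}, h48cFix hc act v → ∀ {s : Γ} {e : ℕ}, Cyc s e →
      act s (act s v - e • v) = act s v - e • v :=
    fun hv _ _ he => h48c_fix_quad hact hc hp ord hv he
  by_cases hall : ∀ s e, Cyc s e → (e : ZMod p) = 1
  · -- every exponent is `1`: `I = I₁` acts trivially on the fixed points
    refine ⟨v, hv0, fun a b e _ => ?_⟩
    obtain ⟨f, hf⟩ := hc.ex b
    have hb : act b v = v := hv b ⟨f, hf, hall b f hf⟩
    simp only [h48cMono, hb, sub_self, h48c_act_zero hact, smul_zero]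
  · push Not at hall
    obtain ⟨s₀, c₀, h₀, hc₀⟩ := hall
    have hc₀0 : (c₀ : ZMod p) ≠ 0 := h48c_cyc_ne_zero hc h₀
    by_cases hw0 : act s₀ v - c₀ • v = 0
    · -- `s₀ v = c₀ v`: on the `c₀`-eigenspace of `s₀` every `a` acts by its exponent
      have hs₀v : act s₀ v = c₀ • v := sub_eq_zero.1 hw0
      have key : ∀ v' : X, h48cFix hc act v' → act s₀ v' = c₀ • v' →
          ∀ a e, Cyc a e → act a v' = e • v' := by
        intro v' hv' hs' a e he
        have hzfix : h48cFix hc act (act a v' - e • v') :=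
          h48c_fix_sub hact hc (h48c_fix_act hact hc hv' a) (h48c_fix_nsmul hact hc hv' e)
        have hz0 : act s₀ (act a v' - e • v') = c₀ • (act a v' - e • v') := by
          rw [h48c_act_sub hact, h48c_act_nsmul hact, h48c_fix_comm hact hc hv' s₀ a, hs',
            h48c_act_nsmul hact, smul_sub, smul_comm]
        have h1 : act a (act a v' - e • v') = act a v' - e • v' := quad hv' he
        have h2 := quad hv' (hc.mul a s₀ e c₀ he h₀)
        have e1 : act (a * s₀) v' - (e * c₀) • v' = c₀ • (act a v' - e • v') := by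
          rw [hact.mul, hs', h48c_act_nsmul hact, smul_sub, smul_smul, mul_comm]
        rw [e1] at h2
        have e2 : act (a * s₀) (c₀ • (act a v' - e • v')) = c₀ • (c₀ • (act a v' - e • v')) := by
          rw [hact.mul, h48c_act_nsmul hact s₀, hz0, h48c_act_nsmul hact, h48c_act_nsmul hact, h1]
        rw [e2] at h2
        -- `c₀ • (c₀ • z) = c₀ • z`, hence `c₀ • z = z`, hence `z = 0`
        have hpz : p • (act a v' - e • v') = 0 := hp _
        have h3 : c₀ • (act a v' - e • v') = 0 := by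
          apply h48c_cancel (p := p) (hp _) (n := c₀) (m := 1) (by simpa using hc₀)
          rw [h2, one_smul]
        have h4 : act a v' - e • v' = 0 := by
          apply h48c_cancel (p := p) hpz (n := c₀) (m := 0) (by simpa using hc₀0)
          rw [h3, zero_smul]
        exact sub_eq_zero.1 h4
      refine ⟨v, hv0, fun a b e he => ?_⟩
      have hbv : h48cFix hc act (act b v - v) :=
        h48c_fix_sub hact hc (h48c_fix_act hact hc hvfix b) hvfix
      have hs : act s₀ (act b v - v) = c₀ • (act b v - v) := by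
        rw [h48c_act_sub hact, h48c_fix_comm hact hc hvfix s₀ b, hs₀v, h48c_act_nsmul hact,
          smul_sub]
      have := key _ hbv hs a e he
      unfold h48cMono
      rw [this, sub_self]
    · -- `w = s₀ v - c₀ v ≠ 0` is fixed by `s₀`: `I` acts trivially on the fixed points of `s₀`
      have hwfix : h48cFix hc act (act s₀ v - c₀ • v) :=
        h48c_fix_sub hact hc (h48c_fix_act hact hc hvfix s₀) (h48c_fix_nsmul hact hc hvfix c₀)
      have hs₀w : act s₀ (act s₀ v - c₀ • v) = act s₀ v - c₀ • v := quad hvfix h₀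
      have key : ∀ w : X, h48cFix hc act w → act s₀ w = w → ∀ b, act b w = w := by
        intro w hw hsw b
        obtain ⟨f, hf⟩ := hc.ex b
        have h1 : act b (act b w - f • w) = act b w - f • w := quad hw hf
        have h2 := quad hw (hc.mul b s₀ f c₀ hf h₀)
        have e1 : act (b * s₀) w = act b w := by rw [hact.mul, hsw]
        rw [e1] at h2
        have e2 : act (b * s₀) (act b w - (f * c₀) • w) = act b (act b w - (f * c₀) • w) := by
          rw [hact.mul]
          congr 1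
          rw [h48c_act_sub hact, h48c_act_nsmul hact, h48c_fix_comm hact hc hw s₀ b, hsw]
        rw [e2] at h2
        rw [h48c_act_sub hact, h48c_act_nsmul hact] at h1 h2
        -- h1 : b b w - f • b w = b w - f • w ; h2 : b b w - (f c₀) • b w = b w - (f c₀) • w
        have h3 := h48c_aux_sub h1 h2
        -- (f c₀) • b w - (f c₀) • w = f • b w - f • w
        rw [← smul_sub, ← smul_sub] at h3
        have h4 : act b w - w = 0 := by
          apply h48c_cancel (p := p) (hp _) (n := f * c₀) (m := f) _ h3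
          intro h
          push_cast at h
          have hf0 : (f : ZMod p) ≠ 0 := h48c_cyc_ne_zero hc hf
          have : (f : ZMod p) * c₀ = f * 1 := by rw [h, mul_one]
          exact hc₀ (mul_left_cancel₀ hf0 this)
        exact sub_eq_zero.1 h4
      refine ⟨act s₀ v - c₀ • v, hw0, fun a b e _ => ?_⟩
      have hb := key _ hwfix hs₀w b
      simp only [h48cMono, hb, sub_self, h48c_act_zero hact, smul_zero]

end KeyElem

section Key

variable {Γ : Type*} [Group Γ] {X : Type*} [AddCommGroup X] {act : Γ → X → X}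
  {p : ℕ} [Fact p.Prime] {Cyc : Γ → ℕ → Prop}

/-- the restriction of an action to a stable subgroup. -/
def h48cRes (act : Γ → X → X) (V : AddSubgroup X) (hV : ∀ σ, ∀ x ∈ V, act σ x ∈ V) :
    Γ → V → V :=
  fun σ x => ⟨act σ x.1, hV σ x.1 x.2⟩

theorem h48c_res_act (hact : H48cAct act) (V : AddSubgroup X)
    (hV : ∀ σ, ∀ x ∈ V, act σ x ∈ V) : H48cAct (h48cRes act V hV) where
  one x := Subtype.ext (hact.one x.1)
  mul σ τ x := Subtype.ext (hact.mul σ τ x.1)
  add σ x y := Subtype.ext (hact.add σ x.1 y.1)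

theorem h48c_res_quad_iter (V : AddSubgroup X) (hV : ∀ σ, ∀ x ∈ V, act σ x ∈ V) (s : Γ)
    (c : ℕ) (r : ℕ) (x : V) :
    ((h48cQuad (h48cRes act V hV) s c)^[r] x : X) = (h48cQuad act s c)^[r] (x : X) := by
  induction r generalizing x with
  | zero => rfl
  | succ r ih =>
    rw [Function.iterate_succ_apply, Function.iterate_succ_apply, ih]
    rfl

/-- the points killed by `p`. -/
def h48cTor (X : Type*) [AddCommGroup X] (p : ℕ) : AddSubgroup X where
  carrier := {x | p • x = 0}
  zero_mem' := smul_zero _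
  add_mem' := by
    intro a b ha hb
    show p • (a + b) = 0
    rw [smul_add, ha, hb, add_zero]
  neg_mem' := by
    intro a ha
    show p • (-a) = 0
    rw [smul_neg, ha, neg_zero]

theorem h48c_exists_tor (p : ℕ) [Nontrivial X] (k : ℕ) (hpk : ∀ x : X, p ^ k • x = 0) :
    ∃ y : X, y ≠ 0 ∧ p • y = 0 := by
  classical
  obtain ⟨x, hx⟩ := exists_ne (0 : X)
  have hex : ∃ j, p ^ j • x = 0 := ⟨k, hpk x⟩
  have hj0 : Nat.find hex ≠ 0 := by
    intro h0
    have := Nat.find_spec hex
    rw [h0, pow_zero, one_smul] at this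
    exact hx this
  obtain ⟨j', hj'⟩ := Nat.exists_eq_succ_of_ne_zero hj0
  refine ⟨p ^ j' • x, ?_, ?_⟩
  · exact Nat.find_min hex (by rw [hj']; exact Nat.lt_succ_self j')
  · have := Nat.find_spec hex
    rw [hj', Nat.succ_eq_add_one, pow_succ', mul_smul] at this
    exact this

/-- **key lemma**: a nonzero finite module killed by `p ^ k` with ORD has a nonzero point killed
by all `(a - e)(b - 1)`. -/
theorem h48c_key (hact : H48cAct act) (hc : H48cCyc p Cyc) [Finite X] [Nontrivial X]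
    (k : ℕ) (hpk : ∀ x : X, p ^ k • x = 0)
    (ord : ∀ s e, Cyc s e → ∃ r : ℕ, ∀ x, (h48cQuad act s e)^[r] x = 0) :
    ∃ x : X, x ≠ 0 ∧ ∀ a b e, Cyc a e → h48cMono act a b e x = 0 := by
  have hV : ∀ σ : Γ, ∀ x ∈ h48cTor X p, act σ x ∈ h48cTor X p := by
    intro σ x hx
    show p • act σ x = 0
    rw [← h48c_act_nsmul hact, show p • x = 0 from hx, h48c_act_zero hact]
  obtain ⟨y, hy0, hy⟩ := h48c_exists_tor (X := X) p k hpk
  haveI : Nontrivial (h48cTor X p) :=
    ⟨⟨⟨y, hy⟩, 0, fun h => hy0 (congrArg Subtype.val h)⟩⟩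
  obtain ⟨x, hx0, hx⟩ := h48c_key_elem (h48c_res_act hact _ hV) hc
    (fun x : h48cTor X p => Subtype.ext (show p • (x : X) = 0 from x.2))
    (fun s e he => by
      obtain ⟨r, hr⟩ := ord s e he
      refine ⟨r, fun x => Subtype.ext ?_⟩
      rw [h48c_res_quad_iter]
      exact hr _)
  refine ⟨x.1, fun h => hx0 (Subtype.ext h), fun a b e he => ?_⟩
  exact congrArg Subtype.val (hx a b e he)

end Key

section Chain

variable {D : Type*} [Group D] {X : Type*} [AddCommGroup X] {act : D → X → X}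

theorem h48c_mono_zero (hact : H48cAct act) (a b : D) (e : ℕ) :
    h48cMono act a b e (0 : X) = 0 := by
  simp only [h48cMono, h48c_act_zero hact, sub_self, smul_zero]

theorem h48c_mono_add (hact : H48cAct act) (a b : D) (e : ℕ) (x y : X) :
    h48cMono act a b e (x + y) = h48cMono act a b e x + h48cMono act a b e y := by
  simp only [h48cMono, hact.add, h48c_act_sub hact, smul_sub, smul_add]
  abel

theorem h48c_mono_neg (hact : H48cAct act) (a b : D) (e : ℕ) (x : X) :
    h48cMono act a b e (-x) = -h48cMono act a b e x := by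
  simp only [h48cMono, h48c_act_neg hact, h48c_act_sub hact, smul_sub, smul_neg]
  abel

/-- conjugation: `(a - e)(b - 1) (τ x) = τ ((τ⁻¹ a τ - e)(τ⁻¹ b τ - 1) x)`. -/
theorem h48c_mono_conj (hact : H48cAct act) (a b τ : D) (e : ℕ) (x : X) :
    h48cMono act a b e (act τ x) =
      act τ (h48cMono act (τ⁻¹ * a * τ) (τ⁻¹ * b * τ) e x) := by
  simp only [h48cMono, hact.mul, h48c_act_sub hact, h48c_act_nsmul hact, h48c_act_act_inv hact]

/-- one step of the chain: the points sent into `G` by all `(a - e)(b - 1)`. -/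
def h48cNext (hact : H48cAct act) (I : Subgroup D) (Cyc : D → ℕ → Prop) (G : AddSubgroup X) :
    AddSubgroup X where
  carrier := {x | ∀ a ∈ I, ∀ b ∈ I, ∀ e, Cyc a e → h48cMono act a b e x ∈ G}
  zero_mem' := by
    intro a _ b _ e _
    rw [h48c_mono_zero hact]
    exact G.zero_mem
  add_mem' := by
    intro x y hx hy a ha b hb e he
    rw [h48c_mono_add hact]
    exact G.add_mem (hx a ha b hb e he) (hy a ha b hb e he)
  neg_mem' := by
    intro x hx a ha b hb e he
    rw [h48c_mono_neg hact]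
    exact G.neg_mem (hx a ha b hb e he)

/-- the chain. -/
def h48cF (hact : H48cAct act) (I : Subgroup D) (Cyc : D → ℕ → Prop) : ℕ → AddSubgroup X
  | 0 => ⊥
  | (i + 1) => h48cNext hact I Cyc (h48cF hact I Cyc i)

theorem h48c_F_succ (hact : H48cAct act) (I : Subgroup D) (Cyc : D → ℕ → Prop) (i : ℕ) :
    h48cF hact I Cyc (i + 1) = h48cNext hact I Cyc (h48cF hact I Cyc i) := rfl

theorem h48c_mem_next (hact : H48cAct act) (I : Subgroup D) (Cyc : D → ℕ → Prop)
    (G : AddSubgroup X) (x : X) :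
    x ∈ h48cNext hact I Cyc G ↔ ∀ a ∈ I, ∀ b ∈ I, ∀ e, Cyc a e → h48cMono act a b e x ∈ G :=
  Iff.rfl

theorem h48c_F_le (hact : H48cAct act) (I : Subgroup D) (Cyc : D → ℕ → Prop) (i : ℕ) :
    h48cF hact I Cyc i ≤ h48cF hact I Cyc (i + 1) := by
  induction i with
  | zero => exact bot_le
  | succ i ih =>
    intro x hx a ha b hb e he
    exact ih (hx a ha b hb e he)

theorem h48c_F_stable (hact : H48cAct act) (I : Subgroup D) (hI : I.Normal)
    (Cyc : D → ℕ → Prop) (cyc_conj : ∀ s ∈ I, ∀ τ : D, ∀ e, Cyc s e → Cyc (τ⁻¹ * s * τ) e)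
    (i : ℕ) (τ : D) (x : X) (hx : x ∈ h48cF hact I Cyc i) : act τ x ∈ h48cF hact I Cyc i := by
  induction i generalizing x with
  | zero =>
    have hx0 : x = 0 := (AddSubgroup.mem_bot).1 hx
    rw [hx0, h48c_act_zero hact]
    exact AddSubgroup.zero_mem _
  | succ i ih =>
    intro a ha b hb e he
    rw [h48c_mono_conj hact]
    have ha' : τ⁻¹ * a * τ ∈ I := by
      have := hI.conj_mem a ha τ⁻¹
      rwa [inv_inv] at this
    have hb' : τ⁻¹ * b * τ ∈ I := by
      have := hI.conj_mem b hb τ⁻¹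
      rwa [inv_inv] at this
    exact ih _ (hx _ ha' _ hb' e (cyc_conj a ha τ e he))

/-- the action on a quotient by a stable subgroup. -/
def h48cQuot (hact : H48cAct act) (G : AddSubgroup X) (hG : ∀ σ, ∀ x ∈ G, act σ x ∈ G) :
    D → X ⧸ G → X ⧸ G :=
  fun σ => QuotientAddGroup.map G G (h48cHom hact σ) (fun x hx => hG σ x hx)

theorem h48c_quot_mk (hact : H48cAct act) (G : AddSubgroup X)
    (hG : ∀ σ, ∀ x ∈ G, act σ x ∈ G) (σ : D) (x : X) :
    h48cQuot hact G hG σ (x : X ⧸ G) = ((act σ x : X) : X ⧸ G) := rfl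

theorem h48c_quot_act (hact : H48cAct act) (G : AddSubgroup X)
    (hG : ∀ σ, ∀ x ∈ G, act σ x ∈ G) : H48cAct (h48cQuot hact G hG) where
  one q := by
    induction q using QuotientAddGroup.induction_on with
    | H x => rw [h48c_quot_mk, hact.one]
  mul σ τ q := by
    induction q using QuotientAddGroup.induction_on with
    | H x => rw [h48c_quot_mk, h48c_quot_mk, h48c_quot_mk, hact.mul]
  add σ q q' := map_add (QuotientAddGroup.map G G (h48cHom hact σ) (fun x hx => hG σ x hx)) q q'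

theorem h48c_quot_quad (hact : H48cAct act) (G : AddSubgroup X)
    (hG : ∀ σ, ∀ x ∈ G, act σ x ∈ G) (s : D) (c : ℕ) (x : X) :
    h48cQuad (h48cQuot hact G hG) s c (x : X ⧸ G) = ((h48cQuad act s c x : X) : X ⧸ G) := rfl

theorem h48c_quot_quad_iter (hact : H48cAct act) (G : AddSubgroup X)
    (hG : ∀ σ, ∀ x ∈ G, act σ x ∈ G) (s : D) (c : ℕ) (r : ℕ) (x : X) :
    (h48cQuad (h48cQuot hact G hG) s c)^[r] (x : X ⧸ G) =
      (((h48cQuad act s c)^[r] x : X) : X ⧸ G) := by
  induction r generalizing x with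
  | zero => rfl
  | succ r ih => rw [Function.iterate_succ_apply, h48c_quot_quad, ih, Function.iterate_succ_apply]

theorem h48c_quot_mono (hact : H48cAct act) (G : AddSubgroup X)
    (hG : ∀ σ, ∀ x ∈ G, act σ x ∈ G) (a b : D) (e : ℕ) (x : X) :
    h48cMono (h48cQuot hact G hG) a b e (x : X ⧸ G) = ((h48cMono act a b e x : X) : X ⧸ G) := rfl

/-- **ORD ⟹ chain of ordinary type.**  `D` acts on the finite group `X` killed by `p ^ k`,
`I` is a normal subgroup of `D` with a cyclotomic exponent relation `Cyc`, and every `s ∈ I`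
satisfies the elementwise ordinarity `((s - 1)(s - e)) ^ r = 0`.  Then `X` has a `D`-stable chain
of subgroups whose graded pieces are killed by all `(a - e)(b - 1)`, `a, b ∈ I`. -/
theorem h48c_chain [Finite X] (hact : H48cAct act) (p : ℕ) [Fact p.Prime] (k : ℕ)
    (hpk : ∀ x : X, p ^ k • x = 0) (I : Subgroup D) (hI : I.Normal) (Cyc : D → ℕ → Prop)
    (cyc_ex : ∀ s ∈ I, ∃ e, Cyc s e) (cyc_one : Cyc 1 1)
    (cyc_mul : ∀ s ∈ I, ∀ t ∈ I, ∀ e f, Cyc s e → Cyc t f → Cyc (s * t) (e * f))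
    (cyc_congr : ∀ s ∈ I, ∀ e e', Cyc s e → Cyc s e' → e ≡ e' [MOD p])
    (cyc_conj : ∀ s ∈ I, ∀ τ : D, ∀ e, Cyc s e → Cyc (τ⁻¹ * s * τ) e)
    (ord : ∀ s ∈ I, ∀ e, Cyc s e → ∃ r : ℕ, ∀ x, (h48cQuad act s e)^[r] x = 0) :
    ∃ (n : ℕ) (F : ℕ → AddSubgroup X), F 0 = ⊥ ∧ F n = ⊤ ∧ (∀ i, F i ≤ F (i + 1)) ∧
      (∀ i, ∀ τ : D, ∀ x ∈ F i, act τ x ∈ F i) ∧
      ∀ i, ∀ a ∈ I, ∀ b ∈ I, ∀ e, Cyc a e → ∀ x ∈ F (i + 1), h48cMono act a b e x ∈ F i := by
  have hst := h48c_F_stable hact I hI Cyc cyc_conj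
  have hmono : Monotone (h48cF hact I Cyc) := monotone_nat_of_le_succ (h48c_F_le hact I Cyc)
  obtain ⟨n, hn⟩ := (wellFoundedGT_iff_monotone_chain_condition.1 inferInstance)
    ⟨h48cF hact I Cyc, hmono⟩
  have hn1 : h48cF hact I Cyc n = h48cF hact I Cyc (n + 1) := hn (n + 1) (Nat.le_succ n)
  refine ⟨n, h48cF hact I Cyc, rfl, ?_, h48c_F_le hact I Cyc, hst,
    fun i a ha b hb e he x hx => hx a ha b hb e he⟩
  by_contra hne
  -- the quotient by `G = F n` is a nonzero module with ORD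
  set G := h48cF hact I Cyc n with hGdef
  have hG : ∀ σ : D, ∀ x ∈ G, act σ x ∈ G := fun σ x hx => hst n σ x hx
  haveI : Nontrivial (X ⧸ G) := QuotientAddGroup.nontrivial_iff.2 hne
  have hactQ : H48cAct (fun (s : I) (q : X ⧸ G) => h48cQuot hact G hG s.1 q) := by
    have h := h48c_quot_act hact G hG
    exact ⟨fun q => h.one q, fun σ τ q => h.mul σ.1 τ.1 q, fun σ q q' => h.add σ.1 q q'⟩
  have hcQ : H48cCyc p (fun (s : I) (e : ℕ) => Cyc s.1 e) :=
    ⟨fun s => cyc_ex s.1 s.2, cyc_one,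
      fun s t e f he hf => cyc_mul s.1 s.2 t.1 t.2 e f he hf,
      fun s e e' he he' => cyc_congr s.1 s.2 e e' he he'⟩
  have hpkQ : ∀ q : X ⧸ G, p ^ k • q = 0 := by
    intro q
    induction q using QuotientAddGroup.induction_on with
    | H x =>
      rw [← QuotientAddGroup.mk_nsmul, hpk]
      rfl
  obtain ⟨q, hq0, hq⟩ := h48c_key hactQ hcQ k hpkQ (fun s e he => by
    obtain ⟨r, hr⟩ := ord s.1 s.2 e he
    refine ⟨r, fun q => ?_⟩
    induction q using QuotientAddGroup.induction_on with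
    | H x =>
      have := h48c_quot_quad_iter hact G hG s.1 e r x
      rw [hr] at this
      exact this)
  induction q using QuotientAddGroup.induction_on with
  | H x =>
    apply hq0
    rw [QuotientAddGroup.eq_zero_iff, hn1]
    intro a ha b hb e he
    have := hq ⟨a, ha⟩ ⟨b, hb⟩ e he
    exact (QuotientAddGroup.eq_zero_iff _).1 this

end Chain

end Fermat.Agent.P6
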