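import Fermat.Agent.P6.H72FlatOrd
import Fermat.Agent.P6.H48Chain
import Fermat.Agent.P6.H39FlatOrdIface
import Fermat.Agent.P5.H97FlatClos

/-!
# Wave 6 (S33), block B3/B4 (helper36): FLAT-ORD in the elementwise form, unconditionally

`h36o_flatOrd : H39FlatOrd` (exact frozen Prop of `P6/H39FlatOrdIface.lean`), from

* `h72v_flatOrd : H97fGlobal` (helper72/helper97/helper24: flat + chain of ordinary type stable
  under the decomposition group ⟹ STAR), and
* `h48c_chain` (helper48: elementwise ORD ⟹ chain of ordinary type), applied to the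
  decomposition group `D_P` acting on `M`, with its normal subgroup `I_P` and the exponent relation
  `Cyc d e ↔ d = e-th power on μ_{p^k}`.
-/

set_option autoImplicit false
set_option linter.style.haveILetI false
set_option linter.unusedSectionVars false

noncomputable section

namespace Fermat.Agent.P6

local notation "h36oQb" => AlgebraicClosure ℚ
local notation "h36oGQ" => (AlgebraicClosure ℚ ≃ₐ[ℚ] AlgebraicClosure ℚ)

/-- every element of `G_ℚ` acts on `μ_n` by a power. -/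
theorem h36o_exists_exponent (n : ℕ) (hn : 0 < n) (a : h36oGQ) :
    ∃ e : ℕ, ∀ μ : h36oQb, μ ^ n = 1 → a μ = μ ^ e := by
  haveI : NeZero n := ⟨hn.ne'⟩
  haveI : NeZero ((n : ℕ) : h36oQb) := ⟨by exact_mod_cast hn.ne'⟩
  obtain ⟨ζ, hζ⟩ : ∃ ζ : h36oQb, IsPrimitiveRoot ζ n :=
    HasEnoughRootsOfUnity.exists_primitiveRoot h36oQb n
  have h1 : (a ζ) ^ n = 1 := by rw [← map_pow, hζ.pow_eq_one, map_one]
  obtain ⟨e, -, he⟩ := hζ.eq_pow_of_pow_eq_one h1
  refine ⟨e, fun μ hμ => ?_⟩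
  obtain ⟨i, -, rfl⟩ := hζ.eq_pow_of_pow_eq_one hμ
  rw [map_pow, ← he, ← pow_mul, ← pow_mul, mul_comm]

/-- two exponents of the same element on `μ_n` are congruent modulo `n`. -/
theorem h36o_exponent_congr (n : ℕ) (hn : 0 < n) (a : h36oGQ) (e e' : ℕ)
    (he : ∀ μ : h36oQb, μ ^ n = 1 → a μ = μ ^ e)
    (he' : ∀ μ : h36oQb, μ ^ n = 1 → a μ = μ ^ e') : e ≡ e' [MOD n] := by
  haveI : NeZero n := ⟨hn.ne'⟩
  haveI : NeZero ((n : ℕ) : h36oQb) := ⟨by exact_mod_cast hn.ne'⟩
  obtain ⟨ζ, hζ⟩ : ∃ ζ : h36oQb, IsPrimitiveRoot ζ n :=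
    HasEnoughRootsOfUnity.exists_primitiveRoot h36oQb n
  have h : ζ ^ e = ζ ^ e' := (he ζ hζ.pow_eq_one).symm.trans (he' ζ hζ.pow_eq_one)
  have hζ0 : ζ ≠ 0 := hζ.ne_zero hn.ne'
  have h1 : ζ ^ ((e' : ℤ) - (e : ℤ)) = 1 := by
    rw [zpow_sub₀ hζ0, zpow_natCast, zpow_natCast, h, div_self (pow_ne_zero _ hζ0)]
  have h2 : (n : ℤ) ∣ (e' : ℤ) - (e : ℤ) := (hζ.zpow_eq_one_iff_dvd _).mp h1
  exact Int.natCast_modEq_iff.mp ((Int.modEq_iff_dvd).mpr h2)

set_option maxHeartbeats 1000000 in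
/-- **B3 FLAT-ORD**, elementwise form (frozen Prop of helper39), unconditional. -/
theorem h36o_flatOrd : H39FlatOrd := by
  intro p hp hp2 k M _ ρ hkill hflat P hP hord s hs s' hs' a ha
  haveI : Fact p.Prime := ⟨hp⟩
  haveI : Finite M := Fermat.Agent.P5.h97c_finite_of_flat hflat
  rcases Nat.eq_zero_or_pos k with hk | hk
  · -- `k = 0`: the module is trivial
    subst hk
    have h0 : ∀ x : M, x = 0 := fun x => by
      have := hkill x
      rwa [pow_zero, one_smul] at this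
    refine AddMonoidHom.ext fun w => ?_
    exact (h0 _).trans (h0 _).symm
  -- the decomposition group acting on `M`
  have hact : H48cAct (fun (d : ↥(P.decompositionSubgroup ℚ)) (x : M) => ρ (d : h36oGQ) x) :=
    ⟨fun x => by
        show ρ ((1 : ↥(P.decompositionSubgroup ℚ)) : h36oGQ) x = x
        rw [Subgroup.coe_one, map_one]
        rfl,
      fun σ τ x => by
        show ρ ((σ * τ : ↥(P.decompositionSubgroup ℚ)) : h36oGQ) x = _
        rw [Subgroup.coe_mul, map_mul]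
        rfl,
      fun σ x y => map_add _ x y⟩
  have hI : (P.inertiaSubgroup ℚ).Normal := by
    unfold ValuationSubring.inertiaSubgroup
    exact MonoidHom.normal_ker _
  have hpk : 0 < p ^ k := pow_pos hp.pos k
  have hdvd : p ∣ p ^ k := dvd_pow_self p hk.ne'
  obtain ⟨n, F, hF0, hFn, hmono, hstab, hstep⟩ :=
    h48c_chain (D := ↥(P.decompositionSubgroup ℚ)) (X := M) hact p k hkill
      (P.inertiaSubgroup ℚ) hI
      (fun d e => ∀ μ : h36oQb, μ ^ p ^ k = 1 → (d : h36oGQ) μ = μ ^ e)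
      (fun d _ => h36o_exists_exponent (p ^ k) hpk (d : h36oGQ))
      (fun μ _ => by
        rw [pow_one]
        rfl)
      (fun σ _ τ _ e f he hf μ hμ => by
        show ((σ * τ : ↥(P.decompositionSubgroup ℚ)) : h36oGQ) μ = μ ^ (e * f)
        rw [Subgroup.coe_mul, AlgEquiv.mul_apply, hf μ hμ, map_pow, he μ hμ, ← pow_mul])
      (fun σ _ e e' he he' =>
        (h36o_exponent_congr (p ^ k) hpk (σ : h36oGQ) e e' he he').of_dvd hdvd)
      (fun σ _ τ e he μ hμ => by
        show ((τ⁻¹ * σ * τ : ↥(P.decompositionSubgroup ℚ)) : h36oGQ) μ = μ ^ e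
        rw [Subgroup.coe_mul, Subgroup.coe_mul, Subgroup.coe_inv, AlgEquiv.mul_apply,
          AlgEquiv.mul_apply]
        have h1 : ((τ : h36oGQ) μ) ^ p ^ k = 1 := by rw [← map_pow, hμ, map_one]
        rw [he _ h1, map_pow]
        congr 1
        exact (τ : h36oGQ).symm_apply_apply μ)
      (fun σ hσ e he => by
        have hmem : (σ : h36oGQ) ∈ P.inertiaSubgroupIn ℚ := ⟨σ, hσ, rfl⟩
        have hcyc : ∀ ζ : h36oQb, ζ ^ p = 1 → (σ : h36oGQ) ζ = ζ ^ e := by
          intro ζ hζ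
          refine he ζ ?_
          obtain ⟨c, hc⟩ := hdvd
          rw [hc, pow_mul, hζ, one_pow]
        obtain ⟨r, hr⟩ := hord (σ : h36oGQ) hmem e hcyc
        refine ⟨r, fun x => ?_⟩
        rw [h48c_quad_iter hact σ e r x]
        have e1 : h48cHom hact σ = ρ (σ : h36oGQ) := AddMonoidHom.ext fun _ => rfl
        rw [e1, hr]
        rfl)
  -- the global form of B3
  have hB := h72v_flatOrd p hp2 k M (fun σ x => ρ σ x)
    ⟨fun x => by
        show ρ 1 x = x
        rw [map_one]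
        rfl,
      fun σ τ x => by
        show ρ (σ * τ) x = ρ σ (ρ τ x)
        rw [map_mul]
        rfl,
      fun σ x y => map_add _ x y⟩
    hkill hflat P hP n F hF0 hFn hmono
    (fun i τ hτ x hx => hstab i ⟨τ, hτ⟩ x hx)
    (fun i a' ha' b' hb' e he x hx => by
      obtain ⟨a'', ha'', rfl⟩ := ha'
      obtain ⟨b'', hb'', rfl⟩ := hb'
      exact hstep i a'' ha'' b'' hb'' e he x hx)
    s' hs' s hs a ha
  refine AddMonoidHom.ext fun w => ?_
  show ρ s' (ρ s w - w) - a • (ρ s w - w) = 0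
  rw [sub_eq_zero]
  exact hB w

end Fermat.Agent.P6
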