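import Mathlib
import Fermat.Prelude.Def_GaloisRep_LocalConditions

/-!
# Wave 6 (S33), block B4-OLD (helper36): the residual input

* `h36o_trace_eq_of_ord` : an endomorphism `f` of a free module with basis `(b 0, b 1)` such that
  `f v - v ∈ ⟨b 0⟩` for every `v` has `tr f = 1 + det f`.
* `h36o_res_trace` : if the residual representation of `ρ` is ordinary at `p`, then
  `tr ρ(s) - 1 - det ρ(s) ∈ 𝔪` for every `s` in the inertia group of a place over `p`.
* `h36o_isNilpotent_of_pointwise` : on a finite additive group, a pointwise nilpotent additive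
  endomorphism is nilpotent.
-/

set_option autoImplicit false
set_option linter.style.haveILetI false
set_option linter.unusedSectionVars false

open GaloisRep

noncomputable section

namespace Fermat.Agent.P6

theorem h36o_trace_eq_of_ord {K V : Type*} [CommRing K] [AddCommGroup V] [Module K V]
    (b : Module.Basis (Fin 2) K V) (f : V →ₗ[K] V)
    (h : ∀ v : V, f v - v ∈ Submodule.span K {b 0}) :
    LinearMap.trace K V f = 1 + LinearMap.det f := by
  obtain ⟨χ, hχ⟩ := Submodule.mem_span_singleton.mp (h (b 0))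
  obtain ⟨c, hc⟩ := Submodule.mem_span_singleton.mp (h (b 1))
  have h0 : f (b 0) = (1 + χ) • b 0 := by
    rw [add_smul, one_smul, hχ]
    abel
  have h1 : f (b 1) = b 1 + c • b 0 := by
    rw [hc]
    abel
  have m00 : LinearMap.toMatrix b b f 0 0 = 1 + χ := by
    rw [LinearMap.toMatrix_apply, h0, map_smul]
    simp
  have m10 : LinearMap.toMatrix b b f 1 0 = 0 := by
    rw [LinearMap.toMatrix_apply, h0, map_smul]
    simp
  have m11 : LinearMap.toMatrix b b f 1 1 = 1 := by
    rw [LinearMap.toMatrix_apply, h1, map_add, map_smul]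
    simp
  rw [LinearMap.trace_eq_matrix_trace K b f, ← LinearMap.det_toMatrix b f, Matrix.trace_fin_two,
    Matrix.det_fin_two, m00, m10, m11]
  ring

theorem h36o_res_trace {T : Type} [CommRing T] [IsLocalRing T] (ρ : GaloisRepAdic T) (p : ℕ)
    (hres : (GaloisRepAdic.ofResidualGaloisRep ρ.residual).IsOrdinaryAt p)
    (P : ValuationSubring (AlgebraicClosure ℚ)) (hP : P.LiesOverPrime p)
    (s : AlgebraicClosure ℚ ≃ₐ[ℚ] AlgebraicClosure ℚ) (hs : s ∈ P.inertiaSubgroupIn ℚ) :
    LinearMap.trace T ρ.V (ρ.ρ s) - 1 - LinearMap.det (ρ.ρ s) ∈ IsLocalRing.maximalIdeal T := by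
  obtain ⟨L, ⟨b, hL⟩, -, hI⟩ := hres P hP
  have h1 : LinearMap.trace (IsLocalRing.ResidueField T)
      (TensorProduct T (IsLocalRing.ResidueField T) ρ.V)
      ((ρ.ρ s).baseChange (IsLocalRing.ResidueField T)) =
      1 + LinearMap.det ((ρ.ρ s).baseChange (IsLocalRing.ResidueField T)) :=
    h36o_trace_eq_of_ord (K := IsLocalRing.ResidueField T)
      (V := TensorProduct T (IsLocalRing.ResidueField T) ρ.V) b
      ((ρ.ρ s).baseChange (IsLocalRing.ResidueField T)) (fun v => by
        have := hI s hs v
        rw [hL] at this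
        exact this)
  rw [LinearMap.trace_baseChange, LinearMap.det_baseChange] at h1
  rw [← IsLocalRing.residue_eq_zero_iff, map_sub, map_sub, map_one]
  have e : ∀ x : T, IsLocalRing.residue T x = algebraMap T (IsLocalRing.ResidueField T) x :=
    fun _ => rfl
  rw [e, e, h1]
  ring

theorem h36o_isNilpotent_of_pointwise {X : Type*} [AddCommGroup X] [Finite X]
    (f : AddMonoid.End X) (h : ∀ x : X, ∃ r : ℕ, (f ^ r) x = 0) : IsNilpotent f := by
  classical
  haveI := Fintype.ofFinite X
  choose r hr using h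
  refine ⟨Finset.univ.sup r, AddMonoidHom.ext fun x => ?_⟩
  have hle : r x ≤ Finset.univ.sup r := Finset.le_sup (Finset.mem_univ x)
  obtain ⟨d, hd⟩ := Nat.exists_eq_add_of_le hle
  rw [hd, add_comm, pow_add]
  show (f ^ d) ((f ^ r x) x) = (0 : AddMonoid.End X) x
  rw [hr x, map_zero]
  rfl

end Fermat.Agent.P6
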