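import Fermat.Agent.P6.H36OldCheb
import Fermat.Agent.P6.H36OldRes
import Fermat.Agent.P6.H39FlatOrdIface
import Fermat.Agent.P5.H97FlatClos

/-!
# Wave 6 (S33), block B4-OLD (helper36): STAR on the old part

`h36o_starOld : H39FlatOrd → (S19 at the levels prime to p) → H36oStarOld`.

`H` a Hecke–Galois datum of level `N` with ordinary residual representation, `M ∣ N` prime to
`p`, `X` the `𝔪`-part of `J₀(M)[p ^ k]`.

* `X` is stable under `G_ℚ` and the Hecke operators (`h36o_gal_mem`, `h36o_hecke_mem`);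
* `X` is flat at `p` (S19 at level `M` + `h97c_flat_sub`);
* ORD (`h36o_ord`): for `σ` in the inertia group at `P ∣ p` acting by `a` on `μ_p`,
  `(σ - 1)(σ - a) = Θ(u) σ - Θ(u')` on `J₀(M)[p ^ k]` with `π u, π u' ∈ 𝔪_T`
  (Eichler–Shimura + Chebotarev `h36o_cheb`, the residual representation being ordinary:
  `tr ρ(σ) ≡ 1 + det ρ(σ)`, `det ρ(σ) ≡ a`), hence nilpotent on `X`;
* B3 (`H39FlatOrd`) gives STAR on `X`.
-/

set_option autoImplicit false
set_option linter.style.haveILetI false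
set_option linter.unusedSectionVars false

open ModularCurve GaloisRep

noncomputable section

namespace Fermat.Agent.P6

open Fermat.Agent.P5
open Fermat.Agent.S29 (GQ)
open Fermat.Agent.S30 (acTrace)
open Fermat.Agent.S31 (TI_evS tpjGal tpjHecke TI_Small)

section Main

variable {p : ℕ} {N : ℕ} [NeZero N] {S : Finset ℕ}
  {𝒪 : Type} [CommRing 𝒪] [IsDomain 𝒪] [IsDiscreteValuationRing 𝒪]
  [IsAdicComplete (IsLocalRing.maximalIdeal 𝒪) 𝒪]
  {θ : CuspForm.heckeAlgebra N 2 (↑S : Set ℕ) →+* IsLocalRing.ResidueField 𝒪}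
  {T : Type} [CommRing T] [IsLocalRing T] [IsNoetherianRing T]
  [IsAdicComplete (IsLocalRing.maximalIdeal T) T] [Algebra 𝒪 T] [IsLocalHom (algebraMap 𝒪 T)]
  [Module.Finite 𝒪 T] [Module.Free 𝒪 T]

/-- the `𝔪`-part is stable under Galois. -/
theorem h36o_gal_mem (M : ℕ) [NeZero M] (H : CuspForm.HeckeGaloisRepDatum N (↑S : Set ℕ) 𝒪 θ T)
    (hcM : HeckeOperatorsCommuteBar M) (k : ℕ) (g : GQ) (w : h30xTors M p k)
    (hw : w ∈ h36oMPart M p H hcM k) : h30xGal M p k g w ∈ h36oMPart M p H hcM k := by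
  intro u hu
  obtain ⟨r, hr⟩ := hw u hu
  refine ⟨r, ?_⟩
  have hc : Commute (h30xHecke M p k S hcM u ^ r) (h30xGal M p k g) :=
    (h36o_commute M hcM S p k u g).pow_left r
  have e : (h30xHecke M p k S hcM u ^ r) (h30xGal M p k g w) =
      h30xGal M p k g ((h30xHecke M p k S hcM u ^ r) w) :=
    congrArg (fun φ : AddMonoid.End (h30xTors M p k) => φ w) hc.eq
  rw [e, hr, map_zero]

/-- the `𝔪`-part is stable under the Hecke operators. -/
theorem h36o_hecke_mem (M : ℕ) [NeZero M]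
    (H : CuspForm.HeckeGaloisRepDatum N (↑S : Set ℕ) 𝒪 θ T)
    (hcM : HeckeOperatorsCommuteBar M) (k : ℕ) (v : MvPolynomial Nat.Primes ℤ)
    (w : h30xTors M p k) (hw : w ∈ h36oMPart M p H hcM k) :
    h30xHecke M p k S hcM v w ∈ h36oMPart M p H hcM k := by
  intro u hu
  obtain ⟨r, hr⟩ := hw u hu
  refine ⟨r, ?_⟩
  have hc : h30xHecke M p k S hcM u ^ r * h30xHecke M p k S hcM v =
      h30xHecke M p k S hcM v * h30xHecke M p k S hcM u ^ r := by
    rw [← map_pow, ← map_mul, ← map_mul, mul_comm]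
  have e : (h30xHecke M p k S hcM u ^ r) (h30xHecke M p k S hcM v w) =
      h30xHecke M p k S hcM v ((h30xHecke M p k S hcM u ^ r) w) :=
    congrArg (fun φ : AddMonoid.End (h30xTors M p k) => φ w) hc
  rw [e, hr, map_zero]

/-- the Galois action on the `𝔪`-part. -/
def h36oGalX (M p : ℕ) [NeZero M] (H : CuspForm.HeckeGaloisRepDatum N (↑S : Set ℕ) 𝒪 θ T)
    (hcM : HeckeOperatorsCommuteBar M) (k : ℕ) :
    GQ →* AddMonoid.End ↥(h36oMPart M p H hcM k) :=
  h30xResG (h36oMPart M p H hcM k) (h30xGal M p k)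
    (fun g w hw => h36o_gal_mem M H hcM k g w hw)

/-- the Hecke action on the `𝔪`-part. -/
def h36oHeckeX (M p : ℕ) [NeZero M] (H : CuspForm.HeckeGaloisRepDatum N (↑S : Set ℕ) 𝒪 θ T)
    (hcM : HeckeOperatorsCommuteBar M) (k : ℕ) :
    MvPolynomial Nat.Primes ℤ →+* AddMonoid.End ↥(h36oMPart M p H hcM k) :=
  h30xResR (h36oMPart M p H hcM k) (h30xHecke M p k S hcM)
    (fun v w hw => h36o_hecke_mem M H hcM k v w hw)

theorem h36oGalX_coe (M p : ℕ) [NeZero M] (H : CuspForm.HeckeGaloisRepDatum N (↑S : Set ℕ) 𝒪 θ T)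
    (hcM : HeckeOperatorsCommuteBar M) (k : ℕ) (g : GQ) (x : ↥(h36oMPart M p H hcM k)) :
    ((h36oGalX M p H hcM k g x : ↥(h36oMPart M p H hcM k)) : h30xTors M p k) =
      h30xGal M p k g (x : h30xTors M p k) := rfl

theorem h36oHeckeX_coe (M p : ℕ) [NeZero M]
    (H : CuspForm.HeckeGaloisRepDatum N (↑S : Set ℕ) 𝒪 θ T)
    (hcM : HeckeOperatorsCommuteBar M) (k : ℕ) (v : MvPolynomial Nat.Primes ℤ)
    (x : ↥(h36oMPart M p H hcM k)) :
    ((h36oHeckeX M p H hcM k v x : ↥(h36oMPart M p H hcM k)) : h30xTors M p k) =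
      h30xHecke M p k S hcM v (x : h30xTors M p k) := rfl

/-- operators on the torsion restrict to the `𝔪`-part. -/
theorem h36o_restrict (M p : ℕ) [NeZero M]
    (H : CuspForm.HeckeGaloisRepDatum N (↑S : Set ℕ) 𝒪 θ T)
    (hcM : HeckeOperatorsCommuteBar M) (k : ℕ)
    (φ : AddMonoid.End (h30xTors M p k)) (ψ : AddMonoid.End ↥(h36oMPart M p H hcM k))
    (h : ∀ x : ↥(h36oMPart M p H hcM k),
      ((ψ x : ↥(h36oMPart M p H hcM k)) : h30xTors M p k) = φ (x : h30xTors M p k))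
    (hφ : φ = 0) : ψ = 0 := by
  refine AddMonoidHom.ext fun x => Subtype.ext ?_
  refine (h x).trans ?_
  rw [hφ]
  rfl

/-- a Hecke polynomial with image in `𝔪_T` is nilpotent on the `𝔪`-part. -/
theorem h36o_hecke_nilpotent (hp : p.Prime) (M : ℕ) [NeZero M]
    (H : CuspForm.HeckeGaloisRepDatum N (↑S : Set ℕ) 𝒪 θ T)
    (hcM : HeckeOperatorsCommuteBar M) (k : ℕ) (u : MvPolynomial Nat.Primes ℤ)
    (hu : H.π (TI_evS N S u) ∈ IsLocalRing.maximalIdeal T) :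
    IsNilpotent (h36oHeckeX M p H hcM k u) := by
  haveI hfinW : Finite (h30xTors M p k) := h30x_finite_tors M p k hp
  haveI hfinX : Finite ↥(h36oMPart M p H hcM k) := Subtype.finite
  have key : ∀ x : ↥(h36oMPart M p H hcM k), ∃ r : ℕ, (h36oHeckeX M p H hcM k u ^ r) x = 0 := by
    intro x
    obtain ⟨r, hr⟩ := x.2 u hu
    refine ⟨r, Subtype.ext ?_⟩
    have e1 : h36oHeckeX M p H hcM k u ^ r = h36oHeckeX M p H hcM k (u ^ r) := (map_pow _ u r).symm
    have e2 : h30xHecke M p k S hcM (u ^ r) = h30xHecke M p k S hcM u ^ r := map_pow _ u r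
    rw [e1, h36oHeckeX_coe, e2]
    exact hr
  exact h36o_isNilpotent_of_pointwise (X := ↥(h36oMPart M p H hcM k))
    (h36oHeckeX M p H hcM k u) key

/-- the algebra of ORD: `g + δ g⁻¹ = τ` with `τ - 1 - a`, `δ - a` nilpotent (everything
commuting) gives `(g - 1)(g - a)` nilpotent. -/
theorem h36o_ord_alg {E : Type*} [Ring E] (G G' t d : E) (a : ℕ) (hG'G : G' * G = 1)
    (hrel : G + d * G' = t) (htG : Commute t G) (hdG : Commute d G) (htd : Commute t d)
    (hn : IsNilpotent (t - 1 - (a : E))) (hn' : IsNilpotent (d - (a : E))) :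
    IsNilpotent ((G - 1) * (G - (a : E))) := by
  have hGG : G * G = t * G - d := by
    rw [← hrel, add_mul, mul_assoc, hG'G, mul_one]
    abel
  have hcomm : G * (a : E) = (a : E) * G := (Nat.cast_commute a G).symm.eq
  have hid : (G - 1) * (G - (a : E)) = (t - 1 - (a : E)) * G - (d - (a : E)) := by
    simp only [sub_mul, mul_sub, one_mul, hGG, hcomm]
    abel
  rw [hid]
  have c1 : Commute (t - 1 - (a : E)) G :=
    (htG.sub_left (Commute.one_left G)).sub_left (Nat.cast_commute a G)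
  have c2 : Commute (t - 1 - (a : E)) (d - (a : E)) :=
    ((htd.sub_left (Commute.one_left d)).sub_left (Nat.cast_commute a d)).sub_right
      (Nat.commute_cast _ a)
  have c3 : Commute G (d - (a : E)) := hdG.symm.sub_right (Nat.commute_cast G a)
  exact Commute.isNilpotent_sub (Commute.mul_left c2 c3) (c1.isNilpotent_mul_right hn) hn'

set_option maxHeartbeats 2000000 in
/-- **ORD on the `𝔪`-part**: for `σ` in the inertia group at `P ∣ p`, acting by `a` on `μ_p`,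
`(σ - 1)(σ - a)` is nilpotent on the `𝔪`-part of `J₀(M)[p ^ k]`. -/
theorem h36o_ord (hp : p.Prime) (hp𝒪 : (p : 𝒪) ∈ IsLocalRing.maximalIdeal 𝒪)
    (hpS : p ∈ S) (hNS : ∀ q : ℕ, q.Prime → q ∣ N → q ∈ S)
    (H : CuspForm.HeckeGaloisRepDatum N (↑S : Set ℕ) 𝒪 θ T)
    (hres : (GaloisRepAdic.ofResidualGaloisRep H.ρ.residual).IsOrdinaryAt p)
    (M : ℕ) [NeZero M] (hMN : M ∣ N) (hcM : HeckeOperatorsCommuteBar M) (k : ℕ)
    (P : ValuationSubring (AlgebraicClosure ℚ)) (hP : P.LiesOverPrime p)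
    (σ : GQ) (hσ : σ ∈ P.inertiaSubgroupIn ℚ) (a : ℕ)
    (ha : ∀ ζ : AlgebraicClosure ℚ, ζ ^ p = 1 → σ ζ = ζ ^ a) :
    IsNilpotent ((h36oGalX M p H hcM k σ - 1) *
      (h36oGalX M p H hcM k σ - (a : AddMonoid.End ↥(h36oMPart M p H hcM k)))) := by
  haveI : Fact p.Prime := ⟨hp⟩
  haveI := Fermat.Agent.S30.CycCharAdic.hasEnoughRootsOfUnity_Qb p 1
  obtain ⟨ζ, hζ'⟩ := HasEnoughRootsOfUnity.exists_primitiveRoot (AlgebraicClosure ℚ) (p ^ 1)
  have hζ : IsPrimitiveRoot ζ p := by rwa [pow_one] at hζ'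
  obtain ⟨ℓ, j, hA, hB, hC, hD⟩ := h36o_cheb hp hpS hNS H M hMN hcM k hζ σ
  have hpT : (p : T) ∈ IsLocalRing.maximalIdeal T := h23u_p_mem hp𝒪
  -- `ℓ ^ j ≡ a` modulo `p`
  have hmod : a ≡ (ℓ : ℕ) ^ j [MOD p] :=
    Fermat.Agent.S29.CycChar.modEq_of_pow_eq hζ hp.pos ((ha ζ hζ.pow_eq_one).symm.trans hB)
  have hla : (((((ℓ : ℕ) : ℤ) ^ j : ℤ)) : T) - (a : T) ∈ IsLocalRing.maximalIdeal T := by
    obtain ⟨c, hc⟩ := (Nat.modEq_iff_dvd.mp hmod)
    have h5 : (((((ℓ : ℕ) : ℤ) ^ j : ℤ)) : T) - (a : T) = (p : T) * (c : T) := by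
      have := congrArg (Int.cast : ℤ → T) hc
      push_cast at this
      push_cast
      exact this
    rw [h5]
    exact Ideal.mul_mem_right _ _ hpT
  have hord := h36o_res_trace H.ρ p hres P hP σ hσ
  -- the two polynomials
  generalize hτ : acTrace (MvPolynomial.X ℓ) (MvPolynomial.C ((ℓ : ℕ) : ℤ)) j = τ at hA hC
  have hu : H.π (TI_evS N S (τ - 1 - MvPolynomial.C ((a : ℕ) : ℤ))) ∈
      IsLocalRing.maximalIdeal T := by
    have e1 : H.π (TI_evS N S (τ - 1 - MvPolynomial.C ((a : ℕ) : ℤ))) =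
        H.π (TI_evS N S τ) - 1 - (a : T) := by
      rw [map_sub, map_sub, map_sub, map_sub, map_one, map_one]
      congr 1
      exact (h30x_map_C (H.π.comp (TI_evS N S : MvPolynomial Nat.Primes ℤ →+*
        CuspForm.heckeAlgebra N 2 (↑S : Set ℕ))) ((a : ℕ) : ℤ)).trans (Int.cast_natCast a)
    have e2 : H.π (TI_evS N S τ) - 1 - (a : T) =
        -(LinearMap.trace T H.ρ.V (H.ρ.ρ σ) - H.π (TI_evS N S τ)) +
          (LinearMap.trace T H.ρ.V (H.ρ.ρ σ) - 1 - LinearMap.det (H.ρ.ρ σ)) +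
          (LinearMap.det (H.ρ.ρ σ) - (((((ℓ : ℕ) : ℤ) ^ j : ℤ)) : T)) +
          ((((((ℓ : ℕ) : ℤ) ^ j : ℤ)) : T) - (a : T)) := by ring
    rw [e1, e2]
    exact Ideal.add_mem _ (Ideal.add_mem _ (Ideal.add_mem _ (neg_mem hC) hord) hD) hla
  have hu' : H.π (TI_evS N S (MvPolynomial.C (((ℓ : ℕ) : ℤ) ^ j) -
      MvPolynomial.C ((a : ℕ) : ℤ))) ∈ IsLocalRing.maximalIdeal T := by
    have e1 : H.π (TI_evS N S (MvPolynomial.C (((ℓ : ℕ) : ℤ) ^ j) -
        MvPolynomial.C ((a : ℕ) : ℤ))) = (((((ℓ : ℕ) : ℤ) ^ j : ℤ)) : T) - (a : T) := by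
      rw [map_sub, map_sub]
      congr 1
      · exact h30x_map_C (H.π.comp (TI_evS N S : MvPolynomial Nat.Primes ℤ →+*
          CuspForm.heckeAlgebra N 2 (↑S : Set ℕ))) _
      · exact (h30x_map_C (H.π.comp (TI_evS N S : MvPolynomial Nat.Primes ℤ →+*
          CuspForm.heckeAlgebra N 2 (↑S : Set ℕ))) ((a : ℕ) : ℤ)).trans (Int.cast_natCast a)
    rw [e1]
    exact hla
  have hn := h36o_hecke_nilpotent hp M H hcM k _ hu
  have hn' := h36o_hecke_nilpotent hp M H hcM k _ hu'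
  -- the operators on the `𝔪`-part
  have hΘa : h36oHeckeX M p H hcM k (MvPolynomial.C ((a : ℕ) : ℤ)) =
      (a : AddMonoid.End ↥(h36oMPart M p H hcM k)) :=
    (h30x_map_C (h36oHeckeX M p H hcM k) ((a : ℕ) : ℤ)).trans (Int.cast_natCast a)
  have en : h36oHeckeX M p H hcM k (τ - 1 - MvPolynomial.C ((a : ℕ) : ℤ)) =
      h36oHeckeX M p H hcM k τ - 1 - (a : AddMonoid.End ↥(h36oMPart M p H hcM k)) := by
    have e1 : h36oHeckeX M p H hcM k (τ - 1 - MvPolynomial.C ((a : ℕ) : ℤ)) =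
        h36oHeckeX M p H hcM k (τ - 1) -
          h36oHeckeX M p H hcM k (MvPolynomial.C ((a : ℕ) : ℤ)) := RingHom.map_sub _ _ _
    have e2 : h36oHeckeX M p H hcM k (τ - 1) =
        h36oHeckeX M p H hcM k τ - h36oHeckeX M p H hcM k 1 := RingHom.map_sub _ _ _
    have e3 : h36oHeckeX M p H hcM k 1 = 1 := RingHom.map_one _
    exact e1.trans (congrArg₂ (fun x y : AddMonoid.End ↥(h36oMPart M p H hcM k) => x - y)
      (e2.trans (congrArg (fun y : AddMonoid.End ↥(h36oMPart M p H hcM k) =>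
        h36oHeckeX M p H hcM k τ - y) e3)) hΘa)
  have en' : h36oHeckeX M p H hcM k (MvPolynomial.C (((ℓ : ℕ) : ℤ) ^ j) -
        MvPolynomial.C ((a : ℕ) : ℤ)) =
      h36oHeckeX M p H hcM k (MvPolynomial.C (((ℓ : ℕ) : ℤ) ^ j)) -
        (a : AddMonoid.End ↥(h36oMPart M p H hcM k)) := by
    have e1 : h36oHeckeX M p H hcM k (MvPolynomial.C (((ℓ : ℕ) : ℤ) ^ j) -
        MvPolynomial.C ((a : ℕ) : ℤ)) =
        h36oHeckeX M p H hcM k (MvPolynomial.C (((ℓ : ℕ) : ℤ) ^ j)) -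
          h36oHeckeX M p H hcM k (MvPolynomial.C ((a : ℕ) : ℤ)) := RingHom.map_sub _ _ _
    exact e1.trans (congrArg (fun y : AddMonoid.End ↥(h36oMPart M p H hcM k) =>
      h36oHeckeX M p H hcM k (MvPolynomial.C (((ℓ : ℕ) : ℤ) ^ j)) - y) hΘa)
  replace hn := en ▸ hn
  replace hn' := en' ▸ hn'
  have hG'G : h36oGalX M p H hcM k σ⁻¹ * h36oGalX M p H hcM k σ = 1 := by
    rw [← map_mul, inv_mul_cancel, map_one]
  have hrel : h36oGalX M p H hcM k σ +
      h36oHeckeX M p H hcM k (MvPolynomial.C (((ℓ : ℕ) : ℤ) ^ j)) * h36oGalX M p H hcM k σ⁻¹ =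
      h36oHeckeX M p H hcM k τ := by
    refine AddMonoidHom.ext fun x => Subtype.ext ?_
    exact congrArg (fun φ : AddMonoid.End (h30xTors M p k) => φ (x : h30xTors M p k)) hA
  have hcommX : ∀ v : MvPolynomial Nat.Primes ℤ,
      Commute (h36oHeckeX M p H hcM k v) (h36oGalX M p H hcM k σ) := by
    intro v
    show h36oHeckeX M p H hcM k v * h36oGalX M p H hcM k σ =
      h36oGalX M p H hcM k σ * h36oHeckeX M p H hcM k v
    refine AddMonoidHom.ext fun x => Subtype.ext ?_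
    exact congrArg (fun φ : AddMonoid.End (h30xTors M p k) => φ (x : h30xTors M p k))
      (h36o_commute M hcM S p k v σ).eq
  have hΘΘ : Commute (h36oHeckeX M p H hcM k τ)
      (h36oHeckeX M p H hcM k (MvPolynomial.C (((ℓ : ℕ) : ℤ) ^ j))) :=
    (Commute.all τ (MvPolynomial.C (((ℓ : ℕ) : ℤ) ^ j))).map (h36oHeckeX M p H hcM k)
  exact h36o_ord_alg (h36oGalX M p H hcM k σ) (h36oGalX M p H hcM k σ⁻¹)
    (h36oHeckeX M p H hcM k τ) (h36oHeckeX M p H hcM k (MvPolynomial.C (((ℓ : ℕ) : ℤ) ^ j)))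
    a hG'G hrel (hcommX τ) (hcommX _) hΘΘ hn hn'

/-- **B4-OLD**: STAR on the `𝔪`-part of `J₀(M)[p ^ k]` (`M ∣ N` prime to `p`), from B3 (FLAT-ORD)
and S19 at the levels prime to `p`. -/
theorem h36o_starOld (hB3 : H39FlatOrd)
    (hS19 : ∀ (M : ℕ) [NeZero M] (p : ℕ), p.Prime → ¬ p ∣ M → H30xS19 M p) : H36oStarOld := by
  intro p N _ S 𝒪 _ _ _ _ θ T _ _ _ _ _ _ _ _ _ hp hp2 hp𝒪 hpS hNS H hres M _ hMN hpM hcM k
    P hP s hs s' hs' c hc w hw
  haveI : Fact p.Prime := ⟨hp⟩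
  -- flatness of the `𝔪`-part
  have hflat : h97c_Flat p ↥(h36oMPart M p H hcM k) (fun σ x => h36oGalX M p H hcM k σ x) :=
    h97c_flat_sub (h36oMPart M p H hcM k) _ (fun σ x => rfl)
      (h30x_flat_of_s19 (hS19 M p hp hpM) k)
  -- `p ^ k` kills the `𝔪`-part
  have hkill : ∀ x : ↥(h36oMPart M p H hcM k), p ^ k • x = 0 := by
    intro x
    refine Subtype.ext (Subtype.ext ?_)
    exact h30x_nsmul_eq_zero M p k (x : h30xTors M p k)
  have hstar := hB3 p hp hp2 k ↥(h36oMPart M p H hcM k) (h36oGalX M p H hcM k) hkill hflat P hP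
    (fun σ hσ a ha => h36o_ord hp hp𝒪 hpS hNS H hres M hMN hcM k P hP σ hσ a ha)
    s hs s' hs' c hc
  have h1 : ((h36oGalX M p H hcM k s' - (c : AddMonoid.End ↥(h36oMPart M p H hcM k))) *
      (h36oGalX M p H hcM k s - 1)) ⟨w, hw⟩ = 0 := by
    rw [hstar]
    rfl
  have h2 := congrArg (fun z : ↥(h36oMPart M p H hcM k) => (z : h30xTors M p k)) h1
  exact h2

end Main

end Fermat.Agent.P6
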