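import Fermat.Agent.P6.H36OldIface
import Fermat.Agent.P6.H23DetUnit

/-!
# Wave 6 (S33), block B4-OLD (helper36): Chebotarev at two levels

`h36o_cheb` : `H` a Hecke–Galois datum of level `N` away from `S`, `M ∣ N`; for every `g : G_ℚ`
there are a prime `ℓ ∉ S` and `j` with

* `g + ℓ ^ j g⁻¹ = Θ_M (the j-th power sum of X ^ 2 - T_ℓ X + ℓ)` on `J₀(M)[p ^ k]`;
* `g ζ = ζ ^ (ℓ ^ j)` for the given primitive `p`-th root of unity `ζ`;
* `tr ρ(g) ≡ π (the same power sum)` and `det ρ(g) ≡ ℓ ^ j` modulo `𝔪_T`.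

(Weak Chebotarev on the compositum of the field of `J₀(M)[p ^ k]`, `ℚ(ζ)` and the field of
`ρ` modulo `𝔪_T`; same proof as `Fermat.Agent.P5.h30x_cheb`, the torsion taken at level `M`.)
-/

set_option autoImplicit false
set_option linter.style.haveILetI false
set_option linter.unusedSectionVars false

open ModularCurve GaloisRep

noncomputable section

namespace Fermat.Agent.P6

open Fermat.Agent.P5
open Fermat.Agent.S29 (GQ)
open Fermat.Agent.S30 (acTrace)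
open Fermat.Agent.S31 (TI_evS tpjGal tpjHecke TI_Small)

section Cheb

variable {p : ℕ} {N : ℕ} [NeZero N] {S : Finset ℕ}
  {𝒪 : Type} [CommRing 𝒪] [IsDomain 𝒪] [IsDiscreteValuationRing 𝒪]
  [IsAdicComplete (IsLocalRing.maximalIdeal 𝒪) 𝒪]
  {θ : CuspForm.heckeAlgebra N 2 (↑S : Set ℕ) →+* IsLocalRing.ResidueField 𝒪}
  {T : Type} [CommRing T] [IsLocalRing T] [IsNoetherianRing T]
  [IsAdicComplete (IsLocalRing.maximalIdeal T) T] [Algebra 𝒪 T] [IsLocalHom (algebraMap 𝒪 T)]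
  [Module.Finite 𝒪 T] [Module.Free 𝒪 T]

/-- Hecke operators and Galois commute on `J₀(M)[p ^ k]`. -/
theorem h36o_commute (M : ℕ) [NeZero M] (hcM : HeckeOperatorsCommuteBar M) (S : Finset ℕ)
    (p k : ℕ) (u : MvPolynomial Nat.Primes ℤ) (g : GQ) :
    Commute (h30xHecke M p k S hcM u) (h30xGal M p k g) :=
  (Fermat.Agent.S31.tpj_commute M (Fermat.Agent.S30.geometricInputsFull.1 M) (h30xKap S u)
    g).map (h30xResT M p k)

set_option maxHeartbeats 4000000 in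
/-- **Chebotarev at two levels.** -/
theorem h36o_cheb (hp : p.Prime) (hpS : p ∈ S) (hNS : ∀ q : ℕ, q.Prime → q ∣ N → q ∈ S)
    (H : CuspForm.HeckeGaloisRepDatum N (↑S : Set ℕ) 𝒪 θ T)
    (M : ℕ) [NeZero M] (hMN : M ∣ N) (hcM : HeckeOperatorsCommuteBar M) (k : ℕ)
    {ζ : AlgebraicClosure ℚ} (hζ : IsPrimitiveRoot ζ p) (g : GQ) :
    ∃ (ℓ : Nat.Primes) (j : ℕ),
      (h30xGal M p k g + h30xHecke M p k S hcM (MvPolynomial.C (((ℓ : ℕ) : ℤ) ^ j)) *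
          h30xGal M p k g⁻¹ =
        h30xHecke M p k S hcM (acTrace (MvPolynomial.X ℓ) (MvPolynomial.C ((ℓ : ℕ) : ℤ)) j)) ∧
      g ζ = ζ ^ ((ℓ : ℕ) ^ j) ∧
      (LinearMap.trace T H.ρ.V (H.ρ.ρ g) -
        H.π (TI_evS N S (acTrace (MvPolynomial.X ℓ) (MvPolynomial.C ((ℓ : ℕ) : ℤ)) j)) ∈
          IsLocalRing.maximalIdeal T) ∧
      (LinearMap.det (H.ρ.ρ g) - (((((ℓ : ℕ) : ℤ) ^ j : ℤ)) : T) ∈
        IsLocalRing.maximalIdeal T) := by
  haveI : Fact p.Prime := ⟨hp⟩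
  have hCheb := Fermat.Agent.Cheb.weakChebotarev
  have hES := Fermat.Agent.S30.geometricInputsFull.2.1 M p hp
  have hTF := Fermat.Agent.S30.geometricInputsFull.2.2.1 M (p ^ k) (pow_pos hp.pos k)
  obtain ⟨L₁, hL₁, h₁⟩ := hTF.2
  have hL₂ : FiniteDimensional ℚ ↥(IntermediateField.adjoin ℚ {ζ}) :=
    IntermediateField.adjoin.finiteDimensional ((hζ.isIntegral hp.pos).tower_top (A := ℚ))
  obtain ⟨L₃, hL₃, h₃⟩ := H.ρ.isAdicContinuous 1
  have hfd12 : FiniteDimensional ℚ ↥(L₁ ⊔ IntermediateField.adjoin ℚ {ζ}) :=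
    IntermediateField.finiteDimensional_sup L₁ _
  have hfd : FiniteDimensional ℚ ↥(L₁ ⊔ IntermediateField.adjoin ℚ {ζ} ⊔ L₃) :=
    IntermediateField.finiteDimensional_sup (L₁ ⊔ IntermediateField.adjoin ℚ {ζ}) L₃
  have hle₁ : L₁ ≤ L₁ ⊔ IntermediateField.adjoin ℚ {ζ} ⊔ L₃ := le_sup_left.trans le_sup_left
  have hle₂ : IntermediateField.adjoin ℚ {ζ} ≤ L₁ ⊔ IntermediateField.adjoin ℚ {ζ} ⊔ L₃ :=
    le_sup_right.trans le_sup_left
  have hle₃ : L₃ ≤ L₁ ⊔ IntermediateField.adjoin ℚ {ζ} ⊔ L₃ := le_sup_right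
  -- primes outside `S`
  have hMp : ∀ ℓ : ℕ, ℓ.Prime → ℓ ∉ S → ¬ ℓ ∣ M * p := by
    intro ℓ hℓ hℓS hdvd
    rcases (Nat.Prime.dvd_mul hℓ).mp hdvd with h | h
    · exact hℓS (hNS ℓ hℓ (h.trans hMN))
    · exact hℓS (((Nat.prime_dvd_prime_iff_eq hℓ hp).mp h) ▸ hpS)
  have hne : ∀ ℓ : ℕ, ℓ.Prime → ℓ ∉ S → ℓ ≠ p := fun ℓ _ hℓS h => hℓS (h ▸ hpS)
  have hnN : ∀ ℓ : ℕ, ℓ.Prime → ℓ ∉ S → ¬ ℓ ∣ N := fun ℓ hℓ hℓS h => hℓS (hNS ℓ hℓ h)
  -- elements fixing the field of `J₀(M)[p ^ k]` act trivially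
  have htriv : ∀ σ : GQ, (∀ y ∈ L₁, σ y = y) → h30xGal M p k σ = 1 := by
    intro σ hσ
    refine AddMonoidHom.ext fun x => Subtype.ext ?_
    show σ • (x : JZero M) = (x : JZero M)
    exact h₁ σ hσ _ (h30x_nsmul_eq_zero M p k x)
  obtain ⟨ℓ, hℓ, hℓS, A', hA', f, hf, j, hj⟩ :=
    hCheb (L₁ ⊔ IntermediateField.adjoin ℚ {ζ} ⊔ L₃) hfd g S
  -- `σ = (f ^ j)⁻¹ * g` fixes the compositum
  have hσ : ∀ x ∈ L₁ ⊔ IntermediateField.adjoin ℚ {ζ} ⊔ L₃, ((f ^ j)⁻¹ * g) x = x :=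
    fun x hx => by
      rw [AlgEquiv.mul_apply, hj x hx]
      exact (f ^ j).symm_apply_apply x
  have hg : g = f ^ j * ((f ^ j)⁻¹ * g) := by rw [mul_inv_cancel_left]
  have hℓN : ¬ ℓ ∣ N := hnN ℓ hℓ hℓS
  have hℓS' : ℓ ∉ (↑S : Set ℕ) := fun h => hℓS (Finset.mem_coe.mp h)
  have hs₃ : TI_Small (IsLocalRing.maximalIdeal T ^ 1) (H.ρ.ρ ((f ^ j)⁻¹ * g) - 1) :=
    fun v => by
      rw [LinearMap.sub_apply, Module.End.one_apply]
      exact h₃ _ (fun x hx => hσ x (hle₃ hx)) v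
  have hcp := H.charpoly_frob ℓ hℓ hℓN hℓS' A' hA' f hf
  refine ⟨⟨ℓ, hℓ⟩, j, ?_, ?_, ?_, ?_⟩
  · -- the relation on `J₀(M)[p ^ k]`
    have hσ1 : h30xGal M p k ((f ^ j)⁻¹ * g) = 1 := htriv _ fun y hy => hσ y (hle₁ hy)
    have hgx : h30xGal M p k g = h30xGal M p k f ^ j := by
      conv_lhs => rw [hg]
      rw [map_mul, hσ1, mul_one, map_pow]
    have hx'x : h30xGal M p k f⁻¹ * h30xGal M p k f = 1 := by
      rw [← map_mul, inv_mul_cancel, map_one]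
    have hgx' : h30xGal M p k g⁻¹ = h30xGal M p k f⁻¹ ^ j := by
      have e1 : h30xGal M p k g⁻¹ * h30xGal M p k g = 1 := by
        rw [← map_mul, inv_mul_cancel, map_one]
      have e2 : h30xGal M p k f ^ j * h30xGal M p k f⁻¹ ^ j = 1 := by
        rw [← map_pow, ← map_pow, ← map_mul, inv_pow, mul_inv_cancel, map_one]
      calc h30xGal M p k g⁻¹
          = h30xGal M p k g⁻¹ * (h30xGal M p k f ^ j * h30xGal M p k f⁻¹ ^ j) := by
            rw [e2, mul_one]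
        _ = (h30xGal M p k g⁻¹ * h30xGal M p k g) * h30xGal M p k f⁻¹ ^ j := by
            rw [hgx, mul_assoc]
        _ = h30xGal M p k f⁻¹ ^ j := by rw [e1, one_mul]
    have hb : Commute (h30xHecke M p k S hcM (MvPolynomial.X (⟨ℓ, hℓ⟩ : Nat.Primes)))
        (h30xGal M p k f) := h36o_commute M hcM S p k _ f
    have hESrel : h30xGal M p k f * h30xGal M p k f
        - h30xHecke M p k S hcM (MvPolynomial.X (⟨ℓ, hℓ⟩ : Nat.Primes)) * h30xGal M p k f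
        + h30xHecke M p k S hcM (MvPolynomial.C (((⟨ℓ, hℓ⟩ : Nat.Primes) : ℕ) : ℤ)) = 0 := by
      rw [h30x_map_C]
      refine AddMonoidHom.ext fun x => Subtype.ext ?_
      have hx := h30x_nsmul_eq_zero M p k x
      have h := hES.2 ℓ hℓ (hMp ℓ hℓ hℓS) A' hA' f hf (x : JZero M) ⟨k, hx⟩
      have e1 : ((h30xHecke M p k S hcM (MvPolynomial.X (⟨ℓ, hℓ⟩ : Nat.Primes))
          (h30xGal M p k f x) : h30xTors M p k) : JZero M) =
          heckeOperatorBar M ⟨ℓ, hℓ⟩ (f • (x : JZero M)) :=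
        h30xHecke_X M p k S hcM ⟨ℓ, hℓ⟩ hℓS (h30xGal M p k f x)
      have e2 : ((((((⟨ℓ, hℓ⟩ : Nat.Primes) : ℕ) : ℤ) : AddMonoid.End (h30xTors M p k)) x :
          h30xTors M p k) : JZero M) = ℓ • (x : JZero M) := by
        have := AddMonoid.End.intCast_apply ((((⟨ℓ, hℓ⟩ : Nat.Primes) : ℕ) : ℤ)) x
        rw [this]
        show (((ℓ : ℤ) • x : h30xTors M p k) : JZero M) = ℓ • (x : JZero M)
        rw [Submodule.coe_smul, natCast_zsmul]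
      show f • f • (x : JZero M)
        - ((h30xHecke M p k S hcM (MvPolynomial.X (⟨ℓ, hℓ⟩ : Nat.Primes))
          (h30xGal M p k f x) : h30xTors M p k) : JZero M)
        + ((((((⟨ℓ, hℓ⟩ : Nat.Primes) : ℕ) : ℤ) : AddMonoid.End (h30xTors M p k)) x :
          h30xTors M p k) : JZero M) = 0
      rw [e1, e2]
      exact h
    have hps := h30x_powsum (h30xHecke M p k S hcM) (⟨ℓ, hℓ⟩ : Nat.Primes) (h30xGal M p k f)
      (h30xGal M p k f⁻¹) hx'x hb hESrel j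
    rw [hgx, hgx']
    exact hps
  · -- the root of unity
    have hζmem : ζ ∈ L₁ ⊔ IntermediateField.adjoin ℚ {ζ} ⊔ L₃ :=
      hle₂ (IntermediateField.mem_adjoin_simple_self ℚ ζ)
    rw [hj ζ hζmem]
    refine h23u_frob_pow_root hp hℓ (hne ℓ hℓ hℓS) A' hA' hf 1 j ?_
    rw [pow_one]
    exact hζ.pow_eq_one
  · -- the trace
    have h := Fermat.Agent.S31.TI_approx_T H.ρ.finrank_eq (IsLocalRing.maximalIdeal T ^ 1)
      H.ρ.ρ f ((f ^ j)⁻¹ * g) j _ _ hcp hs₃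
    rw [← hg, pow_one] at h
    have e1 : H.π (TI_evS N S
        (acTrace (MvPolynomial.X (⟨ℓ, hℓ⟩ : Nat.Primes)) (MvPolynomial.C ((ℓ : ℕ) : ℤ)) j)) =
        acTrace (H.π (CuspForm.heckeAlgebra.T hℓ hℓN hℓS')) ((ℓ : T)) j := by
      have h1 := Fermat.Agent.S31.TI_map_acTrace
        (H.π.comp (TI_evS N S : MvPolynomial Nat.Primes ℤ →+*
          CuspForm.heckeAlgebra N 2 (↑S : Set ℕ)))
        (MvPolynomial.X (⟨ℓ, hℓ⟩ : Nat.Primes)) (MvPolynomial.C ((ℓ : ℕ) : ℤ)) j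
      have h2 : (H.π.comp (TI_evS N S : MvPolynomial Nat.Primes ℤ →+*
          CuspForm.heckeAlgebra N 2 (↑S : Set ℕ))) (MvPolynomial.X (⟨ℓ, hℓ⟩ : Nat.Primes)) =
          H.π (CuspForm.heckeAlgebra.T hℓ hℓN hℓS') := by
        rw [RingHom.comp_apply]
        congr 1
        exact Fermat.Agent.S31.TI_evS_X N S ⟨ℓ, hℓ⟩ hℓN hℓS'
      have h3 : (H.π.comp (TI_evS N S : MvPolynomial Nat.Primes ℤ →+*
          CuspForm.heckeAlgebra N 2 (↑S : Set ℕ))) (MvPolynomial.C ((ℓ : ℕ) : ℤ)) =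
          (ℓ : T) := by
        rw [MvPolynomial.C_eq_coe_nat, map_natCast]
      rw [h2, h3] at h1
      exact h1
    show LinearMap.trace T H.ρ.V (H.ρ.ρ g) - H.π (TI_evS N S
        (acTrace (MvPolynomial.X (⟨ℓ, hℓ⟩ : Nat.Primes)) (MvPolynomial.C ((ℓ : ℕ) : ℤ)) j)) ∈ _
    rw [e1]
    exact h
  · -- the determinant
    have hdetf : LinearMap.det (H.ρ.ρ f) = (ℓ : T) :=
      Fermat.Agent.S34.DI_det_of_charpoly H.ρ.finrank_eq _ _ _ hcp
    have hdets := Fermat.Agent.S34.DI_det_sub_one_mem hs₃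
    rw [pow_one] at hdets
    have e : LinearMap.det (H.ρ.ρ g) - ((((((⟨ℓ, hℓ⟩ : Nat.Primes) : ℕ) : ℤ) ^ j : ℤ)) : T) =
        (ℓ : T) ^ j * (LinearMap.det (H.ρ.ρ ((f ^ j)⁻¹ * g)) - 1) := by
      conv_lhs => rw [hg]
      rw [map_mul, map_mul, map_pow, map_pow, hdetf]
      push_cast
      ring
    rw [e]
    exact Ideal.mul_mem_left _ _ hdets

end Cheb

end Fermat.Agent.P6
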