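import Fermat.Agent.P6.H36OldS19
import Fermat.Agent.S19

/-!
# Wave 6 (S33), block B4-OLD (helper36): STAR on the old part, unconditionally

`h36o_starOld_final : H36oStarOld` : for a Hecke–Galois datum of level `N` with ordinary residual
representation, `M ∣ N` prime to `p` (`p` odd): `(s' - c)(s - 1) = 0` on the `𝔪`-part of
`J₀(M)[p ^ k]` for `s, s'` in the inertia group of a place over `p` (`s'` acting by `c` on
`μ_{p^k}`).

Inputs: S19 (`J₀(M)[p ^ k]` is flat at `p ∤ M`), B3 (`h36o_flatOrd`), ORD on the `𝔪`-part
(`h36o_ord`).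
-/

set_option autoImplicit false
set_option linter.style.haveILetI false

namespace Fermat.Agent.P6

/-- **B4-OLD**, unconditional. -/
theorem h36o_starOld_final : H36oStarOld :=
  h36o_starOld_of_s19 fun M _ p hp hpM k =>
    haveI : Fact p.Prime := ⟨hp⟩
    Fermat.Agent.S19.result M p hpM k

end Fermat.Agent.P6
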