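import Fermat.Agent.P6.H36Old
import Fermat.Agent.P6.H36FlatOrd

/-!
# Wave 6 (S33), block B4-OLD (helper36): STAR on the old part, from S19 only

`h36o_starOld_of_s19 : (S19 at the levels prime to p) → H36oStarOld`, with B3 in the elementwise
form (`h36o_flatOrd : H39FlatOrd`) plugged in.
-/

set_option autoImplicit false

namespace Fermat.Agent.P6

/-- **B4-OLD** from S19 at the levels prime to `p`. -/
theorem h36o_starOld_of_s19
    (hS19 : ∀ (M : ℕ) [NeZero M] (p : ℕ), p.Prime → ¬ p ∣ M → Fermat.Agent.P5.H30xS19 M p) :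
    H36oStarOld :=
  h36o_starOld h36o_flatOrd hS19

end Fermat.Agent.P6
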