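import Mathlib

/-!
# Wave 6 (S33), block B3 FLAT-ORD (helper39): the group theory

`h39w_eigen` : `G` a group, `χ : G →* (ZMod p)ˣ`, `V ≠ 0` a finite abelian group killed by `p`
with an action `ρ` of `G` such that `(ρ g - 1) (ρ g - χ g)` is nilpotent for every `g`.  Then
there is `v ≠ 0` on which `G` acts trivially, or on which `G` acts through `χ`.

Proof: `ker χ` acts through unipotent operators, hence through a `p`-group, so `V^{ker χ} ≠ 0`;
`G` acts on it through commuting operators; on a minimal stable subgroup every `g` is the scalar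
`1` or the scalar `χ g`; a group is not the union of two proper subgroups.
-/

set_option autoImplicit false
set_option linter.style.haveILetI false
set_option linter.unusedSectionVars false

namespace Fermat.Agent.P6

section Eigen

variable (p : ℕ) [Fact p.Prime] {G : Type*} [Group G] {V : Type*} [AddCommGroup V]

/-- the exponent of `g`. -/
def h39wExp (χ : G →* (ZMod p)ˣ) (g : G) : ℕ := ((χ g : (ZMod p)ˣ) : ZMod p).val

theorem h39w_smul_mod (hpV : ∀ v : V, p • v = 0) (n : ℕ) (v : V) : (n % p) • v = n • v := by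
  conv_rhs => rw [← Nat.div_add_mod n p]
  rw [add_smul, mul_smul, hpV, zero_add]

theorem h39w_smul_congr (hpV : ∀ v : V, p • v = 0) {m n : ℕ} (h : m ≡ n [MOD p]) (v : V) :
    m • v = n • v := by
  rw [← h39w_smul_mod p hpV m, ← h39w_smul_mod p hpV n, h]

theorem h39wExp_mul (χ : G →* (ZMod p)ˣ) (g h : G) :
    h39wExp p χ (g * h) ≡ h39wExp p χ g * h39wExp p χ h [MOD p] := by
  unfold h39wExp
  rw [map_mul, Units.val_mul, ZMod.val_mul]
  exact Nat.mod_modEq _ _

theorem h39wExp_of_ker (χ : G →* (ZMod p)ˣ) {g : G} (hg : χ g = 1) : h39wExp p χ g = 1 := by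
  unfold h39wExp
  rw [hg, Units.val_one]
  exact ZMod.val_one p

theorem h39wExp_not_dvd (χ : G →* (ZMod p)ˣ) (g : G) : ¬ p ∣ h39wExp p χ g := by
  unfold h39wExp
  intro h
  have h1 : ((((χ g : (ZMod p)ˣ) : ZMod p).val : ℕ) : ZMod p) = 0 :=
    (ZMod.natCast_eq_zero_iff _ _).mpr h
  rw [ZMod.natCast_val, ZMod.cast_id', id_eq] at h1
  exact (χ g).ne_zero h1

/-- cancellation of a unit scalar. -/
theorem h39w_smul_cancel (hpV : ∀ v : V, p • v = 0) {a : ℕ} (ha : ¬ p ∣ a) {v w : V}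
    (h : a • v = a • w) : v = w := by
  have hp : p.Prime := Fact.out
  have hcop : Nat.Coprime a p := (Nat.Coprime.symm ((Nat.Prime.coprime_iff_not_dvd hp).mpr ha))
  obtain ⟨b, -, hb⟩ := Nat.exists_mul_mod_eq_one_of_coprime hcop hp.one_lt
  have h1 : (b * a) ≡ 1 [MOD p] := by
    show (b * a) % p = 1 % p
    rw [mul_comm, hb, Nat.mod_eq_of_lt hp.one_lt]
  have h2 : ∀ x : V, b • (a • x) = x := fun x => by
    rw [← mul_smul, h39w_smul_congr p hpV h1, one_smul]
  rw [← h2 v, h, h2 w]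

theorem h39w_charP [Nontrivial V] (hpV : ∀ v : V, p • v = 0) : CharP (AddMonoid.End V) p := by
  refine ⟨fun n => ⟨fun h => ?_, ?_⟩⟩
  · by_contra hnd
    obtain ⟨v, hv⟩ := exists_ne (0 : V)
    have h1 : n • v = 0 := by
      have h2 := congrArg (fun f : AddMonoid.End V => f v) h
      simpa [AddMonoid.End.natCast_apply] using h2
    have h2 : n • v = n • (0 : V) := by rw [h1, smul_zero]
    exact hv (h39w_smul_cancel p hpV hnd h2)
  · rintro ⟨m, rfl⟩
    refine AddMonoidHom.ext fun v => ?_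
    show (p * m) • v = 0
    rw [mul_smul, hpV]

/-- a unipotent operator has `p`-power order. -/
theorem h39w_pow_eq_one [Nontrivial V] (hpV : ∀ v : V, p • v = 0) (u : AddMonoid.End V)
    (hu : IsNilpotent (u - 1)) : ∃ n : ℕ, u ^ p ^ n = 1 := by
  have hp : p.Prime := Fact.out
  haveI := h39w_charP p hpV
  obtain ⟨n, hn⟩ := hu
  refine ⟨n, ?_⟩
  have h1 : (u - 1) ^ p ^ n = 0 := pow_eq_zero_of_le (Nat.lt_pow_self hp.one_lt).le hn
  rw [sub_pow_char_pow_of_commute _ _ (Commute.one_right u), one_pow, sub_eq_zero] at h1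
  exact h1

theorem h39w_dvd_card [Finite V] [Nontrivial V] (hpV : ∀ v : V, p • v = 0) : p ∣ Nat.card V := by
  have hp : p.Prime := Fact.out
  obtain ⟨v, hv⟩ := exists_ne (0 : V)
  have h1 : addOrderOf v ∣ p := addOrderOf_dvd_of_nsmul_eq_zero (hpV v)
  rcases (Nat.dvd_prime hp).mp h1 with h | h
  · exact (hv (AddMonoid.addOrderOf_eq_one_iff.mp h)).elim
  · rw [← h]
    exact addOrderOf_dvd_natCard v

/-- **Kolchin** for a group of unipotent operators. -/
theorem h39w_kolchin [Finite V] [Nontrivial V] (hpV : ∀ v : V, p • v = 0)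
    (ρ : G →* AddMonoid.End V) (K : Subgroup G) (hK : ∀ h ∈ K, IsNilpotent (ρ h - 1)) :
    ∃ v : V, v ≠ 0 ∧ ∀ h ∈ K, ρ h v = v := by
  classical
  let ρu : G →* (AddMonoid.End V)ˣ := ρ.toHomUnits
  let P : Subgroup (AddMonoid.End V)ˣ := K.map ρu
  have hP : IsPGroup p P := by
    rintro ⟨x, hx⟩
    obtain ⟨h, hh, rfl⟩ := hx
    obtain ⟨n, hn⟩ := h39w_pow_eq_one p hpV (ρ h) (hK h hh)
    refine ⟨n, Subtype.ext (Units.ext ?_)⟩
    simpa [ρu] using hn
  have h0 : (0 : V) ∈ MulAction.fixedPoints P V := fun g => smul_zero g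
  obtain ⟨b, hb, hne⟩ :=
    hP.exists_fixed_point_of_prime_dvd_card_of_fixed_point V (h39w_dvd_card p hpV) h0
  refine ⟨b, fun h => hne h.symm, fun h hh => ?_⟩
  exact hb ⟨ρu h, Subgroup.mem_map_of_mem ρu hh⟩

/-- **the eigenvector lemma.** -/
theorem h39w_eigen [Finite V] [Nontrivial V] (hpV : ∀ v : V, p • v = 0)
    (ρ : G →* AddMonoid.End V) (χ : G →* (ZMod p)ˣ)
    (hnil : ∀ g : G,
      IsNilpotent ((ρ g - 1) * (ρ g - ((h39wExp p χ g : ℕ) : AddMonoid.End V)))) :
    ∃ v : V, v ≠ 0 ∧ ((∀ g, ρ g v = v) ∨ (∀ g, ρ g v = h39wExp p χ g • v)) := by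
  classical
  have hp : p.Prime := Fact.out
  -- the kernel of `χ` is unipotent
  have hK : ∀ h ∈ χ.ker, IsNilpotent (ρ h - 1) := by
    intro h hh
    have h1 := hnil h
    rw [h39wExp_of_ker p χ (MonoidHom.mem_ker.mp hh), Nat.cast_one, ← pow_two] at h1
    exact IsNilpotent.of_pow h1
  obtain ⟨v₀, hv₀, hfix⟩ := h39w_kolchin p hpV ρ χ.ker hK
  -- the fixed space of the kernel
  let W₀ : AddSubgroup V :=
    { carrier := {v | ∀ h ∈ χ.ker, ρ h v = v}
      zero_mem' := fun h _ => map_zero _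
      add_mem' := fun {a b} ha hb h hh => by rw [map_add, ha h hh, hb h hh]
      neg_mem' := fun {a} ha h hh => by rw [map_neg, ha h hh] }
  have hmulapp : ∀ (g g' : G) (w : V), ρ (g * g') w = ρ g (ρ g' w) := fun g g' w => by
    rw [map_mul]
    rfl
  have hW₀G : ∀ g : G, ∀ w ∈ W₀, ρ g w ∈ W₀ := by
    intro g w hw h hh
    have h1 : g⁻¹ * h * g ∈ χ.ker := by
      rw [MonoidHom.mem_ker, map_mul, map_mul, MonoidHom.mem_ker.mp hh, map_inv]
      simp
    have h2 := hw _ h1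
    have h3 : h * g = g * (g⁻¹ * h * g) := by group
    calc ρ h (ρ g w) = ρ (h * g) w := (hmulapp h g w).symm
      _ = ρ (g * (g⁻¹ * h * g)) w := by rw [← h3]
      _ = ρ g (ρ (g⁻¹ * h * g) w) := hmulapp _ _ w
      _ = ρ g w := by rw [h2]
  have hcomm : ∀ g g' : G, ∀ w ∈ W₀, ρ g (ρ g' w) = ρ g' (ρ g w) := by
    intro g g' w hw
    have h1 : (g' * g)⁻¹ * (g * g') ∈ χ.ker := by
      rw [MonoidHom.mem_ker, map_mul, map_inv, map_mul, map_mul, mul_comm (χ g') (χ g)]
      exact inv_mul_cancel _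
    have h2 := hw _ h1
    have h3 : (g' * g) * ((g' * g)⁻¹ * (g * g')) = g * g' := by group
    calc ρ g (ρ g' w) = ρ (g * g') w := (hmulapp g g' w).symm
      _ = ρ ((g' * g) * ((g' * g)⁻¹ * (g * g'))) w := by rw [h3]
      _ = ρ (g' * g) (ρ ((g' * g)⁻¹ * (g * g')) w) := hmulapp _ _ w
      _ = ρ (g' * g) w := by rw [h2]
      _ = ρ g' (ρ g w) := hmulapp g' g w
  -- a minimal stable subgroup
  let 𝒮 : Set (AddSubgroup V) := {W | W ≠ ⊥ ∧ W ≤ W₀ ∧ ∀ g : G, ∀ w ∈ W, ρ g w ∈ W}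
  have hW₀ne : W₀ ≠ ⊥ := by
    intro h
    have h1 : v₀ ∈ W₀ := hfix
    rw [h] at h1
    exact hv₀ (AddSubgroup.mem_bot.mp h1)
  have h𝒮 : 𝒮.Nonempty := ⟨W₀, hW₀ne, le_rfl, hW₀G⟩
  obtain ⟨W, hW𝒮, hWmin⟩ := WellFounded.has_min wellFounded_lt 𝒮 h𝒮
  obtain ⟨hWne, hWle, hWG⟩ := hW𝒮
  have hmin : ∀ W' : AddSubgroup V, W' ≤ W → W' ≠ ⊥ →
      (∀ g : G, ∀ w ∈ W', ρ g w ∈ W') → W' = W := by
    intro W' hle hne hG
    have h1 : W' ∈ 𝒮 := ⟨hne, hle.trans hWle, hG⟩
    exact eq_of_le_of_not_lt hle (hWmin W' h1)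
  obtain ⟨v, hvW, hv⟩ : ∃ v ∈ W, v ≠ 0 := by
    by_contra hcon
    push Not at hcon
    exact hWne ((AddSubgroup.eq_bot_iff_forall W).mpr hcon)
  -- every element acts by a scalar
  have hscal : ∀ g : G, (∀ w ∈ W, ρ g w = w) ∨ (∀ w ∈ W, ρ g w = h39wExp p χ g • w) := by
    intro g
    let K₁ : AddSubgroup V :=
      { carrier := {w | w ∈ W ∧ ρ g w = w}
        zero_mem' := ⟨W.zero_mem, map_zero _⟩
        add_mem' := fun {a b} ha hb => ⟨W.add_mem ha.1 hb.1, by rw [map_add, ha.2, hb.2]⟩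
        neg_mem' := fun {a} ha => ⟨W.neg_mem ha.1, by rw [map_neg, ha.2]⟩ }
    let K₂ : AddSubgroup V :=
      { carrier := {w | w ∈ W ∧ ρ g w = h39wExp p χ g • w}
        zero_mem' := ⟨W.zero_mem, by rw [map_zero, smul_zero]⟩
        add_mem' := fun {a b} ha hb =>
          ⟨W.add_mem ha.1 hb.1, by rw [map_add, ha.2, hb.2, smul_add]⟩
        neg_mem' := fun {a} ha => ⟨W.neg_mem ha.1, by rw [map_neg, ha.2, smul_neg]⟩ }
    have hK₁G : ∀ g' : G, ∀ w ∈ K₁, ρ g' w ∈ K₁ := fun g' w hw =>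
      ⟨hWG g' w hw.1, by rw [hcomm g g' w (hWle hw.1), hw.2]⟩
    have hK₂G : ∀ g' : G, ∀ w ∈ K₂, ρ g' w ∈ K₂ := fun g' w hw =>
      ⟨hWG g' w hw.1, by rw [hcomm g g' w (hWle hw.1), hw.2, map_nsmul]⟩
    by_cases h1 : K₁ = ⊥
    · right
      have hinj : ∀ w ∈ W, ρ g w - w = 0 → w = 0 := fun w hw h => by
        have h2 : w ∈ K₁ := ⟨hw, sub_eq_zero.mp h⟩
        rw [h1] at h2
        exact AddSubgroup.mem_bot.mp h2
      have hK₂ne : K₂ ≠ ⊥ := by
        obtain ⟨r, hr⟩ := hnil g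
        have hAB : Commute (ρ g - 1) (ρ g - ((h39wExp p χ g : ℕ) : AddMonoid.End V)) :=
          ((Commute.refl (ρ g)).sub_left (Commute.one_left _)).sub_right
            (Nat.commute_cast _ _)
        have hr' : (ρ g - 1) ^ r * (ρ g - ((h39wExp p χ g : ℕ) : AddMonoid.End V)) ^ r = 0 := by
          rw [← hAB.mul_pow]
          exact hr
        have hAW : ∀ w ∈ W, (ρ g - 1) w ∈ W := fun w hw => W.sub_mem (hWG g w hw) hw
        have hBW : ∀ w ∈ W, (ρ g - ((h39wExp p χ g : ℕ) : AddMonoid.End V)) w ∈ W :=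
          fun w hw => W.sub_mem (hWG g w hw) (W.nsmul_mem hw _)
        have hApow : ∀ n : ℕ, ∀ w ∈ W, ((ρ g - 1) ^ n) w = 0 → w = 0 := by
          intro n
          induction n with
          | zero =>
            intro w _ h
            simpa using h
          | succ n ih =>
            intro w hw h
            rw [pow_succ] at h
            exact hinj w hw (ih _ (hAW w hw) h)
        have hBpowW : ∀ n : ℕ, ∀ w ∈ W,
            ((ρ g - ((h39wExp p χ g : ℕ) : AddMonoid.End V)) ^ n) w ∈ W := by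
          intro n
          induction n with
          | zero =>
            intro w hw
            simpa using hw
          | succ n ih =>
            intro w hw
            rw [pow_succ]
            exact ih _ (hBW w hw)
        have hBr : ((ρ g - ((h39wExp p χ g : ℕ) : AddMonoid.End V)) ^ r) v = 0 := by
          refine hApow r _ (hBpowW r v hvW) ?_
          have h2 := congrArg (fun f : AddMonoid.End V => f v) hr'
          exact h2
        have hex : ∃ j : ℕ, ((ρ g - ((h39wExp p χ g : ℕ) : AddMonoid.End V)) ^ j) v = 0 :=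
          ⟨r, hBr⟩
        have hj := Nat.find_spec hex
        have hj0 : Nat.find hex ≠ 0 := by
          intro h0
          rw [h0, pow_zero] at hj
          exact hv hj
        obtain ⟨i, hi⟩ := Nat.exists_eq_succ_of_ne_zero hj0
        have hi' : ((ρ g - ((h39wExp p χ g : ℕ) : AddMonoid.End V)) ^ i) v ≠ 0 :=
          Nat.find_min hex (by omega : i < Nat.find hex)
        have hmem : ((ρ g - ((h39wExp p χ g : ℕ) : AddMonoid.End V)) ^ i) v ∈ K₂ := by
          refine ⟨hBpowW i v hvW, ?_⟩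
          rw [hi, pow_succ'] at hj
          exact sub_eq_zero.mp hj
        intro hbot
        rw [hbot] at hmem
        exact hi' (AddSubgroup.mem_bot.mp hmem)
      have h2 := hmin K₂ (fun w hw => hw.1) hK₂ne hK₂G
      intro w hw
      have hw' : w ∈ K₂ := by rw [h2]; exact hw
      exact hw'.2
    · left
      have h2 := hmin K₁ (fun w hw => hw.1) h1 hK₁G
      intro w hw
      have hw' : w ∈ K₁ := by rw [h2]; exact hw
      exact hw'.2
  -- a group is not the union of two proper subgroups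
  refine ⟨v, hv, ?_⟩
  by_contra hcon
  push Not at hcon
  obtain ⟨⟨g₁, h₁⟩, ⟨g₂, h₂⟩⟩ := hcon
  have e₁ : ∀ w ∈ W, ρ g₁ w = h39wExp p χ g₁ • w :=
    (hscal g₁).resolve_left (fun h => h₁ (h v hvW))
  have e₂ : ∀ w ∈ W, ρ g₂ w = w := (hscal g₂).resolve_right (fun h => h₂ (h v hvW))
  have e₁₂ : ρ (g₁ * g₂) v = h39wExp p χ g₁ • v := by
    rw [hmulapp, e₂ v hvW, e₁ v hvW]
  rcases hscal (g₁ * g₂) with h | h
  · apply h₁
    rw [e₁ v hvW, ← e₁₂, h v hvW]
  · have h3 := h v hvW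
    rw [e₁₂, h39w_smul_congr p hpV (h39wExp_mul p χ g₁ g₂) v, mul_smul] at h3
    have h5 := h39w_smul_cancel p hpV (h39wExp_not_dvd p χ g₁) h3
    apply h₂
    rw [e₂ v hvW]
    exact h5

end Eigen

end Fermat.Agent.P6
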