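import Fermat.Agent.P6.H39FlatOrdLocC

/-!
# Wave 6 (S33), block B3 FLAT-ORD (helper39): the local theorem

`h39z_flatOrdLoc : H39FlatOrdLoc` — for a module `M` killed by `p ^ k` with a conjugation stable
function Hopf order over inertia, ordinary in the elementwise sense, `(σ' - a)(σ - 1) = 0` on `M`
for `σ, σ'` in inertia (`a` the cyclotomic exponent of `σ'` on `μ_{p ^ k}`).

Proof: `X = {y ≡ 0 mod 𝔪}` is a `Gq p`-stable subgroup containing `(σ - 1) M` (H4); its order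
(restriction) is connected and ordinary, so every character `≡ 1` modulo `𝔪 N` is trivial
(`h39z_claimC`); by the dual (H4) (`h39y_twist_div`) every character `ξ` of `X` satisfies
`σ' ∘ ξ ∘ σ'⁻¹ = ξ`, i.e. `ξ (a • σ'⁻¹ y - y) = 1`; characters separate points.
-/

set_option autoImplicit false
set_option linter.style.haveILetI false
set_option linter.unusedSectionVars false

open Fermat.Agent.PT.Loc Fermat.Agent.S56F

noncomputable section

namespace Fermat.Agent.P6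

theorem h39z_coe_pow {𝒞 : Type*} [AddCommGroup 𝒞] (V₀ : AddSubgroup 𝒞)
    (f' : AddMonoid.End V₀) (f : AddMonoid.End 𝒞)
    (hf : ∀ v : V₀, ((f' v : V₀) : 𝒞) = f (v : 𝒞)) (r : ℕ) (v : V₀) :
    (((f' ^ r) v : V₀) : 𝒞) = (f ^ r) (v : 𝒞) := by
  induction r generalizing v with
  | zero => rfl
  | succ r ih =>
    rw [pow_succ, pow_succ]
    show (((f' ^ r) (f' v) : V₀) : 𝒞) = (f ^ r) (f (v : 𝒞))
    rw [ih, hf]

/-- **B3-LOC.** -/
theorem h39z_flatOrdLoc : H39FlatOrdLoc := by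
  intro p _ hp2 k M _ _ ρ hk 𝓗 hconj hord σ hσ σ' hσ' a ha
  classical
  have hact := h39z_isAct ρ
  have hmono : ∀ (y : M) (t s : ℝ), 𝓗.PtLE y t → t ≤ s → 𝓗.PtLE y s :=
    fun y t s h hts f hf => (h f hf).trans hts
  -- the connected part
  let X : AddSubgroup M :=
    { carrier := {y | ∃ t : ℝ, t < 1 ∧ 𝓗.PtLE y t}
      zero_mem' := ⟨0, zero_lt_one, (h38f_ptSubgroup p _ M _ 𝓗 0).1 le_rfl⟩
      add_mem' := by
        rintro y y' ⟨t, ht, hy⟩ ⟨t', ht', hy'⟩
        exact ⟨max t t', max_lt ht ht', (h38f_ptSubgroup p _ M _ 𝓗 (max t t')).2.1 y y'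
          (hmono y t _ hy (le_max_left _ _)) (hmono y' t' _ hy' (le_max_right _ _))⟩
      neg_mem' := by
        rintro y ⟨t, ht, hy⟩
        exact ⟨t, ht, (h38f_ptSubgroup p _ M _ 𝓗 t).2.2 y hy⟩ }
  have hXstab : ∀ τ : Gq p, ∀ y ∈ X, ρ τ y ∈ X := by
    rintro τ y ⟨t, ht, hy⟩
    exact ⟨t, ht, (h87f_ptStable p (inertia p) M _ hact 𝓗 t y hy).2.2 τ (hconj τ⁻¹)⟩
  let ρX : Gq p →* AddMonoid.End X :=
    { toFun := fun τ => ((ρ τ).comp X.subtype).codRestrict X (fun v => hXstab τ v v.2)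
      map_one' := by
        refine AddMonoidHom.ext fun v => Subtype.ext ?_
        show ρ 1 (v : M) = v
        rw [map_one]
        rfl
      map_mul' := fun g h => by
        refine AddMonoidHom.ext fun v => Subtype.ext ?_
        show ρ (g * h) (v : M) = ρ g (ρ h (v : M))
        rw [map_mul]
        rfl }
  have hcoe : ∀ τ (v : X), ((ρX τ v : X) : M) = ρ τ (v : M) := fun τ v => rfl
  -- the restricted order
  obtain ⟨𝓗X, hcar, -⟩ := h87f_subOrder p (inertia p) M (fun σ x => ρ σ x) 𝓗 X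
    (fun σ x => ρX σ x) X.subtype Subtype.val_injective (fun σ _ x => rfl)
  have hkX : ∀ x : X, p ^ k • x = 0 := fun x => Subtype.ext (by
    rw [AddSubgroup.coe_nsmul]
    exact hk _)
  have hconnX : ∀ g ∈ 𝓗X.carrier, ∀ x : X, ‖g x - g 0‖ < 1 := by
    intro g hg x
    obtain ⟨f, hf, rfl⟩ := (hcar g).mp hg
    obtain ⟨t, ht, hy⟩ := x.2
    exact lt_of_le_of_lt (hy f hf) ht
  have hordX : ∀ σ ∈ inertia p, ∀ a : ℕ, cycExp p σ a →
      IsNilpotent ((ρX σ - 1) * (ρX σ - ((a : ℕ) : AddMonoid.End X))) := by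
    intro σ hσ a ha
    obtain ⟨r, hr⟩ := hord σ hσ a ha
    have hN : ∀ v : X,
        ((((ρX σ - 1) * (ρX σ - ((a : ℕ) : AddMonoid.End X))) v : X) : M) =
          ((ρ σ - 1) * (ρ σ - ((a : ℕ) : AddMonoid.End M))) (v : M) := by
      intro v
      show ((ρX σ (ρX σ v - a • v) - (ρX σ v - a • v) : X) : M) =
        ρ σ (ρ σ (v : M) - a • (v : M)) - (ρ σ (v : M) - a • (v : M))
      simp only [AddSubgroup.coe_sub, hcoe, AddSubgroup.coe_nsmul]
    refine ⟨r, AddMonoidHom.ext fun v => Subtype.ext ?_⟩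
    refine (h39z_coe_pow X _ _ hN r v).trans ?_
    rw [hr]
    rfl
  -- the dual of `X` is étale
  have hZ := h39z_claimC 𝓗X hp2 k hkX hconnX hordX
  -- inertia acts on `X` through the cyclotomic character
  have key : ∀ y : X, ρX σ' y = a • y := by
    intro y
    have hz : a • ρX σ'⁻¹ y - y = 0 := by
      by_contra hz
      obtain ⟨ξ, h0, hmul, hξ⟩ := h39y_exists_char (p := p) X hz
      have h1 := h39y_twist_div 𝓗X ξ h0 hmul σ' hσ'
      have h2 := hZ (fun y => σ' (ξ (ρX σ'⁻¹ y)) * ξ (-y))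
        (by
          show σ' (ξ (ρX σ'⁻¹ 0)) * ξ (-0) = 1
          rw [map_zero, neg_zero, h0, map_one, mul_one])
        (fun x y => by
          show σ' (ξ (ρX σ'⁻¹ (x + y))) * ξ (-(x + y)) =
            σ' (ξ (ρX σ'⁻¹ x)) * ξ (-x) * (σ' (ξ (ρX σ'⁻¹ y)) * ξ (-y))
          rw [map_add, hmul, map_mul, neg_add, hmul]
          ring)
        h1 y
      have h3 : σ' (ξ (ρX σ'⁻¹ y)) = ξ y := by
        have h4 := h39y_char_neg ξ h0 hmul y
        have h5 : σ' (ξ (ρX σ'⁻¹ y)) * ξ (-y) = 1 := h2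
        calc σ' (ξ (ρX σ'⁻¹ y)) = σ' (ξ (ρX σ'⁻¹ y)) * (ξ y * ξ (-y)) := by rw [h4, mul_one]
          _ = (σ' (ξ (ρX σ'⁻¹ y)) * ξ (-y)) * ξ y := by ring
          _ = ξ y := by rw [h5, one_mul]
      have h6 : ξ (ρX σ'⁻¹ y) ^ p ^ k = 1 := by
        rw [← h39y_char_pow ξ h0 hmul, hkX, h0]
      rw [ha _ h6, ← h39y_char_pow ξ h0 hmul] at h3
      apply hξ
      rw [sub_eq_add_neg, hmul, h3]
      exact h39y_char_neg ξ h0 hmul y
    have h7 : a • ρX σ'⁻¹ y = y := sub_eq_zero.mp hz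
    have h8 := congrArg (ρX σ') h7
    rw [map_nsmul, h39z_inv_apply ρX σ' y] at h8
    exact h8.symm
  -- conclusion
  refine AddMonoidHom.ext fun w => ?_
  show ρ σ' (ρ σ w - w) - a • (ρ σ w - w) = 0
  have hyX : ρ σ w - w ∈ X := h87f_inertiaTrivial p (inertia p) M _ 𝓗 le_rfl σ hσ w
  have h1 := congrArg Subtype.val (key ⟨ρ σ w - w, hyX⟩)
  rw [sub_eq_zero]
  exact h1

end Fermat.Agent.P6
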