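import Fermat.Agent.P6.H39FlatOrdLocIface
import Fermat.Agent.S56F.FLB10P_helper15
import Fermat.Agent.S56F.FLC1_helper7
import Fermat.Agent.S56F.FLD1_helper45

/-!
# Wave 6 (S33), block B3 FLAT-ORD (helper39): the local analysis

`Om p = PadicAlgCl p`, `I = inertia p`, `𝓗` a function Hopf order over `I` on `X`,
`N = h15u_N 𝓗` its `intOm`-span.

* `h39y_root_eq_one` : a `p`-power root of unity `z` with `‖z - 1‖ ≤ ‖p‖` is `1` (`p` odd);
* `h39yM 𝓗 F` : `F ∈ 𝔪 N` (`F = c • G`, `‖c‖ < 1`, `G ∈ N`), with its calculus;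
* `h39y_basis` : a basis of `N` inside `𝓗`, linearly independent over `Om p`;
* `h39y_small` : an `I`-equivariant `F ∈ 𝔪 N` has `‖F y‖ ≤ ‖p‖` (saturation + discreteness);
* `h39y_twist_div` : dual (H4): for a character `ξ` and `σ ∈ I`, `ξ^σ / ξ - 1 ∈ 𝔪 N`;
* `h39y_etale_trivial` : a connected order with trivial inertia action is trivial.
-/

set_option autoImplicit false
set_option linter.style.haveILetI false
set_option linter.unusedSectionVars false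

open Fermat.Agent.PT.Loc Fermat.Agent.S56F

noncomputable section

namespace Fermat.Agent.P6

section Roots

variable {p : ℕ} [Fact p.Prime]

theorem h39y_norm_p_pos : 0 < ‖((p : ℕ) : Om p)‖ := by
  rw [h7g_norm_p]
  have hp : p.Prime := Fact.out
  have h1 : (0 : ℝ) < p := by exact_mod_cast hp.pos
  exact inv_pos.mpr h1

theorem h39y_norm_p_lt : ‖((p : ℕ) : Om p)‖ < 1 := by
  rw [h7g_norm_p]
  have hp : p.Prime := Fact.out
  have h1 : (1 : ℝ) < p := by exact_mod_cast hp.one_lt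
  exact inv_lt_one_of_one_lt₀ h1

/-- a `p`-th root of unity close to `1` is `1`. -/
theorem h39y_root_eq_one_aux (hp2 : p ≠ 2) {z : Om p} (hz : z ^ p = 1)
    (hn : ‖z - 1‖ ≤ ‖((p : ℕ) : Om p)‖) : z = 1 := by
  have hp : p.Prime := Fact.out
  by_contra hz1
  have hprim : IsPrimitiveRoot z p := by
    have h0 := IsPrimitiveRoot.orderOf z
    rw [orderOf_eq_prime hz hz1] at h0
    exact h0
  have h1 := h7g_norm_zeta_sub_one hprim
  have hq0 := h39y_norm_p_pos (p := p)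
  have hq1 := h39y_norm_p_lt (p := p)
  have hp3 : 2 ≤ p - 1 := by
    have := hp.two_le
    omega
  have h2 : ‖z - 1‖ ^ (p - 1) ≤ ‖((p : ℕ) : Om p)‖ ^ (p - 1) :=
    pow_le_pow_left₀ (norm_nonneg _) hn _
  have h3 : ‖((p : ℕ) : Om p)‖ ^ (p - 1) ≤ ‖((p : ℕ) : Om p)‖ ^ 2 :=
    pow_le_pow_of_le_one hq0.le hq1.le hp3
  have h4 : ‖((p : ℕ) : Om p)‖ ^ 2 < ‖((p : ℕ) : Om p)‖ := by
    rw [pow_two]
    calc ‖((p : ℕ) : Om p)‖ * ‖((p : ℕ) : Om p)‖ < 1 * ‖((p : ℕ) : Om p)‖ :=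
          mul_lt_mul_of_pos_right hq1 hq0
      _ = _ := one_mul _
  rw [h1] at h2
  linarith

/-- **roots of unity**: a `p`-power root of unity `z` with `‖z - 1‖ ≤ ‖p‖` is `1`. -/
theorem h39y_root_eq_one (hp2 : p ≠ 2) (k : ℕ) {z : Om p} (hz : z ^ p ^ k = 1)
    (hn : ‖z - 1‖ ≤ ‖((p : ℕ) : Om p)‖) : z = 1 := by
  induction k generalizing z with
  | zero => simpa using hz
  | succ k ih =>
    have hz1 : ‖z‖ ≤ 1 := by
      have hp : p.Prime := Fact.out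
      rw [h7g_norm_root_of_unity (pow_ne_zero (k + 1) hp.ne_zero) hz]
    have h1 : (z ^ p) ^ p ^ k = 1 := by rw [← pow_mul, ← pow_succ']; exact hz
    have h2 : z ^ p = 1 := ih h1 ((h7g_norm_pow_sub_one_le hz1 p).trans hn)
    exact h39y_root_eq_one_aux hp2 h2 hn

end Roots

section Span

variable {p : ℕ} [Fact p.Prime] {Γ : Subgroup (Gq p)} {X : Type} [AddCommGroup X]
  {act : Gq p → X → X}

/-- `F ∈ 𝔪 N`. -/
def h39yM (𝓗 : FHO p Γ X act) (F : X → Om p) : Prop :=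
  ∃ c : Om p, ‖c‖ < 1 ∧ ∃ G ∈ h15u_N 𝓗, F = c • G

theorem h39yM_smul (𝓗 : FHO p Γ X act) {c : Om p} (hc : ‖c‖ < 1) {G : X → Om p}
    (hG : G ∈ h15u_N 𝓗) : h39yM 𝓗 (c • G) := ⟨c, hc, G, hG, rfl⟩

theorem h39yM_zero (𝓗 : FHO p Γ X act) : h39yM 𝓗 0 :=
  ⟨0, by rw [norm_zero]; exact zero_lt_one, 0, Submodule.zero_mem _, by rw [smul_zero]⟩

theorem h39yM_add (𝓗 : FHO p Γ X act) {F₁ F₂ : X → Om p} (h₁ : h39yM 𝓗 F₁)
    (h₂ : h39yM 𝓗 F₂) : h39yM 𝓗 (F₁ + F₂) := by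
  obtain ⟨c₁, hc₁, G₁, hG₁, rfl⟩ := h₁
  obtain ⟨c₂, hc₂, G₂, hG₂, rfl⟩ := h₂
  have key : ∀ (c c' : Om p) (G G' : X → Om p), ‖c‖ < 1 → ‖c'‖ ≤ ‖c‖ → G ∈ h15u_N 𝓗 →
      G' ∈ h15u_N 𝓗 → h39yM 𝓗 (c • G + c' • G') := by
    intro c c' G G' hc hle hG hG'
    by_cases h0 : c = 0
    · have h0' : c' = 0 := by
        rw [h0, norm_zero] at hle
        exact norm_le_zero_iff.mp hle
      rw [h0, h0', zero_smul, zero_smul, add_zero]
      exact h39yM_zero 𝓗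
    · refine ⟨c, hc, G + (c' / c) • G', ?_, ?_⟩
      · refine Submodule.add_mem _ hG (h15u_smul_mem 𝓗 ?_ hG')
        rw [norm_div]
        exact div_le_one_of_le₀ hle (norm_nonneg _)
      · rw [smul_add, smul_smul, mul_div_cancel₀ _ h0]
  rcases le_total ‖c₂‖ ‖c₁‖ with h | h
  · exact key c₁ c₂ G₁ G₂ hc₁ h hG₁ hG₂
  · rw [add_comm]
    exact key c₂ c₁ G₂ G₁ hc₂ h hG₂ hG₁

theorem h39yM_sum (𝓗 : FHO p Γ X act) {ι : Type*} (s : Finset ι) (d : ι → Om p)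
    (f : ι → X → Om p) (hd : ∀ i ∈ s, ‖d i‖ < 1) (hf : ∀ i ∈ s, f i ∈ h15u_N 𝓗) :
    h39yM 𝓗 (∑ i ∈ s, d i • f i) := by
  classical
  induction s using Finset.induction_on with
  | empty => rw [Finset.sum_empty]; exact h39yM_zero 𝓗
  | insert a s ha ih =>
    rw [Finset.sum_insert ha]
    exact h39yM_add 𝓗
      (h39yM_smul 𝓗 (hd a (Finset.mem_insert_self a s)) (hf a (Finset.mem_insert_self a s)))
      (ih (fun i hi => hd i (Finset.mem_insert_of_mem hi))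
        (fun i hi => hf i (Finset.mem_insert_of_mem hi)))

theorem h39yM_mul (𝓗 : FHO p Γ X act) {F H : X → Om p} (hF : h39yM 𝓗 F)
    (hH : H ∈ h15u_N 𝓗) : h39yM 𝓗 (F * H) := by
  obtain ⟨c, hc, G, hG, rfl⟩ := hF
  refine ⟨c, hc, G * H, h15u_mul_mem 𝓗 hG hH, ?_⟩
  funext y
  show c * G y * H y = c * (G y * H y)
  ring

theorem h39yM_neg (𝓗 : FHO p Γ X act) {F : X → Om p} (hF : h39yM 𝓗 F) : h39yM 𝓗 (-F) := by
  obtain ⟨c, hc, G, hG, rfl⟩ := hF
  exact ⟨c, hc, -G, Submodule.neg_mem _ hG, by rw [smul_neg]⟩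

/-- a basis of `N` inside the order, linearly independent over `Om p`. -/
theorem h39y_basis (𝓗 : FHO p Γ X act) :
    ∃ (ι : Type) (_ : Fintype ι) (e : ι → X → Om p), (∀ i, e i ∈ 𝓗.carrier) ∧
      LinearIndependent (Om p) e ∧
      ∀ F : X → Om p, F ∈ h15u_N 𝓗 ↔ ∃ c : ι → Om p, (∀ i, ‖c i‖ ≤ 1) ∧ F = ∑ i, c i • e i := by
  classical
  obtain ⟨T, hT, hli, hspan⟩ := h15u_exists_basis 𝓗
  refine ⟨{t // t ∈ T}, inferInstance, fun t => (t : X → Om p), fun t => hT t.2, hli,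
    fun F => ⟨fun hF => ?_, ?_⟩⟩
  · rw [← hspan] at hF
    obtain ⟨f, hf⟩ := Submodule.mem_span_finset'.mp hF
    refine ⟨fun t => ((f t : intOm p) : Om p), fun t => (f t).2.1, ?_⟩
    rw [← hf]
    rfl
  · rintro ⟨c, hc, rfl⟩
    refine Submodule.sum_mem _ fun t _ => ?_
    exact h15u_smul_mem 𝓗 (hc t) (Submodule.subset_span (hT t.2))

end Span

section Inertia

variable {p : ℕ} [Fact p.Prime] {X : Type} [AddCommGroup X] {act : Gq p → X → X}

/-- discreteness of the inertia field. -/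
theorem h39y_disc {x : Om p} (hx : x ∈ fixInt p (inertia p)) (hlt : ‖x‖ < 1) :
    ‖x‖ ≤ ‖((p : ℕ) : Om p)‖ := by
  by_cases h0 : x = 0
  · rw [h0, norm_zero]
    exact norm_nonneg _
  obtain ⟨-, -, -, hD⟩ := h45f_inertiaDiscrete p
  obtain ⟨n, u, -, hu, rfl⟩ := hD x hx h0
  rw [norm_mul, norm_pow, hu, mul_one] at hlt ⊢
  have hn : n ≠ 0 := by
    rintro rfl
    simp at hlt
  exact pow_le_of_le_one (norm_nonneg _) h39y_norm_p_lt.le hn

theorem h39y_char_pow {Q : Type} [AddCommGroup Q] (ξ : Q → Om p) (h0 : ξ 0 = 1)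
    (hmul : ∀ x y, ξ (x + y) = ξ x * ξ y) (n : ℕ) (q : Q) : ξ (n • q) = ξ q ^ n := by
  induction n with
  | zero => simp [h0]
  | succ n ih => rw [succ_nsmul, hmul, ih, pow_succ]

theorem h39y_char_neg {Q : Type} [AddCommGroup Q] (ξ : Q → Om p) (h0 : ξ 0 = 1)
    (hmul : ∀ x y, ξ (x + y) = ξ x * ξ y) (q : Q) : ξ q * ξ (-q) = 1 := by
  rw [← hmul, add_neg_cancel, h0]

/-- **saturation + discreteness**: an equivariant element of `𝔪 N` is divisible by `p`. -/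
theorem h39y_small (𝓗 : FHO p (inertia p) X act) {F : X → Om p} (hF : h39yM 𝓗 F)
    (heq : ∀ σ ∈ inertia p, ∀ x, F (act σ x) = σ (F x)) (y : X) :
    ‖F y‖ ≤ ‖((p : ℕ) : Om p)‖ := by
  classical
  obtain ⟨ι, _, e, he, hli, hN⟩ := h39y_basis 𝓗
  obtain ⟨c₀, hc₀, G, hG, rfl⟩ := hF
  obtain ⟨g, hg, rfl⟩ := (hN G).mp hG
  have hFy : ∀ x, (c₀ • ∑ i, g i • e i) x = ∑ i, (c₀ * g i) * e i x := by
    intro x
    simp only [Pi.smul_apply, Finset.sum_apply, smul_eq_mul, Finset.mul_sum, mul_assoc]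
  have hcoef : ∀ i, ‖c₀ * g i‖ < 1 := fun i => by
    rw [norm_mul]
    calc ‖c₀‖ * ‖g i‖ ≤ ‖c₀‖ * 1 := mul_le_mul_of_nonneg_left (hg i) (norm_nonneg _)
      _ = ‖c₀‖ := mul_one _
      _ < 1 := hc₀
  have hfix : ∀ σ ∈ inertia p, ∀ i, σ (c₀ * g i) = c₀ * g i := by
    intro σ hσ i
    have hrel : ∑ j, (σ.symm (c₀ * g j) - c₀ * g j) • e j = 0 := by
      funext x
      have h1 := heq σ hσ x
      rw [hFy, hFy] at h1
      have h2 : ∀ j, e j (act σ x) = σ (e j x) := fun j => 𝓗.equivariant (e j) (he j) σ hσ x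
      simp only [h2] at h1
      have h3 := congrArg σ.symm h1
      simp only [map_sum, map_mul, AlgEquiv.symm_apply_apply] at h3
      simp only [Finset.sum_apply, Pi.smul_apply, smul_eq_mul, Pi.zero_apply, sub_mul,
        Finset.sum_sub_distrib]
      rw [sub_eq_zero]
      simp only [map_mul]
      exact h3
    have h4 := Fintype.linearIndependent_iff.mp hli _ hrel i
    have h5 : σ.symm (c₀ * g i) = c₀ * g i := sub_eq_zero.mp h4
    have h6 := congrArg σ h5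
    rw [AlgEquiv.apply_symm_apply] at h6
    exact h6.symm
  rw [hFy]
  refine h7g_norm_sum_le _ _ (norm_nonneg _) fun i _ => ?_
  rw [norm_mul]
  have h1 : ‖c₀ * g i‖ ≤ ‖((p : ℕ) : Om p)‖ :=
    h39y_disc ⟨(hcoef i).le, fun σ hσ => hfix σ hσ i⟩ (hcoef i)
  calc ‖c₀ * g i‖ * ‖e i y‖ ≤ ‖((p : ℕ) : Om p)‖ * 1 :=
        mul_le_mul h1 (h38f_valuesIntegral p (inertia p) X act 𝓗 (e i) (he i) y)
          (norm_nonneg _) (norm_nonneg _)
    _ = _ := mul_one _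

/-- dual (H4), additive form. -/
theorem h39y_twist_sub [Finite X] (𝓗 : FHO p (inertia p) X act)
    (ξ : X → Om p) (h0 : ξ 0 = 1) (hmul : ∀ x y, ξ (x + y) = ξ x * ξ y) (σ : Gq p)
    (hσ : σ ∈ inertia p) : h39yM 𝓗 (fun y => σ (ξ (act σ⁻¹ y)) - ξ y) := by
  classical
  obtain ⟨ι, _, e, he, hli, hN⟩ := h39y_basis 𝓗
  have hξN : ξ ∈ h15u_N 𝓗 := h15f_charCompleteAll p (inertia p) X act 𝓗 ξ h0 hmul
  obtain ⟨c, hc, hξ⟩ := (hN ξ).mp hξN
  have h1 : ∀ x, ξ x = ∑ i, c i * e i x := fun x => by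
    conv_lhs => rw [hξ]
    simp only [Finset.sum_apply, Pi.smul_apply, smul_eq_mul]
  have key : (fun y => σ (ξ (act σ⁻¹ y)) - ξ y) = ∑ i, (σ (c i) - c i) • e i := by
    funext y
    have h2 : ∀ i, σ (e i (act σ⁻¹ y)) = e i y := fun i => by
      rw [𝓗.equivariant (e i) (he i) σ⁻¹ (inv_mem hσ) y, AlgEquiv.aut_inv,
        AlgEquiv.apply_symm_apply]
    show σ (ξ (act σ⁻¹ y)) - ξ y = _
    rw [h1, h1, map_sum]
    simp only [map_mul, h2, Finset.sum_apply, Pi.smul_apply, smul_eq_mul, sub_mul,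
      Finset.sum_sub_distrib]
  rw [key]
  exact h39yM_sum 𝓗 Finset.univ _ e (fun i _ => hσ (c i) (hc i))
    (fun i _ => Submodule.subset_span (he i))

/-- dual (H4): `ξ^σ / ξ - 1 ∈ 𝔪 N`. -/
theorem h39y_twist_div [Finite X] (𝓗 : FHO p (inertia p) X act)
    (ξ : X → Om p) (h0 : ξ 0 = 1) (hmul : ∀ x y, ξ (x + y) = ξ x * ξ y) (σ : Gq p)
    (hσ : σ ∈ inertia p) : h39yM 𝓗 (fun y => σ (ξ (act σ⁻¹ y)) * ξ (-y) - 1) := by
  have h1 := h39y_twist_sub 𝓗 ξ h0 hmul σ hσ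
  have hinvN : (fun y => ξ (-y)) ∈ h15u_N 𝓗 :=
    h15f_charCompleteAll p (inertia p) X act 𝓗 _ (by rw [neg_zero]; exact h0)
      (fun x y => by rw [neg_add, hmul])
  have h2 := h39yM_mul 𝓗 h1 hinvN
  have e : (fun y => σ (ξ (act σ⁻¹ y)) * ξ (-y) - 1) =
      (fun y => σ (ξ (act σ⁻¹ y)) - ξ y) * (fun y => ξ (-y)) := by
    funext y
    show _ = (σ (ξ (act σ⁻¹ y)) - ξ y) * ξ (-y)
    rw [sub_mul, h39y_char_neg ξ h0 hmul]
  rw [e]
  exact h2

/-- characters separate points. -/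
theorem h39y_exists_char (Q : Type) [AddCommGroup Q] [Finite Q] {q : Q} (hq : q ≠ 0) :
    ∃ ξ : Q → Om p, ξ 0 = 1 ∧ (∀ x y, ξ (x + y) = ξ x * ξ y) ∧ ξ q ≠ 1 := by
  have : NeZero ((Monoid.exponent (Multiplicative Q) : ℕ) : Om p) :=
    ⟨by exact_mod_cast Monoid.exponent_ne_zero_of_finite⟩
  obtain ⟨φ, hφ⟩ := CommGroup.exists_apply_ne_one_of_hasEnoughRootsOfUnity
    (Multiplicative Q) (Om p) (a := Multiplicative.ofAdd q) (fun h => hq (by simpa using h))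
  refine ⟨fun x => ((φ (Multiplicative.ofAdd x) : (Om p)ˣ) : Om p), ?_, ?_, ?_⟩
  · show ((φ 1 : (Om p)ˣ) : Om p) = 1
    rw [map_one, Units.val_one]
  · intro x y
    show ((φ (Multiplicative.ofAdd x * Multiplicative.ofAdd y) : (Om p)ˣ) : Om p) = _
    rw [map_mul, Units.val_mul]
  · intro h
    exact hφ (Units.ext h)

/-- **a connected order with trivial inertia action is trivial** (`p` odd). -/
theorem h39y_etale_trivial (hp2 : p ≠ 2) (k : ℕ) (Q : Type) [AddCommGroup Q] [Finite Q]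
    (actQ : Gq p → Q → Q) (𝓗 : FHO p (inertia p) Q actQ) (hk : ∀ q : Q, p ^ k • q = 0)
    (htriv : ∀ σ ∈ inertia p, ∀ q, actQ σ q = q)
    (hconn : ∀ g ∈ 𝓗.carrier, ∀ q, ‖g q - g 0‖ < 1) (q : Q) : q = 0 := by
  by_contra hq
  obtain ⟨ξ, h0, hmul, hne⟩ := h39y_exists_char (p := p) Q hq
  have hξN : ξ ∈ h15u_N 𝓗 := h15f_charCompleteAll p (inertia p) Q actQ 𝓗 ξ h0 hmul
  have hb : ∀ F ∈ h15u_N 𝓗, ‖F q - F 0‖ ≤ ‖((p : ℕ) : Om p)‖ := by
    intro F hF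
    refine Submodule.span_induction
      (p := fun F _ => ‖F q - F 0‖ ≤ ‖((p : ℕ) : Om p)‖) ?_ ?_ ?_ ?_ hF
    · intro g hg
      refine h39y_disc ⟨(hconn g hg q).le, fun σ hσ => ?_⟩ (hconn g hg q)
      rw [map_sub, ← 𝓗.equivariant g hg σ hσ q, ← 𝓗.equivariant g hg σ hσ 0,
        htriv σ hσ, htriv σ hσ]
    · show ‖(0 : Om p) - 0‖ ≤ _
      rw [sub_zero, norm_zero]
      exact norm_nonneg _
    · intro a b _ _ ha hb
      have e : (a + b) q - (a + b) 0 = (a q - a 0) + (b q - b 0) := by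
        simp only [Pi.add_apply]
        ring
      rw [e]
      exact (IsUltrametricDist.norm_add_le_max _ _).trans (max_le ha hb)
    · intro c a _ ha
      have e : (c • a) q - (c • a) 0 = (c : Om p) * (a q - a 0) := by
        show (c : Om p) * a q - (c : Om p) * a 0 = _
        ring
      rw [e, norm_mul]
      calc ‖(c : Om p)‖ * ‖a q - a 0‖ ≤ 1 * ‖((p : ℕ) : Om p)‖ :=
            mul_le_mul c.2.1 ha (norm_nonneg _) zero_le_one
        _ = _ := one_mul _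
  have h1 := hb ξ hξN
  rw [h0] at h1
  have hpow : ξ q ^ p ^ k = 1 := by
    rw [← h39y_char_pow ξ h0 hmul, hk, h0]
  exact hne (h39y_root_eq_one hp2 k hpow h1)

end Inertia

end Fermat.Agent.P6
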