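import Fermat.Agent.P6.H39FlatOrdLocA
import Fermat.Agent.P6.H39FlatOrdAlg

/-!
# Wave 6 (S33), block B3 FLAT-ORD (helper39): characters of order `p` and the eigenvector lemma

* `h39z_eigen_sub` : the eigenvector lemma `h39w_eigen` for a stable subgroup of a module;
* `h39zChar ζ φ` : the character `x ↦ ζ ^ (φ x)` of `X` attached to `φ : X →+ ZMod p`, and its
  calculus; every character of exponent `p` is of this form (`h39z_exists_hom`);
* `h39zPull B` : pull-back of `φ : X →+ ZMod p` along an endomorphism `B` of `X`.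
-/

set_option autoImplicit false
set_option linter.style.haveILetI false
set_option linter.unusedSectionVars false

open Fermat.Agent.PT.Loc Fermat.Agent.S56F

noncomputable section

namespace Fermat.Agent.P6

section EigenSub

variable (p : ℕ) [Fact p.Prime] {G : Type*} [Group G] {𝒞 : Type*} [AddCommGroup 𝒞]

/-- the eigenvector lemma on a stable subgroup. -/
theorem h39z_eigen_sub (V₀ : AddSubgroup 𝒞) [Finite V₀] (hne : ∃ v ∈ V₀, v ≠ 0)
    (hpV : ∀ v ∈ V₀, p • v = 0) (ρ : G →* AddMonoid.End 𝒞)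
    (hst : ∀ g, ∀ v ∈ V₀, ρ g v ∈ V₀) (χ : G →* (ZMod p)ˣ)
    (hnil : ∀ g, ∃ r : ℕ, ∀ v ∈ V₀,
      (((ρ g - 1) * (ρ g - ((h39wExp p χ g : ℕ) : AddMonoid.End 𝒞))) ^ r) v = 0) :
    ∃ v ∈ V₀, v ≠ 0 ∧ ((∀ g, ρ g v = v) ∨ (∀ g, ρ g v = h39wExp p χ g • v)) := by
  classical
  let ρ' : G →* AddMonoid.End V₀ :=
    { toFun := fun g => ((ρ g).comp V₀.subtype).codRestrict V₀ (fun v => hst g v v.2)
      map_one' := by
        refine AddMonoidHom.ext fun v => Subtype.ext ?_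
        show ρ 1 (v : 𝒞) = v
        rw [map_one]
        rfl
      map_mul' := fun g h => by
        refine AddMonoidHom.ext fun v => Subtype.ext ?_
        show ρ (g * h) (v : 𝒞) = ρ g (ρ h (v : 𝒞))
        rw [map_mul]
        rfl }
  have hcoe : ∀ g (v : V₀), ((ρ' g v : V₀) : 𝒞) = ρ g (v : 𝒞) := fun g v => rfl
  have hpow : ∀ (f' : AddMonoid.End V₀) (f : AddMonoid.End 𝒞),
      (∀ v : V₀, ((f' v : V₀) : 𝒞) = f (v : 𝒞)) →
      ∀ (r : ℕ) (v : V₀), (((f' ^ r) v : V₀) : 𝒞) = (f ^ r) (v : 𝒞) := by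
    intro f' f hf r
    induction r with
    | zero => intro v; rfl
    | succ r ih =>
      intro v
      rw [pow_succ, pow_succ]
      show (((f' ^ r) (f' v) : V₀) : 𝒞) = (f ^ r) (f (v : 𝒞))
      rw [ih, hf]
  have hN : ∀ g (v : V₀),
      ((((ρ' g - 1) * (ρ' g - ((h39wExp p χ g : ℕ) : AddMonoid.End V₀))) v : V₀) : 𝒞) =
        ((ρ g - 1) * (ρ g - ((h39wExp p χ g : ℕ) : AddMonoid.End 𝒞))) (v : 𝒞) := by
    intro g v
    show ((ρ' g (ρ' g v - h39wExp p χ g • v) - (ρ' g v - h39wExp p χ g • v) : V₀) : 𝒞) =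
      ρ g (ρ g (v : 𝒞) - h39wExp p χ g • (v : 𝒞)) - (ρ g (v : 𝒞) - h39wExp p χ g • (v : 𝒞))
    simp only [AddSubgroup.coe_sub, hcoe, AddSubgroup.coe_nsmul]
  haveI : Nontrivial V₀ := by
    obtain ⟨v, hv, hv0⟩ := hne
    exact ⟨⟨⟨v, hv⟩, 0, fun h => hv0 (congrArg Subtype.val h)⟩⟩
  have hpV' : ∀ v : V₀, p • v = 0 := fun v => Subtype.ext (by
    rw [AddSubgroup.coe_nsmul]
    exact hpV v v.2)
  have hnil' : ∀ g : G,
      IsNilpotent ((ρ' g - 1) * (ρ' g - ((h39wExp p χ g : ℕ) : AddMonoid.End V₀))) := by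
    intro g
    obtain ⟨r, hr⟩ := hnil g
    refine ⟨r, AddMonoidHom.ext fun v => Subtype.ext ?_⟩
    exact (hpow _ _ (hN g) r v).trans (hr v v.2)
  obtain ⟨v, hv, h⟩ := h39w_eigen p hpV' ρ' χ hnil'
  refine ⟨v, v.2, fun h0 => hv (Subtype.ext h0), ?_⟩
  rcases h with h | h
  · left
    intro g
    have := congrArg Subtype.val (h g)
    exact this
  · right
    intro g
    have := congrArg Subtype.val (h g)
    rw [AddSubgroup.coe_nsmul] at this
    exact this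

end EigenSub

section Char

variable {p : ℕ} [Fact p.Prime] {X : Type} [AddCommGroup X]

/-- the character attached to `φ : X →+ ZMod p`. -/
def h39zChar (ζ : Om p) (φ : X →+ ZMod p) : X → Om p := fun x => ζ ^ (φ x).val

theorem h39z_pow_val_add {ζ : Om p} (hζ : ζ ^ p = 1) (a b : ZMod p) :
    ζ ^ (a + b).val = ζ ^ a.val * ζ ^ b.val := by
  rw [ZMod.val_add, ← pow_add, ← pow_eq_pow_mod _ hζ]

theorem h39z_pow_val_nsmul {ζ : Om p} (hζ : ζ ^ p = 1) (n : ℕ) (a : ZMod p) :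
    ζ ^ (n • a).val = (ζ ^ a.val) ^ n := by
  induction n with
  | zero => simp
  | succ n ih => rw [succ_nsmul, h39z_pow_val_add hζ, ih, pow_succ]

theorem h39zChar_zero_apply (ζ : Om p) (φ : X →+ ZMod p) : h39zChar ζ φ 0 = 1 := by
  unfold h39zChar
  rw [map_zero, ZMod.val_zero, pow_zero]

theorem h39zChar_add_apply {ζ : Om p} (hζ : ζ ^ p = 1) (φ : X →+ ZMod p) (x y : X) :
    h39zChar ζ φ (x + y) = h39zChar ζ φ x * h39zChar ζ φ y := by
  unfold h39zChar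
  rw [map_add, h39z_pow_val_add hζ]

theorem h39zChar_zero (ζ : Om p) : h39zChar ζ (0 : X →+ ZMod p) = 1 := by
  funext x
  show ζ ^ ((0 : X →+ ZMod p) x).val = 1
  rw [AddMonoidHom.zero_apply, ZMod.val_zero, pow_zero]

theorem h39zChar_add {ζ : Om p} (hζ : ζ ^ p = 1) (φ ψ : X →+ ZMod p) :
    h39zChar ζ (φ + ψ) = h39zChar ζ φ * h39zChar ζ ψ := by
  funext x
  show ζ ^ ((φ + ψ) x).val = ζ ^ (φ x).val * ζ ^ (ψ x).val
  rw [AddMonoidHom.add_apply, h39z_pow_val_add hζ]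

theorem h39zChar_neg (ζ : Om p) (φ : X →+ ZMod p) (x : X) :
    h39zChar ζ (-φ) x = h39zChar ζ φ (-x) := by
  show ζ ^ ((-φ) x).val = ζ ^ (φ (-x)).val
  rw [AddMonoidHom.neg_apply, map_neg]

theorem h39zChar_nsmul {ζ : Om p} (hζ : ζ ^ p = 1) (n : ℕ) (φ : X →+ ZMod p) (x : X) :
    h39zChar ζ (n • φ) x = h39zChar ζ φ x ^ n := by
  show ζ ^ ((n • φ) x).val = (ζ ^ (φ x).val) ^ n
  rw [AddMonoidHom.nsmul_apply, h39z_pow_val_nsmul hζ]

theorem h39zChar_pow_p {ζ : Om p} (hζ : ζ ^ p = 1) (φ : X →+ ZMod p) (x : X) :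
    h39zChar ζ φ x ^ p = 1 := by
  show (ζ ^ (φ x).val) ^ p = 1
  rw [← pow_mul, mul_comm, pow_mul, hζ, one_pow]

theorem h39z_val_eq_zero {ζ : Om p} (hζ : IsPrimitiveRoot ζ p) {a : ZMod p}
    (h : ζ ^ a.val = 1) : a = 0 := by
  have h1 : p ∣ a.val := (hζ.pow_eq_one_iff_dvd _).mp h
  have h2 : a.val < p := ZMod.val_lt a
  have h3 : a.val = 0 := Nat.eq_zero_of_dvd_of_lt h1 h2
  exact (ZMod.val_eq_zero a).mp h3

theorem h39zChar_eq_one {ζ : Om p} (hζ : IsPrimitiveRoot ζ p) {φ : X →+ ZMod p}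
    (h : ∀ x, h39zChar ζ φ x = 1) : φ = 0 :=
  AddMonoidHom.ext fun x => h39z_val_eq_zero hζ (h x)

/-- every character of exponent `p` comes from a homomorphism to `ZMod p`. -/
theorem h39z_exists_hom {ζ : Om p} (hζ : IsPrimitiveRoot ζ p) (η : X → Om p)
    (hmul : ∀ x y, η (x + y) = η x * η y) (hp : ∀ x, η x ^ p = 1) :
    ∃ φ : X →+ ZMod p, h39zChar ζ φ = η := by
  classical
  have hpp : p.Prime := Fact.out
  have hex : ∀ x, ∃ a : ZMod p, ζ ^ a.val = η x := by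
    intro x
    obtain ⟨i, hi, hix⟩ := hζ.eq_pow_of_pow_eq_one (hp x)
    refine ⟨(i : ZMod p), ?_⟩
    rw [ZMod.val_natCast, Nat.mod_eq_of_lt hi]
    exact hix
  choose f hf using hex
  have hinj : ∀ a b : ZMod p, ζ ^ a.val = ζ ^ b.val → a = b := by
    intro a b h
    exact ZMod.val_injective p (hζ.pow_inj (ZMod.val_lt a) (ZMod.val_lt b) h)
  refine ⟨AddMonoidHom.mk' f (fun x y => ?_), ?_⟩
  · apply hinj
    rw [hf, h39z_pow_val_add hζ.pow_eq_one, hf, hf, hmul]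
  · funext x
    exact hf x

/-- pull-back along an endomorphism of `X`. -/
def h39zPull (p : ℕ) (B : AddMonoid.End X) : AddMonoid.End (X →+ ZMod p) where
  toFun φ := φ.comp B
  map_zero' := AddMonoidHom.zero_comp B
  map_add' φ ψ := AddMonoidHom.add_comp φ ψ B

@[simp] theorem h39zPull_apply (B : AddMonoid.End X) (φ : X →+ ZMod p) (x : X) :
    h39zPull p B φ x = φ (B x) := rfl

end Char

end Fermat.Agent.P6
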