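import Fermat.Agent.P6.H39FlatOrdLocB
import Fermat.Agent.S56F.FLB56_helper87
import Fermat.Agent.S56F.FLB7_helper87
import Fermat.Agent.S56F.FLB8final_helper9

/-!
# Wave 6 (S33), block B3 FLAT-ORD (helper39): the dual of a connected ordinary order is étale

`X` a finite module killed by `p ^ k` with a function Hopf order `𝓗` over inertia, CONNECTED
(`‖f x - f 0‖ < 1` for all `f ∈ 𝓗`) and ORDINARY (`(σ - 1)(σ - a)` nilpotent for `σ` in inertia).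

* `h39zV 𝓗 hζ` : the subgroup of `φ : X →+ ZMod p` whose character `ζ ^ φ` is `≡ 1` modulo `𝔪 N`
  (the connected part of the dual, `p`-torsion);
* `h39z_V_eq_bot` : it is trivial;
* `h39z_claimC` : every character `η` with `η - 1 ∈ 𝔪 N` is trivial.
-/

set_option autoImplicit false
set_option linter.style.haveILetI false
set_option linter.unusedSectionVars false

open Fermat.Agent.PT.Loc Fermat.Agent.S56F

noncomputable section

namespace Fermat.Agent.P6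

section Cyc

variable {p : ℕ} [Fact p.Prime]

/-- the cyclotomic character modulo `p`. -/
def h39zChi {ζ : Om p} (hζ : IsPrimitiveRoot ζ p) : Gq p →* (ZMod p)ˣ :=
  haveI : NeZero p := ⟨(Fact.out : p.Prime).ne_zero⟩
  hζ.autToPow ℚ_[p]

theorem h39z_cyc {ζ : Om p} (hζ : IsPrimitiveRoot ζ p) (σ : Gq p) :
    cycExp p σ (h39wExp p (h39zChi hζ) σ) := by
  haveI : NeZero p := ⟨(Fact.out : p.Prime).ne_zero⟩
  intro μ hμ
  obtain ⟨i, -, rfl⟩ := hζ.eq_pow_of_pow_eq_one hμ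
  have h1 : ζ ^ (h39wExp p (h39zChi hζ) σ) = σ ζ := hζ.autToPow_spec ℚ_[p] σ
  rw [map_pow, ← h1, ← pow_mul, ← pow_mul, mul_comm]

theorem h39z_exists_zeta (p : ℕ) [Fact p.Prime] : ∃ ζ : Om p, IsPrimitiveRoot ζ p := by
  haveI : NeZero ((p : ℕ) : Om p) := ⟨by
    have hp : p.Prime := Fact.out
    exact_mod_cast hp.ne_zero⟩
  exact HasEnoughRootsOfUnity.exists_primitiveRoot (Om p) p

/-- two exponents of the same element agree modulo `p`. -/
theorem h39z_cyc_unique {ζ : Om p} (hζ : IsPrimitiveRoot ζ p) {σ : Gq p} {a b : ℕ}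
    (ha : cycExp p σ a) (hb : cycExp p σ b) : a ≡ b [MOD p] := by
  have h1 : ζ ^ a = ζ ^ b := by rw [← ha ζ hζ.pow_eq_one, ← hb ζ hζ.pow_eq_one]
  have hζ0 : ζ ≠ 0 := hζ.ne_zero (Fact.out : p.Prime).ne_zero
  have h2 : ζ ^ ((b : ℤ) - (a : ℤ)) = 1 := by
    rw [zpow_sub₀ hζ0, zpow_natCast, zpow_natCast, h1, div_self (pow_ne_zero _ hζ0)]
  have h3 : (p : ℤ) ∣ (b : ℤ) - a := (hζ.zpow_eq_one_iff_dvd _).mp h2
  exact Int.natCast_modEq_iff.mp (Int.modEq_iff_dvd.mpr h3)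

end Cyc

section Dual

variable {p : ℕ} [Fact p.Prime] {X : Type} [AddCommGroup X] [Finite X]
  {ρ : Gq p →* AddMonoid.End X} (𝓗 : FHO p (inertia p) X (fun σ x => ρ σ x))

theorem h39z_isAct (ρ : Gq p →* AddMonoid.End X) : IsAct (fun σ x => ρ σ x) where
  one x := by
    show ρ 1 x = x
    rw [map_one]
    rfl
  mul σ τ x := by
    show ρ (σ * τ) x = ρ σ (ρ τ x)
    rw [map_mul]
    rfl
  add σ x y := map_add (ρ σ) x y

theorem h39z_inv_apply (ρ : Gq p →* AddMonoid.End X) (σ : Gq p) (x : X) :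
    ρ σ (ρ σ⁻¹ x) = x := by
  have h := (h39z_isAct ρ).mul σ σ⁻¹ x
  have h1 := (h39z_isAct ρ).one x
  simp only [mul_inv_cancel] at h
  rw [← h]
  exact h1

theorem h39z_inv_apply' (ρ : Gq p →* AddMonoid.End X) (σ : Gq p) (x : X) :
    ρ σ⁻¹ (ρ σ x) = x := by
  have h := h39z_inv_apply ρ σ⁻¹ x
  rw [inv_inv] at h
  exact h

theorem h39z_char_mem_N {ζ : Om p} (hζ : ζ ^ p = 1) (φ : X →+ ZMod p) :
    h39zChar ζ φ ∈ h15u_N 𝓗 :=
  h15f_charCompleteAll p (inertia p) X _ 𝓗 _ (h39zChar_zero_apply ζ φ)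
    (h39zChar_add_apply hζ φ)

/-- the connected part of the dual (`p`-torsion). -/
def h39zV {ζ : Om p} (hζ : ζ ^ p = 1) : AddSubgroup (X →+ ZMod p) where
  carrier := {φ | h39yM 𝓗 (fun y => h39zChar ζ φ y - 1)}
  zero_mem' := by
    show h39yM 𝓗 (fun y => h39zChar ζ (0 : X →+ ZMod p) y - 1)
    have e : (fun y => h39zChar ζ (0 : X →+ ZMod p) y - 1) = 0 := by
      funext y
      rw [h39zChar_zero]
      simp
    rw [e]
    exact h39yM_zero 𝓗
  add_mem' := by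
    intro φ ψ hφ hψ
    show h39yM 𝓗 (fun y => h39zChar ζ (φ + ψ) y - 1)
    have e : (fun y => h39zChar ζ (φ + ψ) y - 1) =
        (fun y => h39zChar ζ φ y - 1) * h39zChar ζ ψ + (fun y => h39zChar ζ ψ y - 1) := by
      funext y
      rw [h39zChar_add hζ]
      simp only [Pi.add_apply, Pi.mul_apply]
      ring
    rw [e]
    exact h39yM_add 𝓗 (h39yM_mul 𝓗 hφ (h39z_char_mem_N 𝓗 hζ ψ)) hψ
  neg_mem' := by
    intro φ hφ
    show h39yM 𝓗 (fun y => h39zChar ζ (-φ) y - 1)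
    have e : (fun y => h39zChar ζ (-φ) y - 1) =
        (-(fun y => h39zChar ζ φ y - 1)) * h39zChar ζ (-φ) := by
      funext y
      simp only [Pi.mul_apply, Pi.neg_apply]
      have h1 : h39zChar ζ φ y * h39zChar ζ (-φ) y = 1 := by
        rw [h39zChar_neg]
        exact h39y_char_neg _ (h39zChar_zero_apply ζ φ) (h39zChar_add_apply hζ φ) y
      linear_combination h1
    rw [e]
    exact h39yM_mul 𝓗 (h39yM_neg 𝓗 hφ) (h39z_char_mem_N 𝓗 hζ (-φ))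

theorem h39z_mem_V {ζ : Om p} (hζ : ζ ^ p = 1) (φ : X →+ ZMod p) :
    φ ∈ h39zV 𝓗 hζ ↔ h39yM 𝓗 (fun y => h39zChar ζ φ y - 1) := Iff.rfl

theorem h39z_p_smul (φ : X →+ ZMod p) : p • φ = 0 := by
  refine AddMonoidHom.ext fun x => ?_
  rw [AddMonoidHom.nsmul_apply, nsmul_eq_mul, ZMod.natCast_self, zero_mul]
  rfl

instance h39z_finite_hom : Finite (X →+ ZMod p) := by
  haveI : NeZero p := ⟨(Fact.out : p.Prime).ne_zero⟩
  exact Finite.of_injective (fun φ : X →+ ZMod p => (φ : X → ZMod p)) DFunLike.coe_injective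

/-- the twist of `ζ ^ φ` by `σ` is `ζ ^ (a • φ ∘ σ⁻¹)`. -/
theorem h39z_twist_char {ζ : Om p} (hζ : ζ ^ p = 1) (φ : X →+ ZMod p) (σ : Gq p) {a : ℕ}
    (ha : cycExp p σ a) (y : X) :
    σ (h39zChar ζ φ (ρ σ⁻¹ y)) = h39zChar ζ (a • h39zPull p (ρ σ⁻¹) φ) y := by
  rw [h39zChar_nsmul hζ]
  exact ha _ (h39zChar_pow_p hζ φ _)

/-- stability of the connected part of the dual, twisted form. -/
theorem h39z_V_twist {ζ : Om p} (hζ : ζ ^ p = 1) {φ : X →+ ZMod p} (hφ : φ ∈ h39zV 𝓗 hζ)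
    (σ : Gq p) (hσ : σ ∈ inertia p) {a : ℕ} (ha : cycExp p σ a) :
    a • h39zPull p (ρ σ⁻¹) φ ∈ h39zV 𝓗 hζ := by
  show h39yM 𝓗 (fun y => h39zChar ζ (a • h39zPull p (ρ σ⁻¹) φ) y - 1)
  have h1 := h39y_twist_div 𝓗 (h39zChar ζ φ) (h39zChar_zero_apply ζ φ)
    (h39zChar_add_apply hζ φ) σ hσ
  have h2 := h39yM_add 𝓗 (h39yM_mul 𝓗 h1 (h39z_char_mem_N 𝓗 hζ φ)) hφ
  have e : (fun y => h39zChar ζ (a • h39zPull p (ρ σ⁻¹) φ) y - 1) =
      (fun y => σ (h39zChar ζ φ (ρ σ⁻¹ y)) * h39zChar ζ φ (-y) - 1) * h39zChar ζ φ +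
        (fun y => h39zChar ζ φ y - 1) := by
    funext y
    simp only [Pi.add_apply, Pi.mul_apply]
    rw [← h39z_twist_char hζ φ σ ha y]
    have h3 : h39zChar ζ φ y * h39zChar ζ φ (-y) = 1 :=
      h39y_char_neg _ (h39zChar_zero_apply ζ φ) (h39zChar_add_apply hζ φ) y
    linear_combination (-(σ (h39zChar ζ φ (ρ σ⁻¹ y)))) * h3
  rw [e]
  exact h2

/-- stability of the connected part of the dual under pull-back by inertia. -/
theorem h39z_V_pull {ζ : Om p} (hζ : IsPrimitiveRoot ζ p) {φ : X →+ ZMod p}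
    (hφ : φ ∈ h39zV 𝓗 hζ.pow_eq_one) (σ : Gq p) (hσ : σ ∈ inertia p) :
    h39zPull p (ρ σ⁻¹) φ ∈ h39zV 𝓗 hζ.pow_eq_one := by
  have hp : p.Prime := Fact.out
  have h1 := h39z_V_twist 𝓗 hζ.pow_eq_one hφ σ hσ (h39z_cyc hζ σ)
  have hnd := h39wExp_not_dvd p (h39zChi hζ) σ
  have hcop : Nat.Coprime (h39wExp p (h39zChi hζ) σ) p :=
    (Nat.Coprime.symm ((Nat.Prime.coprime_iff_not_dvd hp).mpr hnd))
  obtain ⟨b, -, hb⟩ := Nat.exists_mul_mod_eq_one_of_coprime hcop hp.one_lt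
  have h2 : b • (h39wExp p (h39zChi hζ) σ • h39zPull p (ρ σ⁻¹) φ) ∈ h39zV 𝓗 hζ.pow_eq_one :=
    AddSubgroup.nsmul_mem _ h1 b
  have h3 : b • (h39wExp p (h39zChi hζ) σ • h39zPull p (ρ σ⁻¹) φ) = h39zPull p (ρ σ⁻¹) φ := by
    rw [← mul_smul]
    have h4 : b * h39wExp p (h39zChi hζ) σ ≡ 1 [MOD p] := by
      show (b * h39wExp p (h39zChi hζ) σ) % p = 1 % p
      rw [mul_comm, hb, Nat.mod_eq_of_lt hp.one_lt]
    rw [h39w_smul_congr p (fun v : X →+ ZMod p => h39z_p_smul v) h4, one_smul]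
  rw [h3] at h2
  exact h2

/-- the operator `(σ^* - 1)(σ^* - a)` on the dual is the pull-back of `(σ - 1)(σ - a)`. -/
theorem h39z_pull_op (B : AddMonoid.End X) (a : ℕ) (φ : X →+ ZMod p) :
    ((h39zPull p B - 1) * (h39zPull p B - ((a : ℕ) : AddMonoid.End (X →+ ZMod p)))) φ =
      h39zPull p ((B - 1) * (B - ((a : ℕ) : AddMonoid.End X))) φ := by
  refine AddMonoidHom.ext fun x => ?_
  show φ (B (B x)) - a • φ (B x) - (φ (B x) - a • φ x) = φ (B (B x - a • x) - (B x - a • x))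
  simp only [map_sub, map_nsmul]

theorem h39z_pull_op_pow (B : AddMonoid.End X) (a : ℕ) (r : ℕ) (φ : X →+ ZMod p) :
    (((h39zPull p B - 1) * (h39zPull p B - ((a : ℕ) : AddMonoid.End (X →+ ZMod p)))) ^ r) φ =
      h39zPull p (((B - 1) * (B - ((a : ℕ) : AddMonoid.End X))) ^ r) φ := by
  induction r generalizing φ with
  | zero => rfl
  | succ r ih =>
    rw [pow_succ, pow_succ']
    show (((h39zPull p B - 1) * (h39zPull p B - ((a : ℕ) : AddMonoid.End (X →+ ZMod p)))) ^ r)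
      (((h39zPull p B - 1) * (h39zPull p B - ((a : ℕ) : AddMonoid.End (X →+ ZMod p)))) φ) = _
    rw [h39z_pull_op, ih]
    rfl

end Dual

section Core

variable {p : ℕ} [Fact p.Prime] {X : Type} [AddCommGroup X] [Finite X]
  {ρ : Gq p →* AddMonoid.End X} (𝓗 : FHO p (inertia p) X (fun σ x => ρ σ x))

/-- the contragredient action of inertia on `X →+ ZMod p`. -/
def h39zRho (ρ : Gq p →* AddMonoid.End X) :
    ↥(inertia p) →* AddMonoid.End (X →+ ZMod p) where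
  toFun σ := h39zPull p (ρ (σ : Gq p)⁻¹)
  map_one' := by
    refine AddMonoidHom.ext fun φ => AddMonoidHom.ext fun x => ?_
    show φ (ρ ((1 : ↥(inertia p)) : Gq p)⁻¹ x) = φ x
    rw [Subgroup.coe_one, inv_one, map_one]
    rfl
  map_mul' σ τ := by
    refine AddMonoidHom.ext fun φ => AddMonoidHom.ext fun x => ?_
    show φ (ρ ((σ * τ : ↥(inertia p)) : Gq p)⁻¹ x) = φ (ρ (τ : Gq p)⁻¹ (ρ (σ : Gq p)⁻¹ x))
    rw [Subgroup.coe_mul, mul_inv_rev, map_mul]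
    rfl

theorem h39zRho_apply (ρ : Gq p →* AddMonoid.End X) (σ : ↥(inertia p)) (φ : X →+ ZMod p)
    (x : X) : h39zRho ρ σ φ x = φ (ρ (σ : Gq p)⁻¹ x) := rfl

theorem h39z_exp_inv {ζ : Om p} (hζ : IsPrimitiveRoot ζ p) (σ : ↥(inertia p)) :
    h39wExp p (((h39zChi hζ).comp (inertia p).subtype)⁻¹) σ =
      h39wExp p (h39zChi hζ) ((σ : Gq p)⁻¹) := by
  unfold h39wExp
  rw [MonoidHom.inv_apply, MonoidHom.comp_apply, map_inv]
  rfl

/-- **the connected part of the dual of a connected ordinary order is trivial.** -/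
theorem h39z_V_eq_bot (hp2 : p ≠ 2) (k : ℕ) (hk : ∀ x : X, p ^ k • x = 0)
    (hconn : ∀ f ∈ 𝓗.carrier, ∀ x, ‖f x - f 0‖ < 1)
    (hord : ∀ σ ∈ inertia p, ∀ a : ℕ, cycExp p σ a →
      IsNilpotent ((ρ σ - 1) * (ρ σ - ((a : ℕ) : AddMonoid.End X))))
    {ζ : Om p} (hζ : IsPrimitiveRoot ζ p) :
    ∀ φ ∈ h39zV 𝓗 hζ.pow_eq_one, φ = 0 := by
  classical
  by_contra hcon
  push Not at hcon
  obtain ⟨φ₁, hφ₁, hne₁⟩ := hcon
  have hst : ∀ σ : ↥(inertia p), ∀ v ∈ h39zV 𝓗 hζ.pow_eq_one,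
      h39zRho ρ σ v ∈ h39zV 𝓗 hζ.pow_eq_one :=
    fun σ v hv => h39z_V_pull 𝓗 hζ hv σ σ.2
  have hnil : ∀ σ : ↥(inertia p), ∃ r : ℕ, ∀ v ∈ h39zV 𝓗 hζ.pow_eq_one,
      (((h39zRho ρ σ - 1) * (h39zRho ρ σ -
        ((h39wExp p (((h39zChi hζ).comp (inertia p).subtype)⁻¹) σ : ℕ) :
          AddMonoid.End (X →+ ZMod p)))) ^ r) v = 0 := by
    intro σ
    have hσ' : (σ : Gq p)⁻¹ ∈ inertia p := inv_mem σ.2
    obtain ⟨r, hr⟩ := hord _ hσ' _ (h39z_cyc hζ (σ : Gq p)⁻¹)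
    refine ⟨r, fun v _ => ?_⟩
    rw [h39z_exp_inv]
    show (((h39zPull p (ρ (σ : Gq p)⁻¹) - 1) * (h39zPull p (ρ (σ : Gq p)⁻¹) -
      ((h39wExp p (h39zChi hζ) ((σ : Gq p)⁻¹) : ℕ) : AddMonoid.End (X →+ ZMod p)))) ^ r) v = 0
    rw [h39z_pull_op_pow, hr]
    refine AddMonoidHom.ext fun x => ?_
    show v ((0 : AddMonoid.End X) x) = 0
    exact map_zero v
  obtain ⟨φ₀, hφ₀, hne₀, hcase⟩ := h39z_eigen_sub p (h39zV 𝓗 hζ.pow_eq_one)
    ⟨φ₁, hφ₁, hne₁⟩ (fun v _ => h39z_p_smul v) (h39zRho ρ) hst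
    (((h39zChi hζ).comp (inertia p).subtype)⁻¹) hnil
  rcases hcase with h | h
  · -- the invariant case: a connected quotient with trivial inertia action
    have hinv : ∀ σ ∈ inertia p, ∀ x, φ₀ (ρ σ x) = φ₀ x := by
      intro σ hσ x
      have h1 := h ⟨σ⁻¹, inv_mem hσ⟩
      have h2 : φ₀ (ρ (σ⁻¹)⁻¹ x) = φ₀ x := DFunLike.congr_fun h1 x
      rw [inv_inv] at h2
      exact h2
    let K : AddSubgroup X := φ₀.ker
    let π : X →+ X ⧸ K := QuotientAddGroup.mk' K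
    have hπs : Function.Surjective π := QuotientAddGroup.mk'_surjective K
    have hπe : ∀ σ ∈ inertia p, ∀ x,
        π ((fun σ x => ρ σ x) σ x) = (fun (_ : Gq p) (q : X ⧸ K) => q) σ (π x) := by
      intro σ hσ x
      show (QuotientAddGroup.mk (ρ σ x) : X ⧸ K) = QuotientAddGroup.mk x
      rw [QuotientAddGroup.eq]
      show φ₀ (-(ρ σ x) + x) = 0
      rw [map_add, map_neg, hinv σ hσ x, neg_add_cancel]
    obtain ⟨𝓗Q, hQ, -⟩ := h9q_quotOrder p (inertia p) (p : Om p) (h45f_inertiaDiscrete p) X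
      _ (h39z_isAct ρ) 𝓗 (X ⧸ K) (fun _ q => q) π hπs hπe
    have hkQ : ∀ q : X ⧸ K, p ^ k • q = 0 := by
      intro q
      obtain ⟨x, rfl⟩ := hπs q
      rw [← map_nsmul, hk, map_zero]
    have hconnQ : ∀ g ∈ 𝓗Q.carrier, ∀ q, ‖g q - g 0‖ < 1 := by
      intro g hg q
      obtain ⟨x, rfl⟩ := hπs q
      have hg' : g ∘ π ∈ 𝓗.carrier := (hQ g).mp hg
      have h1 := hconn (g ∘ π) hg' x
      simp only [Function.comp_apply, map_zero] at h1
      exact h1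
    have hall := h39y_etale_trivial hp2 k (X ⧸ K) (fun _ q => q) 𝓗Q hkQ (fun _ _ _ => rfl)
      hconnQ
    apply hne₀
    refine AddMonoidHom.ext fun x => ?_
    have h1 : π x = 0 := hall (π x)
    have h2 : x ∈ K := (QuotientAddGroup.eq_zero_iff x).mp h1
    exact h2
  · -- the equivariant case: saturation
    have heq : ∀ σ ∈ inertia p, ∀ x, φ₀ (ρ σ x) = h39wExp p (h39zChi hζ) σ • φ₀ x := by
      intro σ hσ x
      have h1 := h ⟨σ⁻¹, inv_mem hσ⟩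
      rw [h39z_exp_inv] at h1
      have h2 : φ₀ (ρ (σ⁻¹)⁻¹ x) = h39wExp p (h39zChi hζ) (σ⁻¹)⁻¹ • φ₀ x :=
        DFunLike.congr_fun h1 x
      rw [inv_inv] at h2
      exact h2
    have hξeq : ∀ σ ∈ inertia p, ∀ x, h39zChar ζ φ₀ (ρ σ x) = σ (h39zChar ζ φ₀ x) := by
      intro σ hσ x
      show ζ ^ (φ₀ (ρ σ x)).val = σ (ζ ^ (φ₀ x).val)
      rw [heq σ hσ x, h39z_pow_val_nsmul hζ.pow_eq_one]
      exact ((h39z_cyc hζ σ) _ (h39zChar_pow_p hζ.pow_eq_one φ₀ x)).symm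
    have hFeq : ∀ σ ∈ inertia p, ∀ x,
        (fun y => h39zChar ζ φ₀ y - 1) ((fun σ x => ρ σ x) σ x) =
          σ ((fun y => h39zChar ζ φ₀ y - 1) x) := by
      intro σ hσ x
      show h39zChar ζ φ₀ (ρ σ x) - 1 = σ (h39zChar ζ φ₀ x - 1)
      rw [hξeq σ hσ x, map_sub, map_one]
    have hsmall := h39y_small 𝓗 hφ₀ hFeq
    apply hne₀
    apply h39zChar_eq_one hζ
    intro x
    have h1 := hsmall x
    have h2 : h39zChar ζ φ₀ x ^ p ^ 1 = 1 := by
      rw [pow_one]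
      exact h39zChar_pow_p hζ.pow_eq_one φ₀ x
    exact h39y_root_eq_one hp2 1 h2 h1

/-- powers of characters `≡ 1`. -/
theorem h39z_pow_mem (η : X → Om p) (h0 : η 0 = 1) (hmul : ∀ x y, η (x + y) = η x * η y)
    (hη : h39yM 𝓗 (fun y => η y - 1)) (n : ℕ) : h39yM 𝓗 (fun y => η y ^ n - 1) := by
  have hηN : η ∈ h15u_N 𝓗 := h15f_charCompleteAll p (inertia p) X _ 𝓗 η h0 hmul
  induction n with
  | zero =>
    have e : (fun y => η y ^ 0 - 1) = 0 := by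
      funext y
      simp
    rw [e]
    exact h39yM_zero 𝓗
  | succ n ih =>
    have e : (fun y => η y ^ (n + 1) - 1) = (fun y => η y ^ n - 1) * η + (fun y => η y - 1) := by
      funext y
      simp only [Pi.add_apply, Pi.mul_apply]
      ring
    rw [e]
    exact h39yM_add 𝓗 (h39yM_mul 𝓗 ih hηN) hη

/-- **the dual of a connected ordinary order is étale**: every character `≡ 1` modulo `𝔪 N` is
trivial. -/
theorem h39z_claimC (hp2 : p ≠ 2) (k : ℕ) (hk : ∀ x : X, p ^ k • x = 0)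
    (hconn : ∀ f ∈ 𝓗.carrier, ∀ x, ‖f x - f 0‖ < 1)
    (hord : ∀ σ ∈ inertia p, ∀ a : ℕ, cycExp p σ a →
      IsNilpotent ((ρ σ - 1) * (ρ σ - ((a : ℕ) : AddMonoid.End X))))
    (η : X → Om p) (h0 : η 0 = 1) (hmul : ∀ x y, η (x + y) = η x * η y)
    (hη : h39yM 𝓗 (fun y => η y - 1)) : ∀ y, η y = 1 := by
  obtain ⟨ζ, hζ⟩ := h39z_exists_zeta p
  have hV := h39z_V_eq_bot 𝓗 hp2 k hk hconn hord hζ
  have key : ∀ k' : ℕ, ∀ η : X → Om p, η 0 = 1 → (∀ x y, η (x + y) = η x * η y) →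
      h39yM 𝓗 (fun y => η y - 1) → (∀ y, η y ^ p ^ k' = 1) → ∀ y, η y = 1 := by
    intro k'
    induction k' with
    | zero =>
      intro η _ _ _ h y
      simpa using h y
    | succ k' ih =>
      intro η h0 hmul hη hpk
      have h1 : ∀ y, η y ^ p = 1 :=
        ih (fun y => η y ^ p) (by simp [h0]) (fun x y => by simp only [hmul, mul_pow])
          (h39z_pow_mem 𝓗 η h0 hmul hη p)
          (fun y => by
            show (η y ^ p) ^ p ^ k' = 1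
            rw [← pow_mul, ← pow_succ']
            exact hpk y)
      obtain ⟨φ, hφ⟩ := h39z_exists_hom hζ η hmul h1
      have hφV : φ ∈ h39zV 𝓗 hζ.pow_eq_one := by
        show h39yM 𝓗 (fun y => h39zChar ζ φ y - 1)
        rw [hφ]
        exact hη
      have h2 := hV φ hφV
      intro y
      rw [← hφ, h2, h39zChar_zero]
      rfl
  exact key k η h0 hmul hη (fun y => by rw [← h39y_char_pow η h0 hmul, hk, h0])

end Core

end Fermat.Agent.P6
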