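import Fermat.Agent.P6.H39FlatOrdIface
import Fermat.Agent.S56F.IfaceOrd

/-!
# Wave 6 (S33), block B3 FLAT-ORD (helper39): frozen LOCAL statement and the two sub-leaves

* `H39FlatOrdLoc` (leaf B3-LOC, helper39): the statement `H39FlatOrd` for a module with a function
  Hopf order over the inertia group of `Gq p` (vocabulary of `S56F/Defs.lean`), stable under
  conjugation by `Gq p`.
* leaf B3-BRIDGE: `H39FlatOrdLoc → H39FlatOrd`.  Ingredients (all landed):
  `h39f_normalForm` (`S56F/A1h39.lean`: `Flat` gives an order over inertia, `ConjStable` for the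
  normaliser), `h97c_Flat` is the same body as `S56F.Flat`, `h23b_exists_smul_padicPlace`
  (`PT/Bridge/LocGrpE.lean`: every place over `p` is `x⁻¹ • padicPlace p`),
  `h23b_mem_inertia_conj_iff` (`PT/Bridge/Inertia.lean`: its inertia group is `x⁻¹ ιp(I) x`),
  `h89d0_inertiaIffRoots` (`S56F/FLD0_helper89.lean`), `padicEmbedding_localGaloisToGlobal`,
  `h23b_exists_padicEmbedding_eq_of_pow_eq_one` (roots of unity of `Om p` come from `ℚ̄`);
  nilpotency and the identity `(s' - a)(s - 1) = 0` are invariant under conjugation by `ρ x`.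

No statement here is assumed: this file contains only definitions of `Prop`s.
-/

set_option autoImplicit false

open Fermat.Agent.PT.Loc Fermat.Agent.S56F

namespace Fermat.Agent.P6

/-- **B3-LOC** (frozen): the local form of FLAT-ORD. -/
def H39FlatOrdLoc : Prop :=
  ∀ (p : ℕ) [Fact p.Prime], p ≠ 2 → ∀ (k : ℕ) (M : Type) [AddCommGroup M] [Finite M]
    (ρ : Gq p →* AddMonoid.End M), (∀ x : M, p ^ k • x = 0) →
    ∀ 𝓗 : FHO p (inertia p) M (fun σ x => ρ σ x), (∀ τ : Gq p, 𝓗.ConjStable τ) →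
    (∀ σ ∈ inertia p, ∀ a : ℕ, cycExp p σ a →
      IsNilpotent ((ρ σ - 1) * (ρ σ - (a : AddMonoid.End M)))) →
    ∀ σ ∈ inertia p, ∀ σ' ∈ inertia p, ∀ a : ℕ,
      (∀ μ : Om p, μ ^ p ^ k = 1 → σ' μ = μ ^ a) →
      (ρ σ' - (a : AddMonoid.End M)) * (ρ σ - 1) = 0

/-- **B3-BRIDGE** (frozen): the local form implies the global one. -/
def H39FlatOrdBridge : Prop := H39FlatOrdLoc → H39FlatOrd

end Fermat.Agent.P6
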