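import Mathlib

/-!
# P6 (wave 6, S33), block B2: the abstract core of the depth step (helper3)

`O` a commutative ring, `B` a finite free `O`-algebra.

* `h3d_norm_one_add` : `N(1 + π t) = 1 + π · Tr(t) + π² · c` with `c ∈ O`.
* `h3d_norm_one_add_of_trace` : if `Tr(t) = a + m` then
  `N(1 + π t) = 1 + π a + (π m + π² c)`.
* `h3d_trace_prod_insep` : on a product `k₁ × k₂` of finite field extensions of `k` with `k₂ / k`
  not separable, the trace is the trace of the first component.
* `h3d_trace_fst` : the same with `k₁ = k`: the trace is the first component.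

Meant for `O` = the valuation ring of the Gauss valuation of the function field of level `M`,
`B` = its integral closure at level `p M`, `B / 𝔪 B = κ × κ^{1/p}` (two components, one of them
purely inseparable): the global norm sees only the separable component at leading order.
-/

set_option autoImplicit false

namespace Fermat.Agent.P6

open Matrix

/-- **NORM**: `N(1 + π t) = 1 + π · Tr(t) + π² · c`. -/
theorem h3d_norm_one_add {O B : Type*} [CommRing O] [CommRing B] [Algebra O B]
    [Module.Free O B] [Module.Finite O B] (π : O) (t : B) :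
    ∃ c : O, Algebra.norm O (1 + π • t) = 1 + π * Algebra.trace O B t + π ^ 2 * c := by
  classical
  let b := Module.Free.chooseBasis O B
  have h1 : Algebra.norm O (1 + π • t) =
      (1 + π • Algebra.leftMulMatrix b t).det := by
    rw [Algebra.norm_eq_matrix_det b]
    congr 1
    rw [map_add, map_one, map_smul]
  have h2 : Algebra.trace O B t = (Algebra.leftMulMatrix b t).trace :=
    Algebra.trace_eq_matrix_trace b t
  rw [h1, h2, Matrix.det_one_add_smul]
  refine ⟨((1 + (Polynomial.X : Polynomial O) •
    (Algebra.leftMulMatrix b t).map Polynomial.C).det).divX.divX.eval π, ?_⟩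
  ring

/-- **NORM, leading term**: if `Tr(t) = a + m` then `N(1 + π t) = 1 + π a + π (m + π c)`. -/
theorem h3d_norm_one_add_of_trace {O B : Type*} [CommRing O] [CommRing B] [Algebra O B]
    [Module.Free O B] [Module.Finite O B] (π : O) (t : B) (a m : O)
    (h : Algebra.trace O B t = a + m) :
    ∃ c : O, Algebra.norm O (1 + π • t) = 1 + π * a + π * (m + π * c) := by
  obtain ⟨c, hc⟩ := h3d_norm_one_add π t
  exact ⟨c, by rw [hc, h]; ring⟩

/-- the trace of a product of two finite extensions of a field, the second one not separable,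
is the trace of the first component. -/
theorem h3d_trace_prod_insep (k k₁ k₂ : Type*) [Field k] [Field k₁] [Field k₂]
    [Algebra k k₁] [Algebra k k₂] [FiniteDimensional k k₁] [FiniteDimensional k k₂]
    (h : ¬ Algebra.IsSeparable k k₂) (x : k₁ × k₂) :
    Algebra.trace k (k₁ × k₂) x = Algebra.trace k k₁ x.1 := by
  rw [Algebra.trace_prod_apply, Algebra.trace_eq_zero_of_not_isSeparable h]
  simp

/-- the trace of `k × k₂`, `k₂ / k` finite and not separable, is the first component. -/
theorem h3d_trace_fst (k k₂ : Type*) [Field k] [Field k₂]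
    [Algebra k k₂] [FiniteDimensional k k₂]
    (h : ¬ Algebra.IsSeparable k k₂) (x : k × k₂) :
    Algebra.trace k (k × k₂) x = x.1 := by
  rw [h3d_trace_prod_insep k k k₂ h, Algebra.trace_self_apply]

section Local

open IsLocalRing

attribute [local instance] Ideal.Quotient.field

variable {O B : Type*} [CommRing O] [CommRing B] [Algebra O B] [IsLocalRing O]
  [Module.Free O B] [Module.Finite O B]

/-- **TRACE mod `𝔪`**: if `B / 𝔪 B ≃ k × k₂` over `k = O / 𝔪` with `k₂ / k` finite and not
separable, then `Tr(t) ≡ a mod 𝔪` as soon as the first component of `t mod 𝔪 B` is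
`a mod 𝔪`. -/
theorem h3d_trace_sub_mem {k₂ : Type*} [Field k₂] [Algebra (O ⧸ maximalIdeal O) k₂]
    [FiniteDimensional (O ⧸ maximalIdeal O) k₂]
    (hins : ¬ Algebra.IsSeparable (O ⧸ maximalIdeal O) k₂)
    (e : (B ⧸ Ideal.map (algebraMap O B) (maximalIdeal O)) ≃ₐ[O ⧸ maximalIdeal O]
      ((O ⧸ maximalIdeal O) × k₂))
    (t : B) (a : O)
    (ha : (e (Ideal.Quotient.mk _ t)).1 = Ideal.Quotient.mk (maximalIdeal O) a) :
    Algebra.trace O B t - a ∈ maximalIdeal O := by
  rw [← Ideal.Quotient.eq, ← Algebra.trace_quotient_mk t, ← ha,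
    ← Algebra.trace_eq_of_algEquiv e, h3d_trace_fst _ _ hins]

/-- **DEPTH**: in the situation of `h3d_trace_sub_mem`,
`N(1 + π t) = 1 + π a + π (m + π c)` with `m ∈ 𝔪`: at leading order the norm sees only the
separable component. -/
theorem h3d_norm_depth {k₂ : Type*} [Field k₂] [Algebra (O ⧸ maximalIdeal O) k₂]
    [FiniteDimensional (O ⧸ maximalIdeal O) k₂]
    (hins : ¬ Algebra.IsSeparable (O ⧸ maximalIdeal O) k₂)
    (e : (B ⧸ Ideal.map (algebraMap O B) (maximalIdeal O)) ≃ₐ[O ⧸ maximalIdeal O]
      ((O ⧸ maximalIdeal O) × k₂))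
    (π : O) (t : B) (a : O)
    (ha : (e (Ideal.Quotient.mk _ t)).1 = Ideal.Quotient.mk (maximalIdeal O) a) :
    ∃ m ∈ maximalIdeal O, ∃ c : O,
      Algebra.norm O (1 + π • t) = 1 + π * a + π * (m + π * c) := by
  obtain ⟨c, hc⟩ := h3d_norm_one_add_of_trace π t a (Algebra.trace O B t - a) (by ring)
  exact ⟨_, h3d_trace_sub_mem hins e t a ha, c, hc⟩

end Local

end Fermat.Agent.P6
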