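import Mathlib

/-!
# S33 / B2 (helper3): approximation by roots of unity in a valuation ring

In the node cocycle of the block TOR-GATE-p the constant `κ` attached to a node satisfies
`κ ^ r ≡ 1` modulo `r c` (`r = p ^ k` is NOT a unit of the valuation ring).  The lemmas of this
file produce the TRUE root of unity `ζ` with `κ ≡ ζ` modulo `c` (on which an element `τ` of the
inertia group acts by `ζ ↦ ζ ^ a`).

* `h3u_exists_max_dvd` : a finite nonempty family of elements of a valuation ring has a member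
  divisible by all the others.
* `h3u_root_near` : `A` a valuation ring (a domain) with a primitive `r`-th root of unity,
  `(r : A) ≠ 0`:  `r c ∣ κ ^ r - 1 → ∃ η, η ^ r = 1 ∧ c ∣ κ - η`.
* `h3u_root_unique` : the root `η` is unique if `c` divides no `1 - ξ`, `ξ ≠ 1` an `r`-th root
  of unity.
* `h3u_root_near_field` : the same for a valuation subring `A` of an algebraically closed field
  of characteristic zero, in the language of elements of the field:
  `κ ^ r - 1 = r c t` with `κ, c, t ∈ A` gives `ζ` with `ζ ^ r = 1` and `κ - ζ = c s`, `s ∈ A`.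
* `h3u_root_near_aut` : the bookkeeping for an automorphism `τ` which preserves `A` and acts on
  the `r`-th roots of unity by `ζ ↦ ζ ^ a`:  `τ κ - κ ^ a ∈ c A`.

Mathlib only.
-/

set_option autoImplicit false
set_option linter.unusedSectionVars false

open Polynomial

namespace Fermat.Agent.P6

section Abstract

variable {A : Type*} [CommRing A] [IsDomain A]

/-- a finite nonempty family in a valuation ring has a member divisible by all the others. -/
theorem h3u_exists_max_dvd [ValuationRing A] {ι : Type*} (S : Finset ι) (hS : S.Nonempty)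
    (f : ι → A) : ∃ i ∈ S, ∀ j ∈ S, f j ∣ f i := by
  classical
  induction hS using Finset.Nonempty.cons_induction with
  | singleton a =>
    exact ⟨a, Finset.mem_singleton_self a, fun j hj => by rw [Finset.mem_singleton.mp hj]⟩
  | cons a s ha hs ih =>
    obtain ⟨i, hi, hmax⟩ := ih
    rcases ValuationRing.dvd_total (f a) (f i) with h | h
    · refine ⟨i, Finset.mem_cons.mpr (Or.inr hi), fun j hj => ?_⟩
      rcases Finset.mem_cons.mp hj with rfl | hj
      · exact h
      · exact hmax j hj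
    · refine ⟨a, Finset.mem_cons_self a s, fun j hj => ?_⟩
      rcases Finset.mem_cons.mp hj with rfl | hj
      · exact dvd_rfl
      · exact (hmax j hj).trans h

/-- the cofactor of `X - η₀` in `X ^ r - 1` takes the value `r η₀ ^ (r - 1)` at `η₀`. -/
theorem h3u_cofactor {r : ℕ} {η₀ : A} (hη₀ : η₀ ^ r = 1) (Q : A[X])
    (hfac : (X ^ r - 1 : A[X]) = (X - C η₀) * Q) : Q.eval η₀ = r * η₀ ^ (r - 1) := by
  have hgeom : (X ^ r - 1 : A[X]) =
      (X - C η₀) * ∑ i ∈ Finset.range r, X ^ i * C η₀ ^ (r - 1 - i) := by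
    rw [(Commute.all (X : A[X]) (C η₀)).mul_geom_sum₂ r, ← C_pow, hη₀, C_1]
  have hQeq : Q = ∑ i ∈ Finset.range r, X ^ i * C η₀ ^ (r - 1 - i) :=
    mul_left_cancel₀ (X_sub_C_ne_zero η₀) (hfac.symm.trans hgeom)
  rw [hQeq, eval_finsetSum]
  have h1 : ∀ i ∈ Finset.range r, (X ^ i * C η₀ ^ (r - 1 - i) : A[X]).eval η₀ = η₀ ^ (r - 1) := by
    intro i hi
    have hi' : i < r := Finset.mem_range.mp hi
    rw [eval_mul, eval_pow, eval_X, eval_pow, eval_C, ← pow_add]
    congr 1
    omega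
  rw [Finset.sum_congr rfl h1, Finset.sum_const, Finset.card_range, nsmul_eq_mul]

/-- **approximation by a root of unity**: if `κ ^ r ≡ 1` modulo `r c`, then `κ` is congruent
modulo `c` to an `r`-th root of unity. -/
theorem h3u_root_near [ValuationRing A] {r : ℕ} (hr : 0 < r) (hr0 : (r : A) ≠ 0)
    {ζ : A} (hζ : IsPrimitiveRoot ζ r) (κ c : A) (h : (r : A) * c ∣ κ ^ r - 1) :
    ∃ η : A, η ^ r = 1 ∧ c ∣ κ - η := by
  classical
  set S := nthRootsFinset r (1 : A) with hS
  have hprod : (X ^ r - 1 : A[X]) = ∏ η ∈ S, (X - C η) := X_pow_sub_one_eq_prod hr hζ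
  have h1S : (1 : A) ∈ S := (mem_nthRootsFinset hr 1).2 (one_pow r)
  obtain ⟨η₀, hη₀, hmax⟩ := h3u_exists_max_dvd S ⟨1, h1S⟩ (fun η => κ - η)
  have hη₀r : η₀ ^ r = 1 := (mem_nthRootsFinset hr 1).1 hη₀
  refine ⟨η₀, hη₀r, ?_⟩
  set Q : A[X] := ∏ η ∈ S.erase η₀, (X - C η) with hQ
  have hfac : (X ^ r - 1 : A[X]) = (X - C η₀) * Q := by
    rw [hprod, ← Finset.mul_prod_erase S _ hη₀]
  have hQη₀ : Q.eval η₀ = r * η₀ ^ (r - 1) := h3u_cofactor hη₀r Q hfac
  have hevκ : Q.eval κ = ∏ η ∈ S.erase η₀, (κ - η) := by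
    rw [hQ, eval_prod]
    exact Finset.prod_congr rfl (fun η _ => by rw [eval_sub, eval_X, eval_C])
  have hevη : Q.eval η₀ = ∏ η ∈ S.erase η₀, (η₀ - η) := by
    rw [hQ, eval_prod]
    exact Finset.prod_congr rfl (fun η _ => by rw [eval_sub, eval_X, eval_C])
  -- the cofactor at `κ` divides `r`
  have hdvd : Q.eval κ ∣ (r : A) := by
    have h1 : Q.eval κ ∣ Q.eval η₀ := by
      rw [hevκ, hevη]
      refine Finset.prod_dvd_prod_of_dvd _ _ (fun η hη => ?_)
      have h2 : κ - η ∣ κ - η₀ := hmax η (Finset.mem_of_mem_erase hη)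
      have h3 : η₀ - η = (κ - η) - (κ - η₀) := by ring
      rw [h3]
      exact dvd_sub dvd_rfl h2
    refine h1.trans ?_
    rw [hQη₀]
    refine ⟨η₀, ?_⟩
    have h4 : η₀ ^ (r - 1) * η₀ = 1 := by
      rw [← pow_succ, Nat.sub_add_cancel hr, hη₀r]
    rw [mul_assoc, h4, mul_one]
  obtain ⟨q, hq⟩ := hdvd
  have hQ0 : Q.eval κ ≠ 0 := by
    intro h0
    rw [h0, zero_mul] at hq
    exact hr0 hq
  have hκ : κ ^ r - 1 = (κ - η₀) * Q.eval κ := by
    have := congrArg (Polynomial.eval κ) hfac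
    simpa using this
  obtain ⟨t, ht⟩ := h
  refine ⟨q * t, ?_⟩
  apply mul_left_cancel₀ hQ0
  rw [mul_comm, ← hκ, ht, hq]
  ring

/-- **uniqueness of the root of unity** near `κ`, when `c` is deeper than every `1 - ξ`,
`ξ ≠ 1` an `r`-th root of unity. -/
theorem h3u_root_unique {r : ℕ} (κ c : A)
    (hc : ∀ ξ : A, ξ ^ r = 1 → c ∣ 1 - ξ → ξ = 1)
    {η η' : A} (hη : η ^ r = 1) (hη' : η' ^ r = 1) (h : c ∣ κ - η) (h' : c ∣ κ - η') :
    η = η' := by
  by_cases hr : r = 0
  · subst hr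
    have h1 : c ∣ η' - η := by
      have : η' - η = (κ - η) - (κ - η') := by ring
      rw [this]
      exact dvd_sub h h'
    -- `r = 0`: the hypothesis `hc` applies to every element
    have h2 : c ∣ 1 - (1 - (η' - η)) := by
      have : (1 : A) - (1 - (η' - η)) = η' - η := by ring
      rw [this]
      exact h1
    have h3 := hc (1 - (η' - η)) (pow_zero _) h2
    have h4 : η' - η = 0 := by
      have : η' - η = 1 - (1 - (η' - η)) := by ring
      rw [this, h3, sub_self]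
    exact (sub_eq_zero.mp h4).symm
  have hr' : 0 < r := Nat.pos_of_ne_zero hr
  -- `η` is a unit with inverse `η ^ (r - 1)`
  have hinv : η * η ^ (r - 1) = 1 := by
    rw [← pow_succ', Nat.sub_add_cancel hr', hη]
  have h1 : c ∣ 1 - η' * η ^ (r - 1) := by
    have e : 1 - η' * η ^ (r - 1) = ((κ - η') - (κ - η)) * η ^ (r - 1) := by
      have : ((κ - η') - (κ - η)) * η ^ (r - 1) = η * η ^ (r - 1) - η' * η ^ (r - 1) := by ring
      rw [this, hinv]
    rw [e]
    exact Dvd.dvd.mul_right (dvd_sub h' h) _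
  have h2 : (η' * η ^ (r - 1)) ^ r = 1 := by
    rw [mul_pow, hη', one_mul, ← pow_mul, mul_comm, pow_mul, hη, one_pow]
  have h3 := hc _ h2 h1
  calc η = η * (η' * η ^ (r - 1)) := by rw [h3, mul_one]
    _ = η' * (η * η ^ (r - 1)) := by ring
    _ = η' := by rw [hinv, mul_one]

end Abstract

section Field

variable {K : Type*} [Field K]

/-- a root of unity of a field lies in every valuation subring. -/
theorem h3u_root_mem (A : ValuationSubring K) {r : ℕ} (hr : 0 < r) {ζ : K} (hζ : ζ ^ r = 1) :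
    ζ ∈ A := by
  rcases A.mem_or_inv_mem ζ with h | h
  · exact h
  · have h1 : ζ = ζ⁻¹ ^ (r - 1) := by
      have hζ0 : ζ ≠ 0 := by
        rintro rfl
        rw [zero_pow hr.ne'] at hζ
        exact zero_ne_one hζ
      have h2 : ζ * ζ ^ (r - 1) = 1 := by
        rw [← pow_succ', Nat.sub_add_cancel hr, hζ]
      rw [inv_pow]
      exact eq_inv_of_mul_eq_one_left h2
    rw [h1]
    exact pow_mem h _

variable [IsAlgClosed K] [CharZero K]

/-- **approximation by a root of unity**, for a valuation subring of an algebraically closed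
field of characteristic zero: `κ ^ r - 1 = r c t` with `κ, c, t ∈ A` gives a root of unity `ζ`
with `κ - ζ ∈ c A`. -/
theorem h3u_root_near_field (A : ValuationSubring K) {r : ℕ} (hr : 0 < r) {κ c t : K}
    (hκ : κ ∈ A) (hc : c ∈ A) (ht : t ∈ A) (h : κ ^ r - 1 = r * c * t) :
    ∃ ζ : K, ζ ^ r = 1 ∧ ∃ s ∈ A, κ - ζ = c * s := by
  have : NeZero (r : K) := ⟨Nat.cast_ne_zero.mpr hr.ne'⟩
  obtain ⟨ζ, hζ⟩ := HasEnoughRootsOfUnity.exists_primitiveRoot K r
  have hζA : ζ ∈ A := h3u_root_mem A hr hζ.pow_eq_one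
  have hζ' : IsPrimitiveRoot (⟨ζ, hζA⟩ : A) r :=
    IsPrimitiveRoot.of_map_of_injective (f := A.subtype) hζ Subtype.val_injective
  have hr0 : ((r : ℕ) : A) ≠ 0 := by
    intro h0
    have := congrArg (A.subtype) h0
    simp at this
    exact hr.ne' this
  have hdvd : ((r : ℕ) : A) * ⟨c, hc⟩ ∣ (⟨κ, hκ⟩ : A) ^ r - 1 := by
    refine ⟨⟨t, ht⟩, ?_⟩
    apply Subtype.ext
    push_cast
    exact h
  obtain ⟨η, hη, s, hs⟩ := h3u_root_near hr hr0 hζ' ⟨κ, hκ⟩ ⟨c, hc⟩ hdvd
  refine ⟨(η : K), ?_, (s : K), s.2, ?_⟩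
  · have := congrArg (A.subtype) hη
    simpa using this
  · have := congrArg (A.subtype) hs
    simpa using this

/-- **the bookkeeping for an automorphism** `τ` which preserves `A` and raises the `r`-th
roots of unity to the power `a`: if `κ ^ r - 1 = r c t` then `τ κ - κ ^ a ∈ c A`. -/
theorem h3u_root_near_aut (A : ValuationSubring K) {r : ℕ} (hr : 0 < r) {κ c t : K}
    (hκ : κ ∈ A) (hc : c ∈ A) (ht : t ∈ A) (h : κ ^ r - 1 = r * c * t)
    (τ : K ≃+* K) (hτA : ∀ x ∈ A, τ x ∈ A) (hτc : ∃ u ∈ A, τ c = c * u) (a : ℕ)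
    (hτ : ∀ ζ : K, ζ ^ r = 1 → τ ζ = ζ ^ a) :
    ∃ s ∈ A, τ κ - κ ^ a = c * s := by
  obtain ⟨ζ, hζ, s, hs, hκζ⟩ := h3u_root_near_field A hr hκ hc ht h
  have hζA : ζ ∈ A := h3u_root_mem A hr hζ
  obtain ⟨u, hu, hτcu⟩ := hτc
  -- `κ ^ a - ζ ^ a = (κ - ζ) * (geometric sum)`
  have hgeom : κ ^ a - ζ ^ a = (κ - ζ) * ∑ i ∈ Finset.range a, κ ^ i * ζ ^ (a - 1 - i) :=
    ((Commute.all κ ζ).mul_geom_sum₂ a).symm
  have hsum : ∑ i ∈ Finset.range a, κ ^ i * ζ ^ (a - 1 - i) ∈ A :=
    sum_mem (fun i _ => mul_mem (pow_mem hκ _) (pow_mem hζA _))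
  refine ⟨u * τ s - s * ∑ i ∈ Finset.range a, κ ^ i * ζ ^ (a - 1 - i),
    sub_mem (mul_mem hu (hτA s hs)) (mul_mem hs hsum), ?_⟩
  have h1 : τ κ - τ ζ = c * (u * τ s) := by
    rw [← map_sub, hκζ, map_mul, hτcu, mul_assoc]
  have h2 : τ κ - κ ^ a = (τ κ - τ ζ) - (κ ^ a - ζ ^ a) := by
    rw [hτ ζ hζ]; ring
  rw [h2, h1, hgeom, hκζ]
  ring

end Field

end Fermat.Agent.P6
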