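import Mathlib

/-!
# Wave 6 (S33), block B2 (helper40): the depth iteration

Abstract (Mathlib only).  `A` a valuation ring of rank one (`harch`), `p ∈ 𝔪_A` nonzero.
`P c`, `Q c` two families of properties ("congruence of depth `c` at the first, resp. second
Gauss valuation").  If depth `c` at one valuation gives every depth `d` with `d ∣ c p`,
`d ∣ c ^ 2` at the other one (the norm along a purely inseparable residue extension raises the
depth), then a positive depth at both valuations gives every depth at both valuations.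

* `h40i_gcd`  : in a valuation ring two nonzero nonunits have a common nonzero nonunit divisor.
* `h40i_iter` : the iteration.
* `h40i_iter_one` : the same with a single family.
-/

set_option autoImplicit false

open IsLocalRing

namespace Fermat.Agent.P6

variable {A : Type*} [CommRing A] [IsDomain A] [ValuationRing A]

/-- a common divisor of two nonzero nonunits which is again a nonzero nonunit. -/
theorem h40i_gcd (p π : A) (hp : p ∈ maximalIdeal A) (hp0 : p ≠ 0)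
    (hπ : π ∈ maximalIdeal A) (hπ0 : π ≠ 0) :
    ∃ μ : A, μ ∈ maximalIdeal A ∧ μ ≠ 0 ∧ μ ∣ p ∧ μ ∣ π := by
  rcases ValuationRing.dvd_total p π with h | h
  · exact ⟨p, hp, hp0, dvd_rfl, h⟩
  · exact ⟨π, hπ, hπ0, h, dvd_rfl⟩

/-- **the depth iteration.** -/
theorem h40i_iter
    (harch : ∀ c ∈ maximalIdeal A, c ≠ 0 → ∀ a : A, a ≠ 0 → ∃ k : ℕ, a ∣ c ^ k)
    (p : A) (hp : p ∈ maximalIdeal A) (hp0 : p ≠ 0) (P Q : A → Prop)
    (hPQ : ∀ c d : A, c ∈ maximalIdeal A → c ≠ 0 → P c → d ∣ c * p → d ∣ c ^ 2 → Q d)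
    (hQP : ∀ c d : A, c ∈ maximalIdeal A → c ≠ 0 → Q c → d ∣ c * p → d ∣ c ^ 2 → P d)
    (π : A) (hπ : π ∈ maximalIdeal A) (hπ0 : π ≠ 0) (hP : P π) (hQ : Q π) :
    ∀ d : A, d ≠ 0 → P d ∧ Q d := by
  obtain ⟨μ, hμ, hμ0, hμp, hμπ⟩ := h40i_gcd p π hp hp0 hπ hπ0
  have hmem : ∀ j : ℕ, μ ^ (j + 1) ∈ maximalIdeal A := fun j =>
    Ideal.pow_mem_of_mem _ hμ _ (Nat.succ_pos j)
  have hne : ∀ j : ℕ, μ ^ j ≠ 0 := fun j => pow_ne_zero j hμ0
  -- depth `μ ^ 2` from depth `π`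
  have h1 : μ ^ 2 ∣ π * p := by
    rw [pow_two]; exact mul_dvd_mul hμπ hμp
  have h2 : μ ^ 2 ∣ π ^ 2 := pow_dvd_pow_of_dvd hμπ 2
  have hbase : P (μ ^ 2) ∧ Q (μ ^ 2) :=
    ⟨hQP π _ hπ hπ0 hQ h1 h2, hPQ π _ hπ hπ0 hP h1 h2⟩
  -- the induction
  have hstep : ∀ j : ℕ, P (μ ^ (j + 2)) ∧ Q (μ ^ (j + 2)) := by
    intro j
    induction j with
    | zero => exact hbase
    | succ j ih =>
      have h3 : μ ^ (j + 1 + 2) ∣ μ ^ (j + 2) * p := by
        rw [pow_succ]; exact mul_dvd_mul dvd_rfl hμp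
      have h4 : μ ^ (j + 1 + 2) ∣ (μ ^ (j + 2)) ^ 2 := by
        rw [← pow_mul]; exact pow_dvd_pow μ (by omega)
      exact ⟨hQP _ _ (hmem (j + 1)) (hne _) ih.2 h3 h4,
        hPQ _ _ (hmem (j + 1)) (hne _) ih.1 h3 h4⟩
  intro d hd
  obtain ⟨k, hk⟩ := harch μ hμ hμ0 d hd
  have h5 : d ∣ μ ^ (k + 2) := hk.trans (pow_dvd_pow μ (by omega))
  have h6 : d ∣ μ ^ (k + 2) * p := h5.trans (dvd_mul_right _ _)
  have h7 : d ∣ (μ ^ (k + 2)) ^ 2 := h5.trans (dvd_pow_self _ (by norm_num))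
  exact ⟨hQP _ _ (hmem (k + 1)) (hne _) (hstep k).2 h6 h7,
    hPQ _ _ (hmem (k + 1)) (hne _) (hstep k).1 h6 h7⟩

/-- the iteration with a single family. -/
theorem h40i_iter_one
    (harch : ∀ c ∈ maximalIdeal A, c ≠ 0 → ∀ a : A, a ≠ 0 → ∃ k : ℕ, a ∣ c ^ k)
    (p : A) (hp : p ∈ maximalIdeal A) (hp0 : p ≠ 0) (P : A → Prop)
    (hPP : ∀ c d : A, c ∈ maximalIdeal A → c ≠ 0 → P c → d ∣ c * p → d ∣ c ^ 2 → P d)
    (π : A) (hπ : π ∈ maximalIdeal A) (hπ0 : π ≠ 0) (hP : P π) :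
    ∀ d : A, d ≠ 0 → P d :=
  fun d hd => (h40i_iter harch p hp hp0 P P hPP hPP π hπ hπ0 hP hP d hd).1

end Fermat.Agent.P6
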