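import Fermat.Agent.P6.H41Star3
import Fermat.Agent.P6.H11NewIface
import Fermat.Agent.P6.H36OldIface
import Fermat.Agent.P6.H23DetCyc
import Fermat.Agent.S35.HK.H41PushComm
import Fermat.Agent.S35.HK.Gal46
import Fermat.Agent.S35.HK.OldKill

/-!
# Wave 6 (S33), block B5 (helper41): the gluing `STAR_old + STAR_new⁺ ⟹ S33`

No decomposition of a class into an old and a new part, no isogeny, no Hecke bound.

`N = M * p`, `p ∤ M`, `H` a Hecke–Galois datum of level `N`, `W_k` the `𝔪`-part of `J₀(N)[p ^ k]`,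
`P` a place over `p`, `a, b ∈ I_P`, `e` an exponent of `a` on `μ_{p^k}`.  For `w ∈ W_k` put
`z = b w - w`, `u = a z - e z`.

* `α_* u = β_* u = 0` : by STAR on the `𝔪`-part of `J₀(M)[p ^ k]` (`H36oStarOld`, block B4), since
  `α_*`, `β_*` commute with the Galois action (`h46k_pushGalois`) and with the Hecke operators
  `T_ℓ`, `ℓ ∤ N` (`h41h_pushHecke`);
* `u` lies in the subgroup generated by the `b' x - x` : `u = (a b a⁻¹)(a w) - a w - e (b w - w)`;
* hence `t (a u - e u) = 0` by `H11StarNewPlus` (block B2).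

This is TRIPLE STAR up to the bounded exponent `t` (`H41qStar3tAt`); the coefficient ring `T` is
torsion free, so the exponent disappears on `V` and `h41q_cancel` (P6/H41Star3.lean) gives
`IsOrdinaryAt`.

* `h41q_s33_of_old_new : H36oStarOld → H11StarNewPlus → (the frozen statement S33)`.
-/

set_option autoImplicit false
set_option linter.style.haveILetI false
set_option linter.unusedSectionVars false
set_option linter.unusedVariables false

open ModularCurve GaloisRep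

noncomputable section

namespace Fermat.Agent.P6

open Module
open Fermat.Agent.P5
open Fermat.Agent.S29 (GQ)
open Fermat.Agent.S31 (TI_evS tpjGal tpjHecke tpjHecke_X tpjHecke_apply)
open Fermat.Agent.S35 (pushAlpha pushBeta pushA pushB PushHecke PushGalois)

/-! ### Torsion-freeness -/

section TorsionFree

/-- multiplication by `t` is injective on a free module as soon as it is on the ring. -/
theorem h41q_nsmul_cancel_free {R M : Type*} [CommRing R] [AddCommGroup M] [Module R M]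
    [Module.Free R M] (t : ℕ) (hR : ∀ r : R, t • r = 0 → r = 0) (m : M) (h : t • m = 0) :
    m = 0 := by
  classical
  let b := Module.Free.chooseBasis R M
  apply b.repr.injective
  rw [map_zero]
  ext i
  have h1 : t • b.repr m = 0 := by rw [← map_nsmul, h, map_zero]
  have h2 : t • (b.repr m i) = 0 := by
    have := congrArg (fun f => f i) h1
    simpa using this
  simpa using hR _ h2

/-- multiplication by `t > 0` is injective on a domain of characteristic zero. -/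
theorem h41q_nsmul_cancel_domain {R : Type*} [CommRing R] [IsDomain R] [CharZero R] (t : ℕ)
    (ht : 0 < t) (r : R) (h : t • r = 0) : r = 0 := by
  rw [nsmul_eq_mul] at h
  rcases mul_eq_zero.mp h with h1 | h1
  · exact absurd (Nat.cast_eq_zero.mp h1) ht.ne'
  · exact h1

end TorsionFree

/-! ### TRIPLE STAR up to a bounded exponent -/

section Star3t

variable {p : ℕ} {N : ℕ} [NeZero N] {S : Finset ℕ}
  {𝒪 : Type} [CommRing 𝒪] [IsDomain 𝒪] [IsDiscreteValuationRing 𝒪]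
  [IsAdicComplete (IsLocalRing.maximalIdeal 𝒪) 𝒪]
  {θ : CuspForm.heckeAlgebra N 2 (↑S : Set ℕ) →+* IsLocalRing.ResidueField 𝒪}
  {T : Type} [CommRing T] [IsLocalRing T] [IsNoetherianRing T]
  [IsAdicComplete (IsLocalRing.maximalIdeal T) T] [Algebra 𝒪 T] [IsLocalHom (algebraMap 𝒪 T)]
  [Module.Finite 𝒪 T] [Module.Free 𝒪 T]

/-- **TRIPLE STAR up to a bounded exponent `t`.** -/
def H41qStar3tAt (p : ℕ) (H : CuspForm.HeckeGaloisRepDatum N (↑S : Set ℕ) 𝒪 θ T)
    (hc : HeckeOperatorsCommuteBar N) : Prop :=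
  ∃ t : ℕ, 0 < t ∧
  ∀ (k : ℕ) (P : ValuationSubring (AlgebraicClosure ℚ)), P.LiesOverPrime p →
    ∀ a ∈ P.inertiaSubgroupIn ℚ, ∀ b ∈ P.inertiaSubgroupIn ℚ, ∀ e : ℕ,
      (∀ μ : AlgebraicClosure ℚ, μ ^ p ^ k = 1 → a μ = μ ^ e) →
      ∀ w ∈ h30xMPart p H hc k, ∀ z u : h30xTors N p k,
        z = h30xGal N p k b w - w → u = h30xGal N p k a z - e • z →
        t • (h30xGal N p k a u - e • u) = 0

/-- the six-term expansion, multiplied by `t`. -/
theorem h41q_expand_t (k : ℕ) (a b : GQ) (e t : ℕ) (w : h30xTors N p k) :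
    ((t : ℤ) * 1) • h30xGal N p k (a * a * b) w + ((t : ℤ) * (-1)) • h30xGal N p k (a * a) w
      + ((t : ℤ) * (-(2 * (e : ℤ)))) • h30xGal N p k (a * b) w
      + ((t : ℤ) * (2 * (e : ℤ))) • h30xGal N p k a w
      + ((t : ℤ) * ((e : ℤ) ^ 2)) • h30xGal N p k b w
      + ((t : ℤ) * (-((e : ℤ) ^ 2))) • h30xGal N p k 1 w
    = t • (h30xGal N p k a (h30xGal N p k a (h30xGal N p k b w - w)
        - e • (h30xGal N p k b w - w))
      - e • (h30xGal N p k a (h30xGal N p k b w - w) - e • (h30xGal N p k b w - w))) := by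
  rw [← h41q_expand k a b e w]
  simp only [← natCast_zsmul]
  module

/-- **STEP 1 for TRIPLE STAR up to `t`**: the approximate identities on `V`. -/
theorem h41q_approx3t [Finite (IsLocalRing.ResidueField 𝒪)]
    (hp : p.Prime) (hp2 : p ≠ 2) (hp𝒪 : (p : 𝒪) ∈ IsLocalRing.maximalIdeal 𝒪)
    (hpS : p ∈ S) (hNS : ∀ q : ℕ, q.Prime → q ∣ N → q ∈ S)
    (H : CuspForm.HeckeGaloisRepDatum N (↑S : Set ℕ) 𝒪 θ T)
    (hc : HeckeOperatorsCommuteBar N) (t : ℕ)
    (hstar : ∀ (k : ℕ) (P : ValuationSubring (AlgebraicClosure ℚ)), P.LiesOverPrime p →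
      ∀ a ∈ P.inertiaSubgroupIn ℚ, ∀ b ∈ P.inertiaSubgroupIn ℚ, ∀ e : ℕ,
        (∀ μ : AlgebraicClosure ℚ, μ ^ p ^ k = 1 → a μ = μ ^ e) →
        ∀ w ∈ h30xMPart p H hc k, ∀ z u : h30xTors N p k,
          z = h30xGal N p k b w - w → u = h30xGal N p k a z - e • z →
          t • (h30xGal N p k a u - e • u) = 0)
    (P : ValuationSubring (AlgebraicClosure ℚ)) (hP : P.LiesOverPrime p)
    (a : GQ) (ha : a ∈ P.inertiaSubgroupIn ℚ) (b : GQ) (hb : b ∈ P.inertiaSubgroupIn ℚ)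
    (n : ℕ) :
    ∃ e : ℕ, (∀ μ : AlgebraicClosure ℚ, μ ^ p ^ n = 1 → a μ = μ ^ e) ∧
      ∀ v : H.ρ.V, (t : T) • ((H.ρ.ρ a - (e : T) • (1 : Module.End T H.ρ.V))
        ((H.ρ.ρ a - (e : T) • (1 : Module.End T H.ρ.V)) ((H.ρ.ρ b - 1) v))) ∈
        (IsLocalRing.maximalIdeal T ^ n) • (⊤ : Submodule T H.ρ.V) := by
  haveI : Finite (IsLocalRing.ResidueField T) := h30x_finite_residueField H
  haveI : Finite (T ⧸ IsLocalRing.maximalIdeal T) := ‹Finite (IsLocalRing.ResidueField T)›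
  haveI : Finite (T ⧸ IsLocalRing.maximalIdeal T ^ n) :=
    Ideal.finite_quotient_pow (IsNoetherian.noetherian _) n
  obtain ⟨k₀, hk₀⟩ := h30x_transfer hp hp2 hp𝒪 hpS hNS H hc (IsLocalRing.maximalIdeal T ^ n)
  obtain ⟨e, he⟩ := h30x_exists_exponent hp (max k₀ n) a
  refine ⟨e, fun μ hμ => he μ ?_, fun v => ?_⟩
  · obtain ⟨j, hj⟩ : ∃ j : ℕ, max k₀ n = n + j := ⟨max k₀ n - n, by omega⟩
    rw [hj, pow_add, pow_mul, hμ, one_pow]
  · have hfam := hk₀ (max k₀ n) (le_max_left _ _) 6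
      ![(t : ℤ) * 1, (t : ℤ) * (-1), (t : ℤ) * (-(2 * (e : ℤ))), (t : ℤ) * (2 * (e : ℤ)),
        (t : ℤ) * ((e : ℤ) ^ 2), (t : ℤ) * (-((e : ℤ) ^ 2))]
      ![a * a * b, a * a, a * b, a, b, 1] (fun w hw => by
        have h := hstar (max k₀ n) P hP a ha b hb e he w hw _ _ rfl rfl
        rw [Fin.sum_univ_six]
        simp only [Matrix.cons_val_zero, Matrix.cons_val_one, Matrix.cons_val_two,
          Matrix.cons_val_three, Matrix.cons_val_four, Matrix.head_cons, Matrix.tail_cons,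
          Matrix.cons_val]
        rw [← h]
        exact h41q_expand_t (max k₀ n) a b e t w) v
    rw [Fin.sum_univ_six] at hfam
    simp only [Matrix.cons_val_zero, Matrix.cons_val_one, Matrix.cons_val_two,
      Matrix.cons_val_three, Matrix.cons_val_four, Matrix.head_cons, Matrix.tail_cons,
      Matrix.cons_val] at hfam
    have e1 : (t : T) • ((H.ρ.ρ a - (e : T) • (1 : Module.End T H.ρ.V))
        ((H.ρ.ρ a - (e : T) • (1 : Module.End T H.ρ.V)) ((H.ρ.ρ b - 1) v))) =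
        ((t : ℤ) * 1) • (H.ρ.ρ (a * a * b)) v + ((t : ℤ) * (-1)) • (H.ρ.ρ (a * a)) v
          + ((t : ℤ) * (-(2 * (e : ℤ)))) • (H.ρ.ρ (a * b)) v
          + ((t : ℤ) * (2 * (e : ℤ))) • (H.ρ.ρ a) v
          + ((t : ℤ) * ((e : ℤ) ^ 2)) • (H.ρ.ρ b) v
          + ((t : ℤ) * (-((e : ℤ) ^ 2))) • (H.ρ.ρ 1) v := by
      simp only [map_mul, map_one, Module.End.mul_apply, LinearMap.sub_apply,
        LinearMap.smul_apply, Module.End.one_apply, map_sub, map_smul,
        ← Int.cast_smul_eq_zsmul T]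
      push_cast
      module
    rw [e1]
    exact hfam

end Star3t

section Krull3t

variable {A : Type} [CommRing A] [IsLocalRing A]

/-- Krull intersection for the squared identities up to `t`. -/
theorem h41q_sq_of_approx_t [IsNoetherianRing A] (ρ : GaloisRepAdic A) {p : ℕ}
    (hdet : ρ.DetIsCyclotomic p) (t : ℕ) (a b : GQ)
    (happ : ∀ n : ℕ, ∃ e : ℕ, (∀ μ : AlgebraicClosure ℚ, μ ^ p ^ n = 1 → a μ = μ ^ e) ∧
      ∀ v : ρ.V, (t : A) • ((ρ.ρ a - (e : A) • (1 : Module.End A ρ.V))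
        ((ρ.ρ a - (e : A) • (1 : Module.End A ρ.V)) ((ρ.ρ b - 1) v))) ∈
        (IsLocalRing.maximalIdeal A ^ n) • (⊤ : Submodule A ρ.V))
    (v : ρ.V) :
    t • (((ρ.ρ a - LinearMap.det (ρ.ρ a) • (1 : Module.End A ρ.V)) *
      ((ρ.ρ a - LinearMap.det (ρ.ρ a) • (1 : Module.End A ρ.V)) * (ρ.ρ b - 1))) v) = 0 := by
  generalize hd : LinearMap.det (ρ.ρ a) = d at *
  have hall : ∀ n : ℕ, t • (((ρ.ρ a - d • (1 : Module.End A ρ.V)) *
      ((ρ.ρ a - d • (1 : Module.End A ρ.V)) * (ρ.ρ b - 1))) v) ∈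
      (IsLocalRing.maximalIdeal A ^ n) • (⊤ : Submodule A ρ.V) := by
    intro n
    obtain ⟨e, he, hv⟩ := happ n
    have hd1 := hdet.2 n a e he
    rw [hd] at hd1
    have hd' : d - (e : A) ∈ IsLocalRing.maximalIdeal A ^ n := by
      obtain ⟨c, hc⟩ := Ideal.mem_span_singleton'.mp hd1
      rw [← hc]
      refine Ideal.mul_mem_left _ _ ?_
      have hpm : (p : A) ∈ IsLocalRing.maximalIdeal A := hdet.1
      have := Ideal.pow_mem_pow hpm n
      simpa using this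
    have e1 : t • (((ρ.ρ a - d • (1 : Module.End A ρ.V)) *
        ((ρ.ρ a - d • (1 : Module.End A ρ.V)) * (ρ.ρ b - 1))) v) =
        (t : A) • ((ρ.ρ a - (e : A) • (1 : Module.End A ρ.V))
            ((ρ.ρ a - (e : A) • (1 : Module.End A ρ.V)) ((ρ.ρ b - 1) v)))
          - (d - (e : A)) • ((t : A) • ((ρ.ρ a - (e : A) • (1 : Module.End A ρ.V)) ((ρ.ρ b - 1) v)
              + (ρ.ρ a - d • (1 : Module.End A ρ.V)) ((ρ.ρ b - 1) v))) := by
      rw [Module.End.mul_apply, Module.End.mul_apply, ← Nat.cast_smul_eq_nsmul A]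
      generalize (ρ.ρ b - 1) v = x
      simp only [LinearMap.sub_apply, LinearMap.smul_apply,
        Module.End.one_apply, map_sub, map_smul]
      module
    rw [e1]
    exact Submodule.sub_mem _ (hv v) (Submodule.smul_mem_smul hd' Submodule.mem_top)
  have hK : (⨅ n : ℕ, (IsLocalRing.maximalIdeal A ^ n) • (⊤ : Submodule A ρ.V)) = ⊥ :=
    Ideal.iInf_pow_smul_eq_bot_of_isLocalRing (IsLocalRing.maximalIdeal A)
      (IsLocalRing.maximalIdeal.isMaximal A).ne_top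
  have hmem : t • (((ρ.ρ a - d • (1 : Module.End A ρ.V)) *
      ((ρ.ρ a - d • (1 : Module.End A ρ.V)) * (ρ.ρ b - 1))) v) ∈
      (⨅ n : ℕ, (IsLocalRing.maximalIdeal A ^ n) • (⊤ : Submodule A ρ.V)) :=
    (Submodule.mem_iInf _).mpr hall
  rw [hK] at hmem
  exact (Submodule.mem_bot A).mp hmem

/-- **STEP 2 up to `t`**, when multiplication by `t` is injective on `V`. -/
theorem h41q_isOrdinaryAt_of_approx3t [IsNoetherianRing A] (ρ : GaloisRepAdic A) {p : ℕ}
    (hp : p.Prime) (hp2 : p ≠ 2) (hdet : ρ.DetIsCyclotomic p) (t : ℕ)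
    (htf : ∀ v : ρ.V, t • v = 0 → v = 0)
    (happ : ∀ P : ValuationSubring (AlgebraicClosure ℚ), P.LiesOverPrime p →
      ∀ a ∈ P.inertiaSubgroupIn ℚ, ∀ b ∈ P.inertiaSubgroupIn ℚ,
        ∀ n : ℕ, ∃ e : ℕ, (∀ μ : AlgebraicClosure ℚ, μ ^ p ^ n = 1 → a μ = μ ^ e) ∧
          ∀ v : ρ.V, (t : A) • ((ρ.ρ a - (e : A) • (1 : Module.End A ρ.V))
            ((ρ.ρ a - (e : A) • (1 : Module.End A ρ.V)) ((ρ.ρ b - 1) v))) ∈
            (IsLocalRing.maximalIdeal A ^ n) • (⊤ : Submodule A ρ.V)) :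
    ρ.IsOrdinaryAt p := by
  refine h58o_isOrdinaryAt_of_det ρ p fun P hP => ?_
  obtain ⟨s₀, hs₀, hu⟩ := h79o_exists_unit ρ hp hp2 hdet P hP
  have hunit : IsUnit (1 - LinearMap.det (ρ.ρ s₀)) := by
    have := hu.neg
    rwa [neg_sub] at this
  have hg : IsUnit (ρ.ρ s₀) :=
    ⟨⟨ρ.ρ s₀, ρ.ρ s₀⁻¹, by rw [← map_mul, mul_inv_cancel, map_one],
      by rw [← map_mul, inv_mul_cancel, map_one]⟩, rfl⟩
  have hsq : ∀ b ∈ P.inertiaSubgroupIn ℚ,
      (ρ.ρ s₀ - LinearMap.det (ρ.ρ s₀) • (1 : Module.End A ρ.V)) *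
        ((ρ.ρ s₀ - LinearMap.det (ρ.ρ s₀) • (1 : Module.End A ρ.V)) * (ρ.ρ b - 1)) = 0 := by
    intro b hb
    apply LinearMap.ext
    intro v
    rw [LinearMap.zero_apply]
    exact htf _ (h41q_sq_of_approx_t ρ hdet t s₀ b (happ P hP s₀ hs₀ b hb) v)
  refine ⟨s₀, hs₀, LinearMap.det (ρ.ρ s₀), hunit, rfl, fun b hb => ?_⟩
  exact h41q_cancel ρ.finrank_eq (ρ.ρ s₀) hg _ rfl hunit (hsq s₀ hs₀) (ρ.ρ b - 1) (hsq b hb)

end Krull3t

section Top3t

variable {p : ℕ} {N : ℕ} [NeZero N] {S : Finset ℕ}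
  {𝒪 : Type} [CommRing 𝒪] [IsDomain 𝒪] [IsDiscreteValuationRing 𝒪]
  [IsAdicComplete (IsLocalRing.maximalIdeal 𝒪) 𝒪]
  {θ : CuspForm.heckeAlgebra N 2 (↑S : Set ℕ) →+* IsLocalRing.ResidueField 𝒪}
  {T : Type} [CommRing T] [IsLocalRing T] [IsNoetherianRing T]
  [IsAdicComplete (IsLocalRing.maximalIdeal T) T] [Algebra 𝒪 T] [IsLocalHom (algebraMap 𝒪 T)]
  [Module.Finite 𝒪 T] [Module.Free 𝒪 T]

/-- the coefficient ring of a datum over a ring of characteristic zero has no `t`-torsion. -/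
theorem h41q_torsionFree_V [CharZero 𝒪] (H : CuspForm.HeckeGaloisRepDatum N (↑S : Set ℕ) 𝒪 θ T)
    (t : ℕ) (ht : 0 < t) (v : H.ρ.V) (h : t • v = 0) : v = 0 :=
  h41q_nsmul_cancel_free (R := T) t
    (fun r hr => h41q_nsmul_cancel_free (R := 𝒪) t
      (fun x hx => h41q_nsmul_cancel_domain t ht x hx) r hr) v h

/-- **the conditional top of S33 from TRIPLE STAR up to a bounded exponent.** -/
theorem h41q_isOrdinaryAt_of_star3t [Finite (IsLocalRing.ResidueField 𝒪)] [CharZero 𝒪]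
    (hp : p.Prime) (hp2 : p ≠ 2) (hp𝒪 : (p : 𝒪) ∈ IsLocalRing.maximalIdeal 𝒪)
    (hpS : p ∈ S) (hNS : ∀ q : ℕ, q.Prime → q ∣ N → q ∈ S)
    (H : CuspForm.HeckeGaloisRepDatum N (↑S : Set ℕ) 𝒪 θ T)
    (hc : HeckeOperatorsCommuteBar N) (hdet : H.ρ.DetIsCyclotomic p)
    (hstar : H41qStar3tAt p H hc) :
    H.ρ.IsOrdinaryAt p := by
  obtain ⟨t, ht, hstar⟩ := hstar
  exact h41q_isOrdinaryAt_of_approx3t H.ρ hp hp2 hdet t (h41q_torsionFree_V H t ht)
    fun P hP a ha b hb n =>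
      h41q_approx3t hp hp2 hp𝒪 hpS hNS H hc t hstar P hP a ha b hb n

end Top3t


/-! ### The push-forwards on torsion -/

section Push

variable {p M : ℕ} [NeZero M] [NeZero p] [NeZero (M * p)]

theorem h41q_push_mem (f : JZero (M * p) →+ JZero M) (k : ℕ) (w : h30xTors (M * p) p k) :
    f (w : JZero (M * p)) ∈ Submodule.torsionBy ℤ (JZero M) ((p : ℤ) ^ k) := by
  have hw : ((p : ℤ) ^ k) • (w : JZero (M * p)) = 0 := (Submodule.mem_torsionBy_iff _ _).mp w.2
  rw [Submodule.mem_torsionBy_iff, ← map_zsmul, hw, map_zero]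

/-- an additive map `J₀(M p) → J₀(M)` on the `p ^ k`-torsion. -/
def h41qPush (f : JZero (M * p) →+ JZero M) (k : ℕ) :
    h30xTors (M * p) p k →+ h30xTors M p k :=
  AddMonoidHom.codRestrict
    (AddMonoidHom.comp f
      (Submodule.torsionBy ℤ (JZero (M * p)) ((p : ℤ) ^ k)).subtype.toAddMonoidHom)
    (Submodule.torsionBy ℤ (JZero M) ((p : ℤ) ^ k)) (fun x => h41q_push_mem f k x)

theorem h41qPush_coe (f : JZero (M * p) →+ JZero M) (k : ℕ) (w : h30xTors (M * p) p k) :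
    ((h41qPush f k w : h30xTors M p k) : JZero M) = f (w : JZero (M * p)) := rfl

theorem h41qPush_gal (f : JZero (M * p) →+ JZero M)
    (hf : ∀ (σ : GQ) (x : JZero (M * p)), f (σ • x) = σ • f x) (k : ℕ) (σ : GQ)
    (w : h30xTors (M * p) p k) :
    h41qPush f k (h30xGal (M * p) p k σ w) = h30xGal M p k σ (h41qPush f k w) := by
  apply Subtype.ext
  rw [h41qPush_coe, h30xGal_apply, h30xGal_apply, h30xAct_coe, h30xAct_coe, h41qPush_coe]
  exact hf σ _

/-- the push-forward intertwines the Hecke polynomials in the `T_ℓ`, `ℓ ∉ S`. -/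
theorem h41q_push_hecke {S : Finset ℕ} (hc : HeckeOperatorsCommuteBar (M * p))
    (hcM : HeckeOperatorsCommuteBar M) (f : JZero (M * p) →+ JZero M)
    (hf : ∀ ℓ : Nat.Primes, ¬ (ℓ : ℕ) ∣ M * p → ∀ x : JZero (M * p),
      f (heckeOperatorBar (M * p) ℓ x) = heckeOperatorBar M ℓ (f x))
    (hNS : ∀ q : ℕ, q.Prime → q ∣ M * p → q ∈ S) (u : MvPolynomial Nat.Primes ℤ) :
    ∀ x : JZero (M * p),
      f (tpjHecke (M * p) hc (h30xKap S u) x) = tpjHecke M hcM (h30xKap S u) (f x) := by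
  induction u using MvPolynomial.induction_on with
  | C a =>
    intro x
    have e1 : h30xKap S (MvPolynomial.C a) = ((a : ℤ) : MvPolynomial Nat.Primes ℤ) := by
      rw [eq_intCast (MvPolynomial.C : ℤ →+* MvPolynomial Nat.Primes ℤ) a, map_intCast]
    rw [e1, map_intCast, map_intCast]
    show f (a • x) = a • f x
    exact map_zsmul f a x
  | add q₁ q₂ h₁ h₂ =>
    intro x
    rw [map_add, map_add, map_add]
    show f (tpjHecke (M * p) hc (h30xKap S q₁) x + tpjHecke (M * p) hc (h30xKap S q₂) x) =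
      tpjHecke M hcM (h30xKap S q₁) (f x) + tpjHecke M hcM (h30xKap S q₂) (f x)
    rw [map_add, h₁ x, h₂ x]
  | mul_X q ℓ h =>
    intro x
    rw [map_mul, map_mul, map_mul]
    show f (tpjHecke (M * p) hc (h30xKap S q) (tpjHecke (M * p) hc (h30xKap S (MvPolynomial.X ℓ)) x))
      = tpjHecke M hcM (h30xKap S q) (tpjHecke M hcM (h30xKap S (MvPolynomial.X ℓ)) (f x))
    rw [h]
    congr 1
    have e2 : h30xKap S (MvPolynomial.X ℓ) =
        if (ℓ : ℕ) ∈ S then (0 : MvPolynomial Nat.Primes ℤ) else MvPolynomial.X ℓ := by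
      unfold h30xKap
      simp
    rw [e2]
    by_cases hℓ : (ℓ : ℕ) ∈ S
    · rw [if_pos hℓ, map_zero, map_zero]
      show f 0 = 0
      exact map_zero f
    · rw [if_neg hℓ, tpjHecke_X, tpjHecke_X]
      exact hf ℓ (fun hd => hℓ (hNS ℓ ℓ.2 hd)) x

theorem h41qPush_hecke {S : Finset ℕ} (hc : HeckeOperatorsCommuteBar (M * p))
    (hcM : HeckeOperatorsCommuteBar M) (f : JZero (M * p) →+ JZero M)
    (hf : ∀ ℓ : Nat.Primes, ¬ (ℓ : ℕ) ∣ M * p → ∀ x : JZero (M * p),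
      f (heckeOperatorBar (M * p) ℓ x) = heckeOperatorBar M ℓ (f x))
    (hNS : ∀ q : ℕ, q.Prime → q ∣ M * p → q ∈ S) (k : ℕ) (u : MvPolynomial Nat.Primes ℤ)
    (w : h30xTors (M * p) p k) :
    h41qPush f k (h30xHecke (M * p) p k S hc u w) = h30xHecke M p k S hcM u (h41qPush f k w) := by
  apply Subtype.ext
  rw [h41qPush_coe, h30xHecke_apply, h30xHecke_apply, h41qPush_coe]
  exact h41q_push_hecke hc hcM f hf hNS u _

theorem h41qPush_hecke_pow {S : Finset ℕ} (hc : HeckeOperatorsCommuteBar (M * p))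
    (hcM : HeckeOperatorsCommuteBar M) (f : JZero (M * p) →+ JZero M)
    (hf : ∀ ℓ : Nat.Primes, ¬ (ℓ : ℕ) ∣ M * p → ∀ x : JZero (M * p),
      f (heckeOperatorBar (M * p) ℓ x) = heckeOperatorBar M ℓ (f x))
    (hNS : ∀ q : ℕ, q.Prime → q ∣ M * p → q ∈ S) (k : ℕ) (u : MvPolynomial Nat.Primes ℤ)
    (r : ℕ) (w : h30xTors (M * p) p k) :
    h41qPush f k ((h30xHecke (M * p) p k S hc u ^ r) w) =
      (h30xHecke M p k S hcM u ^ r) (h41qPush f k w) := by
  induction r generalizing w with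
  | zero => simp
  | succ r ih =>
    rw [pow_succ, pow_succ]
    show h41qPush f k ((h30xHecke (M * p) p k S hc u ^ r) (h30xHecke (M * p) p k S hc u w)) =
      (h30xHecke M p k S hcM u ^ r) (h30xHecke M p k S hcM u (h41qPush f k w))
    rw [ih, h41qPush_hecke hc hcM f hf hNS]

end Push

/-! ### The gluing -/

section Glue

variable {p M : ℕ} [NeZero M] [NeZero p] [NeZero (M * p)] {S : Finset ℕ}
  {𝒪 : Type} [CommRing 𝒪] [IsDomain 𝒪] [IsDiscreteValuationRing 𝒪]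
  [IsAdicComplete (IsLocalRing.maximalIdeal 𝒪) 𝒪]
  {θ : CuspForm.heckeAlgebra (M * p) 2 (↑S : Set ℕ) →+* IsLocalRing.ResidueField 𝒪}
  {T : Type} [CommRing T] [IsLocalRing T] [IsNoetherianRing T]
  [IsAdicComplete (IsLocalRing.maximalIdeal T) T] [Algebra 𝒪 T] [IsLocalHom (algebraMap 𝒪 T)]
  [Module.Finite 𝒪 T] [Module.Free 𝒪 T]

/-- the push-forwards map the `𝔪`-part to the `𝔪`-part. -/
theorem h41qPush_mPart (H : CuspForm.HeckeGaloisRepDatum (M * p) (↑S : Set ℕ) 𝒪 θ T)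
    (hc : HeckeOperatorsCommuteBar (M * p)) (hcM : HeckeOperatorsCommuteBar M)
    (f : JZero (M * p) →+ JZero M)
    (hf : ∀ ℓ : Nat.Primes, ¬ (ℓ : ℕ) ∣ M * p → ∀ x : JZero (M * p),
      f (heckeOperatorBar (M * p) ℓ x) = heckeOperatorBar M ℓ (f x))
    (hNS : ∀ q : ℕ, q.Prime → q ∣ M * p → q ∈ S) (k : ℕ)
    (w : h30xTors (M * p) p k) (hw : w ∈ h30xMPart p H hc k) :
    h41qPush f k w ∈ h36oMPart M p H hcM k := by
  intro u hu
  obtain ⟨r, hr⟩ := hw u hu
  refine ⟨r, ?_⟩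
  rw [← h41qPush_hecke_pow hc hcM f hf hNS, hr, map_zero]

/-- **the gluing**: STAR on the old quotient and NEW+ give TRIPLE STAR up to a bounded
exponent. -/
theorem h41q_star3t_of_old_new [Finite (IsLocalRing.ResidueField 𝒪)]
    (hold : H36oStarOld) (hnew : H11StarNewPlus)
    (hp : p.Prime) (hp2 : p ≠ 2) (hp𝒪 : (p : 𝒪) ∈ IsLocalRing.maximalIdeal 𝒪)
    (hpS : p ∈ S) (hNS : ∀ q : ℕ, q.Prime → q ∣ M * p → q ∈ S) (hpM : ¬ p ∣ M)
    (H : CuspForm.HeckeGaloisRepDatum (M * p) (↑S : Set ℕ) 𝒪 θ T)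
    (hres : (GaloisRepAdic.ofResidualGaloisRep H.ρ.residual).IsOrdinaryAt p)
    (hc : HeckeOperatorsCommuteBar (M * p)) :
    H41qStar3tAt p H hc := by
  obtain ⟨t, ht, hnew'⟩ := hnew p hp hp2 M hpM
  refine ⟨t, ht, fun k P hP a ha b hb e he w hw z u hz hu => ?_⟩
  have hcM : HeckeOperatorsCommuteBar M := (Fermat.Agent.S30.geometricInputsFull.1 M).1
  have hPH := Fermat.Agent.S35.h41h_pushHecke M p hp hpM
  have hPG := Fermat.Agent.S35.h46k_pushGalois M p
  -- the two push-forwards of `u` vanish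
  have hpush : ∀ f : JZero (M * p) →+ JZero M,
      (∀ (σ : GQ) (x : JZero (M * p)), f (σ • x) = σ • f x) →
      (∀ ℓ : Nat.Primes, ¬ (ℓ : ℕ) ∣ M * p → ∀ x : JZero (M * p),
        f (heckeOperatorBar (M * p) ℓ x) = heckeOperatorBar M ℓ (f x)) →
      f (u : JZero (M * p)) = 0 := by
    intro f hfG hfH
    have h1 := hold hp hp2 hp𝒪 hpS hNS H hres M (Dvd.intro _ rfl) hpM hcM k P hP b hb a ha e he
      (h41qPush f k w) (h41qPush_mPart H hc hcM f hfH hNS k w hw)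
    have h2 : h41qPush f k u = 0 := by
      rw [hu, hz, map_sub, map_nsmul, h41qPush_gal f hfG, map_sub, h41qPush_gal f hfG]
      exact h1
    exact congrArg Subtype.val h2
  have hA : pushAlpha M p (u : JZero (M * p)) = 0 :=
    hpush (pushAlpha M p) (fun σ x => (hPG σ x).1) (fun ℓ hℓ x => (hPH ℓ hℓ x).1)
  have hB : pushBeta M p (u : JZero (M * p)) = 0 :=
    hpush (pushBeta M p) (fun σ x => (hPG σ x).2) (fun ℓ hℓ x => (hPH ℓ hℓ x).2)
  -- torsion
  have htor : ∀ x : h30xTors (M * p) p k, (p ^ k) • (x : JZero (M * p)) = 0 := by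
    intro x
    have hx : ((p : ℤ) ^ k) • (x : JZero (M * p)) = 0 := (Submodule.mem_torsionBy_iff _ _).mp x.2
    rw [← natCast_zsmul]
    push_cast
    exact hx
  -- `u` lies in the span of the `b' x - x`
  have hcl : (u : JZero (M * p)) ∈
      AddSubgroup.closure {y : JZero (M * p) | ∃ b' ∈ P.inertiaSubgroupIn ℚ,
        ∃ x : JZero (M * p), (p ^ k) • x = 0 ∧ y = b' • x - x} := by
    have hgen : ∀ (b' : GQ), b' ∈ P.inertiaSubgroupIn ℚ → ∀ x : h30xTors (M * p) p k,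
        b' • (x : JZero (M * p)) - (x : JZero (M * p)) ∈
          AddSubgroup.closure {y : JZero (M * p) | ∃ b' ∈ P.inertiaSubgroupIn ℚ,
            ∃ x : JZero (M * p), (p ^ k) • x = 0 ∧ y = b' • x - x} :=
      fun b' hb' x => AddSubgroup.subset_closure ⟨b', hb', x, htor x, rfl⟩
    have e1 : (u : JZero (M * p)) =
        ((a * b * a⁻¹) • (a • (w : JZero (M * p))) - a • (w : JZero (M * p)))
          - e • (b • (w : JZero (M * p)) - (w : JZero (M * p))) := by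
      rw [hu, hz]
      show a • (b • (w : JZero (M * p)) - (w : JZero (M * p)))
          - e • (b • (w : JZero (M * p)) - (w : JZero (M * p))) = _
      rw [smul_sub, mul_smul, mul_smul, inv_smul_smul]
    rw [e1]
    refine AddSubgroup.sub_mem _ ?_ (AddSubgroup.nsmul_mem _ (hgen b hb w) e)
    have hconj : a * b * a⁻¹ ∈ P.inertiaSubgroupIn ℚ :=
      Subgroup.mul_mem _ (Subgroup.mul_mem _ ha hb) (Subgroup.inv_mem _ ha)
    exact hgen (a * b * a⁻¹) hconj (h30xGal (M * p) p k a w)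
  have h3 := hnew' k P hP a ha e he (u : JZero (M * p)) (htor u) hA hB hcl
  apply Subtype.ext
  show t • (a • (u : JZero (M * p)) - e • (u : JZero (M * p))) = 0
  rw [nsmul_sub, h3, sub_self]

end Glue

/-! ### The top -/

section Top

variable {p : ℕ} {N : ℕ} [NeZero N] {S : Finset ℕ}
  {𝒪 : Type} [CommRing 𝒪] [IsDomain 𝒪] [IsDiscreteValuationRing 𝒪]
  [IsAdicComplete (IsLocalRing.maximalIdeal 𝒪) 𝒪]
  {θ : CuspForm.heckeAlgebra N 2 (↑S : Set ℕ) →+* IsLocalRing.ResidueField 𝒪}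
  {T : Type} [CommRing T] [IsLocalRing T] [IsNoetherianRing T]
  [IsAdicComplete (IsLocalRing.maximalIdeal T) T] [Algebra 𝒪 T] [IsLocalHom (algebraMap 𝒪 T)]
  [Module.Finite 𝒪 T] [Module.Free 𝒪 T]

/-- **S33 from STAR on the old quotient (B4) and NEW+ (B2)**: the exact hypotheses of the frozen
statement S33. -/
theorem h41q_s33_of_old_new (hold : H36oStarOld) (hnew : H11StarNewPlus)
    [Finite (IsLocalRing.ResidueField 𝒪)] [CharZero 𝒪]
    (hp : p.Prime) (hp2 : p ≠ 2) (hp𝒪 : (p : 𝒪) ∈ IsLocalRing.maximalIdeal 𝒪)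
    (hN : p ∣ N ∧ ¬ p ^ 2 ∣ N) (hNS : ∀ q : ℕ, q.Prime → q ∣ N → q ∈ S)
    (H : CuspForm.HeckeGaloisRepDatum N (↑S : Set ℕ) 𝒪 θ T)
    (hres : (GaloisRepAdic.ofResidualGaloisRep H.ρ.residual).IsOrdinaryAt p) :
    H.ρ.IsOrdinaryAt p := by
  have hpS : p ∈ S := hNS p hp hN.1
  have hdet := h23u_detIsCyclotomic hp hp𝒪 hpS H
  obtain ⟨M, hM⟩ : ∃ M : ℕ, N = M * p := ⟨N / p, (Nat.div_mul_cancel hN.1).symm⟩
  subst hM
  have hpM : ¬ p ∣ M := by
    intro h
    apply hN.2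
    rw [pow_two]
    exact Nat.mul_dvd_mul_right h p
  haveI : NeZero p := ⟨hp.ne_zero⟩
  haveI : NeZero M := ⟨fun h => by
    have := NeZero.ne (M * p)
    rw [h, zero_mul] at this
    exact this rfl⟩
  exact h41q_isOrdinaryAt_of_star3t hp hp2 hp𝒪 hpS hNS H
    (Fermat.Agent.S30.geometricInputsFull.1 (M * p)).1 hdet
    (h41q_star3t_of_old_new hold hnew hp hp2 hp𝒪 hpS hNS hpM H hres _)

end Top

end Fermat.Agent.P6
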