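import Fermat.Agent.P6.H30Star
import Fermat.Agent.P5.H58OrdAlg

/-!
# Wave 6 (S33), block B5 (helper41): TRIPLE STAR suffices — no old/new isogeny is needed

`ρ : G_ℚ → GL₂(T)` the representation of a Hecke–Galois datum, `P` a place over `p`, `I_P` its
inertia group, `s₀ ∈ I_P` with `ε₀ = det ρ(s₀)`, `1 - ε₀` a unit (`p` odd).

* `h41q_cancel` : **algebra.**  If `(ρ s₀ - ε₀)² (ρ s₀ - 1) = 0` and `(ρ s₀ - ε₀)² x = 0`, then
  `(ρ s₀ - ε₀) x = 0`.  (Cayley–Hamilton gives `(g - ε₀)(g - 1) = δ g`, `δ = tr g - 1 - ε₀`;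
  the hypothesis gives `δ (g - ε₀) = 0`, and `g - ε₀` is not `0` modulo the maximal ideal, so
  `δ = 0`; then `(g - ε₀)² = (1 - ε₀)(g - ε₀)`.)
* `H41qStar3At p H hc` : **TRIPLE STAR** on the `𝔪`-part of `J₀(N)[p ^ k]`:
  `(a - e)(a - e)(b - 1) w = 0` for `a, b ∈ I_P`, `e` an exponent of `a` on `μ_{p^k}`.
* `h41q_approx3_of_star3` : transfer (`h30x_transfer`, helper30) with the six-term combination.
* `h41q_sq_of_approx` : Krull intersection.
* `h41q_isOrdinaryAt_of_star3` : `DetIsCyclotomic → H41qStar3At → IsOrdinaryAt`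
  (`h58o_isOrdinaryAt_of_det`, helper58).
* `h41q_star3_of_star` : STAR (helper30, `H30xStarAt`) implies TRIPLE STAR.

TRIPLE STAR follows from STAR on the old quotient and from the statement "inertia acts by the
cyclotomic character on the new classes lying in the span of the `(b - 1)`-images" without any
decomposition of a class into an old and a new part (see `P6/H41Glue3.lean`).
-/

set_option autoImplicit false
set_option linter.style.haveILetI false
set_option linter.unusedSectionVars false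
set_option linter.unusedVariables false

open ModularCurve GaloisRep

noncomputable section

namespace Fermat.Agent.P6

open Module
open Fermat.Agent.P5
open Fermat.Agent.S29 (GQ)

section Alg


variable {T : Type*} [CommRing T] [IsLocalRing T]
  {V : Type*} [AddCommGroup V] [Module T V] [Module.Free T V] [Module.Finite T V]

/-- Cayley–Hamilton in rank two, factored: `(g - ε₀)(g - 1) = (tr g - 1 - ε₀) g` when
`det g = ε₀`. -/
theorem h41q_quad (hrk : finrank T V = 2) (g : Module.End T V) (ε₀ : T)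
    (hdet : LinearMap.det g = ε₀) :
    (g - ε₀ • (1 : Module.End T V)) * (g - 1) = (LinearMap.trace T V g - 1 - ε₀) • g := by
  have h1 := Fermat.Agent.P5.h58o_cayley hrk g
  rw [hdet] at h1
  have h2 : g * g = LinearMap.trace T V g • g - ε₀ • (1 : Module.End T V) := by
    rw [← sub_eq_zero, ← h1]
    abel
  rw [sub_mul, mul_sub, mul_sub, mul_one, smul_mul_assoc, one_mul, smul_mul_assoc, one_mul, h2,
    sub_smul, sub_smul, one_smul]
  abel

/-- the defect `δ = tr g - 1 - ε₀` vanishes as soon as `δ • (g - ε₀) = 0`. -/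
theorem h41q_delta_zero (hrk : finrank T V = 2) (g : Module.End T V) (ε₀ : T)
    (hdet : LinearMap.det g = ε₀) (hε : IsUnit ε₀) (hunit : IsUnit (1 - ε₀))
    (h : (LinearMap.trace T V g - 1 - ε₀) • (g - ε₀ • (1 : Module.End T V)) = 0) :
    LinearMap.trace T V g - 1 - ε₀ = 0 := by
  set δ : T := LinearMap.trace T V g - 1 - ε₀ with hδ
  -- take traces
  have htr : δ * (δ + (1 - ε₀)) = 0 := by
    have h1 := congrArg (LinearMap.trace T V) h
    rw [map_smul, map_sub, map_smul, map_zero, LinearMap.trace_one, hrk, smul_eq_mul,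
      smul_eq_mul] at h1
    rw [← h1, hδ]
    push_cast
    ring
  by_cases hm : δ ∈ IsLocalRing.maximalIdeal T
  · -- `δ + (1 - ε₀)` is a unit
    have hu : IsUnit (δ + (1 - ε₀)) := by
      by_contra hnu
      have h1 : δ + (1 - ε₀) ∈ IsLocalRing.maximalIdeal T :=
        (IsLocalRing.mem_maximalIdeal _).mpr hnu
      have h2 := Ideal.sub_mem _ h1 hm
      rw [add_sub_cancel_left] at h2
      exact (IsLocalRing.mem_maximalIdeal _).mp h2 hunit
    exact (hu.mul_left_eq_zero).mp htr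
  · -- `δ` is a unit: then `g = ε₀`, so `ε₀ ^ 2 = ε₀`
    have hu : IsUnit δ := by
      by_contra hnu
      exact hm ((IsLocalRing.mem_maximalIdeal _).mpr hnu)
    exfalso
    have hg : g - ε₀ • (1 : Module.End T V) = 0 := by
      obtain ⟨u, hu'⟩ := hu
      have h1 := congrArg (fun x => ((u⁻¹ : Tˣ) : T) • x) h
      simp only [smul_zero] at h1
      rwa [← hu', smul_smul, Units.inv_mul, one_smul] at h1
    have hg' : g = ε₀ • (1 : Module.End T V) := sub_eq_zero.mp hg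
    have hd : LinearMap.det g = ε₀ ^ 2 := by
      rw [hg', LinearMap.det_smul, hrk, map_one, mul_one]
    rw [hdet] at hd
    have h0 : ε₀ * (1 - ε₀) = 0 := by
      rw [mul_sub, mul_one, ← pow_two, ← hd, sub_self]
    have h00 : ε₀ = 0 := (hunit.mul_left_eq_zero).mp h0
    rw [h00] at hε
    exact not_isUnit_zero hε

/-- **the cancellation lemma**: `(g - ε₀)² (x) = 0` for `x = g - 1` and for a family of operators
gives `(g - ε₀) x = 0`, when `det g = ε₀` and `1 - ε₀` is a unit. -/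
theorem h41q_cancel (hrk : finrank T V = 2) (g : Module.End T V) (hg : IsUnit g) (ε₀ : T)
    (hdet : LinearMap.det g = ε₀) (hunit : IsUnit (1 - ε₀))
    (hsq0 : (g - ε₀ • (1 : Module.End T V)) * ((g - ε₀ • (1 : Module.End T V)) * (g - 1)) = 0)
    (x : Module.End T V)
    (hsq : (g - ε₀ • (1 : Module.End T V)) * ((g - ε₀ • (1 : Module.End T V)) * x) = 0) :
    (g - ε₀ • (1 : Module.End T V)) * x = 0 := by
  have hε : IsUnit ε₀ := by
    rw [← hdet]
    exact hg.map (LinearMap.det : Module.End T V →* T)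
  have hq := h41q_quad hrk g ε₀ hdet
  -- `δ • (g - ε₀) = 0`
  have h1 : (LinearMap.trace T V g - 1 - ε₀) • (g - ε₀ • (1 : Module.End T V)) = 0 := by
    rw [hq, mul_smul_comm] at hsq0
    have h2 := congrArg (fun y => y * ((hg.unit⁻¹ : (Module.End T V)ˣ) : Module.End T V)) hsq0
    simp only [zero_mul, smul_mul_assoc] at h2
    rwa [mul_assoc, IsUnit.mul_val_inv, mul_one] at h2
  have hδ := h41q_delta_zero hrk g ε₀ hdet hε hunit h1
  rw [hδ, zero_smul] at hq
  -- `(g - ε₀)² = (1 - ε₀) (g - ε₀)`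
  have h3 : (g - ε₀ • (1 : Module.End T V)) * (g - ε₀ • (1 : Module.End T V)) =
      (1 - ε₀) • (g - ε₀ • (1 : Module.End T V)) := by
    have e1 : g - ε₀ • (1 : Module.End T V) = (g - 1) + (1 - ε₀) • (1 : Module.End T V) := by
      rw [sub_smul, one_smul]
      abel
    have e2 : (g - ε₀ • (1 : Module.End T V)) * (g - ε₀ • (1 : Module.End T V)) =
        (g - ε₀ • (1 : Module.End T V)) * ((g - 1) + (1 - ε₀) • (1 : Module.End T V)) :=
      congrArg (fun y => (g - ε₀ • (1 : Module.End T V)) * y) e1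
    rw [e2, mul_add, hq, zero_add, mul_smul_comm, mul_one]
  rw [← mul_assoc, h3, smul_mul_assoc] at hsq
  obtain ⟨u, hu⟩ := hunit
  have h4 := congrArg (fun y => ((u⁻¹ : Tˣ) : T) • y) hsq
  simp only [smul_zero] at h4
  rwa [← hu, smul_smul, Units.inv_mul, one_smul] at h4

end Alg

section Star3

variable {p : ℕ} {N : ℕ} [NeZero N] {S : Finset ℕ}
  {𝒪 : Type} [CommRing 𝒪] [IsDomain 𝒪] [IsDiscreteValuationRing 𝒪]
  [IsAdicComplete (IsLocalRing.maximalIdeal 𝒪) 𝒪]
  {θ : CuspForm.heckeAlgebra N 2 (↑S : Set ℕ) →+* IsLocalRing.ResidueField 𝒪}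
  {T : Type} [CommRing T] [IsLocalRing T] [IsNoetherianRing T]
  [IsAdicComplete (IsLocalRing.maximalIdeal T) T] [Algebra 𝒪 T] [IsLocalHom (algebraMap 𝒪 T)]
  [Module.Finite 𝒪 T] [Module.Free 𝒪 T]

/-- **TRIPLE STAR** for a Hecke–Galois datum: on the `𝔪`-part of `J₀(N)[p ^ k]`,
`(a - e)(a - e)(b - 1) w = 0` for `a, b` in an inertia group at `p` and `e` an exponent of the
action of `a` on `μ_{p^k}`. -/
def H41qStar3At (p : ℕ) (H : CuspForm.HeckeGaloisRepDatum N (↑S : Set ℕ) 𝒪 θ T)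
    (hc : HeckeOperatorsCommuteBar N) : Prop :=
  ∀ (k : ℕ) (P : ValuationSubring (AlgebraicClosure ℚ)), P.LiesOverPrime p →
    ∀ a ∈ P.inertiaSubgroupIn ℚ, ∀ b ∈ P.inertiaSubgroupIn ℚ, ∀ e : ℕ,
      (∀ μ : AlgebraicClosure ℚ, μ ^ p ^ k = 1 → a μ = μ ^ e) →
      ∀ w ∈ h30xMPart p H hc k, ∀ z u : h30xTors N p k,
        z = h30xGal N p k b w - w → u = h30xGal N p k a z - e • z →
        h30xGal N p k a u - e • u = 0

/-- STAR implies TRIPLE STAR. -/
theorem h41q_star3_of_star (H : CuspForm.HeckeGaloisRepDatum N (↑S : Set ℕ) 𝒪 θ T)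
    (hc : HeckeOperatorsCommuteBar N) (hstar : H30xStarAt p H hc) : H41qStar3At p H hc := by
  intro k P hP a ha b hb e he w hw z u hz hu
  have h := hstar k P hP a ha b hb e he w hw
  have hu0 : u = 0 := by
    rw [hu, hz, ← h, map_mul]
    simp only [AddMonoid.End.coe_mul, Function.comp_apply, map_sub, smul_sub]
    abel
  rw [hu0, map_zero, smul_zero, sub_zero]

/-- the six-term expansion of `(a - e)(a - e)(b - 1)` on torsion. -/
theorem h41q_expand (k : ℕ) (a b : GQ) (e : ℕ) (w : h30xTors N p k) :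
    (1 : ℤ) • h30xGal N p k (a * a * b) w + (-1 : ℤ) • h30xGal N p k (a * a) w
      + (-(2 * (e : ℤ))) • h30xGal N p k (a * b) w + (2 * (e : ℤ)) • h30xGal N p k a w
      + ((e : ℤ) ^ 2) • h30xGal N p k b w + (-((e : ℤ) ^ 2)) • h30xGal N p k 1 w
    = h30xGal N p k a (h30xGal N p k a (h30xGal N p k b w - w)
        - e • (h30xGal N p k b w - w))
      - e • (h30xGal N p k a (h30xGal N p k b w - w) - e • (h30xGal N p k b w - w)) := by
  simp only [map_mul, map_one, AddMonoid.End.coe_mul, Function.comp_apply, AddMonoid.End.coe_one,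
    id_eq, map_sub, map_zsmul, ← natCast_zsmul]
  module

/-- **STEP 1 for TRIPLE STAR**: the approximate identities on `V`. -/
theorem h41q_approx3_of_star3 [Finite (IsLocalRing.ResidueField 𝒪)]
    (hp : p.Prime) (hp2 : p ≠ 2) (hp𝒪 : (p : 𝒪) ∈ IsLocalRing.maximalIdeal 𝒪)
    (hpS : p ∈ S) (hNS : ∀ q : ℕ, q.Prime → q ∣ N → q ∈ S)
    (H : CuspForm.HeckeGaloisRepDatum N (↑S : Set ℕ) 𝒪 θ T)
    (hc : HeckeOperatorsCommuteBar N) (hstar : H41qStar3At p H hc)
    (P : ValuationSubring (AlgebraicClosure ℚ)) (hP : P.LiesOverPrime p)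
    (a : GQ) (ha : a ∈ P.inertiaSubgroupIn ℚ) (b : GQ) (hb : b ∈ P.inertiaSubgroupIn ℚ)
    (n : ℕ) :
    ∃ e : ℕ, (∀ μ : AlgebraicClosure ℚ, μ ^ p ^ n = 1 → a μ = μ ^ e) ∧
      ∀ v : H.ρ.V, (H.ρ.ρ a - (e : T) • (1 : Module.End T H.ρ.V))
        ((H.ρ.ρ a - (e : T) • (1 : Module.End T H.ρ.V)) ((H.ρ.ρ b - 1) v)) ∈
        (IsLocalRing.maximalIdeal T ^ n) • (⊤ : Submodule T H.ρ.V) := by
  haveI : Finite (IsLocalRing.ResidueField T) := h30x_finite_residueField H
  haveI : Finite (T ⧸ IsLocalRing.maximalIdeal T) := ‹Finite (IsLocalRing.ResidueField T)›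
  haveI : Finite (T ⧸ IsLocalRing.maximalIdeal T ^ n) :=
    Ideal.finite_quotient_pow (IsNoetherian.noetherian _) n
  obtain ⟨k₀, hk₀⟩ := h30x_transfer hp hp2 hp𝒪 hpS hNS H hc (IsLocalRing.maximalIdeal T ^ n)
  obtain ⟨e, he⟩ := h30x_exists_exponent hp (max k₀ n) a
  refine ⟨e, fun μ hμ => he μ ?_, fun v => ?_⟩
  · obtain ⟨j, hj⟩ : ∃ j : ℕ, max k₀ n = n + j := ⟨max k₀ n - n, by omega⟩
    rw [hj, pow_add, pow_mul, hμ, one_pow]
  · have hfam := hk₀ (max k₀ n) (le_max_left _ _) 6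
      ![1, -1, -(2 * (e : ℤ)), 2 * (e : ℤ), (e : ℤ) ^ 2, -((e : ℤ) ^ 2)]
      ![a * a * b, a * a, a * b, a, b, 1] (fun w hw => by
        have h := hstar (max k₀ n) P hP a ha b hb e he w hw _ _ rfl rfl
        rw [Fin.sum_univ_six]
        simp only [Matrix.cons_val_zero, Matrix.cons_val_one, Matrix.cons_val_two,
          Matrix.cons_val_three, Matrix.cons_val_four, Matrix.head_cons, Matrix.tail_cons,
          Matrix.cons_val]
        rw [← h]
        exact h41q_expand (max k₀ n) a b e w) v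
    rw [Fin.sum_univ_six] at hfam
    simp only [Matrix.cons_val_zero, Matrix.cons_val_one, Matrix.cons_val_two,
      Matrix.cons_val_three, Matrix.cons_val_four, Matrix.head_cons, Matrix.tail_cons,
      Matrix.cons_val] at hfam
    have e1 : (H.ρ.ρ a - (e : T) • (1 : Module.End T H.ρ.V))
        ((H.ρ.ρ a - (e : T) • (1 : Module.End T H.ρ.V)) ((H.ρ.ρ b - 1) v)) =
        (1 : ℤ) • (H.ρ.ρ (a * a * b)) v + (-1 : ℤ) • (H.ρ.ρ (a * a)) v
          + (-(2 * (e : ℤ))) • (H.ρ.ρ (a * b)) v + (2 * (e : ℤ)) • (H.ρ.ρ a) v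
          + ((e : ℤ) ^ 2) • (H.ρ.ρ b) v + (-((e : ℤ) ^ 2)) • (H.ρ.ρ 1) v := by
      simp only [map_mul, map_one, Module.End.mul_apply, LinearMap.sub_apply,
        LinearMap.smul_apply, Module.End.one_apply, map_sub, map_smul,
        ← Int.cast_smul_eq_zsmul T]
      push_cast
      module
    rw [e1]
    exact hfam

end Star3

section Krull

variable {A : Type} [CommRing A] [IsLocalRing A]

/-- Krull intersection: the approximate squared identities give the exact one, with the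
determinant in place of the exponents. -/
theorem h41q_sq_of_approx [IsNoetherianRing A] (ρ : GaloisRepAdic A) {p : ℕ}
    (hdet : ρ.DetIsCyclotomic p) (a b : GQ)
    (happ : ∀ n : ℕ, ∃ e : ℕ, (∀ μ : AlgebraicClosure ℚ, μ ^ p ^ n = 1 → a μ = μ ^ e) ∧
      ∀ v : ρ.V, (ρ.ρ a - (e : A) • (1 : Module.End A ρ.V))
        ((ρ.ρ a - (e : A) • (1 : Module.End A ρ.V)) ((ρ.ρ b - 1) v)) ∈
        (IsLocalRing.maximalIdeal A ^ n) • (⊤ : Submodule A ρ.V)) :
    (ρ.ρ a - LinearMap.det (ρ.ρ a) • (1 : Module.End A ρ.V)) *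
      ((ρ.ρ a - LinearMap.det (ρ.ρ a) • (1 : Module.End A ρ.V)) * (ρ.ρ b - 1)) = 0 := by
  apply LinearMap.ext
  intro v
  rw [LinearMap.zero_apply]
  generalize hd : LinearMap.det (ρ.ρ a) = d at *
  have hall : ∀ n : ℕ, ((ρ.ρ a - d • (1 : Module.End A ρ.V)) *
      ((ρ.ρ a - d • (1 : Module.End A ρ.V)) * (ρ.ρ b - 1))) v ∈
      (IsLocalRing.maximalIdeal A ^ n) • (⊤ : Submodule A ρ.V) := by
    intro n
    obtain ⟨e, he, hv⟩ := happ n
    have hd1 := hdet.2 n a e he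
    rw [hd] at hd1
    have hd' : d - (e : A) ∈ IsLocalRing.maximalIdeal A ^ n := by
      obtain ⟨c, hc⟩ := Ideal.mem_span_singleton'.mp hd1
      rw [← hc]
      refine Ideal.mul_mem_left _ _ ?_
      have hpm : (p : A) ∈ IsLocalRing.maximalIdeal A := hdet.1
      have := Ideal.pow_mem_pow hpm n
      simpa using this
    have e1 : ((ρ.ρ a - d • (1 : Module.End A ρ.V)) *
        ((ρ.ρ a - d • (1 : Module.End A ρ.V)) * (ρ.ρ b - 1))) v =
        (ρ.ρ a - (e : A) • (1 : Module.End A ρ.V))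
            ((ρ.ρ a - (e : A) • (1 : Module.End A ρ.V)) ((ρ.ρ b - 1) v))
          - (d - (e : A)) • ((ρ.ρ a - (e : A) • (1 : Module.End A ρ.V)) ((ρ.ρ b - 1) v)
              + (ρ.ρ a - d • (1 : Module.End A ρ.V)) ((ρ.ρ b - 1) v)) := by
      rw [Module.End.mul_apply, Module.End.mul_apply]
      generalize (ρ.ρ b - 1) v = x
      simp only [LinearMap.sub_apply, LinearMap.smul_apply,
        Module.End.one_apply, map_sub, map_smul]
      module
    rw [e1]
    exact Submodule.sub_mem _ (hv v) (Submodule.smul_mem_smul hd' Submodule.mem_top)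
  have hK : (⨅ n : ℕ, (IsLocalRing.maximalIdeal A ^ n) • (⊤ : Submodule A ρ.V)) = ⊥ :=
    Ideal.iInf_pow_smul_eq_bot_of_isLocalRing (IsLocalRing.maximalIdeal A)
      (IsLocalRing.maximalIdeal.isMaximal A).ne_top
  have hmem : ((ρ.ρ a - d • (1 : Module.End A ρ.V)) *
      ((ρ.ρ a - d • (1 : Module.End A ρ.V)) * (ρ.ρ b - 1))) v ∈
      (⨅ n : ℕ, (IsLocalRing.maximalIdeal A ^ n) • (⊤ : Submodule A ρ.V)) :=
    (Submodule.mem_iInf _).mpr hall
  rw [hK] at hmem
  exact (Submodule.mem_bot A).mp hmem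

/-- **STEP 2 for the squared identities**: for `p` odd and `det ρ` cyclotomic, the approximate
squared identities at every place over `p` give `ρ.IsOrdinaryAt p`. -/
theorem h41q_isOrdinaryAt_of_approx3 [IsNoetherianRing A] (ρ : GaloisRepAdic A) {p : ℕ}
    (hp : p.Prime) (hp2 : p ≠ 2) (hdet : ρ.DetIsCyclotomic p)
    (happ : ∀ P : ValuationSubring (AlgebraicClosure ℚ), P.LiesOverPrime p →
      ∀ a ∈ P.inertiaSubgroupIn ℚ, ∀ b ∈ P.inertiaSubgroupIn ℚ,
        ∀ n : ℕ, ∃ e : ℕ, (∀ μ : AlgebraicClosure ℚ, μ ^ p ^ n = 1 → a μ = μ ^ e) ∧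
          ∀ v : ρ.V, (ρ.ρ a - (e : A) • (1 : Module.End A ρ.V))
            ((ρ.ρ a - (e : A) • (1 : Module.End A ρ.V)) ((ρ.ρ b - 1) v)) ∈
            (IsLocalRing.maximalIdeal A ^ n) • (⊤ : Submodule A ρ.V)) :
    ρ.IsOrdinaryAt p := by
  refine h58o_isOrdinaryAt_of_det ρ p fun P hP => ?_
  obtain ⟨s₀, hs₀, hu⟩ := h79o_exists_unit ρ hp hp2 hdet P hP
  have hunit : IsUnit (1 - LinearMap.det (ρ.ρ s₀)) := by
    have := hu.neg
    rwa [neg_sub] at this
  have hg : IsUnit (ρ.ρ s₀) :=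
    ⟨⟨ρ.ρ s₀, ρ.ρ s₀⁻¹, by rw [← map_mul, mul_inv_cancel, map_one],
      by rw [← map_mul, inv_mul_cancel, map_one]⟩, rfl⟩
  refine ⟨s₀, hs₀, LinearMap.det (ρ.ρ s₀), hunit, rfl, fun b hb => ?_⟩
  have h0 := h41q_sq_of_approx ρ hdet s₀ s₀ (happ P hP s₀ hs₀ s₀ hs₀)
  have h1 := h41q_sq_of_approx ρ hdet s₀ b (happ P hP s₀ hs₀ b hb)
  exact h41q_cancel ρ.finrank_eq (ρ.ρ s₀) hg _ rfl hunit h0 (ρ.ρ b - 1) h1

end Krull

section Top

variable {p : ℕ} {N : ℕ} [NeZero N] {S : Finset ℕ}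
  {𝒪 : Type} [CommRing 𝒪] [IsDomain 𝒪] [IsDiscreteValuationRing 𝒪]
  [IsAdicComplete (IsLocalRing.maximalIdeal 𝒪) 𝒪]
  {θ : CuspForm.heckeAlgebra N 2 (↑S : Set ℕ) →+* IsLocalRing.ResidueField 𝒪}
  {T : Type} [CommRing T] [IsLocalRing T] [IsNoetherianRing T]
  [IsAdicComplete (IsLocalRing.maximalIdeal T) T] [Algebra 𝒪 T] [IsLocalHom (algebraMap 𝒪 T)]
  [Module.Finite 𝒪 T] [Module.Free 𝒪 T]

/-- **the conditional top of S33 from TRIPLE STAR.** -/
theorem h41q_isOrdinaryAt_of_star3 [Finite (IsLocalRing.ResidueField 𝒪)]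
    (hp : p.Prime) (hp2 : p ≠ 2) (hp𝒪 : (p : 𝒪) ∈ IsLocalRing.maximalIdeal 𝒪)
    (hpS : p ∈ S) (hNS : ∀ q : ℕ, q.Prime → q ∣ N → q ∈ S)
    (H : CuspForm.HeckeGaloisRepDatum N (↑S : Set ℕ) 𝒪 θ T)
    (hc : HeckeOperatorsCommuteBar N) (hdet : H.ρ.DetIsCyclotomic p)
    (hstar : H41qStar3At p H hc) :
    H.ρ.IsOrdinaryAt p :=
  h41q_isOrdinaryAt_of_approx3 H.ρ hp hp2 hdet fun P hP a ha b hb n =>
    h41q_approx3_of_star3 hp hp2 hp𝒪 hpS hNS H hc hstar P hP a ha b hb n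

end Top

end Fermat.Agent.P6
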