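import Fermat.Agent.P6.H71PU
import Fermat.Agent.LGC.Gal75
import Fermat.Agent.S36.H78TorBasic

/-!
# P6 (wave 6, S33), block B2 (1) NEW-DEPTH: frozen interface and conditional top (helper71)

`ℓ ∤ M` prime, `A` a valuation subring of `ℚ̄` over `ℓ`, `W_∞ = softV A (Mℓ)`, `w = kFricke`,
`W_0 = w (W_∞)`, `ssV = W_∞ ∩ W_0`, `α, β : F_M → F_{Mℓ}`, `r > 0` an exponent (`r = ℓ^k` in
the application), `σ` in the inertia group of `A`.

* `H71Cong A N π x` : `x ∈ 1 + π W_∞` (level `N`).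
* `H71CongSS A M ℓ π x` : `x ∈ 1 + π ssV`.
* `H71TorDeep A M ℓ r z` : for EVERY nonzero `π ∈ 𝔪_A` there are `c ≠ 0`, `h ≠ 0` with
  `c z / h^r ∈ 1 + π ssV`.

Frozen leaves (every one a `Prop`; nothing is assumed):

* `H71Start` : for `σ` in the inertia group and `u ≠ 0` there are `c ≠ 0` and a nonzero
  `π ∈ 𝔪_A` with `c · σ u / u ∈ 1 + π W_∞` (any level).
* `H71Ladder` : if the norms of `w` along `α` and `β` are `r`-th powers and
  `w / g^r ∈ 1 + π₀ W_∞` for ONE nonzero `π₀ ∈ 𝔪_A`, then for EVERY nonzero `e ∈ 𝔪_A` there are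
  `g, g'` with `w / g^r ∈ 1 + e W_∞` and `w (w / g'^r) ∈ 1 + e W_∞`.
* `H71Glue` : weak approximation: representatives of every depth at `W_∞` and at `W_0`
  give ONE representative of every depth at both, `w / h^r ∈ 1 + e ssV`.
* `H71NewDepth` : **NEW-DEPTH**: if the norms of `u` along `α` and `β` are `r`-th powers, then
  `σ u / u` is `TorDeep`.

`h71n_newDepth_of : H71Start → H71Ladder → H71Glue → H71NewDepth`.
-/

set_option autoImplicit false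
set_option linter.style.haveILetI false
set_option linter.unusedSectionVars false
set_option synthInstance.maxHeartbeats 400000

open AlgebraicCurve ModularCurve IsLocalRing

noncomputable section

namespace Fermat.Agent.P6

open Fermat.Agent.Red.GV Fermat.Agent.Red.GV.Soft Fermat.Agent.Red.Kron Fermat.Agent.LGC
  Fermat.Agent.S37 Fermat.Agent.Red Fermat.Agent.Red.KR

/-- `x ∈ 1 + π W`, `W` the Gauss valuation ring of level `N`. -/
def H71Cong (A : ValuationSubring Kbar) (N : ℕ) (π : Kbar) (x : FF N) : Prop :=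
  ∃ z ∈ softV A N, x = 1 + cst N π * z

/-- `x ∈ 1 + π ssV`, `ssV = W_∞ ∩ W_0` the semistable Gauss ring of level `M ℓ`. -/
def H71CongSS (A : ValuationSubring Kbar) (M ℓ : ℕ) [NeZero M] [NeZero ℓ] (π : Kbar)
    (x : FF (M * ℓ)) : Prop :=
  ∃ z ∈ ssV A M ℓ, x = 1 + cst (M * ℓ) π * z

/-- **TorDeep**: `z` is a constant times an `r`-th power times an element of `1 + π ssV`, for
EVERY nonzero `π ∈ 𝔪_A`. -/
def H71TorDeep (A : ValuationSubring Kbar) (M ℓ : ℕ) [NeZero M] [NeZero ℓ] (r : ℕ)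
    (z : FF (M * ℓ)) : Prop :=
  ∀ π : Kbar, π ∈ A.nonunits → π ≠ 0 → ∃ c : Kbar, c ≠ 0 ∧ ∃ h : FF (M * ℓ), h ≠ 0 ∧
    H71CongSS A M ℓ π (cst (M * ℓ) c * z * (h ^ r)⁻¹)

/-- **START**: inertia moves a function by a constant times an element of `1 + π W`. -/
def H71Start : Prop :=
  ∀ (ℓ : ℕ), ℓ.Prime → ∀ (N : ℕ) [NeZero N], ∀ A : ValuationSubring Kbar, A.LiesOverPrime ℓ →
    ∀ σ ∈ A.inertiaSubgroupIn ℚ, ∀ u : FF N, u ≠ 0 →
      ∃ c : Kbar, c ≠ 0 ∧ ∃ π : Kbar, π ∈ A.nonunits ∧ π ≠ 0 ∧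
        H71Cong A N π (cst N c * (gal N σ • u / u))

/-- **LADDER**: norms which are `r`-th powers and one start congruence give representatives of
every depth at `W_∞` and at `W_0`. -/
def H71Ladder : Prop :=
  ∀ (ℓ : ℕ) (hℓ : ℓ.Prime) (M : ℕ) [NeZero M] (hM : ¬ ℓ ∣ M),
    haveI : NeZero ℓ := ⟨hℓ.ne_zero⟩
    ∀ A : ValuationSubring Kbar, A.LiesOverPrime ℓ → ∀ r : ℕ, 0 < r →
    ∀ w : FF (M * ℓ), w ≠ 0 →
      (∃ h : FF M, normAlong (heckeAlphaBar Kbar M ℓ) w = h ^ r) →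
      (∃ h : FF M, normAlong (heckeBetaBar Kbar M ℓ) w = h ^ r) →
      (∃ π₀ : Kbar, π₀ ∈ A.nonunits ∧ π₀ ≠ 0 ∧ ∃ g : FF (M * ℓ), g ≠ 0 ∧
        H71Cong A (M * ℓ) π₀ (w * (g ^ r)⁻¹)) →
      ∀ e : Kbar, e ∈ A.nonunits → e ≠ 0 →
        (∃ g : FF (M * ℓ), g ≠ 0 ∧ H71Cong A (M * ℓ) e (w * (g ^ r)⁻¹)) ∧
        (∃ g : FF (M * ℓ), g ≠ 0 ∧
          H71Cong A (M * ℓ) e (kFricke M ℓ hℓ hM (w * (g ^ r)⁻¹)))

/-- **GLUE** (weak approximation at the two Gauss valuations). -/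
def H71Glue : Prop :=
  ∀ (ℓ : ℕ) (hℓ : ℓ.Prime) (M : ℕ) [NeZero M] (hM : ¬ ℓ ∣ M),
    haveI : NeZero ℓ := ⟨hℓ.ne_zero⟩
    ∀ A : ValuationSubring Kbar, A.LiesOverPrime ℓ → ∀ r : ℕ, 0 < r →
    ∀ w : FF (M * ℓ), w ≠ 0 →
      (∀ e : Kbar, e ∈ A.nonunits → e ≠ 0 →
        (∃ g : FF (M * ℓ), g ≠ 0 ∧ H71Cong A (M * ℓ) e (w * (g ^ r)⁻¹)) ∧
        (∃ g : FF (M * ℓ), g ≠ 0 ∧
          H71Cong A (M * ℓ) e (kFricke M ℓ hℓ hM (w * (g ^ r)⁻¹)))) →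
      ∀ e : Kbar, e ∈ A.nonunits → e ≠ 0 →
        ∃ h : FF (M * ℓ), h ≠ 0 ∧ H71CongSS A M ℓ e (w * (h ^ r)⁻¹)

/-- **NEW-DEPTH**: for `u` whose norms along `α` and `β` are `r`-th powers and `σ` in the
inertia group, `σ u / u` is `TorDeep`. -/
def H71NewDepth : Prop :=
  ∀ (ℓ : ℕ) (hℓ : ℓ.Prime) (M : ℕ) [NeZero M], ¬ ℓ ∣ M →
    haveI : NeZero ℓ := ⟨hℓ.ne_zero⟩
    ∀ A : ValuationSubring Kbar, A.LiesOverPrime ℓ →
    ∀ σ ∈ A.inertiaSubgroupIn ℚ, ∀ r : ℕ, 0 < r → ∀ u : FF (M * ℓ), u ≠ 0 →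
      (∃ h : FF M, normAlong (heckeAlphaBar Kbar M ℓ) u = h ^ r) →
      (∃ h : FF M, normAlong (heckeBetaBar Kbar M ℓ) u = h ^ r) →
        H71TorDeep A M ℓ r (gal (M * ℓ) σ • u / u)

/-! ### The conditional top -/

/-- the norm of `σ u / u` is an `r`-th power if the norm of `u` is. -/
theorem h71n_norm_gal_div {N N' : ℕ} (φ : FF N →ₐ[Kbar] FF N') (hfin : FiniteAlong Kbar φ)
    (hφ : ∀ (σ : GQ) (y : FF N'), gal N σ • normAlong φ y = normAlong φ (gal N' σ • y))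
    (σ : GQ) (r : ℕ) (hr : 0 < r) (u : FF N') (hu : u ≠ 0)
    (h : ∃ h : FF N, normAlong φ u = h ^ r) :
    ∃ h : FF N, normAlong φ (gal N' σ • u / u) = h ^ r := by
  obtain ⟨h, hh⟩ := h
  have hn0 : normAlong φ u ≠ 0 := by
    letI := algebraAlong φ
    haveI : Module.Finite (FF N) (FF N') := hfin
    exact Algebra.norm_ne_zero_iff.mpr hu
  have hh0 : h ≠ 0 := by
    rintro rfl
    rw [zero_pow hr.ne'] at hh
    exact hn0 hh
  refine ⟨gal N σ • h / h, ?_⟩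
  have e1 : normAlong φ (gal N' σ • u / u) * normAlong φ u = normAlong φ (gal N' σ • u) := by
    rw [← normAlong_mul, div_mul_cancel₀ _ hu]
  have e2 : normAlong φ (gal N' σ • u) = (gal N σ • h) ^ r := by
    rw [← hφ, hh, smul_pow']
  rw [div_pow, eq_div_iff (pow_ne_zero r hh0), ← hh, e1, e2]

/-- **NEW-DEPTH from its leaves.** -/
theorem h71n_newDepth_of (hS : H71Start) (hL : H71Ladder) (hG : H71Glue) : H71NewDepth := by
  intro ℓ hℓ M _ hM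
  haveI : NeZero ℓ := ⟨hℓ.ne_zero⟩
  intro A hA σ hσ r hr u hu hα hβ π hπ hπ0
  set w : FF (M * ℓ) := gal (M * ℓ) σ • u / u with hw
  have hσu : gal (M * ℓ) σ • u ≠ 0 := by
    intro h
    apply hu
    have := congrArg (fun y => (gal (M * ℓ) σ)⁻¹ • y) h
    simpa using this
  have hw0 : w ≠ 0 := div_ne_zero hσu hu
  have hNα := h71n_norm_gal_div (heckeAlphaBar Kbar M ℓ)
    (Fermat.Agent.Red.HKMod.finiteAlong_heckeAlphaBar M ℓ)
    (fun τ y => Fermat.Agent.S36.h78b_gal_norm_alpha M ℓ τ y) σ r hr u hu hα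
  have hNβ := h71n_norm_gal_div (heckeBetaBar Kbar M ℓ)
    (Fermat.Agent.Red.HKMod.finiteAlong_heckeBetaBar M ℓ)
    (fun τ y => Fermat.Agent.S36.h78b_gal_norm_beta M ℓ τ y) σ r hr u hu hβ
  -- the start congruence, the constant absorbed in an `r`-th power
  obtain ⟨c, hc0, π₀, hπ₀, hπ₀0, hcong⟩ := hS ℓ hℓ (M * ℓ) A hA σ hσ u hu
  obtain ⟨c₁, hc₁⟩ := IsAlgClosed.exists_pow_nat_eq c hr
  have hc₁0 : c₁ ≠ 0 := by
    rintro rfl
    rw [zero_pow hr.ne'] at hc₁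
    exact hc0 hc₁.symm
  have hstart : ∃ π₀ : Kbar, π₀ ∈ A.nonunits ∧ π₀ ≠ 0 ∧ ∃ g : FF (M * ℓ), g ≠ 0 ∧
      H71Cong A (M * ℓ) π₀ (w * (g ^ r)⁻¹) := by
    refine ⟨π₀, hπ₀, hπ₀0, cst (M * ℓ) c₁⁻¹, ?_, ?_⟩
    · rw [Ne, map_eq_zero_iff _ (algebraMap Kbar (FF (M * ℓ))).injective]
      exact inv_ne_zero hc₁0
    · have e : w * (cst (M * ℓ) c₁⁻¹ ^ r)⁻¹ = cst (M * ℓ) c * w := by
        rw [← map_pow, ← map_inv₀, inv_pow, inv_inv, hc₁]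
        exact mul_comm _ _
      rw [e]
      exact hcong
  have hall := hL ℓ hℓ M hM A hA r hr w hw0 hNα hNβ hstart
  obtain ⟨h, hh0, hh⟩ := hG ℓ hℓ M hM A hA r hr w hw0 hall π hπ hπ0
  refine ⟨1, one_ne_zero, h, hh0, ?_⟩
  have e : cst (M * ℓ) 1 * w * (h ^ r)⁻¹ = w * (h ^ r)⁻¹ := by
    rw [show cst (M * ℓ) 1 = 1 from map_one (algebraMap Kbar (FF (M * ℓ))), one_mul]
  rw [e]
  exact hh

end Fermat.Agent.P6
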