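import Fermat.Agent.P6.H66TwGate
import Fermat.Agent.P6.H71NewIface

/-!
# Wave 6 (S33), block B5-PLUS: the PLUS layer of B2-NEW (helper45)

The TRIPLE route of the gluing B5 (helper41) consumes the `p`-new block B2 in the following
**PLUS form**: the hypotheses are on the class `u` ITSELF (not on a class `x` with
`u = b x - x`):

  `u ∈ J₀(M p)[p ^ k]`, `α_* u = β_* u = 0`, `u` in the subgroup generated by the
  `b x - x` (`b` in the inertia group at `p`, `x ∈ J₀(M p)[p ^ k]` ARBITRARY)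
  `⟹  p ^ c • (a u - e u) = 0`   (`a` in the inertia group, `a = (ζ ↦ ζ ^ e)` on `μ_{p^k}`).

Indeed for `w` in the `𝔪`-part, `u := (a - e)(b - 1) w = (a b a⁻¹ - 1)(a w) - e (b - 1) w` is of
this form as soon as STAR holds at the level `M` (B4-OLD), whence the triple identity
`(a' - e')(a - e)(b - 1) w = 0`.

The proofs of B2 do not change: the ladder (`H71Ladder`), the glue (`H71Glue`) and the toric gate
are statements about a function `z`; only the start congruence (`H71Start`) has to be multiplied.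

* `h45nGen A N n`, `H45nStart A N n z` : `z` is a product of inertia differences `b(u) / u`,
  `n ∣ div u`.
* `h45n_start_cong` : the start congruence for products (from `H71Start`).
* `H45nNewDepth`, `h45n_newDepth_of` : NEW-DEPTH in the PLUS form, from the frozen leaves
  `H71Start`, `H71Ladder`, `H71Glue` of helper71.
* `H45nTorGateAt`, `H45nTorGate` : the toric gate for an arbitrary `z` (frozen leaf).
* `H45nGateAt` : the function gate in the PLUS form; `h45n_gateAt_of`, `h45n_gateAt_descent`.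
* `H45nStarNewPlus M p` : the class form; `h45n_starNewPlus_of_gateAt`.
* `h45n_starNewPlus` : `H71Start → H71Ladder → H71Glue → H45nTorGate → H45nStarNewPlus M p`.

Nothing is assumed: the leaves are frozen interface `Prop`s, everything else is proved.
-/

set_option autoImplicit false
set_option linter.unusedSectionVars false
set_option linter.style.haveILetI false

open AlgebraicCurve ModularCurve

noncomputable section

namespace Fermat.Agent.P6

open Fermat.Agent.S37 Fermat.Agent.Red.KR Fermat.Agent.Red.Kron Fermat.Agent.Red.TRK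
  Fermat.Agent.LGC Fermat.Agent.Red.GateAll Fermat.Agent.S35
open Fermat.Agent.Red.GV Fermat.Agent.Red.GV.Soft Fermat.Agent.Red
open Fermat.Agent.Jac.K1 (IsKummerPair exists_kummerPair_JZero)

/-! ## The start set -/

/-- the inertia differences `b(u) / u`: `b` in the inertia group of `A`, `u ≠ 0`, `n ∣ div u`. -/
def h45nGen (A : ValuationSubring Kbar) (N n : ℕ) : Set (FF N) :=
  {z | ∃ b ∈ A.inertiaSubgroupIn ℚ, ∃ u : FF N, u ≠ 0 ∧
    (∀ v : Place Kbar (FF N), (n : ℤ) ∣ v.ord u) ∧ z = gal N b • u / u}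

/-- **START, PLUS form**: `z` is a product of inertia differences. -/
def H45nStart (A : ValuationSubring Kbar) (N n : ℕ) (z : FF N) : Prop :=
  z ∈ Submonoid.closure (h45nGen A N n)

theorem h45n_start_gen {A : ValuationSubring Kbar} {N n : ℕ} {b : GQ}
    (hb : b ∈ A.inertiaSubgroupIn ℚ) {u : FF N} (hu : u ≠ 0)
    (hord : ∀ v : Place Kbar (FF N), (n : ℤ) ∣ v.ord u) :
    H45nStart A N n (gal N b • u / u) :=
  Submonoid.subset_closure ⟨b, hb, u, hu, hord, rfl⟩

theorem h45n_start_one (A : ValuationSubring Kbar) (N n : ℕ) : H45nStart A N n 1 :=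
  Submonoid.one_mem _

theorem h45n_start_mul {A : ValuationSubring Kbar} {N n : ℕ} {z z' : FF N}
    (h : H45nStart A N n z) (h' : H45nStart A N n z') : H45nStart A N n (z * z') :=
  Submonoid.mul_mem _ h h'

theorem h45n_gal_inv (N : ℕ) (σ : GQ) (u : FF N) : gal N σ • u⁻¹ = (gal N σ • u)⁻¹ := by
  rw [SemilinearAut.smul_def, SemilinearAut.smul_def]
  exact map_inv₀ (SemilinearAut.toRingAut (gal N σ)) u

theorem h45n_gal_mul (N : ℕ) (σ : GQ) (u v : FF N) :
    gal N σ • (u * v) = gal N σ • u * gal N σ • v := by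
  rw [SemilinearAut.smul_def, SemilinearAut.smul_def, SemilinearAut.smul_def]
  exact map_mul (SemilinearAut.toRingAut (gal N σ)) u v

theorem h45n_gal_one (N : ℕ) (σ : GQ) : gal N σ • (1 : FF N) = 1 := by
  rw [SemilinearAut.smul_def]
  exact map_one (SemilinearAut.toRingAut (gal N σ))

theorem h45n_gal_div (N : ℕ) (σ : GQ) (u v : FF N) :
    gal N σ • (u / v) = gal N σ • u / gal N σ • v := by
  rw [div_eq_mul_inv, div_eq_mul_inv, h45n_gal_mul, h45n_gal_inv]

theorem h45n_gal_pow (N : ℕ) (σ : GQ) (u : FF N) (e : ℕ) :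
    gal N σ • (u ^ e) = (gal N σ • u) ^ e := by
  rw [SemilinearAut.smul_def, SemilinearAut.smul_def]
  exact map_pow (SemilinearAut.toRingAut (gal N σ)) u e

theorem h45n_start_inv {A : ValuationSubring Kbar} {N n : ℕ} {z : FF N}
    (h : H45nStart A N n z) : H45nStart A N n z⁻¹ := by
  induction h using Submonoid.closure_induction with
  | mem z hz =>
    obtain ⟨b, hb, u, hu, hord, rfl⟩ := hz
    have e : (gal N b • u / u)⁻¹ = gal N b • u⁻¹ / u⁻¹ := by
      rw [h45n_gal_inv, inv_div, inv_div_inv]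
    rw [e]
    refine h45n_start_gen hb (inv_ne_zero hu) (fun v => ?_)
    rw [Place.ord_inv]
    exact (dvd_neg).2 (hord v)
  | one => rw [inv_one]; exact h45n_start_one A N n
  | mul x y _ _ hx hy => rw [mul_inv]; exact h45n_start_mul hx hy

theorem h45n_start_ne_zero {A : ValuationSubring Kbar} {N n : ℕ} {z : FF N}
    (h : H45nStart A N n z) : z ≠ 0 := by
  induction h using Submonoid.closure_induction with
  | mem z hz =>
    obtain ⟨b, -, u, hu, -, rfl⟩ := hz
    exact div_ne_zero (gal_smul_ne_zero b hu) hu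
  | one => exact one_ne_zero
  | mul x y _ _ hx hy => exact mul_ne_zero hx hy

theorem h45n_start_dvd_ord {A : ValuationSubring Kbar} {N n : ℕ} {z : FF N}
    (h : H45nStart A N n z) (v : Place Kbar (FF N)) : (n : ℤ) ∣ v.ord z := by
  induction h using Submonoid.closure_induction with
  | mem z hz =>
    obtain ⟨b, -, u, hu, hord, rfl⟩ := hz
    rw [div_eq_mul_inv, Place.ord_mul _ (gal_smul_ne_zero b hu) (inv_ne_zero hu), Place.ord_inv]
    exact dvd_add (h31s_dvd_ord_gal b hord v) ((dvd_neg).2 (hord v))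
  | one => rw [Place.ord_one]; exact dvd_zero _
  | mul x y hx hy ihx ihy =>
    rw [Place.ord_mul _ (h45n_start_ne_zero hx) (h45n_start_ne_zero hy)]
    exact dvd_add ihx ihy

/-- the start set is stable under the degeneracy inclusions. -/
theorem h45n_start_degen {A : ValuationSubring Kbar} {N N' : ℕ} [NeZero N] [NeZero N']
    (hd : N ∣ N') {n : ℕ} {z : FF N} (h : H45nStart A N n z) :
    H45nStart A N' n (degen hd z) := by
  induction h using Submonoid.closure_induction with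
  | mem z hz =>
    obtain ⟨b, hb, u, hu, hord, rfl⟩ := hz
    rw [map_div₀, h63_degen_gal]
    refine h45n_start_gen hb (h31s_degen_ne_zero hd hu) (fun v => ?_)
    rw [Place.ord_restrictAlong (degen hd) (h99_isIntegral_degen _) v u]
    exact Dvd.dvd.mul_left (hord _) _
  | one => rw [map_one]; exact h45n_start_one A N' n
  | mul x y _ _ hx hy => rw [map_mul]; exact h45n_start_mul hx hy

/-! ## The start congruence for products -/

/-- the product of two elements of `1 + π W`, `1 + π' W` lies in `1 + π'' W`. -/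
theorem h45n_cong_mul (A : ValuationSubring Kbar) (N : ℕ) {π π' : Kbar}
    (hπ : π ∈ A.nonunits) (hπ0 : π ≠ 0) (hπ' : π' ∈ A.nonunits) (hπ'0 : π' ≠ 0)
    {x y : FF N} (hx : H71Cong A N π x) (hy : H71Cong A N π' y) :
    ∃ π'' : Kbar, π'' ∈ A.nonunits ∧ π'' ≠ 0 ∧ H71Cong A N π'' (x * y) := by
  obtain ⟨s, hs, rfl⟩ := hx
  obtain ⟨s', hs', rfl⟩ := hy
  have hcπ : cst N π ∈ softV A N := (cst_mem_softV_iff A N π).mpr (A.nonunits_le hπ)
  have hcπ' : cst N π' ∈ softV A N := (cst_mem_softV_iff A N π').mpr (A.nonunits_le hπ')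
  rcases A.mem_or_inv_mem (π' / π) with ht | ht
  · -- `π ∣ π'`
    refine ⟨π, hπ, hπ0, s + cst N (π' / π) * s' + cst N π' * (s * s'),
      add_mem (add_mem hs (mul_mem ((cst_mem_softV_iff A N _).mpr ht) hs'))
        (mul_mem hcπ' (mul_mem hs hs')), ?_⟩
    have e : cst N π' = cst N π * cst N (π' / π) := by
      rw [← map_mul, mul_div_cancel₀ _ hπ0]
    rw [e]
    ring
  · -- `π' ∣ π`
    rw [inv_div] at ht
    refine ⟨π', hπ', hπ'0, cst N (π / π') * s + s' + cst N π * (s * s'),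
      add_mem (add_mem (mul_mem ((cst_mem_softV_iff A N _).mpr ht) hs) hs')
        (mul_mem hcπ (mul_mem hs hs')), ?_⟩
    have e : cst N π = cst N π' * cst N (π / π') := by
      rw [← map_mul, mul_div_cancel₀ _ hπ'0]
    rw [e]
    ring

/-- **START for products**: a product of inertia differences is a constant times an element of
`1 + π W`, `π ∈ 𝔪_A` nonzero. -/
theorem h45n_start_cong (hS : H71Start) (ℓ : ℕ) (hℓ : ℓ.Prime) (N : ℕ) [NeZero N]
    (A : ValuationSubring Kbar) (hA : A.LiesOverPrime ℓ) {n : ℕ} {z : FF N}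
    (hz : H45nStart A N n z) :
    ∃ c : Kbar, c ≠ 0 ∧ ∃ π : Kbar, π ∈ A.nonunits ∧ π ≠ 0 ∧
      H71Cong A N π (cst N c * z) := by
  induction hz using Submonoid.closure_induction with
  | mem z hz =>
    obtain ⟨b, hb, u, hu, -, rfl⟩ := hz
    exact hS ℓ hℓ N A hA b hb u hu
  | one =>
    refine ⟨1, one_ne_zero, (ℓ : Kbar), hA, by exact_mod_cast hℓ.ne_zero, 0, zero_mem _, ?_⟩
    rw [mul_zero, add_zero, mul_one]
    exact map_one (algebraMap Kbar (FF N))
  | mul x y _ _ hx hy =>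
    obtain ⟨c, hc, π, hπ, hπ0, hcx⟩ := hx
    obtain ⟨c', hc', π', hπ', hπ'0, hcy⟩ := hy
    obtain ⟨π'', h1, h2, h3⟩ := h45n_cong_mul A N hπ hπ0 hπ' hπ'0 hcx hcy
    refine ⟨c * c', mul_ne_zero hc hc', π'', h1, h2, ?_⟩
    have e : cst N (c * c') * (x * y) = cst N c * x * (cst N c' * y) := by
      rw [show cst N (c * c') = cst N c * cst N c' from map_mul (algebraMap Kbar (FF N)) c c']
      ring
    rw [e]
    exact h3

/-! ## NEW-DEPTH, PLUS form -/

/-- **NEW-DEPTH, PLUS form**: a product `z` of inertia differences whose norms along `α` and `β`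
are `r`-th powers is `TorDeep`. -/
def H45nNewDepth : Prop :=
  ∀ (ℓ : ℕ) (hℓ : ℓ.Prime) (M : ℕ) [NeZero M], ¬ ℓ ∣ M →
    haveI : NeZero ℓ := ⟨hℓ.ne_zero⟩
    ∀ A : ValuationSubring Kbar, A.LiesOverPrime ℓ →
    ∀ r : ℕ, 0 < r → ∀ (n : ℕ) (z : FF (M * ℓ)), H45nStart A (M * ℓ) n z →
      (∃ h : FF M, normAlong (heckeAlphaBar Kbar M ℓ) z = h ^ r) →
      (∃ h : FF M, normAlong (heckeBetaBar Kbar M ℓ) z = h ^ r) →
        H71TorDeep A M ℓ r z

/-- **NEW-DEPTH (PLUS form) from the frozen leaves of helper71.** -/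
theorem h45n_newDepth_of (hS : H71Start) (hL : H71Ladder) (hG : H71Glue) : H45nNewDepth := by
  intro ℓ hℓ M _ hM
  haveI : NeZero ℓ := ⟨hℓ.ne_zero⟩
  intro A hA r hr n z hz hα hβ π hπ hπ0
  have hz0 : z ≠ 0 := h45n_start_ne_zero hz
  obtain ⟨c, hc0, π₀, hπ₀, hπ₀0, hcong⟩ := h45n_start_cong hS ℓ hℓ (M * ℓ) A hA hz
  obtain ⟨c₁, hc₁⟩ := IsAlgClosed.exists_pow_nat_eq c hr
  have hc₁0 : c₁ ≠ 0 := by
    rintro rfl
    rw [zero_pow hr.ne'] at hc₁
    exact hc0 hc₁.symm
  have hstart : ∃ π₀ : Kbar, π₀ ∈ A.nonunits ∧ π₀ ≠ 0 ∧ ∃ g : FF (M * ℓ), g ≠ 0 ∧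
      H71Cong A (M * ℓ) π₀ (z * (g ^ r)⁻¹) := by
    refine ⟨π₀, hπ₀, hπ₀0, cst (M * ℓ) c₁⁻¹, ?_, ?_⟩
    · rw [Ne, map_eq_zero_iff _ (algebraMap Kbar (FF (M * ℓ))).injective]
      exact inv_ne_zero hc₁0
    · have e : z * (cst (M * ℓ) c₁⁻¹ ^ r)⁻¹ = cst (M * ℓ) c * z := by
        rw [← map_pow, ← map_inv₀, inv_pow, inv_inv, hc₁]
        exact mul_comm _ _
      rw [e]
      exact hcong
  have hall := hL ℓ hℓ M hM A hA r hr z hz0 hα hβ hstart
  obtain ⟨h, hh0, hh⟩ := hG ℓ hℓ M hM A hA r hr z hz0 hall π hπ hπ0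
  refine ⟨1, one_ne_zero, h, hh0, ?_⟩
  have e : cst (M * ℓ) 1 * z * (h ^ r)⁻¹ = z * (h ^ r)⁻¹ := by
    rw [show cst (M * ℓ) 1 = 1 from map_one (algebraMap Kbar (FF (M * ℓ))), one_mul]
  rw [e]
  exact hh

/-! ## The gates -/

/-- the twisted difference `a(z) / z ^ e`. -/
def h45nTw (N : ℕ) (a : GQ) (e : ℕ) (z : FF N) : FF N := gal N a • z / z ^ e

theorem h45n_tw_ne_zero (N : ℕ) (a : GQ) (e : ℕ) {z : FF N} (hz : z ≠ 0) :
    h45nTw N a e z ≠ 0 :=
  div_ne_zero (gal_smul_ne_zero a hz) (pow_ne_zero _ hz)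

theorem h45n_tw_degen {N N' : ℕ} [NeZero N] [NeZero N'] (h : N ∣ N') (a : GQ) (e : ℕ)
    (z : FF N) : degen h (h45nTw N a e z) = h45nTw N' a e (degen h z) := by
  unfold h45nTw
  rw [map_div₀, map_pow, h63_degen_gal]

theorem h45n_dvd_ord_tw {N : ℕ} (a : GQ) (e : ℕ) {m : ℕ} {z : FF N} (hz : z ≠ 0)
    (hord : ∀ v : Place Kbar (FF N), (m : ℤ) ∣ v.ord z) (t : ℕ) (v : Place Kbar (FF N)) :
    (m : ℤ) ∣ v.ord (h45nTw N a e z ^ t) := by
  rw [← zpow_natCast, Place.ord_zpow]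
  refine Dvd.dvd.mul_left ?_ _
  unfold h45nTw
  rw [div_eq_mul_inv, Place.ord_mul _ (gal_smul_ne_zero a hz) (inv_ne_zero (pow_ne_zero _ hz)),
    Place.ord_inv, ← zpow_natCast, Place.ord_zpow]
  exact dvd_add (h31s_dvd_ord_gal a hord v) ((dvd_neg).2 (Dvd.dvd.mul_left (hord v) _))

/-- **the toric gate at the level `M * p`** for an arbitrary function `z` (frozen leaf shape):
`p ^ k ∣ div z` and `z` `TorDeep` give that `(a(z) / z ^ e) ^ (p ^ c)` is a `p ^ k`-th power. -/
def H45nTorGateAt (p M : ℕ) [NeZero M] [NeZero p] (A : ValuationSubring Kbar) (a : GQ)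
    (c : ℕ) : Prop :=
  ∀ k e : ℕ, (∀ μ : Kbar, μ ^ p ^ k = 1 → a μ = μ ^ e) →
    ∀ z : FF (M * p), z ≠ 0 →
      (∀ v : Place Kbar (FF (M * p)), ((p ^ k : ℕ) : ℤ) ∣ v.ord z) →
      H71TorDeep A M p (p ^ k) z →
        ∃ h : FF (M * p), h ^ p ^ k = h45nTw (M * p) a e z ^ p ^ c

/-- **TOR-GATE-p** at the good levels, bounded exponent (frozen leaf). -/
def H45nTorGate : Prop :=
  ∀ (p : ℕ) (hp : p.Prime), p ≠ 2 → ∀ (M : ℕ) [NeZero M], ¬ p ∣ M → auxLevel p ∣ M →
    haveI : NeZero p := ⟨hp.ne_zero⟩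
    ∀ A : ValuationSubring Kbar, A.LiesOverPrime p →
    ∀ a ∈ A.inertiaSubgroupIn ℚ, ∃ c : ℕ, H45nTorGateAt p M A a c

/-- **the function gate, PLUS form**, at the level `M * p` with exponent `p ^ c`. -/
def H45nGateAt (p M : ℕ) [NeZero M] [NeZero p] (A : ValuationSubring Kbar) (a : GQ)
    (c : ℕ) : Prop :=
  ∀ k e : ℕ, (∀ μ : Kbar, μ ^ p ^ k = 1 → a μ = μ ^ e) →
    ∀ z : FF (M * p), H45nStart A (M * p) (p ^ k) z →
      (∃ h : FF M, normAlong (heckeAlphaBar Kbar M p) z = h ^ p ^ k) →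
      (∃ h : FF M, normAlong (heckeBetaBar Kbar M p) z = h ^ p ^ k) →
        ∃ h : FF (M * p), h ^ p ^ k = h45nTw (M * p) a e z ^ p ^ c

/-- the function gate from NEW-DEPTH and the toric gate. -/
theorem h45n_gateAt_of (hD : H45nNewDepth) {p : ℕ} (hp : p.Prime) (M : ℕ) [NeZero M]
    (hpM : ¬ p ∣ M) (A : ValuationSubring Kbar) (hA : A.LiesOverPrime p) (a : GQ) (c : ℕ)
    (hT : haveI : NeZero p := ⟨hp.ne_zero⟩; H45nTorGateAt p M A a c) :
    haveI : NeZero p := ⟨hp.ne_zero⟩; H45nGateAt p M A a c := by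
  haveI : NeZero p := ⟨hp.ne_zero⟩
  intro k e he z hz hα hβ
  exact hT k e he z (h45n_start_ne_zero hz) (fun v => h45n_start_dvd_ord hz v)
    (hD p hp M hpM A hA (p ^ k) (pow_pos hp.pos k) (p ^ k) z hz hα hβ)

/-- **descent**: the PLUS gate at the good level above `M` gives the PLUS gate at `M`. -/
theorem h45n_gateAt_descent {p : ℕ} (hp : p.Prime) (M : ℕ) [NeZero M] (hpM : ¬ p ∣ M)
    (A : ValuationSubring Kbar) (a : GQ) (c : ℕ)
    (H : haveI : NeZero p := ⟨hp.ne_zero⟩; H45nGateAt p (goodLevel p M) A a c) :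
    haveI : NeZero p := ⟨hp.ne_zero⟩; H45nGateAt p M A a c := by
  haveI : NeZero p := ⟨hp.ne_zero⟩
  intro k e he z hz hα hβ
  have hm0 : p ^ k ≠ 0 := pow_ne_zero _ hp.ne_zero
  have hd : M ∣ goodLevel p M := dvd_goodLevel p M
  have hdq : M * p ∣ goodLevel p M * p := Nat.mul_dvd_mul_right hd p
  have hz0 : z ≠ 0 := h45n_start_ne_zero hz
  obtain ⟨h₁, hh₁⟩ := hα
  obtain ⟨h₂, hh₂⟩ := hβ
  obtain ⟨h', hh'⟩ := H k e he (degen hdq z) (h45n_start_degen hdq hz)
    ⟨degen hd h₁, by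
      rw [h31s_norm_alpha_degen p hp hpM (not_dvd_goodLevel hp hpM) hd, hh₁, map_pow]⟩
    ⟨degen hd h₂, by
      rw [h31s_norm_beta_degen p hp hpM (not_dvd_goodLevel hp hpM) hd, hh₂, map_pow]⟩
  rw [← h45n_tw_degen hdq, ← map_pow] at hh'
  have hw : h45nTw (M * p) a e z ^ p ^ c ≠ 0 := pow_ne_zero _ (h45n_tw_ne_zero _ a e hz0)
  have hgl := h31s_goodLevel_mul_dvd hp hpM
  obtain ⟨h, hh⟩ := h63_descent_pow p (M * p) (p ^ k) hm0 (h45nTw (M * p) a e z ^ p ^ c) hw
    (h45n_dvd_ord_tw a e hz0 (fun v => h45n_start_dvd_ord hz v) (p ^ c))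
    ⟨degen hgl h', by rw [← map_pow, hh', h31s_degen_degen]⟩
  exact ⟨h, hh⟩

/-! ## From functions to divisor classes -/

/-- the generators of the class form: `b x - x`, `b` in the inertia group, `n • x = 0`. -/
def h45nClassGen (A : ValuationSubring Kbar) (N n : ℕ) : Set (JZero N) :=
  {y | ∃ b ∈ A.inertiaSubgroupIn ℚ, ∃ x : JZero N, n • x = 0 ∧ y = b • x - x}

/-- a class in the subgroup generated by the `b x - x` has a Kummer representative which is a
product of inertia differences. -/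
theorem h45n_exists_kummer (A : ValuationSubring Kbar) (N n : ℕ) {u : JZero N}
    (hu : u ∈ AddSubgroup.closure (h45nClassGen A N n)) :
    ∃ z : FF N, IsKummerPair n u z ∧ H45nStart A N n z := by
  induction hu using AddSubgroup.closure_induction with
  | mem y hy =>
    obtain ⟨b, hb, x, hx, rfl⟩ := hy
    obtain ⟨f, hf⟩ := exists_kummerPair_JZero N hx
    exact ⟨gal N b • f / f, (hf.smul (gal N b)).div hf,
      h45n_start_gen hb hf.ne_zero (fun v => hf.dvd_ord v)⟩
  | zero => exact ⟨1, IsKummerPair.one, h45n_start_one A N n⟩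
  | add x y _ _ hx hy =>
    obtain ⟨f, hf, hfs⟩ := hx
    obtain ⟨g, hg, hgs⟩ := hy
    exact ⟨f * g, hf.mul hg, h45n_start_mul hfs hgs⟩
  | neg x _ hx =>
    obtain ⟨f, hf, hfs⟩ := hx
    exact ⟨f⁻¹, hf.inv, h45n_start_inv hfs⟩

/-- the twisted difference of a Kummer representative represents `a u - e u`. -/
theorem h45n_kummer_tw (N : ℕ) (a : GQ) (e : ℕ) {n : ℕ} {u : JZero N} {f : FF N}
    (hu : IsKummerPair n u f) :
    IsKummerPair n (gal N a • u - e • u) (h45nTw N a e f) :=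
  (hu.smul (gal N a)).div (h33s_kummer_nsmul hu e)

/-- **the class form at the level `M * p`, from the PLUS gate.** -/
theorem h45n_class_of_gateAt {p : ℕ} (hp : p.Prime) (M : ℕ) [NeZero M]
    (A : ValuationSubring Kbar) (a : GQ) (c : ℕ)
    (H : haveI : NeZero p := ⟨hp.ne_zero⟩; H45nGateAt p M A a c) :
    haveI : NeZero p := ⟨hp.ne_zero⟩
    ∀ k e : ℕ, (∀ μ : Kbar, μ ^ p ^ k = 1 → a μ = μ ^ e) →
      ∀ u : JZero (M * p), pushAlpha M p u = 0 → pushBeta M p u = 0 →
        u ∈ AddSubgroup.closure (h45nClassGen A (M * p) (p ^ k)) →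
          p ^ c • (a • u) = p ^ c • (e • u) := by
  haveI : NeZero p := ⟨hp.ne_zero⟩
  intro k e he u hα hβ hu
  have hn : p ^ k ≠ 0 := pow_ne_zero _ hp.ne_zero
  obtain ⟨f, hf, hfs⟩ := h45n_exists_kummer A (M * p) (p ^ k) hu
  obtain ⟨g₁, -, hg₁⟩ := h33s_norm_eq_pow_of_pushAlpha M p hn hf hα
  obtain ⟨g₂, -, hg₂⟩ := h33s_norm_eq_pow_of_pushBeta M p hn hf hβ
  obtain ⟨h, hh⟩ := H k e he f hfs
    ⟨g₁, by rw [h33s_normAlong_eq]; exact hg₁⟩ ⟨g₂, by rw [h33s_normAlong_eq]; exact hg₂⟩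
  have hw := h33s_kummer_nsmul (h45n_kummer_tw (M * p) a e hf) (p ^ c)
  have h0 := Fermat.Agent.Red.EST.h76_kummer_eq_zero_of_pow hn hw hh
  rw [nsmul_sub, sub_eq_zero] at h0
  exact h0

/-- **STAR_new+ (the class form consumed by the TRIPLE gluing)**: for `u ∈ J₀(M p)` in the kernel
of both push-forwards to `J₀(M)` and in the subgroup generated by the `b x - x` (`b` in the
inertia group at `p`, `p ^ k • x = 0`): `p ^ c • (a u) = p ^ c • (e u)` for `a` in the inertia
group acting by `e` on `μ_{p^k}`; the exponent `c` depends only on `a`. -/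
def H45nStarNewPlus (M p : ℕ) [NeZero M] [NeZero p] : Prop :=
  p.Prime → p ≠ 2 → ¬ p ∣ M →
    ∀ A : ValuationSubring Kbar, A.LiesOverPrime p →
    ∀ a ∈ A.inertiaSubgroupIn ℚ,
      ∃ c : ℕ, ∀ k e : ℕ, (∀ μ : Kbar, μ ^ p ^ k = 1 → a μ = μ ^ e) →
        ∀ u : JZero (M * p), pushAlpha M p u = 0 → pushBeta M p u = 0 →
          u ∈ AddSubgroup.closure (h45nClassGen A (M * p) (p ^ k)) →
            p ^ c • (a • u) = p ^ c • (e • u)

/-- **the top of the PLUS layer**: the frozen leaves of NEW-DEPTH and the toric gate give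
STAR_new+ at every level `M * p`, `p ∤ M`. -/
theorem h45n_starNewPlus (hS : H71Start) (hL : H71Ladder) (hG : H71Glue) (hT : H45nTorGate)
    (M p : ℕ) [NeZero M] [NeZero p] : H45nStarNewPlus M p := by
  intro hp hp2 hpM A hA a ha
  have hD := h45n_newDepth_of hS hL hG
  obtain ⟨c, hc⟩ := hT p hp hp2 (goodLevel p M) (not_dvd_goodLevel hp hpM)
    (auxLevel_dvd_goodLevel p M) A hA a ha
  refine ⟨c, ?_⟩
  have hgood := h45n_gateAt_of hD hp (goodLevel p M) (not_dvd_goodLevel hp hpM) A hA a c hc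
  have hgate := h45n_gateAt_descent hp M hpM A a c hgood
  exact h45n_class_of_gateAt hp M A a c hgate

end Fermat.Agent.P6
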