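import Fermat.Agent.P6.H48Chain
import Fermat.Agent.P6.H97DevIface
import Fermat.Agent.S56F.FLO2_helper89

/-!
# Wave 6 (S33), bridge B3-ORD2CHAIN (helper48): local FLAT-ORD with the ELEMENTWISE hypothesis

`H48cLocalOrd` is the devissage statement `H97fLocal` of `P6/H97DevIface.lean` with the chain of
ordinary type replaced by the elementwise ordinarity of `H36oFlatOrd` / `H39FlatOrd`:
for every `s` in inertia with `s = (μ ↦ μ ^ e)` on `μ_{p^k}` the map `(s - 1)(s - e)` is nilpotent.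

* `h48c_cycLoc` : `h97fCyc p k` (`k ≥ 1`) is a cyclotomic exponent relation on `Gq p`
  (existence, multiplicativity, well defined modulo `p`), invariant under conjugation.
* `h48c_chainLoc` : elementwise ORD ⟹ a `Gq p`-stable chain of ordinary type
  (instance of the Mathlib-only `h48c_chain`).
* `h48c_localOrd : H97fLocal → H48cLocalOrd`.
-/

set_option autoImplicit false
set_option linter.style.haveILetI false
set_option linter.unusedSectionVars false

open Fermat.Agent.PT.Loc Fermat.Agent.S56F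

noncomputable section

namespace Fermat.Agent.P6

variable {p : ℕ} [Fact p.Prime]

theorem h48c_cyc_one (k : ℕ) : h97fCyc p k (1 : Gq p) 1 := by
  intro μ _
  rw [pow_one]
  rfl

theorem h48c_cyc_mul (k : ℕ) (s t : Gq p) (e f : ℕ) (hs : h97fCyc p k s e)
    (ht : h97fCyc p k t f) : h97fCyc p k (s * t) (e * f) := by
  intro μ hμ
  have h1 : (μ ^ f) ^ p ^ k = 1 := by rw [← pow_mul, mul_comm, pow_mul, hμ, one_pow]
  rw [AlgEquiv.mul_apply, ht μ hμ, hs _ h1, ← pow_mul, mul_comm]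

theorem h48c_cyc_conj (k : ℕ) (s τ : Gq p) (e : ℕ) (hs : h97fCyc p k s e) :
    h97fCyc p k (τ⁻¹ * s * τ) e := by
  intro μ hμ
  have h1 : (τ μ) ^ p ^ k = 1 := by rw [← map_pow, hμ, map_one]
  rw [AlgEquiv.mul_apply, AlgEquiv.mul_apply, hs _ h1, map_pow]
  congr 1
  rw [← AlgEquiv.mul_apply, inv_mul_cancel, AlgEquiv.one_apply]

theorem h48c_cyc_ex (k : ℕ) (s : Gq p) : ∃ e : ℕ, h97fCyc p k s e := by
  have hpk : 0 < p ^ k := pow_pos (Fact.out : p.Prime).pos k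
  obtain ⟨ζ, hζ⟩ := h89o_exists_primitiveRoot (p := p) (p ^ k) hpk
  haveI : NeZero (p ^ k) := ⟨hpk.ne'⟩
  have h1 : (s ζ) ^ p ^ k = 1 := by rw [← map_pow, hζ.pow_eq_one, map_one]
  obtain ⟨e, -, he⟩ := hζ.eq_pow_of_pow_eq_one h1
  refine ⟨e, fun μ hμ => ?_⟩
  obtain ⟨j, -, hj⟩ := hζ.eq_pow_of_pow_eq_one hμ
  rw [← hj, map_pow, ← he, ← pow_mul, ← pow_mul, mul_comm]

theorem h48c_cyc_congr (k : ℕ) (hk : 0 < k) (s : Gq p) (e e' : ℕ) (h : h97fCyc p k s e)
    (h' : h97fCyc p k s e') : e ≡ e' [MOD p] := by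
  obtain ⟨ζ, hζ⟩ := h89o_exists_primitiveRoot (p := p) p (Fact.out : p.Prime).pos
  have h1 : ζ ^ p ^ k = 1 := by
    obtain ⟨j, rfl⟩ := Nat.exists_eq_succ_of_ne_zero hk.ne'
    rw [pow_succ', pow_mul, hζ.pow_eq_one, one_pow]
  have h2 : ζ ^ e = ζ ^ e' := by rw [← h ζ h1, ← h' ζ h1]
  have hfin : IsOfFinOrder ζ :=
    isOfFinOrder_iff_pow_eq_one.2 ⟨p, (Fact.out : p.Prime).pos, hζ.pow_eq_one⟩
  have h3 := hfin.pow_eq_pow_iff_modEq.1 h2
  rwa [← hζ.eq_orderOf] at h3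

/-- elementwise ORD ⟹ a `Gq p`-stable chain of ordinary type. -/
theorem h48c_chainLoc (k : ℕ) (hk0 : 0 < k) {W : Type} [AddCommGroup W] [Finite W]
    {act : Gq p → W → W} (hact : IsAct act) (hk : ∀ x : W, p ^ k • x = 0)
    (ord : ∀ s ∈ inertia p, ∀ e : ℕ, h97fCyc p k s e →
      ∃ r : ℕ, ∀ x : W, (h48cQuad act s e)^[r] x = 0) :
    ∃ (n : ℕ) (F : ℕ → AddSubgroup W), F 0 = ⊥ ∧ F n = ⊤ ∧ (∀ i, F i ≤ F (i + 1)) ∧
      (∀ i, ∀ τ : Gq p, ∀ x ∈ F i, act τ x ∈ F i) ∧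
      ∀ i, ∀ a ∈ inertia p, ∀ b ∈ inertia p, ∀ e : ℕ, h97fCyc p k a e → ∀ x ∈ F (i + 1),
        act a (act b x - x) - e • (act b x - x) ∈ F i :=
  h48c_chain (act := act) ⟨hact.one, hact.mul, hact.add⟩ p k hk (inertia p)
    ⟨fun _ hn g => h89o_conj_mem_inertia hn g⟩ (h97fCyc p k)
    (fun s _ => h48c_cyc_ex k s) (h48c_cyc_one k)
    (fun s _ t _ e f hs ht => h48c_cyc_mul k s t e f hs ht)
    (fun s _ e e' h h' => h48c_cyc_congr k hk0 s e e' h h')
    (fun s _ τ e hs => h48c_cyc_conj k s τ e hs) ord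

/-- **local FLAT-ORD, elementwise form**: a module with an order (stable under conjugation) on
which every `s` of inertia satisfies `((s - 1)(s - e)) ^ r = 0` (`e` the cyclotomic exponent of
`s` on `μ_{p^k}`) satisfies the monodromy identity `(a - e)(b - 1) = 0`. -/
def H48cLocalOrd : Prop :=
  ∀ (p : ℕ) [Fact p.Prime], p ≠ 2 → ∀ (k : ℕ) (W : Type) [AddCommGroup W] [Finite W]
    (act : Gq p → W → W), IsAct act → (∀ x : W, p ^ k • x = 0) →
    ∀ 𝓗 : FHO p (inertia p) W act, (∀ τ : Gq p, 𝓗.ConjStable τ) →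
      (∀ s ∈ inertia p, ∀ e : ℕ, h97fCyc p k s e →
        ∃ r : ℕ, ∀ x : W, (h48cQuad act s e)^[r] x = 0) →
    ∀ a ∈ inertia p, ∀ b ∈ inertia p, ∀ e : ℕ, h97fCyc p k a e → ∀ w : W,
      act a (act b w - w) = e • (act b w - w)

/-- the devissage `H97fLocal` implies local FLAT-ORD in the elementwise form. -/
theorem h48c_localOrd (h : H97fLocal) : H48cLocalOrd := by
  intro p _ hp2 k W _ _ act hact hk 𝓗 hconj ord a ha b hb e he w
  rcases Nat.eq_zero_or_pos k with hk0 | hk0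
  · have hw : ∀ x : W, x = 0 := fun x => by
      have := hk x
      rwa [hk0, pow_zero, one_smul] at this
    rw [hw (act a (act b w - w)), hw (act b w - w), smul_zero]
  · obtain ⟨n, F, hF0, hFn, hFmono, hFst, hFord⟩ := h48c_chainLoc k hk0 hact hk ord
    exact h p hp2 k W act hact hk 𝓗 hconj n F hF0 hFn hFmono hFst hFord a ha b hb e he w

end Fermat.Agent.P6
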