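import Fermat.Agent.P6.H39FlatOrdLocIface
import Fermat.Agent.P5.H97FlatClos
import Fermat.Agent.S56F.A1h39
import Fermat.Agent.S56F.FLD0_helper89
import Fermat.Agent.S56F.FLO3_helper84
import Fermat.Agent.PT.Bridge.LocGrpE
import Fermat.Agent.PT.Bridge.Inertia

/-!
# Wave 6 (S33), block B3 FLAT-ORD, leaf B3a-BRIDGE (helper70)

`h70b_bridge : H39FlatOrdBridge` (exact frozen Prop of `P6/H39FlatOrdLocIface.lean`):
the local form `H39FlatOrdLoc` of FLAT-ORD implies the global form `H39FlatOrd`.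

Wiring: a place `P` over `p` is `x⁻¹ • padicPlace p`; its inertia group is
`x⁻¹ ιp(inertia p) x`; the order over the inertia group comes from `h39f_normalForm`; the
cyclotomic exponents are transported by `padicEmbedding`; nilpotency and the identity
`(s' - a)(s - 1) = 0` are transported by conjugation with `ρ x`.
-/

set_option autoImplicit false
set_option linter.style.haveILetI false

open Fermat.Agent.PT.Loc Fermat.Agent.S56F Fermat.Agent.PT.Bridge

namespace Fermat.Agent.P6

section Conj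

variable {M : Type} [AddCommGroup M]

/-- conjugation of the ordinary-type product. -/
theorem h70b_conj_prod (u v A B : AddMonoid.End M) (huv : u * v = 1) (hvu : v * u = 1)
    (a : ℕ) :
    (v * A * u - (a : AddMonoid.End M)) * (v * B * u - 1) =
      v * ((A - (a : AddMonoid.End M)) * (B - 1)) * u := by
  have ha : (a : AddMonoid.End M) * v = v * (a : AddMonoid.End M) := (Nat.cast_commute a v).eq
  have h1 : v * A * u - (a : AddMonoid.End M) = v * (A - (a : AddMonoid.End M)) * u := by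
    rw [mul_sub, sub_mul, ← ha, mul_assoc (a : AddMonoid.End M) v u, hvu, mul_one]
  have h2 : v * B * u - 1 = v * (B - 1) * u := by
    rw [mul_sub, sub_mul, mul_one, hvu]
  rw [h1, h2]
  calc v * (A - (a : AddMonoid.End M)) * u * (v * (B - 1) * u)
      = v * (A - (a : AddMonoid.End M)) * (u * v) * (B - 1) * u := by
        simp only [mul_assoc]
    _ = v * ((A - (a : AddMonoid.End M)) * (B - 1)) * u := by
        rw [huv, mul_one]; simp only [mul_assoc]

/-- conjugation of the ordinary-type product, other order of the factors. -/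
theorem h70b_conj_prod' (u v A : AddMonoid.End M) (huv : u * v = 1) (hvu : v * u = 1)
    (a : ℕ) :
    (v * A * u - 1) * (v * A * u - (a : AddMonoid.End M)) =
      v * ((A - 1) * (A - (a : AddMonoid.End M))) * u := by
  have ha : (a : AddMonoid.End M) * v = v * (a : AddMonoid.End M) := (Nat.cast_commute a v).eq
  have h1 : v * A * u - (a : AddMonoid.End M) = v * (A - (a : AddMonoid.End M)) * u := by
    rw [mul_sub, sub_mul, ← ha, mul_assoc (a : AddMonoid.End M) v u, hvu, mul_one]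
  have h2 : v * A * u - 1 = v * (A - 1) * u := by
    rw [mul_sub, sub_mul, mul_one, hvu]
  rw [h1, h2]
  calc v * (A - 1) * u * (v * (A - (a : AddMonoid.End M)) * u)
      = v * (A - 1) * (u * v) * (A - (a : AddMonoid.End M)) * u := by
        simp only [mul_assoc]
    _ = v * ((A - 1) * (A - (a : AddMonoid.End M))) * u := by
        rw [huv, mul_one]; simp only [mul_assoc]

/-- nilpotency is invariant under conjugation. -/
theorem h70b_nilpotent_conj (u v X : AddMonoid.End M) (huv : u * v = 1)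
    (h : IsNilpotent (v * X * u)) : IsNilpotent X := by
  obtain ⟨n, hn⟩ := h
  refine ⟨n, ?_⟩
  have hpow : ∀ n : ℕ, (v * X * u) ^ n * v = v * X ^ n := by
    intro n
    induction n with
    | zero => simp
    | succ n ih =>
      rw [pow_succ, pow_succ, mul_assoc ((v * X * u) ^ n), mul_assoc (v * X) u v, huv, mul_one,
        ← mul_assoc ((v * X * u) ^ n), ih, mul_assoc]
  have h1 : v * X ^ n = 0 := by rw [← hpow, hn, zero_mul]
  calc X ^ n = (u * v) * X ^ n := by rw [huv, one_mul]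
    _ = u * (v * X ^ n) := mul_assoc _ _ _
    _ = 0 := by rw [h1, mul_zero]

end Conj

section Roots

variable (p : ℕ) [Fact p.Prime]

/-- transport of a cyclotomic exponent from `ℚ̄` (for `x⁻¹ ιp(h) x`) to `Om p` (for `h`). -/
theorem h70b_exp_loc (x : GQ) (h : Gq p) (m : ℕ) (hm : 0 < m) (a : ℕ)
    (hg : ∀ ζ : Qb, ζ ^ m = 1 → (x⁻¹ * ιp p h * x) ζ = ζ ^ a) :
    ∀ μ : Om p, μ ^ m = 1 → h μ = μ ^ a := by
  intro μ hμ
  obtain ⟨y, rfl, hy, -⟩ := h23b_exists_padicEmbedding_eq_of_pow_eq_one p hm hμ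
  have h1 : (x⁻¹ y) ^ m = 1 := by rw [← map_pow, hy, map_one]
  have h2 := hg (x⁻¹ y) h1
  have h3 : ιp p h y = y ^ a := by
    have h4 : (x⁻¹ * ιp p h * x) (x⁻¹ y) = x⁻¹ (ιp p h y) := by
      simp only [AlgEquiv.mul_apply]
      rw [← AlgEquiv.mul_apply x x⁻¹, mul_inv_cancel, AlgEquiv.one_apply]
    rw [h4, ← map_pow] at h2
    exact x⁻¹.injective h2
  rw [← padicEmbedding_localGaloisToGlobal, h3, map_pow]

/-- transport of a cyclotomic exponent from `Om p` (for `h`) to `ℚ̄` (for `x⁻¹ ιp(h) x`). -/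
theorem h70b_exp_glob (x : GQ) (h : Gq p) (m : ℕ) (a : ℕ)
    (hl : ∀ μ : Om p, μ ^ m = 1 → h μ = μ ^ a) :
    ∀ ζ : Qb, ζ ^ m = 1 → (x⁻¹ * ιp p h * x) ζ = ζ ^ a := by
  intro ζ hζ
  have h1 : (padicEmbedding p (x ζ)) ^ m = 1 := by
    rw [← map_pow, ← map_pow, hζ, map_one, map_one]
  have h2 := hl _ h1
  rw [← padicEmbedding_localGaloisToGlobal, ← map_pow] at h2
  have h3 : ιp p h (x ζ) = (x ζ) ^ a := h23b_padicEmbedding_injective p h2
  simp only [AlgEquiv.mul_apply]
  rw [h3, map_pow, ← AlgEquiv.mul_apply x⁻¹ x, inv_mul_cancel, AlgEquiv.one_apply]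

end Roots

/-- **B3a-BRIDGE** (exact frozen Prop). -/
theorem h70b_bridge : H39FlatOrdBridge := by
  intro hloc p hp hp2 k M _ ρ hk hflat P hP hord s hs s' hs' a ha
  haveI : Fact p.Prime := ⟨hp⟩
  haveI : Finite M := Fermat.Agent.P5.h97c_finite_of_flat hflat
  -- the place
  obtain ⟨x, hx⟩ := h23b_exists_smul_padicPlace p hP
  -- the local representation and its order
  let ρl : Gq p →* AddMonoid.End M := ρ.comp (ιp p)
  obtain ⟨𝓗, h𝓗⟩ := h39f_normalForm p M (fun σ x => ρ σ x) hflat (inertia p)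
  have hconj : ∀ τ : Gq p, 𝓗.ConjStable τ := fun τ =>
    h𝓗 τ (fun σ hσ => h84o_inertia_conj τ hσ) (fun σ hσ => h84o_inertia_conj' τ hσ)
  -- conjugation by `ρ x`
  set u : AddMonoid.End M := ρ x with hu
  set v : AddMonoid.End M := ρ x⁻¹ with hv
  have huv : u * v = 1 := by rw [hu, hv, ← map_mul, mul_inv_cancel, map_one]
  have hvu : v * u = 1 := by rw [hu, hv, ← map_mul, inv_mul_cancel, map_one]
  have hρ : ∀ h : Gq p, ρ (x⁻¹ * ιp p h * x) = v * ρl h * u := by
    intro h
    rw [map_mul, map_mul]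
    rfl
  -- elements of the inertia group of `P`
  have hI : ∀ σ : GQ, σ ∈ P.inertiaSubgroupIn ℚ →
      ∃ h : Gq p, h ∈ inertia p ∧ σ = x⁻¹ * ιp p h * x := by
    intro σ hσ
    rw [← hx] at hσ
    obtain ⟨h, hh, rfl⟩ := (h23b_mem_inertia_conj_iff p x σ).mp hσ
    exact ⟨h, (h89d0_inertiaIffRoots p h).mpr hh, rfl⟩
  have hI' : ∀ h : Gq p, h ∈ inertia p → x⁻¹ * ιp p h * x ∈ P.inertiaSubgroupIn ℚ := by
    intro h hh
    rw [← hx]
    exact (h23b_mem_inertia_conj_iff p x _).mpr ⟨h, (h89d0_inertiaIffRoots p h).mp hh, rfl⟩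
  -- the local ordinarity hypothesis
  have hordl : ∀ σ ∈ inertia p, ∀ a : ℕ, cycExp p σ a →
      IsNilpotent ((ρl σ - 1) * (ρl σ - (a : AddMonoid.End M))) := by
    intro σ hσ b hb
    have h1 := hord _ (hI' σ hσ) b (h70b_exp_glob p x σ p b hb)
    rw [hρ, h70b_conj_prod' u v (ρl σ) huv hvu b] at h1
    exact h70b_nilpotent_conj u v _ huv h1
  -- the local conclusion
  obtain ⟨h, hh, rfl⟩ := hI s hs
  obtain ⟨h', hh', rfl⟩ := hI s' hs'
  have hpk : 0 < p ^ k := pow_pos hp.pos k
  have h2 := hloc p hp2 k M ρl hk 𝓗 hconj hordl h hh h' hh' a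
    (h70b_exp_loc p x h' (p ^ k) hpk a ha)
  rw [hρ, hρ, h70b_conj_prod u v (ρl h') (ρl h) huv hvu a, h2, mul_zero, zero_mul]

end Fermat.Agent.P6
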