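import Fermat.Agent.P6.H97Dev
import Fermat.Agent.S56F.A1h39
import Fermat.Agent.S56F.FLD0_helper89
import Fermat.Agent.PT.Bridge.LocGrpE

/-!
# Wave 6 (S33), block B3 FLAT-ORD (helper97): the global form

`H97fGlobal` : `p` odd, `M` a finite `G_ℚ`-module killed by `p ^ k`, flat at `p` (Prelude shape),
`P` a valuation subring of `ℚ̄` over `p`, `F` a chain of subgroups of `M` stable under the
decomposition group of `P`, of ordinary type for the inertia group of `P`
(`(a - e)(b - 1) F (i+1) ⊆ F i`).  Then `(a - e)(b - 1) M = 0` for all `a, b` in the inertia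
group of `P` (`e` any exponent of `a` on `μ_{p^k}`): the shape of `H30xStarAt` (`P6/H30Star.lean`).

`h97f_global : H97fLocal → H97fGlobal`, `h97f_flatOrd : H97fET → H97fMult → H97fGlobal`.

Bridge: `P = g⁻¹ • padicPlace p` (`h23b_exists_smul_padicPlace`), its inertia group is
`g⁻¹ r(I_p) g` (`h23b_mem_inertia_conj_iff`, `h89d0_inertiaIffRoots`), the order over the integers
of `ℚ_p^ur` is the normal form `h39f_normalForm`.
-/

set_option autoImplicit false
set_option linter.style.haveILetI false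
set_option linter.unusedSectionVars false
set_option linter.unusedVariables false

open Fermat.Agent.PT.Loc Fermat.Agent.S56F

open scoped Pointwise

noncomputable section

namespace Fermat.Agent.P6

/-- **FLAT-ORD**, global form. -/
def H97fGlobal : Prop :=
  ∀ (p : ℕ) [Fact p.Prime], p ≠ 2 → ∀ (k : ℕ) (M : Type) [AddCommGroup M] [Finite M]
    (act : GQ → M → M), IsAct act → (∀ x : M, p ^ k • x = 0) → Flat p M act →
    ∀ P : ValuationSubring Qb, P.LiesOverPrime p →
    ∀ (n : ℕ) (F : ℕ → AddSubgroup M), F 0 = ⊥ → F n = ⊤ → (∀ i, F i ≤ F (i + 1)) →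
      (∀ i, ∀ τ ∈ P.decompositionSubgroup ℚ, ∀ x ∈ F i, act τ x ∈ F i) →
      (∀ i, ∀ a ∈ P.inertiaSubgroupIn ℚ, ∀ b ∈ P.inertiaSubgroupIn ℚ, ∀ e : ℕ,
        (∀ μ : Qb, μ ^ p ^ k = 1 → a μ = μ ^ e) → ∀ x ∈ F (i + 1),
        act a (act b x - x) - e • (act b x - x) ∈ F i) →
    ∀ a ∈ P.inertiaSubgroupIn ℚ, ∀ b ∈ P.inertiaSubgroupIn ℚ, ∀ e : ℕ,
      (∀ μ : Qb, μ ^ p ^ k = 1 → a μ = μ ^ e) → ∀ w : M,
      act a (act b w - w) = e • (act b w - w)

section Cyc

variable {p : ℕ} [Fact p.Prime]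

/-- local exponent `⟹` global exponent. -/
theorem h97f_cyc_glob {k : ℕ} {α : Gq p} {e : ℕ} (h : h97fCyc p k α e) (μ : Qb)
    (hμ : μ ^ p ^ k = 1) : ιp p α μ = μ ^ e := by
  apply Fermat.Agent.PT.Bridge.h23b_padicEmbedding_injective p
  rw [padicEmbedding_localGaloisToGlobal, map_pow]
  exact h _ (by rw [← map_pow, hμ, map_one])

/-- global exponent `⟹` local exponent. -/
theorem h97f_cyc_loc {k : ℕ} {α : Gq p} {e : ℕ}
    (h : ∀ μ : Qb, μ ^ p ^ k = 1 → ιp p α μ = μ ^ e) : h97fCyc p k α e := by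
  intro ν hν
  have hp : p.Prime := Fact.out
  obtain ⟨y, rfl, hy, -⟩ :=
    Fermat.Agent.PT.Bridge.h23b_exists_padicEmbedding_eq_of_pow_eq_one p
      (pow_pos hp.pos k) hν
  rw [← padicEmbedding_localGaloisToGlobal, h y hy, map_pow]

/-- exponents are invariant under conjugation. -/
theorem h97f_cyc_conj {m : ℕ} {σ : GQ} {e : ℕ} (h : ∀ μ : Qb, μ ^ m = 1 → σ μ = μ ^ e)
    (g : GQ) (μ : Qb) (hμ : μ ^ m = 1) : (g * σ * g⁻¹) μ = μ ^ e := by
  have h1 : (g⁻¹ μ) ^ m = 1 := by rw [← map_pow, hμ, map_one]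
  have h2 : g (g⁻¹ μ) = μ := by
    rw [← AlgEquiv.mul_apply, mul_inv_cancel, AlgEquiv.one_apply]
  rw [AlgEquiv.mul_apply, AlgEquiv.mul_apply, h _ h1, map_pow, h2]

end Cyc

section Act

variable {G : Type} [Group G] {M : Type} [AddCommGroup M] {act : G → M → M}

theorem h97f_act_zero (hact : IsAct act) (σ : G) : act σ 0 = 0 := by
  have := hact.add σ 0 0
  rw [add_zero] at this
  exact left_eq_add.mp this

/-- the action of one element, as an additive map. -/
def h97fActHom (hact : IsAct act) (σ : G) : M →+ M where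
  toFun := act σ
  map_zero' := h97f_act_zero hact σ
  map_add' := hact.add σ

theorem h97fActHom_apply (hact : IsAct act) (σ : G) (x : M) :
    h97fActHom hact σ x = act σ x := rfl

theorem h97f_act_inv (hact : IsAct act) (σ : G) (x : M) : act σ (act σ⁻¹ x) = x := by
  rw [← hact.mul, mul_inv_cancel, hact.one]

theorem h97f_act_inv' (hact : IsAct act) (σ : G) (x : M) : act σ⁻¹ (act σ x) = x := by
  rw [← hact.mul, inv_mul_cancel, hact.one]

theorem h97f_act_sub (hact : IsAct act) (σ : G) (x y : M) :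
    act σ (x - y) = act σ x - act σ y :=
  map_sub (h97fActHom hact σ) x y

theorem h97f_act_nsmul (hact : IsAct act) (σ : G) (e : ℕ) (x : M) :
    act σ (e • x) = e • act σ x :=
  map_nsmul (h97fActHom hact σ) e x

end Act

/-- **the bridge**: local FLAT-ORD gives global FLAT-ORD. -/
theorem h97f_global (hloc : H97fLocal) : H97fGlobal := by
  intro p _ hp2 k M _ _ act hact hk hflat P hP n F hF0 hFn hFmono hFst hFord
  classical
  obtain ⟨g, rfl⟩ := Fermat.Agent.PT.Bridge.h23b_exists_smul_padicPlace p hP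
  -- the local action and the order
  have hactL : IsAct (fun τ : Gq p => act (ιp p τ)) :=
    ⟨fun x => by simp only [map_one]; exact hact.one x,
     fun σ τ x => by simp only [map_mul]; exact hact.mul _ _ x,
     fun σ x y => hact.add _ x y⟩
  obtain ⟨𝓗, h𝓗⟩ := h39f_normalForm p M act hflat (inertia p)
  have hconj : ∀ τ : Gq p, 𝓗.ConjStable τ := fun τ =>
    h𝓗 τ (fun σ hσ => h84o_inertia_conj τ hσ) (fun σ hσ => h84o_inertia_conj' τ hσ)
  -- inertia, local versus global
  have hIL : ∀ α : Gq p, α ∈ inertia p →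
      g⁻¹ * ιp p α * g ∈ (g⁻¹ • padicPlace p).inertiaSubgroupIn ℚ := fun α hα =>
    (Fermat.Agent.PT.Bridge.h23b_mem_inertia_conj_iff p g _).mpr
      ⟨α, (h89d0_inertiaIffRoots p α).mp hα, rfl⟩
  have hDL : ∀ α : Gq p,
      g⁻¹ * ιp p α * g ∈ (g⁻¹ • padicPlace p).decompositionSubgroup ℚ := fun α =>
    (Fermat.Agent.PT.Bridge.h23b_mem_decomp_conj_iff p g _).mpr ⟨α, rfl⟩
  have hcycL : ∀ (α : Gq p) (e : ℕ), h97fCyc p k α e →
      ∀ μ : Qb, μ ^ p ^ k = 1 → (g⁻¹ * ιp p α * g) μ = μ ^ e := by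
    intro α e he μ hμ
    have := h97f_cyc_conj (fun μ hμ => h97f_cyc_glob he μ hμ) g⁻¹ μ hμ
    rwa [inv_inv] at this
  -- conjugation formula for the action
  have hcj : ∀ (σ : GQ) (x : M), act g⁻¹ (act σ x) = act (g⁻¹ * σ * g) (act g⁻¹ x) := by
    intro σ x
    have h : act (g⁻¹ * σ * g) (act g⁻¹ x) = act (g⁻¹ * σ * g * g⁻¹) x :=
      (hact.mul _ _ _).symm
    have h' : g⁻¹ * σ * g * g⁻¹ = g⁻¹ * σ := by group
    rw [h, h', hact.mul]
  -- the transported chain
  set F' : ℕ → AddSubgroup M := fun i => (F i).comap (h97fActHom hact g⁻¹) with hF'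
  have hmemF' : ∀ i x, x ∈ F' i ↔ act g⁻¹ x ∈ F i := fun i x => Iff.rfl
  have hstar := hloc p hp2 k M (fun τ => act (ιp p τ)) hactL hk 𝓗 hconj n F'
    (by
      rw [eq_bot_iff]
      intro x hx
      rw [hmemF', hF0, AddSubgroup.mem_bot] at hx
      have h1 := h97f_act_inv hact g x
      rw [hx, h97f_act_zero hact g] at h1
      exact (AddSubgroup.mem_bot).mpr h1.symm)
    (by
      rw [eq_top_iff]
      intro x _
      rw [hmemF', hFn]
      exact AddSubgroup.mem_top _)
    (fun i => AddSubgroup.comap_mono (hFmono i))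
    (by
      intro i τ x hx
      rw [hmemF'] at hx ⊢
      show act g⁻¹ (act (ιp p τ) x) ∈ F i
      rw [hcj]
      exact hFst i _ (hDL τ) _ hx)
    (by
      intro i a ha b hb e he x hx
      rw [hmemF'] at hx ⊢
      show act g⁻¹ (act (ιp p a) (act (ιp p b) x - x) - e • (act (ιp p b) x - x)) ∈ F i
      have h1 : act g⁻¹ (act (ιp p a) (act (ιp p b) x - x) - e • (act (ιp p b) x - x)) =
          act (g⁻¹ * ιp p a * g) (act (g⁻¹ * ιp p b * g) (act g⁻¹ x) - act g⁻¹ x) -
            e • (act (g⁻¹ * ιp p b * g) (act g⁻¹ x) - act g⁻¹ x) := by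
        rw [h97f_act_sub hact, h97f_act_nsmul hact, hcj, h97f_act_sub hact, hcj]
      rw [h1]
      exact hFord i _ (hIL a ha) _ (hIL b hb) e (hcycL a e he) _ hx)
  -- back to the global inertia group
  intro a ha b hb e he w
  obtain ⟨α, hα, rfl⟩ := (Fermat.Agent.PT.Bridge.h23b_mem_inertia_conj_iff p g a).mp ha
  obtain ⟨β, hβ, rfl⟩ := (Fermat.Agent.PT.Bridge.h23b_mem_inertia_conj_iff p g b).mp hb
  have hαI : α ∈ inertia p := (h89d0_inertiaIffRoots p α).mpr hα
  have hβI : β ∈ inertia p := (h89d0_inertiaIffRoots p β).mpr hβ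
  have heL : h97fCyc p k α e := by
    apply h97f_cyc_loc
    intro μ hμ
    have h1 := h97f_cyc_conj he g μ hμ
    have h2 : g * (g⁻¹ * ιp p α * g) * g⁻¹ = ιp p α := by group
    rwa [h2] at h1
  have h1 := hstar α hαI β hβI e heL (act g w)
  have h2 := congrArg (act g⁻¹) h1
  have h3 : ∀ x : M, act g⁻¹ (act g x) = x := h97f_act_inv' hact g
  have hcj' : ∀ (σ : GQ) (x : M), act g⁻¹ (act σ (act g x)) = act (g⁻¹ * σ * g) x := by
    intro σ x
    rw [hact.mul, hact.mul]
  have e1 : act g⁻¹ (act (ιp p α) (act (ιp p β) (act g w) - act g w)) =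
      act (g⁻¹ * ιp p α * g) (act (g⁻¹ * ιp p β * g) w - w) := by
    have e2 : act (ιp p β) (act g w) - act g w =
        act g (act (g⁻¹ * ιp p β * g) w - w) := by
      rw [h97f_act_sub hact, ← hcj', h97f_act_inv hact]
    rw [e2, hcj']
  have e3 : act g⁻¹ (e • (act (ιp p β) (act g w) - act g w)) =
      e • (act (g⁻¹ * ιp p β * g) w - w) := by
    rw [h97f_act_nsmul hact, h97f_act_sub hact, hcj', h3]
  rw [← e1, ← e3]
  exact h2

/-- **FLAT-ORD** from the two leaves. -/
theorem h97f_flatOrd (hET : H97fET) (hMult : H97fMult) : H97fGlobal :=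
  h97f_global (h97f_dev hET hMult)

end Fermat.Agent.P6
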