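import Fermat.Agent.P6.H72Mult
import Fermat.Agent.P6.H24Et
import Fermat.Agent.P6.H97FlatOrd

/-!
# Wave 6 (S33), block B3 FLAT-ORD: assembly (helper72)

`h72v_multU : H97fMult` and `h72v_flatOrd : H97fGlobal`, unconditional:
ET (`h24e_et`, helper24) + MULT (`h72v_mult`, Cartier dual order) + the devissage and the
local-to-global bridge (`h97f_flatOrd`, helper97).
-/

set_option autoImplicit false

namespace Fermat.Agent.P6

/-- **MULT**, unconditional. -/
theorem h72v_multU : H97fMult := h72v_mult h24e_et

/-- **B3 FLAT-ORD** (global form of helper97), unconditional. -/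
theorem h72v_flatOrd : H97fGlobal := h97f_flatOrd h24e_et h72v_multU

end Fermat.Agent.P6
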