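import Fermat.Agent.P6.H97DevIface
import Fermat.Agent.S56F.FLO3_helper84
import Fermat.Agent.S56F.FLB56_helper87
import Fermat.Agent.S56F.FLB7_helper87
import Fermat.Agent.S56F.FLB8final_helper9
import Fermat.Agent.S56F.FLD1_helper45

/-!
# Wave 6 (S33), block B3 FLAT-ORD, devissage (helper97): `h97f_dev : ET → MULT → DEV`

`W` with an order `𝓗` over the integers of `ℚ_p^ur`, stable under conjugation, and a
`Gq p`-stable chain `F` of ordinary type.  `W⁰ = h97fW0 𝓗` the connected part.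

1. `W⁰` is a `Gq p`-stable subgroup and `(b - 1) W ⊆ W⁰` for `b` in inertia (landed FL-B3/4/5).
2. `X i = W⁰ ⊓ F i`.  The quotient of `X (i+1)` by `X i + ∑ (s - 1) X (i+1)` is connected with
   trivial inertia action, hence zero (ET): `X (i+1) = X i + ∑ (s - 1) X (i+1)`; hence
   `(a - e) X (i+1) ⊆ X i` (chain of ordinary type).
3. MULT on `W⁰` with the chain `X`: `a = e` on `W⁰`.
-/

set_option autoImplicit false
set_option linter.style.haveILetI false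
set_option linter.unusedSectionVars false
set_option linter.unusedVariables false

open Fermat.Agent.PT.Loc Fermat.Agent.S56F

noncomputable section

namespace Fermat.Agent.P6

variable {p : ℕ} [Fact p.Prime]

section W0

variable {W : Type} [AddCommGroup W] {act : Gq p → W → W}

/-- the connected part: the points `≡ 0` modulo the maximal ideal. -/
def h97fW0 (𝓗 : FHO p (inertia p) W act) : AddSubgroup W where
  carrier := h84o_M0 𝓗
  zero_mem' := h84o_M0_zero 𝓗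
  add_mem' := fun hx hy => h84o_M0_add h38f_ptSubgroup 𝓗 hx hy
  neg_mem' := fun hx => h84o_M0_neg h38f_ptSubgroup 𝓗 hx

theorem h97f_mem_W0 (𝓗 : FHO p (inertia p) W act) {x : W} :
    x ∈ h97fW0 𝓗 ↔ ∃ t : ℝ, t < 1 ∧ 𝓗.PtLE x t := Iff.rfl

theorem h97f_W0_act (hact : IsAct act) (𝓗 : FHO p (inertia p) W act)
    (hc : ∀ τ : Gq p, 𝓗.ConjStable τ) (τ : Gq p) {x : W} (hx : x ∈ h97fW0 𝓗) :
    act τ x ∈ h97fW0 𝓗 :=
  h84o_M0_act h87f_ptStable hact 𝓗 τ (hc τ⁻¹) hx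

theorem h97f_W0_inert (𝓗 : FHO p (inertia p) W act) {σ : Gq p} (hσ : σ ∈ inertia p) (x : W) :
    act σ x - x ∈ h97fW0 𝓗 :=
  h84o_M0_inert h87f_inertiaTrivial 𝓗 le_rfl hσ x

end W0

section Sub

variable {W : Type} [AddCommGroup W] {act : Gq p → W → W}

/-- the action on a stable subgroup. -/
def h97fActSub (X : AddSubgroup W) (hX : ∀ τ : Gq p, ∀ x ∈ X, act τ x ∈ X) :
    Gq p → X → X :=
  fun τ x => ⟨act τ x, hX τ x x.2⟩

theorem h97f_isAct_sub (hact : IsAct act) (X : AddSubgroup W)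
    (hX : ∀ τ : Gq p, ∀ x ∈ X, act τ x ∈ X) : IsAct (h97fActSub X hX) :=
  ⟨fun x => Subtype.ext (hact.one x), fun σ τ x => Subtype.ext (hact.mul σ τ x),
    fun σ x y => Subtype.ext (hact.add σ x y)⟩

/-- the sub-order (restriction of the functions). -/
theorem h97f_sub [Finite W] (𝓗 : FHO p (inertia p) W act) (X : AddSubgroup W)
    (hX : ∀ τ : Gq p, ∀ x ∈ X, act τ x ∈ X) :
    ∃ 𝓗X : FHO p (inertia p) X (h97fActSub X hX),
      ∀ g : X → Om p, g ∈ 𝓗X.carrier ↔ ∃ f ∈ 𝓗.carrier, g = f ∘ X.subtype := by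
  obtain ⟨𝓗X, h, -⟩ := h87f_subOrder p (inertia p) W act 𝓗 X (h97fActSub X hX) X.subtype
    X.subtype_injective (fun σ _ x => rfl)
  exact ⟨𝓗X, h⟩

end Sub

/-- a connected module with an order is generated by the `(s - 1) x`, `s` in inertia. -/
theorem h97f_connected_top (hET : H97fET) (hp2 : p ≠ 2) (k : ℕ) {N : Type} [AddCommGroup N]
    [Finite N] {actN : Gq p → N → N} (hact : IsAct actN) (hk : ∀ x : N, p ^ k • x = 0)
    (𝓗N : FHO p (inertia p) N actN) (hconn : ∀ x : N, ∃ t : ℝ, t < 1 ∧ 𝓗N.PtLE x t)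
    (Y : AddSubgroup N) (hY : ∀ σ ∈ inertia p, ∀ x : N, actN σ x - x ∈ Y) : Y = ⊤ := by
  classical
  let actQ : Gq p → N ⧸ Y → N ⧸ Y := fun _ q => q
  have hπ : ∀ σ ∈ inertia p, ∀ x : N,
      QuotientAddGroup.mk' Y (actN σ x) = actQ σ (QuotientAddGroup.mk' Y x) := by
    intro σ hσ x
    have h1 : QuotientAddGroup.mk' Y (actN σ x - x) = 0 :=
      (QuotientAddGroup.eq_zero_iff _).mpr (hY σ hσ x)
    rw [map_sub, sub_eq_zero] at h1
    exact h1
  obtain ⟨𝓗Q, hQ, -⟩ := h9q_quotOrder p (inertia p) (p : Om p) (h45f_inertiaDiscrete p) N actN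
    hact 𝓗N (N ⧸ Y) actQ (QuotientAddGroup.mk' Y) (QuotientAddGroup.mk'_surjective Y) hπ
  have hactQ : IsAct actQ := ⟨fun _ => rfl, fun _ _ _ => rfl, fun _ _ _ => rfl⟩
  have hkQ : ∀ q : N ⧸ Y, p ^ k • q = 0 := by
    intro q
    obtain ⟨x, rfl⟩ := QuotientAddGroup.mk'_surjective Y q
    rw [← map_nsmul, hk x, map_zero]
  have hzero := hET p hp2 k (N ⧸ Y) actQ hactQ hkQ 𝓗Q
    ⟨1, fun i => if i = 0 then ⊥ else ⊤, by simp, by simp, fun i => by
      by_cases hi : i = 0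
      · simp [hi]
      · simp [hi], fun i σ _ x _ => by
      show x - x ∈ _
      rw [sub_self]
      exact AddSubgroup.zero_mem _⟩
  rw [eq_top_iff]
  intro x _
  obtain ⟨t, ht, hxt⟩ := hconn x
  have h1 : QuotientAddGroup.mk' Y x = 0 := by
    refine hzero _ ⟨t, ht, fun g hg => ?_⟩
    have h2 := hxt _ ((hQ g).mp hg)
    have h3 : (g ∘ ⇑(QuotientAddGroup.mk' Y)) 0 = g 0 := by
      show g (QuotientAddGroup.mk' Y 0) = g 0
      rw [map_zero]
    rw [h3] at h2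
    exact h2
  exact (QuotientAddGroup.eq_zero_iff x).mp h1

/-- **DEV.** -/
theorem h97f_dev (hET : H97fET) (hMult : H97fMult) : H97fLocal := by
  intro p _ hp2 k W _ _ act hact hk 𝓗 hconj n F hF0 hFn hFmono hFst hFord
  classical
  have hX : ∀ i, ∀ τ : Gq p, ∀ x ∈ h97fW0 𝓗 ⊓ F i, act τ x ∈ h97fW0 𝓗 ⊓ F i :=
    fun i τ x hx => ⟨h97f_W0_act hact 𝓗 hconj τ hx.1, hFst i τ x hx.2⟩
  have key : ∀ i, ∀ a ∈ inertia p, ∀ e : ℕ, h97fCyc p k a e →
      ∀ x ∈ h97fW0 𝓗 ⊓ F (i + 1), act a x - e • x ∈ h97fW0 𝓗 ⊓ F i := by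
    intro i a ha e he
    set G : AddSubgroup W := AddSubgroup.closure
      {z | ∃ s ∈ inertia p, ∃ y ∈ h97fW0 𝓗 ⊓ F (i + 1), z = act s y - y} with hG
    set T : AddSubgroup W := (h97fW0 𝓗 ⊓ F i) ⊔ G with hT
    let φ : W →+ W :=
      { toFun := fun x => act a x - e • x
        map_zero' := by
          have h0 : act a 0 = 0 := by
            have := hact.add a 0 0
            rw [add_zero] at this
            exact left_eq_add.mp this
          rw [h0, smul_zero, sub_self]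
        map_add' := fun x y => by
          rw [hact.add, smul_add]
          abel }
    have hTφ : T ≤ (h97fW0 𝓗 ⊓ F i).comap φ := by
      refine sup_le ?_ ((AddSubgroup.closure_le _).mpr ?_)
      · intro x hx
        exact (h97fW0 𝓗 ⊓ F i).sub_mem (hX i a x hx) ((h97fW0 𝓗 ⊓ F i).nsmul_mem hx e)
      · rintro z ⟨s, hs, y, hy, rfl⟩
        have h1 : act s y - y ∈ h97fW0 𝓗 := h97f_W0_inert 𝓗 hs y
        exact ⟨(h97fW0 𝓗).sub_mem (h97f_W0_act hact 𝓗 hconj a h1)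
          ((h97fW0 𝓗).nsmul_mem h1 e), hFord i a ha s hs e he y hy.2⟩
    obtain ⟨𝓗N, h𝓗N⟩ := h97f_sub 𝓗 (h97fW0 𝓗 ⊓ F (i + 1)) (hX (i + 1))
    have hconn : ∀ x : ↥(h97fW0 𝓗 ⊓ F (i + 1)), ∃ t : ℝ, t < 1 ∧ 𝓗N.PtLE x t := by
      intro x
      obtain ⟨t, ht, hxt⟩ := x.2.1
      refine ⟨t, ht, fun g hg => ?_⟩
      obtain ⟨f, hf, rfl⟩ := (h𝓗N g).mp hg
      exact hxt f hf
    have hYtop := h97f_connected_top hET hp2 k
      (h97f_isAct_sub hact (h97fW0 𝓗 ⊓ F (i + 1)) (hX (i + 1)))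
      (fun x => Subtype.ext (hk (x : W))) 𝓗N hconn
      (T.comap (h97fW0 𝓗 ⊓ F (i + 1)).subtype)
      (fun σ hσ x => AddSubgroup.mem_sup_right
        (AddSubgroup.subset_closure ⟨σ, hσ, (x : W), x.2, rfl⟩))
    intro x hx
    have h2 : (⟨x, hx⟩ : ↥(h97fW0 𝓗 ⊓ F (i + 1))) ∈
        T.comap (h97fW0 𝓗 ⊓ F (i + 1)).subtype := by
      rw [hYtop]
      exact AddSubgroup.mem_top _
    exact hTφ h2
  -- MULT on the connected part
  have hW0st : ∀ τ : Gq p, ∀ x ∈ h97fW0 𝓗, act τ x ∈ h97fW0 𝓗 :=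
    fun τ x hx => h97f_W0_act hact 𝓗 hconj τ hx
  obtain ⟨𝓗0, -⟩ := h97f_sub 𝓗 (h97fW0 𝓗) hW0st
  have hmult := hMult p hp2 k (↥(h97fW0 𝓗)) (h97fActSub (h97fW0 𝓗) hW0st)
    (h97f_isAct_sub hact (h97fW0 𝓗) hW0st) (fun x => Subtype.ext (hk (x : W))) 𝓗0
    ⟨n, fun i => (F i).comap (h97fW0 𝓗).subtype, ?_, ?_, ?_, ?_⟩
  · intro a ha b hb e he w
    have h1 := hmult a ha e he ⟨act b w - w, h97f_W0_inert 𝓗 hb w⟩
    exact congrArg Subtype.val h1
  · show (F 0).comap (h97fW0 𝓗).subtype = ⊥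
    rw [hF0, eq_bot_iff]
    intro x hx
    have h1 : (x : W) = 0 := hx
    exact (AddSubgroup.mem_bot).mpr (Subtype.ext h1)
  · show (F n).comap (h97fW0 𝓗).subtype = ⊤
    rw [hFn]
    exact AddSubgroup.comap_top _
  · intro i
    exact AddSubgroup.comap_mono (hFmono i)
  · intro i σ hσ e he x hx
    exact (key i σ hσ e he (x : W) ⟨x.2, hx⟩).2

end Fermat.Agent.P6
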