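import Fermat.Agent.P6.H48ChainLoc
import Fermat.Agent.P6.H97Dev
import Fermat.Agent.P6.H72FlatOrd
import Fermat.Agent.P6.H70FlatOrdBridge

/-!
# Wave 6 (S33), block B3 FLAT-ORD in the ELEMENTWISE form, unconditional (helper48)

* `h48c_flatOrdLoc : H39FlatOrdLoc` — the exact frozen local Prop of
  `P6/H39FlatOrdLocIface.lean`: elementwise ORD ⟹ chain of ordinary type (`h48c_chainLoc`,
  Mathlib-only `h48c_chain`) ⟹ devissage (`h97f_dev`, helper97) with ET (`h24e_et`, helper24) and
  MULT (`h72v_multU`, helper72).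
* `h48c_flatOrd : H39FlatOrd` — the exact frozen global Prop of `P6/H39FlatOrdIface.lean`
  (the input `hB3` of `h36o_starOld`), by the bridge `h70b_bridge` of helper70.
-/

set_option autoImplicit false
set_option linter.style.haveILetI false
set_option linter.unusedSectionVars false

open Fermat.Agent.PT.Loc Fermat.Agent.S56F

namespace Fermat.Agent.P6

/-- local FLAT-ORD in the elementwise form (`H48cLocalOrd`), unconditional. -/
theorem h48c_localOrdU : H48cLocalOrd := h48c_localOrd (h97f_dev h24e_et h72v_multU)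

/-- **B3-LOC** (exact frozen Prop `H39FlatOrdLoc`), unconditional. -/
theorem h48c_flatOrdLoc : H39FlatOrdLoc := by
  intro p _ hp2 k M _ _ ρ hk 𝓗 hconj hord σ hσ σ' hσ' a ha
  have hact : IsAct (fun (τ : Gq p) (x : M) => ρ τ x) :=
    ⟨fun x => by rw [map_one]; rfl, fun τ τ' x => by rw [map_mul]; rfl,
      fun τ x y => map_add (ρ τ) x y⟩
  rcases Nat.eq_zero_or_pos k with hk0 | hk0
  · have hw : ∀ x : M, x = 0 := fun x => by
      have := hk x
      rwa [hk0, pow_zero, one_smul] at this
    ext x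
    rw [hw (((ρ σ' - (a : AddMonoid.End M)) * (ρ σ - 1)) x)]
    exact (hw _).symm
  · have hord' : ∀ s ∈ inertia p, ∀ e : ℕ, h97fCyc p k s e →
        ∃ r : ℕ, ∀ x : M, (h48cQuad (fun (τ : Gq p) (x : M) => ρ τ x) s e)^[r] x = 0 := by
      intro s hs e he
      have hcyc : cycExp p s e := by
        intro μ hμ
        refine he μ ?_
        obtain ⟨j, rfl⟩ := Nat.exists_eq_succ_of_ne_zero hk0.ne'
        rw [pow_succ', pow_mul, hμ, one_pow]
      obtain ⟨r, hr⟩ := hord s hs e hcyc
      refine ⟨r, fun x => ?_⟩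
      rw [h48c_quad_iter (act := fun (τ : Gq p) (x : M) => ρ τ x)
        ⟨hact.one, hact.mul, hact.add⟩ s e r x]
      have h1 : h48cHom (act := fun (τ : Gq p) (x : M) => ρ τ x)
          ⟨hact.one, hact.mul, hact.add⟩ s = ρ s := rfl
      rw [h1, hr]
      rfl
    have h := h48c_localOrdU p hp2 k M (fun τ x => ρ τ x) hact hk 𝓗 hconj hord'
      σ' hσ' σ hσ a ha
    ext x
    have hx := h x
    show ρ σ' (ρ σ x - x) - a • (ρ σ x - x) = 0
    rw [sub_eq_zero]
    exact hx

/-- **B3 FLAT-ORD** (exact frozen Prop `H39FlatOrd`), unconditional. -/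
theorem h48c_flatOrd : H39FlatOrd := h70b_bridge h48c_flatOrdLoc

end Fermat.Agent.P6
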