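import Fermat.Agent.P6.H36OldIface
import Fermat.Agent.S35.HK.H41PushCommAll
import Fermat.Agent.S35.HK.Gal46
import Fermat.Agent.S35.HK.OldKill

/-!
# Wave 6 (S33), row B5-PUSH (helper4): the push-forwards on the `p ^ k`-torsion

`M` a level, `p` a prime, `N = M * p` (no cast: everything is stated for `JZero (M * p)`).

* `h4uPushA M p k`, `h4uPushB M p k : J₀(M p)[p ^ k] →+ J₀(M)[p ^ k]` : the restrictions of
  `S35.pushAlpha M p`, `S35.pushBeta M p` to the `p ^ k`-torsion.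
* `h4u_pushA_gal`, `h4u_pushB_gal` : they commute with the Galois action `h30xGal`.
* `h4u_pushA_hecke`, `h4u_pushB_hecke` : they commute with the Hecke action `h30xHecke .. S .. u`
  of every Hecke polynomial `u`, as soon as the primes dividing `M * p` are in `S`.
* `h4u_pushA_pow`, `h4u_pushB_pow` : the same for the powers of `h30xHecke .. u`.
* `h4u_pushA_mPart`, `h4u_pushB_mPart` : for a Hecke–Galois datum `H` of level `M * p` away from
  `S`, they map the `𝔪`-part `h30xMPart p H hc k` of `J₀(M p)[p ^ k]` into the `𝔪`-part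
  `h36oMPart M p H hcM k` of `J₀(M)[p ^ k]`.
* `h4u_push` : the package of all the statements.

Everything is unconditional (landed inputs: `S35.h46k_pushGalois`, `S35.h41g_pushHeckeComm`).
-/

set_option autoImplicit false
set_option linter.style.haveILetI false
set_option linter.unusedSectionVars false

open ModularCurve GaloisRep

noncomputable section

namespace Fermat.Agent.P6

open Fermat.Agent.P5
open Fermat.Agent.S29 (GQ)
open Fermat.Agent.S31 (TI_evS tpjGal tpjHecke)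
open Fermat.Agent.S35 (pushAlpha pushBeta)

section Res

variable (M p k : ℕ) [NeZero M] [NeZero p]

/-- an additive map `J₀(M p) → J₀(M)` preserves the `p ^ k`-torsion. -/
theorem h4u_res_mem (f : JZero (M * p) →+ JZero M) (x : h30xTors (M * p) p k) :
    f (x : JZero (M * p)) ∈ Submodule.torsionBy ℤ (JZero M) ((p : ℤ) ^ k) := by
  have hx : ((p : ℤ) ^ k) • (x : JZero (M * p)) = 0 := (Submodule.mem_torsionBy_iff _ _).mp x.2
  rw [Submodule.mem_torsionBy_iff, ← map_zsmul, hx, map_zero]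

/-- restriction of an additive map `J₀(M p) → J₀(M)` to the `p ^ k`-torsion. -/
def h4uRes (f : JZero (M * p) →+ JZero M) : h30xTors (M * p) p k →+ h30xTors M p k :=
  AddMonoidHom.codRestrict
    (AddMonoidHom.comp f
      (Submodule.torsionBy ℤ (JZero (M * p)) ((p : ℤ) ^ k)).subtype.toAddMonoidHom)
    (Submodule.torsionBy ℤ (JZero M) ((p : ℤ) ^ k)) (fun x => h4u_res_mem M p k f x)

theorem h4uRes_coe (f : JZero (M * p) →+ JZero M) (x : h30xTors (M * p) p k) :
    ((h4uRes M p k f x : h30xTors M p k) : JZero M) = f (x : JZero (M * p)) := rfl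

/-- `α_*` on the `p ^ k`-torsion. -/
def h4uPushA : h30xTors (M * p) p k →+ h30xTors M p k := h4uRes M p k (pushAlpha M p)

/-- `β_*` on the `p ^ k`-torsion. -/
def h4uPushB : h30xTors (M * p) p k →+ h30xTors M p k := h4uRes M p k (pushBeta M p)

theorem h4uPushA_coe (x : h30xTors (M * p) p k) :
    ((h4uPushA M p k x : h30xTors M p k) : JZero M) = pushAlpha M p (x : JZero (M * p)) := rfl

theorem h4uPushB_coe (x : h30xTors (M * p) p k) :
    ((h4uPushB M p k x : h30xTors M p k) : JZero M) = pushBeta M p (x : JZero (M * p)) := rfl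

/-! ### Galois -/

/-- `α_*` commutes with the Galois action on `J₀`. -/
theorem h4u_pushAlpha_smul (σ : GQ) (x : JZero (M * p)) :
    pushAlpha M p (σ • x) = σ • pushAlpha M p x :=
  (Fermat.Agent.S35.h46k_pushGalois M p σ x).1

/-- `β_*` commutes with the Galois action on `J₀`. -/
theorem h4u_pushBeta_smul (σ : GQ) (x : JZero (M * p)) :
    pushBeta M p (σ • x) = σ • pushBeta M p x :=
  (Fermat.Agent.S35.h46k_pushGalois M p σ x).2

/-- `α_*` commutes with the Galois action on the `p ^ k`-torsion. -/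
theorem h4u_pushA_gal (σ : GQ) (x : h30xTors (M * p) p k) :
    h4uPushA M p k (h30xGal (M * p) p k σ x) = h30xGal M p k σ (h4uPushA M p k x) :=
  Subtype.ext (h4u_pushAlpha_smul M p σ (x : JZero (M * p)))

/-- `β_*` commutes with the Galois action on the `p ^ k`-torsion. -/
theorem h4u_pushB_gal (σ : GQ) (x : h30xTors (M * p) p k) :
    h4uPushB M p k (h30xGal (M * p) p k σ x) = h30xGal M p k σ (h4uPushB M p k x) :=
  Subtype.ext (h4u_pushBeta_smul M p σ (x : JZero (M * p)))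

/-! ### Hecke -/

theorem h4u_kap_X_of_mem (S : Finset ℕ) (ℓ : Nat.Primes) (hℓ : (ℓ : ℕ) ∈ S) :
    h30xKap S (MvPolynomial.X ℓ) = 0 := by
  show (MvPolynomial.aeval (R := ℤ) (fun ℓ : Nat.Primes =>
    if (ℓ : ℕ) ∈ S then (0 : MvPolynomial Nat.Primes ℤ) else MvPolynomial.X ℓ))
      (MvPolynomial.X ℓ) = 0
  rw [MvPolynomial.aeval_X, if_pos hℓ]

theorem h4u_kap_X_of_not_mem (S : Finset ℕ) (ℓ : Nat.Primes) (hℓ : (ℓ : ℕ) ∉ S) :
    h30xKap S (MvPolynomial.X ℓ) = MvPolynomial.X ℓ := by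
  show (MvPolynomial.aeval (R := ℤ) (fun ℓ : Nat.Primes =>
    if (ℓ : ℕ) ∈ S then (0 : MvPolynomial Nat.Primes ℤ) else MvPolynomial.X ℓ))
      (MvPolynomial.X ℓ) = MvPolynomial.X ℓ
  rw [MvPolynomial.aeval_X, if_neg hℓ]

/-- an additive map `f : J₀(M p) → J₀(M)` which commutes with the `T_ℓ`, `ℓ ∉ S`, commutes with
the Hecke action through the variables outside `S` of every Hecke polynomial. -/
theorem h4u_hecke_of_comm (S : Finset ℕ) (hc : HeckeOperatorsCommuteBar (M * p))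
    (hcM : HeckeOperatorsCommuteBar M) (f : JZero (M * p) →+ JZero M)
    (hf : ∀ ℓ : Nat.Primes, (ℓ : ℕ) ∉ S → ∀ x : JZero (M * p),
      f (heckeOperatorBar (M * p) ℓ x) = heckeOperatorBar M ℓ (f x))
    (u : MvPolynomial Nat.Primes ℤ) (x : JZero (M * p)) :
    f (tpjHecke (M * p) hc (h30xKap S u) x) = tpjHecke M hcM (h30xKap S u) (f x) := by
  induction u using MvPolynomial.induction_on generalizing x with
  | C a =>
    have h1 : (MvPolynomial.C a : MvPolynomial Nat.Primes ℤ) = (a : MvPolynomial Nat.Primes ℤ) :=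
      eq_intCast (MvPolynomial.C : ℤ →+* MvPolynomial Nat.Primes ℤ) a
    rw [h1, map_intCast, map_intCast, map_intCast]
    show f (a • x) = a • f x
    exact map_zsmul f a x
  | add u v hu hv =>
    rw [map_add, map_add, map_add]
    show f (tpjHecke (M * p) hc (h30xKap S u) x + tpjHecke (M * p) hc (h30xKap S v) x) =
      tpjHecke M hcM (h30xKap S u) (f x) + tpjHecke M hcM (h30xKap S v) (f x)
    rw [map_add, hu x, hv x]
  | mul_X u ℓ hu =>
    rw [map_mul, map_mul, map_mul]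
    show f (tpjHecke (M * p) hc (h30xKap S u)
        (tpjHecke (M * p) hc (h30xKap S (MvPolynomial.X ℓ)) x)) =
      tpjHecke M hcM (h30xKap S u) (tpjHecke M hcM (h30xKap S (MvPolynomial.X ℓ)) (f x))
    rw [hu]
    congr 1
    by_cases hℓ : (ℓ : ℕ) ∈ S
    · rw [h4u_kap_X_of_mem S ℓ hℓ, map_zero, map_zero]
      show f 0 = 0
      exact map_zero f
    · rw [h4u_kap_X_of_not_mem S ℓ hℓ, Fermat.Agent.S31.tpjHecke_X,
        Fermat.Agent.S31.tpjHecke_X]
      exact hf ℓ hℓ x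

/-- `α_*` commutes with the `T_ℓ`, `ℓ ∉ S`, when the primes of `M * p` are in `S`. -/
theorem h4u_pushAlpha_hecke (hp : p.Prime) (S : Finset ℕ)
    (hS : ∀ q : ℕ, q.Prime → q ∣ M * p → q ∈ S) (ℓ : Nat.Primes) (hℓ : (ℓ : ℕ) ∉ S)
    (x : JZero (M * p)) :
    pushAlpha M p (heckeOperatorBar (M * p) ℓ x) = heckeOperatorBar M ℓ (pushAlpha M p x) :=
  (Fermat.Agent.S35.h41g_pushHeckeComm M p hp ℓ (fun h => hℓ (hS ℓ ℓ.2 h)) x).1

/-- `β_*` commutes with the `T_ℓ`, `ℓ ∉ S`, when the primes of `M * p` are in `S`. -/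
theorem h4u_pushBeta_hecke (hp : p.Prime) (S : Finset ℕ)
    (hS : ∀ q : ℕ, q.Prime → q ∣ M * p → q ∈ S) (ℓ : Nat.Primes) (hℓ : (ℓ : ℕ) ∉ S)
    (x : JZero (M * p)) :
    pushBeta M p (heckeOperatorBar (M * p) ℓ x) = heckeOperatorBar M ℓ (pushBeta M p x) :=
  (Fermat.Agent.S35.h41g_pushHeckeComm M p hp ℓ (fun h => hℓ (hS ℓ ℓ.2 h)) x).2

/-- `α_*` commutes with the Hecke action on the `p ^ k`-torsion. -/
theorem h4u_pushA_hecke (hp : p.Prime) (S : Finset ℕ)
    (hS : ∀ q : ℕ, q.Prime → q ∣ M * p → q ∈ S) (hc : HeckeOperatorsCommuteBar (M * p))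
    (hcM : HeckeOperatorsCommuteBar M) (u : MvPolynomial Nat.Primes ℤ)
    (x : h30xTors (M * p) p k) :
    h4uPushA M p k (h30xHecke (M * p) p k S hc u x) =
      h30xHecke M p k S hcM u (h4uPushA M p k x) :=
  Subtype.ext (h4u_hecke_of_comm M p S hc hcM (pushAlpha M p)
    (h4u_pushAlpha_hecke M p hp S hS) u (x : JZero (M * p)))

/-- `β_*` commutes with the Hecke action on the `p ^ k`-torsion. -/
theorem h4u_pushB_hecke (hp : p.Prime) (S : Finset ℕ)
    (hS : ∀ q : ℕ, q.Prime → q ∣ M * p → q ∈ S) (hc : HeckeOperatorsCommuteBar (M * p))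
    (hcM : HeckeOperatorsCommuteBar M) (u : MvPolynomial Nat.Primes ℤ)
    (x : h30xTors (M * p) p k) :
    h4uPushB M p k (h30xHecke (M * p) p k S hc u x) =
      h30xHecke M p k S hcM u (h4uPushB M p k x) :=
  Subtype.ext (h4u_hecke_of_comm M p S hc hcM (pushBeta M p)
    (h4u_pushBeta_hecke M p hp S hS) u (x : JZero (M * p)))

/-- a map intertwining two endomorphisms intertwines their powers. -/
theorem h4u_pow_of_comm {X Y : Type*} [AddCommMonoid X] [AddCommMonoid Y] (f : X →+ Y)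
    (a : AddMonoid.End X) (b : AddMonoid.End Y) (h : ∀ x, f (a x) = b (f x)) (r : ℕ) (x : X) :
    f ((a ^ r) x) = (b ^ r) (f x) := by
  induction r generalizing x with
  | zero => rfl
  | succ r ih =>
    rw [pow_succ, pow_succ]
    show f ((a ^ r) (a x)) = (b ^ r) (b (f x))
    rw [ih, h]

/-- `α_*` and the powers of a Hecke operator. -/
theorem h4u_pushA_pow (hp : p.Prime) (S : Finset ℕ)
    (hS : ∀ q : ℕ, q.Prime → q ∣ M * p → q ∈ S) (hc : HeckeOperatorsCommuteBar (M * p))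
    (hcM : HeckeOperatorsCommuteBar M) (u : MvPolynomial Nat.Primes ℤ) (r : ℕ)
    (x : h30xTors (M * p) p k) :
    h4uPushA M p k ((h30xHecke (M * p) p k S hc u ^ r) x) =
      (h30xHecke M p k S hcM u ^ r) (h4uPushA M p k x) :=
  h4u_pow_of_comm (h4uPushA M p k) _ _ (h4u_pushA_hecke M p k hp S hS hc hcM u) r x

/-- `β_*` and the powers of a Hecke operator. -/
theorem h4u_pushB_pow (hp : p.Prime) (S : Finset ℕ)
    (hS : ∀ q : ℕ, q.Prime → q ∣ M * p → q ∈ S) (hc : HeckeOperatorsCommuteBar (M * p))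
    (hcM : HeckeOperatorsCommuteBar M) (u : MvPolynomial Nat.Primes ℤ) (r : ℕ)
    (x : h30xTors (M * p) p k) :
    h4uPushB M p k ((h30xHecke (M * p) p k S hc u ^ r) x) =
      (h30xHecke M p k S hcM u ^ r) (h4uPushB M p k x) :=
  h4u_pow_of_comm (h4uPushB M p k) _ _ (h4u_pushB_hecke M p k hp S hS hc hcM u) r x

end Res

/-! ### The `𝔪`-part -/

section MPart

variable {M p : ℕ} [NeZero M] [NeZero p] {S : Finset ℕ}
  {𝒪 : Type} [CommRing 𝒪] [IsDomain 𝒪] [IsDiscreteValuationRing 𝒪]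
  [IsAdicComplete (IsLocalRing.maximalIdeal 𝒪) 𝒪]
  {θ : CuspForm.heckeAlgebra (M * p) 2 (↑S : Set ℕ) →+* IsLocalRing.ResidueField 𝒪}
  {T : Type} [CommRing T] [IsLocalRing T] [IsNoetherianRing T]
  [IsAdicComplete (IsLocalRing.maximalIdeal T) T] [Algebra 𝒪 T] [IsLocalHom (algebraMap 𝒪 T)]
  [Module.Finite 𝒪 T] [Module.Free 𝒪 T]

/-- **PUSH, `α`**: `α_*` maps the `𝔪`-part of `J₀(M p)[p ^ k]` into the `𝔪`-part of
`J₀(M)[p ^ k]`. -/
theorem h4u_pushA_mPart (hp : p.Prime) (hS : ∀ q : ℕ, q.Prime → q ∣ M * p → q ∈ S)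
    (H : CuspForm.HeckeGaloisRepDatum (M * p) (↑S : Set ℕ) 𝒪 θ T)
    (hc : HeckeOperatorsCommuteBar (M * p)) (hcM : HeckeOperatorsCommuteBar M) (k : ℕ)
    (w : h30xTors (M * p) p k) (hw : w ∈ h30xMPart p H hc k) :
    h4uPushA M p k w ∈ h36oMPart M p H hcM k := by
  intro u hu
  obtain ⟨r, hr⟩ := hw u hu
  exact ⟨r, by rw [← h4u_pushA_pow M p k hp S hS hc hcM u r w, hr, map_zero]⟩

/-- **PUSH, `β`**: `β_*` maps the `𝔪`-part of `J₀(M p)[p ^ k]` into the `𝔪`-part of
`J₀(M)[p ^ k]`. -/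
theorem h4u_pushB_mPart (hp : p.Prime) (hS : ∀ q : ℕ, q.Prime → q ∣ M * p → q ∈ S)
    (H : CuspForm.HeckeGaloisRepDatum (M * p) (↑S : Set ℕ) 𝒪 θ T)
    (hc : HeckeOperatorsCommuteBar (M * p)) (hcM : HeckeOperatorsCommuteBar M) (k : ℕ)
    (w : h30xTors (M * p) p k) (hw : w ∈ h30xMPart p H hc k) :
    h4uPushB M p k w ∈ h36oMPart M p H hcM k := by
  intro u hu
  obtain ⟨r, hr⟩ := hw u hu
  exact ⟨r, by rw [← h4u_pushB_pow M p k hp S hS hc hcM u r w, hr, map_zero]⟩

/-- **PUSH** (package): for `w` in the `𝔪`-part of `J₀(M p)[p ^ k]`, the points `α_* w`,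
`β_* w` lie in the `𝔪`-part of `J₀(M)[p ^ k]`, with underlying points `pushAlpha M p w`,
`pushBeta M p w`, compatibly with the Galois action. -/
theorem h4u_push (hp : p.Prime) (hS : ∀ q : ℕ, q.Prime → q ∣ M * p → q ∈ S)
    (H : CuspForm.HeckeGaloisRepDatum (M * p) (↑S : Set ℕ) 𝒪 θ T)
    (hc : HeckeOperatorsCommuteBar (M * p)) (hcM : HeckeOperatorsCommuteBar M) (k : ℕ)
    (w : h30xTors (M * p) p k) (hw : w ∈ h30xMPart p H hc k) :
    ∃ wa ∈ h36oMPart M p H hcM k, ∃ wb ∈ h36oMPart M p H hcM k,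
      (wa : JZero M) = pushAlpha M p (w : JZero (M * p)) ∧
      (wb : JZero M) = pushBeta M p (w : JZero (M * p)) ∧
      (∀ σ : GQ, ((h30xGal M p k σ wa : h30xTors M p k) : JZero M) =
        pushAlpha M p ((h30xGal (M * p) p k σ w : h30xTors (M * p) p k) : JZero (M * p))) ∧
      (∀ σ : GQ, ((h30xGal M p k σ wb : h30xTors M p k) : JZero M) =
        pushBeta M p ((h30xGal (M * p) p k σ w : h30xTors (M * p) p k) : JZero (M * p))) :=
  ⟨h4uPushA M p k w, h4u_pushA_mPart hp hS H hc hcM k w hw,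
    h4uPushB M p k w, h4u_pushB_mPart hp hS H hc hcM k w hw, rfl, rfl,
    fun σ => congrArg Subtype.val (h4u_pushA_gal M p k σ w).symm,
    fun σ => congrArg Subtype.val (h4u_pushB_gal M p k σ w).symm⟩

end MPart

end Fermat.Agent.P6
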