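import Fermat.Agent.P6.H72FlatOrd
import Fermat.Agent.P6.H48ChainLoc
import Fermat.Agent.P6.H70FlatOrdBridge

/-!
# Wave 6 (S33), block B3 FLAT-ORD, elementwise forms, unconditional (helper72 assembly)

* `h72v_localOrd : H48cLocalOrd` (helper48's local elementwise form);
* `h72v_flatOrdLoc : H39FlatOrdLoc` (helper39's frozen local Prop);
* `h72v_flatOrd39 : H39FlatOrd` (helper39's frozen global Prop, the hypothesis of the landed
  `h36o_starOld` of B4-OLD).

Inputs: ET `h24e_et` (helper24), MULT `h72v_mult` (Cartier dual order), the devissage `h97f_dev`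
(helper97), the chain `h48c_localOrd` (helper48), the bridge `h70b_bridge` (helper70).
-/

set_option autoImplicit false

open Fermat.Agent.PT.Loc Fermat.Agent.S56F

namespace Fermat.Agent.P6

/-- the devissage, unconditional. -/
theorem h72v_local : H97fLocal := h97f_dev h24e_et h72v_multU

/-- local FLAT-ORD, elementwise form of helper48, unconditional. -/
theorem h72v_localOrd : H48cLocalOrd := h48c_localOrd h72v_local

/-- **B3-LOC** (frozen Prop of helper39), unconditional. -/
theorem h72v_flatOrdLoc : H39FlatOrdLoc := by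
  intro p _ hp2 k M _ _ ρ hk 𝓗 hconj hord σ hσ σ' hσ' a ha
  have hact : IsAct (fun (τ : Gq p) (x : M) => ρ τ x) :=
    ⟨fun x => by rw [map_one]; rfl, fun τ τ' x => by rw [map_mul]; rfl,
      fun τ x y => map_add (ρ τ) x y⟩
  have hordI : ∀ s ∈ inertia p, ∀ e : ℕ, h97fCyc p k s e →
      ∃ r : ℕ, ∀ x : M, (h48cQuad (fun (τ : Gq p) (x : M) => ρ τ x) s e)^[r] x = 0 := by
    intro s hs e he
    rcases Nat.eq_zero_or_pos k with hk0 | hk0
    · refine ⟨0, fun x => ?_⟩
      have := hk x
      rwa [hk0, pow_zero, one_smul] at this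
    · have hcyc : cycExp p s e := by
        intro μ hμ
        apply he μ
        obtain ⟨j, rfl⟩ : ∃ j, k = j + 1 := ⟨k - 1, by omega⟩
        rw [pow_succ', pow_mul, hμ, one_pow]
      obtain ⟨r, hr⟩ := hord s hs e hcyc
      refine ⟨r, fun x => ?_⟩
      have hfun : h48cQuad (fun (τ : Gq p) (x : M) => ρ τ x) s e =
          ⇑((ρ s - 1) * (ρ s - (e : AddMonoid.End M))) := by
        funext y
        rfl
      rw [hfun, ← AddMonoid.End.coe_pow, hr]
      rfl
  have key := h72v_localOrd p hp2 k M (fun (τ : Gq p) (x : M) => ρ τ x) hact hk 𝓗 hconj hordI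
    σ' hσ' σ hσ a ha
  refine AddMonoidHom.ext fun w => ?_
  have := key w
  show ρ σ' (ρ σ w - w) - a • (ρ σ w - w) = 0
  rw [sub_eq_zero]
  exact this

/-- **B3 FLAT-ORD** (frozen global Prop of helper39), unconditional. -/
theorem h72v_flatOrd39 : H39FlatOrd := h70b_bridge h72v_flatOrdLoc

end Fermat.Agent.P6
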