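import Fermat.Agent.P6.H90DeepNodes
import Fermat.Agent.P6.H13TorIfaceP

/-!
# P6 (wave 6, S33), block B2-TOR (helper90): the leaf `H13qSmooth` (T2), unconditional

`h90p_smooth : H13qSmooth` (the frozen leaf of `P6/H13TorIfaceP.lean`, helper13), with the
constant `c₀ = r²`, `r = p ^ k`: at a closed point of the special fibre of one of the two charts
of level `M p` with a refined smooth datum, every `W ∈ 1 + r² π ssV` whose orders are divisible
by `r` is of the form `g ^ r · (local unit)` with `g ∈ 1 + r π ssV`.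

Proof: `h90p_locAt_smooth` (helper91's deep local gate `h91q_local_gate_deep` at the level
`M p`, with the landed chart, section and generic-fibre inputs of W3-LGC).
-/

set_option autoImplicit false
set_option linter.unusedSectionVars false
set_option linter.style.haveILetI false

open AlgebraicCurve ModularCurve WithZero IsLocalRing

noncomputable section

namespace Fermat.Agent.P6

open Fermat.Agent.S37 Fermat.Agent.Red Fermat.Agent.Red.GG Fermat.Agent.Red.GV
  Fermat.Agent.Red.GV.Soft Fermat.Agent.Red.Kron Fermat.Agent.Red.ModelO Fermat.Agent.LGC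
  Fermat.Agent.S35

/-- **T2, the deep local datum at the smooth closed points** (frozen leaf `H13qSmooth`). -/
theorem h90p_smooth : H13qSmooth := by
  intro p hp _ M _ hM haux
  haveI : NeZero p := ⟨hp.ne_zero⟩
  intro A hA k
  have hr : 0 < p ^ k := pow_pos hp.pos k
  have hrA : ((p ^ k : ℕ) : A) ≠ 0 := by
    intro h
    have h1 : ((p ^ k : ℕ) : Kbar) = 0 := by
      have := congrArg (fun x : A => (x : Kbar)) h
      simpa using this
    exact hr.ne' (Nat.cast_eq_zero.mp h1)
  obtain ⟨hF₀, hF₁⟩ := ifaceSSFiniteAll p hp M hM haux A hA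
  have hNt := h85s_ifaceSSNt A M p hp hM hA
  refine ⟨((p ^ k : ℕ) : A) ^ 2, pow_ne_zero 2 hrA, ?_⟩
  intro t ht 𝔫 h𝔫 hle hsm π hπ hπ0 W hWU hrW
  have hW0 : W ≠ 0 := h26U_ne_zero (hNt _ (Ideal.mul_mem_left _ _ hπ)) hWU
  rcases ht with rfl | rfl
  · exact h90p_locAt_smooth A M p hp hA (jSS M p) (h85s_ifaceSSChart_fin A M p hp hM hA)
      (h85s_ifaceSSSection_of A M p _ hF₀) (h85s_ifaceSSGeneric_fin A M p hp hA)
      (p ^ k) hr W hW0 hrW π hπ hπ0 hWU 𝔫 h𝔫 hle hsm
  · exact h90p_locAt_smooth A M p hp hA (jSS M p)⁻¹ (h85s_ifaceSSChart_inf A M p hp hM hA)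
      (h85s_ifaceSSSection_of A M p _ hF₁) (h85s_ifaceSSGeneric_inf A M p hp hA)
      (p ^ k) hr W hW0 hrW π hπ hπ0 hWU 𝔫 h𝔫 hle hsm

end Fermat.Agent.P6
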