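import Fermat.Agent.P6.H41Glue3
import Fermat.Agent.P6.H36Old
import Fermat.Agent.P6.H25KummerPlus
import Fermat.Agent.P6.H13TorAsmP
import Fermat.Agent.P6.H72FlatOrdLoc
import Fermat.Agent.P6.H90SmoothLeaf
import Fermat.Agent.P6.H71Approx
import Fermat.Agent.S19

/-!
# Wave 6 (S33), integration (helper4): S33 from the open leaves

Every other block is a landed theorem:

* `h41q_s33_of_old_new : H36oStarOld → H11StarNewPlus → S33` (helper41, B5);
* `h36o_starOld : H39FlatOrd → (S19 at the levels prime to p) → H36oStarOld` (helper36, B4),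
  S19 = `Fermat.Agent.S19.result`;
* `h25p_starNewPlus_of_tor : H11TorGate → H11StarNewPlus` (helper25, B2 Kummer dictionary);
* `h13q_torGate_of : H13qSmooth → H13qNode → H13qApprox → H11TorGate` (helper13, B2-TOR).

So:

* `h4v_s19 : ∀ M p, p.Prime → ¬ p ∣ M → H30xS19 M p`;
* `h4v_starOld_of : H39FlatOrd → H36oStarOld`;
* `h4v_s33_of_tor : H39FlatOrd → H11TorGate → S33`;
* `h4v_s33_of : H39FlatOrd → H13qSmooth → H13qNode → H13qApprox → S33`;
* `h4v_s33_of_node : H13qNode → S33` : the three other leaves are landed theorems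
  (`h72v_flatOrd39 : H39FlatOrd`, `h90p_smooth : H13qSmooth`, `h71a_approx : H13qApprox`), so
  **the deep node datum `H13qNode` is the only open leaf of S33**;
* `h4v_torGate_of_node : H13qNode → H11TorGate`.
-/

set_option autoImplicit false
set_option linter.style.haveILetI false
set_option linter.unusedSectionVars false

open ModularCurve GaloisRep

namespace Fermat.Agent.P6

open Fermat.Agent.P5

/-- S19 at every level prime to `p`, in the shape consumed by B4. -/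
theorem h4v_s19 (M : ℕ) [NeZero M] (p : ℕ) (hp : p.Prime) (hpM : ¬ p ∣ M) : H30xS19 M p :=
  haveI : Fact p.Prime := ⟨hp⟩
  fun k => Fermat.Agent.S19.result M p hpM k

/-- B4 from B3. -/
theorem h4v_starOld_of (hB3 : H39FlatOrd) : H36oStarOld :=
  h36o_starOld hB3 (fun M _ p hp hpM => h4v_s19 M p hp hpM)

variable {p : ℕ} {N : ℕ} [NeZero N] {S : Finset ℕ}
  {𝒪 : Type} [CommRing 𝒪] [IsDomain 𝒪] [IsDiscreteValuationRing 𝒪]
  [IsAdicComplete (IsLocalRing.maximalIdeal 𝒪) 𝒪]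
  {θ : CuspForm.heckeAlgebra N 2 (↑S : Set ℕ) →+* IsLocalRing.ResidueField 𝒪}
  {T : Type} [CommRing T] [IsLocalRing T] [IsNoetherianRing T]
  [IsAdicComplete (IsLocalRing.maximalIdeal T) T] [Algebra 𝒪 T] [IsLocalHom (algebraMap 𝒪 T)]
  [Module.Finite 𝒪 T] [Module.Free 𝒪 T]

/-- S33 from B3 (FLAT-ORD) and the gate on the toric part. -/
theorem h4v_s33_of_tor (hB3 : H39FlatOrd) (hT : H11TorGate)
    [Finite (IsLocalRing.ResidueField 𝒪)] [CharZero 𝒪]
    (hp : p.Prime) (hp2 : p ≠ 2) (hp𝒪 : (p : 𝒪) ∈ IsLocalRing.maximalIdeal 𝒪)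
    (hN : p ∣ N ∧ ¬ p ^ 2 ∣ N) (hNS : ∀ q : ℕ, q.Prime → q ∣ N → q ∈ S)
    (H : CuspForm.HeckeGaloisRepDatum N (↑S : Set ℕ) 𝒪 θ T)
    (hres : (GaloisRepAdic.ofResidualGaloisRep H.ρ.residual).IsOrdinaryAt p) :
    H.ρ.IsOrdinaryAt p :=
  h41q_s33_of_old_new (h4v_starOld_of hB3) (h25p_starNewPlus_of_tor hT) hp hp2 hp𝒪 hN hNS H hres

/-- S33 from the four open leaves. -/
theorem h4v_s33_of (hB3 : H39FlatOrd) (hS : H13qSmooth) (hNd : H13qNode) (hApp : H13qApprox)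
    [Finite (IsLocalRing.ResidueField 𝒪)] [CharZero 𝒪]
    (hp : p.Prime) (hp2 : p ≠ 2) (hp𝒪 : (p : 𝒪) ∈ IsLocalRing.maximalIdeal 𝒪)
    (hN : p ∣ N ∧ ¬ p ^ 2 ∣ N) (hNS : ∀ q : ℕ, q.Prime → q ∣ N → q ∈ S)
    (H : CuspForm.HeckeGaloisRepDatum N (↑S : Set ℕ) 𝒪 θ T)
    (hres : (GaloisRepAdic.ofResidualGaloisRep H.ρ.residual).IsOrdinaryAt p) :
    H.ρ.IsOrdinaryAt p :=
  h4v_s33_of_tor hB3 (h13q_torGate_of hS hNd hApp) hp hp2 hp𝒪 hN hNS H hres

/-- the gate on the toric part from the deep node datum. -/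
theorem h4v_torGate_of_node (hNd : H13qNode) : H11TorGate :=
  h13q_torGate_of h90p_smooth hNd h71a_approx

/-- **S33 from the single open leaf** (the deep node datum). -/
theorem h4v_s33_of_node (hNd : H13qNode)
    [Finite (IsLocalRing.ResidueField 𝒪)] [CharZero 𝒪]
    (hp : p.Prime) (hp2 : p ≠ 2) (hp𝒪 : (p : 𝒪) ∈ IsLocalRing.maximalIdeal 𝒪)
    (hN : p ∣ N ∧ ¬ p ^ 2 ∣ N) (hNS : ∀ q : ℕ, q.Prime → q ∣ N → q ∈ S)
    (H : CuspForm.HeckeGaloisRepDatum N (↑S : Set ℕ) 𝒪 θ T)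
    (hres : (GaloisRepAdic.ofResidualGaloisRep H.ρ.residual).IsOrdinaryAt p) :
    H.ρ.IsOrdinaryAt p :=
  h4v_s33_of h72v_flatOrd39 h90p_smooth hNd h71a_approx hp hp2 hp𝒪 hN hNS H hres

end Fermat.Agent.P6
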