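import Fermat.Agent.P6.H71PU
import Fermat.Agent.P6.H71NewIface
import Fermat.Agent.P5.H72Arch

/-!
# P6 (wave 6, S33), row B2-WAPPROX (helper50): weak approximation at the two Gauss valuations

`ℓ ∤ M` prime, `A` a valuation subring of `ℚ̄` over `ℓ`, `W = W_∞ = softV A (M ℓ)`,
`w = kFricke M ℓ` (so `W_0 = w (W_∞)`).

* `h50w_sharpen` : `E ↦ 3 E² - 2 E³` squares the depth of a partition of unity.
* `h50w_partition_pow`, `h50w_partition_deep` : partitions of unity of EVERY depth `d ≠ 0`: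
  `E = 1 + d z`, `w E = d z'`, `z, z' ∈ W`.
* `h50w_scale` : every function is a constant times an element of `W`.
* `h50w_wapprox` : **weak approximation**: for `h₁, h₂ ≠ 0` and `d ∈ 𝔪_A`, `d ≠ 0`, there is
  `h ≠ 0` with `h = h₁ (1 + d z₁)` and `w h = w h₂ (1 + d z₂)`, `z₁, z₂ ∈ W`.
* `h50w_cong_mul`, `h50w_cong_inv`, `h50w_cong_pow` : `1 + π W` is a group (`π ∈ 𝔪_A`).
* `h50w_glue : H71Glue` (exact frozen Prop of `P6/H71NewIface.lean`, unconditional).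
-/

set_option autoImplicit false
set_option linter.style.haveILetI false
set_option linter.unusedSectionVars false
set_option linter.unusedVariables false
set_option synthInstance.maxHeartbeats 400000

open AlgebraicCurve ModularCurve IsLocalRing Polynomial

noncomputable section

namespace Fermat.Agent.P6

open Fermat.Agent.Red.GV Fermat.Agent.Red.GV.Soft Fermat.Agent.Red.Kron Fermat.Agent.LGC
  Fermat.Agent.S37 Fermat.Agent.Red

section WA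

variable (A : ValuationSubring Kbar) (M ℓ : ℕ) [NeZero M] [NeZero ℓ]

/-- a partition of unity of depth `d`. -/
def H50wPart (hℓ : ℓ.Prime) (hM : ¬ ℓ ∣ M) (d : Kbar) : Prop :=
  ∃ E z z' : FF (M * ℓ), z ∈ softV A (M * ℓ) ∧ z' ∈ softV A (M * ℓ) ∧
    E = 1 + cst (M * ℓ) d * z ∧ kFricke M ℓ hℓ hM E = cst (M * ℓ) d * z'

theorem h50w_cst_mul (a b : Kbar) : cst (M * ℓ) (a * b) = cst (M * ℓ) a * cst (M * ℓ) b :=
  map_mul (algebraMap Kbar (FF (M * ℓ))) a b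

/-- **sharpening**: `E ↦ 3 E² - 2 E³`. -/
theorem h50w_sharpen (hℓ : ℓ.Prime) (hM : ¬ ℓ ∣ M) {d : Kbar} (hd : d ∈ A)
    (h : H50wPart A M ℓ hℓ hM d) : H50wPart A M ℓ hℓ hM (d * d) := by
  obtain ⟨E, z, z', hz, hz', hE, hwE⟩ := h
  have hc : cst (M * ℓ) d ∈ softV A (M * ℓ) := (cst_mem_softV_iff A (M * ℓ) d).mpr hd
  have hEW : E ∈ softV A (M * ℓ) := by
    rw [hE]
    exact add_mem (one_mem _) (mul_mem hc hz)
  have h2 : (2 : FF (M * ℓ)) ∈ softV A (M * ℓ) := by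
    have : (2 : FF (M * ℓ)) = 1 + 1 := by norm_num
    rw [this]
    exact add_mem (one_mem _) (one_mem _)
  have h3 : (3 : FF (M * ℓ)) ∈ softV A (M * ℓ) := by
    have : (3 : FF (M * ℓ)) = 2 + 1 := by norm_num
    rw [this]
    exact add_mem h2 (one_mem _)
  refine ⟨3 * E ^ 2 - 2 * E ^ 3, -(z * z * (1 + 2 * E)),
    z' * z' * (3 - 2 * (cst (M * ℓ) d * z')), ?_, ?_, ?_, ?_⟩
  · exact neg_mem (mul_mem (mul_mem hz hz) (add_mem (one_mem _) (mul_mem h2 hEW)))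
  · exact mul_mem (mul_mem hz' hz') (sub_mem h3 (mul_mem h2 (mul_mem hc hz')))
  · rw [h50w_cst_mul]
    have e : E - 1 = cst (M * ℓ) d * z := by rw [hE]; ring
    linear_combination (-(E - 1) * (1 + 2 * E) - cst (M * ℓ) d * z * (1 + 2 * E)) * e
  · rw [map_sub, map_mul, map_mul, map_pow, map_pow, hwE, h50w_cst_mul]
    have e3 : kFricke M ℓ hℓ hM (3 : FF (M * ℓ)) = 3 := map_ofNat _ 3
    have e2 : kFricke M ℓ hℓ hM (2 : FF (M * ℓ)) = 2 := map_ofNat _ 2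
    rw [e3, e2]
    ring

/-- partitions of unity of depth `π ^ (2 ^ n)`. -/
theorem h50w_partition_pow (hℓ : ℓ.Prime) (hM : ¬ ℓ ∣ M) {π : Kbar} (hπ : π ∈ A)
    (h : H50wPart A M ℓ hℓ hM π) (n : ℕ) : H50wPart A M ℓ hℓ hM (π ^ (2 ^ n)) := by
  induction n with
  | zero => simpa using h
  | succ n ih =>
    have h1 := h50w_sharpen A M ℓ hℓ hM (pow_mem hπ _) ih
    have e : π ^ (2 ^ (n + 1)) = π ^ (2 ^ n) * π ^ (2 ^ n) := by
      rw [← pow_add, pow_succ]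
      congr 1
      ring
    rwa [e]

/-- a partition of unity of depth `d` is one of every depth dividing `d`. -/
theorem h50w_part_mono (hℓ : ℓ.Prime) (hM : ¬ ℓ ∣ M) {d d' a : Kbar} (ha : a ∈ A)
    (hd : d = d' * a) (h : H50wPart A M ℓ hℓ hM d) : H50wPart A M ℓ hℓ hM d' := by
  obtain ⟨E, z, z', hz, hz', hE, hwE⟩ := h
  have hc : cst (M * ℓ) a ∈ softV A (M * ℓ) := (cst_mem_softV_iff A (M * ℓ) a).mpr ha
  refine ⟨E, cst (M * ℓ) a * z, cst (M * ℓ) a * z', mul_mem hc hz, mul_mem hc hz', ?_, ?_⟩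
  · rw [hE, hd, h50w_cst_mul]
    ring
  · rw [hwE, hd, h50w_cst_mul]
    ring

/-- **partitions of unity of every depth.** -/
theorem h50w_partition_deep (hℓ : ℓ.Prime) (hM : ¬ ℓ ∣ M) (hA : A.LiesOverPrime ℓ)
    {d : Kbar} (hd : d ∈ A) (hd0 : d ≠ 0) : H50wPart A M ℓ hℓ hM d := by
  obtain ⟨π, hπ, hπ0, E, z, z', hz, hz', hE, hwE⟩ := h71u_partition A M ℓ hℓ hM hA
  have hπA : π ∈ A := A.nonunits_le hπ
  obtain ⟨n, a, ha, hna⟩ := Fermat.Agent.P5.h72a_archQbar A ℓ hℓ hA π d hπ hd hd0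
  have hn : n ≤ 2 ^ n := Nat.lt_two_pow_self.le
  have h1 := h50w_partition_pow A M ℓ hℓ hM hπA ⟨E, z, z', hz, hz', hE, hwE⟩ n
  refine h50w_part_mono A M ℓ hℓ hM (a := a * π ^ (2 ^ n - n))
    (mul_mem ha (pow_mem hπA _)) ?_ h1
  rw [← mul_assoc, ← hna, ← pow_add]
  congr 1
  omega

/-- every function is a constant times an element of `W`. -/
theorem h50w_scale (hℓ : ℓ.Prime) (hA : A.LiesOverPrime ℓ) (x : FF (M * ℓ)) :
    ∃ c : Kbar, c ∈ A ∧ c ≠ 0 ∧ ∃ u ∈ softV A (M * ℓ), cst (M * ℓ) c * x = u := by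
  by_cases hx : x = 0
  · exact ⟨1, one_mem _, one_ne_zero, 0, zero_mem _, by rw [hx, mul_zero]⟩
  obtain ⟨c, hc0, hu, -⟩ := exists_cst_mul_unit_soft A (M * ℓ) hℓ hA x hx
  rcases A.mem_or_inv_mem c with hc | hc
  · exact ⟨c, hc, hc0, _, hu, rfl⟩
  · refine ⟨1, one_mem _, one_ne_zero, cst (M * ℓ) c⁻¹ * (cst (M * ℓ) c * x),
      mul_mem ((cst_mem_softV_iff A (M * ℓ) _).mpr hc) hu, ?_⟩
    rw [← mul_assoc, ← h50w_cst_mul, inv_mul_cancel₀ hc0]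

/-- **weak approximation** at the two Gauss valuations of level `M ℓ`. -/
theorem h50w_wapprox (hℓ : ℓ.Prime) (hM : ¬ ℓ ∣ M) (hA : A.LiesOverPrime ℓ)
    {d : Kbar} (hd : d ∈ A.nonunits) (hd0 : d ≠ 0) (h₁ h₂ : FF (M * ℓ)) (hh₁ : h₁ ≠ 0)
    (hh₂ : h₂ ≠ 0) :
    ∃ h : FF (M * ℓ), h ≠ 0 ∧ ∃ z₁ ∈ softV A (M * ℓ), ∃ z₂ ∈ softV A (M * ℓ),
      h = h₁ * (1 + cst (M * ℓ) d * z₁) ∧
      kFricke M ℓ hℓ hM h = kFricke M ℓ hℓ hM h₂ * (1 + cst (M * ℓ) d * z₂) := by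
  have hdA : d ∈ A := A.nonunits_le hd
  obtain ⟨c₁, hc₁, hc₁0, u₁, hu₁, e₁⟩ := h50w_scale A M ℓ hℓ hA (h₂ * h₁⁻¹ - 1)
  obtain ⟨c₂, hc₂, hc₂0, u₂, hu₂, e₂⟩ :=
    h50w_scale A M ℓ hℓ hA (kFricke M ℓ hℓ hM (h₁ * h₂⁻¹ - 1))
  obtain ⟨E, z, z', hz, hz', hE, hwE⟩ := h50w_partition_deep A M ℓ hℓ hM hA
    (mul_mem (mul_mem hdA hc₁) hc₂) (mul_ne_zero (mul_ne_zero hd0 hc₁0) hc₂0)
  have hcc₁ : cst (M * ℓ) c₁ ≠ 0 := by
    simpa only [cst, ne_eq, map_eq_zero] using hc₁0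
  have hcc₂ : cst (M * ℓ) c₂ ≠ 0 := by
    simpa only [cst, ne_eq, map_eq_zero] using hc₂0
  have hcW₁ : cst (M * ℓ) c₁ ∈ softV A (M * ℓ) := (cst_mem_softV_iff A (M * ℓ) c₁).mpr hc₁
  have hcW₂ : cst (M * ℓ) c₂ ∈ softV A (M * ℓ) := (cst_mem_softV_iff A (M * ℓ) c₂).mpr hc₂
  have hz₁ : -(cst (M * ℓ) c₂ * z * u₁) ∈ softV A (M * ℓ) :=
    neg_mem (mul_mem (mul_mem hcW₂ hz) hu₁)
  have hz₂ : cst (M * ℓ) c₁ * z' * u₂ ∈ softV A (M * ℓ) := mul_mem (mul_mem hcW₁ hz') hu₂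
  have key₁ : E * h₁ + (1 - E) * h₂ =
      h₁ * (1 + cst (M * ℓ) d * (-(cst (M * ℓ) c₂ * z * u₁))) := by
    have hu : h₂ * h₁⁻¹ - 1 = (cst (M * ℓ) c₁)⁻¹ * u₁ := by
      rw [← e₁]
      field_simp
    have hE' : 1 - E = -(cst (M * ℓ) d * cst (M * ℓ) c₁ * cst (M * ℓ) c₂ * z) := by
      rw [hE, h50w_cst_mul, h50w_cst_mul]
      ring
    calc E * h₁ + (1 - E) * h₂ = h₁ * (1 + (1 - E) * (h₂ * h₁⁻¹ - 1)) := by
          field_simp
          ring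
      _ = h₁ * (1 + cst (M * ℓ) d * (-(cst (M * ℓ) c₂ * z * u₁))) := by
          rw [hu, hE']
          field_simp
  have hne : E * h₁ + (1 - E) * h₂ ≠ 0 := by
    rw [key₁]
    exact mul_ne_zero hh₁ (h71u_one_add_inv A (M * ℓ) hd hz₁).1
  refine ⟨E * h₁ + (1 - E) * h₂, hne, _, hz₁, _, hz₂, key₁, ?_⟩
  set w := kFricke M ℓ hℓ hM with hw
  have hwh₂ : w h₂ ≠ 0 := by
    intro h0
    exact hh₂ ((map_eq_zero_iff w w.injective).1 h0)
  have hu : w h₁ * (w h₂)⁻¹ - 1 = (cst (M * ℓ) c₂)⁻¹ * u₂ := by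
    rw [← e₂, map_sub, map_mul, map_inv₀, map_one]
    field_simp
  rw [map_add, map_mul, map_mul, map_sub, map_one, hwE, h50w_cst_mul, h50w_cst_mul]
  calc cst (M * ℓ) d * cst (M * ℓ) c₁ * cst (M * ℓ) c₂ * z' * w h₁ +
        (1 - cst (M * ℓ) d * cst (M * ℓ) c₁ * cst (M * ℓ) c₂ * z') * w h₂
      = w h₂ * (1 + cst (M * ℓ) d * cst (M * ℓ) c₁ * cst (M * ℓ) c₂ * z' *
          (w h₁ * (w h₂)⁻¹ - 1)) := by
        field_simp
        ring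
    _ = w h₂ * (1 + cst (M * ℓ) d * (cst (M * ℓ) c₁ * z' * u₂)) := by
        rw [hu]
        field_simp

end WA

/-! ### The group `1 + π W` -/

section Cong

variable (A : ValuationSubring Kbar) (N : ℕ) [NeZero N]

theorem h50w_cong_mul {π : Kbar} (hπ : π ∈ A) {x y : FF N} (hx : H71Cong A N π x)
    (hy : H71Cong A N π y) : H71Cong A N π (x * y) := by
  obtain ⟨a, ha, rfl⟩ := hx
  obtain ⟨b, hb, rfl⟩ := hy
  have hc : cst N π ∈ softV A N := (cst_mem_softV_iff A N π).mpr hπ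
  refine ⟨a + b + cst N π * a * b, add_mem (add_mem ha hb) (mul_mem (mul_mem hc ha) hb), ?_⟩
  ring

theorem h50w_cong_one (π : Kbar) : H71Cong A N π (1 : FF N) :=
  ⟨0, zero_mem _, by rw [mul_zero, add_zero]⟩

theorem h50w_cong_pow {π : Kbar} (hπ : π ∈ A) {x : FF N} (hx : H71Cong A N π x) (n : ℕ) :
    H71Cong A N π (x ^ n) := by
  induction n with
  | zero => rw [pow_zero]; exact h50w_cong_one A N π
  | succ n ih => rw [pow_succ]; exact h50w_cong_mul A N hπ ih hx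

theorem h50w_cong_inv {π : Kbar} (hπ : π ∈ A.nonunits) {x : FF N} (hx : H71Cong A N π x) :
    H71Cong A N π x⁻¹ := by
  obtain ⟨a, ha, rfl⟩ := hx
  obtain ⟨-, z', hz', e⟩ := h71u_one_add_inv A N hπ ha
  exact ⟨z', hz', e⟩

theorem h50w_cong_ne_zero {π : Kbar} (hπ : π ∈ A.nonunits) {x : FF N} (hx : H71Cong A N π x) :
    x ≠ 0 := by
  obtain ⟨a, ha, rfl⟩ := hx
  exact (h71u_one_add_inv A N hπ ha).1

end Cong

/-! ### GLUE -/

/-- **GLUE** (exact frozen Prop of `P6/H71NewIface.lean`). -/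
theorem h50w_glue : H71Glue := by
  intro ℓ hℓ M _ hM
  haveI : NeZero ℓ := ⟨hℓ.ne_zero⟩
  intro A hA r hr w hw hall e he he0
  have heA : e ∈ A := A.nonunits_le he
  obtain ⟨⟨g, hg0, hg⟩, ⟨g', hg'0, hg'⟩⟩ := hall e he he0
  obtain ⟨h, hh0, z₁, hz₁, z₂, hz₂, e₁, e₂⟩ :=
    h50w_wapprox A M ℓ hℓ hM hA he he0 g g' hg0 hg'0
  have hce : cst (M * ℓ) e ≠ 0 := by
    simpa only [cst, ne_eq, map_eq_zero] using he0
  -- the congruence at `W_∞`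
  have hc₁ : H71Cong A (M * ℓ) e (w * (h ^ r)⁻¹) := by
    have hu : H71Cong A (M * ℓ) e (1 + cst (M * ℓ) e * z₁) := ⟨z₁, hz₁, rfl⟩
    have hu0 := h50w_cong_ne_zero A (M * ℓ) he hu
    have e3 : w * (h ^ r)⁻¹ = w * (g ^ r)⁻¹ * ((1 + cst (M * ℓ) e * z₁) ^ r)⁻¹ := by
      rw [e₁, mul_pow, mul_inv, mul_assoc]
    rw [e3]
    exact h50w_cong_mul A (M * ℓ) heA hg
      (h50w_cong_inv A (M * ℓ) he (h50w_cong_pow A (M * ℓ) heA hu r))
  -- the congruence at `W_0`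
  have hc₂ : H71Cong A (M * ℓ) e (kFricke M ℓ hℓ hM (w * (h ^ r)⁻¹)) := by
    have hu : H71Cong A (M * ℓ) e (1 + cst (M * ℓ) e * z₂) := ⟨z₂, hz₂, rfl⟩
    have e3 : kFricke M ℓ hℓ hM (w * (h ^ r)⁻¹) =
        kFricke M ℓ hℓ hM (w * (g' ^ r)⁻¹) * ((1 + cst (M * ℓ) e * z₂) ^ r)⁻¹ := by
      rw [map_mul, map_inv₀, map_pow, e₂, map_mul, map_inv₀, map_pow, mul_pow, mul_inv,
        mul_assoc]
    rw [e3]
    exact h50w_cong_mul A (M * ℓ) heA hg'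
      (h50w_cong_inv A (M * ℓ) he (h50w_cong_pow A (M * ℓ) heA hu r))
  obtain ⟨a, ha, ea⟩ := hc₁
  obtain ⟨b, hb, eb⟩ := hc₂
  refine ⟨h, hh0, a, ?_, ea⟩
  rw [h44r_mem_ssV_iff A M ℓ hℓ hM hA]
  refine ⟨ha, ?_⟩
  have e4 : kFricke M ℓ hℓ hM a = b := by
    have e5 : kFricke M ℓ hℓ hM (w * (h ^ r)⁻¹) =
        1 + cst (M * ℓ) e * kFricke M ℓ hℓ hM a := by
      rw [ea, map_add, map_one, map_mul]
      congr 2
      exact (kFricke M ℓ hℓ hM).commutes e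
    rw [eb] at e5
    have e6 : cst (M * ℓ) e * b = cst (M * ℓ) e * kFricke M ℓ hℓ hM a := add_left_cancel e5
    exact (mul_left_cancel₀ hce e6).symm
  rw [e4]
  exact hb

end Fermat.Agent.P6
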