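import Fermat.Agent.P6.H71Depth
import Fermat.Agent.S36.H78TorBasic
import Fermat.Agent.Red.GV.SoftGal
import Fermat.Agent.Red.Kron.FrickeGal

/-!
# Wave 6 (S33), row B2-START (helper51): the start of the depth ladder for inertia differences

`A` a valuation subring of `ℚ̄` over `ℓ`, `b` in the inertia group of `A`, `u ≠ 0` a function of
level `N`, `y = b(u) / u`.

* `h51s_start` : `y = h ^ r * (1 + c s)` with `h ≠ 0` (a constant), `c ∈ 𝔪_A` nonzero and
  `s ∈ softV A N` (start congruence at the Gauss valuation `W_∞`), for every `r > 0`.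
* `h51s_start_fricke` : the same for `w y`, `w = kFricke` (start congruence at `W_0`).
* `h51s_norm_alpha`, `h51s_norm_beta` : if `Nm u = g ^ r` then `Nm y = g' ^ r` (the norms along
  `α`, `β` commute with the Galois action): "new" is stable under `u ↦ b(u) / u`.
-/

set_option autoImplicit false
set_option linter.unusedSectionVars false
set_option linter.style.haveILetI false

open AlgebraicCurve ModularCurve IsLocalRing

noncomputable section

namespace Fermat.Agent.P6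

open Fermat.Agent.S37 Fermat.Agent.Red.GV Fermat.Agent.Red.GV.Soft Fermat.Agent.Red.Kron
  Fermat.Agent.Red Fermat.Agent.S36

/-! ### Constants -/

/-- every nonzero constant is an `r`-th power. -/
theorem h51s_exists_root (a : Kbar) (r : ℕ) (hr : 0 < r) : ∃ h : Kbar, h ^ r = a :=
  IsAlgClosed.exists_pow_nat_eq a hr

section Level

variable (A : ValuationSubring Kbar) (N : ℕ) [NeZero N] {ℓ : ℕ}

/-- an element of the kernel of the reduction is `c s`, `c ∈ 𝔪_A` nonzero, `s` integral. -/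
theorem h51s_ker (hℓ : ℓ.Prime) (hA : A.LiesOverPrime ℓ) (t : softV A N)
    (ht : softR A N t = 0) :
    ∃ c : Kbar, c ∈ A.nonunits ∧ c ≠ 0 ∧ ∃ s ∈ softV A N, (t : FF N) = cst N c * s := by
  by_cases h0 : (t : FF N) = 0
  · refine ⟨(ℓ : Kbar), hA, ?_, 0, zero_mem _, by rw [h0, mul_zero]⟩
    exact_mod_cast hℓ.ne_zero
  rcases (softR_eq_zero_iff A N t).1 ht with h1 | h1
  · exact (h0 h1).elim
  obtain ⟨c, hc, hu, hui⟩ := exists_cst_mul_unit_soft A N hℓ hA (t : FF N) h0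
  have hcst0 : cst N c ≠ 0 := by
    rw [Ne, map_eq_zero_iff _ (algebraMap Kbar (FF N)).injective]
    exact hc
  -- `c ∉ A`
  have hcA : c ∉ A := by
    intro hcA
    apply h1
    have e : (t : FF N)⁻¹ = cst N c * (cst N c * (t : FF N))⁻¹ := by
      rw [mul_inv, ← mul_assoc, mul_inv_cancel₀ hcst0, one_mul]
    rw [e]
    exact mul_mem ((cst_mem_softV_iff A N c).2 hcA) hui
  have hci : c⁻¹ ∈ A.nonunits := (ValuationSubring.inv_mem_nonunits_iff _).2 (Or.inr hcA)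
  refine ⟨c⁻¹, hci, inv_ne_zero hc, cst N c * (t : FF N), hu, ?_⟩
  rw [← mul_assoc, ← map_mul, inv_mul_cancel₀ hc, map_one, one_mul]

/-- **START (at `W_∞`)**: for `b` in the inertia group, `b(u) / u = h ^ r (1 + c s)` with
`c ∈ 𝔪_A` nonzero and `s` Gauss-integral. -/
theorem h51s_start (hℓ : ℓ.Prime) (hA : A.LiesOverPrime ℓ) (b : GQ)
    (hb : b ∈ A.inertiaSubgroupIn ℚ) (u : FF N) (hu : u ≠ 0) (r : ℕ) (hr : 0 < r) :
    ∃ c : Kbar, c ∈ A.nonunits ∧ c ≠ 0 ∧ ∃ h : FF N, h ≠ 0 ∧ ∃ s ∈ softV A N,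
      gal N b • u / u = h ^ r * (1 + cst N c * s) := by
  obtain ⟨c₁, hc₁, hu₁, hu₁i⟩ := exists_cst_mul_unit_soft A N hℓ hA u hu
  have hcst0 : cst N c₁ ≠ 0 := by
    rw [Ne, map_eq_zero_iff _ (algebraMap Kbar (FF N)).injective]
    exact hc₁
  set u₁ : FF N := cst N c₁ * u with hu₁def
  have hu₁0 : u₁ ≠ 0 := mul_ne_zero hcst0 hu
  obtain ⟨hbu, hred⟩ := softR_gal_of_inertia A N hb ⟨u₁, hu₁⟩
  -- `t = b(u₁) / u₁ - 1` reduces to zero
  have htV : gal N b • u₁ * u₁⁻¹ - 1 ∈ softV A N :=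
    sub_mem (mul_mem hbu hu₁i) (one_mem _)
  have htR : softR A N ⟨gal N b • u₁ * u₁⁻¹ - 1, htV⟩ = 0 := by
    have e : (⟨gal N b • u₁ * u₁⁻¹ - 1, htV⟩ : softV A N) =
        ⟨gal N b • u₁, hbu⟩ * ⟨u₁⁻¹, hu₁i⟩ - 1 := rfl
    rw [e, map_sub, map_mul, map_one, hred, ← map_mul]
    have e2 : (⟨u₁, hu₁⟩ : softV A N) * ⟨u₁⁻¹, hu₁i⟩ = 1 :=
      Subtype.ext (mul_inv_cancel₀ hu₁0)
    rw [e2, map_one, sub_self]
  obtain ⟨c, hc, hc0, s, hs, hts⟩ := h51s_ker A N hℓ hA ⟨_, htV⟩ htR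
  -- the constant
  have hbc0 : b c₁ ≠ 0 := by
    intro h
    exact hc₁ ((map_eq_zero_iff _ b.injective).1 h)
  obtain ⟨h₀, hh₀⟩ := h51s_exists_root (c₁ * (b c₁)⁻¹) r hr
  have hh₀0 : h₀ ≠ 0 := by
    intro h
    rw [h, zero_pow hr.ne'] at hh₀
    exact mul_ne_zero hc₁ (inv_ne_zero hbc0) hh₀.symm
  refine ⟨c, hc, hc0, cst N h₀, ?_, s, hs, ?_⟩
  · rw [Ne, map_eq_zero_iff _ (algebraMap Kbar (FF N)).injective]
    exact hh₀0
  · have hts' : gal N b • u₁ * u₁⁻¹ = 1 + cst N c * s := by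
      have : gal N b • u₁ * u₁⁻¹ - 1 = cst N c * s := hts
      rw [← this]; ring
    have hbu₁ : gal N b • u₁ = cst N (b c₁) * gal N b • u := by
      rw [hu₁def, smul_mul', GalI.gal_smul_cst]
    have hcb0 : cst N (b c₁) ≠ 0 := by
      rw [Ne, map_eq_zero_iff _ (algebraMap Kbar (FF N)).injective]
      exact hbc0
    rw [← hts', ← map_pow, hh₀, hbu₁, hu₁def, map_mul, map_inv₀]
    field_simp

end Level

section Fricke

variable (A : ValuationSubring Kbar) (M ℓ : ℕ) [NeZero M] [NeZero ℓ]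

/-- **START (at `W_0`)**: the same for `w (b(u) / u)`, `w` the Fricke involution. -/
theorem h51s_start_fricke (hℓ : ℓ.Prime) (hM : ¬ ℓ ∣ M) (hA : A.LiesOverPrime ℓ) (b : GQ)
    (hb : b ∈ A.inertiaSubgroupIn ℚ) (u : FF (M * ℓ)) (hu : u ≠ 0) (r : ℕ) (hr : 0 < r) :
    ∃ c : Kbar, c ∈ A.nonunits ∧ c ≠ 0 ∧ ∃ h : FF (M * ℓ), h ≠ 0 ∧
      ∃ s ∈ softV A (M * ℓ),
        kFricke M ℓ hℓ hM (gal (M * ℓ) b • u / u) = h ^ r * (1 + cst (M * ℓ) c * s) := by
  have hwu : kFricke M ℓ hℓ hM u ≠ 0 := by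
    intro h
    exact hu ((map_eq_zero_iff _ (kFricke M ℓ hℓ hM).injective).1 h)
  obtain ⟨c, hc, hc0, h, hh, s, hs, e⟩ :=
    h51s_start A (M * ℓ) hℓ hA b hb (kFricke M ℓ hℓ hM u) hwu r hr
  refine ⟨c, hc, hc0, h, hh, s, hs, ?_⟩
  rw [map_div₀, ← e]
  congr 1
  exact kFricke_gal M ℓ hℓ hM b u

/-- the norm of a nonzero element of a field extension is nonzero. -/
theorem h51s_norm_ne_zero {F F' : Type*} [Field F] [Field F'] [Algebra F F'] {u : F'}
    (hu : u ≠ 0) : Algebra.norm F u ≠ 0 := by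
  by_cases hfin : Module.Finite F F'
  · intro h
    exact hu (Algebra.norm_eq_zero_iff.1 h)
  · rw [Algebra.norm_eq_one_of_not_module_finite hfin]
    exact one_ne_zero

/-- abstract form: a multiplicative map `ν` with `σ (ν u) = ν (σ' u)`. -/
theorem h51s_norm_core {F F' : Type*} [Field F] [Field F'] (ν : F' → F)
    (hν : ∀ x y, ν (x * y) = ν x * ν y) (σ : F ≃+* F) (σ' : F' ≃+* F')
    (hσ : ∀ x, σ (ν x) = ν (σ' x)) (u : F') (hu : u ≠ 0) (hνu : ν u ≠ 0) (r : ℕ)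
    (hN : ∃ g : F, ν u = g ^ r) : ∃ g : F, ν (σ' u / u) = g ^ r := by
  obtain ⟨g, hg⟩ := hN
  have hmul := hν (σ' u / u) u
  rw [div_mul_cancel₀ _ hu, ← hσ, hg, map_pow] at hmul
  have hgr : g ^ r ≠ 0 := hg ▸ hνu
  refine ⟨σ g / g, ?_⟩
  rw [div_pow, eq_div_iff hgr]
  exact hmul.symm

/-- the norm along `α` of an inertia difference of a function with `r`-th power norm is an
`r`-th power. -/
theorem h51s_norm_alpha (b : GQ) (u : FF (M * ℓ)) (hu : u ≠ 0) (r : ℕ)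
    (hN : ∃ g : FF M,
      (letI := algebraAlong (heckeAlphaBar Kbar M ℓ); Algebra.norm (FF M) u) = g ^ r) :
    ∃ g : FF M,
      (letI := algebraAlong (heckeAlphaBar Kbar M ℓ);
        Algebra.norm (FF M) (gal (M * ℓ) b • u / u)) = g ^ r := by
  letI := algebraAlong (heckeAlphaBar Kbar M ℓ)
  exact h51s_norm_core (fun x => Algebra.norm (FF M) x) (fun x y => map_mul _ x y)
    (SemilinearAut.toRingAut (gal M b)) (SemilinearAut.toRingAut (gal (M * ℓ) b))
    (fun x => h78b_gal_norm_alpha M ℓ b x) u hu (h51s_norm_ne_zero hu) r hN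

/-- the norm along `β` of an inertia difference of a function with `r`-th power norm is an
`r`-th power. -/
theorem h51s_norm_beta (b : GQ) (u : FF (M * ℓ)) (hu : u ≠ 0) (r : ℕ)
    (hN : ∃ g : FF M,
      (letI := algebraAlong (heckeBetaBar Kbar M ℓ); Algebra.norm (FF M) u) = g ^ r) :
    ∃ g : FF M,
      (letI := algebraAlong (heckeBetaBar Kbar M ℓ);
        Algebra.norm (FF M) (gal (M * ℓ) b • u / u)) = g ^ r := by
  letI := algebraAlong (heckeBetaBar Kbar M ℓ)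
  exact h51s_norm_core (fun x => Algebra.norm (FF M) x) (fun x y => map_mul _ x y)
    (SemilinearAut.toRingAut (gal M b)) (SemilinearAut.toRingAut (gal (M * ℓ) b))
    (fun x => h78b_gal_norm_beta M ℓ b x) u hu (h51s_norm_ne_zero hu) r hN

end Fricke

end Fermat.Agent.P6
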