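import Fermat.Agent.S35.H58Norm

/-!
# P6 (wave 6, S33), block B2 (helper54): the depth (cofactor) lemma at a prime `ℓ ∥ N`

`ℓ ∤ M` prime, `A` a valuation subring of `ℚ̄` over `ℓ`, `N = M ℓ`, `α, β : F_M → F_N` the two
degeneracy maps, `w` the Fricke involution of `F_N`, `softV A N` the Gauss valuation ring at `∞`
(`W_∞`; `W_0 = w W_∞`), `ζ` a primitive `ℓ`-th root of unity.

In the variable `t = q^{1/ℓ}` the conjugates of `ω ∈ F_N` over `α(F_M)` are `ω(t^ℓ)` and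
`(w ω)(ζ^b t)`, `b < ℓ` (`LGC/Conj.lean`), so `Nm_α(ω) / ω = ∏_b (w ω)(ζ^b t)` only depends on
the expansion of `ω` at the OTHER Gauss valuation.

* `h54h_twistK_sub` : the twist of a Gauss-integral fraction by a unit `u` of `A` is congruent
  to the fraction modulo `u - 1`.
* `h54h_prod_twist` : `∏_{b<ℓ} (1 + β z₀(ζ^b t)) = 1 + (ζ - 1) β z₁ + β² z₂`.
* `h54h_cofactor` : **the depth lemma**: if `w ω = 1 + β z₀` (`β ∈ A`, `z₀ ∈ W_∞`), then
  `Nm_α(ω) = ω (1 + γ f)` with `f ∈ W_∞`, for every `γ ≠ 0` dividing `(ζ - 1) β` and `β²`.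

Every declaration is a definition or a proved theorem; nothing is assumed.
-/

set_option autoImplicit false
set_option linter.unusedSectionVars false
set_option linter.unusedVariables false
set_option linter.style.longLine false

open ModularCurve AlgebraicCurve IsLocalRing Polynomial

noncomputable section

namespace Fermat.Agent.P6

open Fermat.Agent.S37 Fermat.Agent.Red Fermat.Agent.Red.GV Fermat.Agent.Red.GV.Soft
  Fermat.Agent.Red.TRK Fermat.Agent.Red.Kron Fermat.Agent.LGC Fermat.Agent.S35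

section Series

variable {K : Type} [Field K] {A : ValuationSubring K} {k : Type} [Field k] {π : A →+* k}

/-- `u ^ n - 1` is divisible by `u - 1` in `A`, for every integer `n`. -/
theorem h54h_zpow_sub_one (u : Aˣ) (n : ℤ) :
    ∃ c : A, ((u ^ n : Aˣ) : A) - 1 = ((u : A) - 1) * c := by
  induction n using Int.induction_on with
  | zero => exact ⟨0, by simp⟩
  | succ n ih =>
    obtain ⟨c, hc⟩ := ih
    refine ⟨c * u + 1, ?_⟩
    rw [zpow_add_one, Units.val_mul]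
    linear_combination (u : A) * hc
  | pred n ih =>
    obtain ⟨c, hc⟩ := ih
    refine ⟨(c - 1) * ((u⁻¹ : Aˣ) : A), ?_⟩
    rw [zpow_sub_one, Units.val_mul]
    have hu : (u : A) * ((u⁻¹ : Aˣ) : A) = 1 := by simp
    linear_combination ((u⁻¹ : Aˣ) : A) * hc + hu

/-- the twist of a series over `A` by a unit `u` is congruent to the series modulo `u - 1`. -/
theorem h54h_twA_sub (u : Aˣ) (a : LaurentSeries A) :
    ∃ a' : LaurentSeries A, h44g_twA u a = a + HahnSeries.C ((u : A) - 1) * a' := by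
  classical
  choose c hc using h54h_zpow_sub_one u
  refine ⟨⟨fun n => a.coeff n * c n, ?_⟩, ?_⟩
  · refine a.isPWO_support.mono ?_
    intro n hn
    simp only [Function.mem_support, ne_eq] at hn ⊢
    exact fun h0 => hn (by rw [h0, zero_mul])
  · ext n
    rw [h44g_coeff_twA, HahnSeries.coeff_add, HahnSeries.C_mul_eq_smul, HahnSeries.coeff_smul]
    refine congrArg Subtype.val
      (?_ : a.coeff n * ((u ^ n : Aˣ) : A) = a.coeff n + ((u : A) - 1) • (a.coeff n * c n))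
    rw [smul_eq_mul]
    linear_combination a.coeff n * hc n

/-- **twist difference**: the twist of a Gauss-integral fraction by a unit `u` of `A` is
congruent to the fraction modulo `u - 1`. -/
theorem h54h_twistK_sub (u : Aˣ) {y : LaurentSeries K} (hy : y ∈ softOT A π) :
    ∃ s ∈ softOT A π,
      twistK (((u : A) : K)) y = y + HahnSeries.C ((((u : A) : K)) - 1) * s := by
  obtain ⟨a, b, h⟩ := hy
  obtain ⟨a', ha'⟩ := h54h_twA_sub u a
  obtain ⟨b', hb'⟩ := h54h_twA_sub u b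
  have h2 : IsWit A π (twistK (((u : A) : K)) y) (h44g_twA u a) (h44g_twA u b) :=
    h44r_isWit_twistK u h
  have hb0 : embA A b ≠ 0 := h.embA_ne_zero
  have hb20 : embA A (h44g_twA u b) ≠ 0 := h2.embA_ne_zero
  have hw : IsWit A π (embA A (a' * b - a * b') / embA A (b * h44g_twA u b))
      (a' * b - a * b') (b * h44g_twA u b) := by
    refine ⟨?_, ?_⟩
    · rw [map_mul]
      exact mul_ne_zero h.1 h2.1
    · rw [div_mul_cancel₀]
      rw [map_mul]
      exact mul_ne_zero hb0 hb20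
  refine ⟨_, ⟨_, _, hw⟩, ?_⟩
  have e1 : y = embA A a / embA A b := by
    rw [h.2, mul_div_assoc, div_self hb0, mul_one]
  have e2 : twistK (((u : A) : K)) y = embA A (h44g_twA u a) / embA A (h44g_twA u b) := by
    rw [h2.2, mul_div_assoc, div_self hb20, mul_one]
  have e3 : embA A (h44g_twA u a) =
      embA A a + HahnSeries.C ((((u : A) : K)) - 1) * embA A a' := by
    rw [ha', map_add, embA_C_mul]
    rfl
  have e4 : embA A (h44g_twA u b) =
      embA A b + HahnSeries.C ((((u : A) : K)) - 1) * embA A b' := by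
    rw [hb', map_add, embA_C_mul]
    rfl
  have e5 : embA A (a' * b - a * b') = embA A a' * embA A b - embA A a * embA A b' := by
    rw [map_sub, map_mul, map_mul]
  have e6 : embA A (b * h44g_twA u b) = embA A b * embA A (h44g_twA u b) := map_mul _ _ _
  rw [e2, e1, e5, e6]
  generalize (HahnSeries.C ((((u : A) : K)) - 1) : LaurentSeries K) = c at e3 e4 ⊢
  rw [e3]
  rw [e4] at hb20 ⊢
  field_simp
  ring

/-- the expansion of a product `∏ (1 + β t_i)` up to order `β ^ 2`, inside a subring. -/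
theorem h54h_prod_one_add {R : Type*} [CommRing R] (S : Subring R) {ι : Type*}
    (s : Finset ι) (β : R) (hβ : β ∈ S) (t : ι → R) (ht : ∀ i ∈ s, t i ∈ S) :
    ∃ r ∈ S, ∏ i ∈ s, (1 + β * t i) = 1 + β * ∑ i ∈ s, t i + β ^ 2 * r := by
  classical
  induction s using Finset.induction_on with
  | empty => exact ⟨0, S.zero_mem, by simp⟩
  | insert j s hj ih =>
    obtain ⟨r, hr, h⟩ := ih (fun i hi => ht i (Finset.mem_insert_of_mem hi))
    have htj : t j ∈ S := ht j (Finset.mem_insert_self j s)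
    have hsum : ∑ i ∈ s, t i ∈ S :=
      S.sum_mem (fun i hi => ht i (Finset.mem_insert_of_mem hi))
    refine ⟨r + t j * ∑ i ∈ s, t i + β * t j * r,
      S.add_mem (S.add_mem hr (S.mul_mem htj hsum)) (S.mul_mem (S.mul_mem hβ htj) hr), ?_⟩
    rw [Finset.prod_insert hj, Finset.sum_insert hj, h]
    ring

/-- **the product over the twists** of `1 + β z₀`: it is `≡ 1` modulo `(u - 1) β` and `β ^ 2`
(`u` a primitive `ℓ`-th root of unity). -/
theorem h54h_prod_twist {ℓ : ℕ} (hℓ : 1 < ℓ) (u : Aˣ)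
    (hu : IsPrimitiveRoot (((u : A) : K)) ℓ) (β : A) {z₀ : LaurentSeries K}
    (hz₀ : z₀ ∈ softOT A π) :
    ∃ z₁ ∈ softOT A π, ∃ z₂ ∈ softOT A π,
      ∏ b ∈ Finset.range ℓ,
          (1 + HahnSeries.C (β : K) * twistK ((((u ^ b : Aˣ) : A)) : K) z₀) =
        1 + HahnSeries.C (((((u : A) : K)) - 1) * (β : K)) * z₁ +
          HahnSeries.C ((β : K) ^ 2) * z₂ := by
  classical
  have ht : ∀ b : ℕ, twistK ((((u ^ b : Aˣ) : A)) : K) z₀ ∈ softOT A π :=
    fun b => h44r_twistK_mem_softOT (u ^ b) hz₀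
  obtain ⟨r, hr, hP⟩ := h54h_prod_one_add (softOT A π) (Finset.range ℓ)
    (HahnSeries.C (β : K)) (C_mem_softOT A π β)
    (fun b => twistK ((((u ^ b : Aˣ) : A)) : K) z₀) (fun b _ => ht b)
  choose s hs hst using fun b : ℕ => h54h_twistK_sub (π := π) (u ^ b) hz₀
  choose c hc using fun b : ℕ => h54h_zpow_sub_one u (b : ℤ)
  have hc' : ∀ b : ℕ, ((((u ^ b : Aˣ) : A)) : K) - 1 =
      ((((u : A) : K)) - 1) * ((c b : A) : K) := by
    intro b
    have h1 := congrArg (Subtype.val : A → K) (hc b)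
    rw [zpow_natCast] at h1
    simpa using h1
  have hsum0 : ∑ b ∈ Finset.range ℓ, ((((u ^ b : Aˣ) : A)) : K) = 0 := by
    have h1 := hu.geom_sum_eq_zero hℓ
    rw [← h1]
    refine Finset.sum_congr rfl (fun b _ => ?_)
    simp
  have hℓK : (ℓ : K) = -(((((u : A) : K)) - 1) * ∑ b ∈ Finset.range ℓ, ((c b : A) : K)) := by
    have h1 : ∑ b ∈ Finset.range ℓ, (((((u ^ b : Aˣ) : A)) : K) - 1) =
        ((((u : A) : K)) - 1) * ∑ b ∈ Finset.range ℓ, ((c b : A) : K) := by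
      rw [Finset.mul_sum]
      exact Finset.sum_congr rfl (fun b _ => hc' b)
    rw [Finset.sum_sub_distrib, hsum0, Finset.sum_const, Finset.card_range, nsmul_eq_mul,
      mul_one, zero_sub] at h1
    rw [← h1, neg_neg]
  refine ⟨∑ b ∈ Finset.range ℓ, HahnSeries.C ((c b : A) : K) * s b -
      HahnSeries.C (((∑ b ∈ Finset.range ℓ, c b : A) : A) : K) * z₀, ?_, r, hr, ?_⟩
  · refine Subring.sub_mem _ (Subring.sum_mem _ (fun b _ => ?_)) ?_
    · exact Subring.mul_mem _ (C_mem_softOT A π (c b)) (hs b)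
    · exact Subring.mul_mem _ (C_mem_softOT A π _) hz₀
  · rw [hP]
    have h2 : ∑ b ∈ Finset.range ℓ, twistK ((((u ^ b : Aˣ) : A)) : K) z₀ =
        HahnSeries.C ((((u : A) : K)) - 1) *
          (∑ b ∈ Finset.range ℓ, HahnSeries.C ((c b : A) : K) * s b -
            HahnSeries.C (((∑ b ∈ Finset.range ℓ, c b : A) : A) : K) * z₀) := by
      have h3 : ∀ b ∈ Finset.range ℓ, twistK ((((u ^ b : Aˣ) : A)) : K) z₀ =
          z₀ + HahnSeries.C ((((u : A) : K)) - 1) * (HahnSeries.C ((c b : A) : K) * s b) := by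
        intro b _
        rw [hst b, hc' b, map_mul, mul_assoc]
      rw [Finset.sum_congr rfl h3, Finset.sum_add_distrib, Finset.sum_const, Finset.card_range,
        ← Finset.mul_sum, mul_sub]
      have h4 : (ℓ • z₀ : LaurentSeries K) = HahnSeries.C (ℓ : K) * z₀ := by
        rw [nsmul_eq_mul, map_natCast]
      rw [h4, hℓK]
      push_cast
      rw [map_neg, map_mul]
      ring
    rw [h2, map_mul, map_pow]
    ring

end Series

section Modular

open Fermat.Agent.Red.KR (normAlong)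

variable (A : ValuationSubring Kbar) (M ℓ : ℕ) [NeZero M] [NeZero ℓ]

/-- descent along `q ↦ q ^ ℓ`: a function whose expansion in `q ^ ℓ` is a Gauss-integral
fraction is Gauss-integral. -/
theorem h54h_mem_softV_of_qExpand (hℓ : ℓ.Prime) (hA : A.LiesOverPrime ℓ) (N : ℕ) [NeZero N]
    (f : FF N)
    (h : qExpand Kbar ℓ ((f : FF N) : LaurentSeries Kbar) ∈ softOT A (IsLocalRing.residue A)) :
    f ∈ softV A N := by
  have h1 : heckeBetaBar Kbar N ℓ f ∈ softV A (N * ℓ) := by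
    rw [mem_softV_iff, coe_heckeBetaBar]
    exact h
  exact (beta_mem_softV_iff A hℓ hA ℓ f).mp h1

/-- **the cofactor (depth) lemma.**  `ℓ ∤ M`, `A` over `ℓ`, `ζ` a primitive `ℓ`-th root of
unity, `w` the Fricke involution.  If `w ω = 1 + β z₀` with `z₀` Gauss-integral (at `∞`) and
`β ∈ A`, i.e. `ω ≡ 1 mod β` at the Gauss valuation `W₀ = w W_∞`, then
`Nm_α(ω) = ω · (1 + γ f)` with `f` Gauss-integral at `∞`, for every `γ ≠ 0` dividing both
`(ζ - 1) β` and `β ^ 2` in `A`.  NO hypothesis on `ω` at `∞`. -/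
theorem h54h_cofactor (hℓ : ℓ.Prime) (hM : ¬ ℓ ∣ M) (hA : A.LiesOverPrime ℓ)
    (ζ : Kbar) (hζ : IsPrimitiveRoot ζ ℓ)
    (ω : FF (M * ℓ)) (hω : ω ≠ 0) (β : Kbar) (hβ : β ∈ A)
    (z₀ : FF (M * ℓ)) (hz₀ : z₀ ∈ softV A (M * ℓ))
    (hw : kFricke M ℓ hℓ hM ω = 1 + cst (M * ℓ) β * z₀)
    (γ e₁ e₂ : Kbar) (hγ : γ ≠ 0) (he₁ : e₁ ∈ A) (he₂ : e₂ ∈ A)
    (h₁ : (ζ - 1) * β = γ * e₁) (h₂ : β ^ 2 = γ * e₂) :
    ∃ f ∈ softV A (M * ℓ),
      heckeAlphaBar Kbar M ℓ (normAlong (heckeAlphaBar Kbar M ℓ) ω) =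
        ω * (1 + cst (M * ℓ) γ * f) := by
  obtain ⟨u, hu⟩ := h44g_exists_unit_of_pow_eq_one A (NeZero.ne ℓ) hζ.pow_eq_one
  have hζb : ∀ b : ℕ, ζ ^ b = ((((u ^ b : Aˣ) : A)) : Kbar) := by
    intro b
    rw [Units.val_pow_eq_pow_val, ← hu]
    rfl
  have hζ0 : ∀ b : ℕ, ζ ^ b ≠ 0 := fun b => pow_ne_zero b (hζ.ne_zero (NeZero.ne ℓ))
  have hu' : IsPrimitiveRoot (((u : A) : Kbar)) ℓ := by rw [hu]; exact hζ
  -- the series of `w ω`
  have hs : ((z₀ : FF (M * ℓ)) : LaurentSeries Kbar) ∈ softOT A (IsLocalRing.residue A) := hz₀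
  have hker : ((kFricke M ℓ hℓ hM ω : FF (M * ℓ)) : LaurentSeries Kbar) =
      1 + HahnSeries.C β * ((z₀ : FF (M * ℓ)) : LaurentSeries Kbar) := by
    rw [hw, AddMemClass.coe_add, OneMemClass.coe_one, MulMemClass.coe_mul]
    congr 2
    exact soft_coe_cst (M * ℓ) _
  have htw : ∀ b ∈ Finset.range ℓ,
      twistK (ζ ^ b) ((kFricke M ℓ hℓ hM ω : FF (M * ℓ)) : LaurentSeries Kbar) =
        1 + HahnSeries.C (((⟨β, hβ⟩ : A) : Kbar)) *
          twistK ((((u ^ b : Aˣ) : A)) : Kbar) ((z₀ : FF (M * ℓ)) : LaurentSeries Kbar) := by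
    intro b _
    rw [hker, twistK_add, twistK_one, twistK_mul (hζ0 b), twistK_C, hζb b]
  obtain ⟨z₁, hz₁, z₂, hz₂, hP⟩ := h54h_prod_twist (π := IsLocalRing.residue A) hℓ.one_lt u hu'
    (⟨β, hβ⟩ : A) hs
  have hcoe := h58n_coe_beta_nmA M ℓ hℓ hM ζ hζ ω
  rw [Finset.prod_congr rfl htw, hP, coe_heckeBetaBar] at hcoe
  -- the series `Z`
  obtain ⟨Z, hZdef⟩ : ∃ Z : LaurentSeries Kbar,
      Z = HahnSeries.C e₁ * z₁ + HahnSeries.C e₂ * z₂ := ⟨_, rfl⟩
  have hZ : Z ∈ softOT A (IsLocalRing.residue A) := by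
    rw [hZdef]
    exact Subring.add_mem _
      (Subring.mul_mem _ (C_mem_softOT A _ (⟨e₁, he₁⟩ : A)) hz₁)
      (Subring.mul_mem _ (C_mem_softOT A _ (⟨e₂, he₂⟩ : A)) hz₂)
  have hcoe2 : qExpand Kbar ℓ
      ((normAlong (heckeAlphaBar Kbar M ℓ) ω : FF M) : LaurentSeries Kbar) =
      qExpand Kbar ℓ ((ω : FF (M * ℓ)) : LaurentSeries Kbar) * (1 + HahnSeries.C γ * Z) := by
    rw [hcoe, hZdef]
    have e1 : (((u : A) : Kbar) - 1) * (((⟨β, hβ⟩ : A) : Kbar)) = γ * e₁ := by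
      rw [hu]; exact h₁
    have e2 : (((⟨β, hβ⟩ : A) : Kbar)) ^ 2 = γ * e₂ := h₂
    rw [e1, e2, map_mul, map_mul]
    ring
  -- the function `f`
  obtain ⟨f, hfdef⟩ : ∃ f : FF (M * ℓ),
      f = cst (M * ℓ) γ⁻¹ *
        (heckeAlphaBar Kbar M ℓ (normAlong (heckeAlphaBar Kbar M ℓ) ω) * ω⁻¹ - 1) := ⟨_, rfl⟩
  have hωS : ((ω : FF (M * ℓ)) : LaurentSeries Kbar) ≠ 0 := by
    intro h0
    exact hω (Subtype.ext h0)
  have hqω : qExpand Kbar ℓ ((ω : FF (M * ℓ)) : LaurentSeries Kbar) ≠ 0 := by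
    intro h0
    exact hωS ((qExpand Kbar ℓ).injective (by rw [h0, map_zero]))
  have hfS : qExpand Kbar ℓ ((f : FF (M * ℓ)) : LaurentSeries Kbar) = Z := by
    have e1 : ((f : FF (M * ℓ)) : LaurentSeries Kbar) =
        HahnSeries.C γ⁻¹ *
          (((normAlong (heckeAlphaBar Kbar M ℓ) ω : FF M) : LaurentSeries Kbar) *
            (((ω : FF (M * ℓ)) : LaurentSeries Kbar))⁻¹ - 1) := by
      rw [hfdef, MulMemClass.coe_mul, soft_coe_cst, AddSubgroupClass.coe_sub,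
        MulMemClass.coe_mul, OneMemClass.coe_one, coe_heckeAlphaBar]
      rfl
    have q1 : qExpand Kbar ℓ (HahnSeries.C γ⁻¹ : LaurentSeries Kbar) = HahnSeries.C γ⁻¹ :=
      qExpand_C _ _
    have q2 : qExpand Kbar ℓ (((ω : FF (M * ℓ)) : LaurentSeries Kbar))⁻¹ =
        (qExpand Kbar ℓ ((ω : FF (M * ℓ)) : LaurentSeries Kbar))⁻¹ := map_inv₀ _ _
    have q3 : (HahnSeries.C γ⁻¹ : LaurentSeries Kbar) * HahnSeries.C γ = 1 := by
      rw [← map_mul, inv_mul_cancel₀ hγ, map_one]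
    rw [e1, map_mul, q1, map_sub, map_mul, q2, map_one, hcoe2]
    generalize qExpand Kbar ℓ ((ω : FF (M * ℓ)) : LaurentSeries Kbar) = W at hqω ⊢
    calc HahnSeries.C γ⁻¹ * (W * (1 + HahnSeries.C γ * Z) * W⁻¹ - 1)
        = (HahnSeries.C γ⁻¹ * HahnSeries.C γ) * Z * (W * W⁻¹) +
            HahnSeries.C γ⁻¹ * (W * W⁻¹ - 1) := by ring
      _ = Z := by rw [q3, mul_inv_cancel₀ hqω]; ring
  have hf : f ∈ softV A (M * ℓ) :=
    h54h_mem_softV_of_qExpand A ℓ hℓ hA (M * ℓ) f (by rw [hfS]; exact hZ)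
  refine ⟨f, hf, ?_⟩
  have hcγ : cst (M * ℓ) γ * cst (M * ℓ) γ⁻¹ = 1 := by
    rw [← map_mul, mul_inv_cancel₀ hγ, map_one]
  rw [hfdef]
  generalize heckeAlphaBar Kbar M ℓ (normAlong (heckeAlphaBar Kbar M ℓ) ω) = X
  calc X = (ω * ω⁻¹) * X := by rw [mul_inv_cancel₀ hω, one_mul]
    _ = ω * (1 + (cst (M * ℓ) γ * cst (M * ℓ) γ⁻¹) * (X * ω⁻¹ - 1)) := by rw [hcγ]; ring
    _ = _ := by ring

end Modular

end Fermat.Agent.P6
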