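import Mathlib
import Fermat.Agent.P6.H18Purity

/-!
# S33 / B2-TOR (helper55): the inputs of abstract purity at a smooth point, abstractly

Setting of `P6/H18Purity.lean` (helper18): `A` a valuation ring, `R` a commutative `A`-algebra,
`O ≤ V` subalgebras of `R` (`V` = the Gauss ring of a component of the special fibre, `O` = the
local ring at a smooth closed point of that component), `t ∈ O` a parameter of the residue disc.

From the **disc axioms**

* `hti`   : `t` is a unit of `V`;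
* `hVinv` : `1 + 𝔪_A V ⊆ V^×`;
* `hnt`   : a constant `a ∈ A` which lies in `t O + 𝔪_A V` is a nonunit of `A`
            (`t̄` is a nonunit of the reduction `Ō`, and `Ō ≠ 0`);
* `hval`  : for `x ∈ V`: `x ∈ O + 𝔪_A V` or `x · t y ∈ 1 + 𝔪_A V` for some `y ∈ O`
            (`Ō` is a valuation ring of the residue field of `V`, with maximal ideal `t̄ Ō`);
* `hden`  : for `G ∈ V` there are centres `c₁, …, c_d ∈ 𝔪_A` with `∏ (t - cᵢ) · G ∈ O`
            (the poles of `G` in the disc);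
* `hdiv`  : for `f ∈ O`, `c ∈ 𝔪_A`: `f = a + (t - c) f₁`, `a ∈ A`, `f₁ ∈ O`
            (evaluation at the point `t = c` of the disc)

we derive the hypotheses `hroot`, `hAS`, `hdepth` of `h18y_purity` / `h18y_purity_iter`:

* `h55q_not_pole` : an element of `V` with a pole at the point is not integral over `O`
  modulo `𝔪_A V`;
* `h55q_hroot`, `h55q_hAS` : `p`-th roots and Artin–Schreier roots;
* `h55q_division` : Newton interpolation `f = P(t) + Q · f'`, `Q = ∏ (t - cᵢ)`, `deg P < d`;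
* `h55q_hdepth` : the exact depth `G = b + a • r`, `r ∉ O + 𝔪_A V`;
* `h55q_purity` : the conclusion of `h18y_purity_iter` from the disc axioms;
* `h55q_local_datum` : the deep local datum: `w ∈ 1 + ϖ ^ k V`, `w = ω / G ^ (p ^ n)` with `ω` a
  unit of `O` `⟹` `w = ω' · g ^ (p ^ n)` with `ω'` a unit of `O` and `g ∈ 1 + ϖ ^ j V`.

Mathlib + `P6/H18Purity.lean` only.
-/

set_option autoImplicit false
set_option linter.unusedSectionVars false

open IsLocalRing Polynomial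

namespace Fermat.Agent.P6

section Small

variable {A : Type*} [CommRing A] [IsDomain A] [ValuationRing A]
  {R : Type*} [CommRing R] [Algebra A R]

/-- `x ∈ 𝔪_A V`. -/
def h55qSmall (V : Subalgebra A R) (x : R) : Prop :=
  ∃ m ∈ maximalIdeal A, ∃ r ∈ V, x = m • r

theorem h55q_small_zero (V : Subalgebra A R) : h55qSmall V 0 :=
  ⟨0, (maximalIdeal A).zero_mem, 0, V.zero_mem, by simp⟩

theorem h55q_small_mem {V : Subalgebra A R} {x : R} (hx : h55qSmall V x) : x ∈ V := by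
  obtain ⟨m, -, r, hr, rfl⟩ := hx
  exact V.smul_mem hr m

theorem h55q_small_add {V : Subalgebra A R} {x y : R} (hx : h55qSmall V x)
    (hy : h55qSmall V y) : h55qSmall V (x + y) := by
  obtain ⟨m₁, hm₁, r₁, hr₁, rfl⟩ := hx
  obtain ⟨m₂, hm₂, r₂, hr₂, rfl⟩ := hy
  obtain ⟨m, hm, ⟨c₁, rfl⟩, ⟨c₂, rfl⟩⟩ := h18y_exists_common hm₁ hm₂
  exact ⟨m, hm, c₁ • r₁ + c₂ • r₂, V.add_mem (V.smul_mem hr₁ _) (V.smul_mem hr₂ _), by
    rw [smul_add, mul_smul, mul_smul]⟩

theorem h55q_small_neg {V : Subalgebra A R} {x : R} (hx : h55qSmall V x) :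
    h55qSmall V (-x) := by
  obtain ⟨m, hm, r, hr, rfl⟩ := hx
  exact ⟨m, hm, -r, V.neg_mem hr, by rw [smul_neg]⟩

theorem h55q_small_sub {V : Subalgebra A R} {x y : R} (hx : h55qSmall V x)
    (hy : h55qSmall V y) : h55qSmall V (x - y) := by
  rw [sub_eq_add_neg]
  exact h55q_small_add hx (h55q_small_neg hy)

theorem h55q_small_mul_left {V : Subalgebra A R} {v x : R} (hv : v ∈ V)
    (hx : h55qSmall V x) : h55qSmall V (v * x) := by
  obtain ⟨m, hm, r, hr, rfl⟩ := hx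
  exact ⟨m, hm, v * r, V.mul_mem hv hr, by rw [mul_smul_comm]⟩

theorem h55q_small_mul_right {V : Subalgebra A R} {v x : R} (hv : v ∈ V)
    (hx : h55qSmall V x) : h55qSmall V (x * v) := by
  rw [mul_comm]
  exact h55q_small_mul_left hv hx

theorem h55q_small_smul {V : Subalgebra A R} {m : A} (hm : m ∈ maximalIdeal A) {x : R}
    (hx : x ∈ V) : h55qSmall V (m • x) :=
  ⟨m, hm, x, hx, rfl⟩

theorem h55q_small_algebraMap {V : Subalgebra A R} {m : A} (hm : m ∈ maximalIdeal A) :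
    h55qSmall V (algebraMap A R m) :=
  ⟨m, hm, 1, V.one_mem, by rw [Algebra.smul_def, mul_one]⟩

theorem h55q_small_sum {V : Subalgebra A R} {ι : Type*} (s : Finset ι) (f : ι → R)
    (h : ∀ i ∈ s, h55qSmall V (f i)) : h55qSmall V (∑ i ∈ s, f i) := by
  classical
  induction s using Finset.induction_on with
  | empty => simpa using h55q_small_zero V
  | insert a s ha ih =>
    rw [Finset.sum_insert ha]
    exact h55q_small_add (h _ (Finset.mem_insert_self _ _))
      (ih fun i hi => h i (Finset.mem_insert_of_mem hi))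

/-- `G ∈ O + 𝔪_A V` iff `G - b ∈ 𝔪_A V` for some `b ∈ O`. -/
theorem h55q_nearM_iff {O V : Subalgebra A R} {G : R} :
    h18yNearM O V G ↔ ∃ b ∈ O, h55qSmall V (G - b) := by
  constructor
  · rintro ⟨m, hm, b, hb, r, hr, rfl⟩
    exact ⟨b, hb, m, hm, r, hr, by ring⟩
  · rintro ⟨b, hb, m, hm, r, hr, h⟩
    exact ⟨m, hm, b, hb, r, hr, by rw [← h]; ring⟩

/-- powers of an element of `1 + 𝔪_A V`. -/
theorem h55q_small_pow_sub_one {V : Subalgebra A R} {u : R} (hu : u ∈ V)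
    (h : h55qSmall V (u - 1)) (n : ℕ) : h55qSmall V (u ^ n - 1) := by
  induction n with
  | zero => simpa using h55q_small_zero V
  | succ n ih =>
    have e : u ^ (n + 1) - 1 = u * (u ^ n - 1) + (u - 1) := by ring
    rw [e]
    exact h55q_small_add (h55q_small_mul_left hu ih) h

end Small

section Integral

variable {A : Type*} [CommRing A] [IsDomain A] [ValuationRing A]
  {R : Type*} [CommRing R] [Algebra A R]

/-- **an element with a pole at the point is not integral over `O` modulo `𝔪_A V`.** -/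
theorem h55q_not_pole {O V : Subalgebra A R} (hOV : O ≤ V) {t : R} (ht : t ∈ O)
    (hnt : ∀ a : A, (∃ o ∈ O, h55qSmall V (algebraMap A R a - t * o)) → a ∈ maximalIdeal A)
    {x y : R} (hx : x ∈ V) (hy : y ∈ O) (hxy : h55qSmall V (x * (t * y) - 1))
    (n : ℕ) (hn : 0 < n) (o : ℕ → R) (ho : ∀ i, o i ∈ O) (b : R) (hb : b ∈ O)
    (h : h55qSmall V (x ^ n + ∑ i ∈ Finset.range n, o i * x ^ i - b)) : False := by
  set z : R := t * y with hz
  have hzO : z ∈ O := O.mul_mem ht hy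
  have hzV : z ∈ V := hOV hzO
  set u : R := x * z with hu
  have huV : u ∈ V := V.mul_mem hx hzV
  -- multiply by `z ^ n`
  have h1 : h55qSmall V (z ^ n * (x ^ n + ∑ i ∈ Finset.range n, o i * x ^ i - b)) :=
    h55q_small_mul_left (V.pow_mem hzV n) h
  -- the main congruence
  have key : z ^ n * (x ^ n + ∑ i ∈ Finset.range n, o i * x ^ i - b) =
      (u ^ n - 1) + ∑ i ∈ Finset.range n, (o i * z ^ (n - i)) * (u ^ i - 1)
        + (1 + (∑ i ∈ Finset.range n, o i * z ^ (n - i) - b * z ^ n)) := by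
    have e1 : z ^ n * ∑ i ∈ Finset.range n, o i * x ^ i =
        ∑ i ∈ Finset.range n, (o i * z ^ (n - i)) * u ^ i := by
      rw [Finset.mul_sum]
      refine Finset.sum_congr rfl fun i hi => ?_
      have hi' : i < n := Finset.mem_range.mp hi
      have e : z ^ n = z ^ (n - i) * z ^ i := by rw [← pow_add]; congr 1; omega
      rw [e, hu, mul_pow]; ring
    have e2 : ∑ i ∈ Finset.range n, (o i * z ^ (n - i)) * (u ^ i - 1) =
        ∑ i ∈ Finset.range n, (o i * z ^ (n - i)) * u ^ i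
          - ∑ i ∈ Finset.range n, o i * z ^ (n - i) := by
      rw [← Finset.sum_sub_distrib]
      refine Finset.sum_congr rfl fun i _ => ?_
      ring
    rw [mul_sub, mul_add, e1, e2, hu, mul_pow]
    ring
  rw [key] at h1
  have h2 : h55qSmall V ((u ^ n - 1) + ∑ i ∈ Finset.range n, (o i * z ^ (n - i)) * (u ^ i - 1)) :=
    h55q_small_add (h55q_small_pow_sub_one huV hxy n)
      (h55q_small_sum _ _ fun i _ => h55q_small_mul_left
        (V.mul_mem (hOV (ho i)) (V.pow_mem hzV _)) (h55q_small_pow_sub_one huV hxy i))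
  have h3 : h55qSmall V (1 + (∑ i ∈ Finset.range n, o i * z ^ (n - i) - b * z ^ n)) := by
    have := h55q_small_sub h1 h2
    rwa [add_sub_cancel_left] at this
  -- the second summand is `t * W`
  obtain ⟨n', rfl⟩ : ∃ n', n = n' + 1 := ⟨n - 1, by omega⟩
  set W : R := y * (∑ i ∈ Finset.range (n' + 1), o i * z ^ (n' - i) - b * z ^ n') with hW
  have hWO : W ∈ O := by
    refine O.mul_mem hy (O.sub_mem (O.sum_mem fun i _ => ?_) (O.mul_mem hb (O.pow_mem hzO _)))
    exact O.mul_mem (ho i) (O.pow_mem hzO _)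
  have e3 : ∑ i ∈ Finset.range (n' + 1), o i * z ^ (n' + 1 - i) - b * z ^ (n' + 1) = t * W := by
    have e4 : ∑ i ∈ Finset.range (n' + 1), o i * z ^ (n' + 1 - i) =
        z * ∑ i ∈ Finset.range (n' + 1), o i * z ^ (n' - i) := by
      rw [Finset.mul_sum]
      refine Finset.sum_congr rfl fun i hi => ?_
      have hi' : i < n' + 1 := Finset.mem_range.mp hi
      have e : n' + 1 - i = (n' - i) + 1 := by omega
      rw [e, pow_succ]; ring
    rw [e4, hW, pow_succ, hz]; ring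
  rw [e3] at h3
  have h4 : (1 : A) ∈ maximalIdeal A := by
    refine hnt 1 ⟨-W, O.neg_mem hWO, ?_⟩
    rw [map_one]
    have e5 : (1 : R) - t * -W = 1 + t * W := by ring
    rw [e5]
    exact h3
  exact (maximalIdeal A).ne_top_iff_one.mp (Ideal.IsMaximal.ne_top inferInstance) h4

/-- **`p`-th roots**: the hypothesis `hroot` of `h18y_purity`. -/
theorem h55q_hroot {O V : Subalgebra A R} (hOV : O ≤ V) {t : R} (ht : t ∈ O)
    (hnt : ∀ a : A, (∃ o ∈ O, h55qSmall V (algebraMap A R a - t * o)) → a ∈ maximalIdeal A)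
    (hval : ∀ x ∈ V, h18yNearM O V x ∨ ∃ y ∈ O, h55qSmall V (x * (t * y) - 1))
    (n : ℕ) (hn : 0 < n) :
    ∀ x ∈ V, h18yNearM O V (x ^ n) → h18yNearM O V x := by
  intro x hx hxn
  rcases hval x hx with h | ⟨y, hy, hxy⟩
  · exact h
  · exfalso
    obtain ⟨b, hb, hsm⟩ := h55q_nearM_iff.mp hxn
    refine h55q_not_pole hOV ht hnt hx hy hxy n hn (fun _ => 0) (fun _ => O.zero_mem) b hb ?_
    simpa using hsm

/-- **Artin–Schreier roots**: the hypothesis `hAS` of `h18y_purity`. -/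
theorem h55q_hAS {O V : Subalgebra A R} (hOV : O ≤ V) {t : R} (ht : t ∈ O)
    (hnt : ∀ a : A, (∃ o ∈ O, h55qSmall V (algebraMap A R a - t * o)) → a ∈ maximalIdeal A)
    (hval : ∀ x ∈ V, h18yNearM O V x ∨ ∃ y ∈ O, h55qSmall V (x * (t * y) - 1))
    (n : ℕ) (hn : 2 ≤ n) :
    ∀ c : A, IsUnit c → ∀ u ∈ O, (∃ u' ∈ O, u * u' = 1) → ∀ x ∈ V,
      h18yNearM O V (x ^ n + c • (u * x)) → h18yNearM O V x := by
  intro c _ u hu _ x hx hxn
  rcases hval x hx with h | ⟨y, hy, hxy⟩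
  · exact h
  · exfalso
    obtain ⟨b, hb, hsm⟩ := h55q_nearM_iff.mp hxn
    refine h55q_not_pole hOV ht hnt hx hy hxy n (by omega)
      (fun i => if i = 1 then c • u else 0) (fun i => ?_) b hb ?_
    · by_cases hi : i = 1
      · simp only [hi, if_true]; exact O.smul_mem hu c
      · simp only [hi, if_false]; exact O.zero_mem
    · have e : ∑ i ∈ Finset.range n, (if i = 1 then c • u else 0) * x ^ i = c • (u * x) := by
        rw [Finset.sum_eq_single 1]
        · simp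
        · intro i _ hi
          simp [hi]
        · intro h1
          exact absurd (Finset.mem_range.mpr (by omega)) h1
      rw [e]
      exact hsm

end Integral

section Depth

variable {A : Type*} [CommRing A] [IsDomain A] [ValuationRing A]
  {R : Type*} [CommRing R] [Algebra A R]

/-- the distinguished polynomial `∏ (t - cᵢ)` of a list of centres. -/
def h55qQ (t : R) (l : List A) : R :=
  (l.map fun c => t - algebraMap A R c).prod

theorem h55qQ_nil (t : R) : h55qQ (A := A) t [] = 1 := rfl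

theorem h55qQ_cons (t : R) (c : A) (l : List A) :
    h55qQ t (c :: l) = (t - algebraMap A R c) * h55qQ t l := by
  simp [h55qQ]

theorem h55qQ_mem {O : Subalgebra A R} {t : R} (ht : t ∈ O) (l : List A) : h55qQ t l ∈ O := by
  induction l with
  | nil => rw [h55qQ_nil]; exact O.one_mem
  | cons c l ih =>
    rw [h55qQ_cons]
    exact O.mul_mem (O.sub_mem ht (O.algebraMap_mem c)) ih

/-- `Q ≡ t ^ d` modulo `𝔪_A V`. -/
theorem h55qQ_small {V : Subalgebra A R} {t : R} (ht : t ∈ V) (l : List A)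
    (hl : ∀ c ∈ l, c ∈ maximalIdeal A) : h55qSmall V (h55qQ t l - t ^ l.length) := by
  induction l with
  | nil => simpa [h55qQ_nil] using h55q_small_zero V
  | cons c l ih =>
    have hc : c ∈ maximalIdeal A := hl c (List.mem_cons_self ..)
    have ih' := ih fun c' hc' => hl c' (List.mem_cons_of_mem _ hc')
    have hQV : h55qQ t l ∈ V := by
      have := h55q_small_mem ih'
      have h2 : h55qQ t l = (h55qQ t l - t ^ l.length) + t ^ l.length := by ring
      rw [h2]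
      exact V.add_mem this (V.pow_mem ht _)
    rw [h55qQ_cons, List.length_cons]
    have e : (t - algebraMap A R c) * h55qQ t l - t ^ (l.length + 1) =
        t * (h55qQ t l - t ^ l.length) - algebraMap A R c * h55qQ t l := by ring
    rw [e]
    exact h55q_small_sub (h55q_small_mul_left ht ih')
      (h55q_small_mul_right hQV (h55q_small_algebraMap hc))

/-- `Q` is a unit of `V`. -/
theorem h55qQ_unit {V : Subalgebra A R} {t : R} (hti : ∃ t' ∈ V, t * t' = 1)
    (hVinv : ∀ m ∈ maximalIdeal A, ∀ x ∈ V, ∃ y ∈ V, (1 + m • x) * y = 1)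
    (l : List A) (hl : ∀ c ∈ l, c ∈ maximalIdeal A) : ∃ q ∈ V, h55qQ t l * q = 1 := by
  induction l with
  | nil => exact ⟨1, V.one_mem, by rw [h55qQ_nil, mul_one]⟩
  | cons c l ih =>
    obtain ⟨q, hq, hQq⟩ := ih fun c' hc' => hl c' (List.mem_cons_of_mem _ hc')
    obtain ⟨t', ht', htt'⟩ := hti
    have hc : c ∈ maximalIdeal A := hl c (List.mem_cons_self ..)
    obtain ⟨y, hy, hy1⟩ := hVinv (-c) ((maximalIdeal A).neg_mem hc) t' ht'
    refine ⟨t' * y * q, V.mul_mem (V.mul_mem ht' hy) hq, ?_⟩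
    rw [h55qQ_cons]
    have e : t - algebraMap A R c = t * (1 + (-c) • t') := by
      rw [mul_add, mul_one, mul_smul_comm, htt', Algebra.smul_def, mul_one, map_neg]
      ring
    rw [e]
    calc t * (1 + -c • t') * h55qQ t l * (t' * y * q)
        = (t * t') * ((1 + -c • t') * y) * (h55qQ t l * q) := by ring
      _ = 1 := by rw [htt', hy1, hQq]; ring

/-- **Newton interpolation**: `f = P(t) + Q · f'` with `deg P < d`. -/
theorem h55q_division {O : Subalgebra A R} {t : R}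
    (hdiv : ∀ f ∈ O, ∀ c ∈ maximalIdeal A, ∃ a : A, ∃ f₁ ∈ O,
      f = algebraMap A R a + (t - algebraMap A R c) * f₁)
    (l : List A) (hl : ∀ c ∈ l, c ∈ maximalIdeal A) :
    ∀ f ∈ O, ∃ P : A[X], (∀ i, l.length ≤ i → P.coeff i = 0) ∧ ∃ f' ∈ O,
      f = aeval t P + h55qQ t l * f' := by
  induction l with
  | nil =>
    intro f hf
    exact ⟨0, fun _ _ => coeff_zero _, f, hf, by rw [map_zero, h55qQ_nil, one_mul, zero_add]⟩
  | cons c l ih =>
    intro f hf
    have hc : c ∈ maximalIdeal A := hl c (List.mem_cons_self ..)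
    obtain ⟨a, f₁, hf₁, hfe⟩ := hdiv f hf c hc
    obtain ⟨P, hP, f', hf', hPe⟩ := ih (fun c' hc' => hl c' (List.mem_cons_of_mem _ hc')) f₁ hf₁
    refine ⟨C a + (X - C c) * P, fun i hi => ?_, f', hf', ?_⟩
    · rw [List.length_cons] at hi
      obtain ⟨i', rfl⟩ : ∃ i', i = i' + 1 := ⟨i - 1, by omega⟩
      rw [coeff_add, coeff_C_succ, zero_add, sub_mul, coeff_sub, coeff_X_mul, coeff_C_mul,
        hP i' (by omega), hP (i' + 1) (by omega)]
      ring
    · rw [hfe, hPe, h55qQ_cons, map_add, map_mul, map_sub, aeval_C, aeval_X, aeval_C]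
      ring

/-- among finitely many elements of a valuation ring one divides all the others. -/
theorem h55q_exists_dvd_all {ι : Type*} (s : Finset ι) (hs : s.Nonempty) (f : ι → A) :
    ∃ i ∈ s, ∀ j ∈ s, f i ∣ f j := by
  classical
  induction hs using Finset.Nonempty.cons_induction with
  | singleton a => exact ⟨a, Finset.mem_singleton_self a, fun j hj => by
      rw [Finset.mem_singleton.mp hj]⟩
  | cons a s ha hs ih =>
    obtain ⟨i, hi, hdiv⟩ := ih
    rcases ValuationRing.dvd_total (f a) (f i) with h | h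
    · refine ⟨a, Finset.mem_cons_self a s, fun j hj => ?_⟩
      rcases Finset.mem_cons.mp hj with rfl | hj
      · exact dvd_rfl
      · exact h.trans (hdiv j hj)
    · refine ⟨i, Finset.mem_cons.mpr (Or.inr hi), fun j hj => ?_⟩
      rcases Finset.mem_cons.mp hj with rfl | hj
      · exact h
      · exact hdiv j hj

/-- a nonzero polynomial over a valuation ring is a nonzero constant times a polynomial with a
coefficient equal to `1`. -/
theorem h55q_exists_primitive (P : A[X]) (hP : P ≠ 0) :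
    ∃ a : A, a ≠ 0 ∧ ∃ P₁ : A[X], P = C a * P₁ ∧ (∃ i, P₁.coeff i = 1) ∧
      ∀ i, P.coeff i = 0 → P₁.coeff i = 0 := by
  classical
  have hne : P.support.Nonempty := by
    rw [Finset.nonempty_iff_ne_empty, Ne, support_eq_empty]
    exact hP
  obtain ⟨i₀, hi₀, hdvd⟩ := h55q_exists_dvd_all P.support hne (fun i => P.coeff i)
  have ha0 : P.coeff i₀ ≠ 0 := mem_support_iff.mp hi₀
  have hq : ∀ i, ∃ q : A, P.coeff i = P.coeff i₀ * q ∧ (P.coeff i = 0 → q = 0) := by
    intro i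
    by_cases hi : i ∈ P.support
    · obtain ⟨q, hq⟩ := hdvd i hi
      exact ⟨q, hq, fun h0 => absurd h0 (mem_support_iff.mp hi)⟩
    · exact ⟨0, by rw [notMem_support_iff.mp hi, mul_zero], fun _ => rfl⟩
  choose q hq1 hq2 using hq
  refine ⟨P.coeff i₀, ha0, ∑ i ∈ P.support, monomial i (q i), ?_, ⟨i₀, ?_⟩, fun i hi => ?_⟩
  · rw [Finset.mul_sum]
    conv_lhs => rw [P.as_sum_support]
    refine Finset.sum_congr rfl fun i _ => ?_
    rw [C_mul_monomial, ← hq1 i]
  · rw [finsetSum_coeff, Finset.sum_eq_single i₀]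
    · rw [coeff_monomial, if_pos rfl]
      have h1 := hq1 i₀
      have h2 : P.coeff i₀ * 1 = P.coeff i₀ * q i₀ := by rw [mul_one]; exact h1
      exact (mul_left_cancel₀ ha0 h2).symm
    · intro j _ hj
      rw [coeff_monomial, if_neg hj]
    · intro h
      exact absurd hi₀ h
  · rw [finsetSum_coeff]
    refine Finset.sum_eq_zero fun j _ => ?_
    rw [coeff_monomial]
    split_ifs with hji
    · subst hji; exact hq2 j hi
    · rfl

/-- **peeling**: if `P(t) ≡ t ^ d b` modulo `𝔪_A V` with `deg P < d`, `b ∈ O`, then all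
coefficients of `P` are nonunits. -/
theorem h55q_peel {O V : Subalgebra A R} {t : R} (ht : t ∈ O)
    (hti : ∃ t' ∈ V, t * t' = 1)
    (hnt : ∀ a : A, (∃ o ∈ O, h55qSmall V (algebraMap A R a - t * o)) → a ∈ maximalIdeal A) :
    ∀ (d : ℕ) (P : A[X]), (∀ i, d ≤ i → P.coeff i = 0) → ∀ b ∈ O,
      h55qSmall V (aeval t P - t ^ d * b) → ∀ i, P.coeff i ∈ maximalIdeal A := by
  intro d
  induction d with
  | zero =>
    intro P hP b _ _ i
    rw [hP i (Nat.zero_le i)]
    exact (maximalIdeal A).zero_mem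
  | succ d ih =>
    intro P hP b hb hsm i
    obtain ⟨t', ht', htt'⟩ := hti
    have hdec : aeval t P = aeval t P.divX * t + algebraMap A R (P.coeff 0) := by
      conv_lhs => rw [← divX_mul_X_add P]
      rw [map_add, map_mul, aeval_X, aeval_C]
    have hPO : aeval t P.divX ∈ O := by
      rw [aeval_eq_sum_range]
      exact O.sum_mem fun j _ => O.smul_mem (O.pow_mem ht _) _
    set W : R := aeval t P.divX - t ^ d * b with hW
    have hWO : W ∈ O := O.sub_mem hPO (O.mul_mem (O.pow_mem ht _) hb)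
    have e1 : aeval t P - t ^ (d + 1) * b = algebraMap A R (P.coeff 0) - t * (-W) := by
      rw [hdec, hW, pow_succ]; ring
    rw [e1] at hsm
    have h0 : P.coeff 0 ∈ maximalIdeal A := hnt _ ⟨-W, O.neg_mem hWO, hsm⟩
    have h2 : h55qSmall V (t * W) := by
      have := h55q_small_sub (h55q_small_algebraMap (V := V) h0) hsm
      have e2 : algebraMap A R (P.coeff 0) - (algebraMap A R (P.coeff 0) - t * -W) =
          -(t * W) := by ring
      rw [e2] at this
      simpa using h55q_small_neg this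
    have h3 : h55qSmall V W := by
      have := h55q_small_mul_left ht' h2
      have e3 : t' * (t * W) = W := by rw [← mul_assoc, mul_comm t' t, htt', one_mul]
      rwa [e3] at this
    have h4 := ih P.divX (fun j hj => by rw [coeff_divX]; exact hP _ (by omega)) b hb h3
    rcases Nat.eq_zero_or_pos i with rfl | hi
    · exact h0
    · obtain ⟨i', rfl⟩ : ∃ i', i = i' + 1 := ⟨i - 1, by omega⟩
      have := h4 i'
      rwa [coeff_divX] at this

/-- **exact depth**: the hypothesis `hdepth` of `h18y_purity`. -/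
theorem h55q_hdepth {O V : Subalgebra A R} (hOV : O ≤ V) {t : R} (ht : t ∈ O)
    (hti : ∃ t' ∈ V, t * t' = 1)
    (hVinv : ∀ m ∈ maximalIdeal A, ∀ x ∈ V, ∃ y ∈ V, (1 + m • x) * y = 1)
    (hnt : ∀ a : A, (∃ o ∈ O, h55qSmall V (algebraMap A R a - t * o)) → a ∈ maximalIdeal A)
    (hden : ∀ G ∈ V, ∃ l : List A, (∀ c ∈ l, c ∈ maximalIdeal A) ∧ h55qQ t l * G ∈ O)
    (hdiv : ∀ f ∈ O, ∀ c ∈ maximalIdeal A, ∃ a : A, ∃ f₁ ∈ O,
      f = algebraMap A R a + (t - algebraMap A R c) * f₁) :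
    ∀ G ∈ V, G ∉ O →
      ∃ a : A, a ≠ 0 ∧ ∃ b ∈ O, ∃ r ∈ V, G = b + a • r ∧ ¬ h18yNearM O V r := by
  intro G hG hGO
  obtain ⟨l, hl, hQG⟩ := hden G hG
  obtain ⟨P, hPdeg, f', hf', hPe⟩ := h55q_division hdiv l hl _ hQG
  obtain ⟨q, hq, hQq⟩ := h55qQ_unit hti hVinv l hl
  have hQO : h55qQ t l ∈ O := h55qQ_mem ht l
  -- `G = f' + P(t) q`
  have hGe : G = f' + aeval t P * q := by
    have h1 : G = (h55qQ t l * G) * q := by
      rw [mul_comm (h55qQ t l) G, mul_assoc, hQq, mul_one]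
    rw [h1, hPe]
    have : (aeval t P + h55qQ t l * f') * q = f' * (h55qQ t l * q) + aeval t P * q := by ring
    rw [this, hQq, mul_one]
  have hP0 : P ≠ 0 := by
    rintro rfl
    apply hGO
    rw [hGe, map_zero, zero_mul, add_zero]
    exact hf'
  obtain ⟨a, ha0, P₁, hPP₁, ⟨i₀, hi₀⟩, hP₁z⟩ := h55q_exists_primitive P hP0
  have hP₁V : aeval t P₁ ∈ V := by
    rw [aeval_eq_sum_range]
    exact V.sum_mem fun j _ => V.smul_mem (V.pow_mem (hOV ht) _) _
  refine ⟨a, ha0, f', hf', aeval t P₁ * q, V.mul_mem hP₁V hq, ?_, ?_⟩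
  · rw [hGe, hPP₁, map_mul, aeval_C, Algebra.smul_def]
    ring
  · intro hnear
    obtain ⟨b, hb, hsm⟩ := h55q_nearM_iff.mp hnear
    -- multiply by `Q`
    have h1 : h55qSmall V (h55qQ t l * (aeval t P₁ * q - b)) :=
      h55q_small_mul_left (hOV hQO) hsm
    have e1 : h55qQ t l * (aeval t P₁ * q - b) = aeval t P₁ - h55qQ t l * b := by
      have : h55qQ t l * (aeval t P₁ * q - b) =
          aeval t P₁ * (h55qQ t l * q) - h55qQ t l * b := by ring
      rw [this, hQq, mul_one]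
    rw [e1] at h1
    have h2 : h55qSmall V ((h55qQ t l - t ^ l.length) * b) :=
      h55q_small_mul_right (hOV hb) (h55qQ_small (hOV ht) l hl)
    have h3 : h55qSmall V (aeval t P₁ - t ^ l.length * b) := by
      have := h55q_small_add h1 h2
      have e2 : aeval t P₁ - h55qQ t l * b + (h55qQ t l - t ^ l.length) * b =
          aeval t P₁ - t ^ l.length * b := by ring
      rwa [e2] at this
    have h4 := h55q_peel ht hti hnt l.length P₁
      (fun i hi => hP₁z i (hPdeg i hi)) b hb h3 i₀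
    rw [hi₀] at h4
    exact (maximalIdeal A).ne_top_iff_one.mp (Ideal.IsMaximal.ne_top inferInstance) h4

end Depth

section Datum

variable {A : Type*} [CommRing A] [IsDomain A] [ValuationRing A]
  {R : Type*} [CommRing R] [Algebra A R]

/-- **purity at a smooth point** from the disc axioms: the conclusion of `h18y_purity_iter`. -/
theorem h55q_purity (p : ℕ) (hp : p.Prime) (hp0 : (p : A) ≠ 0)
    {O V : Subalgebra A R} (hOV : O ≤ V) {t : R} (ht : t ∈ O)
    (hsat : ∀ a : A, a ≠ 0 → ∀ x ∈ V, a • x ∈ O → x ∈ O)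
    (hti : ∃ t' ∈ V, t * t' = 1)
    (hVinv : ∀ m ∈ maximalIdeal A, ∀ x ∈ V, ∃ y ∈ V, (1 + m • x) * y = 1)
    (hnt : ∀ a : A, (∃ o ∈ O, h55qSmall V (algebraMap A R a - t * o)) → a ∈ maximalIdeal A)
    (hval : ∀ x ∈ V, h18yNearM O V x ∨ ∃ y ∈ O, h55qSmall V (x * (t * y) - 1))
    (hden : ∀ G ∈ V, ∃ l : List A, (∀ c ∈ l, c ∈ maximalIdeal A) ∧ h55qQ t l * G ∈ O)
    (hdiv : ∀ f ∈ O, ∀ c ∈ maximalIdeal A, ∃ a : A, ∃ f₁ ∈ O,
      f = algebraMap A R a + (t - algebraMap A R c) * f₁)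
    (ϖ : A) (e : ℕ) (he : (p : A) ∣ ϖ ^ e) (n j : ℕ) :
    ∃ k : ℕ, ∀ G ∈ V, (∃ u ∈ O, (∃ u' ∈ O, u * u' = 1) ∧
        ∃ m ∈ maximalIdeal A, ∃ y ∈ V, G = u + m • y) →
      h18yNear O V (ϖ ^ k) (G ^ (p ^ n)) → h18yNear O V (ϖ ^ j) G :=
  h18y_purity_iter p hp hp0 O V hOV hsat (h55q_hroot hOV ht hnt hval p hp.pos)
    (h55q_hAS hOV ht hnt hval p hp.two_le)
    (h55q_hdepth hOV ht hti hVinv hnt hden hdiv) ϖ e he n j

/-- an element of `O` congruent modulo `𝔪_A V` to a unit of `O` is a unit of `O`. -/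
theorem h55q_unit_of_near {O V : Subalgebra A R} (hOV : O ≤ V)
    (hJ : ∀ x ∈ O, h55qSmall V x → ∃ y ∈ O, (1 + x) * y = 1)
    {g u : R} (hg : g ∈ O) (hu : u ∈ O) (hu' : ∃ u' ∈ O, u * u' = 1)
    (h : h55qSmall V (g - u)) : ∃ g' ∈ O, g * g' = 1 := by
  obtain ⟨u', hu'O, huu'⟩ := hu'
  have h1 : h55qSmall V (u' * (g - u)) := h55q_small_mul_left (hOV hu'O) h
  obtain ⟨y, hy, hy1⟩ := hJ (u' * (g - u)) (O.mul_mem hu'O (O.sub_mem hg hu)) h1
  refine ⟨u' * y, O.mul_mem hu'O hy, ?_⟩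
  have e : g = u * (1 + u' * (g - u)) := by
    have : u * (1 + u' * (g - u)) = u + (u * u') * (g - u) := by ring
    rw [this, huu']; ring
  calc g * (u' * y) = (u * (1 + u' * (g - u))) * (u' * y) := by rw [← e]
    _ = (u * u') * ((1 + u' * (g - u)) * y) := by ring
    _ = 1 := by rw [huu', hy1, one_mul]

/-- **the deep local datum at a smooth point** (abstract form).  If `w · G ^ (p ^ n) = ω` with
`ω` a unit of `O`, `G` a unit of `V` (the inverse of a local generator of `div w / p ^ n`) and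
`w ∈ 1 + ϖ ^ k V` for the `k` of purity, then `w = ω₁ · g ^ (p ^ n)` with `ω₁` a unit of `O`
and `g ∈ 1 + ϖ ^ (j + 1) V`. -/
theorem h55q_local_datum (p : ℕ) (hp : p.Prime) (hp0 : (p : A) ≠ 0)
    {O V : Subalgebra A R} (hOV : O ≤ V) {t : R} (ht : t ∈ O)
    (hsat : ∀ a : A, a ≠ 0 → ∀ x ∈ V, a • x ∈ O → x ∈ O)
    (hti : ∃ t' ∈ V, t * t' = 1)
    (hVinv : ∀ m ∈ maximalIdeal A, ∀ x ∈ V, ∃ y ∈ V, (1 + m • x) * y = 1)
    (hnt : ∀ a : A, (∃ o ∈ O, h55qSmall V (algebraMap A R a - t * o)) → a ∈ maximalIdeal A)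
    (hval : ∀ x ∈ V, h18yNearM O V x ∨ ∃ y ∈ O, h55qSmall V (x * (t * y) - 1))
    (hden : ∀ G ∈ V, ∃ l : List A, (∀ c ∈ l, c ∈ maximalIdeal A) ∧ h55qQ t l * G ∈ O)
    (hdiv : ∀ f ∈ O, ∀ c ∈ maximalIdeal A, ∃ a : A, ∃ f₁ ∈ O,
      f = algebraMap A R a + (t - algebraMap A R c) * f₁)
    (hJ : ∀ x ∈ O, h55qSmall V x → ∃ y ∈ O, (1 + x) * y = 1)
    (ϖ : A) (hϖ : ϖ ∈ maximalIdeal A) (e : ℕ) (he : (p : A) ∣ ϖ ^ e) (n j : ℕ) :
    ∃ k : ℕ, ∀ (w G G' ω ω' : R), G ∈ V → G' ∈ V → G * G' = 1 → ω ∈ O → ω' ∈ O →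
      ω * ω' = 1 → w * G ^ (p ^ n) = ω → (∃ s ∈ V, w = 1 + (ϖ ^ (k + 1)) • s) →
      ∃ g ω₁ : R, (∃ s ∈ V, g = 1 + (ϖ ^ (j + 1)) • s) ∧ ω₁ ∈ O ∧ (∃ ω₁' ∈ O, ω₁ * ω₁' = 1) ∧
        w = ω₁ * g ^ (p ^ n) := by
  obtain ⟨k, hk⟩ := h55q_purity p hp hp0 hOV ht hsat hti hVinv hnt hval hden hdiv ϖ e he n (j + 1)
  refine ⟨k, ?_⟩
  intro w G G' ω ω' hG hG' hGG' hω hω' hωω' hw ⟨s, hs, hws⟩
  have hr : 0 < p ^ n := pow_pos hp.pos n
  have hϖk : ∀ i : ℕ, ϖ ^ (i + 1) ∈ maximalIdeal A := fun i => by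
    rw [pow_succ]; exact (maximalIdeal A).mul_mem_left _ hϖ
  -- `G ^ r = ω - ϖ ^ (k+1) • (s G ^ r)`
  have hGr : G ^ (p ^ n) = ω + (ϖ ^ (k + 1)) • (-(s * G ^ (p ^ n))) := by
    rw [← hw, hws, smul_neg, Algebra.smul_def, Algebra.smul_def]
    ring
  have hGrV : -(s * G ^ (p ^ n)) ∈ V := V.neg_mem (V.mul_mem hs (V.pow_mem hG _))
  -- `G' ^ r = ω' w`
  have hG'r : G' ^ (p ^ n) = ω' + (ϖ ^ (k + 1)) • (ω' * s) := by
    have h1 : G' ^ (p ^ n) = ω' * w * (G * G') ^ (p ^ n) := by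
      rw [mul_pow, ← mul_assoc, mul_assoc ω' w, hw, mul_comm ω' ω, hωω', one_mul]
    rw [h1, hGG', one_pow, mul_one, hws, Algebra.smul_def, Algebra.smul_def]
    ring
  -- `G`, `G'` are near `O`
  have hnG : h18yNearM O V G :=
    h55q_hroot hOV ht hnt hval (p ^ n) hr G hG
      ⟨ϖ ^ (k + 1), hϖk k, ω, hω, _, hGrV, hGr⟩
  have hnG' : h18yNearM O V G' :=
    h55q_hroot hOV ht hnt hval (p ^ n) hr G' hG'
      ⟨ϖ ^ (k + 1), hϖk k, ω', hω', _, V.mul_mem (hOV hω') hs, hG'r⟩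
  obtain ⟨g₁, hg₁, hsm₁⟩ := h55q_nearM_iff.mp hnG
  obtain ⟨g₂, hg₂, hsm₂⟩ := h55q_nearM_iff.mp hnG'
  -- `g₁` is a unit of `O`
  have hg₁u : ∃ g₁' ∈ O, g₁ * g₁' = 1 := by
    have h1 : h55qSmall V (g₁ * g₂ - 1) := by
      have e : g₁ * g₂ - 1 = -(g₂ * (G - g₁)) - G * (G' - g₂) := by
        have : -(g₂ * (G - g₁)) - G * (G' - g₂) = g₁ * g₂ - G * G' := by ring
        rw [this, hGG']
      rw [e]
      exact h55q_small_sub (h55q_small_neg (h55q_small_mul_left (hOV hg₂) hsm₁))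
        (h55q_small_mul_left hG hsm₂)
    obtain ⟨y, hy, hy1⟩ := hJ (g₁ * g₂ - 1) (O.sub_mem (O.mul_mem hg₁ hg₂) O.one_mem) h1
    refine ⟨g₂ * y, O.mul_mem hg₂ hy, ?_⟩
    have e : g₁ * (g₂ * y) = (1 + (g₁ * g₂ - 1)) * y := by ring
    rw [e, hy1]
  -- purity
  have hGu : ∃ u ∈ O, (∃ u' ∈ O, u * u' = 1) ∧
      ∃ m ∈ maximalIdeal A, ∃ y ∈ V, G = u + m • y := by
    obtain ⟨m, hm, r, hr', hGe⟩ := hsm₁
    exact ⟨g₁, hg₁, hg₁u, m, hm, r, hr', by rw [← hGe]; ring⟩
  obtain ⟨g₀, hg₀, v, hv, hGe⟩ := hk G hG hGu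
    (h18y_near_of_dvd (pow_dvd_pow ϖ (Nat.le_succ k)) ⟨ω, hω, _, hGrV, hGr⟩)
  -- `g₀` is a unit of `O`
  have hg₀u : ∃ g₀' ∈ O, g₀ * g₀' = 1 := by
    refine h55q_unit_of_near hOV hJ hg₀ hg₁ hg₁u ?_
    have e : g₀ - g₁ = (G - g₁) - (ϖ ^ (j + 1)) • v := by rw [hGe]; ring
    rw [e]
    exact h55q_small_sub hsm₁ (h55q_small_smul (hϖk j) hv)
  obtain ⟨g₀', hg₀', hgg₀'⟩ := hg₀u
  refine ⟨G' * g₀, ω * g₀' ^ (p ^ n), ⟨-(G' * v), V.neg_mem (V.mul_mem hG' hv), ?_⟩,
    O.mul_mem hω (O.pow_mem hg₀' _), ⟨ω' * g₀ ^ (p ^ n),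
      O.mul_mem hω' (O.pow_mem hg₀ _), ?_⟩, ?_⟩
  · have e : g₀ = G - (ϖ ^ (j + 1)) • v := by rw [hGe]; ring
    rw [e, mul_sub, mul_comm G' G, hGG', smul_neg, mul_smul_comm]
    ring
  · calc ω * g₀' ^ (p ^ n) * (ω' * g₀ ^ (p ^ n))
        = (ω * ω') * (g₀ * g₀') ^ (p ^ n) := by rw [mul_pow]; ring
      _ = 1 := by rw [hωω', hgg₀', one_pow, mul_one]
  · have h1 : w = ω * G' ^ (p ^ n) := by
      rw [← hw, mul_assoc, ← mul_pow, hGG', one_pow, mul_one]
    calc w = ω * G' ^ (p ^ n) := h1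
      _ = ω * G' ^ (p ^ n) * (g₀ * g₀') ^ (p ^ n) := by rw [hgg₀', one_pow, mul_one]
      _ = ω * g₀' ^ (p ^ n) * (G' * g₀) ^ (p ^ n) := by rw [mul_pow, mul_pow]; ring

end Datum

end Fermat.Agent.P6
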