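import Mathlib
import Fermat.Agent.P5.H80Hensel

/-!
# S33 / B2-TOR (helper56): extraction of roots of unity from deep congruences

`K` an algebraically closed field, `A` a valuation subring of `K`, `r : ℕ`, `c ∈ 𝔪_A`.

* `h56n_exists_root` : every `1 + r² c x` (`x ∈ A`) has an `r`-th root of the form
  `1 + r c t`, `t ∈ A` (Hensel after the substitution `Y = 1 + r c T`; NO hypothesis on `r`).
* `h56n_mu_extract` : `κ ^ r = 1 + r² c x` ⟹ `κ = ζ (1 + r c t)` with `ζ ^ r = 1`, `t ∈ A`.
* `h56n_one_add_mul`, `h56n_one_add_inv`, `h56n_one_add_pow` : the group `1 + d A`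
  (`d ∈ 𝔪_A`).
* `h56n_twist_near_one` : **the cocycle step**.  If `τ` is a ring automorphism of `K`
  preserving `A` which acts on the `r`-th roots of unity by `ζ ↦ ζ ^ a`, and
  `κ ^ r = 1 + r² c x`, then `τ κ / κ ^ a ∈ 1 + r c A`: the root-of-unity part of `κ` is killed
  by `τ - a`.
-/

set_option autoImplicit false

open Polynomial IsLocalRing

namespace Fermat.Agent.P6

variable {K : Type*} [Field K]

/-- the polynomial identity behind the substitution `Y = 1 + d T`:
`(1 + d T) ^ r = 1 + r d T + d² T² k`. -/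
theorem h56n_binom {R : Type*} [CommRing R] (r : ℕ) (d : R) :
    ∃ k : R[X], (1 + C d * X) ^ r = 1 + C ((r : R) * d) * X + C (d * d) * (X ^ 2 * k) := by
  obtain ⟨k, hk⟩ := Polynomial.binomExpansion (X ^ r : R[X][X]) (1 : R[X]) (C d * X)
  refine ⟨k, ?_⟩
  have h1 : (X ^ r : R[X][X]).eval (1 + C d * X) = (1 + C d * X) ^ r := by
    rw [eval_pow, eval_X]
  have h2 : (X ^ r : R[X][X]).eval (1 : R[X]) = 1 := by
    rw [eval_pow, eval_X, one_pow]
  have h3 : (derivative (X ^ r : R[X][X])).eval (1 : R[X]) = (r : R[X]) := by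
    rw [derivative_X_pow]
    simp
  rw [h1, h2, h3] at hk
  rw [hk]
  have h4 : (C ((r : R) * d) : R[X]) = (r : R[X]) * C d := by
    rw [C_mul]
    simp
  rw [h4, C_mul]
  ring

/-- **deep `r`-th roots**: `1 + r² c x` has the `r`-th root `1 + r c t`. -/
theorem h56n_exists_root [IsAlgClosed K] (A : ValuationSubring K) (r : ℕ) (c : A)
    (hc : c ∈ maximalIdeal A) (x : A) :
    ∃ t : A, (1 + (r : A) * c * t) ^ r = 1 + (r : A) * (r : A) * c * x := by
  obtain ⟨k, hk⟩ := h56n_binom (R := A) r ((r : A) * c)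
  -- `g = T + c (r T)² k / r ... - x`, written without division
  set g : A[X] := X + C c * (X ^ 2 * k) - C x with hg
  have hgx : g.eval x ∈ maximalIdeal A := by
    have : g.eval x = c * (x ^ 2 * k.eval x) := by
      simp [hg]
    rw [this]
    exact Ideal.mul_mem_right _ _ hc
  have hg' : IsUnit (g.derivative.eval x) := by
    have h1 : g.derivative = 1 + C c * derivative (X ^ 2 * k) := by
      simp [hg]
    rw [h1]
    have h2 : (1 + C c * derivative (X ^ 2 * k)).eval x =
        1 + c * (derivative (X ^ 2 * k)).eval x := by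
      simp
    rw [h2]
    have h3 : c * (derivative (X ^ 2 * k)).eval x ∈ maximalIdeal A :=
      Ideal.mul_mem_right _ _ hc
    by_contra hnu
    have h4 : 1 + c * (derivative (X ^ 2 * k)).eval x ∈ maximalIdeal A :=
      (IsLocalRing.mem_maximalIdeal _).2 hnu
    have h5 : (1 : A) ∈ maximalIdeal A := by
      have := (maximalIdeal A).sub_mem h4 h3
      simpa using this
    exact (maximalIdeal.isMaximal A).ne_top ((Ideal.eq_top_iff_one _).2 h5)
  obtain ⟨t, ht, -⟩ := Fermat.Agent.P5.h80h_exists_root A g x hgx hg'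
  refine ⟨t, ?_⟩
  have h6 := congrArg (fun q : A[X] => q.eval t) hk
  simp only [eval_pow, eval_add, eval_one, eval_mul, eval_C, eval_X] at h6
  have h7 : t + c * (t ^ 2 * k.eval t) - x = 0 := by
    have := ht
    simpa [hg] using this
  have h8 : x = t + c * (t ^ 2 * k.eval t) := by
    have := sub_eq_zero.1 h7
    exact this.symm
  rw [h6, h8]
  ring

/-- **extraction of the root of unity**: `κ ^ r = 1 + r² c x` ⟹ `κ = ζ (1 + r c t)`. -/
theorem h56n_mu_extract [IsAlgClosed K] (A : ValuationSubring K) (r : ℕ) (c : A)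
    (hc : c ∈ maximalIdeal A) (x : A) (κ : K)
    (hκ : κ ^ r = 1 + (r : K) * (r : K) * (c : K) * (x : K)) :
    ∃ (ζ : K) (t : A), ζ ^ r = 1 ∧ κ = ζ * (1 + (r : K) * (c : K) * (t : K)) := by
  obtain ⟨t, ht⟩ := h56n_exists_root A r c hc x
  have ht' : (1 + (r : K) * (c : K) * (t : K)) ^ r =
      1 + (r : K) * (r : K) * (c : K) * (x : K) := by
    have := congrArg (fun a : A => (a : K)) ht
    simpa using this
  have hy : (1 + (r : K) * (c : K) * (t : K)) ≠ 0 := by
    intro h0
    have h1 : (1 + (r : A) * c * t) = 0 := by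
      apply Subtype.ext
      simpa using h0
    have h2 : (r : A) * c * t ∈ maximalIdeal A := by
      have : (r : A) * c * t = c * ((r : A) * t) := by ring
      rw [this]
      exact Ideal.mul_mem_right _ _ hc
    have h3 : (1 : A) ∈ maximalIdeal A := by
      have h4 : (1 : A) = -((r : A) * c * t) := by
        have := eq_neg_of_add_eq_zero_left h1
        exact this
      rw [h4]
      exact (maximalIdeal A).neg_mem h2
    exact (maximalIdeal.isMaximal A).ne_top ((Ideal.eq_top_iff_one _).2 h3)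
  refine ⟨κ / (1 + (r : K) * (c : K) * (t : K)), t, ?_, ?_⟩
  · rw [div_pow, ht', hκ]
    refine div_self ?_
    rw [← ht']
    exact pow_ne_zero _ hy
  · field_simp

/-! ### The group `1 + d A` -/

/-- powers of `1 + d t`. -/
theorem h56n_one_add_pow {R : Type*} [CommRing R] (d t : R) (a : ℕ) :
    ∃ t' : R, (1 + d * t) ^ a = 1 + d * t' := by
  induction a with
  | zero => exact ⟨0, by simp⟩
  | succ n ih =>
    obtain ⟨t', ht'⟩ := ih
    exact ⟨t' + t + d * t' * t, by rw [pow_succ, ht']; ring⟩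

/-- quotients in `1 + d A`, `d ∈ 𝔪_A`: `1 + d s' = (1 + d t) (1 + d s)`. -/
theorem h56n_one_add_div (A : ValuationSubring K) (d : A) (hd : d ∈ maximalIdeal A)
    (s' t : A) : ∃ s : A, 1 + d * s' = (1 + d * t) * (1 + d * s) := by
  have hu : IsUnit (1 + d * t) := by
    by_contra hnu
    have h4 : 1 + d * t ∈ maximalIdeal A := (IsLocalRing.mem_maximalIdeal _).2 hnu
    have h3 : d * t ∈ maximalIdeal A := Ideal.mul_mem_right _ _ hd
    have h5 : (1 : A) ∈ maximalIdeal A := by
      have := (maximalIdeal A).sub_mem h4 h3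
      simpa using this
    exact (maximalIdeal.isMaximal A).ne_top ((Ideal.eq_top_iff_one _).2 h5)
  obtain ⟨v, hv⟩ := hu.exists_right_inv
  refine ⟨(s' - t) * v, ?_⟩
  have : (1 + d * t) * (1 + d * ((s' - t) * v)) =
      1 + d * t + d * (s' - t) * ((1 + d * t) * v) := by ring
  rw [this, hv]
  ring

/-! ### The cocycle step -/

/-- **the cocycle step.**  If `τ` preserves `A` and `c A`, and acts on the `r`-th roots of unity
by `ζ ↦ ζ ^ a`, then for `κ ^ r = 1 + r² c x`: `τ κ = κ ^ a (1 + r c s)`, `s ∈ A`. -/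
theorem h56n_twist_near_one [IsAlgClosed K] (A : ValuationSubring K) (r : ℕ) (c : A)
    (hc : c ∈ maximalIdeal A) (x : A) (κ : K)
    (hκ : κ ^ r = 1 + (r : K) * (r : K) * (c : K) * (x : K))
    (τ : K →+* K) (hτA : ∀ y : K, y ∈ A → τ y ∈ A) (hτc : ∃ u : A, τ (c : K) = c * u)
    (a : ℕ) (hτμ : ∀ ζ : K, ζ ^ r = 1 → τ ζ = ζ ^ a) :
    ∃ s : A, τ κ = κ ^ a * (1 + (r : K) * (c : K) * (s : K)) := by
  obtain ⟨ζ, t, hζ, rfl⟩ := h56n_mu_extract A r c hc x κ hκ
  obtain ⟨u, hu⟩ := hτc
  set d : A := (r : A) * c with hd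
  have hdm : d ∈ maximalIdeal A := by
    rw [hd, mul_comm]
    exact Ideal.mul_mem_right _ _ hc
  -- `τ (1 + d t) = 1 + d s'`
  set s' : A := u * ⟨τ (t : K), hτA _ t.2⟩ with hs'
  have h1 : τ (1 + (r : K) * (c : K) * (t : K)) = ((1 + d * s' : A) : K) := by
    rw [map_add, map_one, map_mul, map_mul, map_natCast, hu]
    simp only [hd, hs']
    push_cast
    ring
  -- `(1 + d t) ^ a = 1 + d t''`
  obtain ⟨t'', ht''⟩ := h56n_one_add_pow d t a
  have h2 : (1 + (r : K) * (c : K) * (t : K)) ^ a = ((1 + d * t'' : A) : K) := by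
    have := congrArg (fun y : A => (y : K)) ht''
    simp only [hd] at this ⊢
    push_cast at this ⊢
    exact this
  obtain ⟨s, hs⟩ := h56n_one_add_div A d hdm s' t''
  refine ⟨s, ?_⟩
  rw [map_mul, hτμ ζ hζ, h1, mul_pow, h2, hs]
  simp only [hd]
  push_cast
  ring

end Fermat.Agent.P6
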