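import Fermat.Agent.P6.H13TorIfaceP
import Fermat.Agent.P6.H59NodeTheta
import Fermat.Agent.S35.H86TorFrob
import Fermat.Agent.LGC.Red63
import Fermat.Agent.LGC.SS85Chart
import Fermat.Agent.S13.L2Frey
import Fermat.Agent.S35.H13TorAsm

/-!
# Wave 6 (S33), block B2-TOR, leaf PERM for inertia (helper56)

`A` a valuation subring of `ℚ̄` over `ℓ`, `τ` in the inertia group of `A`, `M` a level with
`ℓ ∤ M`, `F = FF (M * ℓ)`, `W∞`, `W₀` the two Gauss valuation rings, `ssV = W∞ ∩ W₀`.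

This file is the **inertia package** consumed by the deep node theorem `h59n_node_theta`
(helper59) and by the assembly of TOR-GATE-p: every hypothesis on the automorphism `τ` of
`S35.TorNodeStatement` / `h59n_node_theta`, with the square of a Frobenius replaced by an
element of the inertia group (and `q = 1`).

* `h56pTau N τ : FF N ≃+* FF N`, `h56pTheta A hτ : A →+* A` : the automorphism and its
  restriction to the constants; `h56p_tau_algebraMap` (`hτθ`).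
* `h56p_theta_sub_mem` : `θ a - a ∈ 𝔪_A`;  `h56p_theta_dvd` : `c ∣ θ c` (`hθc`);
  `h56p_theta_root` : `θ η = η ^ a` on the `p ^ k`-th roots of unity (`hθζ`, from `H11Cyc`);
  `h56p_exists_primitiveRoot` : primitive roots of unity in `A`.
* `h56p_tau_mem_Winf`, `h56p_tau_mem_W0`, `h56p_tau_mem_ssV` (`hτinf`, `hτ0`).
* `h56p_perm_fin`, `h56p_perm_inf` : **PERM**: `τ` respects the places centered at a closed
  point of the special fibre of the finite chart / the chart at infinity (`hperm`; ALL closed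
  points, no node hypothesis).
* `h56p_tau_h26U`, `h56p_theta_h26U` : `τ` and `Θ = τ(·) / (·) ^ a` preserve `1 + π ssV`.
* `h56p_ord_theta`, `h56p_chartVal_theta` : the divisor of `Θ(w)` is divisible by `r` if the
  divisor of `w` is.
* `h56p_node_datum` : **the level form of `h59n_node_theta`**: at a node `𝔫` of the finite
  chart, a deep normal form of `u` gives the local datum `h13qDatumAt` of the deep gate for
  `Θ(u) = h11Theta (M * p) τ a u`.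
-/

set_option autoImplicit false
set_option linter.unusedSectionVars false
set_option linter.unusedVariables false
set_option linter.style.haveILetI false

open AlgebraicCurve ModularCurve WithZero IsLocalRing

noncomputable section

namespace Fermat.Agent.P6

open Fermat.Agent.S37 Fermat.Agent.Red Fermat.Agent.Red.GG Fermat.Agent.Red.GV
  Fermat.Agent.Red.ModelO Fermat.Agent.Red.Kron Fermat.Agent.LGC Fermat.Agent.S35

/-! ## The automorphism and the constants -/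

/-- the Galois action of `τ` on the function field, as a ring automorphism. -/
def h56pTau (N : ℕ) (τ : GQ) : FF N ≃+* FF N := SemilinearAut.toRingAut (gal N τ)

theorem h56p_tau_apply (N : ℕ) (τ : GQ) (x : FF N) : h56pTau N τ x = gal N τ • x := rfl

section Const

variable (A : ValuationSubring Kbar)

/-- the action of an inertia element on the constants of `A`. -/
def h56pTheta {τ : GQ} (hτ : τ ∈ A.inertiaSubgroupIn ℚ) : A →+* A :=
  decompA A τ (mem_decomp_of_mem_inertia A hτ)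

theorem h56p_coe_theta {τ : GQ} (hτ : τ ∈ A.inertiaSubgroupIn ℚ) (a : A) :
    ((h56pTheta A hτ a : A) : Kbar) = τ (a : Kbar) := rfl

/-- **hτθ**: `τ` on the constants. -/
theorem h56p_tau_algebraMap (N : ℕ) {τ : GQ} (hτ : τ ∈ A.inertiaSubgroupIn ℚ) (a : A) :
    h56pTau N τ (algebraMap A (FF N) a) = algebraMap A (FF N) (h56pTheta A hτ a) := by
  have h1 : algebraMap A (FF N) a = cst N (a : Kbar) := rfl
  have h2 : algebraMap A (FF N) (h56pTheta A hτ a) = cst N (τ (a : Kbar)) := rfl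
  rw [h1, h2, h56p_tau_apply]
  exact GalI.gal_smul_cst τ (a : Kbar)

/-- inertia acts trivially modulo `𝔪_A`. -/
theorem h56p_theta_sub_mem {τ : GQ} (hτ : τ ∈ A.inertiaSubgroupIn ℚ) (a : A) :
    h56pTheta A hτ a - a ∈ maximalIdeal A := by
  have h := (Fermat.Agent.S05.H86.inertia_apply_mem A hτ a.2).2
  have e : ((h56pTheta A hτ a - a : A) : Kbar) = τ (a : Kbar) - (a : Kbar) := rfl
  rw [GG.mem_maximalIdeal_iff, e]
  exact h

/-- the shape of the hypothesis on the constants of `S35.TorNodeStatement` with `q = 1`. -/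
theorem h56p_tau_const (N : ℕ) {τ : GQ} (hτ : τ ∈ A.inertiaSubgroupIn ℚ) (a : A) :
    ∃ a' : A, h56pTau N τ (algebraMap A (FF N) a) = algebraMap A (FF N) a' ∧
      a' - a ^ 1 ∈ maximalIdeal A := by
  refine ⟨h56pTheta A hτ a, h56p_tau_algebraMap A N hτ a, ?_⟩
  rw [pow_one]
  exact h56p_theta_sub_mem A hτ a

/-- **hθc**: inertia preserves the valuation: `c ∣ θ c`. -/
theorem h56p_theta_dvd {q : ℕ} (hq : q.Prime) (hA : A.LiesOverPrime q) {τ : GQ}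
    (hτ : τ ∈ A.inertiaSubgroupIn ℚ) (c : A) : c ∣ h56pTheta A hτ c := by
  rcases eq_or_ne c 0 with rfl | hc
  · rw [map_zero]
  have hc0 : (c : Kbar) ≠ 0 := fun h => hc (Subtype.ext h)
  have hv := Fermat.Agent.S13.L2.inertia_valuation_eq A hq hA hτ (c : Kbar)
  have hmem : τ (c : Kbar) * (c : Kbar)⁻¹ ∈ A := by
    rw [← A.valuation_le_one_iff, map_mul, map_inv₀, hv]
    rw [mul_inv_cancel₀ ((Valuation.ne_zero_iff _).mpr hc0)]
  refine ⟨⟨_, hmem⟩, ?_⟩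
  apply Subtype.ext
  show τ (c : Kbar) = (c : Kbar) * (τ (c : Kbar) * (c : Kbar)⁻¹)
  field_simp

/-- the reverse divisibility: `θ c ∣ c`. -/
theorem h56p_dvd_theta {q : ℕ} (hq : q.Prime) (hA : A.LiesOverPrime q) {τ : GQ}
    (hτ : τ ∈ A.inertiaSubgroupIn ℚ) (c : A) : h56pTheta A hτ c ∣ c := by
  rcases eq_or_ne c 0 with rfl | hc
  · exact dvd_zero _
  have hc0 : (c : Kbar) ≠ 0 := fun h => hc (Subtype.ext h)
  have hτc0 : τ (c : Kbar) ≠ 0 := (map_ne_zero τ).mpr hc0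
  have hv := Fermat.Agent.S13.L2.inertia_valuation_eq A hq hA hτ (c : Kbar)
  have hmem : (c : Kbar) * (τ (c : Kbar))⁻¹ ∈ A := by
    rw [← A.valuation_le_one_iff, map_mul, map_inv₀, hv]
    rw [mul_inv_cancel₀ ((Valuation.ne_zero_iff _).mpr hc0)]
  refine ⟨⟨_, hmem⟩, ?_⟩
  apply Subtype.ext
  show (c : Kbar) = τ (c : Kbar) * ((c : Kbar) * (τ (c : Kbar))⁻¹)
  field_simp

/-- **hθζ**: `τ` acts on the `p ^ k`-th roots of unity of `A` by the exponent `a`. -/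
theorem h56p_theta_root {τ : GQ} (hτ : τ ∈ A.inertiaSubgroupIn ℚ) {p k a : ℕ}
    (hcyc : H11Cyc p k τ a) (η : A) (hη : η ^ (p ^ k) = 1) :
    h56pTheta A hτ η = η ^ a := by
  apply Subtype.ext
  have h1 : ((η : A) : Kbar) ^ (p ^ k) = 1 := by
    have := congrArg (fun x : A => (x : Kbar)) hη
    simpa using this
  have h2 := hcyc (η : Kbar) h1
  rw [h56p_coe_theta, h2]
  rfl

/-- roots of unity are in `A`. -/
theorem h56p_root_mem (r : ℕ) (hr : 0 < r) (ζ : Kbar) (hζ : ζ ^ r = 1) : ζ ∈ A := by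
  rcases A.mem_or_inv_mem ζ with h | h
  · exact h
  · have e : ζ = (ζ⁻¹) ^ (r - 1) := by
      have hζ0 : ζ ≠ 0 := by
        rintro rfl
        rw [zero_pow hr.ne'] at hζ
        exact zero_ne_one hζ
      have h1 : ζ * ζ ^ (r - 1) = 1 := by
        rw [← pow_succ', Nat.sub_add_cancel hr, hζ]
      rw [inv_pow]
      exact (eq_inv_of_mul_eq_one_left h1)
    rw [e]
    exact pow_mem h _

/-- primitive roots of unity in `A`. -/
theorem h56p_exists_primitiveRoot (r : ℕ) (hr : 0 < r) : ∃ ζ : A, IsPrimitiveRoot ζ r := by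
  haveI : NeZero r := ⟨hr.ne'⟩
  haveI : NeZero ((r : ℕ) : Kbar) := ⟨by exact_mod_cast hr.ne'⟩
  obtain ⟨ζ, hζ⟩ := HasEnoughRootsOfUnity.exists_primitiveRoot Kbar r
  have hmem : ζ ∈ A := h56p_root_mem A r hr ζ hζ.pow_eq_one
  refine ⟨⟨ζ, hmem⟩, ?_⟩
  have hζ' : IsPrimitiveRoot (A.subtype ⟨ζ, hmem⟩) r := hζ
  exact IsPrimitiveRoot.of_map_of_injective (f := A.subtype) hζ' Subtype.val_injective

end Const

/-! ## The two Gauss rings, PERM, and the twisted difference -/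

section Level

variable (A : ValuationSubring Kbar) (M : ℕ) {ℓ : ℕ} [NeZero M] [NeZero ℓ]
  (hℓ : ℓ.Prime) (hM : ¬ ℓ ∣ M) (hA : A.LiesOverPrime ℓ)

/-- **hτinf**: inertia preserves `W∞`. -/
theorem h56p_tau_mem_Winf {τ : GQ} (hτ : τ ∈ A.inertiaSubgroupIn ℚ) (x : FF (M * ℓ))
    (hx : x ∈ (h85cWinf A M ℓ hℓ hA).toSubring) :
    h56pTau (M * ℓ) τ x ∈ (h85cWinf A M ℓ hℓ hA).toSubring :=
  h86t_gal_mem_Winf A M ℓ hℓ hA (mem_decomp_of_mem_inertia A hτ) hx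

/-- **hτ0**: inertia preserves `W₀`. -/
theorem h56p_tau_mem_W0 {τ : GQ} (hτ : τ ∈ A.inertiaSubgroupIn ℚ) (x : FF (M * ℓ))
    (hx : x ∈ (h85cW0 A M ℓ hℓ hM hA).toSubring) :
    h56pTau (M * ℓ) τ x ∈ (h85cW0 A M ℓ hℓ hM hA).toSubring :=
  h86t_gal_mem_W0 A M ℓ hℓ hM hA (mem_decomp_of_mem_inertia A hτ) hx

include hℓ hM hA in
/-- inertia preserves `ssV`. -/
theorem h56p_tau_mem_ssV {τ : GQ} (hτ : τ ∈ A.inertiaSubgroupIn ℚ) (x : FF (M * ℓ))
    (hx : x ∈ ssV A M ℓ) : h56pTau (M * ℓ) τ x ∈ ssV A M ℓ :=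
  h85c_hWV A M ℓ hℓ hM hA _
    (h56p_tau_mem_Winf A M hℓ hA hτ x (h85c_ssV_le_Winf A M ℓ hℓ hA hx))
    (h56p_tau_mem_W0 A M hℓ hM hA hτ x (h85c_ssV_le_W0 A M ℓ hℓ hM hA hx))

include hℓ hM hA in
/-- inertia acts trivially on `ssV` modulo `𝔪_A`. -/
theorem h56p_tau_sub_ssV {τ : GQ} (hτ : τ ∈ A.inertiaSubgroupIn ℚ) {x : FF (M * ℓ)}
    (hx : x ∈ ssV A M ℓ) :
    ∃ π : A, π ∈ maximalIdeal A ∧ π ≠ 0 ∧ ∃ z ∈ ssV A M ℓ,
      h56pTau (M * ℓ) τ x - x = algebraMap A (FF (M * ℓ)) π * z :=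
  h63r_inertia_sub hℓ hM hA hτ hx

include hℓ hM hA in
/-- **PERM, finite chart**: an inertia element respects the places centered at a closed point
of the special fibre (every closed point; no node hypothesis is needed for inertia). -/
theorem h56p_perm_fin {τ : GQ} (hτ : τ ∈ A.inertiaSubgroupIn ℚ)
    (𝔫 : Ideal (chart (M * ℓ) A (jSS M ℓ))) (h𝔫 : 𝔫.IsMaximal)
    (hm : mExt A M ℓ (jSS M ℓ) ≤ 𝔫) :
    ∀ h : FF (M * ℓ),
      (∀ k, h26Centered (chart (M * ℓ) A (jSS M ℓ)) (chartVal (M * ℓ) (jSS M ℓ)) 𝔫 k →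
        chartVal (M * ℓ) (jSS M ℓ) k h = 1) →
      ∀ k, h26Centered (chart (M * ℓ) A (jSS M ℓ)) (chartVal (M * ℓ) (jSS M ℓ)) 𝔫 k →
        chartVal (M * ℓ) (jSS M ℓ) k (h56pTau (M * ℓ) τ h) = 1 :=
  ifaceSSPerm_of_chart hℓ hM hA (h85s_ifaceSSChart_fin A M ℓ hℓ hM hA) τ hτ 𝔫 h𝔫 hm

include hℓ hM hA in
/-- **PERM, chart at infinity.** -/
theorem h56p_perm_inf {τ : GQ} (hτ : τ ∈ A.inertiaSubgroupIn ℚ)
    (𝔫 : Ideal (chart (M * ℓ) A (jSS M ℓ)⁻¹)) (h𝔫 : 𝔫.IsMaximal)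
    (hm : mExt A M ℓ (jSS M ℓ)⁻¹ ≤ 𝔫) :
    ∀ h : FF (M * ℓ),
      (∀ k, h26Centered (chart (M * ℓ) A (jSS M ℓ)⁻¹) (chartVal (M * ℓ) (jSS M ℓ)⁻¹) 𝔫 k →
        chartVal (M * ℓ) (jSS M ℓ)⁻¹ k h = 1) →
      ∀ k, h26Centered (chart (M * ℓ) A (jSS M ℓ)⁻¹) (chartVal (M * ℓ) (jSS M ℓ)⁻¹) 𝔫 k →
        chartVal (M * ℓ) (jSS M ℓ)⁻¹ k (h56pTau (M * ℓ) τ h) = 1 :=
  ifaceSSPerm_inv_of_chart hℓ hM hA (h85s_ifaceSSChart_inf A M ℓ hℓ hM hA) τ hτ 𝔫 h𝔫 hm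

include hℓ hM hA in
/-- the constants are in `ssV`. -/
theorem h56p_cst_mem_ssV (a : A) : algebraMap A (FF (M * ℓ)) a ∈ ssV A M ℓ :=
  (h85s_ifaceSSChart_fin A M ℓ hℓ hM hA).hBV _
    ((chart (M * ℓ) A (jSS M ℓ)).algebraMap_mem a)

include hℓ hM hA in
/-- inertia preserves `1 + π ssV` (every `π`). -/
theorem h56p_tau_h26U {τ : GQ} (hτ : τ ∈ A.inertiaSubgroupIn ℚ) (π : A) {w : FF (M * ℓ)}
    (hw : w ∈ h26U π (ssV A M ℓ)) : h56pTau (M * ℓ) τ w ∈ h26U π (ssV A M ℓ) := by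
  obtain ⟨x, hx, rfl⟩ := hw
  obtain ⟨q, hq⟩ := h56p_theta_dvd A hℓ hA hτ π
  refine ⟨algebraMap A (FF (M * ℓ)) q * h56pTau (M * ℓ) τ x,
    (ssV A M ℓ).mul_mem (h56p_cst_mem_ssV A M hℓ hM hA q)
      (h56p_tau_mem_ssV A M hℓ hM hA hτ x hx), ?_⟩
  rw [map_add, map_one, map_mul, h56p_tau_algebraMap A (M * ℓ) hτ π, hq, map_mul]
  ring

include hℓ hM hA in
/-- **the twisted difference preserves `1 + π ssV`**, `π ∈ 𝔪_A`. -/
theorem h56p_theta_h26U {τ : GQ} (hτ : τ ∈ A.inertiaSubgroupIn ℚ) (a : ℕ) (π : A)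
    (hπ : π ∈ maximalIdeal A) {w : FF (M * ℓ)} (hw : w ∈ h26U π (ssV A M ℓ)) :
    h11Theta (M * ℓ) τ a w ∈ h26U π (ssV A M ℓ) := by
  have hC₀ := h85s_ifaceSSChart_fin A M ℓ hℓ hM hA
  have hNt := h85s_ifaceSSNt A M ℓ hℓ hM hA
  have hπV := h56p_cst_mem_ssV A M hℓ hM hA π
  have h1 : h11Theta (M * ℓ) τ a w = h56pTau (M * ℓ) τ w * (w ^ a)⁻¹ := by
    rw [h11Theta, div_eq_mul_inv, h56p_tau_apply]
  rw [h1]
  exact h26U_mul hπV (h56p_tau_h26U A M hℓ hM hA hτ π hw)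
    (h26U_inv (hC₀.hVunit π hπ) (hNt π hπ) (h26U_pow hπV hw a))

/-- the divisor of `Θ(w) = τ w / w ^ a` is divisible by `r` if the divisor of `w` is. -/
theorem h56p_ord_theta (N : ℕ) (τ : GQ) (r a : ℕ) (w : FF N) (hw0 : w ≠ 0)
    (hord : ∀ v : Place Kbar (FF N), (r : ℤ) ∣ v.ord w) (v : Place Kbar (FF N)) :
    (r : ℤ) ∣ v.ord (h11Theta N τ a w) := by
  have h1 := h63_gal_ne_zero N τ hw0
  rw [h11Theta, div_eq_mul_inv, v.ord_mul h1 (inv_ne_zero (pow_ne_zero _ hw0)), v.ord_inv,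
    ← zpow_natCast, v.ord_zpow]
  exact dvd_add (h63_dvd_ord_gal N τ r w hord v)
    (Dvd.dvd.neg_right (Dvd.dvd.mul_left (hord v) _))

/-- `Θ(w) ≠ 0`. -/
theorem h56p_theta_ne_zero (N : ℕ) (τ : GQ) (a : ℕ) (w : FF N) (hw0 : w ≠ 0) :
    h11Theta N τ a w ≠ 0 := by
  rw [h11Theta]
  exact div_ne_zero (h63_gal_ne_zero N τ hw0) (pow_ne_zero _ hw0)

/-- the valuations of `Θ(w)` at the places of a chart, in the shape consumed by the gate. -/
theorem h56p_chartVal_theta (N : ℕ) [NeZero N] (t : FF N) (τ : GQ) (r a : ℕ) (w : FF N)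
    (hw0 : w ≠ 0) (hord : ∀ v : Place Kbar (FF N), (r : ℤ) ∣ v.ord w) :
    ∀ i, ∃ n : ℤ, chartVal N t i (h11Theta N τ a w) = exp (-((r : ℤ) * n)) :=
  exists_val_eq N t (h11Theta N τ a w) (h56p_theta_ne_zero N τ a w hw0) r
    (h56p_ord_theta N τ r a w hw0 hord)

end Level

/-! ## The deep twisted datum at a node, level form -/

section Node

variable (A : ValuationSubring Kbar) (M : ℕ) {ℓ : ℕ} [NeZero M] [NeZero ℓ]
  (hℓ : ℓ.Prime) (hM : ¬ ℓ ∣ M) (hA : A.LiesOverPrime ℓ)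

/-- **the level form of `h59n_node_theta`** (any exponent `r > 0`): at a closed point `𝔫` of the
special fibre of the finite chart, a deep normal form of `u` (exponent `r`, depth `c ∈ 𝔪_A`)
gives the local datum of the deep gate for `Θ(u) = τ u / u ^ a`, `τ` in the inertia group acting
on the `r`-th roots of unity by the exponent `a`. -/
theorem h56p_node_datum_gen {τ : GQ} (hτ : τ ∈ A.inertiaSubgroupIn ℚ) (r a : ℕ) (hr : 0 < r)
    (hcyc : ∀ ζ : Kbar, ζ ^ r = 1 → τ ζ = ζ ^ a)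
    (𝔫 : Ideal (chart (M * ℓ) A (jSS M ℓ))) (h𝔫 : 𝔫.IsMaximal)
    (hm : mExt A M ℓ (jSS M ℓ) ≤ 𝔫)
    (c : A) (hc : c ∈ maximalIdeal A) (hc0 : c ≠ 0) (u : FF (M * ℓ)) (hu : u ≠ 0)
    (hNF : H59nNormalDeep (chart (M * ℓ) A (jSS M ℓ)) (ssV A M ℓ)
      (chartVal (M * ℓ) (jSS M ℓ)) (h85cWinf A M ℓ hℓ hA).toSubring
      (h85cW0 A M ℓ hℓ hM hA).toSubring 𝔫 u r c) :
    h13qDatumAt (M * ℓ) A (jSS M ℓ) (ssV A M ℓ) c (h11Theta (M * ℓ) τ a u) r 𝔫 := by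
  haveI h𝔫p : 𝔫.IsPrime := h𝔫.isPrime
  obtain ⟨ζ, hζ⟩ := h56p_exists_primitiveRoot A r hr
  have hθζ : ∀ η : A, η ^ r = 1 → h56pTheta A hτ η = η ^ a := by
    intro η hη
    apply Subtype.ext
    have h1 : ((η : A) : Kbar) ^ r = 1 := by
      have := congrArg (fun x : A => (x : Kbar)) hη
      simpa using this
    rw [h56p_coe_theta, hcyc _ h1]
    rfl
  have key := h59n_node_theta (h85s_ifaceSSChart_fin A M ℓ hℓ hM hA)
    (algebraMap_injective_FF (M * ℓ) A)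
    (h85cWinf A M ℓ hℓ hA).toSubring (h85cW0 A M ℓ hℓ hM hA).toSubring
    (fun x hx => h85c_ssV_le_Winf A M ℓ hℓ hA hx)
    (fun x hx => h85c_ssV_le_W0 A M ℓ hℓ hM hA hx)
    (h85c_hWV A M ℓ hℓ hM hA)
    (fun π hπ x hx => h86t_Winf_unit A M ℓ hℓ hA π hπ x hx)
    (fun π hπ x hx => h86t_W0_unit A M ℓ hℓ hM hA π hπ x hx)
    (fun π hπ x hx => h86t_Winf_nt A M ℓ hℓ hA π hπ x hx)
    (fun π hπ x hx => h86t_W0_nt A M ℓ hℓ hM hA π hπ x hx)
    𝔫 (h56pTau (M * ℓ) τ) (h56pTheta A hτ) (h56p_tau_algebraMap A (M * ℓ) hτ) a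
    (h56p_tau_mem_Winf A M hℓ hA hτ) (h56p_tau_mem_W0 A M hℓ hM hA hτ)
    (h56p_perm_fin A M hℓ hM hA hτ 𝔫 h𝔫 hm)
    r hr hζ hθζ c hc hc0 (h56p_theta_dvd A hℓ hA hτ c) u hu hNF
  obtain ⟨g, hg, s, hs, h1, h2⟩ := key
  have e : h11Theta (M * ℓ) τ a u = h56pTau (M * ℓ) τ u * (u ^ a)⁻¹ := by
    rw [h11Theta, div_eq_mul_inv, h56p_tau_apply]
  refine ⟨g, hg, s, hs, ?_, ?_⟩
  · rw [e]; exact h1
  · rw [e]; exact h2

/-- the level form of `h59n_node_theta` for `r = p ^ k` and `H11Cyc`. -/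
theorem h56p_node_datum {τ : GQ} (hτ : τ ∈ A.inertiaSubgroupIn ℚ) (k a : ℕ)
    (hcyc : H11Cyc ℓ k τ a)
    (𝔫 : Ideal (chart (M * ℓ) A (jSS M ℓ))) (h𝔫 : 𝔫.IsMaximal)
    (hm : mExt A M ℓ (jSS M ℓ) ≤ 𝔫)
    (c : A) (hc : c ∈ maximalIdeal A) (hc0 : c ≠ 0) (u : FF (M * ℓ)) (hu : u ≠ 0)
    (hNF : H59nNormalDeep (chart (M * ℓ) A (jSS M ℓ)) (ssV A M ℓ)
      (chartVal (M * ℓ) (jSS M ℓ)) (h85cWinf A M ℓ hℓ hA).toSubring
      (h85cW0 A M ℓ hℓ hM hA).toSubring 𝔫 u (ℓ ^ k) c) :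
    h13qDatumAt (M * ℓ) A (jSS M ℓ) (ssV A M ℓ) c (h11Theta (M * ℓ) τ a u) (ℓ ^ k) 𝔫 :=
  h56p_node_datum_gen A M hℓ hM hA hτ (ℓ ^ k) a (pow_pos hℓ.pos k) hcyc 𝔫 h𝔫 hm c hc hc0 u hu
    hNF

end Node

/-! ## Reduction of the frozen leaf `H13qNode` to the deep normal form at the nodes -/

/-- **NODE-NF, level form** (the only remaining input of T3): there is a constant `c₀ ≠ 0`
such that every `w ≡ 1` modulo `c₀ π · ssV` whose divisor is divisible by `p ^ k` has, at every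
node of the finite chart, a deep normal form of exponent `p ^ k` and depth `p ^ k · π`. -/
def H56pNodeNF : Prop :=
  ∀ (p : ℕ) (hp : p.Prime), p ≠ 2 → ∀ (M : ℕ) [NeZero M] (hM : ¬ p ∣ M), auxLevel p ∣ M →
    haveI : NeZero p := ⟨hp.ne_zero⟩
    ∀ (A : ValuationSubring Kbar) (hA : A.LiesOverPrime p), ∀ k : ℕ,
    ∃ c₀ : A, c₀ ≠ 0 ∧
    ∀ 𝔫 : Ideal (chart (M * p) A (jSS M p)), 𝔫.IsMaximal → mExt A M p (jSS M p) ≤ 𝔫 →
      TorNodeAt A M p hp hM hA (jSS M p) 𝔫 →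
    ∀ π : A, π ∈ maximalIdeal A → π ≠ 0 →
    ∀ w : FF (M * p), w ∈ h26U (c₀ * π) (ssV A M p) →
      (∀ i, ∃ n : ℤ, chartVal (M * p) (jSS M p) i w = exp (-(((p ^ k : ℕ) : ℤ) * n))) →
      H59nNormalDeep (chart (M * p) A (jSS M p)) (ssV A M p) (chartVal (M * p) (jSS M p))
        (h85cWinf A M p hp hA).toSubring (h85cW0 A M p hp hM hA).toSubring 𝔫 w (p ^ k)
        (((p ^ k : ℕ) : A) * π)

/-- **T3 from the deep normal form**: `H56pNodeNF → H13qNode` (PERM for inertia + the cocycle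
computation `h59n_node_theta`). -/
theorem h56p_node_of_nf (h : H56pNodeNF) : H13qNode := by
  intro p hp hp2 M _ hM haux
  haveI : NeZero p := ⟨hp.ne_zero⟩
  intro A hA k
  obtain ⟨c₀, hc₀, hNF⟩ := h p hp hp2 M hM haux A hA k
  refine ⟨c₀, hc₀, ?_⟩
  intro 𝔫 h𝔫 hm hnode τ hτ a hcyc π hπ hπ0 w hw hval
  have hrA : ((p ^ k : ℕ) : A) ≠ 0 := by
    intro h0
    have h1 : ((((p ^ k : ℕ) : A)) : Kbar) = 0 := by rw [h0]; rfl
    have h2 : ((p ^ k : ℕ) : Kbar) = 0 := by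
      rw [← h1]
      norm_cast
    exact (pow_pos hp.pos k).ne' (by exact_mod_cast h2)
  have hc : ((p ^ k : ℕ) : A) * π ∈ maximalIdeal A := Ideal.mul_mem_left _ _ hπ
  have hc0 : ((p ^ k : ℕ) : A) * π ≠ 0 := mul_ne_zero hrA hπ0
  have hw0 : w ≠ 0 := by
    have hcπ : c₀ * π ∈ maximalIdeal A := Ideal.mul_mem_left _ _ hπ
    exact h26U_ne_zero (h85s_ifaceSSNt A M p hp hM hA (c₀ * π) hcπ) hw
  exact h56p_node_datum A M hp hM hA hτ k a hcyc 𝔫 h𝔫 hm _ hc hc0 w hw0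
    (hNF 𝔫 h𝔫 hm hnode π hπ hπ0 w hw hval)

end Fermat.Agent.P6
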