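import Fermat.Agent.P6.H58Max
import Fermat.Prelude.Def_ModularForm_HeckeOperatorForms

/-!
# S33 (wave 6), block B5 (G1), analytic input (helper58): `|λ| < p + 1`

Mathlib + Prelude only.  Elementary (maximum principle; no Weil bound, no Petersson integral).

For a cusp form `f ≠ 0` of weight `2` on `Γ₀(N)`, `p ∤ N`, with `T_p f = λ f`:
`φ(τ) = im τ · ‖f τ‖` is `Γ₀(N)`-invariant and attains its maximum `M > 0` at some `τ₀`
(`h58b_exists_max_petersson`).  The formula for `T_p` gives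
`‖λ‖ φ(τ) ≤ ∑_{j < p} φ((τ + j) / p) + φ(p τ)`, so `‖λ‖ ≥ p + 1` forces `φ(p τ₀) = M`, and by
induction `φ(pⁿ τ₀) = M` for all `n`, against the decay of `f` at `i∞`.

* `h58b_ineq` : the sub-mean-value inequality.
* `h58b_norm_lt` : `‖λ‖ < p + 1`.
* `h58b_heckeT_sub_injective`, `h58b_heckeT_add_injective` : `T_p ∓ (p + 1)` are injective on
  `S₂(Γ₀(N))`.
* `h58b_delta_injective` : `T_p² - (p + 1)²` is injective on `S₂(Γ₀(N))`.
-/

set_option autoImplicit false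
set_option linter.style.haveILetI false

open Filter Topology

open UpperHalfPlane hiding I

open scoped Modular MatrixGroups ModularForm

namespace Fermat.Agent.P6

/-- `φ(τ) = im τ · ‖f τ‖`. -/
noncomputable def h58bPhi (f : ℍ → ℂ) (τ : ℍ) : ℝ := τ.im * ‖f τ‖

theorem h58bPhi_nonneg (f : ℍ → ℂ) (τ : ℍ) : 0 ≤ h58bPhi f τ :=
  mul_nonneg τ.im_pos.le (norm_nonneg _)

theorem h58bPhi_sq (f : ℍ → ℂ) (τ : ℍ) : h58bPhi f τ ^ 2 = ‖petersson 2 f f τ‖ := by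
  rw [petersson, norm_mul, norm_mul, h58bPhi, mul_pow]
  simp only [RCLike.norm_conj, norm_zpow, Complex.norm_real, Real.norm_eq_abs,
    abs_of_pos τ.im_pos]
  rw [mul_comm, pow_two ‖f τ‖]
  norm_cast

theorem h58b_im_heckeMatrix {p : ℕ} (hp : p ≠ 0) (j : ℕ) (τ : ℍ) :
    (ModularForm.heckeMatrix p j • τ).im = τ.im / p := by
  have h := congrArg Complex.im (ModularForm.coe_heckeMatrix_smul hp j τ)
  rw [UpperHalfPlane.coe_im] at h
  rw [h, Complex.div_natCast_im, Complex.add_im, Complex.natCast_im, add_zero,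
    UpperHalfPlane.coe_im]

theorem h58b_im_heckeDiagMatrix {p : ℕ} (hp : p ≠ 0) (τ : ℍ) :
    (ModularForm.heckeDiagMatrix p • τ).im = p * τ.im := by
  have h := congrArg Complex.im (ModularForm.coe_heckeDiagMatrix_smul hp τ)
  rw [UpperHalfPlane.coe_im] at h
  rw [h, Complex.mul_im, Complex.natCast_re, Complex.natCast_im, zero_mul, add_zero,
    UpperHalfPlane.coe_im]

/-- **the sub-mean-value inequality.** -/
theorem h58b_ineq {p : ℕ} (hp : p ≠ 0) (f : ℍ → ℂ) (lam : ℂ)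
    (h : ∀ τ, ModularForm.heckeT 2 p f τ = lam * f τ) (τ : ℍ) :
    ‖lam‖ * h58bPhi f τ ≤
      ∑ j ∈ Finset.range p, h58bPhi f (ModularForm.heckeMatrix p j • τ) +
        h58bPhi f (ModularForm.heckeDiagMatrix p • τ) := by
  have hp' : (0 : ℝ) < p := by exact_mod_cast Nat.pos_of_ne_zero hp
  have h1 := h τ
  rw [ModularForm.heckeT_apply 2 hp f τ] at h1
  have h2 : ‖lam‖ * ‖f τ‖ ≤ (p : ℝ)⁻¹ * ∑ j ∈ Finset.range p,
      ‖f (ModularForm.heckeMatrix p j • τ)‖ + p * ‖f (ModularForm.heckeDiagMatrix p • τ)‖ := by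
    rw [← norm_mul, ← h1]
    refine (norm_add_le _ _).trans ?_
    rw [norm_mul, norm_mul, norm_inv, Complex.norm_natCast]
    have h3 : ‖((p : ℂ) ^ ((2 : ℤ) - 1))‖ = p := by
      norm_num
    rw [h3]
    gcongr
    exact norm_sum_le _ _
  have h4 : ‖lam‖ * h58bPhi f τ = τ.im * (‖lam‖ * ‖f τ‖) := by
    rw [h58bPhi]; ring
  rw [h4]
  refine (mul_le_mul_of_nonneg_left h2 τ.im_pos.le).trans (le_of_eq ?_)
  rw [mul_add, Finset.mul_sum, Finset.mul_sum]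
  congr 1
  · refine Finset.sum_congr rfl fun j _ => ?_
    rw [h58bPhi, h58b_im_heckeMatrix hp]
    field_simp
  · rw [h58bPhi, h58b_im_heckeDiagMatrix hp]
    ring

/-- at a maximum point, `p + 1 ≤ ‖λ‖` propagates the maximum to `p τ`. -/
theorem h58b_max_step {p : ℕ} (hp : p ≠ 0) (f : ℍ → ℂ) (lam : ℂ)
    (h : ∀ τ, ModularForm.heckeT 2 p f τ = lam * f τ) (hlam : (p : ℝ) + 1 ≤ ‖lam‖)
    (M : ℝ) (hM : ∀ τ, h58bPhi f τ ≤ M) (τ : ℍ) (hτ : h58bPhi f τ = M) :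
    h58bPhi f (ModularForm.heckeDiagMatrix p • τ) = M := by
  have hM0 : 0 ≤ M := (h58bPhi_nonneg f τ).trans (hM τ)
  have h1 := h58b_ineq hp f lam h τ
  rw [hτ] at h1
  have h2 : ∑ j ∈ Finset.range p, h58bPhi f (ModularForm.heckeMatrix p j • τ) ≤ p * M := by
    have h3 : ∑ j ∈ Finset.range p, h58bPhi f (ModularForm.heckeMatrix p j • τ) ≤
        ∑ _j ∈ Finset.range p, M := Finset.sum_le_sum fun j _ => hM _
    rw [Finset.sum_const, Finset.card_range, nsmul_eq_mul] at h3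
    exact h3
  have h5 : ((p : ℝ) + 1) * M ≤ ‖lam‖ * M := mul_le_mul_of_nonneg_right hlam hM0
  refine le_antisymm (hM _) ?_
  linarith

/-- iterates of `τ ↦ p τ`. -/
theorem h58b_max_iter {p : ℕ} (hp : p ≠ 0) (f : ℍ → ℂ) (lam : ℂ)
    (h : ∀ τ, ModularForm.heckeT 2 p f τ = lam * f τ) (hlam : (p : ℝ) + 1 ≤ ‖lam‖)
    (M : ℝ) (hM : ∀ τ, h58bPhi f τ ≤ M) (τ₀ : ℍ) (hτ₀ : h58bPhi f τ₀ = M) (n : ℕ) :
    ∃ τ : ℍ, τ.im = (p : ℝ) ^ n * τ₀.im ∧ h58bPhi f τ = M := by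
  induction n with
  | zero => exact ⟨τ₀, by rw [pow_zero, one_mul], hτ₀⟩
  | succ n ih =>
    obtain ⟨τ, hτim, hτ⟩ := ih
    refine ⟨ModularForm.heckeDiagMatrix p • τ, ?_, h58b_max_step hp f lam h hlam M hM τ hτ⟩
    rw [h58b_im_heckeDiagMatrix hp, hτim, pow_succ]
    ring

/-- **the bound**, for functions: `f` with `T_p f = λ f`, `φ` attaining its maximum `M > 0` and
tending to `0` at `i∞`. -/
theorem h58b_norm_lt_core {p : ℕ} (hp : 2 ≤ p) (f : ℍ → ℂ) (lam : ℂ)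
    (h : ∀ τ, ModularForm.heckeT 2 p f τ = lam * f τ)
    (τ₀ : ℍ) (hmax : ∀ τ, h58bPhi f τ ≤ h58bPhi f τ₀) (hpos : 0 < h58bPhi f τ₀)
    (hdecay : Tendsto (fun τ => h58bPhi f τ) atImInfty (𝓝 0)) :
    ‖lam‖ < p + 1 := by
  by_contra hge
  have hlam : (p : ℝ) + 1 ≤ ‖lam‖ := not_lt.mp hge
  have hp0 : p ≠ 0 := by omega
  have h2 : ∀ᶠ σ in atImInfty, h58bPhi f σ < h58bPhi f τ₀ := hdecay.eventually (Iio_mem_nhds hpos)
  rw [atImInfty, eventually_comap, eventually_atTop] at h2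
  obtain ⟨Y, hY⟩ := h2
  have hp1 : (1 : ℝ) < p := by exact_mod_cast hp
  obtain ⟨n, hn⟩ := pow_unbounded_of_one_lt (Y / τ₀.im) hp1
  obtain ⟨τ, hτim, hτ⟩ := h58b_max_iter hp0 f lam h hlam _ hmax τ₀ rfl n
  have h3 : Y ≤ τ.im := by
    rw [hτim]
    have := (div_lt_iff₀ τ₀.im_pos).mp hn
    exact this.le
  have h4 := hY _ h3 τ rfl
  rw [hτ] at h4
  exact lt_irrefl _ h4

theorem h58bPhi_eq_sqrt (f : ℍ → ℂ) (τ : ℍ) :
    h58bPhi f τ = Real.sqrt ‖petersson 2 f f τ‖ := by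
  rw [← h58bPhi_sq, Real.sqrt_sq (h58bPhi_nonneg f τ)]

/-- **the bound** `‖λ‖ < p + 1` for the eigenvalues of `T_p` on `S₂(Γ₀(N))`, `p ∤ N`. -/
theorem h58b_norm_lt {N p : ℕ} (hp : p.Prime) (hpN : ¬ p ∣ N)
    (f : CuspForm (CongruenceSubgroup.Gamma0 N) 2) (hf : f ≠ 0) (lam : ℂ)
    (h : CuspForm.heckeTLin 2 hp hpN f = lam • f) : ‖lam‖ < p + 1 := by
  haveI : NeZero N := ⟨fun h0 => hpN (h0 ▸ dvd_zero p)⟩
  have hfun : ∀ τ, ModularForm.heckeT 2 p (⇑f) τ = lam * f τ := by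
    intro τ
    have h1 := congrArg (fun g : CuspForm (CongruenceSubgroup.Gamma0 N) 2 => g τ) h
    exact h1
  obtain ⟨τ₀, hτ₀⟩ := h58b_exists_max_petersson 2 _ f
  have hmax : ∀ τ, h58bPhi (⇑f) τ ≤ h58bPhi (⇑f) τ₀ := by
    intro τ
    rw [h58bPhi_eq_sqrt, h58bPhi_eq_sqrt]
    exact Real.sqrt_le_sqrt (hτ₀ τ)
  have hpos : 0 < h58bPhi (⇑f) τ₀ := by
    obtain ⟨τ, hτ⟩ : ∃ τ, f τ ≠ 0 := by
      by_contra hall
      rw [not_exists] at hall
      apply hf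
      ext τ
      have := hall τ
      rw [not_not] at this
      rw [this]
      rfl
    refine lt_of_lt_of_le ?_ (hmax τ)
    exact mul_pos τ.im_pos (norm_pos_iff.mpr hτ)
  have hdecay : Tendsto (fun τ => h58bPhi (⇑f) τ) atImInfty (𝓝 0) := by
    have h1 : Tendsto (fun τ => ‖petersson 2 f f τ‖) atImInfty (𝓝 0) := by
      rw [← tendsto_zero_iff_norm_tendsto_zero]
      exact (CuspFormClass.zero_at_infty f).petersson_isZeroAtImInfty_left 2 _ f
    have h2 := (Real.continuous_sqrt.tendsto 0).comp h1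
    rw [Real.sqrt_zero] at h2
    refine h2.congr fun τ => ?_
    rw [Function.comp_apply, h58bPhi_eq_sqrt]
  exact h58b_norm_lt_core hp.two_le (⇑f) lam hfun τ₀ hmax hpos hdecay

/-- `T_p - (p + 1)` is injective on `S₂(Γ₀(N))`. -/
theorem h58b_heckeT_sub_injective {N p : ℕ} (hp : p.Prime) (hpN : ¬ p ∣ N)
    (f : CuspForm (CongruenceSubgroup.Gamma0 N) 2)
    (h : CuspForm.heckeTLin 2 hp hpN f = ((p : ℂ) + 1) • f) : f = 0 := by
  by_contra hf
  have h1 := h58b_norm_lt hp hpN f hf _ h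
  have h2 : ‖((p : ℂ) + 1)‖ = (p : ℝ) + 1 := by
    have h3 : ((p : ℂ) + 1) = (((p + 1 : ℕ) : ℝ) : ℂ) := by push_cast; rfl
    rw [h3, Complex.norm_real, Real.norm_of_nonneg (by positivity)]
    push_cast
    rfl
  rw [h2] at h1
  exact lt_irrefl _ h1

/-- `T_p + (p + 1)` is injective on `S₂(Γ₀(N))`. -/
theorem h58b_heckeT_add_injective {N p : ℕ} (hp : p.Prime) (hpN : ¬ p ∣ N)
    (f : CuspForm (CongruenceSubgroup.Gamma0 N) 2)
    (h : CuspForm.heckeTLin 2 hp hpN f = (-((p : ℂ) + 1)) • f) : f = 0 := by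
  by_contra hf
  have h1 := h58b_norm_lt hp hpN f hf _ h
  have h2 : ‖(-((p : ℂ) + 1))‖ = (p : ℝ) + 1 := by
    have h3 : ((p : ℂ) + 1) = (((p + 1 : ℕ) : ℝ) : ℂ) := by push_cast; rfl
    rw [norm_neg, h3, Complex.norm_real, Real.norm_of_nonneg (by positivity)]
    push_cast
    rfl
  rw [h2] at h1
  exact lt_irrefl _ h1

/-- **`T_p² - (p + 1)²` is injective on `S₂(Γ₀(N))`.** -/
theorem h58b_delta_injective {N p : ℕ} (hp : p.Prime) (hpN : ¬ p ∣ N)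
    (f : CuspForm (CongruenceSubgroup.Gamma0 N) 2)
    (h : CuspForm.heckeTLin 2 hp hpN (CuspForm.heckeTLin 2 hp hpN f) =
      (((p : ℂ) + 1) ^ 2) • f) : f = 0 := by
  -- `g = T_p f + (p + 1) f` satisfies `T_p g = (p + 1) g`
  have hg : CuspForm.heckeTLin 2 hp hpN (CuspForm.heckeTLin 2 hp hpN f + ((p : ℂ) + 1) • f) =
      ((p : ℂ) + 1) • (CuspForm.heckeTLin 2 hp hpN f + ((p : ℂ) + 1) • f) := by
    rw [map_add, map_smul, h, smul_add, smul_smul, pow_two]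
    abel
  have hg0 := h58b_heckeT_sub_injective hp hpN _ hg
  refine h58b_heckeT_add_injective hp hpN f ?_
  have h1 : (-((p : ℂ) + 1)) • f = -(((p : ℂ) + 1) • f) := by
    ext τ
    simp
    ring
  rw [h1]
  exact eq_neg_of_add_eq_zero_left hg0

end Fermat.Agent.P6
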