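import Mathlib

/-!
# S33 (wave 6), block B5 (G1), analytic input, part A (helper58): the maximum is attained

Mathlib only.

* `h58b_exists_max_of_invariant` : a continuous function `F ≥ 0` on the upper half plane,
  invariant under a subgroup of finite index of `SL(2, ℤ)`, which tends to `0` at every cusp
  (`F (g • τ) → 0` at `i∞` for every `g ∈ SL(2, ℤ)`), attains its maximum.
* `h58b_exists_max_petersson` : for a cusp form `f` of weight `k` on an arithmetic subgroup,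
  `τ ↦ ‖petersson k f f τ‖ = ‖f τ‖ ^ 2 (im τ) ^ k` attains its maximum.
-/

set_option autoImplicit false
set_option linter.style.haveILetI false

open Filter Topology Matrix.SpecialLinearGroup Matrix.GeneralLinearGroup

open UpperHalfPlane hiding I

open scoped Modular MatrixGroups ModularForm

namespace Fermat.Agent.P6

/-- a continuous nonnegative function, invariant under a subgroup of finite index and tending to
zero at every cusp, attains its maximum. -/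
theorem h58b_exists_max_of_invariant {F : ℍ → ℝ} (hcont : Continuous F) (hnn : ∀ τ, 0 ≤ F τ)
    (hzero : ∀ g : SL(2, ℤ), Tendsto (fun τ => F (g • τ)) atImInfty (𝓝 0))
    {Γ : Subgroup SL(2, ℤ)} [Γ.FiniteIndex] (hinv : ∀ g ∈ Γ, ∀ τ, F (g • τ) = F τ) :
    ∃ τ₀, ∀ τ, F τ ≤ F τ₀ := by
  classical
  by_cases h0 : ∀ τ, F τ ≤ 0
  · exact ⟨UpperHalfPlane.I, fun τ => (h0 τ).trans (hnn _)⟩
  rw [not_forall] at h0
  obtain ⟨τ₁, hτ₁⟩ := h0
  have hc : 0 < F τ₁ := not_le.mp hτ₁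
  haveI : Fintype (SL(2, ℤ) ⧸ Γ) := Subgroup.fintypeQuotientOfFiniteIndex
  have hY : ∀ q : SL(2, ℤ) ⧸ Γ, ∃ Y : ℝ, ∀ σ : ℍ, Y ≤ σ.im → F (q.out⁻¹ • σ) < F τ₁ := by
    intro q
    have h2 : ∀ᶠ σ in atImInfty, F (q.out⁻¹ • σ) < F τ₁ :=
      (hzero q.out⁻¹).eventually (Iio_mem_nhds hc)
    rw [atImInfty, eventually_comap, eventually_atTop] at h2
    obtain ⟨Y, hY⟩ := h2
    exact ⟨Y, fun σ hσ => hY _ hσ σ rfl⟩
  choose Yq hYq using hY
  obtain ⟨Y, hYmax⟩ : ∃ Y : ℝ, ∀ q, Yq q ≤ Y :=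
    ⟨∑ q, |Yq q|, fun q => (le_abs_self _).trans
      (Finset.single_le_sum (fun i _ => abs_nonneg (Yq i)) (Finset.mem_univ q))⟩
  have hK : IsCompact (ModularGroup.truncatedFundamentalDomain Y) :=
    ModularGroup.isCompact_truncatedFundamentalDomain Y
  have hrep : ∀ τ : ℍ, ∃ (q : SL(2, ℤ) ⧸ Γ) (σ : ℍ), σ ∈ 𝒟 ∧ F τ = F (q.out⁻¹ • σ) := by
    intro τ
    obtain ⟨g, hg⟩ := ModularGroup.exists_smul_mem_fd τ
    refine ⟨(g : SL(2, ℤ) ⧸ Γ), g • τ, hg, ?_⟩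
    obtain ⟨h, hh⟩ := QuotientGroup.mk_out_eq_mul Γ g
    rw [hh, mul_inv_rev, mul_smul, inv_smul_smul]
    exact (hinv _ (inv_mem h.2) τ).symm
  obtain ⟨q₁, σ₁, hσ₁, hF₁⟩ := hrep τ₁
  have hσ₁K : σ₁ ∈ ModularGroup.truncatedFundamentalDomain Y := by
    refine ⟨hσ₁, ?_⟩
    by_contra hlt
    have h3 := hYq q₁ σ₁ ((hYmax q₁).trans (not_le.mp hlt).le)
    rw [← hF₁] at h3
    exact lt_irrefl _ h3
  have hmaxq : ∀ q : SL(2, ℤ) ⧸ Γ, ∃ σq ∈ ModularGroup.truncatedFundamentalDomain Y,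
      ∀ σ ∈ ModularGroup.truncatedFundamentalDomain Y,
        F (q.out⁻¹ • σ) ≤ F (q.out⁻¹ • σq) := by
    intro q
    have hcq : ContinuousOn (fun σ : ℍ => F (q.out⁻¹ • σ))
        (ModularGroup.truncatedFundamentalDomain Y) := by
      have hsm : Continuous (fun σ : ℍ => q.out⁻¹ • σ) := by
        simp only [ModularGroup.sl_moeb]
        fun_prop
      exact (hcont.comp hsm).continuousOn
    obtain ⟨σq, hσq, hmax⟩ := hK.exists_isMaxOn ⟨σ₁, hσ₁K⟩ hcq
    exact ⟨σq, hσq, fun σ hσ => hmax hσ⟩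
  choose σq hσqK hσqmax using hmaxq
  obtain ⟨q₀, -, hq₀⟩ := Finset.exists_max_image Finset.univ
    (fun q => F (q.out⁻¹ • σq q)) ⟨q₁, Finset.mem_univ _⟩
  refine ⟨q₀.out⁻¹ • σq q₀, fun τ => ?_⟩
  obtain ⟨q, σ, hσ, hF⟩ := hrep τ
  by_cases hσK : σ.im ≤ Y
  · rw [hF]
    exact (hσqmax q σ ⟨hσ, hσK⟩).trans (hq₀ q (Finset.mem_univ _))
  · have h1 : F τ < F τ₁ := by
      rw [hF]
      exact hYq q σ ((hYmax q).trans (not_le.mp hσK).le)
    have h2 : F τ₁ ≤ F (q₀.out⁻¹ • σq q₀) := by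
      rw [hF₁]
      exact (hσqmax q₁ σ₁ hσ₁K).trans (hq₀ q₁ (Finset.mem_univ _))
    exact h1.le.trans h2

open ConjAct Pointwise in
/-- for a cusp form of weight `k` on an arithmetic subgroup, `‖petersson k f f‖` attains its
maximum. -/
theorem h58b_exists_max_petersson (k : ℤ) (Γ : Subgroup (GL (Fin 2) ℝ)) [Γ.IsArithmetic]
    {F : Type*} [FunLike F ℍ ℂ] [CuspFormClass F Γ k] (f : F) :
    ∃ τ₀, ∀ τ, ‖petersson k f f τ‖ ≤ ‖petersson k f f τ₀‖ := by
  refine h58b_exists_max_of_invariant (F := fun τ => ‖petersson k f f τ‖)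
    (Γ := Γ.comap (mapGL ℝ)) (by fun_prop) (fun τ => norm_nonneg _) (fun g => ?_)
    (fun g hg τ => SlashInvariantFormClass.norm_petersson_smul hg)
  rw [← tendsto_zero_iff_norm_tendsto_zero]
  simp_rw [← UpperHalfPlane.petersson_slash_SL]
  have : ((toConjAct (g : GL (Fin 2) ℝ)⁻¹) • Γ).IsArithmetic := by
    simpa [(show Rat.castHom ℝ = algebraMap ℚ ℝ by rfl), map_inv, map_mapGL]
      using! Subgroup.IsArithmetic.conj Γ (mapGL ℚ g)⁻¹
  exact (CuspFormClass.zero_at_infty <| CuspForm.translate f g).petersson_isZeroAtImInfty_left k _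
    (ModularForm.translate f g)

end Fermat.Agent.P6
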