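import Mathlib

/-!
# Wave 6 (S33), block B2-TOR, row B2-T3-NODE (helper59): the decomposition group preserves the
valuation

`K ⊆ L` an algebraic extension of fields, `A` a valuation subring of `L`, `σ` an element of the
decomposition group of `A`.  Then `σ c ∈ c A` for every `c ∈ L` (and hence `σ c / c ∈ A^×`):
`h59d_decomp_dvd`.  [The orbit of `c` under `σ` is finite, so a strict inclusion
`c A ⊊ σ(c) A` would give a strictly increasing cycle of ideals.]

Mathlib only.
-/

set_option autoImplicit false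

namespace Fermat.Agent.P6

variable {K L : Type*} [Field K] [Field L] [Algebra K L]

/-- an element of the decomposition group maps `A` into itself. -/
theorem h59d_decomp_mem (A : ValuationSubring L) {σ : L ≃ₐ[K] L}
    (hσ : σ ∈ A.decompositionSubgroup K) {x : L} (hx : x ∈ A) : σ x ∈ A :=
  ((⟨σ, hσ⟩ : A.decompositionSubgroup K) • (⟨x, hx⟩ : A)).2

/-- the orbit of an algebraic element under the powers of an automorphism is periodic. -/
theorem h59d_exists_pow_fix [Algebra.IsAlgebraic K L] (σ : L ≃ₐ[K] L) (c : L) :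
    ∃ n : ℕ, 0 < n ∧ (σ ^ n) c = c := by
  have hint : IsIntegral K c := Algebra.IsIntegral.isIntegral c
  have hfin : ((minpoly K c).rootSet L).Finite := Polynomial.rootSet_finite _ _
  have hmem : ∀ n : ℕ, (σ ^ n) c ∈ (minpoly K c).rootSet L := by
    intro n
    rw [Polynomial.mem_rootSet]
    refine ⟨minpoly.ne_zero hint, ?_⟩
    have h1 : Polynomial.aeval ((σ ^ n) c) (minpoly K c) =
        (σ ^ n) (Polynomial.aeval c (minpoly K c)) :=
      Polynomial.aeval_algHom_apply ((σ ^ n : L ≃ₐ[K] L) : L →ₐ[K] L) c (minpoly K c)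
    rw [h1, minpoly.aeval, map_zero]
  obtain ⟨i, j, hij, h⟩ := Set.Finite.exists_lt_map_eq_of_forall_mem hmem hfin
  refine ⟨j - i, Nat.sub_pos_of_lt hij, ?_⟩
  have h2 : (σ ^ j) c = (σ ^ i) ((σ ^ (j - i)) c) := by
    rw [← AlgEquiv.mul_apply, ← pow_add, Nat.add_sub_cancel' hij.le]
  rw [h2] at h
  exact ((σ ^ i).injective h).symm

/-- **the decomposition group preserves the valuation**: `σ c ∈ c A`. -/
theorem h59d_decomp_dvd [Algebra.IsAlgebraic K L] (A : ValuationSubring L) {σ : L ≃ₐ[K] L}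
    (hσ : σ ∈ A.decompositionSubgroup K) (c : L) : ∃ u ∈ A, σ c = c * u := by
  rcases eq_or_ne c 0 with rfl | hc0
  · exact ⟨1, A.one_mem, by simp⟩
  have hσc0 : σ c ≠ 0 := (map_ne_zero σ).mpr hc0
  rcases A.mem_or_inv_mem (σ c / c) with h | h
  · exact ⟨σ c / c, h, by field_simp⟩
  by_contra hcon
  have hx : σ c / c ∉ A := fun hmem => hcon ⟨σ c / c, hmem, by field_simp⟩
  set y : L := (σ c / c)⁻¹ with hy
  have hyinv : y⁻¹ ∉ A := by rw [hy, inv_inv]; exact hx
  have hcy : c = σ c * y := by rw [hy]; field_simp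
  have hpow : ∀ n : ℕ, σ ^ n ∈ A.decompositionSubgroup K := fun n => Subgroup.pow_mem _ hσ n
  -- `c = σ^(n+1) c * y_n` with `y_n ∈ A`, `y_n⁻¹ ∉ A`
  have key : ∀ n : ℕ, ∃ z : L, z ∈ A ∧ z⁻¹ ∉ A ∧ c = (σ ^ (n + 1)) c * z := by
    intro n
    induction n with
    | zero => exact ⟨y, h, hyinv, by simpa using hcy⟩
    | succ n ih =>
      obtain ⟨z, hz, hzinv, hcz⟩ := ih
      have hσy : (σ ^ (n + 1)) y ∈ A := h59d_decomp_mem A (hpow (n + 1)) h
      refine ⟨(σ ^ (n + 1)) y * z, A.mul_mem _ _ hσy hz, ?_, ?_⟩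
      · intro hmem
        apply hzinv
        have h1 : z⁻¹ = ((σ ^ (n + 1)) y * z)⁻¹ * (σ ^ (n + 1)) y := by
          have hz0 : z ≠ 0 := by
            rintro rfl
            rw [mul_zero] at hcz
            exact hc0 hcz
          have hy0 : (σ ^ (n + 1)) y ≠ 0 := by
            rw [map_ne_zero]
            rintro h0
            rw [h0, mul_zero] at hcy
            exact hc0 hcy
          field_simp
        rw [h1]
        exact A.mul_mem _ _ hmem hσy
      · have h2 : (σ ^ (n + 1)) c = (σ ^ (n + 1 + 1)) c * (σ ^ (n + 1)) y := by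
          conv_lhs => rw [hcy]
          rw [map_mul, pow_succ (σ) (n + 1), AlgEquiv.mul_apply]
        have h3 : (σ ^ (n + 1)) c * z = (σ ^ (n + 1 + 1)) c * (σ ^ (n + 1)) y * z :=
          congrArg (· * z) h2
        exact hcz.trans (h3.trans (mul_assoc _ _ _))
  obtain ⟨n, hn, hfix⟩ := h59d_exists_pow_fix σ c
  obtain ⟨z, hz, hzinv, hcz⟩ := key (n - 1)
  rw [Nat.sub_add_cancel hn, hfix] at hcz
  have hz1 : z = 1 := by
    have := mul_left_cancel₀ hc0 (a := c) (b := 1) (c := z) (by rw [mul_one]; exact hcz)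
    exact this.symm
  apply hzinv
  rw [hz1, inv_one]
  exact A.one_mem

end Fermat.Agent.P6
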