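import Fermat.Agent.S35.H86TorAsm
import Fermat.Agent.P6.H90DeepAsm

/-!
# P6 (wave 6, S33), block B2-TOR (helper90): the deep gate on the charts of level `M ℓ`

`ℓ ∤ M` a prime, `M` a good level, `A` a valuation subring of `ℚ̄` over `ℓ`, `F = FF (M ℓ)`,
`ssV = W_∞ ∩ W_0` the semistable Gauss ring, `r` ANY positive exponent (`r = ℓ ^ k` in the
application).

* `H90pLocAt A M ℓ t r π W 𝔫` : the DEEP LOCAL DATUM of `W` at the closed point `𝔫` of the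
  chart of the coordinate `t`: `∃ g ∈ 1 + r π ssV, ∃ s ∉ 𝔫, s W / g ^ r ∈ B ∧ s g ^ r / W ∈ B`.
* `h90p_deepTor_core` : if `W ∈ 1 + r² π ssV`, `r ∣ div W`, and `W` has the deep local datum at
  every closed point of the special fibre of the finite chart and at the cusps of the special
  fibre, then `W` is an `r`-th power in `F`.
* `h90p_deepTor` : the same at the good levels, all modular inputs discharged (landed W3-LGC).

This is the assembly `h86t_core` of S35 (helper86) with the deep gate `h90p_gate_asm_loc`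
instead of `h63_gateAsmOfLocal`; the Galois input is entirely inside the local data.
-/

set_option autoImplicit false
set_option linter.unusedSectionVars false
set_option linter.style.haveILetI false

open AlgebraicCurve ModularCurve WithZero IsLocalRing

noncomputable section

namespace Fermat.Agent.P6

open Fermat.Agent.S37 Fermat.Agent.Red Fermat.Agent.Red.GG Fermat.Agent.Red.GV
  Fermat.Agent.Red.GV.Soft Fermat.Agent.Red.Kron Fermat.Agent.Red.ModelO Fermat.Agent.LGC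
  Fermat.Agent.S35

section Core

variable (A : ValuationSubring Kbar) (M ℓ : ℕ) [NeZero M] [NeZero ℓ]

/-- **the deep local datum** of `W` at the closed point `𝔫` of the chart of `t`. -/
def H90pLocAt (t : FF (M * ℓ)) (r : ℕ) (π : A) (W : FF (M * ℓ))
    (𝔫 : Ideal (chart (M * ℓ) A t)) : Prop :=
  ∃ g ∈ h26U ((r : A) * π) (ssV A M ℓ), ∃ s : chart (M * ℓ) A t, s ∉ 𝔫 ∧
    (s : FF (M * ℓ)) * (W * (g ^ r)⁻¹) ∈ chart (M * ℓ) A t ∧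
    (s : FF (M * ℓ)) * (g ^ r * W⁻¹) ∈ chart (M * ℓ) A t

set_option maxHeartbeats 3200000 in
/-- **the deep gate on the two charts of level `M ℓ`**, for the coordinate `t = j`. -/
theorem h90p_deepTor_core (hℓ : ℓ.Prime) (hA : A.LiesOverPrime ℓ)
    (t : FF (M * ℓ)) (ht : t = jB (M * ℓ))
    (hC₀ : IfaceSSChart A M ℓ t) (hC₁ : IfaceSSChart A M ℓ t⁻¹)
    (hNt : IfaceSSNt A M ℓ)
    (hF₀ : IfaceFinite (M * ℓ) A t)
    (hG₀ : IfaceSSGeneric A M ℓ t) (hG₁ : IfaceSSGeneric A M ℓ t⁻¹)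
    (r : ℕ) (hr : 0 < r) (W : FF (M * ℓ)) (hW0 : W ≠ 0)
    (hord : ∀ v : Place Kbar (FF (M * ℓ)), (r : ℤ) ∣ v.ord W)
    (π : A) (hπ : π ∈ maximalIdeal A) (hπ0 : π ≠ 0)
    (hWU : W ∈ h26U ((r : A) ^ 2 * π) (ssV A M ℓ))
    (hloc : ∀ 𝔫 : Ideal (chart (M * ℓ) A t), 𝔫.IsMaximal → mExt A M ℓ t ≤ 𝔫 →
      H90pLocAt A M ℓ t r π W 𝔫)
    (hcusp : ∀ 𝔫 : Ideal (chart (M * ℓ) A t⁻¹), 𝔫.IsMaximal → mExt A M ℓ t⁻¹ ≤ 𝔫 →
      (⟨t⁻¹, h85_self_mem_modelAt (M * ℓ) A t⁻¹⟩ : chart (M * ℓ) A t⁻¹) ∈ 𝔫 →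
      H90pLocAt A M ℓ t⁻¹ r π W 𝔫) :
    ∃ f : FF (M * ℓ), f ^ r = W := by
  classical
  subst ht
  have hAF : Function.Injective (algebraMap A (FF (M * ℓ))) := algebraMap_injective_FF (M * ℓ) A
  have harch := harch_of_liesOver A hℓ hA
  have hr0 : r ≠ 0 := Nat.pos_iff_ne_zero.mp hr
  have hrA : ((r : ℕ) : A) ≠ 0 := by
    intro h
    have h1 : ((r : ℕ) : Kbar) = 0 := by
      have := congrArg (fun x : A => (x : Kbar)) h
      simpa using this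
    exact hr0 (Nat.cast_eq_zero.mp h1)
  have hj0 : jB (M * ℓ) ≠ 0 := h85_jB_ne_zero (M * ℓ)
  -- the chart at infinity: transfer from the finite chart outside the cusps
  have hloc₁ : ∀ 𝔫 : Ideal (chart (M * ℓ) A (jB (M * ℓ))⁻¹), 𝔫.IsMaximal →
      (maximalIdeal A).map (algebraMap A (chart (M * ℓ) A (jB (M * ℓ))⁻¹)) ≤ 𝔫 →
      ∃ g ∈ h26U ((r : A) * π) (ssV A M ℓ), ∃ s : chart (M * ℓ) A (jB (M * ℓ))⁻¹, s ∉ 𝔫 ∧
        (s : FF (M * ℓ)) * (W * (g ^ r)⁻¹) ∈ chart (M * ℓ) A (jB (M * ℓ))⁻¹ ∧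
        (s : FF (M * ℓ)) * (g ^ r * W⁻¹) ∈ chart (M * ℓ) A (jB (M * ℓ))⁻¹ := by
    intro 𝔫 h𝔫 hle
    by_cases hov : (⟨(jB (M * ℓ))⁻¹, h85_self_mem_modelAt (M * ℓ) A (jB (M * ℓ))⁻¹⟩ :
        chart (M * ℓ) A (jB (M * ℓ))⁻¹) ∈ 𝔫
    · exact hcusp 𝔫 h𝔫 hle hov
    · exact h86t_gate_transfer (A := A) (F := FF (M * ℓ))
        (B₀ := chart (M * ℓ) A (jB (M * ℓ))) (B₁ := chart (M * ℓ) A (jB (M * ℓ))⁻¹)
        (t := jB (M * ℓ)) hj0 (h85_self_mem_modelAt (M * ℓ) A (jB (M * ℓ)))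
        (h85_self_mem_modelAt (M * ℓ) A (jB (M * ℓ))⁻¹)
        (fun y hy => h85_exists_pow_mul_mem_modelAt (M * ℓ) A hj0 hy)
        (fun y hy => by
          have hy' : y ∈ modelAt (M * ℓ) A ((jB (M * ℓ))⁻¹)⁻¹ := by rw [inv_inv]; exact hy
          exact h85_exists_pow_mul_mem_modelAt (M * ℓ) A (inv_ne_zero hj0) hy')
        (h85ev (M * ℓ) A (jB (M * ℓ))⁻¹)
        (fun a => by rw [h85ev_C]; rfl)
        (h85ev_X (M * ℓ) A (jB (M * ℓ))⁻¹)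
        (fun y hy => (h85_mem_modelAt_iff_isIntegralElem (M * ℓ) A (jB (M * ℓ))⁻¹ y).1 hy)
        (fun g => g ∈ h26U ((r : A) * π) (ssV A M ℓ))
        (fun g => W * (g ^ r)⁻¹)
        (fun g => g ^ r * W⁻¹)
        (fun 𝔫₀ h𝔫₀ hle₀ => hloc 𝔫₀ h𝔫₀ hle₀)
        𝔫 h𝔫 hle hov
  -- the gate
  have hrW₀ := exists_val_eq (M * ℓ) (jB (M * ℓ)) W hW0 r hord
  have hrW₁ := exists_val_eq (M * ℓ) (jB (M * ℓ))⁻¹ W hW0 r hord
  obtain ⟨S, hS, hfin⟩ := span_of_ifaceFinite (M * ℓ) A (jB (M * ℓ)) hF₀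
  have hjV : jB (M * ℓ) ∈ ssV A M ℓ := hC₀.hBV _ (h85_jB_mem_modelFin (M * ℓ) A)
  obtain ⟨f₀, hf0, hf₀, hfinf⟩ := h90p_gate_asm_loc hAF harch (ssV A M ℓ) hNt (jB (M * ℓ)) hj0
    (chart (M * ℓ) A (jB (M * ℓ))) (chart (M * ℓ) A (jB (M * ℓ))⁻¹) (chartMid (M * ℓ) A)
    (h85_jB_mem_modelFin (M * ℓ) A) (h85_jB_inv_mem_modelInf (M * ℓ) A)
    (h85_modelFin_le_modelMid (M * ℓ) A) (h85_modelInf_le_modelMid (M * ℓ) A)
    (fun x hx => h85_modelMid_scale_fin (M * ℓ) A hx)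
    (fun x hx => h85_modelMid_scale_inf (M * ℓ) A hx)
    r hr hrA
    (fun x hx => h85_modelAt_root_closed (M * ℓ) A _ hr0 hx)
    (fun x hx => h85_modelAt_root_closed (M * ℓ) A _ hr0 hx)
    (fun x hx => h85_modelMid_root_closed (M * ℓ) A hr0 hx)
    (fun a ha x hx hax => h85_modelMid_qep (M * ℓ) A (ssV A M ℓ) hjV
      (algebraMap A (FF (M * ℓ)) a)
      (fun y hy hay => hC₀.hQEP a ha y hy (by rw [Algebra.smul_def]; exact hay)) hx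
      (by rw [Algebra.smul_def] at hax; exact hax))
    (chartVal (M * ℓ) (jB (M * ℓ))) (chartVal (M * ℓ) (jB (M * ℓ))⁻¹) hC₀ hC₁ hG₀ hG₁
    S hS hfin W hW0 hrW₀ hrW₁ π hπ hπ0 hWU hloc hloc₁
  -- `f₀ ^ r / W` is a constant
  obtain ⟨a, -, ha⟩ := h85_modelFin_inf_modelInf (M * ℓ) A hf₀ hfinf
  have ha0 : a ≠ 0 := by
    rintro rfl
    rw [cst, map_zero] at ha
    exact mul_ne_zero (pow_ne_zero _ hf0) (inv_ne_zero hW0) ha
  obtain ⟨b, hb⟩ := IsAlgClosed.exists_pow_nat_eq a hr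
  have hb0 : b ≠ 0 := by
    rintro rfl
    rw [zero_pow hr0] at hb
    exact ha0 hb.symm
  have hcb0 : cst (M * ℓ) b ≠ 0 := by
    simpa only [cst, ne_eq, map_eq_zero] using hb0
  refine ⟨f₀ * (cst (M * ℓ) b)⁻¹, ?_⟩
  have h1 : cst (M * ℓ) b ^ r = f₀ ^ r * W⁻¹ := by
    rw [ha, ← hb]
    exact (map_pow _ _ _).symm
  rw [mul_pow, inv_pow, h1]
  field_simp

end Core

/-- **the deep gate at the good levels**: a function `W ∈ 1 + r² π ssV` with `r ∣ div W` which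
has the deep local datum at every closed point of the special fibre of the finite chart and at
the cusps of the special fibre is an `r`-th power. -/
theorem h90p_deepTor (ℓ : ℕ) (hℓ : ℓ.Prime) (M : ℕ) [NeZero M] (hM : ¬ ℓ ∣ M)
    (haux : auxLevel ℓ ∣ M) (A : ValuationSubring Kbar) (hA : A.LiesOverPrime ℓ)
    (r : ℕ) (hr : 0 < r) :
    haveI : NeZero ℓ := ⟨hℓ.ne_zero⟩
    ∀ (W : FF (M * ℓ)), W ≠ 0 →
    (∀ v : Place Kbar (FF (M * ℓ)), (r : ℤ) ∣ v.ord W) →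
    ∀ π : A, π ∈ maximalIdeal A → π ≠ 0 → W ∈ h26U ((r : A) ^ 2 * π) (ssV A M ℓ) →
    (∀ 𝔫 : Ideal (chart (M * ℓ) A (jSS M ℓ)), 𝔫.IsMaximal → mExt A M ℓ (jSS M ℓ) ≤ 𝔫 →
      H90pLocAt A M ℓ (jSS M ℓ) r π W 𝔫) →
    (∀ 𝔫 : Ideal (chart (M * ℓ) A (jSS M ℓ)⁻¹), 𝔫.IsMaximal →
      mExt A M ℓ (jSS M ℓ)⁻¹ ≤ 𝔫 →
      (⟨(jSS M ℓ)⁻¹, h85_self_mem_modelAt (M * ℓ) A (jSS M ℓ)⁻¹⟩ :
        chart (M * ℓ) A (jSS M ℓ)⁻¹) ∈ 𝔫 →
      H90pLocAt A M ℓ (jSS M ℓ)⁻¹ r π W 𝔫) →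
    ∃ f : FF (M * ℓ), f ^ r = W := by
  haveI : NeZero ℓ := ⟨hℓ.ne_zero⟩
  intro W hW0 hord π hπ hπ0 hWU hloc hcusp
  obtain ⟨hF₀, hF₁⟩ := ifaceSSFiniteAll ℓ hℓ M hM haux A hA
  exact h90p_deepTor_core A M ℓ hℓ hA (jSS M ℓ) (h63_jSS_eq M ℓ)
    (h85s_ifaceSSChart_fin A M ℓ hℓ hM hA) (h85s_ifaceSSChart_inf A M ℓ hℓ hM hA)
    (h85s_ifaceSSNt A M ℓ hℓ hM hA) hF₀
    (h85s_ifaceSSGeneric_fin A M ℓ hℓ hA) (h85s_ifaceSSGeneric_inf A M ℓ hℓ hA)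
    r hr W hW0 hord π hπ hπ0 hWU hloc hcusp

end Fermat.Agent.P6
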