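import Fermat.Agent.P6.H59NodeTheta
import Fermat.Agent.P6.H59DecompDvd
import Fermat.Agent.P6.H90DeepTor
import Fermat.Agent.P6.H11NewIface

/-!
# Wave 6 (S33), block B2-TOR, row B2-T3-NODE (helper59): the deep local datum at the nodes

* `H59nNodeNF` : **frozen abstract Prop**, the DEEP NODE NORMAL FORM (row B2-T3-NODE-NF): the
  hypotheses of `h13x_node_normal` (`S35/H13TorNode.lean`), `u ∈ 1 + r (r π) V` with orders
  divisible by `r`; conclusion `H59nNormalDeep … u r (r π)`.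
* `h59n_torNode_deep` : abstract deep analogue of `TorNodeStatement` (S35): the normal form
  gives the deep local datum of `τ u / u ^ e` at the node, modulus `r π`.
* `h59n_locAt_node` : **concrete**, good levels: for `τ` in the decomposition group of `A`
  acting on `μ_{p^k}` by the exponent `a` and respecting the places centered at a node `𝔫` of
  the finite chart, and `w ∈ 1 + r² π ssV` with `r ∣ div w` (`r = p ^ k`):
  `H90pLocAt A M p (jSS M p) r π (h11Theta (M p) τ a w) 𝔫`, the local input of the deep gate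
  `h90p_deepTor` at the nodes.
-/

set_option autoImplicit false
set_option linter.unusedSectionVars false
set_option linter.unusedVariables false
set_option linter.style.haveILetI false

open AlgebraicCurve ModularCurve WithZero IsLocalRing

noncomputable section

namespace Fermat.Agent.P6

open Fermat.Agent.S37 Fermat.Agent.Red Fermat.Agent.Red.GG Fermat.Agent.Red.GV
  Fermat.Agent.Red.GV.Soft Fermat.Agent.Red.Kron Fermat.Agent.Red.ModelO Fermat.Agent.LGC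
  Fermat.Agent.S35

section Abstract

universe u v w

/-- **DEEP NODE NORMAL FORM** (frozen abstract statement, row B2-T3-NODE-NF). -/
def H59nNodeNF : Prop :=
  ∀ {A : Type u} [CommRing A] [IsDomain A] [ValuationRing A]
    {F : Type v} [Field F] [Algebra A F]
    {B : Subalgebra A F} {V : Subring F} {ι : Type w} {val : ι → Valuation F ℤᵐ⁰},
    H26Chart B V val →
    Function.Injective (algebraMap A F) →
    (∀ c ∈ maximalIdeal A, c ≠ 0 → ∀ a : A, a ≠ 0 → ∃ k : ℕ, a ∣ c ^ k) →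
    ∀ (Winf W0 : Subring F),
    (∀ x ∈ V, x ∈ Winf) → (∀ x ∈ V, x ∈ W0) →
    (∀ x : F, x ∈ Winf → x ∈ W0 → x ∈ V) →
    (∀ x : F, x ∈ Winf ∨ x⁻¹ ∈ Winf) → (∀ x : F, x ∈ W0 ∨ x⁻¹ ∈ W0) →
    (∀ π ∈ maximalIdeal A, ∀ x ∈ Winf, (1 + algebraMap A F π * x)⁻¹ ∈ Winf) →
    (∀ π ∈ maximalIdeal A, ∀ x ∈ W0, (1 + algebraMap A F π * x)⁻¹ ∈ W0) →
    (∀ π ∈ maximalIdeal A, ∀ x ∈ Winf, algebraMap A F π * x ≠ 1) →
    (∀ π ∈ maximalIdeal A, ∀ x ∈ W0, algebraMap A F π * x ≠ 1) →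
    ∀ (𝔫 : Ideal B), 𝔫.IsMaximal → (maximalIdeal A).map (algebraMap A B) ≤ 𝔫 →
    -- `𝔫` lies on both components
    (∀ b : B, b ∉ 𝔫 → ((b : F))⁻¹ ∈ Winf) → (∀ b : B, b ∉ 𝔫 → ((b : F))⁻¹ ∈ W0) →
    -- the node datum with its branches
    ∀ (x y c : B), x ∈ 𝔫 → y ∈ 𝔫 → c ∉ 𝔫 → ∀ a : A, a ≠ 0 →
      x * y = algebraMap A B a * c →
      ((x : F))⁻¹ ∈ Winf → ((y : F))⁻¹ ∈ W0 →
      (∀ z ∈ 𝔫, ∃ s, s ∉ 𝔫 ∧
        s * z ∈ Ideal.span {x, y} ⊔ (maximalIdeal A).map (algebraMap A B)) →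
    -- sections at the places centered at `𝔫`
    (∀ i, h26Centered B val 𝔫 i → ∃ φ : B →ₐ[A] A,
      (∀ b : B, φ b = 0 ↔ val i (b : F) < 1) ∧ (RingHom.ker (φ : B →+* A)).FG) →
    -- the exponent, with a primitive root of unity
    ∀ (r : ℕ), 0 < r → (r : A) ≠ 0 → (∃ ζ : A, IsPrimitiveRoot ζ r) →
    -- the function
    ∀ (u : F), u ≠ 0 → (∀ i, ∃ n : ℤ, val i u = exp (-((r : ℤ) * n))) →
    ∀ π ∈ maximalIdeal A, π ≠ 0 → u ∈ h26U ((r : A) * ((r : A) * π)) V →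
      H59nNormalDeep B V val Winf W0 𝔫 u r ((r : A) * π)

variable {A : Type u} [CommRing A] [IsDomain A] [ValuationRing A]
  {F : Type v} [Field F] [Algebra A F]
  {B : Subalgebra A F} {V : Subring F} {ι : Type w} {val : ι → Valuation F ℤᵐ⁰}

/-- **the deep local datum at a node** (abstract; deep analogue of `TorNodeStatement`), from
the deep normal form. -/
theorem h59n_torNode_deep (hNF : H59nNodeNF.{u, v, w})
    (hC : H26Chart B V val) (hAF : Function.Injective (algebraMap A F))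
    (harch : ∀ c ∈ maximalIdeal A, c ≠ 0 → ∀ a : A, a ≠ 0 → ∃ k : ℕ, a ∣ c ^ k)
    (Winf W0 : Subring F)
    (hVWinf : ∀ x ∈ V, x ∈ Winf) (hVW0 : ∀ x ∈ V, x ∈ W0)
    (hWV : ∀ x : F, x ∈ Winf → x ∈ W0 → x ∈ V)
    (hvrinf : ∀ x : F, x ∈ Winf ∨ x⁻¹ ∈ Winf) (hvr0 : ∀ x : F, x ∈ W0 ∨ x⁻¹ ∈ W0)
    (hinvinf : ∀ π ∈ maximalIdeal A, ∀ x ∈ Winf, (1 + algebraMap A F π * x)⁻¹ ∈ Winf)
    (hinv0 : ∀ π ∈ maximalIdeal A, ∀ x ∈ W0, (1 + algebraMap A F π * x)⁻¹ ∈ W0)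
    (hntinf : ∀ π ∈ maximalIdeal A, ∀ x ∈ Winf, algebraMap A F π * x ≠ 1)
    (hnt0 : ∀ π ∈ maximalIdeal A, ∀ x ∈ W0, algebraMap A F π * x ≠ 1)
    (𝔫 : Ideal B) (h𝔫 : 𝔫.IsMaximal) (h𝔪𝔫 : (maximalIdeal A).map (algebraMap A B) ≤ 𝔫)
    (hninf : ∀ b : B, b ∉ 𝔫 → ((b : F))⁻¹ ∈ Winf)
    (hn0 : ∀ b : B, b ∉ 𝔫 → ((b : F))⁻¹ ∈ W0)
    (x y c : B) (hx : x ∈ 𝔫) (hy : y ∈ 𝔫) (hc : c ∉ 𝔫) (a : A) (ha : a ≠ 0)
    (hxy : x * y = algebraMap A B a * c)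
    (hxinf : ((x : F))⁻¹ ∈ Winf) (hy0 : ((y : F))⁻¹ ∈ W0)
    (hprin : ∀ z ∈ 𝔫, ∃ s, s ∉ 𝔫 ∧
      s * z ∈ Ideal.span {x, y} ⊔ (maximalIdeal A).map (algebraMap A B))
    (hsec : ∀ i, h26Centered B val 𝔫 i → ∃ φ : B →ₐ[A] A,
      (∀ b : B, φ b = 0 ↔ val i (b : F) < 1) ∧ (RingHom.ker (φ : B →+* A)).FG)
    (τ : F ≃+* F) (θ : A →+* A) (hτθ : ∀ a : A, τ (algebraMap A F a) = algebraMap A F (θ a))
    (e : ℕ)
    (hτinf : ∀ x ∈ Winf, τ x ∈ Winf) (hτ0 : ∀ x ∈ W0, τ x ∈ W0)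
    (hperm : ∀ h : F, (∀ k, h26Centered B val 𝔫 k → val k h = 1) →
      ∀ k, h26Centered B val 𝔫 k → val k (τ h) = 1)
    (r : ℕ) (hr : 0 < r) (hrA : (r : A) ≠ 0) {ζ : A} (hζ : IsPrimitiveRoot ζ r)
    (hθζ : ∀ η : A, η ^ r = 1 → θ η = η ^ e)
    (u : F) (hu : u ≠ 0) (hru : ∀ i, ∃ n : ℤ, val i u = exp (-((r : ℤ) * n)))
    (π : A) (hπ : π ∈ maximalIdeal A) (hπ0 : π ≠ 0) (hθπ : π ∣ θ π)
    (huU : u ∈ h26U ((r : A) * ((r : A) * π)) V) :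
    ∃ g ∈ h26U ((r : A) * π) V, ∃ s : B, s ∉ 𝔫 ∧
      (s : F) * (τ u * (u ^ e)⁻¹ * (g ^ r)⁻¹) ∈ B ∧
      (s : F) * (g ^ r * (τ u * (u ^ e)⁻¹)⁻¹) ∈ B := by
  haveI := h𝔫.isPrime
  have hN := hNF hC hAF harch Winf W0 hVWinf hVW0 hWV hvrinf hvr0 hinvinf hinv0 hntinf hnt0
    𝔫 h𝔫 h𝔪𝔫 hninf hn0 x y c hx hy hc a ha hxy hxinf hy0 hprin hsec r hr hrA ⟨ζ, hζ⟩
    u hu hru π hπ hπ0 huU
  have hcm : (r : A) * π ∈ maximalIdeal A := Ideal.mul_mem_left _ _ hπ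
  have hc0 : (r : A) * π ≠ 0 := mul_ne_zero hrA hπ0
  have hθc : (r : A) * π ∣ θ ((r : A) * π) := by
    rw [map_mul, map_natCast]
    exact mul_dvd_mul_left _ hθπ
  exact h59n_node_theta hC hAF Winf W0 hVWinf hVW0 hWV hinvinf hinv0 hntinf hnt0 𝔫 τ θ hτθ e
    hτinf hτ0 hperm r hr hζ hθζ ((r : A) * π) hcm hc0 hθc u hu hN

end Abstract

section Level

variable (A : ValuationSubring Kbar) (M ℓ : ℕ) [NeZero M] [NeZero ℓ]

/-- the ring automorphism of `FF N` given by one Galois element. -/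
def h59nTau (N : ℕ) (σ : GQ) : FF N ≃+* FF N := SemilinearAut.toRingAut (gal N σ)

theorem h59nTau_apply (N : ℕ) (σ : GQ) (x : FF N) : h59nTau N σ x = gal N σ • x := rfl

/-- a primitive `r`-th root of unity in `A`. -/
theorem h59n_exists_primitiveRoot (r : ℕ) (hr : 0 < r) : ∃ ζ : A, IsPrimitiveRoot ζ r := by
  have : NeZero (r : Kbar) := ⟨Nat.cast_ne_zero.mpr hr.ne'⟩
  obtain ⟨ζ, hζ⟩ := HasEnoughRootsOfUnity.exists_primitiveRoot Kbar r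
  have hζA : ζ ∈ A := by
    rcases A.mem_or_inv_mem ζ with h | h
    · exact h
    · have hζ1 : ζ ^ r = 1 := hζ.pow_eq_one
      have h2 : ζ * ζ ^ (r - 1) = 1 := by
        rw [← pow_succ', Nat.sub_add_cancel hr, hζ1]
      have h1 : ζ = ζ⁻¹ ^ (r - 1) := by
        rw [inv_pow]
        exact eq_inv_of_mul_eq_one_left h2
      rw [h1]
      exact pow_mem h _
  exact ⟨⟨ζ, hζA⟩, IsPrimitiveRoot.of_map_of_injective (f := A.subtype) hζ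
    Subtype.val_injective⟩

/-- **the deep local datum at a node of the finite chart**, good levels, modulo the deep
normal form. -/
theorem h59n_locAt_node (hNF : H59nNodeNF.{0, 0, 0})
    (hℓ : ℓ.Prime) (hM : ¬ ℓ ∣ M) (haux : auxLevel ℓ ∣ M) (hA : A.LiesOverPrime ℓ)
    (τ : GQ) (hτ : τ ∈ A.decompositionSubgroup ℚ)
    (r a : ℕ) (hr : 0 < r) (hcyc : ∀ ζ : Kbar, ζ ^ r = 1 → τ ζ = ζ ^ a)
    (𝔫 : Ideal (chart (M * ℓ) A (jSS M ℓ))) (h𝔫 : 𝔫.IsMaximal)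
    (hle : mExt A M ℓ (jSS M ℓ) ≤ 𝔫)
    (hNd : TorNodeAt A M ℓ hℓ hM hA (jSS M ℓ) 𝔫)
    (hPerm : ∀ z : FF (M * ℓ),
      (∀ k, h26Centered (chart (M * ℓ) A (jSS M ℓ)) (chartVal (M * ℓ) (jSS M ℓ)) 𝔫 k →
        chartVal (M * ℓ) (jSS M ℓ) k z = 1) →
      ∀ k, h26Centered (chart (M * ℓ) A (jSS M ℓ)) (chartVal (M * ℓ) (jSS M ℓ)) 𝔫 k →
        chartVal (M * ℓ) (jSS M ℓ) k (gal (M * ℓ) τ • z) = 1)
    (w : FF (M * ℓ)) (hw0 : w ≠ 0)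
    (hord : ∀ v : Place Kbar (FF (M * ℓ)), (r : ℤ) ∣ v.ord w)
    (π : A) (hπ : π ∈ maximalIdeal A) (hπ0 : π ≠ 0)
    (hwU : w ∈ h26U ((r : A) ^ 2 * π) (ssV A M ℓ)) :
    H90pLocAt A M ℓ (jSS M ℓ) r π (h11Theta (M * ℓ) τ a w) 𝔫 := by
  classical
  have hAF : Function.Injective (algebraMap A (FF (M * ℓ))) := algebraMap_injective_FF (M * ℓ) A
  have harch := harch_of_liesOver A hℓ hA
  obtain ⟨hF₀, hF₁⟩ := ifaceSSFiniteAll ℓ hℓ M hM haux A hA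
  have hC₀ : IfaceSSChart A M ℓ (jSS M ℓ) := h85s_ifaceSSChart_fin A M ℓ hℓ hM hA
  have hS₀ : IfaceSSSection A M ℓ (jSS M ℓ) := h85s_ifaceSSSection_of A M ℓ _ hF₀
  have hrA : ((r : ℕ) : A) ≠ 0 := by
    intro h
    have h1 : ((r : ℕ) : Kbar) = 0 := by
      have := congrArg (fun x : A => (x : Kbar)) h
      simpa using this
    exact hr.ne' (Nat.cast_eq_zero.mp h1)
  obtain ⟨ζ, hζ⟩ := h59n_exists_primitiveRoot A r hr
  obtain ⟨⟨hbi, hb0⟩, x, hx, y, hy, c, hc, a₀, ha₀, hxy, hgen, hxinf, hy0⟩ := hNd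
  -- the Galois element
  have hτθ : ∀ b : A, h59nTau (M * ℓ) τ (algebraMap A (FF (M * ℓ)) b) =
      algebraMap A (FF (M * ℓ)) (decompA A τ hτ b) := by
    intro b
    have h1 : algebraMap A (FF (M * ℓ)) b = cst (M * ℓ) (b : Kbar) := rfl
    have h2 : algebraMap A (FF (M * ℓ)) (decompA A τ hτ b) =
        cst (M * ℓ) ((decompA A τ hτ b : A) : Kbar) := rfl
    rw [h1, h2, h59nTau_apply, GalI.gal_smul_cst]
    rfl
  have hθζ : ∀ η : A, η ^ r = 1 → decompA A τ hτ η = η ^ a := by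
    intro η hη
    apply Subtype.ext
    have h1 : ((η : Kbar)) ^ r = 1 := by
      have := congrArg (fun x : A => (x : Kbar)) hη
      simpa using this
    have h2 := hcyc (η : Kbar) h1
    rw [coe_decompA]
    simpa using h2
  have hθπ : π ∣ decompA A τ hτ π := by
    haveI : Algebra.IsAlgebraic ℚ Kbar := AlgebraicClosure.isAlgebraic ℚ
    obtain ⟨u, hu, h⟩ := h59d_decomp_dvd A hτ (π : Kbar)
    refine ⟨⟨u, hu⟩, ?_⟩
    apply Subtype.ext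
    rw [coe_decompA]
    simpa using h
  have hwU' : w ∈ h26U ((r : A) * ((r : A) * π)) (ssV A M ℓ) := by
    have h1 : (r : A) * ((r : A) * π) = (r : A) ^ 2 * π := by ring
    rw [h1]
    exact hwU
  obtain ⟨g, hg, s, hs, h1, h2⟩ := h59n_torNode_deep hNF hC₀ hAF harch
    (h85cWinf A M ℓ hℓ hA).toSubring (h85cW0 A M ℓ hℓ hM hA).toSubring
    (fun x hx => h85c_ssV_le_Winf A M ℓ hℓ hA hx)
    (fun x hx => h85c_ssV_le_W0 A M ℓ hℓ hM hA hx)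
    (h85c_hWV A M ℓ hℓ hM hA)
    (fun x => (h85cWinf A M ℓ hℓ hA).mem_or_inv_mem x)
    (fun x => (h85cW0 A M ℓ hℓ hM hA).mem_or_inv_mem x)
    (fun π hπ x hx => h86t_Winf_unit A M ℓ hℓ hA π hπ x hx)
    (fun π hπ x hx => h86t_W0_unit A M ℓ hℓ hM hA π hπ x hx)
    (fun π hπ x hx => h86t_Winf_nt A M ℓ hℓ hA π hπ x hx)
    (fun π hπ x hx => h86t_W0_nt A M ℓ hℓ hM hA π hπ x hx)
    𝔫 h𝔫 hle
    (fun b hb => by_contra fun h => hb (hbi b h))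
    (fun b hb => by_contra fun h => hb (hb0 b h))
    x y c hx hy hc a₀ ha₀ hxy hxinf hy0 hgen
    (fun i hi => hS₀ i 𝔫 h𝔫 hle hi)
    (h59nTau (M * ℓ) τ) (decompA A τ hτ) hτθ a
    (fun x hx => h86t_gal_mem_Winf A M ℓ hℓ hA hτ hx)
    (fun x hx => h86t_gal_mem_W0 A M ℓ hℓ hM hA hτ hx)
    hPerm r hr hrA hζ hθζ w hw0 (exists_val_eq (M * ℓ) (jSS M ℓ) w hw0 r hord)
    π hπ hπ0 hθπ hwU'
  refine ⟨g, hg, s, hs, ?_, ?_⟩
  · have e1 : h11Theta (M * ℓ) τ a w = h59nTau (M * ℓ) τ w * (w ^ a)⁻¹ := by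
      rw [h11Theta, div_eq_mul_inv]; rfl
    rw [e1]; exact h1
  · have e1 : h11Theta (M * ℓ) τ a w = h59nTau (M * ℓ) τ w * (w ^ a)⁻¹ := by
      rw [h11Theta, div_eq_mul_inv]; rfl
    rw [e1]; exact h2

/-- the inertia group is contained in the decomposition group. -/
theorem h59n_inertia_mem_decomp {τ : GQ} (hτ : τ ∈ A.inertiaSubgroupIn ℚ) :
    τ ∈ A.decompositionSubgroup ℚ := by
  obtain ⟨⟨σ, hσ⟩, -, rfl⟩ := hτ
  exact hσ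

/-- **PERM for one Galois element** (the shape of `IfaceTorPerm`, S35): `τ` respects the places
centered at every closed point of the special fibre of the finite chart lying on both
components. -/
def H59nPerm (hℓ : ℓ.Prime) (hM : ¬ ℓ ∣ M) (hA : A.LiesOverPrime ℓ) (τ : GQ) : Prop :=
  ∀ 𝔫 : Ideal (chart (M * ℓ) A (jSS M ℓ)), 𝔫.IsMaximal → mExt A M ℓ (jSS M ℓ) ≤ 𝔫 →
    TorOnBoth A M ℓ hℓ hM hA (jSS M ℓ) 𝔫 →
    ∀ z : FF (M * ℓ),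
      (∀ k, h26Centered (chart (M * ℓ) A (jSS M ℓ)) (chartVal (M * ℓ) (jSS M ℓ)) 𝔫 k →
        chartVal (M * ℓ) (jSS M ℓ) k z = 1) →
      ∀ k, h26Centered (chart (M * ℓ) A (jSS M ℓ)) (chartVal (M * ℓ) (jSS M ℓ)) 𝔫 k →
        chartVal (M * ℓ) (jSS M ℓ) k (gal (M * ℓ) τ • z) = 1

/-- **the deep local datum of `Θ(w) = τ w / w ^ a` at ALL the nodes of the finite chart**,
`τ` in the inertia group acting on `μ_{ℓ^k}` by the exponent `a`: the node input of the deep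
gate `h90p_deepTor` for `W = h11Theta (M ℓ) τ a w`, modulo the deep normal form and PERM. -/
theorem h59n_locAt_nodes (hNF : H59nNodeNF.{0, 0, 0})
    (hℓ : ℓ.Prime) (hM : ¬ ℓ ∣ M) (haux : auxLevel ℓ ∣ M) (hA : A.LiesOverPrime ℓ)
    (τ : GQ) (hτ : τ ∈ A.inertiaSubgroupIn ℚ) (hPerm : H59nPerm A M ℓ hℓ hM hA τ)
    (k a : ℕ) (hcyc : H11Cyc ℓ k τ a)
    (w : FF (M * ℓ)) (hw0 : w ≠ 0)
    (hord : ∀ v : Place Kbar (FF (M * ℓ)), ((ℓ ^ k : ℕ) : ℤ) ∣ v.ord w)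
    (π : A) (hπ : π ∈ maximalIdeal A) (hπ0 : π ≠ 0)
    (hwU : w ∈ h26U (((ℓ ^ k : ℕ) : A) ^ 2 * π) (ssV A M ℓ)) :
    ∀ 𝔫 : Ideal (chart (M * ℓ) A (jSS M ℓ)), 𝔫.IsMaximal → mExt A M ℓ (jSS M ℓ) ≤ 𝔫 →
      TorNodeAt A M ℓ hℓ hM hA (jSS M ℓ) 𝔫 →
      H90pLocAt A M ℓ (jSS M ℓ) (ℓ ^ k) π (h11Theta (M * ℓ) τ a w) 𝔫 :=
  fun 𝔫 h𝔫 hle hNd =>
    h59n_locAt_node A M ℓ hNF hℓ hM haux hA τ (h59n_inertia_mem_decomp A hτ) (ℓ ^ k) a
      (pow_pos hℓ.pos k) hcyc 𝔫 h𝔫 hle hNd (hPerm 𝔫 h𝔫 hle hNd.1) w hw0 hord π hπ hπ0 hwU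

end Level

end Fermat.Agent.P6
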