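import Fermat.Agent.P6.H60WApprox
import Fermat.Agent.S35.H85TorGal
import Fermat.Agent.LGC.Gal75

/-!
# P6 (wave 6, S33), block B2-TOR, the PHASE at a node (helper60)

`ℓ ∤ M` prime, `A` a valuation subring of `ℚ̄` over `ℓ`, `W_∞ = softV A (Mℓ)`, `w = kFricke`,
`W_0 = w (W_∞)`, `ssV = W_∞ ∩ W_0`, `τ` in the inertia group of `A`.

For a root of unity `ζ` (or any unit `ζ` of `A`) and a partition of unity `E` of depth `d`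
(`E ≡ 1 mod d W_∞`, `E ≡ 0 mod d W_0`, `P6/H60WApprox.lean`), the **phase**
`E_ζ = 1 + (ζ - 1) E` is a unit of `ssV` with `E_ζ ≡ ζ mod d W_∞`, `E_ζ ≡ 1 mod d W_0`.

* `h60f_gal_cong` : `τ` preserves `1 + d W_∞`.
* `h60f_ss_of_two` : `x ∈ 1 + d W_∞` and `w x ∈ 1 + d W_∞`  `⟹`  `x ∈ 1 + d ssV`.
* `h60f_phase` : for every nonzero `d ∈ 𝔪_A` there is a unit `E_ζ` of `ssV` with
  `E_ζ ∈ ζ (1 + d W_∞)`, `w E_ζ ∈ 1 + d W_∞`, and, if `ζ ^ r = 1`, `E_ζ ^ r ∈ 1 + d ssV`;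
  if `τ ζ = ζ ^ a`, then `τ E_ζ / E_ζ ^ a ∈ 1 + d ssV` (**the phase is killed by the twisted
  difference**).
* `h60f_twist_of_phase` : if `G = o · E_ζ · (1 + d y)` with `y ∈ ssV` and `τ ζ = ζ ^ a`, then
  `τ G / G ^ a = (τ o / o ^ a) · (1 + d y')` with `y' ∈ ssV`.
-/

set_option autoImplicit false
set_option linter.style.haveILetI false
set_option linter.unusedSectionVars false
set_option synthInstance.maxHeartbeats 400000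

open AlgebraicCurve ModularCurve IsLocalRing Polynomial

noncomputable section

namespace Fermat.Agent.P6

open Fermat.Agent.Red.GV Fermat.Agent.Red.GV.Soft Fermat.Agent.Red.Kron Fermat.Agent.LGC
  Fermat.Agent.S37 Fermat.Agent.Red Fermat.Agent.S35

section Gal

variable (A : ValuationSubring Kbar) (N : ℕ) [NeZero N]

/-- the inertia group preserves `1 + d W`. -/
theorem h60f_gal_cong {τ : GQ} (hτ : τ ∈ A.inertiaSubgroupIn ℚ) {d : Kbar} (hd0 : d ≠ 0)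
    {x : FF N} (hx : ∃ z ∈ softV A N, x = 1 + cst N d * z) :
    ∃ z ∈ softV A N, gal N τ • x = 1 + cst N d * z := by
  obtain ⟨z, hz, rfl⟩ := hx
  have hdec := mem_decomp_of_mem_inertia A hτ
  have h1 : τ d / d ∈ A := (h75q_inertia_div_mem A hτ d hd0).1
  refine ⟨cst N (τ d / d) * gal N τ • z,
    mul_mem ((cst_mem_softV_iff A N _).mpr h1) ((h85t_gal_mem_softV_iff A N hdec z).mpr hz), ?_⟩
  rw [smul_add, smul_one, smul_mul', GalI.gal_smul_cst, ← mul_assoc,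
    ← show cst N (d * (τ d / d)) = cst N d * cst N (τ d / d) from
      map_mul (algebraMap Kbar (FF N)) d (τ d / d)]
  congr 3
  field_simp

end Gal

section Phase

variable (A : ValuationSubring Kbar) (M ℓ : ℕ) [NeZero M] [NeZero ℓ]

/-- `x ∈ 1 + d W_∞` and `w x ∈ 1 + d W_∞` give `x ∈ 1 + d ssV`. -/
theorem h60f_ss_of_two (hℓ : ℓ.Prime) (hM : ¬ ℓ ∣ M) (hA : A.LiesOverPrime ℓ)
    (d : A) (hd0 : d ≠ 0) {x : FF (M * ℓ)}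
    (h₁ : ∃ z ∈ softV A (M * ℓ), x = 1 + cst (M * ℓ) (d : Kbar) * z)
    (h₀ : ∃ z ∈ softV A (M * ℓ), kFricke M ℓ hℓ hM x = 1 + cst (M * ℓ) (d : Kbar) * z) :
    x ∈ h26U d (ssV A M ℓ) := by
  obtain ⟨z, hz, e⟩ := h₁
  obtain ⟨z', hz', e'⟩ := h₀
  have hd0' : (d : Kbar) ≠ 0 := fun h0 => hd0 (Subtype.ext h0)
  refine ⟨z, ?_, e⟩
  rw [h44r_mem_ssV_iff A M ℓ hℓ hM hA]
  refine ⟨hz, ?_⟩
  have hcd : cst (M * ℓ) (d : Kbar) ≠ 0 := by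
    rw [Ne, map_eq_zero_iff _ (algebraMap Kbar (FF (M * ℓ))).injective]
    exact hd0'
  have h1 : cst (M * ℓ) (d : Kbar) * kFricke M ℓ hℓ hM z = cst (M * ℓ) (d : Kbar) * z' := by
    have h2 := e'
    rw [e, map_add, map_one, map_mul, h60w_fricke_cst] at h2
    exact add_left_cancel h2
  rw [mul_left_cancel₀ hcd h1]
  exact hz'

/-- `x ∈ 1 + d ssV` gives `x ∈ 1 + d W_∞` and `w x ∈ 1 + d W_∞`. -/
theorem h60f_two_of_ss (hℓ : ℓ.Prime) (hM : ¬ ℓ ∣ M) (hA : A.LiesOverPrime ℓ)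
    (d : A) {x : FF (M * ℓ)} (hx : x ∈ h26U d (ssV A M ℓ)) :
    (∃ z ∈ softV A (M * ℓ), x = 1 + cst (M * ℓ) (d : Kbar) * z) ∧
      ∃ z ∈ softV A (M * ℓ), kFricke M ℓ hℓ hM x = 1 + cst (M * ℓ) (d : Kbar) * z := by
  obtain ⟨v, hv, e⟩ := hx
  rw [h44r_mem_ssV_iff A M ℓ hℓ hM hA] at hv
  refine ⟨⟨v, hv.1, e⟩, kFricke M ℓ hℓ hM v, hv.2, ?_⟩
  rw [e, map_add, map_one, map_mul]
  congr 2
  exact h60w_fricke_cst M ℓ hℓ hM (d : Kbar)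

/-- **the phase**: for a unit `ζ` of `A` and every nonzero `d ∈ 𝔪_A` there is a unit `E_ζ` of
`ssV` with `E_ζ ∈ ζ (1 + d W_∞)` and `w E_ζ ∈ 1 + d W_∞`. -/
theorem h60f_phase_exists (hℓ : ℓ.Prime) (hM : ¬ ℓ ∣ M) (hA : A.LiesOverPrime ℓ)
    (ζ : Kbar) (hζ : ζ ∈ A) (hζi : ζ⁻¹ ∈ A) (hζ0 : ζ ≠ 0)
    (d : Kbar) (hd : d ∈ A.nonunits) (hd0 : d ≠ 0) :
    ∃ Ez : FF (M * ℓ), Ez ≠ 0 ∧ Ez ∈ ssV A M ℓ ∧ Ez⁻¹ ∈ ssV A M ℓ ∧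
      (∃ z ∈ softV A (M * ℓ), Ez = cst (M * ℓ) ζ * (1 + cst (M * ℓ) d * z)) ∧
      ∃ z ∈ softV A (M * ℓ), kFricke M ℓ hℓ hM Ez = 1 + cst (M * ℓ) d * z := by
  have hdA : d ∈ A := A.nonunits_le hd
  obtain ⟨E, z, z', hz, hz', hE, hwE⟩ := h60w_partition A M ℓ hℓ hM hA d hdA hd0
  have hcζ : cst (M * ℓ) ζ ≠ 0 := by
    rw [Ne, map_eq_zero_iff _ (algebraMap Kbar (FF (M * ℓ))).injective]
    exact hζ0
  have hζW : cst (M * ℓ) ζ ∈ softV A (M * ℓ) := (cst_mem_softV_iff A (M * ℓ) ζ).mpr hζ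
  have hζiW : cst (M * ℓ) ζ⁻¹ ∈ softV A (M * ℓ) := (cst_mem_softV_iff A (M * ℓ) ζ⁻¹).mpr hζi
  have h1W : cst (M * ℓ) (ζ - 1) ∈ softV A (M * ℓ) :=
    (cst_mem_softV_iff A (M * ℓ) _).mpr (sub_mem hζ A.one_mem)
  have h2W : cst (M * ℓ) (1 - ζ⁻¹) ∈ softV A (M * ℓ) :=
    (cst_mem_softV_iff A (M * ℓ) _).mpr (sub_mem A.one_mem hζi)
  have hy : cst (M * ℓ) (1 - ζ⁻¹) * z ∈ softV A (M * ℓ) := mul_mem h2W hz
  have hy' : cst (M * ℓ) (ζ - 1) * z' ∈ softV A (M * ℓ) := mul_mem h1W hz'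
  -- the two expansions
  have e₁ : 1 + cst (M * ℓ) (ζ - 1) * E =
      cst (M * ℓ) ζ * (1 + cst (M * ℓ) d * (cst (M * ℓ) (1 - ζ⁻¹) * z)) := by
    have hs : cst (M * ℓ) (ζ - 1) = cst (M * ℓ) ζ - 1 := by
      rw [show cst (M * ℓ) (ζ - 1) = cst (M * ℓ) ζ - cst (M * ℓ) 1 from
        map_sub (algebraMap Kbar (FF (M * ℓ))) ζ 1,
        show cst (M * ℓ) (1 : Kbar) = 1 from map_one (algebraMap Kbar (FF (M * ℓ)))]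
    have hs' : cst (M * ℓ) ζ * cst (M * ℓ) (1 - ζ⁻¹) = cst (M * ℓ) ζ - 1 := by
      rw [← show cst (M * ℓ) (ζ * (1 - ζ⁻¹)) = cst (M * ℓ) ζ * cst (M * ℓ) (1 - ζ⁻¹) from
        map_mul (algebraMap Kbar (FF (M * ℓ))) ζ (1 - ζ⁻¹), ← hs]
      congr 1
      field_simp
    rw [hE, hs]
    linear_combination (cst (M * ℓ) d * z) * (-hs')
  have e₀ : kFricke M ℓ hℓ hM (1 + cst (M * ℓ) (ζ - 1) * E) =
      1 + cst (M * ℓ) d * (cst (M * ℓ) (ζ - 1) * z') := by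
    rw [map_add, map_one, map_mul, h60w_fricke_cst, hwE]
    ring
  obtain ⟨hne₁, y₁, hy₁, hi₁⟩ := h60w_one_add_inv A (M * ℓ) hd hy
  obtain ⟨hne₀, y₀, hy₀, hi₀⟩ := h60w_one_add_inv A (M * ℓ) hd hy'
  have hdW : cst (M * ℓ) d ∈ softV A (M * ℓ) := (cst_mem_softV_iff A (M * ℓ) d).mpr hdA
  have hEz0 : 1 + cst (M * ℓ) (ζ - 1) * E ≠ 0 := by
    rw [e₁]
    exact mul_ne_zero hcζ hne₁
  refine ⟨1 + cst (M * ℓ) (ζ - 1) * E, hEz0, ?_, ?_, ⟨_, hy, e₁⟩, ⟨_, hy', e₀⟩⟩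
  · rw [h44r_mem_ssV_iff A M ℓ hℓ hM hA]
    refine ⟨?_, ?_⟩
    · rw [e₁]
      exact mul_mem hζW (add_mem (one_mem _) (mul_mem hdW hy))
    · rw [e₀]
      exact add_mem (one_mem _) (mul_mem hdW hy')
  · rw [h44r_mem_ssV_iff A M ℓ hℓ hM hA]
    refine ⟨?_, ?_⟩
    · rw [e₁, mul_inv, hi₁,
        ← show cst (M * ℓ) ζ⁻¹ = (cst (M * ℓ) ζ)⁻¹ from map_inv₀ (algebraMap Kbar (FF (M * ℓ))) ζ]
      exact mul_mem hζiW (add_mem (one_mem _) (mul_mem hdW hy₁))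
    · rw [map_inv₀, e₀, hi₀]
      exact add_mem (one_mem _) (mul_mem hdW hy₀)

/-- **the phase is killed by the twisted difference**: for `τ` in the inertia group with
`τ ζ = ζ ^ a` and `E_ζ ∈ ζ (1 + d W_∞)`, `w E_ζ ∈ 1 + d W_∞`:
`τ E_ζ / E_ζ ^ a ∈ 1 + d ssV`. -/
theorem h60f_phase_twist (hℓ : ℓ.Prime) (hM : ¬ ℓ ∣ M) (hA : A.LiesOverPrime ℓ)
    {τ : GQ} (hτ : τ ∈ A.inertiaSubgroupIn ℚ) (a : ℕ) (ζ : Kbar) (hζ0 : ζ ≠ 0)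
    (hτζ : τ ζ = ζ ^ a) (d : A) (hd : d ∈ maximalIdeal A) (hd0 : d ≠ 0)
    (Ez : FF (M * ℓ))
    (h₁ : ∃ z ∈ softV A (M * ℓ), Ez = cst (M * ℓ) ζ * (1 + cst (M * ℓ) (d : Kbar) * z))
    (h₀ : ∃ z ∈ softV A (M * ℓ), kFricke M ℓ hℓ hM Ez = 1 + cst (M * ℓ) (d : Kbar) * z) :
    gal (M * ℓ) τ • Ez * (Ez ^ a)⁻¹ ∈ h26U d (ssV A M ℓ) := by
  have hd' : (d : Kbar) ∈ A.nonunits := ValuationSubring.coe_mem_nonunits_iff.mpr hd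
  have hdA : (d : Kbar) ∈ A := d.2
  have hd0' : (d : Kbar) ≠ 0 := fun h0 => hd0 (Subtype.ext h0)
  have hcζ : cst (M * ℓ) ζ ≠ 0 := by
    rw [Ne, map_eq_zero_iff _ (algebraMap Kbar (FF (M * ℓ))).injective]
    exact hζ0
  obtain ⟨z, hz, e₁⟩ := h₁
  obtain ⟨z', hz', e₀⟩ := h₀
  apply h60f_ss_of_two A M ℓ hℓ hM hA d hd0
  · -- at `W_∞`
    obtain ⟨t, ht, et⟩ := h60f_gal_cong A (M * ℓ) hτ hd0' ⟨z, hz, rfl⟩
    obtain ⟨p, hp, ep⟩ := h60w_one_add_pow A (M * ℓ) hdA hz a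
    obtain ⟨hne, q, hq, eq⟩ := h60w_one_add_inv A (M * ℓ) hd' hp
    obtain ⟨s, hs, es⟩ := h60w_one_add_mul A (M * ℓ) hdA ht hq
    refine ⟨s, hs, ?_⟩
    rw [← es, ← et, ← eq, ← ep, e₁, smul_mul', GalI.gal_smul_cst, hτζ, mul_pow, mul_inv,
      show cst (M * ℓ) (ζ ^ a) = cst (M * ℓ) ζ ^ a from map_pow (algebraMap Kbar (FF (M * ℓ))) ζ a]
    have hpow : cst (M * ℓ) ζ ^ a ≠ 0 := pow_ne_zero a hcζ
    field_simp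
  · -- at `W_0`
    obtain ⟨t, ht, et⟩ := h60f_gal_cong A (M * ℓ) hτ hd0' ⟨z', hz', rfl⟩
    obtain ⟨p, hp, ep⟩ := h60w_one_add_pow A (M * ℓ) hdA hz' a
    obtain ⟨hne, q, hq, eq⟩ := h60w_one_add_inv A (M * ℓ) hd' hp
    obtain ⟨s, hs, es⟩ := h60w_one_add_mul A (M * ℓ) hdA ht hq
    refine ⟨s, hs, ?_⟩
    rw [← es, ← et, ← eq, ← ep, map_mul, map_inv₀, map_pow, h85t_kFricke_gal, e₀]

/-- the `r`-th power of the phase of an `r`-th root of unity is `≡ 1 mod d ssV`. -/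
theorem h60f_phase_pow (hℓ : ℓ.Prime) (hM : ¬ ℓ ∣ M) (hA : A.LiesOverPrime ℓ)
    (r : ℕ) (ζ : Kbar) (hζr : ζ ^ r = 1) (d : A) (hd0 : d ≠ 0)
    (Ez : FF (M * ℓ))
    (h₁ : ∃ z ∈ softV A (M * ℓ), Ez = cst (M * ℓ) ζ * (1 + cst (M * ℓ) (d : Kbar) * z))
    (h₀ : ∃ z ∈ softV A (M * ℓ), kFricke M ℓ hℓ hM Ez = 1 + cst (M * ℓ) (d : Kbar) * z) :
    Ez ^ r ∈ h26U d (ssV A M ℓ) := by
  have hdA : (d : Kbar) ∈ A := d.2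
  obtain ⟨z, hz, e₁⟩ := h₁
  obtain ⟨z', hz', e₀⟩ := h₀
  apply h60f_ss_of_two A M ℓ hℓ hM hA d hd0
  · obtain ⟨p, hp, ep⟩ := h60w_one_add_pow A (M * ℓ) hdA hz r
    refine ⟨p, hp, ?_⟩
    rw [e₁, mul_pow, ep,
      ← show cst (M * ℓ) (ζ ^ r) = cst (M * ℓ) ζ ^ r from
        map_pow (algebraMap Kbar (FF (M * ℓ))) ζ r, hζr,
      show cst (M * ℓ) (1 : Kbar) = 1 from map_one (algebraMap Kbar (FF (M * ℓ))), one_mul]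
  · obtain ⟨p, hp, ep⟩ := h60w_one_add_pow A (M * ℓ) hdA hz' r
    refine ⟨p, hp, ?_⟩
    rw [map_pow, e₀, ep]

/-- **the phase of a root of unity** (all properties): for `ζ ^ r = 1`, `r > 0`, `τ` in the
inertia group with `τ ζ = ζ ^ a`, and every nonzero `d ∈ 𝔪_A`, there is a unit `E_ζ` of `ssV`
with `E_ζ ∈ ζ (1 + d W_∞)`, `w E_ζ ∈ 1 + d W_∞`, `E_ζ ^ r ∈ 1 + d ssV` and
`τ E_ζ / E_ζ ^ a ∈ 1 + d ssV`. -/
theorem h60f_phase (hℓ : ℓ.Prime) (hM : ¬ ℓ ∣ M) (hA : A.LiesOverPrime ℓ)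
    {τ : GQ} (hτ : τ ∈ A.inertiaSubgroupIn ℚ) (r : ℕ) (hr : 0 < r) (a : ℕ) (ζ : Kbar)
    (hζr : ζ ^ r = 1) (hτζ : τ ζ = ζ ^ a) (d : A) (hd : d ∈ maximalIdeal A) (hd0 : d ≠ 0) :
    ∃ Ez : FF (M * ℓ), Ez ≠ 0 ∧ Ez ∈ ssV A M ℓ ∧ Ez⁻¹ ∈ ssV A M ℓ ∧
      (∃ z ∈ softV A (M * ℓ), Ez = cst (M * ℓ) ζ * (1 + cst (M * ℓ) (d : Kbar) * z)) ∧
      (∃ z ∈ softV A (M * ℓ), kFricke M ℓ hℓ hM Ez = 1 + cst (M * ℓ) (d : Kbar) * z) ∧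
      Ez ^ r ∈ h26U d (ssV A M ℓ) ∧
      gal (M * ℓ) τ • Ez * (Ez ^ a)⁻¹ ∈ h26U d (ssV A M ℓ) := by
  have hd' : (d : Kbar) ∈ A.nonunits := ValuationSubring.coe_mem_nonunits_iff.mpr hd
  have hd0' : (d : Kbar) ≠ 0 := fun h0 => hd0 (Subtype.ext h0)
  have hζ0 : ζ ≠ 0 := by
    rintro rfl
    rw [zero_pow hr.ne'] at hζr
    exact zero_ne_one hζr
  -- a root of unity and its inverse are integral
  have hmem : ∀ x : Kbar, x ^ r = 1 → x ∈ A := by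
    intro x hx
    rcases A.mem_or_inv_mem x with h | h
    · exact h
    · have h1 : x = x⁻¹ ^ (r - 1) := by
        have hx0 : x ≠ 0 := by
          rintro rfl
          rw [zero_pow hr.ne'] at hx
          exact zero_ne_one hx
        have h2 : x * x⁻¹ ^ r = x⁻¹ ^ (r - 1) := by
          obtain ⟨n, rfl⟩ : ∃ n, r = n + 1 := ⟨r - 1, by omega⟩
          rw [pow_succ, Nat.add_sub_cancel]
          field_simp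
        rw [← h2, inv_pow, hx, inv_one, mul_one]
      rw [h1]
      exact pow_mem h _
  have hζA : ζ ∈ A := hmem ζ hζr
  have hζiA : ζ⁻¹ ∈ A := hmem ζ⁻¹ (by rw [inv_pow, hζr, inv_one])
  obtain ⟨Ez, hEz0, hEz, hEzi, h₁, h₀⟩ :=
    h60f_phase_exists A M ℓ hℓ hM hA ζ hζA hζiA hζ0 (d : Kbar) hd' hd0'
  exact ⟨Ez, hEz0, hEz, hEzi, h₁, h₀, h60f_phase_pow A M ℓ hℓ hM hA r ζ hζr d hd0 Ez h₁ h₀,
    h60f_phase_twist A M ℓ hℓ hM hA hτ a ζ hζ0 hτζ d hd hd0 Ez h₁ h₀⟩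

/-- the group `1 + d ssV` (`d ∈ 𝔪_A`): products. -/
theorem h60f_U_mul (d : A) {x y : FF (M * ℓ)} (hx : x ∈ h26U d (ssV A M ℓ))
    (hy : y ∈ h26U d (ssV A M ℓ)) (hdV : algebraMap A (FF (M * ℓ)) d ∈ ssV A M ℓ) :
    x * y ∈ h26U d (ssV A M ℓ) :=
  h26U_mul hdV hx hy

/-- **the twisted difference of a function with a phase**: if `G = o · E_ζ · u` with
`u ∈ 1 + d ssV`, `E_ζ` a phase of `ζ` of depth `d` and `τ ζ = ζ ^ a`, then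
`τ G / G ^ a = (τ o / o ^ a) · u'` with `u' ∈ 1 + d ssV`. -/
theorem h60f_twist_of_phase (hℓ : ℓ.Prime) (hM : ¬ ℓ ∣ M) (hA : A.LiesOverPrime ℓ)
    {τ : GQ} (hτ : τ ∈ A.inertiaSubgroupIn ℚ) (a : ℕ) (ζ : Kbar) (hζ0 : ζ ≠ 0)
    (hτζ : τ ζ = ζ ^ a) (d : A) (hd : d ∈ maximalIdeal A) (hd0 : d ≠ 0)
    (Ez : FF (M * ℓ))
    (h₁ : ∃ z ∈ softV A (M * ℓ), Ez = cst (M * ℓ) ζ * (1 + cst (M * ℓ) (d : Kbar) * z))
    (h₀ : ∃ z ∈ softV A (M * ℓ), kFricke M ℓ hℓ hM Ez = 1 + cst (M * ℓ) (d : Kbar) * z)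
    (o u G : FF (M * ℓ)) (hu : u ∈ h26U d (ssV A M ℓ)) (hG : G = o * Ez * u) :
    ∃ u' ∈ h26U d (ssV A M ℓ),
      gal (M * ℓ) τ • G * (G ^ a)⁻¹ = (gal (M * ℓ) τ • o * (o ^ a)⁻¹) * u' := by
  have hd' : (d : Kbar) ∈ A.nonunits := ValuationSubring.coe_mem_nonunits_iff.mpr hd
  have hdA : (d : Kbar) ∈ A := d.2
  have hd0' : (d : Kbar) ≠ 0 := fun h0 => hd0 (Subtype.ext h0)
  have hph := h60f_phase_twist A M ℓ hℓ hM hA hτ a ζ hζ0 hτζ d hd hd0 Ez h₁ h₀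
  -- the twisted difference of `u`
  obtain ⟨hu₁, hu₀⟩ := h60f_two_of_ss A M ℓ hℓ hM hA d hu
  have htw : gal (M * ℓ) τ • u * (u ^ a)⁻¹ ∈ h26U d (ssV A M ℓ) := by
    apply h60f_ss_of_two A M ℓ hℓ hM hA d hd0
    · obtain ⟨z, hz, e⟩ := hu₁
      obtain ⟨t, ht, et⟩ := h60f_gal_cong A (M * ℓ) hτ hd0' ⟨z, hz, e⟩
      obtain ⟨p, hp, ep⟩ := h60w_one_add_pow A (M * ℓ) hdA hz a
      obtain ⟨hne, q, hq, eq⟩ := h60w_one_add_inv A (M * ℓ) hd' hp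
      obtain ⟨s, hs, es⟩ := h60w_one_add_mul A (M * ℓ) hdA ht hq
      exact ⟨s, hs, by rw [← es, ← et, ← eq, ← ep, ← e]⟩
    · obtain ⟨z, hz, e⟩ := hu₀
      obtain ⟨t, ht, et⟩ := h60f_gal_cong A (M * ℓ) hτ hd0' ⟨z, hz, e⟩
      obtain ⟨p, hp, ep⟩ := h60w_one_add_pow A (M * ℓ) hdA hz a
      obtain ⟨hne, q, hq, eq⟩ := h60w_one_add_inv A (M * ℓ) hd' hp
      obtain ⟨s, hs, es⟩ := h60w_one_add_mul A (M * ℓ) hdA ht hq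
      exact ⟨s, hs, by
        rw [← es, ← et, ← eq, ← ep, ← e, map_mul, map_inv₀, map_pow, h85t_kFricke_gal]⟩
  have hdV : algebraMap A (FF (M * ℓ)) d ∈ ssV A M ℓ := by
    rw [h44r_mem_ssV_iff A M ℓ hℓ hM hA]
    refine ⟨(cst_mem_softV_iff A (M * ℓ) _).mpr hdA, ?_⟩
    have e : kFricke M ℓ hℓ hM (algebraMap A (FF (M * ℓ)) d) = cst (M * ℓ) (d : Kbar) :=
      h60w_fricke_cst M ℓ hℓ hM (d : Kbar)
    rw [e]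
    exact (cst_mem_softV_iff A (M * ℓ) _).mpr hdA
  refine ⟨(gal (M * ℓ) τ • Ez * (Ez ^ a)⁻¹) * (gal (M * ℓ) τ • u * (u ^ a)⁻¹),
    h26U_mul hdV hph htw, ?_⟩
  rw [hG, smul_mul', smul_mul', mul_pow, mul_pow, mul_inv, mul_inv]
  ring

end Phase

end Fermat.Agent.P6
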