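import Fermat.Agent.P6.H71PU
import Fermat.Agent.P5.H72Arch

/-!
# P6 (wave 6, S33), row B2-WAPPROX (helper60): weak approximation at the two Gauss valuations

`ℓ ∤ M` prime, `A` a valuation subring of `ℚ̄` over `ℓ`, `W_∞ = softV A (Mℓ)`, `w = kFricke`,
`W_0 = w (W_∞)`.

Abstract part (any commutative ring `F`, subring `W`, ring endomorphism `w`):

* `h60w_boost` : a partition of unity of depth `π` gives one of depth `π ^ n`
  (`E ↦ 1 - (1 - E ^ n) ^ n`).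

Concrete part:

* `h60w_exists_scale` : every function becomes Gauss-integral after multiplication by a nonzero
  constant of `A`.
* `h60w_partition` : **partition of unity of every depth** `d ∈ A`, `d ≠ 0`:
  `E = 1 + d z`, `w E = d z'`, `z, z' ∈ W_∞`.
* `h60w_approx_add` : additive weak approximation: `h = x + d z`, `w h = w y + d z'`.
* `h60w_approx_mul` : multiplicative weak approximation (relative precision):
  `h = x (1 + d z)`, `w h = (w y) (1 + d z')`, `h ≠ 0`.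
* `h60w_one_add_inv`, `h60w_one_add_mul`, `h60w_one_add_pow` : the group `1 + d W_∞`,
  `d ∈ 𝔪_A`.
* `h60w_glue` : if `c₁ u / h₁ ^ n ∈ 1 + d W_∞` and `w (c₀ u / h₀ ^ n) ∈ 1 + d W_∞`
  then there are ONE constant `c` and ONE function `h` with `c u / h ^ n ∈ 1 + d W_∞` and
  `w (c u / h ^ n) ∈ 1 + d W_∞`.
* `h60w_glue_ss` : the same with the conclusion in the form `c u / h ^ n ∈ h26U d (ssV A M ℓ)`.
-/

set_option autoImplicit false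
set_option linter.style.haveILetI false
set_option linter.unusedSectionVars false
set_option synthInstance.maxHeartbeats 400000

open AlgebraicCurve ModularCurve IsLocalRing Polynomial

noncomputable section

namespace Fermat.Agent.P6

open Fermat.Agent.Red.GV Fermat.Agent.Red.GV.Soft Fermat.Agent.Red.Kron Fermat.Agent.LGC
  Fermat.Agent.S37 Fermat.Agent.Red

/-! ### The abstract boost -/

section Abs

variable {F : Type*} [CommRing F] (W : Subring F) {G : Type*} [FunLike G F F]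
  [RingHomClass G F F] (w : G)

/-- **boost**: a partition of unity of depth `π` gives one of depth `π ^ n`. -/
theorem h60w_boost {π E z z' : F} (hπ : π ∈ W) (hz : z ∈ W) (hz' : z' ∈ W)
    (hE : E = 1 + π * z) (hwE : w E = π * z') (n : ℕ) :
    ∃ E' y y' : F, y ∈ W ∧ y' ∈ W ∧ E' = 1 + π ^ n * y ∧ w E' = π ^ n * y' := by
  have hEW : E ∈ W := by rw [hE]; exact W.add_mem W.one_mem (W.mul_mem hπ hz)
  have hSW : ∑ i ∈ Finset.range n, E ^ i ∈ W := W.sum_mem fun i _ => W.pow_mem hEW i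
  have h1 : 1 - E ^ n = (1 - E) * ∑ i ∈ Finset.range n, E ^ i := (mul_neg_geom_sum E n).symm
  have h3 : 1 - E = π * (-z) := by rw [hE]; ring
  have hwEW : w E ∈ W := by rw [hwE]; exact W.mul_mem hπ hz'
  have htW : (w E) ^ n ∈ W := W.pow_mem hwEW n
  have hQW : ∑ j ∈ Finset.range n, (1 - (w E) ^ n) ^ j ∈ W :=
    W.sum_mem fun j _ => W.pow_mem (W.sub_mem W.one_mem htW) j
  have h2 : 1 - (1 - (w E) ^ n) ^ n =
      (w E) ^ n * ∑ j ∈ Finset.range n, (1 - (w E) ^ n) ^ j := by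
    rw [← mul_neg_geom_sum (1 - (w E) ^ n) n]
    ring
  refine ⟨1 - (1 - E ^ n) ^ n, -((-z) * ∑ i ∈ Finset.range n, E ^ i) ^ n,
    z' ^ n * ∑ j ∈ Finset.range n, (1 - (w E) ^ n) ^ j, ?_, ?_, ?_, ?_⟩
  · exact W.neg_mem (W.pow_mem (W.mul_mem (W.neg_mem hz) hSW) n)
  · exact W.mul_mem (W.pow_mem hz' n) hQW
  · rw [h1, h3, mul_assoc, mul_pow]
    ring
  · rw [map_sub, map_one, map_pow, map_sub, map_one, map_pow, h2, hwE, mul_pow]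
    ring

end Abs

/-! ### Scaling and the group `1 + d W` -/

section Scale

variable (A : ValuationSubring Kbar) (N : ℕ) [NeZero N] {ℓ : ℕ}

/-- every function becomes Gauss-integral after multiplication by a nonzero constant of `A`. -/
theorem h60w_exists_scale (hℓ : ℓ.Prime) (hA : A.LiesOverPrime ℓ) (x : FF N) :
    ∃ c : Kbar, c ∈ A ∧ c ≠ 0 ∧ cst N c * x ∈ softV A N := by
  by_cases hx : x = 0
  · exact ⟨1, A.one_mem, one_ne_zero, by rw [hx, mul_zero]; exact zero_mem _⟩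
  obtain ⟨c, hc0, hu, -⟩ := exists_cst_mul_unit_soft A N hℓ hA x hx
  rcases A.mem_or_inv_mem c with hc | hc
  · exact ⟨c, hc, hc0, hu⟩
  · refine ⟨1, A.one_mem, one_ne_zero, ?_⟩
    have hcc : cst N c⁻¹ * cst N c = 1 := by
      rw [← map_mul, inv_mul_cancel₀ hc0, map_one]
    have e : cst N 1 * x = cst N c⁻¹ * (cst N c * x) := by
      rw [← mul_assoc, hcc, show cst N (1 : Kbar) = 1 from map_one (algebraMap Kbar (FF N))]
    rw [e]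
    exact mul_mem ((cst_mem_softV_iff A N c⁻¹).mpr hc) hu

/-- `(1 + d a) (1 + d b) = 1 + d c`. -/
theorem h60w_one_add_mul {d : Kbar} (hd : d ∈ A) {a b : FF N} (ha : a ∈ softV A N)
    (hb : b ∈ softV A N) :
    ∃ c ∈ softV A N, (1 + cst N d * a) * (1 + cst N d * b) = 1 + cst N d * c :=
  ⟨a + b + cst N d * a * b,
    add_mem (add_mem ha hb) (mul_mem (mul_mem ((cst_mem_softV_iff A N d).mpr hd) ha) hb),
    by ring⟩

/-- `(1 + d a) ^ n = 1 + d c`. -/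
theorem h60w_one_add_pow {d : Kbar} (hd : d ∈ A) {a : FF N} (ha : a ∈ softV A N) (n : ℕ) :
    ∃ c ∈ softV A N, (1 + cst N d * a) ^ n = 1 + cst N d * c := by
  induction n with
  | zero => exact ⟨0, zero_mem _, by rw [pow_zero, mul_zero, add_zero]⟩
  | succ n ih =>
    obtain ⟨c, hc, h⟩ := ih
    obtain ⟨c', hc', h'⟩ := h60w_one_add_mul A N hd hc ha
    exact ⟨c', hc', by rw [pow_succ, h, h']⟩

/-- `(1 + d a)⁻¹ = 1 + d c` for `d ∈ 𝔪_A`. -/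
theorem h60w_one_add_inv {d : Kbar} (hd : d ∈ A.nonunits) {a : FF N} (ha : a ∈ softV A N) :
    1 + cst N d * a ≠ 0 ∧ ∃ c ∈ softV A N, (1 + cst N d * a)⁻¹ = 1 + cst N d * c :=
  h71u_one_add_inv A N hd ha

/-- a congruence modulo `d e W` is a congruence modulo `d W` (`e ∈ A`). -/
theorem h60w_depth_le {d e : Kbar} (he : e ∈ A) {a : FF N} (ha : a ∈ softV A N) :
    ∃ c ∈ softV A N, cst N (d * e) * a = cst N d * c :=
  ⟨cst N e * a, mul_mem ((cst_mem_softV_iff A N e).mpr he) ha, by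
    rw [show cst N (d * e) = cst N d * cst N e from map_mul (algebraMap Kbar (FF N)) d e,
      mul_assoc]⟩

end Scale

/-! ### Partition of unity of every depth, weak approximation -/

section WA

variable (A : ValuationSubring Kbar) (M ℓ : ℕ) [NeZero M] [NeZero ℓ]

/-- **partition of unity of every depth** at the two Gauss valuations of level `M ℓ`. -/
theorem h60w_partition (hℓ : ℓ.Prime) (hM : ¬ ℓ ∣ M) (hA : A.LiesOverPrime ℓ)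
    (d : Kbar) (hd : d ∈ A) (hd0 : d ≠ 0) :
    ∃ E z z' : FF (M * ℓ), z ∈ softV A (M * ℓ) ∧ z' ∈ softV A (M * ℓ) ∧
      E = 1 + cst (M * ℓ) d * z ∧ kFricke M ℓ hℓ hM E = cst (M * ℓ) d * z' := by
  obtain ⟨π, hπ, -, E, z, z', hz, hz', hE, hwE⟩ := h71u_partition A M ℓ hℓ hM hA
  obtain ⟨n, a, ha, hn⟩ := Fermat.Agent.P5.h72a_archQbar A ℓ hℓ hA π d hπ hd hd0
  have hπW : cst (M * ℓ) π ∈ softV A (M * ℓ) :=
    (cst_mem_softV_iff A (M * ℓ) π).mpr (A.nonunits_le hπ)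
  obtain ⟨E', y, y', hy, hy', hE', hwE'⟩ :=
    h60w_boost (softV A (M * ℓ)) (kFricke M ℓ hℓ hM) hπW hz hz' hE hwE n
  have hpow : cst (M * ℓ) π ^ n = cst (M * ℓ) d * cst (M * ℓ) a := by
    rw [← map_pow, hn]
    exact map_mul (algebraMap Kbar (FF (M * ℓ))) d a
  have haW : cst (M * ℓ) a ∈ softV A (M * ℓ) := (cst_mem_softV_iff A (M * ℓ) a).mpr ha
  refine ⟨E', cst (M * ℓ) a * y, cst (M * ℓ) a * y', mul_mem haW hy, mul_mem haW hy', ?_, ?_⟩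
  · rw [hE', hpow, mul_assoc]
  · rw [hwE', hpow, mul_assoc]

/-- **additive weak approximation** at `W_∞`, `W_0`. -/
theorem h60w_approx_add (hℓ : ℓ.Prime) (hM : ¬ ℓ ∣ M) (hA : A.LiesOverPrime ℓ)
    (x y : FF (M * ℓ)) (d : Kbar) (hd : d ∈ A) (hd0 : d ≠ 0) :
    ∃ h z z' : FF (M * ℓ), z ∈ softV A (M * ℓ) ∧ z' ∈ softV A (M * ℓ) ∧
      h = x + cst (M * ℓ) d * z ∧
      kFricke M ℓ hℓ hM h = kFricke M ℓ hℓ hM y + cst (M * ℓ) d * z' := by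
  obtain ⟨c₁, hc₁, hc₁0, hu₁⟩ := h60w_exists_scale A (M * ℓ) hℓ hA (y - x)
  obtain ⟨c₂, hc₂, hc₂0, hu₂⟩ :=
    h60w_exists_scale A (M * ℓ) hℓ hA (kFricke M ℓ hℓ hM (x - y))
  obtain ⟨E, z, z', hz, hz', hE, hwE⟩ := h60w_partition A M ℓ hℓ hM hA (d * c₁ * c₂)
    (A.mul_mem _ _ (A.mul_mem _ _ hd hc₁) hc₂) (mul_ne_zero (mul_ne_zero hd0 hc₁0) hc₂0)
  have hc₁W : cst (M * ℓ) c₁ ∈ softV A (M * ℓ) := (cst_mem_softV_iff A (M * ℓ) c₁).mpr hc₁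
  have hc₂W : cst (M * ℓ) c₂ ∈ softV A (M * ℓ) := (cst_mem_softV_iff A (M * ℓ) c₂).mpr hc₂
  have hD : cst (M * ℓ) (d * c₁ * c₂) = cst (M * ℓ) d * cst (M * ℓ) c₁ * cst (M * ℓ) c₂ := by
    rw [show cst (M * ℓ) (d * c₁ * c₂) = cst (M * ℓ) (d * c₁) * cst (M * ℓ) c₂ from
      map_mul (algebraMap Kbar (FF (M * ℓ))) (d * c₁) c₂,
      show cst (M * ℓ) (d * c₁) = cst (M * ℓ) d * cst (M * ℓ) c₁ from
      map_mul (algebraMap Kbar (FF (M * ℓ))) d c₁]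
  refine ⟨E * x + (1 - E) * y, -(cst (M * ℓ) c₂ * z * (cst (M * ℓ) c₁ * (y - x))),
    cst (M * ℓ) c₁ * z' * (cst (M * ℓ) c₂ * kFricke M ℓ hℓ hM (x - y)),
    neg_mem (mul_mem (mul_mem hc₂W hz) hu₁), mul_mem (mul_mem hc₁W hz') hu₂, ?_, ?_⟩
  · rw [hE, hD]
    ring
  · rw [map_add, map_mul, map_mul, map_sub, map_one, hwE, hD, map_sub]
    ring

/-- **multiplicative weak approximation** (relative precision) at `W_∞`, `W_0`. -/
theorem h60w_approx_mul (hℓ : ℓ.Prime) (hM : ¬ ℓ ∣ M) (hA : A.LiesOverPrime ℓ)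
    (x y : FF (M * ℓ)) (hx : x ≠ 0) (hy : y ≠ 0) (d : Kbar) (hd : d ∈ A.nonunits)
    (hd0 : d ≠ 0) :
    ∃ h z z' : FF (M * ℓ), h ≠ 0 ∧ z ∈ softV A (M * ℓ) ∧ z' ∈ softV A (M * ℓ) ∧
      h = x * (1 + cst (M * ℓ) d * z) ∧
      kFricke M ℓ hℓ hM h = kFricke M ℓ hℓ hM y * (1 + cst (M * ℓ) d * z') := by
  have hdA : d ∈ A := A.nonunits_le hd
  obtain ⟨c₁, hc₁, hc₁0, hu₁⟩ := h60w_exists_scale A (M * ℓ) hℓ hA (y * x⁻¹ - 1)
  obtain ⟨c₂, hc₂, hc₂0, hu₂⟩ :=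
    h60w_exists_scale A (M * ℓ) hℓ hA (kFricke M ℓ hℓ hM (x * y⁻¹ - 1))
  obtain ⟨E, z, z', hz, hz', hE, hwE⟩ := h60w_partition A M ℓ hℓ hM hA (d * c₁ * c₂)
    (A.mul_mem _ _ (A.mul_mem _ _ hdA hc₁) hc₂) (mul_ne_zero (mul_ne_zero hd0 hc₁0) hc₂0)
  have hc₁W : cst (M * ℓ) c₁ ∈ softV A (M * ℓ) := (cst_mem_softV_iff A (M * ℓ) c₁).mpr hc₁
  have hc₂W : cst (M * ℓ) c₂ ∈ softV A (M * ℓ) := (cst_mem_softV_iff A (M * ℓ) c₂).mpr hc₂
  have hD : cst (M * ℓ) (d * c₁ * c₂) = cst (M * ℓ) d * cst (M * ℓ) c₁ * cst (M * ℓ) c₂ := by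
    rw [show cst (M * ℓ) (d * c₁ * c₂) = cst (M * ℓ) (d * c₁) * cst (M * ℓ) c₂ from
      map_mul (algebraMap Kbar (FF (M * ℓ))) (d * c₁) c₂,
      show cst (M * ℓ) (d * c₁) = cst (M * ℓ) d * cst (M * ℓ) c₁ from
      map_mul (algebraMap Kbar (FF (M * ℓ))) d c₁]
  have hzW : -(cst (M * ℓ) c₂ * z * (cst (M * ℓ) c₁ * (y * x⁻¹ - 1))) ∈ softV A (M * ℓ) :=
    neg_mem (mul_mem (mul_mem hc₂W hz) hu₁)
  have hh : E * x + (1 - E) * y =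
      x * (1 + cst (M * ℓ) d * -(cst (M * ℓ) c₂ * z * (cst (M * ℓ) c₁ * (y * x⁻¹ - 1)))) := by
    rw [hE, hD]
    field_simp
    ring
  have hwy : kFricke M ℓ hℓ hM y ≠ 0 := by
    intro h
    exact hy ((map_eq_zero_iff _ (kFricke M ℓ hℓ hM).injective).mp h)
  refine ⟨E * x + (1 - E) * y, _,
    cst (M * ℓ) c₁ * z' * (cst (M * ℓ) c₂ * kFricke M ℓ hℓ hM (x * y⁻¹ - 1)),
    ?_, hzW, mul_mem (mul_mem hc₁W hz') hu₂, hh, ?_⟩
  · rw [hh]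
    exact mul_ne_zero hx (h60w_one_add_inv A (M * ℓ) hd hzW).1
  · rw [map_add, map_mul, map_mul, map_sub, map_one, hwE, hD, map_sub, map_mul, map_one,
      map_inv₀]
    field_simp
    ring

/-- `w` of a constant. -/
theorem h60w_fricke_cst (hℓ : ℓ.Prime) (hM : ¬ ℓ ∣ M) (c : Kbar) :
    kFricke M ℓ hℓ hM (cst (M * ℓ) c) = cst (M * ℓ) c :=
  (kFricke M ℓ hℓ hM).commutes c

/-- **glue**: approximations of `u` by `n`-th powers up to constants at `W_∞` and at `W_0`,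
both of depth `d ∈ 𝔪_A`, give ONE constant and ONE function good at both valuations. -/
theorem h60w_glue (hℓ : ℓ.Prime) (hM : ¬ ℓ ∣ M) (hA : A.LiesOverPrime ℓ)
    (n : ℕ) (hn : n ≠ 0) (u : FF (M * ℓ)) (c₁ c₀ : Kbar) (hc₁ : c₁ ≠ 0) (hc₀ : c₀ ≠ 0)
    (h₁ h₀ : FF (M * ℓ)) (hh₁ : h₁ ≠ 0) (hh₀ : h₀ ≠ 0)
    (d : Kbar) (hd : d ∈ A.nonunits) (hd0 : d ≠ 0)
    (s₁ s₀ : FF (M * ℓ)) (hs₁ : s₁ ∈ softV A (M * ℓ)) (hs₀ : s₀ ∈ softV A (M * ℓ))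
    (e₁ : cst (M * ℓ) c₁ * u * (h₁ ^ n)⁻¹ = 1 + cst (M * ℓ) d * s₁)
    (e₀ : kFricke M ℓ hℓ hM (cst (M * ℓ) c₀ * u * (h₀ ^ n)⁻¹) = 1 + cst (M * ℓ) d * s₀) :
    ∃ (c : Kbar) (h z z' : FF (M * ℓ)), c ≠ 0 ∧ h ≠ 0 ∧ z ∈ softV A (M * ℓ) ∧
      z' ∈ softV A (M * ℓ) ∧
      cst (M * ℓ) c * u * (h ^ n)⁻¹ = 1 + cst (M * ℓ) d * z ∧
      kFricke M ℓ hℓ hM (cst (M * ℓ) c * u * (h ^ n)⁻¹) = 1 + cst (M * ℓ) d * z' := by
  have hdA : d ∈ A := A.nonunits_le hd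
  obtain ⟨γ, hγ⟩ := IsAlgClosed.exists_pow_nat_eq (c₁ * c₀⁻¹) (Nat.pos_of_ne_zero hn)
  have hγ0 : γ ≠ 0 := by
    intro h0
    rw [h0, zero_pow hn] at hγ
    exact mul_ne_zero hc₁ (inv_ne_zero hc₀) hγ.symm
  have hcγ : cst (M * ℓ) γ ≠ 0 := by
    rw [Ne, map_eq_zero_iff _ (algebraMap Kbar (FF (M * ℓ))).injective]
    exact hγ0
  have hcc₀ : cst (M * ℓ) c₀ ≠ 0 := by
    rw [Ne, map_eq_zero_iff _ (algebraMap Kbar (FF (M * ℓ))).injective]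
    exact hc₀
  have hγn : cst (M * ℓ) c₁ = cst (M * ℓ) γ ^ n * cst (M * ℓ) c₀ := by
    rw [← map_pow, hγ, ← map_mul]
    congr 1
    field_simp
  obtain ⟨h, z, z', hh0, hz, hz', hh, hwh⟩ := h60w_approx_mul A M ℓ hℓ hM hA h₁
    (cst (M * ℓ) γ * h₀) hh₁ (mul_ne_zero hcγ hh₀) d hd hd0
  obtain ⟨hz0, y, hy, hzi⟩ := h60w_one_add_inv A (M * ℓ) hd hz
  obtain ⟨hz0', y', hy', hzi'⟩ := h60w_one_add_inv A (M * ℓ) hd hz'
  obtain ⟨yn, hyn, hpn⟩ := h60w_one_add_pow A (M * ℓ) hdA hy n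
  obtain ⟨yn', hyn', hpn'⟩ := h60w_one_add_pow A (M * ℓ) hdA hy' n
  obtain ⟨t, ht, hm⟩ := h60w_one_add_mul A (M * ℓ) hdA hs₁ hyn
  obtain ⟨t', ht', hm'⟩ := h60w_one_add_mul A (M * ℓ) hdA hs₀ hyn'
  refine ⟨c₁, h, t, t', hc₁, hh0, ht, ht', ?_, ?_⟩
  · rw [← hm, ← e₁, ← hpn, ← hzi, hh, mul_pow, mul_inv, inv_pow]
    ring
  · have hwh₀ : kFricke M ℓ hℓ hM h₀ ≠ 0 := by
      intro h0
      exact hh₀ ((map_eq_zero_iff _ (kFricke M ℓ hℓ hM).injective).mp h0)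
    rw [← hm', ← e₀, ← hpn', ← hzi']
    rw [map_mul, map_mul, map_inv₀, map_pow, hwh, map_mul, map_mul, map_mul, map_inv₀, map_pow,
      h60w_fricke_cst, h60w_fricke_cst, h60w_fricke_cst, hγn, mul_pow, mul_pow, mul_inv,
      mul_inv, inv_pow]
    field_simp

/-- **glue, `ssV` form**: the conclusion of `h60w_glue` as a congruence modulo `d · ssV`. -/
theorem h60w_glue_ss (hℓ : ℓ.Prime) (hM : ¬ ℓ ∣ M) (hA : A.LiesOverPrime ℓ)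
    (n : ℕ) (hn : n ≠ 0) (u : FF (M * ℓ)) (c₁ c₀ : Kbar) (hc₁ : c₁ ≠ 0) (hc₀ : c₀ ≠ 0)
    (h₁ h₀ : FF (M * ℓ)) (hh₁ : h₁ ≠ 0) (hh₀ : h₀ ≠ 0)
    (d : A) (hd : d ∈ maximalIdeal A) (hd0 : d ≠ 0)
    (s₁ s₀ : FF (M * ℓ)) (hs₁ : s₁ ∈ softV A (M * ℓ)) (hs₀ : s₀ ∈ softV A (M * ℓ))
    (e₁ : cst (M * ℓ) c₁ * u * (h₁ ^ n)⁻¹ = 1 + cst (M * ℓ) (d : Kbar) * s₁)
    (e₀ : kFricke M ℓ hℓ hM (cst (M * ℓ) c₀ * u * (h₀ ^ n)⁻¹) =
      1 + cst (M * ℓ) (d : Kbar) * s₀) :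
    ∃ (c : Kbar) (h : FF (M * ℓ)), c ≠ 0 ∧ h ≠ 0 ∧
      cst (M * ℓ) c * u * (h ^ n)⁻¹ ∈ h26U d (ssV A M ℓ) := by
  have hd' : (d : Kbar) ∈ A.nonunits := ValuationSubring.coe_mem_nonunits_iff.mpr hd
  have hd0' : (d : Kbar) ≠ 0 := fun h0 => hd0 (Subtype.ext h0)
  obtain ⟨c, h, z, z', hc, hh, hz, hz', e, e'⟩ := h60w_glue A M ℓ hℓ hM hA n hn u c₁ c₀ hc₁
    hc₀ h₁ h₀ hh₁ hh₀ (d : Kbar) hd' hd0' s₁ s₀ hs₁ hs₀ e₁ e₀
  refine ⟨c, h, hc, hh, z, ?_, e⟩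
  rw [h44r_mem_ssV_iff A M ℓ hℓ hM hA]
  refine ⟨hz, ?_⟩
  have hcd : cst (M * ℓ) (d : Kbar) ≠ 0 := by
    rw [Ne, map_eq_zero_iff _ (algebraMap Kbar (FF (M * ℓ))).injective]
    exact hd0'
  have h1 : cst (M * ℓ) (d : Kbar) * kFricke M ℓ hℓ hM z = cst (M * ℓ) (d : Kbar) * z' := by
    have h2 := e'
    rw [e, map_add, map_one, map_mul, h60w_fricke_cst] at h2
    exact add_left_cancel h2
  rw [mul_left_cancel₀ hcd h1]
  exact hz'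

end WA

end Fermat.Agent.P6
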