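import Mathlib

/-!
# S33 / B2 PURITY at smooth points, pure algebra (helper62)

`R` a commutative ring, `t : R` with
* (`hloc`) every element of `R` is a unit or divisible by `t`,
* (`ht`) `t` is not a unit,
* (`hnil`) no power of `t` vanishes
(e.g. the local ring of a smooth point of the special fibre with a local parameter `t`).

* `h62y_dichotomy` : `t ^ k ∣ x` or `x = t ^ i * v` with `i < k` and `v` a unit.
* `h62y_int_closed` : `t ^ (p * k) ∣ x ^ p + g * x * t ^ (k * (p - 1)) ⟹ t ^ k ∣ x`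
  (the integral closedness of `R` in `R[1/t]` for the equations `X ^ p + g X = c`; `g = 0` is
  the closedness under `p`-th roots, `g` a unit the closedness under Artin–Schreier roots).

Mathlib only.
-/

set_option autoImplicit false

namespace Fermat.Agent.P6

section Alg

variable {R : Type*} [CommRing R]

theorem h62y_dichotomy (t : R) (hloc : ∀ x : R, IsUnit x ∨ t ∣ x) (x : R) (k : ℕ) :
    t ^ k ∣ x ∨ ∃ i, i < k ∧ ∃ v : R, IsUnit v ∧ x = t ^ i * v := by
  induction k with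
  | zero => left; simp
  | succ k ih =>
    rcases ih with ⟨y, rfl⟩ | ⟨i, hi, v, hv, rfl⟩
    · rcases hloc y with hy | ⟨z, rfl⟩
      · right; exact ⟨k, Nat.lt_succ_self k, y, hy, rfl⟩
      · left; exact ⟨z, by ring⟩
    · right; exact ⟨i, Nat.lt_succ_of_lt hi, v, hv, rfl⟩

/-- a unit plus a multiple of `t` is a unit. -/
theorem h62y_isUnit_add (t : R) (hloc : ∀ x : R, IsUnit x ∨ t ∣ x) (ht : ¬ IsUnit t)
    {v : R} (hv : IsUnit v) (w : R) : IsUnit (v + t * w) := by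
  rcases hloc (v + t * w) with h | ⟨z, hz⟩
  · exact h
  · exfalso
    apply ht
    have h1 : t ∣ v := ⟨z - w, by rw [mul_sub, ← hz]; ring⟩
    exact isUnit_of_dvd_unit h1 hv

theorem h62y_pow_eq_zero (t : R) (hloc : ∀ x : R, IsUnit x ∨ t ∣ x) (ht : ¬ IsUnit t)
    {i j : ℕ} (hij : i < j) {v : R} (hv : IsUnit v) (h : t ^ j ∣ t ^ i * v) : t ^ i = 0 := by
  obtain ⟨z, hz⟩ := h
  obtain ⟨d, rfl⟩ : ∃ d, j = i + 1 + d := ⟨j - (i + 1), by omega⟩
  have h1 : IsUnit (v + t * (-(t ^ d * z))) := h62y_isUnit_add t hloc ht hv _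
  have h2 : t ^ i * (v + t * (-(t ^ d * z))) = 0 := by
    have : t ^ i * (v + t * (-(t ^ d * z))) = t ^ i * v - t ^ (i + 1 + d) * z := by ring
    rw [this, hz, sub_self]
  exact (IsUnit.mul_left_eq_zero h1).mp h2

/-- **integral closedness** for the equations `X ^ p + g X = c`. -/
theorem h62y_int_closed (t : R) (hloc : ∀ x : R, IsUnit x ∨ t ∣ x) (ht : ¬ IsUnit t)
    (hnil : ∀ i : ℕ, t ^ i ≠ 0) (p : ℕ) (hp : 2 ≤ p) (k : ℕ) (x g : R)
    (h : t ^ (p * k) ∣ x ^ p + g * x * t ^ (k * (p - 1))) : t ^ k ∣ x := by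
  rcases h62y_dichotomy t hloc x k with h1 | ⟨i, hi, v, hv, rfl⟩
  · exact h1
  exfalso
  obtain ⟨q, rfl⟩ : ∃ q, p = q + 2 := ⟨p - 2, by omega⟩
  obtain ⟨d, rfl⟩ : ∃ d, k = i + 1 + d := ⟨k - (i + 1), by omega⟩
  have e1 : (q + 2 - 1) = q + 1 := by omega
  -- the exponent `(k - i) (p - 1) - 1`
  have hexp : (i + 1 + d) * (q + 1) + i = (q + 2) * i + 1 + (d * (q + 1) + q) := by ring
  have h2 : (t ^ i * v) ^ (q + 2) + g * (t ^ i * v) * t ^ ((i + 1 + d) * (q + 2 - 1)) =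
      t ^ ((q + 2) * i) * (v ^ (q + 2) + t * (g * v * t ^ (d * (q + 1) + q))) := by
    rw [e1]
    have : g * (t ^ i * v) * t ^ ((i + 1 + d) * (q + 1)) =
        g * v * t ^ ((i + 1 + d) * (q + 1) + i) := by ring
    rw [this, hexp]
    ring
  rw [h2] at h
  have h3 : IsUnit (v ^ (q + 2) + t * (g * v * t ^ (d * (q + 1) + q))) :=
    h62y_isUnit_add t hloc ht (hv.pow _) _
  have h4 : (q + 2) * i < (q + 2) * (i + 1 + d) := by
    exact Nat.mul_lt_mul_of_pos_left (by omega) (by omega)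
  exact hnil _ (h62y_pow_eq_zero t hloc ht h4 h3 h)

end Alg

end Fermat.Agent.P6
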