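import Fermat.Agent.LGC.LocalHalf
import Fermat.Agent.P6.H18Purity
import Fermat.Agent.P6.H62PurityAlg

/-!
# S33 / B2 PURITY at the closed points lying on one component, abstract form (helper62)

Setting: `A` a valuation ring (a domain), `F` a field, `B ⊆ F` a chart with the axioms
`H26Chart B V₀ val` (`V₀` = the semistable Gauss ring), `W`, `W'` two subrings with
`W ∩ W' ⊆ V₀` (the Gauss valuation rings of the two components; `W' = ⊤` in the case of a single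
component), `𝔫` a prime of `B` over `𝔪_A` lying on the component of `W` only, `t ∈ 𝔫` a local
parameter which is a unit of `W`, sections at the places centered at `𝔫`
(`H62ySmooth`).  `O = h62yO B 𝔫` is the local ring of `B` at `𝔫` inside `F`.

* `h62y_sat`     : `a x ∈ O`, `a ≠ 0`, `x ∈ W ⟹ x ∈ O`;
* `h62y_weier`   : every `G ∈ W` is `f / Q` with `f ∈ O` and `Q` a product of linear factors
  `t - c`, `c ∈ 𝔪_A` (the zeros of `Q` are the poles of `G` in the residue disc);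
* `h62y_depth`   : **exact depth**: `G ∈ W`, `G ∉ O ⟹ G = b + a r`, `b ∈ O`, `a ≠ 0`,
  `r ∈ W`, `r ∉ O + 𝔪_A W`;
* `h62y_closed`  : `x ∈ W`, `g ∈ O`, `x ^ p + g x ∈ O + 𝔪_A W ⟹ x ∈ O + 𝔪_A W`.

These are the hypotheses of `h18y_purity` (helper18, `P6/H18Purity.lean`);
`h62y_purity_iter` is the conclusion of `h18y_purity_iter` in this setting.
-/

set_option autoImplicit false
set_option linter.unusedSectionVars false
set_option linter.unusedVariables false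
set_option linter.style.longLine false

open WithZero IsLocalRing

namespace Fermat.Agent.P6

open Fermat.Agent.Red Fermat.Agent.LGC

section Smooth

variable {A : Type*} [CommRing A] [IsDomain A] [ValuationRing A]
  {F : Type*} [Field F] [Algebra A F]
  {B : Subalgebra A F} {V₀ : Subring F} {ι : Type*} {val : ι → Valuation F ℤᵐ⁰}
  {W W' : Subring F} {𝔫 : Ideal B} {t : B}

/-- the local ring of the chart `B` at the prime `𝔫`, inside `F`. -/
def h62yO (B : Subalgebra A F) (𝔫 : Ideal B) (h𝔫 : 𝔫.IsPrime) : Subalgebra A F where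
  carrier := {f | ∃ s : B, s ∉ 𝔫 ∧ (s : F) * f ∈ B}
  mul_mem' := by
    rintro f g ⟨s, hs, hf⟩ ⟨s', hs', hg⟩
    refine ⟨s * s', fun h => (h𝔫.mem_or_mem h).elim hs hs', ?_⟩
    have e : ((s * s' : B) : F) * (f * g) = ((s : F) * f) * ((s' : F) * g) := by
      push_cast; ring
    rw [e]
    exact B.mul_mem hf hg
  add_mem' := by
    rintro f g ⟨s, hs, hf⟩ ⟨s', hs', hg⟩
    refine ⟨s * s', fun h => (h𝔫.mem_or_mem h).elim hs hs', ?_⟩
    have e : ((s * s' : B) : F) * (f + g) =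
        (s' : F) * ((s : F) * f) + (s : F) * ((s' : F) * g) := by
      push_cast; ring
    rw [e]
    exact B.add_mem (B.mul_mem s'.2 hf) (B.mul_mem s.2 hg)
  algebraMap_mem' := fun a =>
    ⟨1, (Ideal.ne_top_iff_one 𝔫).mp h𝔫.ne_top, by
      rw [OneMemClass.coe_one, one_mul]; exact B.algebraMap_mem a⟩

theorem h62y_mem_O {h𝔫 : 𝔫.IsPrime} {f : F} :
    f ∈ h62yO B 𝔫 h𝔫 ↔ ∃ s : B, s ∉ 𝔫 ∧ (s : F) * f ∈ B := Iff.rfl

theorem h62y_B_le_O (h𝔫 : 𝔫.IsPrime) {b : F} (hb : b ∈ B) : b ∈ h62yO B 𝔫 h𝔫 :=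
  ⟨1, (Ideal.ne_top_iff_one 𝔫).mp h𝔫.ne_top, by simpa using hb⟩

/-- a subring containing the constants, as a subalgebra. -/
def h62yW (W : Subring F) (hAW : ∀ a : A, algebraMap A F a ∈ W) : Subalgebra A F :=
  { W.toSubsemiring with algebraMap_mem' := hAW }

theorem h62y_mem_W {W : Subring F} {hAW : ∀ a : A, algebraMap A F a ∈ W} {x : F} :
    x ∈ h62yW W hAW ↔ x ∈ W := Iff.rfl

/-- **the hypotheses at a closed point on one component** (smooth point). -/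
structure H62ySmooth (B : Subalgebra A F) (V₀ : Subring F) (val : ι → Valuation F ℤᵐ⁰)
    (W W' : Subring F) (𝔫 : Ideal B) (t : B) : Prop where
  hC : H26Chart B V₀ val
  hinj : Function.Injective (algebraMap A F)
  harch : ∀ c ∈ maximalIdeal A, c ≠ 0 → ∀ a : A, a ≠ 0 → ∃ k : ℕ, a ∣ c ^ k
  hWW : ∀ x, x ∈ W → x ∈ W' → x ∈ V₀
  hBW : ∀ b ∈ B, b ∈ W
  hBW' : ∀ b ∈ B, b ∈ W'
  hWval : ∀ x ∈ W, x⁻¹ ∈ W ∨ ∃ m ∈ maximalIdeal A, ∃ y ∈ W, x = algebraMap A F m * y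
  hWnt : ∀ m ∈ maximalIdeal A, ∀ y ∈ W, algebraMap A F m * y ≠ 1
  hprime : 𝔫.IsPrime
  hm𝔫 : (maximalIdeal A).map (algebraMap A B) ≤ 𝔫
  hP𝔫 : ∀ b : B, ∀ m ∈ maximalIdeal A, ∀ y ∈ W, (b : F) = algebraMap A F m * y → b ∈ 𝔫
  he : ∃ e : B, e ∉ 𝔫 ∧ ∃ c ∈ maximalIdeal A, c ≠ 0 ∧ ∃ y ∈ W', (e : F) = algebraMap A F c * y
  ht : t ∈ 𝔫
  ht0 : (t : F) ≠ 0
  htW : (t : F)⁻¹ ∈ W
  hprin : ∀ z ∈ 𝔫, ∃ s, s ∉ 𝔫 ∧
    s * z ∈ Ideal.span {t} ⊔ (maximalIdeal A).map (algebraMap A B)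
  hsec : ∀ i, h26Centered B val 𝔫 i → ∃ φ : B →ₐ[A] A,
    (∀ b : B, φ b = 0 ↔ val i (b : F) < 1) ∧ (RingHom.ker (φ : B →+* A)).FG

variable (h : H62ySmooth B V₀ val W W' 𝔫 t)
include h

theorem h62y_AW (a : A) : algebraMap A F a ∈ W := h.hBW _ (B.algebraMap_mem a)

theorem h62y_ne_zero_of_not_mem {s : B} (hs : s ∉ 𝔫) : (s : F) ≠ 0 := by
  intro h0
  apply hs
  have : s = 0 := Subtype.ext h0
  rw [this]
  exact 𝔫.zero_mem

theorem h62y_inv_mem_W {s : B} (hs : s ∉ 𝔫) : (s : F)⁻¹ ∈ W := by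
  rcases h.hWval _ (h.hBW _ s.2) with h1 | ⟨m, hm, y, hy, he⟩
  · exact h1
  · exact absurd (h.hP𝔫 s m hm y hy he) hs

theorem h62y_O_le_W {f : F} (hf : f ∈ h62yO B 𝔫 h.hprime) : f ∈ W := by
  obtain ⟨s, hs, hsf⟩ := hf
  have hs0 := h62y_ne_zero_of_not_mem h hs
  have e : f = (s : F)⁻¹ * ((s : F) * f) := by field_simp
  rw [e]
  exact W.mul_mem (h62y_inv_mem_W h hs) (h.hBW _ hsf)

/-- saturation of the chart, locally at `𝔫`. -/
theorem h62y_satB {a : A} (ha : a ≠ 0) {x : F} (hx : x ∈ W) (hax : a • x ∈ B) :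
    x ∈ h62yO B 𝔫 h.hprime := by
  obtain ⟨e, he𝔫, c, hc, hc0, y, hy, hey⟩ := h.he
  obtain ⟨k, d, hd⟩ := h.harch c hc hc0 a ha
  refine ⟨e ^ k, fun hmem => he𝔫 (h.hprime.mem_of_pow_mem k hmem), ?_⟩
  have h1 : ((e ^ k : B) : F) * x ∈ W := W.mul_mem (h.hBW _ (e ^ k).2) hx
  have h2 : ((e ^ k : B) : F) * x ∈ W' := by
    have e1 : ((e ^ k : B) : F) * x = algebraMap A F d * y ^ k * (a • x) := by
      push_cast
      rw [hey, mul_pow, ← map_pow, hd, map_mul, Algebra.smul_def]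
      ring
    rw [e1]
    exact W'.mul_mem (W'.mul_mem (h.hBW' _ (B.algebraMap_mem d)) (W'.pow_mem hy k))
      (h.hBW' _ hax)
  have h3 := h.hWW _ h1 h2
  have h4 : a • (((e ^ k : B) : F) * x) ∈ B := by
    rw [← mul_smul_comm]
    exact B.mul_mem (e ^ k).2 hax
  exact h.hC.hQEP a ((map_ne_zero_iff _ h.hinj).mpr ha) _ h3 h4

/-- **(SAT)**. -/
theorem h62y_sat {a : A} (ha : a ≠ 0) {x : F} (hx : x ∈ W)
    (hax : a • x ∈ h62yO B 𝔫 h.hprime) : x ∈ h62yO B 𝔫 h.hprime := by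
  obtain ⟨s, hs, hsf⟩ := hax
  have h1 : a • ((s : F) * x) ∈ B := by rw [← mul_smul_comm]; exact hsf
  obtain ⟨s', hs', h2⟩ := h62y_satB h ha (W.mul_mem (h.hBW _ s.2) hx) h1
  refine ⟨s' * s, fun hmem => (h.hprime.mem_or_mem hmem).elim hs' hs, ?_⟩
  have e : ((s' * s : B) : F) * x = (s' : F) * ((s : F) * x) := by push_cast; ring
  rw [e]
  exact h2

/-- a Gauss-integral function which is regular at the places centered at `𝔫` is in the local
ring. -/
theorem h62y_regular_mem {f : F} (hf : f ∈ W)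
    (hreg : ∀ k, h26Centered B val 𝔫 k → val k f ≤ 1) : f ∈ h62yO B 𝔫 h.hprime := by
  have := h.hprime
  obtain ⟨a, ha, s, hs, hsf⟩ := h26_stepC h.hC.hfin h.hC.hint h.hC.hB 𝔫 f hreg
  have ha0 : a ≠ 0 := fun h0 => ha (by rw [h0, map_zero])
  obtain ⟨s', hs', h2⟩ := h62y_satB h ha0 (W.mul_mem (h.hBW _ s.2) hf) hsf
  refine ⟨s' * s, fun hmem => (h.hprime.mem_or_mem hmem).elim hs' hs, ?_⟩
  have e : ((s' * s : B) : F) * f = (s' : F) * ((s : F) * f) := by push_cast; ring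
  rw [e]
  exact h2

/-- elements of `𝔪_A B` are of the form `m b`. -/
theorem h62y_mem_mB {z : B} (hz : z ∈ (maximalIdeal A).map (algebraMap A B)) :
    ∃ m ∈ maximalIdeal A, ∃ b : B, z = algebraMap A B m * b := by
  rw [Ideal.map] at hz
  refine Submodule.span_induction (p := fun z _ => ∃ m ∈ maximalIdeal A, ∃ b : B,
    z = algebraMap A B m * b) ?_ ?_ ?_ ?_ hz
  · rintro x ⟨m, hm, rfl⟩
    exact ⟨m, hm, 1, by rw [mul_one]⟩
  · exact ⟨0, zero_mem _, 0, by simp⟩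
  · rintro x y _ _ ⟨m, hm, b, rfl⟩ ⟨m', hm', b', rfl⟩
    rcases ValuationRing.dvd_total m m' with ⟨d, rfl⟩ | ⟨d, rfl⟩
    · exact ⟨m, hm, b + algebraMap A B d * b', by rw [map_mul]; ring⟩
    · exact ⟨m', hm', algebraMap A B d * b + b', by rw [map_mul]; ring⟩
  · rintro a x _ ⟨m, hm, b, rfl⟩
    exact ⟨m, hm, a * b, by rw [smul_eq_mul]; ring⟩

/-- `1 ∉ 𝔫 O`. -/
theorem h62y_one_not_mem {z : B} (hz : z ∈ 𝔫) {o o₂ : F} (ho : o ∈ h62yO B 𝔫 h.hprime)
    (ho₂ : o₂ ∈ h62yO B 𝔫 h.hprime) {m : A} (hm : m ∈ maximalIdeal A) :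
    (z : F) * o + m • o₂ ≠ 1 := by
  intro heq
  obtain ⟨s, hs, hso⟩ := ho
  obtain ⟨s₂, hs₂, hso₂⟩ := ho₂
  have h1 : s * s₂ ∈ 𝔫 := by
    have e : s * s₂ = z * (⟨(s : F) * o, hso⟩ * s₂) +
        algebraMap A B m * (⟨(s₂ : F) * o₂, hso₂⟩ * s) := by
      apply Subtype.ext
      push_cast
      have : (s : F) * (s₂ : F) = (s : F) * (s₂ : F) * ((z : F) * o + m • o₂) := by
        rw [heq, mul_one]
      rw [this, Algebra.smul_def]
      ring
    rw [e]
    refine 𝔫.add_mem (𝔫.mul_mem_right _ hz) (𝔫.mul_mem_right _ ?_)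
    exact h.hm𝔫 (Ideal.mem_map_of_mem _ hm)
  exact (h.hprime.mem_or_mem h1).elim hs hs₂

/-- the dichotomy: an element of the local ring is a unit or lies in `t O + 𝔪_A O`. -/
theorem h62y_unit_or {o : F} (ho : o ∈ h62yO B 𝔫 h.hprime) :
    (o ≠ 0 ∧ o⁻¹ ∈ h62yO B 𝔫 h.hprime) ∨ ∃ o₁ ∈ h62yO B 𝔫 h.hprime, ∃ m ∈ maximalIdeal A,
      ∃ o₂ ∈ h62yO B 𝔫 h.hprime, o = (t : F) * o₁ + m • o₂ := by
  obtain ⟨s, hs, hso⟩ := ho
  have hs0 := h62y_ne_zero_of_not_mem h hs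
  by_cases hb : (⟨(s : F) * o, hso⟩ : B) ∈ 𝔫
  · right
    obtain ⟨s', hs', hmem⟩ := h.hprin _ hb
    obtain ⟨x, hx, z, hz, hxz⟩ := Submodule.mem_sup.mp hmem
    obtain ⟨b₁, rfl⟩ := Ideal.mem_span_singleton'.mp hx
    obtain ⟨m, hm, b₂, rfl⟩ := h62y_mem_mB h hz
    have hs'0 := h62y_ne_zero_of_not_mem h hs'
    have hss : s' * s ∉ 𝔫 := fun hmem => (h.hprime.mem_or_mem hmem).elim hs' hs
    have hxz' : (b₁ : F) * (t : F) + algebraMap A F m * (b₂ : F) = (s' : F) * ((s : F) * o) := by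
      have := congrArg (Subtype.val : B → F) hxz
      simpa using this
    refine ⟨(b₁ : F) * ((s' : F) * (s : F))⁻¹, ⟨s' * s, hss, ?_⟩, m, hm,
      (b₂ : F) * ((s' : F) * (s : F))⁻¹, ⟨s' * s, hss, ?_⟩, ?_⟩
    · have e : ((s' * s : B) : F) * ((b₁ : F) * ((s' : F) * (s : F))⁻¹) = (b₁ : F) := by
        push_cast; field_simp
      rw [e]; exact b₁.2
    · have e : ((s' * s : B) : F) * ((b₂ : F) * ((s' : F) * (s : F))⁻¹) = (b₂ : F) := by
        push_cast; field_simp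
      rw [e]; exact b₂.2
    · have e : o = ((s' : F) * ((s : F) * o)) * ((s' : F) * (s : F))⁻¹ := by field_simp
      rw [e, ← hxz', Algebra.smul_def]
      ring
  · left
    have ho0 : o ≠ 0 := by
      intro h0
      apply hb
      have : (⟨(s : F) * o, hso⟩ : B) = 0 := Subtype.ext (by simp [h0])
      rw [this]
      exact 𝔫.zero_mem
    refine ⟨ho0, ⟨(s : F) * o, hso⟩, hb, ?_⟩
    have e : (((⟨(s : F) * o, hso⟩ : B) : F)) * o⁻¹ = (s : F) := by
      show (s : F) * o * o⁻¹ = s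
      field_simp
    rw [e]
    exact s.2

/-! ## Linear factors -/

omit h in
/-- `u = t - φ(t)` for a section `φ` at a place centered at `𝔫`. -/
def h62yLin (B : Subalgebra A F) (val : ι → Valuation F ℤᵐ⁰) (𝔫 : Ideal B) (t : B)
    (u : F) : Prop :=
  ∃ i, h26Centered B val 𝔫 i ∧ ∃ φ : B →ₐ[A] A, (∀ b : B, φ b = 0 ↔ val i (b : F) < 1) ∧
    (RingHom.ker (φ : B →+* A)).FG ∧ u = (t : F) - algebraMap A F (φ t)

omit h in
/-- the monoid of the products of linear factors. -/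
def h62yMon (B : Subalgebra A F) (val : ι → Valuation F ℤᵐ⁰) (𝔫 : Ideal B) (t : B) :
    Submonoid F :=
  Submonoid.closure {u | h62yLin B val 𝔫 t u}

theorem h62y_one_add_inv {m : A} (hm : m ∈ maximalIdeal A) {x : F} (hx : x ∈ W) :
    1 + algebraMap A F m * x ≠ 0 ∧ (1 + algebraMap A F m * x)⁻¹ ∈ W := by
  have hmem : 1 + algebraMap A F m * x ∈ W := W.add_mem W.one_mem (W.mul_mem (h62y_AW h m) hx)
  refine ⟨?_, ?_⟩
  · intro h0
    apply h.hWnt m hm (-x) (W.neg_mem hx)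
    linear_combination -h0
  · rcases h.hWval _ hmem with h1 | ⟨m', hm', y, hy, he⟩
    · exact h1
    · exfalso
      rcases ValuationRing.dvd_total m m' with ⟨d, rfl⟩ | ⟨d, rfl⟩
      · apply h.hWnt m hm (algebraMap A F d * y - x)
          (W.sub_mem (W.mul_mem (h62y_AW h d) hy) hx)
        rw [map_mul] at he
        linear_combination -he
      · apply h.hWnt m' hm' (y - algebraMap A F d * x)
          (W.sub_mem hy (W.mul_mem (h62y_AW h d) hx))
        rw [map_mul] at he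
        linear_combination -he

theorem h62y_lin_facts {u : F} (hu : h62yLin B val 𝔫 t u) :
    (∃ X : B, X ∈ 𝔫 ∧ (X : F) = u) ∧ (∃ c ∈ maximalIdeal A, u = (t : F) - algebraMap A F c) ∧
      u ≠ 0 ∧ u⁻¹ ∈ W := by
  obtain ⟨i, hi, φ, hφ, hfg, rfl⟩ := hu
  have := h.hprime
  have hkerle : RingHom.ker (φ : B →+* A) ≤ 𝔫 := fun b hb => hi b ((hφ b).mp hb)
  have hφ𝔫 : ∀ z ∈ 𝔫, φ z ∈ maximalIdeal A := h26_section_local 𝔫 φ hkerle
  have hc := hφ𝔫 t h.ht
  have h1 := h62y_one_add_inv h hc (W.neg_mem h.htW)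
  have e : (t : F) - algebraMap A F (φ t) =
      (t : F) * (1 + algebraMap A F (φ t) * (-(t : F)⁻¹)) := by
    have := h.ht0
    field_simp
    ring
  refine ⟨⟨t - algebraMap A B (φ t), 𝔫.sub_mem h.ht (h.hm𝔫 (Ideal.mem_map_of_mem _ hc)), rfl⟩,
    ⟨φ t, hc, rfl⟩, ?_, ?_⟩
  · rw [e]
    exact mul_ne_zero h.ht0 h1.1
  · rw [e, mul_inv]
    exact W.mul_mem h.htW h1.2

/-- the valuations of a linear factor at the centered places. -/
theorem h62y_lin_val {i : ι} (hi : h26Centered B val 𝔫 i) {φ : B →ₐ[A] A}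
    (hφ : ∀ b : B, φ b = 0 ↔ val i (b : F) < 1) (hfg : (RingHom.ker (φ : B →+* A)).FG) :
    val i ((t : F) - algebraMap A F (φ t)) = exp (-1 : ℤ) ∧
      ∀ k, h26Centered B val 𝔫 k → k ≠ i → val k ((t : F) - algebraMap A F (φ t)) = 1 := by
  have := h.hprime
  exact h75l_lp_smooth h.hC.hB h.hC.hunif h.hC.hinj 𝔫 h.hm𝔫 t h.ht h.hprin i hi φ hφ hfg

/-- **division by a linear factor** in the local ring. -/
theorem h62y_div {u : F} (hu : h62yLin B val 𝔫 t u) {o : F} (ho : o ∈ h62yO B 𝔫 h.hprime) :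
    ∃ c : A, ∃ o' ∈ h62yO B 𝔫 h.hprime, o = algebraMap A F c + u * o' := by
  obtain ⟨i, hi, φ, hφ, hfg, rfl⟩ := hu
  have := h.hprime
  have hkerle : RingHom.ker (φ : B →+* A) ≤ 𝔫 := fun b hb => hi b ((hφ b).mp hb)
  have hφ𝔫 : ∀ z ∈ 𝔫, φ z ∈ maximalIdeal A := h26_section_local 𝔫 φ hkerle
  have hgen := h26_local_ker_principal (maximalIdeal A) 𝔫 t h.ht h.hprin h.hm𝔫 φ hφ𝔫 hkerle hfg
  obtain ⟨s, hs, hso⟩ := ho
  have hs0 := h62y_ne_zero_of_not_mem h hs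
  have hφs : IsUnit (φ s) := by
    by_contra hnu
    have h1 : φ s ∈ maximalIdeal A := (mem_maximalIdeal _).mpr hnu
    have h2 : s - algebraMap A B (φ s) ∈ 𝔫 := by
      apply hkerle
      rw [RingHom.mem_ker]
      simp
    have h3 : algebraMap A B (φ s) ∈ 𝔫 := h.hm𝔫 (Ideal.mem_map_of_mem _ h1)
    apply hs
    have := 𝔫.add_mem h2 h3
    simpa using this
  obtain ⟨w, hw⟩ := hφs.exists_right_inv
  set b' : B := ⟨(s : F) * o, hso⟩ with hb'
  set c : A := φ b' * w with hc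
  have hy : b' - algebraMap A B c * s ∈ RingHom.ker (φ : B →+* A) := by
    rw [RingHom.mem_ker]
    have : φ (b' - algebraMap A B c * s) = φ b' - c * φ s := by simp
    show φ (b' - algebraMap A B c * s) = 0
    rw [this, hc, mul_assoc, mul_comm w, hw, mul_one, sub_self]
  obtain ⟨s', hs', hmem⟩ := hgen _ hy
  obtain ⟨z, hz⟩ := Ideal.mem_span_singleton'.mp hmem
  have hs'0 := h62y_ne_zero_of_not_mem h hs'
  have hzF : (z : F) * ((t : F) - algebraMap A F (φ t)) =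
      (s' : F) * ((s : F) * o - algebraMap A F c * (s : F)) := by
    have := congrArg (Subtype.val : B → F) hz
    simpa using this
  have hss : s' * s ∉ 𝔫 := fun hmem => (h.hprime.mem_or_mem hmem).elim hs' hs
  refine ⟨c, (z : F) * ((s' : F) * (s : F))⁻¹, ⟨s' * s, hss, ?_⟩, ?_⟩
  · have e : ((s' * s : B) : F) * ((z : F) * ((s' : F) * (s : F))⁻¹) = (z : F) := by
      push_cast; field_simp
    rw [e]; exact z.2
  · have e : ((t : F) - algebraMap A F (φ t)) * ((z : F) * ((s' : F) * (s : F))⁻¹) =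
        ((z : F) * ((t : F) - algebraMap A F (φ t))) * ((s' : F) * (s : F))⁻¹ := by ring
    rw [e, hzF]
    field_simp
    ring

/-- `1 / u ∉ O + 𝔪_A W` for a linear factor `u`. -/
theorem h62y_inv_not_near {u : F} (hu : h62yLin B val 𝔫 t u) :
    ¬ h18yNearM (h62yO B 𝔫 h.hprime) (h62yW W (h62y_AW h)) u⁻¹ := by
  rintro ⟨m, hm, b, hb, r, hr, heq⟩
  obtain ⟨⟨X, hX, rfl⟩, -, hu0, huW⟩ := h62y_lin_facts h hu
  have hr' : r ∈ W := hr
  have h1 : (X : F) * b + m • ((X : F) * r) = 1 := by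
    have : (X : F) * (X : F)⁻¹ = 1 := mul_inv_cancel₀ hu0
    rw [heq] at this
    rw [← this, mul_add, mul_smul_comm]
  by_cases hm0 : m = 0
  · apply h62y_one_not_mem h hX hb (zero_mem _) hm
    rw [hm0, zero_smul] at h1 ⊢
    exact h1
  · have h2 : (X : F) * r ∈ h62yO B 𝔫 h.hprime := by
      apply h62y_sat h hm0 (W.mul_mem (h.hBW _ X.2) hr')
      have e : m • ((X : F) * r) = 1 - (X : F) * b := by rw [← h1]; ring
      rw [e]
      exact Subalgebra.sub_mem _ (Subalgebra.one_mem _)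
        (Subalgebra.mul_mem _ (h62y_B_le_O h.hprime X.2) hb)
    exact h62y_one_not_mem h hX hb h2 hm h1

/-! ## Exact depth -/

omit h in
/-- `G = b + a r` with `b ∈ O`, `a ≠ 0`, `r ∈ V`, `r ∉ O + 𝔪_A V`. -/
def h62yExact (O V : Subalgebra A F) (G : F) : Prop :=
  ∃ a : A, a ≠ 0 ∧ ∃ b ∈ O, ∃ r ∈ V, G = b + a • r ∧ ¬ h18yNearM O V r

/-- the induction step: removing one linear factor. -/
theorem h62y_step {u : F} (hu : h62yLin B val 𝔫 t u) {G : F} (hG : G ∈ W)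
    (hP : G * u ∈ h62yO B 𝔫 h.hprime ∨
      h62yExact (h62yO B 𝔫 h.hprime) (h62yW W (h62y_AW h)) (G * u)) :
    G ∈ h62yO B 𝔫 h.hprime ∨ h62yExact (h62yO B 𝔫 h.hprime) (h62yW W (h62y_AW h)) G := by
  obtain ⟨⟨X, hX, hXu⟩, -, hu0, huW⟩ := h62y_lin_facts h hu
  have huO : u ∈ h62yO B 𝔫 h.hprime := by rw [← hXu]; exact h62y_B_le_O h.hprime X.2
  have huW' : u ∈ W := h62y_O_le_W h huO
  rcases hP with hO | ⟨a, ha, b, hb, r, hr, heq, hnear⟩
  · obtain ⟨c, o', ho', hc⟩ := h62y_div h hu hO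
    by_cases hc0 : c = 0
    · left
      have e : G = o' := by
        rw [hc0, map_zero, zero_add, mul_comm] at hc
        exact mul_left_cancel₀ hu0 hc
      rw [e]; exact ho'
    · right
      refine ⟨c, hc0, o', ho', u⁻¹, huW, ?_, h62y_inv_not_near h hu⟩
      have e : G = (G * u) * u⁻¹ := by field_simp
      rw [e, hc, Algebra.smul_def]
      field_simp
      ring
  · right
    have hr' : r ∈ W := hr
    obtain ⟨c, o', ho', hc⟩ := h62y_div h hu hb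
    have eG : G = o' + (algebraMap A F c + a • r) * u⁻¹ := by
      have e : G = (G * u) * u⁻¹ := by field_simp
      rw [e, heq, hc]
      field_simp
      ring
    rcases ValuationRing.dvd_total a c with ⟨c', rfl⟩ | ⟨m, rfl⟩
    · refine ⟨a, ha, o', ho', (algebraMap A F c' + r) * u⁻¹,
        W.mul_mem (W.add_mem (h62y_AW h c') hr') huW, ?_, ?_⟩
      · rw [eG, map_mul, Algebra.smul_def, Algebra.smul_def]
        ring
      · rintro ⟨m, hm, b₁, hb₁, r₁, hr₁, heq₁⟩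
        apply hnear
        refine ⟨m, hm, u * b₁ - algebraMap A F c', ?_, u * r₁, W.mul_mem huW' hr₁, ?_⟩
        · exact Subalgebra.sub_mem _ (Subalgebra.mul_mem _ huO hb₁)
            (Subalgebra.algebraMap_mem _ c')
        · have e : r = u * ((algebraMap A F c' + r) * u⁻¹) - algebraMap A F c' := by
            field_simp
            ring
          rw [e, heq₁, mul_add, mul_smul_comm]
          ring
    · have hc0 : c ≠ 0 := fun h0 => ha (by rw [h0, zero_mul])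
      by_cases hmu : IsUnit m
      · -- `a ∣ c` again
        obtain ⟨m', hm'⟩ := hmu.exists_right_inv
        refine ⟨c * m, ha, o', ho', (algebraMap A F m' + r) * u⁻¹,
          W.mul_mem (W.add_mem (h62y_AW h m') hr') huW, ?_, ?_⟩
        · rw [eG, Algebra.smul_def, Algebra.smul_def]
          have e : algebraMap A F c = algebraMap A F (c * m) * algebraMap A F m' := by
            rw [← map_mul, mul_assoc, hm', mul_one]
          rw [e]
          ring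
        · rintro ⟨m₁, hm₁, b₁, hb₁, r₁, hr₁, heq₁⟩
          apply hnear
          refine ⟨m₁, hm₁, u * b₁ - algebraMap A F m', ?_, u * r₁, W.mul_mem huW' hr₁, ?_⟩
          · exact Subalgebra.sub_mem _ (Subalgebra.mul_mem _ huO hb₁)
              (Subalgebra.algebraMap_mem _ m')
          · have e : r = u * ((algebraMap A F m' + r) * u⁻¹) - algebraMap A F m' := by
              field_simp
              ring
            rw [e, heq₁, mul_add, mul_smul_comm]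
            ring
      · have hm : m ∈ maximalIdeal A := (mem_maximalIdeal _).mpr hmu
        refine ⟨c, hc0, o', ho', u⁻¹ + m • (r * u⁻¹),
          W.add_mem huW (by
            rw [Algebra.smul_def]
            exact W.mul_mem (h62y_AW h m) (W.mul_mem hr' huW)), ?_, ?_⟩
        · rw [eG, Algebra.smul_def, Algebra.smul_def, Algebra.smul_def, map_mul]
          ring
        · intro hn
          apply h62y_inv_not_near h hu
          have h1 : h18yNearM (h62yO B 𝔫 h.hprime) (h62yW W (h62y_AW h)) (m • (r * u⁻¹)) :=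
            h18y_nearM_smul hm (W.mul_mem hr' huW)
          have h2 := h18y_nearM_sub hn h1
          have e : u⁻¹ + m • (r * u⁻¹) - m • (r * u⁻¹) = u⁻¹ := by ring
          rwa [e] at h2

/-- the facts on the products of linear factors. -/
theorem h62y_mon_facts {Q : F} (hQ : Q ∈ h62yMon B val 𝔫 t) :
    Q ∈ B ∧ Q ≠ 0 ∧ Q⁻¹ ∈ W ∧
      (∃ k : ℕ, ∃ m ∈ maximalIdeal A, ∃ b ∈ B, Q = (t : F) ^ k + m • b) ∧
      ∀ G ∈ W, (G * Q ∈ h62yO B 𝔫 h.hprime ∨
          h62yExact (h62yO B 𝔫 h.hprime) (h62yW W (h62y_AW h)) (G * Q)) →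
        (G ∈ h62yO B 𝔫 h.hprime ∨ h62yExact (h62yO B 𝔫 h.hprime) (h62yW W (h62y_AW h)) G) := by
  refine Submonoid.closure_induction (motive := fun Q _ => Q ∈ B ∧ Q ≠ 0 ∧ Q⁻¹ ∈ W ∧
      (∃ k : ℕ, ∃ m ∈ maximalIdeal A, ∃ b ∈ B, Q = (t : F) ^ k + m • b) ∧
      ∀ G ∈ W, (G * Q ∈ h62yO B 𝔫 h.hprime ∨
          h62yExact (h62yO B 𝔫 h.hprime) (h62yW W (h62y_AW h)) (G * Q)) →
        (G ∈ h62yO B 𝔫 h.hprime ∨ h62yExact (h62yO B 𝔫 h.hprime) (h62yW W (h62y_AW h)) G))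
    ?_ ?_ ?_ hQ
  · intro u hu
    obtain ⟨⟨X, hX, hXu⟩, ⟨c, hc, huc⟩, hu0, huW⟩ := h62y_lin_facts h hu
    refine ⟨by rw [← hXu]; exact X.2, hu0, huW, ⟨1, -c, neg_mem hc, 1, B.one_mem, ?_⟩,
      fun G hG hP => h62y_step h hu hG hP⟩
    rw [huc, Algebra.smul_def, map_neg]
    ring
  · refine ⟨B.one_mem, one_ne_zero, by rw [inv_one]; exact W.one_mem,
      ⟨0, 0, zero_mem _, 0, B.zero_mem, by simp⟩, fun G hG hP => ?_⟩
    rwa [mul_one] at hP
  · rintro Q Q' _ _ ⟨hQB, hQ0, hQW, ⟨k, m, hm, b, hb, hQe⟩, hQP⟩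
      ⟨hQ'B, hQ'0, hQ'W, ⟨k', m', hm', b', hb', hQ'e⟩, hQ'P⟩
    refine ⟨B.mul_mem hQB hQ'B, mul_ne_zero hQ0 hQ'0, by rw [mul_inv]; exact W.mul_mem hQW hQ'W,
      ?_, fun G hG hP => ?_⟩
    · rcases ValuationRing.dvd_total m m' with ⟨d, rfl⟩ | ⟨d, rfl⟩
      · refine ⟨k + k', m, hm, b * (t : F) ^ k' + (t : F) ^ k * (d • b') + b * ((m * d) • b'),
          ?_, ?_⟩
        · exact B.add_mem (B.add_mem (B.mul_mem hb (B.pow_mem t.2 _))
            (B.mul_mem (B.pow_mem t.2 _) (B.smul_mem hb' _))) (B.mul_mem hb (B.smul_mem hb' _))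
        · rw [hQe, hQ'e]
          simp only [Algebra.smul_def, map_mul]
          ring
      · refine ⟨k + k', m', hm', (d • b) * (t : F) ^ k' + (t : F) ^ k * b' + (d • b) * (m' • b'),
          ?_, ?_⟩
        · exact B.add_mem (B.add_mem (B.mul_mem (B.smul_mem hb _) (B.pow_mem t.2 _))
            (B.mul_mem (B.pow_mem t.2 _) hb')) (B.mul_mem (B.smul_mem hb _) (B.smul_mem hb' _))
        · rw [hQe, hQ'e]
          simp only [Algebra.smul_def, map_mul]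
          ring
    · apply hQP G hG
      apply hQ'P (G * Q) (W.mul_mem hG (h.hBW _ hQB))
      rwa [mul_assoc]

/-! ## The Weierstrass form -/

/-- **Weierstrass form**: every Gauss-integral function is `f / Q` with `f` in the local ring
and `Q` a product of linear factors. -/
theorem h62y_weier {G : F} (hG : G ∈ W) :
    ∃ Q ∈ h62yMon B val 𝔫 t, G * Q ∈ h62yO B 𝔫 h.hprime := by
  classical
  rcases eq_or_ne G 0 with rfl | hG0
  · exact ⟨1, Submonoid.one_mem _, by rw [zero_mul]; exact Subalgebra.zero_mem _⟩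
  have hex : ∀ i, ∃ u : F, (h26Centered B val 𝔫 i → ∃ φ : B →ₐ[A] A,
      (∀ b : B, φ b = 0 ↔ val i (b : F) < 1) ∧ (RingHom.ker (φ : B →+* A)).FG ∧
        u = (t : F) - algebraMap A F (φ t)) ∧ (¬ h26Centered B val 𝔫 i → u = 1) := by
    intro i
    by_cases hi : h26Centered B val 𝔫 i
    · obtain ⟨φ, hφ, hfg⟩ := h.hsec i hi
      exact ⟨(t : F) - algebraMap A F (φ t), fun _ => ⟨φ, hφ, hfg, rfl⟩, fun hn => absurd hi hn⟩
    · exact ⟨1, fun hc => absurd hc hi, fun _ => rfl⟩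
  choose u hu1 hu2 using hex
  set T : Finset ι := (h.hC.hfin G hG0).toFinset with hT
  have hTmem : ∀ i, i ∈ T ↔ 1 < val i G := by intro i; simp [hT]
  set n : ι → ℕ := fun i => (log (val i G)).toNat with hn
  set Q : F := ∏ i ∈ T, u i ^ n i with hQ
  have hQmon : Q ∈ h62yMon B val 𝔫 t := by
    refine Submonoid.prod_mem _ (fun i _ => Submonoid.pow_mem _ ?_ _)
    by_cases hi : h26Centered B val 𝔫 i
    · obtain ⟨φ, hφ, hfg, hui⟩ := hu1 i hi
      exact Submonoid.subset_closure ⟨i, hi, φ, hφ, hfg, hui⟩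
    · rw [hu2 i hi]
      exact Submonoid.one_mem _
  refine ⟨Q, hQmon, ?_⟩
  have hQB := (h62y_mon_facts h hQmon).1
  apply h62y_regular_mem h (W.mul_mem hG (h.hBW _ hQB))
  intro k hk
  obtain ⟨φ, hφ, hfg, huk⟩ := hu1 k hk
  have hvk := (h62y_lin_val h hk hφ hfg).1
  rw [← huk] at hvk
  have hQval : val k Q = val k (u k) ^ n k := by
    rw [hQ, map_prod]
    simp only [map_pow]
    apply Finset.prod_eq_single k
    · intro i _ hik
      by_cases hi : h26Centered B val 𝔫 i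
      · obtain ⟨φ', hφ', hfg', hui⟩ := hu1 i hi
        have := (h62y_lin_val h hi hφ' hfg').2 k hk (Ne.symm hik)
        rw [← hui] at this
        rw [this, one_pow]
      · rw [hu2 i hi, map_one, one_pow]
    · intro hkT
      have h1 : val k G ≤ 1 := not_lt.mp (fun hlt => hkT ((hTmem k).mpr hlt))
      have h2 : val k G ≠ 0 := (val k).ne_zero_iff.mpr hG0
      have h3 : log (val k G) ≤ 0 := by
        have h4 : exp (log (val k G)) ≤ exp (0 : ℤ) := by rwa [exp_log h2, exp_zero]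
        exact exp_le_exp.mp h4
      have h5 : n k = 0 := by
        simp only [hn]
        exact Int.toNat_eq_zero.mpr h3
      rw [h5, pow_zero]
  have h2 : val k G ≠ 0 := (val k).ne_zero_iff.mpr hG0
  have hle : (log (val k G)) + (n k) • (-1 : ℤ) ≤ 0 := by
    have h4 : log (val k G) ≤ ((log (val k G)).toNat : ℤ) := Int.self_le_toNat _
    simp only [hn, nsmul_eq_mul]
    linarith
  calc val k (G * Q) = exp (log (val k G)) * (exp (-1 : ℤ)) ^ n k := by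
        rw [map_mul, hQval, hvk, exp_log h2]
    _ = exp ((log (val k G)) + (n k) • (-1 : ℤ)) := by rw [exp_add, exp_nsmul]
    _ ≤ exp (0 : ℤ) := exp_le_exp.mpr hle
    _ = 1 := exp_zero

/-- **(H4) exact depth.** -/
theorem h62y_depth {G : F} (hG : G ∈ W) (hGO : G ∉ h62yO B 𝔫 h.hprime) :
    h62yExact (h62yO B 𝔫 h.hprime) (h62yW W (h62y_AW h)) G := by
  obtain ⟨Q, hQ, hf⟩ := h62y_weier h hG
  rcases (h62y_mon_facts h hQ).2.2.2.2 G hG (Or.inl hf) with h1 | h1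
  · exact absurd h1 hGO
  · exact h1

/-! ## Integral closedness of the special fibre of the local ring -/

omit h in
/-- the ideal `𝔪_A O` of the local ring. -/
def h62yI (B : Subalgebra A F) (𝔫 : Ideal B) (h𝔫 : 𝔫.IsPrime) : Ideal (h62yO B 𝔫 h𝔫) where
  carrier := {x | ∃ m ∈ maximalIdeal A, ∃ o : h62yO B 𝔫 h𝔫, x = m • o}
  add_mem' := by
    rintro x y ⟨m, hm, o, rfl⟩ ⟨m', hm', o', rfl⟩
    rcases ValuationRing.dvd_total m m' with ⟨d, rfl⟩ | ⟨d, rfl⟩
    · exact ⟨m, hm, o + d • o', by rw [smul_add, mul_smul]⟩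
    · exact ⟨m', hm', d • o + o', by rw [smul_add, mul_smul]⟩
  zero_mem' := ⟨0, zero_mem _, 0, by simp⟩
  smul_mem' := by
    rintro c x ⟨m, hm, o, rfl⟩
    exact ⟨m, hm, c * o, by rw [smul_eq_mul, mul_smul_comm]⟩

/-- **(H1), (H2)**: the local ring is closed in `W`, modulo `𝔪_A`, under the roots of the
equations `X ^ p + g X = c`. -/
theorem h62y_closed (p : ℕ) (hp : 2 ≤ p) {x g : F} (hx : x ∈ W)
    (hg : g ∈ h62yO B 𝔫 h.hprime)
    (hnear : h18yNearM (h62yO B 𝔫 h.hprime) (h62yW W (h62y_AW h)) (x ^ p + g * x)) :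
    h18yNearM (h62yO B 𝔫 h.hprime) (h62yW W (h62y_AW h)) x := by
  obtain ⟨Q, hQ, hf⟩ := h62y_weier h hx
  obtain ⟨hQB, hQ0, hQW, ⟨k, m₀, hm₀, b₀, hb₀, hQe⟩, -⟩ := h62y_mon_facts h hQ
  obtain ⟨m, hm, o, ho, y, hy, heq⟩ := hnear
  have hy' : y ∈ W := hy
  have hQO : Q ∈ h62yO B 𝔫 h.hprime := h62y_B_le_O h.hprime hQB
  have htO : (t : F) ∈ h62yO B 𝔫 h.hprime := h62y_B_le_O h.hprime t.2
  obtain ⟨q, rfl⟩ : ∃ q, p = q + 2 := ⟨p - 2, by omega⟩
  have hkey : (x * Q) ^ (q + 2) + g * (x * Q) * Q ^ (q + 1) =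
      o * Q ^ (q + 2) + m • (y * Q ^ (q + 2)) := by
    have e : (x * Q) ^ (q + 2) + g * (x * Q) * Q ^ (q + 1) =
        (x ^ (q + 2) + g * x) * Q ^ (q + 2) := by ring
    rw [e, heq, Algebra.smul_def, Algebra.smul_def]
    ring
  have ho₃ : ∃ o₃ ∈ h62yO B 𝔫 h.hprime,
      (x * Q) ^ (q + 2) + g * (x * Q) * Q ^ (q + 1) = o * Q ^ (q + 2) + m • o₃ := by
    by_cases hm0 : m = 0
    · exact ⟨0, Subalgebra.zero_mem _, by rw [hkey, hm0, zero_smul, zero_smul]⟩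
    · refine ⟨y * Q ^ (q + 2), ?_, hkey⟩
      apply h62y_sat h hm0 (W.mul_mem hy' (W.pow_mem (h.hBW _ hQB) _))
      have e : m • (y * Q ^ (q + 2)) =
          (x * Q) ^ (q + 2) + g * (x * Q) * Q ^ (q + 1) - o * Q ^ (q + 2) := by
        rw [hkey]; ring
      rw [e]
      exact Subalgebra.sub_mem _ (Subalgebra.add_mem _ (Subalgebra.pow_mem _ hf _)
        (Subalgebra.mul_mem _ (Subalgebra.mul_mem _ hg hf) (Subalgebra.pow_mem _ hQO _)))
        (Subalgebra.mul_mem _ ho (Subalgebra.pow_mem _ hQO _))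
  obtain ⟨o₃, ho₃, hkey'⟩ := ho₃
  -- the special fibre of the local ring
  set I := h62yI B 𝔫 h.hprime with hI
  set tb : h62yO B 𝔫 h.hprime ⧸ I := Ideal.Quotient.mk I ⟨t, htO⟩ with htb
  have hloc : ∀ z : h62yO B 𝔫 h.hprime ⧸ I, IsUnit z ∨ tb ∣ z := by
    intro z
    obtain ⟨z, rfl⟩ := Ideal.Quotient.mk_surjective z
    rcases h62y_unit_or h z.2 with ⟨hz0, hinv⟩ | ⟨o₁, ho₁, m₁, hm₁, o₂, ho₂, hz⟩
    · left
      have e : z * ⟨(z : F)⁻¹, hinv⟩ = 1 := by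
        apply Subtype.ext
        push_cast
        exact mul_inv_cancel₀ hz0
      have e' := congrArg (Ideal.Quotient.mk I) e
      rw [map_mul, map_one] at e'
      exact IsUnit.of_mul_eq_one _ e'
    · right
      refine ⟨Ideal.Quotient.mk I ⟨o₁, ho₁⟩, ?_⟩
      rw [htb, ← map_mul, Ideal.Quotient.eq]
      refine ⟨m₁, hm₁, ⟨o₂, ho₂⟩, ?_⟩
      apply Subtype.ext
      push_cast
      rw [hz]
      ring
  have htbu : ¬ IsUnit tb := by
    intro hu
    obtain ⟨ub, hub⟩ := hu.exists_right_inv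
    obtain ⟨u', rfl⟩ := Ideal.Quotient.mk_surjective ub
    rw [htb, ← map_mul, ← map_one (Ideal.Quotient.mk I), Ideal.Quotient.eq] at hub
    obtain ⟨m₁, hm₁, o₂, ho₂⟩ := hub
    have e := congrArg (Subtype.val) ho₂
    push_cast at e
    apply h62y_one_not_mem h h.ht u'.2 o₂.2 (neg_mem hm₁)
    rw [neg_smul]
    linear_combination e
  have hnil : ∀ i : ℕ, tb ^ i ≠ 0 := by
    intro i h0
    rw [htb, ← map_pow, Ideal.Quotient.eq_zero_iff_mem] at h0
    obtain ⟨m₁, hm₁, o₂, ho₂⟩ := h0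
    have e := congrArg (Subtype.val) ho₂
    push_cast at e
    apply h.hWnt m₁ hm₁ ((o₂ : F) * ((t : F)⁻¹) ^ i)
      (W.mul_mem (h62y_O_le_W h o₂.2) (W.pow_mem h.htW _))
    rw [Algebra.smul_def] at e
    rw [← mul_assoc, ← e, ← mul_pow, mul_inv_cancel₀ h.ht0, one_pow]
  have hQb : Ideal.Quotient.mk I ⟨Q, hQO⟩ = tb ^ k := by
    rw [htb, ← map_pow, Ideal.Quotient.eq]
    refine ⟨m₀, hm₀, ⟨b₀, h62y_B_le_O h.hprime hb₀⟩, ?_⟩
    apply Subtype.ext
    push_cast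
    rw [hQe]
    ring
  have hdiv : tb ^ ((q + 2) * k) ∣ (Ideal.Quotient.mk I ⟨x * Q, hf⟩) ^ (q + 2) +
      Ideal.Quotient.mk I ⟨g, hg⟩ * Ideal.Quotient.mk I ⟨x * Q, hf⟩ *
        tb ^ (k * (q + 2 - 1)) := by
    refine ⟨Ideal.Quotient.mk I ⟨o, ho⟩, ?_⟩
    have e1 : q + 2 - 1 = q + 1 := by omega
    rw [e1, mul_comm (q + 2) k, pow_mul, pow_mul, ← hQb]
    simp only [← map_pow, ← map_mul, ← map_add]
    rw [Ideal.Quotient.eq]
    refine ⟨m, hm, ⟨o₃, ho₃⟩, ?_⟩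
    apply Subtype.ext
    push_cast
    rw [hkey']
    ring
  obtain ⟨zb, hzb⟩ := h62y_int_closed tb hloc htbu hnil (q + 2) (by omega) k _ _ hdiv
  obtain ⟨z, rfl⟩ := Ideal.Quotient.mk_surjective zb
  have hmem : (⟨x * Q, hf⟩ : h62yO B 𝔫 h.hprime) - ⟨Q, hQO⟩ * z ∈ I := by
    rw [← Ideal.Quotient.eq, map_mul, hQb]
    exact hzb
  obtain ⟨m', hm', o₄, ho₄⟩ := hmem
  have ho₄F : x * Q - Q * (z : F) = m' • (o₄ : F) := by
    have e := congrArg (Subtype.val) ho₄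
    push_cast at e
    exact e
  refine ⟨m', hm', z, z.2, o₄ * Q⁻¹, W.mul_mem (h62y_O_le_W h o₄.2) hQW, ?_⟩
  have e : x = (x * Q - Q * (z : F)) * Q⁻¹ + z := by
    field_simp
    ring
  rw [e, ho₄F, Algebra.smul_def, Algebra.smul_def]
  ring

/-! ## The hypotheses of the abstract purity theorem -/

/-- **purity at a closed point on one component**: the conclusion of `h18y_purity_iter`. -/
theorem h62y_purity_iter (p : ℕ) (hp : p.Prime) (hp0 : (p : A) ≠ 0)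
    (ϖ : A) (e : ℕ) (he : (p : A) ∣ ϖ ^ e) (n j : ℕ) :
    ∃ k : ℕ, ∀ G ∈ W, (∃ u ∈ h62yO B 𝔫 h.hprime, (∃ u' ∈ h62yO B 𝔫 h.hprime, u * u' = 1) ∧
        ∃ m ∈ maximalIdeal A, ∃ y ∈ W, G = u + m • y) →
      h18yNear (h62yO B 𝔫 h.hprime) (h62yW W (h62y_AW h)) (ϖ ^ k) (G ^ (p ^ n)) →
        h18yNear (h62yO B 𝔫 h.hprime) (h62yW W (h62y_AW h)) (ϖ ^ j) G := by
  have hOV : h62yO B 𝔫 h.hprime ≤ h62yW W (h62y_AW h) := fun f hf => h62y_O_le_W h hf
  exact h18y_purity_iter p hp hp0 (h62yO B 𝔫 h.hprime) (h62yW W (h62y_AW h)) hOV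
    (fun a ha x hx hax => h62y_sat h ha hx hax)
    (fun x hx hnear => h62y_closed h p hp.two_le hx (Subalgebra.zero_mem _)
      (by rwa [zero_mul, add_zero]))
    (fun c _ u hu _ x hx hnear => h62y_closed h p hp.two_le hx
      (Subalgebra.smul_mem _ hu c) (by rwa [smul_mul_assoc]))
    (fun G hG hGO => h62y_depth h hG hGO) ϖ e he n j

end Smooth

end Fermat.Agent.P6
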