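import Fermat.Agent.P6.H62PuritySm
import Fermat.Agent.S35.H62TorLocal
import Fermat.Agent.LGC.Pieces63c

/-!
# S33 / B2 PURITY at the closed points of the finite chart of level `M ℓ` lying on one component
(helper62)

`B = chart (M * ℓ) A (jSS M ℓ)`, `W∞ = softV A (M * ℓ)`, `W₀ = w⁻¹ W∞` (`w` = Fricke),
`P∞ = h62i_Pinf`, `P₀ = h62i_P0` the two components of the special fibre.

* `h62y_smooth_inf`  : at a maximal ideal `𝔫 ⊇ P∞`, `𝔫 ⊉ P₀` : `H62ySmooth B ssV val W∞ W₀ 𝔫 t`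
  for some `t`;
* `h62y_smooth_zero` : at a maximal ideal `𝔫 ⊇ P₀`, `𝔫 ⊉ P∞` : `H62ySmooth B ssV val W₀ W∞ 𝔫 t`;
* `h62y_purity_inf`, `h62y_purity_zero` : the purity theorem (`h18y_purity_iter`) at these
  points: for all `n`, `j` there is `k` such that for `G ∈ W` congruent to a unit of the local
  ring `O` modulo `𝔪_A W`: `G ^ (ℓ ^ n) ∈ O + ϖ ^ k W ⟹ G ∈ O + ϖ ^ j W`.
-/

set_option autoImplicit false
set_option linter.unusedSectionVars false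
set_option linter.unusedVariables false
set_option linter.style.longLine false

open AlgebraicCurve ModularCurve WithZero IsLocalRing

noncomputable section

namespace Fermat.Agent.P6

open Fermat.Agent.S37 Fermat.Agent.Red Fermat.Agent.Red.GG Fermat.Agent.Red.GV
  Fermat.Agent.Red.GV.Soft Fermat.Agent.Red.Kron Fermat.Agent.Red.KR Fermat.Agent.Red.ModelO
  Fermat.Agent.LGC Fermat.Agent.S35

variable (A : ValuationSubring Kbar) (M : ℕ) {ℓ : ℕ} [NeZero M] [NeZero ℓ]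

/-- `W∞` is a valuation ring whose non-units are `𝔪_A W∞`. -/
theorem h62y_Winf_val (hℓ : ℓ.Prime) (hA : A.LiesOverPrime ℓ) (N : ℕ) :
    ∀ x ∈ softV A N, x⁻¹ ∈ softV A N ∨
      ∃ m ∈ maximalIdeal A, ∃ y ∈ softV A N, x = algebraMap A (FF N) m * y := by
  intro x hx
  by_cases hinv : x⁻¹ ∈ softV A N
  · exact Or.inl hinv
  right
  have hx0 : x ≠ 0 := by
    rintro rfl
    exact hinv (by rw [inv_zero]; exact zero_mem _)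
  have hnu : x ∈ (softRing A N hℓ hA).nonunits := (GalI.mem_nonunits_iff_inv _ hx0).mpr hinv
  obtain ⟨p, hp0, hp, u, hu, hxu⟩ := h63r_nonunit_scale hℓ hA N hx0 hnu
  refine ⟨⟨p, A.nonunits_le hp⟩, ValuationSubring.coe_mem_nonunits_iff.mp hp, u, hu, hxu⟩

theorem h62y_Winf_nt (N : ℕ) :
    ∀ m ∈ maximalIdeal A, ∀ y ∈ softV A N, algebraMap A (FF N) m * y ≠ 1 := by
  intro m hm y hy h
  have h1 : cst N (m : Kbar) * y = 1 := h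
  have hm0 : (m : Kbar) ≠ 0 := by
    intro h0
    rw [h0] at h1
    have : cst N (0 : Kbar) = 0 := map_zero _
    rw [this, zero_mul] at h1
    exact zero_ne_one h1
  have hc0 : cst N (m : Kbar) ≠ 0 := fun h0 =>
    hm0 ((algebraMap Kbar (FF N)).injective (h0.trans (map_zero _).symm))
  have hy' : y = cst N (m : Kbar)⁻¹ := by
    have e : (cst N (m : Kbar))⁻¹ = cst N (m : Kbar)⁻¹ :=
      (map_inv₀ (algebraMap Kbar (FF N)) (m : Kbar)).symm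
    rw [← e]
    exact eq_inv_of_mul_eq_one_right h1
  rw [hy'] at hy
  have h2 : (m : Kbar)⁻¹ ∈ A := (cst_mem_softV_iff A N _).mp hy
  have h3 : (m : Kbar) ∈ A.nonunits := ValuationSubring.coe_mem_nonunits_iff.mpr hm
  exact (GalI.mem_nonunits_iff_inv A hm0).mp h3 h2

theorem h62y_kFricke_algebraMap (hℓ : ℓ.Prime) (hM : ¬ ℓ ∣ M) (a : A) :
    kFricke M ℓ hℓ hM (algebraMap A (FF (M * ℓ)) a) = algebraMap A (FF (M * ℓ)) a :=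
  (kFricke M ℓ hℓ hM).commutes (a : Kbar)

/-- `W₀` is a valuation ring whose non-units are `𝔪_A W₀`. -/
theorem h62y_W0_val (hℓ : ℓ.Prime) (hM : ¬ ℓ ∣ M) (hA : A.LiesOverPrime ℓ) :
    ∀ x ∈ (h85cW0 A M ℓ hℓ hM hA).toSubring, x⁻¹ ∈ (h85cW0 A M ℓ hℓ hM hA).toSubring ∨
      ∃ m ∈ maximalIdeal A, ∃ y ∈ (h85cW0 A M ℓ hℓ hM hA).toSubring,
        x = algebraMap A (FF (M * ℓ)) m * y := by
  intro x hx
  have hx' : kFricke M ℓ hℓ hM x ∈ softV A (M * ℓ) := hx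
  rcases h62y_Winf_val A hℓ hA (M * ℓ) _ hx' with h1 | ⟨m, hm, y, hy, he⟩
  · left
    show kFricke M ℓ hℓ hM x⁻¹ ∈ softV A (M * ℓ)
    rw [map_inv₀]
    exact h1
  · right
    refine ⟨m, hm, kFricke M ℓ hℓ hM y, ?_, ?_⟩
    · show kFricke M ℓ hℓ hM (kFricke M ℓ hℓ hM y) ∈ softV A (M * ℓ)
      rw [kFricke_kFricke]
      exact hy
    · have := congrArg (kFricke M ℓ hℓ hM) he
      rw [kFricke_kFricke, map_mul, h62y_kFricke_algebraMap] at this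
      exact this

theorem h62y_W0_nt (hℓ : ℓ.Prime) (hM : ¬ ℓ ∣ M) (hA : A.LiesOverPrime ℓ) :
    ∀ m ∈ maximalIdeal A, ∀ y ∈ (h85cW0 A M ℓ hℓ hM hA).toSubring,
      algebraMap A (FF (M * ℓ)) m * y ≠ 1 := by
  intro m hm y hy h
  have hy' : kFricke M ℓ hℓ hM y ∈ softV A (M * ℓ) := hy
  apply h62y_Winf_nt A (M * ℓ) m hm _ hy'
  have := congrArg (kFricke M ℓ hℓ hM) h
  rw [map_mul, h62y_kFricke_algebraMap, map_one] at this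
  exact this

/-- an element of the chart in `𝔪_A W∞` lies in `P∞`. -/
theorem h62y_mem_Pinf (hℓ : ℓ.Prime) (hM : ¬ ℓ ∣ M) (hA : A.LiesOverPrime ℓ)
    (b : chart (M * ℓ) A (jSS M ℓ)) (m : A) (hm : m ∈ maximalIdeal A) (y : FF (M * ℓ))
    (hy : y ∈ softV A (M * ℓ)) (hb : (b : FF (M * ℓ)) = algebraMap A (FF (M * ℓ)) m * y) :
    b ∈ h62i_Pinf A M hℓ hM hA := by
  by_contra hn
  have h1 := h62i_inv_mem_soft A M hℓ hM hA b hn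
  have hb0 : (b : FF (M * ℓ)) ≠ 0 := h62x_coe_ne_zero A M hℓ hM hA b hn
  apply h62y_Winf_nt A (M * ℓ) m hm (y * (b : FF (M * ℓ))⁻¹) (mul_mem hy h1)
  rw [← mul_assoc, ← hb, mul_inv_cancel₀ hb0]

/-- an element of `P∞` is in `𝔪_A W∞`. -/
theorem h62y_of_mem_Pinf (hℓ : ℓ.Prime) (hM : ¬ ℓ ∣ M) (hA : A.LiesOverPrime ℓ)
    (b : chart (M * ℓ) A (jSS M ℓ)) (hb : b ∈ h62i_Pinf A M hℓ hM hA) :
    ∃ c ∈ maximalIdeal A, c ≠ 0 ∧ ∃ y ∈ softV A (M * ℓ),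
      (b : FF (M * ℓ)) = algebraMap A (FF (M * ℓ)) c * y := by
  rw [h62i_mem_Pinf] at hb
  by_cases hb0 : (b : FF (M * ℓ)) = 0
  · have hℓA : ((ℓ : ℕ) : Kbar) ∈ A.nonunits := hA
    refine ⟨⟨(ℓ : Kbar), A.nonunits_le hℓA⟩, ValuationSubring.coe_mem_nonunits_iff.mp hℓA, ?_,
      0, zero_mem _, by rw [hb0, mul_zero]⟩
    intro h0
    have h1 : ((ℓ : ℕ) : Kbar) = 0 := congrArg Subtype.val h0
    exact hℓ.ne_zero (by exact_mod_cast h1)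
  · obtain ⟨p, hp0, hp, u, hu, hxu⟩ := h63r_nonunit_scale hℓ hA (M * ℓ) hb0 hb
    refine ⟨⟨p, A.nonunits_le hp⟩, ValuationSubring.coe_mem_nonunits_iff.mp hp, ?_, u, hu, hxu⟩
    intro h0
    exact hp0 (congrArg Subtype.val h0)

section Inst

variable (hℓ : ℓ.Prime) (hM : ¬ ℓ ∣ M) (haux : auxLevel ℓ ∣ M) (hA : A.LiesOverPrime ℓ)
  (𝔫 : Ideal (chart (M * ℓ) A (jSS M ℓ))) (h𝔫 : 𝔫.IsMaximal)

include haux h𝔫 in
/-- **the smooth datum at the points of `C∞` only.** -/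
theorem h62y_smooth_inf
    (hPinf : h62i_Pinf A M hℓ hM hA ≤ 𝔫) (hP0 : ¬ h62i_P0 A M hℓ hM hA ≤ 𝔫) :
    ∃ t, H62ySmooth (chart (M * ℓ) A (jSS M ℓ)) (ssV A M ℓ) (chartVal (M * ℓ) (jSS M ℓ))
      (softV A (M * ℓ)) (h85cW0 A M ℓ hℓ hM hA).toSubring 𝔫 t := by
  obtain ⟨t, ht, ht0, htinv, hprin⟩ := h62x_torSmooth_inf A M hℓ hM haux hA 𝔫 h𝔫 hPinf hP0
  have hm : mExt A M ℓ (jSS M ℓ) ≤ 𝔫 := le_trans (h62i_m_le_Pinf A M hℓ hM hA) hPinf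
  refine ⟨t, ?_⟩
  refine
    { hC := h85s_ifaceSSChart_fin A M ℓ hℓ hM hA
      hinj := algebraMap_injective_FF (M * ℓ) A
      harch := harch_of_liesOver A hℓ hA
      hWW := fun x hx hx' => h63r_mem_ssV_of_soft hℓ hM hA hx hx'
      hBW := fun b hb => h62i_mem_soft A M hℓ hM hA ⟨b, hb⟩
      hBW' := fun b hb => h62i_mem_soft A M hℓ hM hA (h62i_w A M hℓ hM hA ⟨b, hb⟩)
      hWval := h62y_Winf_val A hℓ hA (M * ℓ)
      hWnt := h62y_Winf_nt A (M * ℓ)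
      hprime := h𝔫.isPrime
      hm𝔫 := hm
      hP𝔫 := fun b m hm' y hy hb => hPinf (h62y_mem_Pinf A M hℓ hM hA b m hm' y hy hb)
      he := ?_
      ht := ht
      ht0 := ht0
      htW := h63r_ssV_le_soft hℓ hA htinv
      hprin := hprin
      hsec := fun i hi => h85s_ifaceSSSection_of A M ℓ _ (h71_finite_fin' hℓ hM hA) i 𝔫 h𝔫 hm hi }
  obtain ⟨e, heP, he𝔫⟩ := SetLike.not_le_iff_exists.mp hP0
  have h1 : h62i_w A M hℓ hM hA e ∈ h62i_Pinf A M hℓ hM hA :=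
    (h62i_mem_P0_iff_w A M hℓ hM hA e).mp heP
  obtain ⟨c, hc, hc0, y, hy, hey⟩ := h62y_of_mem_Pinf A M hℓ hM hA _ h1
  refine ⟨e, he𝔫, c, hc, hc0, kFricke M ℓ hℓ hM y, ?_, ?_⟩
  · show kFricke M ℓ hℓ hM (kFricke M ℓ hℓ hM y) ∈ softV A (M * ℓ)
    rw [kFricke_kFricke]
    exact hy
  · rw [h62i_coe_w] at hey
    have := congrArg (kFricke M ℓ hℓ hM) hey
    rw [kFricke_kFricke, map_mul, h62y_kFricke_algebraMap] at this
    exact this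

include haux h𝔫 in
/-- **the smooth datum at the points of `C₀` only.** -/
theorem h62y_smooth_zero
    (hP0 : h62i_P0 A M hℓ hM hA ≤ 𝔫) (hPinf : ¬ h62i_Pinf A M hℓ hM hA ≤ 𝔫) :
    ∃ t, H62ySmooth (chart (M * ℓ) A (jSS M ℓ)) (ssV A M ℓ) (chartVal (M * ℓ) (jSS M ℓ))
      (h85cW0 A M ℓ hℓ hM hA).toSubring (softV A (M * ℓ)) 𝔫 t := by
  obtain ⟨t, ht, ht0, htinv, hprin⟩ := h62x_torSmooth_zero A M hℓ hM haux hA 𝔫 h𝔫 hP0 hPinf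
  have hm : mExt A M ℓ (jSS M ℓ) ≤ 𝔫 := le_trans (h62i_m_le_P0 A M hℓ hM hA) hP0
  refine ⟨t, ?_⟩
  refine
    { hC := h85s_ifaceSSChart_fin A M ℓ hℓ hM hA
      hinj := algebraMap_injective_FF (M * ℓ) A
      harch := harch_of_liesOver A hℓ hA
      hWW := fun x hx hx' => h63r_mem_ssV_of_soft hℓ hM hA hx' hx
      hBW := fun b hb => h62i_mem_soft A M hℓ hM hA (h62i_w A M hℓ hM hA ⟨b, hb⟩)
      hBW' := fun b hb => h62i_mem_soft A M hℓ hM hA ⟨b, hb⟩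
      hWval := h62y_W0_val A M hℓ hM hA
      hWnt := h62y_W0_nt A M hℓ hM hA
      hprime := h𝔫.isPrime
      hm𝔫 := hm
      hP𝔫 := ?_
      he := ?_
      ht := ht
      ht0 := ht0
      htW := h63r_w_ssV_le_soft hℓ hM hA htinv
      hprin := hprin
      hsec := fun i hi => h85s_ifaceSSSection_of A M ℓ _ (h71_finite_fin' hℓ hM hA) i 𝔫 h𝔫 hm hi }
  · intro b m hm' y hy hb
    apply hP0
    rw [h62i_mem_P0_iff_w]
    have hy' : kFricke M ℓ hℓ hM y ∈ softV A (M * ℓ) := hy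
    refine h62y_mem_Pinf A M hℓ hM hA _ m hm' _ hy' ?_
    rw [h62i_coe_w, hb, map_mul, h62y_kFricke_algebraMap]
  · obtain ⟨e, heP, he𝔫⟩ := SetLike.not_le_iff_exists.mp hPinf
    obtain ⟨c, hc, hc0, y, hy, hey⟩ := h62y_of_mem_Pinf A M hℓ hM hA _ heP
    exact ⟨e, he𝔫, c, hc, hc0, y, hy, hey⟩

theorem h62y_natCast_ne_zero (hℓ : ℓ.Prime) : ((ℓ : ℕ) : A) ≠ 0 := by
  intro h0
  have h1 : ((ℓ : ℕ) : Kbar) = 0 := by
    have := congrArg (Subtype.val : A → Kbar) h0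
    simpa using this
  exact hℓ.ne_zero (by exact_mod_cast h1)

include haux h𝔫 in
/-- **purity at the points of `C∞` only** (finite chart). -/
theorem h62y_purity_inf
    (hPinf : h62i_Pinf A M hℓ hM hA ≤ 𝔫) (hP0 : ¬ h62i_P0 A M hℓ hM hA ≤ 𝔫)
    (ϖ : A) (e : ℕ) (he : ((ℓ : ℕ) : A) ∣ ϖ ^ e) (n j : ℕ) :
    ∃ k : ℕ, ∀ G ∈ softV A (M * ℓ),
      (∃ u ∈ h62yO (chart (M * ℓ) A (jSS M ℓ)) 𝔫 h𝔫.isPrime,
        (∃ u' ∈ h62yO (chart (M * ℓ) A (jSS M ℓ)) 𝔫 h𝔫.isPrime, u * u' = 1) ∧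
        ∃ m ∈ maximalIdeal A, ∃ y ∈ softV A (M * ℓ), G = u + m • y) →
      (∃ b ∈ h62yO (chart (M * ℓ) A (jSS M ℓ)) 𝔫 h𝔫.isPrime, ∃ r ∈ softV A (M * ℓ),
        G ^ (ℓ ^ n) = b + (ϖ ^ k) • r) →
      ∃ b ∈ h62yO (chart (M * ℓ) A (jSS M ℓ)) 𝔫 h𝔫.isPrime, ∃ r ∈ softV A (M * ℓ),
        G = b + (ϖ ^ j) • r := by
  obtain ⟨t, h⟩ := h62y_smooth_inf A M hℓ hM haux hA 𝔫 h𝔫 hPinf hP0
  obtain ⟨k, hk⟩ := h62y_purity_iter h ℓ hℓ (h62y_natCast_ne_zero A hℓ) ϖ e he n j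
  refine ⟨k, fun G hG hu hGk => ?_⟩
  obtain ⟨b, hb, r, hr, hbr⟩ := hk G hG hu
    (by obtain ⟨b, hb, r, hr, hbr⟩ := hGk; exact ⟨b, hb, r, hr, hbr⟩)
  exact ⟨b, hb, r, hr, hbr⟩

include haux h𝔫 in
/-- **purity at the points of `C₀` only** (finite chart). -/
theorem h62y_purity_zero
    (hP0 : h62i_P0 A M hℓ hM hA ≤ 𝔫) (hPinf : ¬ h62i_Pinf A M hℓ hM hA ≤ 𝔫)
    (ϖ : A) (e : ℕ) (he : ((ℓ : ℕ) : A) ∣ ϖ ^ e) (n j : ℕ) :
    ∃ k : ℕ, ∀ G ∈ (h85cW0 A M ℓ hℓ hM hA).toSubring,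
      (∃ u ∈ h62yO (chart (M * ℓ) A (jSS M ℓ)) 𝔫 h𝔫.isPrime,
        (∃ u' ∈ h62yO (chart (M * ℓ) A (jSS M ℓ)) 𝔫 h𝔫.isPrime, u * u' = 1) ∧
        ∃ m ∈ maximalIdeal A, ∃ y ∈ (h85cW0 A M ℓ hℓ hM hA).toSubring, G = u + m • y) →
      (∃ b ∈ h62yO (chart (M * ℓ) A (jSS M ℓ)) 𝔫 h𝔫.isPrime,
        ∃ r ∈ (h85cW0 A M ℓ hℓ hM hA).toSubring, G ^ (ℓ ^ n) = b + (ϖ ^ k) • r) →
      ∃ b ∈ h62yO (chart (M * ℓ) A (jSS M ℓ)) 𝔫 h𝔫.isPrime,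
        ∃ r ∈ (h85cW0 A M ℓ hℓ hM hA).toSubring, G = b + (ϖ ^ j) • r := by
  obtain ⟨t, h⟩ := h62y_smooth_zero A M hℓ hM haux hA 𝔫 h𝔫 hP0 hPinf
  obtain ⟨k, hk⟩ := h62y_purity_iter h ℓ hℓ (h62y_natCast_ne_zero A hℓ) ϖ e he n j
  refine ⟨k, fun G hG hu hGk => ?_⟩
  obtain ⟨b, hb, r, hr, hbr⟩ := hk G hG hu
    (by obtain ⟨b, hb, r, hr, hbr⟩ := hGk; exact ⟨b, hb, r, hr, hbr⟩)
  exact ⟨b, hb, r, hr, hbr⟩

end Inst

end Fermat.Agent.P6
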