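import Fermat.Agent.S35.H86TorAsm
import Fermat.Agent.P6.H13TorAsmP
import Fermat.Agent.P6.H13TorEndP
import Fermat.Agent.P6.H13TorSmoothP
import Fermat.Agent.P6.H71Approx
import Fermat.Agent.P6.H2NodeNF

/-!
# P6 (wave 6, S33), block B2-TOR (helper63): the node leaf `H13qNode` and the crux `H11TorGate`

The level-form instance of the deep node datum: at a node `𝔫` (`TorNodeAt`) of the finite chart
of level `M p`, for `w ≡ 1` modulo `r² π · ssV` with orders divisible by `r = p ^ k` and `τ` in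
the inertia group acting on the `r`-th roots of unity by the exponent `a`, the function
`Θ(w) = τ w / w ^ a` has the local datum of the deep gate with modulus `r π`.

* `h63t_exists_primitiveRoot` : `A` contains a primitive `r`-th root of unity.
* `h63t_node : H13qNode` : from the abstract deep normal form `h2n_normalDeep` (helper2), the
  abstract twisted datum `h59n_node_theta` (helper59), the landed chart pieces of LGC / S35 and
  the inertia permutation property `ifaceSSPerm_of_chart`.  The constant is `c₀ = r²`.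
* `h63t_torGate : H11TorGate` : the crux, unconditional, through the conditional top
  `h13q_torGate_of` (helper13) with `h13q_smooth` (helper13 / helper90) and `h71a_approx`
  (helper71).
-/

set_option autoImplicit false
set_option linter.unusedSectionVars false
set_option linter.unusedVariables false
set_option linter.style.haveILetI false

open AlgebraicCurve ModularCurve WithZero IsLocalRing

noncomputable section

namespace Fermat.Agent.P6

open Fermat.Agent.S37 Fermat.Agent.S37.GalI Fermat.Agent.Red Fermat.Agent.Red.GG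
  Fermat.Agent.Red.GV Fermat.Agent.Red.GV.Soft Fermat.Agent.Red.ModelO Fermat.Agent.Red.Kron
  Fermat.Agent.LGC Fermat.Agent.S35

/-- a valuation subring of `ℚ̄` contains a primitive `r`-th root of unity. -/
theorem h63t_exists_primitiveRoot (A : ValuationSubring Kbar) (r : ℕ) (hr : 0 < r) :
    ∃ ζ : A, IsPrimitiveRoot ζ r := by
  haveI : NeZero (r : Kbar) := ⟨by exact_mod_cast hr.ne'⟩
  obtain ⟨ζ, hζ⟩ := HasEnoughRootsOfUnity.exists_primitiveRoot Kbar r
  have hζr : ζ ^ r = 1 := hζ.pow_eq_one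
  have hζA : ζ ∈ A := by
    rcases A.mem_or_inv_mem ζ with h | h
    · exact h
    · have h1 : ζ = (ζ⁻¹) ^ (r - 1) := by
        have h0 : ζ ≠ 0 := hζ.ne_zero hr.ne'
        have h2 : ζ * ζ ^ (r - 1) = 1 := by
          rw [← pow_succ', Nat.sub_add_cancel hr]
          exact hζr
        rw [inv_pow]
        exact eq_inv_of_mul_eq_one_left h2
      rw [h1]
      exact pow_mem h _
  refine ⟨⟨ζ, hζA⟩, ?_⟩
  exact IsPrimitiveRoot.of_map_of_injective (f := A.subtype) hζ Subtype.val_injective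

set_option maxHeartbeats 1600000 in
/-- **T3, the deep node datum for `Θ(w)`, level form** (`c₀ = r²`). -/
theorem h63t_node : H13qNode := by
  intro p hp hp2 M _ hM haux
  haveI : NeZero p := ⟨hp.ne_zero⟩
  intro A hA k
  have hr : 0 < p ^ k := pow_pos hp.pos k
  have hrA : (((p ^ k : ℕ) : ℕ) : A) ≠ 0 := h13q_natCast_ne_zero A (p ^ k) hr
  refine ⟨((p ^ k : ℕ) : A) * ((p ^ k : ℕ) : A), mul_ne_zero hrA hrA, ?_⟩
  intro 𝔫 h𝔫 hle hNd τ hτ a hcyc π hπ hπ0 w hwU hrw
  classical
  haveI := h𝔫.isPrime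
  have hd := h13q_inertia_le_decomp hτ
  have hC₀ : IfaceSSChart A M p (jSS M p) := h85s_ifaceSSChart_fin A M p hp hM hA
  have hNt : IfaceSSNt A M p := h85s_ifaceSSNt A M p hp hM hA
  have hF₀ : IfaceFinite (M * p) A (jSS M p) := h71_finite_fin' hp hM hA
  have hS₀ : IfaceSSSection A M p (jSS M p) := h85s_ifaceSSSection_of A M p _ hF₀
  have hAF := algebraMap_injective_FF (M * p) A
  have hPerm : IfaceSSPerm A M p (jSS M p) := ifaceSSPerm_of_chart hp hM hA hC₀
  obtain ⟨⟨hbi, hb0⟩, x, hx, y, hy, c, hc, a', ha', hxy, hgen, hxinf, hy0⟩ := hNd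
  -- the depth `c₀ = r π`
  have hc₀ : ((p ^ k : ℕ) : A) * π ∈ maximalIdeal A := Ideal.mul_mem_left _ _ hπ
  have hc₀0 : ((p ^ k : ℕ) : A) * π ≠ 0 := mul_ne_zero hrA hπ0
  have hwU' : w ∈ h26U (((p ^ k : ℕ) : A) * (((p ^ k : ℕ) : A) * π)) (ssV A M p) := by
    rw [← mul_assoc]
    exact hwU
  have hw0 : w ≠ 0 := h26U_ne_zero (hNt _ (Ideal.mul_mem_left _ _ hc₀)) hwU'
  -- the deep normal form
  have hNF := h2n_normalDeep hC₀ hAF
    (h85cWinf A M p hp hA).toSubring (h85cW0 A M p hp hM hA).toSubring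
    (fun x hx => h85c_ssV_le_Winf A M p hp hA hx)
    (fun x hx => h85c_ssV_le_W0 A M p hp hM hA hx)
    (h85c_hWV A M p hp hM hA)
    (fun π hπ x hx => h86t_Winf_unit A M p hp hA π hπ x hx)
    (fun π hπ x hx => h86t_W0_unit A M p hp hM hA π hπ x hx)
    (fun π hπ x hx => h86t_Winf_nt A M p hp hA π hπ x hx)
    (fun π hπ x hx => h86t_W0_nt A M p hp hM hA π hπ x hx)
    𝔫 hle
    (fun b hb => by_contra fun h => hb (hbi b h))
    (fun b hb => by_contra fun h => hb (hb0 b h))
    x y c hx hy hc a' ha' hxy hxinf hy0 hgen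
    (fun i hi => hS₀ i 𝔫 h𝔫 hle hi)
    w hw0 (p ^ k) hr hrw hrA (((p ^ k : ℕ) : A) * π) hc₀ hc₀0 hwU'
  -- the automorphism and its action on the constants
  obtain ⟨ζ, hζ⟩ := h63t_exists_primitiveRoot A (p ^ k) hr
  have hτθ : ∀ b : A, (SemilinearAut.toRingAut (gal (M * p) τ)) (algebraMap A (FF (M * p)) b) =
      algebraMap A (FF (M * p)) (decompA A τ hd b) := fun b => gal_smul_cst τ (b : Kbar)
  have hθζ : ∀ η : A, η ^ (p ^ k) = 1 → decompA A τ hd η = η ^ a := by
    intro η hη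
    apply Subtype.ext
    have h1 : ((η : Kbar)) ^ (p ^ k) = 1 := by
      have := congrArg (fun z : A => (z : Kbar)) hη
      simpa using this
    have h2 := hcyc (η : Kbar) h1
    rw [coe_decompA]
    simpa using h2
  have hθc : ((p ^ k : ℕ) : A) * π ∣ decompA A τ hd (((p ^ k : ℕ) : A) * π) := by
    have hK : ((((p ^ k : ℕ) : A) * π : A) : Kbar) ≠ 0 := fun h => hc₀0 (Subtype.ext h)
    obtain ⟨hu, -⟩ := h75q_inertia_div_mem A hτ ((((p ^ k : ℕ) : A) * π : A) : Kbar) hK
    have e : ((((p ^ k : ℕ) : A) * π : A) : Kbar) *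
        (τ ((((p ^ k : ℕ) : A) * π : A) : Kbar) / ((((p ^ k : ℕ) : A) * π : A) : Kbar)) =
        τ ((((p ^ k : ℕ) : A) * π : A) : Kbar) := by
      field_simp
    exact ⟨⟨_, hu⟩, Subtype.ext e.symm⟩
  have hτinf : ∀ x ∈ (h85cWinf A M p hp hA).toSubring,
      (SemilinearAut.toRingAut (gal (M * p) τ)) x ∈ (h85cWinf A M p hp hA).toSubring :=
    fun x hx => h86t_gal_mem_Winf A M p hp hA hd hx
  have hτ0 : ∀ x ∈ (h85cW0 A M p hp hM hA).toSubring,
      (SemilinearAut.toRingAut (gal (M * p) τ)) x ∈ (h85cW0 A M p hp hM hA).toSubring :=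
    fun x hx => h86t_gal_mem_W0 A M p hp hM hA hd hx
  -- the twisted datum
  obtain ⟨g, hg, s, hs, h1, h2⟩ := h59n_node_theta hC₀ hAF
    (h85cWinf A M p hp hA).toSubring (h85cW0 A M p hp hM hA).toSubring
    (fun x hx => h85c_ssV_le_Winf A M p hp hA hx)
    (fun x hx => h85c_ssV_le_W0 A M p hp hM hA hx)
    (h85c_hWV A M p hp hM hA)
    (fun π hπ x hx => h86t_Winf_unit A M p hp hA π hπ x hx)
    (fun π hπ x hx => h86t_W0_unit A M p hp hM hA π hπ x hx)
    (fun π hπ x hx => h86t_Winf_nt A M p hp hA π hπ x hx)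
    (fun π hπ x hx => h86t_W0_nt A M p hp hM hA π hπ x hx)
    𝔫 (SemilinearAut.toRingAut (gal (M * p) τ)) (decompA A τ hd) hτθ a hτinf hτ0
    (hPerm τ hτ 𝔫 h𝔫 hle)
    (p ^ k) hr hζ hθζ (((p ^ k : ℕ) : A) * π) hc₀ hc₀0 hθc w hw0 hNF
  refine ⟨g, hg, s, hs, ?_, ?_⟩
  · have e : h11Theta (M * p) τ a w =
        (SemilinearAut.toRingAut (gal (M * p) τ)) w * (w ^ a)⁻¹ := by
      unfold h11Theta
      rw [div_eq_mul_inv]
      rfl
    rw [e]
    exact h1
  · have e : h11Theta (M * p) τ a w =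
        (SemilinearAut.toRingAut (gal (M * p) τ)) w * (w ^ a)⁻¹ := by
      unfold h11Theta
      rw [div_eq_mul_inv]
      rfl
    rw [e]
    exact h2

/-- **TOR-GATE-p, the crux of B2, unconditional.** -/
theorem h63t_torGate : H11TorGate :=
  h13q_torGate_of h13q_smooth h63t_node h71a_approx

end Fermat.Agent.P6
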