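import Fermat.Agent.S35.H31Desc
import Fermat.Agent.S35.H33Tors

/-!
# Wave 6 (S33), block B2-NEW: the function-form top (helper66, row B2-TOP-FF)

The `p`-power analogue of `S35/GeomSkeleton.lean` + `S35/H31Desc.lean` + `S35/H33Tors.lean`
(and of `LGC/Unip.lean`) for the inertia at `p ∥ N = M * p` acting on the `p`-new part of
`J₀(M p)[p ^ k]`.

Setting: `p` a prime, `p ∤ M`, `A` a valuation subring of `ℚ̄` over `p`, `a, b` in the inertia
group of `A`, `e` an exponent of `a` on `μ_{p^k}` (`a μ = μ ^ e`).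

* `h66zTdd N a b e u = a(b u) · u ^ e / (a(u) · b(u) ^ e)` : the **twisted double difference**
  (`= a(w) / w ^ e` with `w = b(u) / u`).
* `H66zGateAt p M A a b c` : **the twisted gate** at the level `M * p` with exponent `p ^ c`:
  for all `k`, `e` and all `u ≠ 0` with `p ^ k ∣ div u` whose norms along `α` and `β` are
  `p ^ k`-th powers, `(tdd u) ^ (p ^ c)` is a `p ^ k`-th power.
* `H66zTwGate` (good levels `auxLevel p ∣ M`), `H66zTwGateAll` (all levels), with a bounded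
  exponent `p ^ c`; `H66zTwGateExact`, `H66zTwGateAllExact` : the same with `c = 0`.
* `h66z_gateAt_descent` : the gate at the good level above `M` gives the gate at `M`, with the
  same exponent (`h66z_twGateAll_of_twGate`, `h66z_twGateAllExact_of_twGateExact`).
* `H66zNewTorsion M p`, `H66zNewTorsionExact M p` : the class form: for `x ∈ J₀(M p)[p ^ k]`
  with `α_* x = β_* x = 0`:  `p ^ c • (a b x + e x) = p ^ c • (a x + e b x)`.
* `h66z_newTorsion_of_gateAt`, `h66z_newTorsion_of_twGateAll`,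
  `h66z_newTorsionExact_of_twGateAllExact` : from functions to classes.

Nothing is assumed: the gates are frozen interface `Prop`s, everything else is proved.
-/

set_option autoImplicit false
set_option linter.unusedSectionVars false
set_option linter.style.haveILetI false

open AlgebraicCurve ModularCurve

noncomputable section

namespace Fermat.Agent.P6

open Fermat.Agent.S37 Fermat.Agent.Red.KR Fermat.Agent.Red.Kron Fermat.Agent.Red.TRK
  Fermat.Agent.LGC Fermat.Agent.Red.GateAll Fermat.Agent.S35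
open Fermat.Agent.Jac.K1 (IsKummerPair exists_kummerPair_JZero)

/-- the twisted double difference `a(b u) · u ^ e / (a(u) · b(u) ^ e)`. -/
def h66zTdd (N : ℕ) (a b : GQ) (e : ℕ) (u : FF N) : FF N :=
  ((gal N a • gal N b • u) * u ^ e) / ((gal N a • u) * (gal N b • u) ^ e)

theorem h66z_tdd_ne_zero (N : ℕ) (a b : GQ) (e : ℕ) {u : FF N} (hu : u ≠ 0) :
    h66zTdd N a b e u ≠ 0 := by
  unfold h66zTdd
  exact div_ne_zero
    (mul_ne_zero (gal_smul_ne_zero a (gal_smul_ne_zero b hu)) (pow_ne_zero _ hu))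
    (mul_ne_zero (gal_smul_ne_zero a hu) (pow_ne_zero _ (gal_smul_ne_zero b hu)))

/-- the twisted double difference commutes with the degeneracy inclusions. -/
theorem h66z_tdd_degen {N N' : ℕ} [NeZero N] [NeZero N'] (h : N ∣ N') (a b : GQ) (e : ℕ)
    (u : FF N) : degen h (h66zTdd N a b e u) = h66zTdd N' a b e (degen h u) := by
  unfold h66zTdd
  rw [map_div₀, map_mul, map_mul, map_pow, map_pow]
  simp only [h63_degen_gal]

/-- the divisor of a power of the twisted double difference is divisible by `m` if the divisor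
of `u` is. -/
theorem h66z_dvd_ord_tdd {N : ℕ} (a b : GQ) (e : ℕ) {m : ℕ} {u : FF N} (hu : u ≠ 0)
    (hord : ∀ v : Place Kbar (FF N), (m : ℤ) ∣ v.ord u) (t : ℕ) (v : Place Kbar (FF N)) :
    (m : ℤ) ∣ v.ord (h66zTdd N a b e u ^ t) := by
  have hb := h31s_dvd_ord_gal b hord
  have ha := h31s_dvd_ord_gal a hord
  have hab := h31s_dvd_ord_gal a hb
  have hub : gal N b • u ≠ 0 := gal_smul_ne_zero b hu
  have hua : gal N a • u ≠ 0 := gal_smul_ne_zero a hu
  have huab : gal N a • gal N b • u ≠ 0 := gal_smul_ne_zero a hub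
  rw [← zpow_natCast, Place.ord_zpow]
  refine Dvd.dvd.mul_left ?_ _
  unfold h66zTdd
  rw [div_eq_mul_inv, Place.ord_mul _ (mul_ne_zero huab (pow_ne_zero _ hu))
    (inv_ne_zero (mul_ne_zero hua (pow_ne_zero _ hub))), Place.ord_mul _ huab (pow_ne_zero _ hu),
    Place.ord_inv, Place.ord_mul _ hua (pow_ne_zero _ hub),
    ← zpow_natCast, Place.ord_zpow, ← zpow_natCast, Place.ord_zpow]
  exact dvd_add (dvd_add (hab v) (Dvd.dvd.mul_left (hord v) _))
    ((dvd_neg).2 (dvd_add (ha v) (Dvd.dvd.mul_left (hb v) _)))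

/-! ## The frozen gates -/

/-- **the twisted gate at the level `M * p`, exponent `p ^ c`.** -/
def H66zGateAt (p M : ℕ) [NeZero M] [NeZero p] (a b : GQ) (c : ℕ) : Prop :=
  ∀ k e : ℕ, (∀ μ : Kbar, μ ^ p ^ k = 1 → a μ = μ ^ e) →
    ∀ u : FF (M * p), u ≠ 0 →
      (∀ v : Place Kbar (FF (M * p)), ((p ^ k : ℕ) : ℤ) ∣ v.ord u) →
      (∃ h : FF M, normAlong (heckeAlphaBar Kbar M p) u = h ^ p ^ k) →
      (∃ h : FF M, normAlong (heckeBetaBar Kbar M p) u = h ^ p ^ k) →
        ∃ h : FF (M * p), h ^ p ^ k = h66zTdd (M * p) a b e u ^ p ^ c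

/-- **the twisted gate at the good levels**, bounded exponent. -/
def H66zTwGate : Prop :=
  ∀ (p : ℕ) (hp : p.Prime) (M : ℕ) [NeZero M], ¬ p ∣ M → auxLevel p ∣ M →
    haveI : NeZero p := ⟨hp.ne_zero⟩
    ∀ A : ValuationSubring Kbar, A.LiesOverPrime p →
    ∀ a ∈ A.inertiaSubgroupIn ℚ, ∀ b ∈ A.inertiaSubgroupIn ℚ, ∃ c : ℕ, H66zGateAt p M a b c

/-- **the twisted gate at the good levels**, exact. -/
def H66zTwGateExact : Prop :=
  ∀ (p : ℕ) (hp : p.Prime) (M : ℕ) [NeZero M], ¬ p ∣ M → auxLevel p ∣ M →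
    haveI : NeZero p := ⟨hp.ne_zero⟩
    ∀ A : ValuationSubring Kbar, A.LiesOverPrime p →
    ∀ a ∈ A.inertiaSubgroupIn ℚ, ∀ b ∈ A.inertiaSubgroupIn ℚ, H66zGateAt p M a b 0

/-- **the twisted gate at all levels** `M * p`, `p ∤ M`, bounded exponent. -/
def H66zTwGateAll : Prop :=
  ∀ (p : ℕ) (hp : p.Prime) (M : ℕ) [NeZero M], ¬ p ∣ M →
    haveI : NeZero p := ⟨hp.ne_zero⟩
    ∀ A : ValuationSubring Kbar, A.LiesOverPrime p →
    ∀ a ∈ A.inertiaSubgroupIn ℚ, ∀ b ∈ A.inertiaSubgroupIn ℚ, ∃ c : ℕ, H66zGateAt p M a b c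

/-- **the twisted gate at all levels**, exact. -/
def H66zTwGateAllExact : Prop :=
  ∀ (p : ℕ) (hp : p.Prime) (M : ℕ) [NeZero M], ¬ p ∣ M →
    haveI : NeZero p := ⟨hp.ne_zero⟩
    ∀ A : ValuationSubring Kbar, A.LiesOverPrime p →
    ∀ a ∈ A.inertiaSubgroupIn ℚ, ∀ b ∈ A.inertiaSubgroupIn ℚ, H66zGateAt p M a b 0

/-! ## Descent from the good levels -/

/-- **descent**: the twisted gate at the good level above `M` gives the twisted gate at `M`,
with the same exponent. -/
theorem h66z_gateAt_descent {p : ℕ} (hp : p.Prime) (M : ℕ) [NeZero M] (hpM : ¬ p ∣ M)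
    (a b : GQ) (c : ℕ)
    (H : haveI : NeZero p := ⟨hp.ne_zero⟩; H66zGateAt p (goodLevel p M) a b c) :
    haveI : NeZero p := ⟨hp.ne_zero⟩; H66zGateAt p M a b c := by
  haveI : NeZero p := ⟨hp.ne_zero⟩
  intro k e he u hu hord hα hβ
  have hm0 : p ^ k ≠ 0 := pow_ne_zero _ hp.ne_zero
  have hd : M ∣ goodLevel p M := dvd_goodLevel p M
  have hdq : M * p ∣ goodLevel p M * p := Nat.mul_dvd_mul_right hd p
  obtain ⟨h₁, hh₁⟩ := hα
  obtain ⟨h₂, hh₂⟩ := hβ
  obtain ⟨h', hh'⟩ := H k e he (degen hdq u) (h31s_degen_ne_zero hdq hu)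
    (by
      intro v
      rw [Place.ord_restrictAlong (degen hdq) (h99_isIntegral_degen _) v u]
      exact Dvd.dvd.mul_left (hord _) _)
    ⟨degen hd h₁, by
      rw [h31s_norm_alpha_degen p hp hpM (not_dvd_goodLevel hp hpM) hd, hh₁, map_pow]⟩
    ⟨degen hd h₂, by
      rw [h31s_norm_beta_degen p hp hpM (not_dvd_goodLevel hp hpM) hd, hh₂, map_pow]⟩
  rw [← h66z_tdd_degen hdq, ← map_pow] at hh'
  have hw : h66zTdd (M * p) a b e u ^ p ^ c ≠ 0 := pow_ne_zero _ (h66z_tdd_ne_zero _ a b e hu)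
  have hgl := h31s_goodLevel_mul_dvd hp hpM
  obtain ⟨h, hh⟩ := h63_descent_pow p (M * p) (p ^ k) hm0 (h66zTdd (M * p) a b e u ^ p ^ c) hw
    (h66z_dvd_ord_tdd a b e hu hord (p ^ c))
    ⟨degen hgl h', by rw [← map_pow, hh', h31s_degen_degen]⟩
  exact ⟨h, hh⟩

/-- **G-DESC-p**, bounded exponent. -/
theorem h66z_twGateAll_of_twGate (hG : H66zTwGate) : H66zTwGateAll := by
  intro p hp M _ hpM
  haveI : NeZero p := ⟨hp.ne_zero⟩
  intro A hA a ha b hb
  obtain ⟨c, hc⟩ := hG p hp (goodLevel p M) (not_dvd_goodLevel hp hpM)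
    (auxLevel_dvd_goodLevel p M) A hA a ha b hb
  exact ⟨c, h66z_gateAt_descent hp M hpM a b c hc⟩

/-- **G-DESC-p**, exact. -/
theorem h66z_twGateAllExact_of_twGateExact (hG : H66zTwGateExact) : H66zTwGateAllExact := by
  intro p hp M _ hpM
  haveI : NeZero p := ⟨hp.ne_zero⟩
  intro A hA a ha b hb
  exact h66z_gateAt_descent hp M hpM a b 0 (hG p hp (goodLevel p M) (not_dvd_goodLevel hp hpM)
    (auxLevel_dvd_goodLevel p M) A hA a ha b hb)

/-! ## From functions to divisor classes -/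

/-- the twisted double difference of a Kummer representative represents the twisted double
difference of the class. -/
theorem h66z_kummer_tdd (N : ℕ) (a b : GQ) (e : ℕ) {n : ℕ} {x : JZero N} {f : FF N}
    (hx : IsKummerPair n x f) :
    IsKummerPair n
      (gal N a • gal N b • x + e • x - (gal N a • x + e • gal N b • x))
      (h66zTdd N a b e f) := by
  have hb := hx.smul (gal N b)
  have ha := hx.smul (gal N a)
  have hab := hb.smul (gal N a)
  exact (hab.mul (h33s_kummer_nsmul hx e)).div (ha.mul (h33s_kummer_nsmul hb e))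

/-- **the class identity from one root.** -/
theorem h66z_class_of_pow (N : ℕ) [NeZero N] (a b : GQ) (e : ℕ) {n : ℕ} (hn : n ≠ 0)
    {x : JZero N} {f : FF N} (hx : IsKummerPair n x f) (t : ℕ) (H : FF N)
    (hH : H ^ n = h66zTdd N a b e f ^ t) :
    t • (a • b • x + e • x) = t • (a • x + e • b • x) := by
  have hw := h33s_kummer_nsmul (h66z_kummer_tdd N a b e hx) t
  have h0 := Fermat.Agent.Red.EST.h76_kummer_eq_zero_of_pow hn hw hH
  rw [nsmul_sub, sub_eq_zero] at h0
  exact h0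

/-- **the class form at the level `M * p`, from the gate.** -/
theorem h66z_newTorsion_of_gateAt {p : ℕ} (hp : p.Prime) (M : ℕ) [NeZero M]
    (a b : GQ) (c : ℕ)
    (H : haveI : NeZero p := ⟨hp.ne_zero⟩; H66zGateAt p M a b c) :
    haveI : NeZero p := ⟨hp.ne_zero⟩
    ∀ k e : ℕ, (∀ μ : Kbar, μ ^ p ^ k = 1 → a μ = μ ^ e) →
      ∀ x : JZero (M * p), p ^ k • x = 0 → pushAlpha M p x = 0 → pushBeta M p x = 0 →
        p ^ c • (a • b • x + e • x) = p ^ c • (a • x + e • b • x) := by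
  haveI : NeZero p := ⟨hp.ne_zero⟩
  intro k e he x hx hα hβ
  have hn : p ^ k ≠ 0 := pow_ne_zero _ hp.ne_zero
  obtain ⟨f, hf⟩ := exists_kummerPair_JZero (M * p) hx
  obtain ⟨g₁, -, hg₁⟩ := h33s_norm_eq_pow_of_pushAlpha M p hn hf hα
  obtain ⟨g₂, -, hg₂⟩ := h33s_norm_eq_pow_of_pushBeta M p hn hf hβ
  obtain ⟨h, hh⟩ := H k e he f hf.ne_zero (fun v => hf.dvd_ord v)
    ⟨g₁, by rw [h33s_normAlong_eq]; exact hg₁⟩ ⟨g₂, by rw [h33s_normAlong_eq]; exact hg₂⟩
  exact h66z_class_of_pow (M * p) a b e hn hf (p ^ c) h hh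

/-- **the class form (target of B2-NEW)**, bounded exponent: for `x ∈ J₀(M p)[p ^ k]` in the
kernel of both push-forwards to `J₀(M)` and `a, b` in an inertia group at `p`,
`p ^ c • (a b x + e x) = p ^ c • (a x + e b x)`. -/
def H66zNewTorsion (M p : ℕ) [NeZero M] [NeZero p] : Prop :=
  p.Prime → ¬ p ∣ M →
    ∀ A : ValuationSubring Kbar, A.LiesOverPrime p →
    ∀ a ∈ A.inertiaSubgroupIn ℚ, ∀ b ∈ A.inertiaSubgroupIn ℚ,
      ∃ c : ℕ, ∀ k e : ℕ, (∀ μ : Kbar, μ ^ p ^ k = 1 → a μ = μ ^ e) →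
        ∀ x : JZero (M * p), p ^ k • x = 0 → pushAlpha M p x = 0 → pushBeta M p x = 0 →
          p ^ c • (a • b • x + e • x) = p ^ c • (a • x + e • b • x)

/-- **the class form (target of B2-NEW)**, exact. -/
def H66zNewTorsionExact (M p : ℕ) [NeZero M] [NeZero p] : Prop :=
  p.Prime → ¬ p ∣ M →
    ∀ A : ValuationSubring Kbar, A.LiesOverPrime p →
    ∀ a ∈ A.inertiaSubgroupIn ℚ, ∀ b ∈ A.inertiaSubgroupIn ℚ,
      ∀ k e : ℕ, (∀ μ : Kbar, μ ^ p ^ k = 1 → a μ = μ ^ e) →
        ∀ x : JZero (M * p), p ^ k • x = 0 → pushAlpha M p x = 0 → pushBeta M p x = 0 →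
          a • b • x + e • x = a • x + e • b • x

/-- **G-TORS-p**, bounded exponent. -/
theorem h66z_newTorsion_of_twGateAll (hG : H66zTwGateAll) (M p : ℕ) [NeZero M] [NeZero p] :
    H66zNewTorsion M p := by
  intro hp hpM A hA a ha b hb
  obtain ⟨c, hc⟩ := hG p hp M hpM A hA a ha b hb
  exact ⟨c, h66z_newTorsion_of_gateAt hp M a b c hc⟩

/-- **G-TORS-p**, exact. -/
theorem h66z_newTorsionExact_of_twGateAllExact (hG : H66zTwGateAllExact) (M p : ℕ) [NeZero M]
    [NeZero p] : H66zNewTorsionExact M p := by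
  intro hp hpM A hA a ha b hb k e he x hx hα hβ
  have h := h66z_newTorsion_of_gateAt hp M a b 0 (hG p hp M hpM A hA a ha b hb) k e he x hx hα hβ
  rw [pow_zero, one_nsmul, one_nsmul] at h
  exact h

/-- **the function-form top of B2-NEW**: the twisted gate at the good levels gives the class
form at every level `M * p`, `p ∤ M`. -/
theorem h66z_newTorsion_of_twGate (hG : H66zTwGate) (M p : ℕ) [NeZero M] [NeZero p] :
    H66zNewTorsion M p :=
  h66z_newTorsion_of_twGateAll (h66z_twGateAll_of_twGate hG) M p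

theorem h66z_newTorsionExact_of_twGateExact (hG : H66zTwGateExact) (M p : ℕ) [NeZero M]
    [NeZero p] : H66zNewTorsionExact M p :=
  h66z_newTorsionExact_of_twGateAllExact (h66z_twGateAllExact_of_twGateExact hG) M p

end Fermat.Agent.P6
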