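import Fermat.Agent.P6.H94Iter
import Fermat.Agent.S36.H83EmbGal

/-!
# P6 (wave 6, S33), block B2 (1) NEW-DEPTH (helper94): the start of the ladder and the assembly

`ℓ ∤ M` prime, `A` over `ℓ`, `W_∞ = softV A (Mℓ)`, `w = kFricke`, `σ` in the inertia group of
`A`, `u ≠ 0` a function of level `Mℓ` whose norms along `α` and `β` are `r`-th powers
(`h94iNew`), `x = σ u / u`.

* `h94n_gal_Na`, `h94n_gal_Nb` : the norms commute with the Galois action.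
* `h94n_new_gal` : `σ u / u` is new.
* `h94n_start` : `σ u / u = κ ^ r (1 + c s)` with `κ` constant, `c ∈ 𝔪_A`, `s ∈ W_∞`
  (inertia is trivial on the residue field of `W_∞`, and `ℚ̄` is algebraically closed).
* `h94n_deep_gal` : `σ u / u` is an `r`-th power modulo every `d ≠ 0`, at `W_∞` and at `W_0`.
* `H94nApprox` : weak approximation at the pair `(W_∞, W_0)`, as a `Prop`.
* `h94n_torDeep` : with weak approximation, for every `d ≠ 0` there is ONE `h ≠ 0` with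
  `σ u / u = h ^ r (1 + d s)`, `s ∈ W_∞ ∩ w W_∞`.
-/

set_option autoImplicit false
set_option linter.style.haveILetI false
set_option linter.unusedSectionVars false
set_option synthInstance.maxHeartbeats 400000

open AlgebraicCurve ModularCurve IsLocalRing

noncomputable section

namespace Fermat.Agent.P6

open Fermat.Agent.S37 Fermat.Agent.Red Fermat.Agent.Red.GV Fermat.Agent.Red.GV.Soft
  Fermat.Agent.Red.Kron Fermat.Agent.Red.TRK Fermat.Agent.LGC Fermat.Agent.S35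
  Fermat.Agent.S36

variable (A : ValuationSubring Kbar) (M ℓ : ℕ) [NeZero M] [NeZero ℓ]

/-! ### Norms and the Galois action -/

/-- the norm along `α` commutes with the Galois action. -/
theorem h94n_gal_Na (σ : GQ) (y : FF (M * ℓ)) :
    gal M σ • h94iNa M ℓ y = h94iNa M ℓ (gal (M * ℓ) σ • y) := by
  unfold h94iNa
  letI := algebraAlong (heckeAlphaBar Kbar M ℓ)
  have he : RingHom.comp (algebraMap (FF M) (FF (M * ℓ)))
      (SemilinearAut.toRingAut (gal M σ) : FF M →+* FF M) =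
      RingHom.comp (SemilinearAut.toRingAut (gal (M * ℓ) σ) : FF (M * ℓ) →+* FF (M * ℓ))
        (algebraMap (FF M) (FF (M * ℓ))) := by
    refine RingHom.ext fun x => ?_
    exact (h83g_gal_alpha M ℓ σ x).symm
  have h := Algebra.norm_eq_of_equiv_equiv (SemilinearAut.toRingAut (gal M σ))
    (SemilinearAut.toRingAut (gal (M * ℓ) σ)) he y
  have h2 := congrArg (SemilinearAut.toRingAut (gal M σ)) h
  rw [RingEquiv.apply_symm_apply] at h2
  exact h2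

/-- the norm along `β` commutes with the Galois action. -/
theorem h94n_gal_Nb (σ : GQ) (y : FF (M * ℓ)) :
    gal M σ • h94iNb M ℓ y = h94iNb M ℓ (gal (M * ℓ) σ • y) := by
  unfold h94iNb
  letI := algebraAlong (heckeBetaBar Kbar M ℓ)
  have he : RingHom.comp (algebraMap (FF M) (FF (M * ℓ)))
      (SemilinearAut.toRingAut (gal M σ) : FF M →+* FF M) =
      RingHom.comp (SemilinearAut.toRingAut (gal (M * ℓ) σ) : FF (M * ℓ) →+* FF (M * ℓ))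
        (algebraMap (FF M) (FF (M * ℓ))) := by
    refine RingHom.ext fun x => ?_
    exact (h83g_gal_beta M ℓ σ x).symm
  have h := Algebra.norm_eq_of_equiv_equiv (SemilinearAut.toRingAut (gal M σ))
    (SemilinearAut.toRingAut (gal (M * ℓ) σ)) he y
  have h2 := congrArg (SemilinearAut.toRingAut (gal M σ)) h
  rw [RingEquiv.apply_symm_apply] at h2
  exact h2

theorem h94n_gal_ne_zero {N : ℕ} (σ : GQ) {x : FF N} (hx : x ≠ 0) : gal N σ • x ≠ 0 := by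
  intro h
  apply hx
  have := congrArg (fun y => (gal N σ)⁻¹ • y) h
  simpa using this

theorem h94n_Na_ne_zero {u : FF (M * ℓ)} (hu : u ≠ 0) : h94iNa M ℓ u ≠ 0 := by
  intro h0
  have h1 : h94iNa M ℓ (u * u⁻¹) = 1 := by
    rw [mul_inv_cancel₀ hu]
    unfold h94iNa
    letI := algebraAlong (heckeAlphaBar Kbar M ℓ)
    exact map_one (Algebra.norm (FF M))
  rw [h94iNa_mul, h0, zero_mul] at h1
  exact zero_ne_one h1

theorem h94n_Nb_ne_zero {u : FF (M * ℓ)} (hu : u ≠ 0) : h94iNb M ℓ u ≠ 0 := by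
  intro h0
  have h1 : h94iNb M ℓ (u * u⁻¹) = 1 := by
    rw [mul_inv_cancel₀ hu]
    unfold h94iNb
    letI := algebraAlong (heckeBetaBar Kbar M ℓ)
    exact map_one (Algebra.norm (FF M))
  rw [h94iNb_mul, h0, zero_mul] at h1
  exact zero_ne_one h1

/-- the norm of a quotient. -/
theorem h94n_Na_div (x : FF (M * ℓ)) {u : FF (M * ℓ)} (hu : u ≠ 0) :
    h94iNa M ℓ (x / u) = h94iNa M ℓ x / h94iNa M ℓ u := by
  rw [eq_div_iff (h94n_Na_ne_zero M ℓ hu), ← h94iNa_mul, div_mul_cancel₀ x hu]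

theorem h94n_Nb_div (x : FF (M * ℓ)) {u : FF (M * ℓ)} (hu : u ≠ 0) :
    h94iNb M ℓ (x / u) = h94iNb M ℓ x / h94iNb M ℓ u := by
  rw [eq_div_iff (h94n_Nb_ne_zero M ℓ hu), ← h94iNb_mul, div_mul_cancel₀ x hu]

/-- **`σ u / u` is new.** -/
theorem h94n_new_gal {r : ℕ} {u : FF (M * ℓ)} (hu : u ≠ 0)
    (hN : h94iNew M ℓ r u) (σ : GQ) : h94iNew M ℓ r (gal (M * ℓ) σ • u / u) := by
  obtain ⟨⟨g, hg⟩, ⟨g', hg'⟩⟩ := hN
  refine ⟨⟨gal M σ • g / g, ?_⟩, ⟨gal M σ • g' / g', ?_⟩⟩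
  · rw [h94n_Na_div M ℓ _ hu, ← h94n_gal_Na, hg, div_pow, smul_pow']
  · rw [h94n_Nb_div M ℓ _ hu, ← h94n_gal_Nb, hg', div_pow, smul_pow']

/-! ### The start of the ladder -/

/-- **START.**  For `σ` in the inertia group, `σ u / u = κ ^ r (1 + c s)` with `κ` a nonzero
constant, `c ∈ 𝔪_A` and `s ∈ W_∞`. -/
theorem h94n_start (hℓ : ℓ.Prime) (hA : A.LiesOverPrime ℓ) {r : ℕ} (hr : r ≠ 0) {σ : GQ}
    (hσ : σ ∈ A.inertiaSubgroupIn ℚ) {u : FF (M * ℓ)} (hu : u ≠ 0) :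
    ∃ c ∈ A.nonunits, h94iDeep A M ℓ r (gal (M * ℓ) σ • u / u) c := by
  obtain ⟨e, he, hy, hyi⟩ := exists_cst_mul_unit_soft A (M * ℓ) hℓ hA u hu
  have he0 : cst (M * ℓ) e ≠ 0 := by
    rw [Ne, map_eq_zero_iff _ (algebraMap Kbar (FF (M * ℓ))).injective]
    exact he
  have hy0 : cst (M * ℓ) e * u ≠ 0 := mul_ne_zero he0 hu
  have hone := h75q_congOne_of_unit A (M * ℓ) hσ hy0 hy hyi
  have hσe : (σ : Kbar →+* Kbar) e ≠ 0 := (map_ne_zero_iff _ σ.injective).mpr he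
  have hσe0 : cst (M * ℓ) (σ e) ≠ 0 := by
    rw [Ne, map_eq_zero_iff _ (algebraMap Kbar (FF (M * ℓ))).injective]
    exact hσe
  have hsm : gal (M * ℓ) σ • (cst (M * ℓ) e * u) = cst (M * ℓ) (σ e) * gal (M * ℓ) σ • u := by
    rw [smul_mul', Fermat.Agent.S37.GalI.gal_smul_cst]
  -- the constant is an `r`-th power
  obtain ⟨κ, hκ⟩ := IsAlgClosed.exists_pow_nat_eq (e / σ e) (Nat.pos_of_ne_zero hr)
  have hκ0 : κ ≠ 0 := by
    intro h0
    rw [h0, zero_pow hr] at hκ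
    exact div_ne_zero he hσe hκ.symm
  have hκc : cst (M * ℓ) κ ≠ 0 := by
    rw [Ne, map_eq_zero_iff _ (algebraMap Kbar (FF (M * ℓ))).injective]
    exact hκ0
  set z : FF (M * ℓ) := gal (M * ℓ) σ • (cst (M * ℓ) e * u) / (cst (M * ℓ) e * u) with hz
  have hx : gal (M * ℓ) σ • u / u = cst (M * ℓ) κ ^ r * z := by
    rw [hz, hsm, ← map_pow, hκ, cst, map_div₀]
    field_simp
  obtain ⟨hzV, hzR⟩ := hone
  by_cases hz1 : z = 1
  · refine ⟨0, ?_, cst (M * ℓ) κ, hκc, 0, zero_mem _, ?_⟩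
    · rw [ValuationSubring.mem_nonunits_iff, map_zero]
      exact zero_lt_one
    · rw [hx, hz1, mul_zero, add_zero]
  · have hz10 : z - 1 ≠ 0 := sub_ne_zero.mpr hz1
    have hz1V : z - 1 ∈ softV A (M * ℓ) := sub_mem hzV (one_mem _)
    have hred : softR A (M * ℓ) ⟨z - 1, hz1V⟩ = 0 := by
      have h1 : (⟨z - 1, hz1V⟩ : softV A (M * ℓ)) = ⟨z, hzV⟩ - 1 := rfl
      rw [h1, map_sub, map_one, hzR, sub_self]
    obtain ⟨c, hc, hc0, hcs⟩ := h75q_exists_scale_of_red_zero A (M * ℓ) hℓ hA hz10 hz1V hred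
    refine ⟨c, hc, cst (M * ℓ) κ, hκc, cst (M * ℓ) c⁻¹ * (z - 1), hcs, ?_⟩
    rw [hx, ← mul_assoc (cst (M * ℓ) c), ← map_mul, mul_inv_cancel₀ hc0, map_one, one_mul,
      add_sub_cancel]

/-- **NEW-DEPTH, at the two Gauss valuations separately.**  For `σ` in the inertia group and
`u ≠ 0` new, `σ u / u` is an `r`-th power modulo every `d ≠ 0`, at `W_∞` and at `W_0`. -/
theorem h94n_deep_gal (hℓ : ℓ.Prime) (hM : ¬ ℓ ∣ M) (hA : A.LiesOverPrime ℓ) {r : ℕ}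
    (hr : r ≠ 0) {σ : GQ} (hσ : σ ∈ A.inertiaSubgroupIn ℚ) {u : FF (M * ℓ)} (hu : u ≠ 0)
    (hN : h94iNew M ℓ r u) :
    ∀ d ∈ A, d ≠ 0 → h94iDeep A M ℓ r (gal (M * ℓ) σ • u / u) d ∧
      h94iDeep A M ℓ r (kFricke M ℓ hℓ hM (gal (M * ℓ) σ • u / u)) d :=
  h94i_iter A M ℓ hℓ hM hA hr (div_ne_zero (h94n_gal_ne_zero σ hu) hu)
    (h94n_new_gal M ℓ hu hN σ) (h94n_start A M ℓ hℓ hA hr hσ hu)

/-! ### Weak approximation and the simultaneous depth -/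

/-- **weak approximation** at the pair of Gauss valuations `(W_∞, W_0)`, multiplicative form:
two nonzero functions are approximated, modulo any nonzero `d ∈ 𝔪_A`, by one function, the
first at `W_∞` and the second at `W_0`. -/
def H94nApprox (hℓ : ℓ.Prime) (hM : ¬ ℓ ∣ M) : Prop :=
  ∀ h₁ h₂ : FF (M * ℓ), h₁ ≠ 0 → h₂ ≠ 0 → ∀ d ∈ A.nonunits, d ≠ 0 →
    ∃ h : FF (M * ℓ), h ≠ 0 ∧
      (∃ a ∈ softV A (M * ℓ), h = h₁ * (1 + cst (M * ℓ) d * a)) ∧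
      (∃ b ∈ softV A (M * ℓ), kFricke M ℓ hℓ hM h = h₂ * (1 + cst (M * ℓ) d * b))

/-- `(1 + d s) / (1 + d a) ^ r = 1 + d s'`. -/
theorem h94n_quot {d : Kbar} (hd : d ∈ A.nonunits) {s a : FF (M * ℓ)}
    (hs : s ∈ softV A (M * ℓ)) (ha : a ∈ softV A (M * ℓ)) (r : ℕ) :
    ∃ s' ∈ softV A (M * ℓ),
      (1 + cst (M * ℓ) d * s) / (1 + cst (M * ℓ) d * a) ^ r = 1 + cst (M * ℓ) d * s' := by
  induction r with
  | zero => exact ⟨s, hs, by rw [pow_zero, div_one]⟩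
  | succ n ih =>
    obtain ⟨s₁, hs₁, e₁⟩ := ih
    obtain ⟨-, a', ha', e₂⟩ := h94i_inv_one_add A M ℓ hd ha
    refine ⟨s₁ + a' + cst (M * ℓ) d * (s₁ * a'),
      add_mem (add_mem hs₁ ha') (mul_mem ((cst_mem_softV_iff A (M * ℓ) d).mpr
        (ValuationSubring.nonunits_subset hd)) (mul_mem hs₁ ha')), ?_⟩
    rw [pow_succ, ← div_div, e₁, div_eq_mul_inv, e₂]
    ring

/-- **NEW-DEPTH, simultaneous form.**  With weak approximation: for `σ` in the inertia group,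
`u ≠ 0` new and every nonzero `d ∈ 𝔪_A` there is ONE `h ≠ 0` with
`σ u / u = h ^ r (1 + d s)`, `s ∈ W_∞` and `w s ∈ W_∞`. -/
theorem h94n_torDeep (hℓ : ℓ.Prime) (hM : ¬ ℓ ∣ M) (hA : A.LiesOverPrime ℓ)
    (happ : H94nApprox A M ℓ hℓ hM) {r : ℕ}
    (hr : r ≠ 0) {σ : GQ} (hσ : σ ∈ A.inertiaSubgroupIn ℚ) {u : FF (M * ℓ)} (hu : u ≠ 0)
    (hN : h94iNew M ℓ r u) {d : Kbar} (hd : d ∈ A.nonunits) (hd0 : d ≠ 0) :
    ∃ h : FF (M * ℓ), h ≠ 0 ∧ ∃ s ∈ softV A (M * ℓ),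
      kFricke M ℓ hℓ hM s ∈ softV A (M * ℓ) ∧
      gal (M * ℓ) σ • u / u = h ^ r * (1 + cst (M * ℓ) d * s) := by
  obtain ⟨⟨h₁, hh₁, s₁, hs₁, e₁⟩, ⟨h₂, hh₂, s₂, hs₂, e₂⟩⟩ :=
    h94n_deep_gal A M ℓ hℓ hM hA hr hσ hu hN d (ValuationSubring.nonunits_subset hd) hd0
  obtain ⟨h, hh, ⟨a, ha, ea⟩, ⟨b, hb, eb⟩⟩ := happ h₁ h₂ hh₁ hh₂ d hd hd0
  obtain ⟨t₁, ht₁, f₁⟩ := h94n_quot A M ℓ hd hs₁ ha r
  obtain ⟨t₂, ht₂, f₂⟩ := h94n_quot A M ℓ hd hs₂ hb r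
  obtain ⟨ha0, -⟩ := h94i_inv_one_add A M ℓ hd ha
  obtain ⟨hb0, -⟩ := h94i_inv_one_add A M ℓ hd hb
  -- `x / h ^ r = 1 + d t₁` and `w (x / h ^ r) = 1 + d t₂`
  have hx1 : gal (M * ℓ) σ • u / u = h ^ r * (1 + cst (M * ℓ) d * t₁) := by
    rw [e₁, ea, ← f₁, mul_pow]
    field_simp
  have hx2 : kFricke M ℓ hℓ hM (gal (M * ℓ) σ • u / u) =
      kFricke M ℓ hℓ hM h ^ r * (1 + cst (M * ℓ) d * t₂) := by
    rw [e₂, eb, ← f₂, mul_pow]
    field_simp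
  refine ⟨h, hh, t₁, ht₁, ?_, hx1⟩
  -- `w t₁ = t₂`
  have hwh : kFricke M ℓ hℓ hM h ^ r ≠ 0 := pow_ne_zero r fun h0 =>
    hh ((map_eq_zero_iff _ (kFricke M ℓ hℓ hM).injective).mp h0)
  have hd0' : cst (M * ℓ) d ≠ 0 := by
    rw [Ne, map_eq_zero_iff _ (algebraMap Kbar (FF (M * ℓ))).injective]
    exact hd0
  have h3 : kFricke M ℓ hℓ hM t₁ = t₂ := by
    have h4 := hx2
    rw [hx1, map_mul, map_pow, map_add, map_one, map_mul] at h4
    have h5 : kFricke M ℓ hℓ hM (cst (M * ℓ) d) = cst (M * ℓ) d :=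
      (kFricke M ℓ hℓ hM).commutes d
    rw [h5] at h4
    have h6 := mul_left_cancel₀ hwh h4
    have h7 := add_left_cancel h6
    exact mul_left_cancel₀ hd0' h7
  rw [h3]
  exact ht₂

end Fermat.Agent.P6
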