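import Fermat.Agent.P6.H66TwGate
import Fermat.Agent.P6.H63TorNode
import Fermat.Agent.P6.H94NewDepth

/-!
# Wave 6 (S33), block B2-NEW: the twisted gate and STAR on the new classes, UNCONDITIONAL
(helper66)

For an odd prime `p` the frozen gates of `P6/H66TwGate.lean` are theorems, by the landed crux
`h63t_torGate : H11TorGate` (helper63) and the landed depth ladder `h94n_deep_gal` (helper94):

* `h66z_theta_eq` : `h11Theta N a e (b u / u) = h66zTdd N a b e u`.
* `h66z_gateAt_good` : `H66zGateAt p M a b 0` at the good levels (`p ≠ 2`, `p ∤ M`,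
  `auxLevel p ∣ M`, `a, b` in the inertia group of `A` over `p`).
* `h66z_gateAt_all` : the same at every level `M`, `p ∤ M`.
* `h66z_newStar` : **STAR on the `p`-new classes, exact**: for `x ∈ J₀(M p)[p ^ k]` with
  `α_* x = β_* x = 0` and `a, b` in an inertia group at `p`, `e` the exponent of `a` on
  `μ_{p^k}`:  `a b x + e x = a x + e b x`.
* `h66z_newStar_sub` : the same in the form `a (b x - x) = e (b x - x)`.
-/

set_option autoImplicit false
set_option linter.unusedSectionVars false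
set_option linter.style.haveILetI false

open AlgebraicCurve ModularCurve

noncomputable section

namespace Fermat.Agent.P6

open Fermat.Agent.S37 Fermat.Agent.Red.KR Fermat.Agent.Red.Kron Fermat.Agent.Red.TRK
  Fermat.Agent.LGC Fermat.Agent.Red.GateAll Fermat.Agent.S35

/-- the twisted difference of `b u / u` is the twisted double difference of `u`. -/
theorem h66z_theta_eq (N : ℕ) (a b : GQ) (e : ℕ) {u : FF N} (hu : u ≠ 0) :
    h11Theta N a e (gal N b • u / u) = h66zTdd N a b e u := by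
  have hub : gal N b • u ≠ 0 := gal_smul_ne_zero b hu
  have hua : gal N a • u ≠ 0 := gal_smul_ne_zero a hu
  have hdiv : gal N a • (gal N b • u / u) = (gal N a • gal N b • u) / (gal N a • u) := by
    simp only [SemilinearAut.smul_def]
    exact map_div₀ _ _ _
  have huab : gal N a • gal N b • u ≠ 0 := gal_smul_ne_zero a hub
  unfold h11Theta h66zTdd
  rw [hdiv, div_pow, div_div_div_eq]

/-- **the twisted gate at the good levels**, exact, `p` odd. -/
theorem h66z_gateAt_good {p : ℕ} (hp : p.Prime) (hp2 : p ≠ 2) (M : ℕ) [NeZero M]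
    (hM : ¬ p ∣ M) (haux : auxLevel p ∣ M) (A : ValuationSubring Kbar)
    (hA : A.LiesOverPrime p) (a : GQ) (ha : a ∈ A.inertiaSubgroupIn ℚ) (b : GQ)
    (hb : b ∈ A.inertiaSubgroupIn ℚ) :
    haveI : NeZero p := ⟨hp.ne_zero⟩; H66zGateAt p M a b 0 := by
  haveI : NeZero p := ⟨hp.ne_zero⟩
  intro k e he u hu hord hα hβ
  have hr : p ^ k ≠ 0 := pow_ne_zero k hp.ne_zero
  have hN : h94iNew M p (p ^ k) u := ⟨hα, hβ⟩
  have hub : gal (M * p) b • u ≠ 0 := gal_smul_ne_zero b hu
  have hz0 : gal (M * p) b • u / u ≠ 0 := div_ne_zero hub hu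
  have hzord : ∀ v : Place Kbar (FF (M * p)),
      ((p ^ k : ℕ) : ℤ) ∣ v.ord (gal (M * p) b • u / u) := by
    intro v
    rw [div_eq_mul_inv, Place.ord_mul _ hub (inv_ne_zero hu), Place.ord_inv]
    exact dvd_add (h31s_dvd_ord_gal b hord v) ((dvd_neg).2 (hord v))
  obtain ⟨h, hh⟩ := h63t_torGate p hp hp2 M hM haux A hA a ha k e he
    (gal (M * p) b • u / u) hz0 hzord (h94n_deep_gal A M p hp hM hA hr hb hu hN)
  exact ⟨h, by rw [hh, h66z_theta_eq (M * p) a b e hu, pow_zero, pow_one]⟩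

/-- **the twisted gate at every level** `M * p`, `p ∤ M`, exact, `p` odd. -/
theorem h66z_gateAt_all {p : ℕ} (hp : p.Prime) (hp2 : p ≠ 2) (M : ℕ) [NeZero M]
    (hM : ¬ p ∣ M) (A : ValuationSubring Kbar) (hA : A.LiesOverPrime p) (a : GQ)
    (ha : a ∈ A.inertiaSubgroupIn ℚ) (b : GQ) (hb : b ∈ A.inertiaSubgroupIn ℚ) :
    haveI : NeZero p := ⟨hp.ne_zero⟩; H66zGateAt p M a b 0 :=
  h66z_gateAt_descent hp M hM a b 0
    (h66z_gateAt_good hp hp2 (goodLevel p M) (not_dvd_goodLevel hp hM)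
      (auxLevel_dvd_goodLevel p M) A hA a ha b hb)

/-- **STAR on the `p`-new classes, exact** (`p` odd, every level `M` prime to `p`). -/
theorem h66z_newStar {p : ℕ} (hp : p.Prime) (hp2 : p ≠ 2) (M : ℕ) [NeZero M]
    (hM : ¬ p ∣ M) (A : ValuationSubring Kbar) (hA : A.LiesOverPrime p) (a : GQ)
    (ha : a ∈ A.inertiaSubgroupIn ℚ) (b : GQ) (hb : b ∈ A.inertiaSubgroupIn ℚ)
    (k e : ℕ) (he : ∀ μ : Kbar, μ ^ p ^ k = 1 → a μ = μ ^ e) :
    haveI : NeZero p := ⟨hp.ne_zero⟩
    ∀ x : JZero (M * p), p ^ k • x = 0 → pushAlpha M p x = 0 → pushBeta M p x = 0 →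
      a • b • x + e • x = a • x + e • b • x := by
  haveI : NeZero p := ⟨hp.ne_zero⟩
  intro x hx hα hβ
  have h := h66z_newTorsion_of_gateAt hp M a b 0 (h66z_gateAt_all hp hp2 M hM A hA a ha b hb)
    k e he x hx hα hβ
  rw [pow_zero, one_nsmul, one_nsmul] at h
  exact h

/-- **STAR on the `p`-new classes**, difference form: `a (b x - x) = e (b x - x)`. -/
theorem h66z_newStar_sub {p : ℕ} (hp : p.Prime) (hp2 : p ≠ 2) (M : ℕ) [NeZero M]
    (hM : ¬ p ∣ M) (A : ValuationSubring Kbar) (hA : A.LiesOverPrime p) (a : GQ)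
    (ha : a ∈ A.inertiaSubgroupIn ℚ) (b : GQ) (hb : b ∈ A.inertiaSubgroupIn ℚ)
    (k e : ℕ) (he : ∀ μ : Kbar, μ ^ p ^ k = 1 → a μ = μ ^ e) :
    haveI : NeZero p := ⟨hp.ne_zero⟩
    ∀ x : JZero (M * p), p ^ k • x = 0 → pushAlpha M p x = 0 → pushBeta M p x = 0 →
      a • (b • x - x) = e • (b • x - x) := by
  haveI : NeZero p := ⟨hp.ne_zero⟩
  intro x hx hα hβ
  have h := h66z_newStar hp hp2 M hM A hA a ha b hb k e he x hx hα hβ
  rw [smul_sub, nsmul_sub, sub_eq_sub_iff_add_eq_add, h]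
  abel

/-- the frozen class form `H66zNewTorsionExact` for an odd prime. -/
theorem h66z_newTorsionExact_odd (M p : ℕ) [NeZero M] [NeZero p] (hp2 : p ≠ 2) :
    H66zNewTorsionExact M p := by
  intro hp hM A hA a ha b hb k e he x hx hα hβ
  exact h66z_newStar hp hp2 M hM A hA a ha b hb k e he x hx hα hβ

end Fermat.Agent.P6
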