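import Mathlib
import Fermat.Agent.Red.GateAsm

/-!
# WAVE 6 / B2-GATE-DEEP (helper67): the abstract gate for an exponent which is not a unit

The gate of P-RED (`Red/GateCore2.lean`, `Red/GateAsm.lean`, helper26) and of W3-LGC
(`LGC.GateAsmOfLocalStatement`) needs the exponent `r` to be a unit of the valuation ring `A`
(it is used for `ℓ ≠ p`).  At `ℓ = p` the exponent `r = p ^ n` is not a unit; the same
conclusion holds as soon as the congruences are *deep*: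

* `w ≡ 1` modulo `r ^ 2 * ϖ`,
* the local `r`-th roots `g` of `w` at the closed points of the special fibre are `≡ 1` modulo
  `r * ϖ`,

for some nonzero `ϖ ∈ 𝔪_A`.  (`r * ϖ` is the natural depth for the roots: `(1 + r ϖ v) ^ r ≡ 1`
modulo `r ^ 2 ϖ`.)

Main results (Mathlib + `Red/Gate*.lean`; nothing is assumed):

* `h67g_root_unique` : if `y ≡ 1 mod r ϖ` and `y ^ r ≡ 1 mod r ^ 2 ϖ ^ n` then
  `y ≡ 1 mod r ϖ ^ n` (`r` a non-zero-divisor);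
* `h67g_exists_inv_root` : if `u ≡ 1 mod r ^ 2 ϖ` then for every `n` there is `c ≡ 1 mod r ϖ`
  with `c ^ r * u ≡ 1 mod r ^ 2 ϖ ^ n` (Newton, the step is `- error / r`);
* `h67g_approx` : approximation on one chart;
* `h67g_gate_core` : the gate with an abstract bound for the `ϖ`-power torsion of the Čech `H¹`;
* `h67g_gate_asm` : the assembly from local data on a two-chart model over a rank-one valuation
  ring: the statement `LGC.GateAsmOfLocalStatement` without `IsUnit (r : A)`.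
-/

set_option autoImplicit false
set_option linter.unusedSectionVars false

open WithZero IsLocalRing

namespace Fermat.Agent.P6

open Fermat.Agent.Red

/-! ## Elementary lemmas on `r`-th roots, `r` not a unit -/

section Roots

variable {R : Type*} [CommRing R]

/-- **Uniqueness of roots, deep form.**  If `y = 1 + r ϖ b`, `r` is a non-zero-divisor and
`r ^ 2 ϖ ^ n ∣ y ^ r - 1`, then `r ϖ ^ n ∣ y - 1`. -/
theorem h67g_root_unique (ϖ : R) (r : ℕ) (hr : ∀ x : R, (r : R) * x = 0 → x = 0)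
    (n : ℕ) (y b : R) (hy : y = 1 + (r : R) * ϖ * b)
    (hpow : (r : R) ^ 2 * ϖ ^ n ∣ y ^ r - 1) : (r : R) * ϖ ^ n ∣ y - 1 := by
  obtain ⟨z, hz⟩ := h26_geom_sum_one_add ((r : R) * ϖ) b r
  obtain ⟨c, d, hcd⟩ := h26_unit_add_mul_inv_mod ϖ z (q := 1) isUnit_one n
  have hfac : y ^ r - 1 = (y - 1) * ((r : R) + (r : R) * ϖ * z) := by
    rw [← hz, ← hy]
    have h2 := mul_geom_sum y r
    rw [h2]
  obtain ⟨e, he⟩ := hpow
  -- cancel `r`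
  have h1 : (y - 1) * (1 + ϖ * z) = (r : R) * ϖ ^ n * e := by
    have h0 : (r : R) * ((y - 1) * (1 + ϖ * z) - (r : R) * ϖ ^ n * e) = 0 := by
      have : (r : R) * ((y - 1) * (1 + ϖ * z) - (r : R) * ϖ ^ n * e)
          = (y - 1) * ((r : R) + (r : R) * ϖ * z) - (r : R) ^ 2 * ϖ ^ n * e := by ring
      rw [this, ← hfac, he, sub_self]
    exact sub_eq_zero.mp (hr _ h0)
  refine ⟨e * c - d * (ϖ * b), ?_⟩
  have h2 : (y - 1) * (1 + ϖ ^ n * d) = (r : R) * ϖ ^ n * e * c := by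
    rw [← hcd, ← mul_assoc, h1]
  have h3 : y - 1 = (r : R) * ϖ * b := by rw [hy]; ring
  calc y - 1 = (y - 1) * (1 + ϖ ^ n * d) - ϖ ^ n * d * (y - 1) := by ring
    _ = (r : R) * ϖ ^ n * e * c - ϖ ^ n * d * ((r : R) * ϖ * b) := by rw [h2, h3]
    _ = (r : R) * ϖ ^ n * (e * c - d * (ϖ * b)) := by ring

/-- **Existence of inverse roots, deep form.**  If `u = 1 + r ^ 2 ϖ b` then for every `n` there
is `c = 1 + r ϖ c'` with `r ^ 2 ϖ ^ n ∣ c ^ r * u - 1`. -/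
theorem h67g_exists_inv_root (ϖ : R) (r : ℕ) (u b : R)
    (hu : u = 1 + (r : R) ^ 2 * ϖ * b) (n : ℕ) :
    ∃ c c' : R, c = 1 + (r : R) * ϖ * c' ∧ (r : R) ^ 2 * ϖ ^ n ∣ c ^ r * u - 1 := by
  induction n with
  | zero => exact ⟨1, 0, by simp, ⟨ϖ * b, by rw [hu]; ring⟩⟩
  | succ n ih =>
    obtain ⟨c, c', hc, y, hy⟩ := ih
    rcases Nat.eq_zero_or_pos n with rfl | hn
    · exact ⟨1, 0, by simp, ⟨b, by rw [hu]; ring⟩⟩
    · -- Newton step: `a = - r ϖ ^ n y`, so that `r * a = - r ^ 2 ϖ ^ n y`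
      set a : R := -((r : R) * ϖ ^ n * y) with ha
      obtain ⟨k, hk⟩ := h26_one_add_pow_expand a r
      refine ⟨c * (1 + a), c' - (1 + (r : R) * ϖ * c') * (ϖ ^ (n - 1) * y), ?_, ?_⟩
      · have hpn : ϖ ^ n = ϖ * ϖ ^ (n - 1) := by
          rw [← pow_succ']; congr 1; omega
        rw [hc, ha, hpn]; ring
      · have h1 : c ^ r * u = 1 + (r : R) ^ 2 * ϖ ^ n * y := by
          rw [← hy]; ring
        have h2 : (c * (1 + a)) ^ r * u - 1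
            = (1 + (r : R) ^ 2 * ϖ ^ n * y) * (1 + (r : R) * a + a ^ 2 * k) - 1 := by
          rw [mul_pow, hk, ← h1]; ring
        have h2n : ϖ ^ (2 * n) = ϖ ^ (n + 1) * ϖ ^ (n - 1) := by
          rw [← pow_add]; congr 1; omega
        refine ⟨ϖ ^ (n - 1) * (-((r : R) ^ 2 * y ^ 2)
          + (1 + (r : R) ^ 2 * ϖ ^ n * y) * (y ^ 2 * k)), ?_⟩
        rw [h2]
        have : (1 + (r : R) ^ 2 * ϖ ^ n * y) * (1 + (r : R) * a + a ^ 2 * k) - 1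
            = (r : R) ^ 2 * ϖ ^ (2 * n) * (-((r : R) ^ 2 * y ^ 2)
              + (1 + (r : R) ^ 2 * ϖ ^ n * y) * (y ^ 2 * k)) := by
          rw [ha]; ring
        rw [this, h2n]; ring

/-- `(1 + r ϖ v) ^ r = 1 + r ^ 2 ϖ v'`. -/
theorem h67g_pow_deep (ϖ : R) (r : ℕ) (v : R) :
    ∃ k : R, (1 + (r : R) * ϖ * v) ^ r = 1 + (r : R) ^ 2 * ϖ * (v + ϖ * v ^ 2 * k) := by
  obtain ⟨k, hk⟩ := h26_one_add_pow_expand ((r : R) * ϖ * v) r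
  exact ⟨k, by rw [hk]; ring⟩

end Roots

/-! ## Approximation on one chart -/

section Gate

variable {O F : Type*} [CommRing O] [Field F] [Algebra O F]

/-- the coercion of a natural number of a subalgebra. -/
theorem h67g_coe_natCast (B : Subalgebra O F) (n : ℕ) : (((n : ℕ) : B) : F) = (n : F) := rfl

/-- `1 + π' V ⊆ 1 + π V` if `π ∣ π'` and the constants are in `V`. -/
theorem h67g_U_of_dvd {π π' : O} {V : Subring F} (hOV : ∀ a : O, algebraMap O F a ∈ V)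
    (h : π ∣ π') {x : F} (hx : x ∈ h26U π' V) : x ∈ h26U π V := by
  obtain ⟨a, rfl⟩ := h
  obtain ⟨v, hv, rfl⟩ := hx
  exact ⟨algebraMap O F a * v, V.mul_mem (hOV a) hv, by rw [map_mul]; ring⟩

/-- `x ∈ 1 + r ϖ V ⟹ x ^ r ∈ 1 + r ^ 2 ϖ V`. -/
theorem h67g_U_pow_deep (ϖ : O) (r : ℕ) {V : Subring F} (hOV : ∀ a : O, algebraMap O F a ∈ V)
    {x : F} (hx : x ∈ h26U ((r : O) * ϖ) V) : x ^ r ∈ h26U ((r : O) ^ 2 * ϖ) V := by
  obtain ⟨v, hv, rfl⟩ := hx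
  obtain ⟨k, hk⟩ := h67g_pow_deep (R := V) ⟨algebraMap O F ϖ, hOV ϖ⟩ r ⟨v, hv⟩
  have hk' := congrArg Subtype.val hk
  simp only [Subring.coe_add, Subring.coe_mul, Subring.coe_pow, Subring.coe_one,
    Subring.coe_natCast] at hk'
  refine ⟨((⟨v, hv⟩ + ⟨algebraMap O F ϖ, hOV ϖ⟩ * ⟨v, hv⟩ ^ 2 * k : V) : F), SetLike.coe_mem _, ?_⟩
  simp only [Subring.coe_add, Subring.coe_mul, Subring.coe_pow, map_mul, map_pow, map_natCast]
  rw [← hk']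

/-- **Approximation on one chart, deep form.**  From `e ∈ L(B)`, `e ≡ 1 mod r ϖ`,
`w ≡ 1 mod r ^ 2 ϖ`, we get for every `n` an `a ∈ L(B)`, `a ≡ 1 mod r ϖ`, with
`a ^ r / w ∈ 1 + r ^ 2 ϖ ^ n B`. -/
theorem h67g_approx (ϖ : O) (r : ℕ) (hr0 : 0 < r)
    (V : Subring F) (hOV : ∀ a : O, algebraMap O F a ∈ V)
    (hVinv2 : ∀ x ∈ V, (1 + algebraMap O F ((r : O) ^ 2 * ϖ) * x)⁻¹ ∈ V)
    (hVnt2 : ∀ x ∈ V, algebraMap O F ((r : O) ^ 2 * ϖ) * x ≠ 1)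
    (B : Subalgebra O F) (hBV : ∀ x ∈ B, x ∈ V)
    (hroot : ∀ x : F, x ^ r ∈ B → x ∈ B)
    (hqep2 : ∀ x ∈ V, algebraMap O F ((r : O) ^ 2 * ϖ) * x ∈ B → x ∈ B)
    (w : F) (hwU : w ∈ h26U ((r : O) ^ 2 * ϖ) V)
    (e : F) (heL : e ^ r * w⁻¹ ∈ B) (heU : e ∈ h26U ((r : O) * ϖ) V) (n : ℕ) :
    ∃ a : F, a ∈ h26L B w r hr0 hroot ∧ a ∈ h26U ((r : O) * ϖ) V ∧
      ∃ α ∈ B, a ^ r * w⁻¹ = 1 + algebraMap O F ((r : O) ^ 2 * ϖ ^ n) * α := by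
  have hVπ2 : algebraMap O F ((r : O) ^ 2 * ϖ) ∈ V := hOV _
  have hVπ : algebraMap O F ((r : O) * ϖ) ∈ V := hOV _
  -- `u = e^r / w ≡ 1 mod r ^ 2 ϖ`
  have huU : e ^ r * w⁻¹ ∈ h26U ((r : O) ^ 2 * ϖ) V :=
    h26U_mul hVπ2 (h67g_U_pow_deep ϖ r hOV heU) (h26U_inv hVinv2 hVnt2 hwU)
  obtain ⟨v, hvV, hv⟩ := h26U_sub_one huU
  have hvB : v ∈ B := by
    apply hqep2 v hvV
    rw [← hv]
    exact B.sub_mem heL B.one_mem
  -- work in the ring `B`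
  obtain ⟨c, c', hc, γ, hγ⟩ := h67g_exists_inv_root (R := B) (algebraMap O B ϖ) r
    ⟨e ^ r * w⁻¹, heL⟩ ⟨v, hvB⟩ (by
      apply Subtype.ext
      simp only [Subalgebra.coe_add, Subalgebra.coe_one, Subalgebra.coe_mul, Subalgebra.coe_pow,
        Subalgebra.coe_algebraMap, h67g_coe_natCast]
      have h1 : e ^ r * w⁻¹ = 1 + algebraMap O F ((r : O) ^ 2 * ϖ) * v := by
        rw [← hv]; ring
      rw [h1]
      simp only [map_mul, map_pow, map_natCast]) n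
  refine ⟨(c : F) * e, h26_mul_mem_L c.2 heL, ?_, (γ : F), γ.2, ?_⟩
  · refine h26U_mul hVπ ⟨(c' : F), hBV _ c'.2, ?_⟩ heU
    have := congrArg (Subtype.val) hc
    simp only [Subalgebra.coe_add, Subalgebra.coe_one, Subalgebra.coe_mul,
      Subalgebra.coe_algebraMap, h67g_coe_natCast] at this
    rw [this]
    simp only [map_mul, map_natCast]
  · have := congrArg (Subtype.val) hγ
    simp only [Subalgebra.coe_sub, Subalgebra.coe_mul, Subalgebra.coe_pow, Subalgebra.coe_one,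
      Subalgebra.coe_algebraMap, h67g_coe_natCast] at this
    rw [mul_pow, mul_assoc]
    simp only [map_mul, map_pow, map_natCast]
    linear_combination this

/-! ## The core gate -/

/-- **The abstract gate, deep form** (the exponent `r` is not assumed to be a unit): the bound
on the `ϖ`-power torsion of the Čech `H¹` is a hypothesis, `w ≡ 1 mod r ^ 2 ϖ`, and each chart
carries an element `e ≡ 1 mod r ϖ` with `e ^ r / w ∈ B`.  Then there is `t ≠ 0` with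
`t ^ r / w ∈ B₀ ∩ B∞`. -/
theorem h67g_gate_core
    (ϖ : O) (r : ℕ) (hr0 : 0 < r) (hrF : ((r : ℕ) : F) ≠ 0)
    (hdvd : ∃ k : ℕ, (r : O) ∣ ϖ ^ k)
    (V : Subring F) (hOV : ∀ a : O, algebraMap O F a ∈ V)
    (hVinv : ∀ x ∈ V, (1 + algebraMap O F ((r : O) * ϖ) * x)⁻¹ ∈ V)
    (hVinv2 : ∀ x ∈ V, (1 + algebraMap O F ((r : O) ^ 2 * ϖ) * x)⁻¹ ∈ V)
    (hVnt : ∀ x ∈ V, algebraMap O F ((r : O) * ϖ) * x ≠ 1)
    (B₀ Binf Bm : Subalgebra O F)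
    (h0m : B₀ ≤ Bm) (hinfm : Binf ≤ Bm)
    (hB₀V : ∀ x ∈ B₀, x ∈ V) (hBinfV : ∀ x ∈ Binf, x ∈ V)
    (hroot₀ : ∀ x : F, x ^ r ∈ B₀ → x ∈ B₀)
    (hrootinf : ∀ x : F, x ^ r ∈ Binf → x ∈ Binf)
    (hrootm : ∀ x : F, x ^ r ∈ Bm → x ∈ Bm)
    (hqep₀ : ∀ x ∈ V, algebraMap O F ((r : O) ^ 2 * ϖ) * x ∈ B₀ → x ∈ B₀)
    (hqepinf : ∀ x ∈ V, algebraMap O F ((r : O) ^ 2 * ϖ) * x ∈ Binf → x ∈ Binf)
    (hqepm : ∀ x ∈ V, algebraMap O F ((r : O) * ϖ) * x ∈ Bm → x ∈ Bm)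
    (w : F) (hwU : w ∈ h26U ((r : O) ^ 2 * ϖ) V)
    (hbdd : ∃ c : ℕ, ∀ f ∈ h26L Bm w r hr0 hrootm,
      (∃ n : ℕ, ϖ ^ n • f ∈ h26L B₀ w r hr0 hroot₀ ⊔ h26L Binf w r hr0 hrootinf) →
        ϖ ^ c • f ∈ h26L B₀ w r hr0 hroot₀ ⊔ h26L Binf w r hr0 hrootinf)
    (e₀ : F) (he₀ : e₀ ^ r * w⁻¹ ∈ B₀) (he₀U : e₀ ∈ h26U ((r : O) * ϖ) V)
    (einf : F) (heinf : einf ^ r * w⁻¹ ∈ Binf) (heinfU : einf ∈ h26U ((r : O) * ϖ) V) :
    ∃ t : F, t ≠ 0 ∧ t ^ r * w⁻¹ ∈ B₀ ∧ t ^ r * w⁻¹ ∈ Binf := by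
  set π : O := (r : O) * ϖ with hπ
  set π₂ : O := (r : O) ^ 2 * ϖ with hπ₂
  have hππ₂ : π ∣ π₂ := ⟨(r : O), by rw [hπ, hπ₂]; ring⟩
  have hVπ : algebraMap O F π ∈ V := hOV π
  have hVπ₂ : algebraMap O F π₂ ∈ V := hOV π₂
  have hVnt2 : ∀ x ∈ V, algebraMap O F π₂ * x ≠ 1 := by
    intro x hx h
    apply hVnt (algebraMap O F (r : O) * x) (V.mul_mem (hOV _) hx)
    rw [← h, hπ, hπ₂]
    simp only [map_mul, map_pow]
    ring
  have hwUπ : w ∈ h26U π V := h67g_U_of_dvd hOV hππ₂ hwU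
  have hw : w ≠ 0 := h26U_ne_zero hVnt hwUπ
  set L₀ := h26L B₀ w r hr0 hroot₀ with hL₀
  set Linf := h26L Binf w r hr0 hrootinf with hLinf
  set Lm := h26L Bm w r hr0 hrootm with hLm
  have hL0m : L₀ ≤ Lm := h26_L_mono h0m
  have hLinfm : Linf ≤ Lm := h26_L_mono hinfm
  obtain ⟨c, hc⟩ := hbdd
  -- approximations modulo `r ^ 2 ϖ ^ (c + 1)`
  obtain ⟨a, haL, haU, α, hα, haeq⟩ := h67g_approx ϖ r hr0 V hOV hVinv2 hVnt2 B₀ hB₀V hroot₀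
    hqep₀ w hwU e₀ he₀ he₀U (c + 1)
  obtain ⟨b, hbL, hbU, β, hβ, hbeq⟩ := h67g_approx ϖ r hr0 V hOV hVinv2 hVnt2 Binf hBinfV
    hrootinf hqepinf w hwU einf heinf heinfU (c + 1)
  have ha0 : a ≠ 0 := h26U_ne_zero hVnt haU
  have hb0 : b ≠ 0 := h26U_ne_zero hVnt hbU
  set ρ : F := algebraMap O F (r : O) with hρ
  set ϖF : F := algebraMap O F ϖ with hϖF
  have hρr : ρ = (r : F) := by rw [hρ, map_natCast]
  have haeq' : a ^ r * w⁻¹ = 1 + ρ ^ 2 * ϖF ^ (c + 1) * α := by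
    rw [haeq]; simp only [map_mul, map_pow, ← hρ, ← hϖF]
  have hbeq' : b ^ r * w⁻¹ = 1 + ρ ^ 2 * ϖF ^ (c + 1) * β := by
    rw [hbeq]; simp only [map_mul, map_pow, ← hρ, ← hϖF]
  -- the overlap: `a - b ∈ r ϖ ^ (c+1) Lm`
  have hover : ∃ f ∈ Lm, a - b = ((r : O) * ϖ ^ (c + 1)) • f := by
    set Av : F := a ^ r * w⁻¹ with hAv
    set Bv : F := b ^ r * w⁻¹ with hBv
    have hAm : Av ∈ Bm := h0m haL
    have hBvm : Bv ∈ Bm := hinfm hbL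
    have hBv0 : Bv ≠ 0 := mul_ne_zero (pow_ne_zero _ hb0) (inv_ne_zero hw)
    set y : F := a * Bv * b⁻¹ with hy
    have hr1 : r = (r - 1) + 1 := by omega
    have hyp : y ^ r = Av * Bv ^ (r - 1) := by
      have h1 : Bv ^ r = Bv ^ (r - 1) * Bv := by
        conv_lhs => rw [hr1, pow_succ]
      rw [hy, mul_pow, mul_pow, h1, inv_pow, hAv]
      have hbp : b ^ r = Bv * w := by
        rw [hBv]; field_simp
      rw [hbp]
      field_simp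
    have hyBm : y ∈ Bm := by
      apply hrootm
      rw [hyp]
      exact Bm.mul_mem hAm (Bm.pow_mem hBvm _)
    have hBvU : Bv ∈ h26U π V :=
      h26U_mul hVπ (h26U_pow hVπ hbU r) (h26U_inv hVinv hVnt hwUπ)
    have hyU : y ∈ h26U π V :=
      h26U_mul hVπ (h26U_mul hVπ haU hBvU) (h26U_inv hVinv hVnt hbU)
    obtain ⟨v, hvV, hv⟩ := h26U_sub_one hyU
    have hvBm : v ∈ Bm := by
      apply hqepm v hvV
      rw [← hv]
      exact Bm.sub_mem hyBm Bm.one_mem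
    have hv' : y - 1 = ρ * ϖF * v := by
      rw [hv, hπ]; simp only [map_mul, ← hρ, ← hϖF]
    -- `r ^ 2 ϖ ^ n ∣ y ^ r - 1` in `Bm`
    have hkBm : ∃ κ ∈ Bm, y ^ r - 1 = ρ ^ 2 * ϖF ^ (c + 1) * κ := by
      obtain ⟨k', hk'⟩ := h26_one_add_pow_factor (R := Bm)
        ((algebraMap O Bm (r : O)) ^ 2 * (algebraMap O Bm ϖ) ^ (c + 1) * ⟨β, hinfm hβ⟩) (r - 1)
      have hk'' := congrArg (Subtype.val) hk'
      simp only [Subalgebra.coe_add, Subalgebra.coe_mul, Subalgebra.coe_pow, Subalgebra.coe_one,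
        Subalgebra.coe_algebraMap] at hk''
      rw [← hρ, ← hϖF] at hk''
      refine ⟨α + β * (k' : F) + ρ ^ 2 * ϖF ^ (c + 1) * α * (β * (k' : F)), ?_, ?_⟩
      · have hρm : ρ ∈ Bm := Bm.algebraMap_mem _
        have hϖm : ϖF ∈ Bm := Bm.algebraMap_mem _
        exact Bm.add_mem (Bm.add_mem (h0m hα) (Bm.mul_mem (hinfm hβ) k'.2))
          (Bm.mul_mem (Bm.mul_mem (Bm.mul_mem (Bm.pow_mem hρm _) (Bm.pow_mem hϖm _)) (h0m hα))
            (Bm.mul_mem (hinfm hβ) k'.2))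
      · rw [hyp, haeq', hbeq', hk'']
        ring
    obtain ⟨κ, hκ, hκeq⟩ := hkBm
    have hdiv : ((r : ℕ) : Bm) ^ 2 * (algebraMap O Bm ϖ) ^ (c + 1) ∣ (⟨y, hyBm⟩ : Bm) ^ r - 1 := by
      refine ⟨⟨κ, hκ⟩, ?_⟩
      apply Subtype.ext
      simp only [Subalgebra.coe_sub, Subalgebra.coe_mul, Subalgebra.coe_pow, Subalgebra.coe_one,
        Subalgebra.coe_algebraMap, h67g_coe_natCast]
      rw [hκeq, hρr]
    have hyeq : (⟨y, hyBm⟩ : Bm) = 1 + ((r : ℕ) : Bm) * algebraMap O Bm ϖ * ⟨v, hvBm⟩ := by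
      apply Subtype.ext
      simp only [Subalgebra.coe_add, Subalgebra.coe_mul, Subalgebra.coe_one,
        Subalgebra.coe_algebraMap, h67g_coe_natCast]
      rw [← hϖF, ← hρr, ← hv']; ring
    have hcancel : ∀ x : Bm, ((r : ℕ) : Bm) * x = 0 → x = 0 := by
      intro x hx
      have h1 := congrArg (Subtype.val) hx
      simp only [Subalgebra.coe_mul, h67g_coe_natCast, Subalgebra.coe_zero] at h1
      rcases mul_eq_zero.mp h1 with h | h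
      · exact absurd h hrF
      · exact Subtype.ext h
    obtain ⟨γ, hγ⟩ := h67g_root_unique (R := Bm) (algebraMap O Bm ϖ) r hcancel (c + 1)
      ⟨y, hyBm⟩ ⟨v, hvBm⟩ hyeq hdiv
    have hγ' : y - 1 = ρ * ϖF ^ (c + 1) * (γ : F) := by
      have := congrArg (Subtype.val) hγ
      simp only [Subalgebra.coe_sub, Subalgebra.coe_mul, Subalgebra.coe_pow,
        Subalgebra.coe_one, Subalgebra.coe_algebraMap, h67g_coe_natCast] at this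
      rw [this, hρr]
    refine ⟨(γ : F) * b - (ρ * β) * a, ?_, ?_⟩
    · exact Lm.sub_mem (h26_mul_mem_L γ.2 (hLinfm hbL))
        (h26_mul_mem_L (Bm.mul_mem (Bm.algebraMap_mem _) (hinfm hβ)) (hL0m haL))
    · rw [Algebra.smul_def, map_mul, map_pow, ← hρ, ← hϖF]
      have h1 : a * Bv - b = b * (y - 1) := by
        rw [hy]; field_simp
      have h2 : a * Bv - a = a * (ρ ^ 2 * ϖF ^ (c + 1) * β) := by
        rw [hbeq']; ring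
      calc a - b = (a * Bv - b) - (a * Bv - a) := by ring
        _ = b * (ρ * ϖF ^ (c + 1) * (γ : F)) - a * (ρ ^ 2 * ϖF ^ (c + 1) * β) := by
            rw [h1, h2, hγ']
        _ = ρ * ϖF ^ (c + 1) * ((γ : F) * b - (ρ * β) * a) := by ring
  -- primitivity of `a`
  have hprim : ∀ b' ∈ L₀, a ≠ π • b' := by
    intro b' hb' hab
    set πF : F := algebraMap O F π with hπF
    have hpp : πF ^ r = πF * πF ^ (r - 1) := by
      rw [← pow_succ']; congr 1; omega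
    have h1 : a ^ r * w⁻¹ = πF * (πF ^ (r - 1) * (b' ^ r * w⁻¹)) := by
      rw [hab, Algebra.smul_def, ← hπF, mul_pow, hpp]
      ring
    have hAU : a ^ r * w⁻¹ ∈ h26U π V :=
      h26U_mul hVπ (h26U_pow hVπ haU r) (h26U_inv hVinv hVnt hwUπ)
    obtain ⟨v, hvV, hv⟩ := h26U_sub_one hAU
    have hmem : πF ^ (r - 1) * (b' ^ r * w⁻¹) ∈ V :=
      V.mul_mem (V.pow_mem hVπ _) (hB₀V _ hb')
    apply hVnt (πF ^ (r - 1) * (b' ^ r * w⁻¹) - v) (V.sub_mem hmem hvV)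
    rw [mul_sub, ← h1, ← hv]; ring
  -- Mittag-Leffler
  obtain ⟨f, hfLm, hf⟩ := hover
  have h1 : ϖ ^ c • f ∈ L₀ ⊔ Linf := by
    apply hc f hfLm
    obtain ⟨k, d, hd⟩ := hdvd
    refine ⟨k + (c + 1), ?_⟩
    have h2 : ϖ ^ (k + (c + 1)) • f = d • (a - b) := by
      rw [hf, smul_smul, pow_add, hd]
      congr 1
      ring
    rw [h2]
    exact Submodule.smul_mem _ _
      (Submodule.sub_mem _ (Submodule.mem_sup_left haL) (Submodule.mem_sup_right hbL))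
  obtain ⟨β₀, hβ₀, βi, hβi, hsum⟩ := Submodule.mem_sup.mp h1
  have hab : a - b = π • (β₀ + βi) := by
    rw [hf, hsum, smul_smul, hπ]
    congr 1
    rw [pow_succ]; ring
  refine ⟨a - π • β₀, ?_, ?_, ?_⟩
  · intro h0
    exact hprim β₀ hβ₀ (sub_eq_zero.mp h0)
  · exact L₀.sub_mem haL (L₀.smul_mem _ hβ₀)
  · have : a - π • β₀ = b + π • βi := by
      have h3 : a = b + π • (β₀ + βi) := by rw [← hab]; abel
      rw [smul_add] at h3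
      calc a - π • β₀ = (b + (π • β₀ + π • βi)) - π • β₀ := by rw [← h3]
        _ = b + π • βi := by abel
    rw [this]
    exact Linf.add_mem hbL (Linf.smul_mem _ hβi)

end Gate

/-! ## The assembly over a rank-one valuation ring -/

section Asm

variable {A : Type*} [CommRing A] [IsDomain A] [ValuationRing A]
  {F : Type*} [Field F] [Algebra A F]

/-- **Abstract assembly of the deep gate from local data, without places.**  The statement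
`S36.h26y_gate_asm` (= `LGC.GateAsmOfLocalStatement` with the chart axioms reduced to the ones
which are used) for an exponent `r` which is *not* assumed to be a unit of `A`: it is enough that
`w ≡ 1 mod r ^ 2 ϖ` and that the local generators at the closed points of the special fibre are
`≡ 1 mod r ϖ`, for some nonzero `ϖ ∈ 𝔪_A`. -/
theorem h67g_gate_asm
    (hAF : Function.Injective (algebraMap A F))
    (harch : ∀ c ∈ maximalIdeal A, c ≠ 0 → ∀ a : A, a ≠ 0 → ∃ k : ℕ, a ∣ c ^ k)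
    (V : Subring F)
    (hVinv : ∀ m ∈ maximalIdeal A, ∀ x ∈ V, (1 + algebraMap A F m * x)⁻¹ ∈ V)
    (hVnt : ∀ m ∈ maximalIdeal A, ∀ x ∈ V, algebraMap A F m * x ≠ 1)
    (j : F) (hj : j ≠ 0) (B₀ Binf Bm : Subalgebra A F)
    (hj₀ : j ∈ B₀) (hjinf : j⁻¹ ∈ Binf) (h0m : B₀ ≤ Bm) (hinfm : Binf ≤ Bm)
    (hm0 : ∀ x ∈ Bm, ∃ k : ℕ, j ^ k * x ∈ B₀)
    (hminf : ∀ x ∈ Bm, ∃ k : ℕ, j⁻¹ ^ k * x ∈ Binf)
    (r : ℕ) (hr : 0 < r) (hrA : (r : A) ≠ 0)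
    (hroot₀ : ∀ x : F, x ^ r ∈ B₀ → x ∈ B₀)
    (hrootinf : ∀ x : F, x ^ r ∈ Binf → x ∈ Binf)
    (hrootm : ∀ x : F, x ^ r ∈ Bm → x ∈ Bm)
    (hBV₀ : ∀ x ∈ B₀, x ∈ V) (hBV₁ : ∀ x ∈ Binf, x ∈ V)
    (hqep₀ : ∀ a : A, algebraMap A F a ≠ 0 → ∀ x ∈ V, algebraMap A F a * x ∈ B₀ → x ∈ B₀)
    (hqep₁ : ∀ a : A, algebraMap A F a ≠ 0 → ∀ x ∈ V, algebraMap A F a * x ∈ Binf → x ∈ Binf)
    (hqepm : ∀ a : A, algebraMap A F a ≠ 0 → ∀ x ∈ V, algebraMap A F a * x ∈ Bm → x ∈ Bm)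
    (S : Finset F) (hS : ∀ s ∈ S, s ∈ B₀)
    (hfin : ∀ x ∈ B₀, x ∈ Submodule.span A {y : F | ∃ a : ℕ, ∃ s ∈ S, y = j ^ a * s})
    (w : F) (hw0 : w ≠ 0)
    (ϖ : A) (hϖ : ϖ ∈ maximalIdeal A) (hϖ0 : ϖ ≠ 0)
    (hwU : w ∈ h26U ((r : A) ^ 2 * ϖ) V)
    (hL₀ : ∀ 𝔫 : Ideal B₀, 𝔫.IsMaximal →
      ∃ g : F, g ≠ 0 ∧
        ((maximalIdeal A).map (algebraMap A B₀) ≤ 𝔫 → g ∈ h26U ((r : A) * ϖ) V) ∧
        ∃ s : B₀, s ∉ 𝔫 ∧ (s : F) * (w * (g ^ r)⁻¹) ∈ B₀ ∧ (s : F) * (g ^ r * w⁻¹) ∈ B₀)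
    (hL₁ : ∀ 𝔫 : Ideal Binf, 𝔫.IsMaximal →
      ∃ g : F, g ≠ 0 ∧
        ((maximalIdeal A).map (algebraMap A Binf) ≤ 𝔫 → g ∈ h26U ((r : A) * ϖ) V) ∧
        ∃ s : Binf, s ∉ 𝔫 ∧ (s : F) * (w * (g ^ r)⁻¹) ∈ Binf ∧
          (s : F) * (g ^ r * w⁻¹) ∈ Binf) :
    ∃ t : F, t ≠ 0 ∧ t ^ r * w⁻¹ ∈ B₀ ∧ t ^ r * w⁻¹ ∈ Binf := by
  classical
  set π : A := (r : A) * ϖ with hπdef
  set π₂ : A := (r : A) ^ 2 * ϖ with hπ₂def
  have hπ : π ∈ maximalIdeal A := Ideal.mul_mem_left _ _ hϖ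
  have hπ₂ : π₂ ∈ maximalIdeal A := Ideal.mul_mem_left _ _ hϖ
  have hπ0 : π ≠ 0 := mul_ne_zero hrA hϖ0
  have hπ₂0 : π₂ ≠ 0 := mul_ne_zero (pow_ne_zero _ hrA) hϖ0
  have hAV : ∀ a : A, algebraMap A F a ∈ V := fun a => hBV₀ _ (B₀.algebraMap_mem a)
  have hπF : algebraMap A F π ≠ 0 := fun h => hπ0 (hAF (by rw [h, map_zero]))
  have hπ₂F : algebraMap A F π₂ ≠ 0 := fun h => hπ₂0 (hAF (by rw [h, map_zero]))
  have hrF : ((r : ℕ) : F) ≠ 0 := by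
    intro h
    apply hrA
    apply hAF
    rw [map_natCast, h, map_zero]
  have hmVstable : ∀ (B : Subalgebra A F), (∀ x ∈ B, x ∈ V) →
      ∀ b ∈ B, ∀ x ∈ h26mV π V, b * x ∈ h26mV π V := by
    rintro B hBV b hb _ ⟨y, hy, rfl⟩
    exact ⟨b * y, mul_mem (hBV b hb) hy, by ring⟩
  obtain ⟨e₀, he₀, he₀m⟩ := h26_exists_e B₀ w r hr hroot₀ (h26mV π V)
    (hmVstable B₀ hBV₀) (fun 𝔫 h𝔫 => h26_local_for_e harch π hπ0 w r hr hL₀ 𝔫 h𝔫)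
  obtain ⟨einf, heinf, heinfm⟩ := h26_exists_e Binf w r hr hrootinf (h26mV π V)
    (hmVstable Binf hBV₁) (fun 𝔫 h𝔫 => h26_local_for_e harch π hπ0 w r hr hL₁ 𝔫 h𝔫)
  have he₀U : e₀ ∈ h26U π V := by
    obtain ⟨y, hy, h⟩ := he₀m
    exact ⟨y, hy, by rw [← h]; ring⟩
  have heinfU : einf ∈ h26U π V := by
    obtain ⟨y, hy, h⟩ := heinfm
    exact ⟨y, hy, by rw [← h]; ring⟩
  obtain ⟨T, hT, hgen⟩ := h26_L_gen_of_local B₀ j w hw0 r hr hroot₀ S hS hfin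
    (fun 𝔫 h𝔫 => h26_local_for_L π w r hr hL₀ 𝔫 h𝔫)
  obtain ⟨G, hG, hGle⟩ := h26_H1_fg (h26L B₀ w r hr hroot₀) (h26L Binf w r hr hrootinf)
    (h26L Bm w r hr hrootm) j hj
    (fun f hf => h26_mul_mem_L hj₀ hf) (fun f hf => h26_mul_mem_L hjinf hf) (h26_L_mono h0m)
    (fun f hf => h26_L_exists_pow j hj₀ hm0 hf)
    (fun f hf => h26_L_exists_pow j⁻¹ hjinf hminf hf) T hT hgen
  obtain ⟨k, hk⟩ := h26_pow_torsion_bound ϖ hϖ0 (harch ϖ hϖ hϖ0)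
    (h26L B₀ w r hr hroot₀ ⊔ h26L Binf w r hr hrootinf) G hG
  exact h67g_gate_core ϖ r hr hrF (harch ϖ hϖ hϖ0 (r : A) hrA) V hAV (hVinv π hπ)
    (hVinv π₂ hπ₂) (hVnt π hπ) B₀ Binf Bm h0m hinfm hBV₀ hBV₁
    hroot₀ hrootinf hrootm (hqep₀ π₂ hπ₂F) (hqep₁ π₂ hπ₂F) (hqepm π hπF) w hwU
    ⟨k, fun f hf hn => hk f (hGle hf) hn⟩ e₀ he₀ he₀U einf heinf heinfU

/-- **The deep gate in the vocabulary of `LGC.GateAsmOfLocalStatement`** (charts with the axioms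
`H26Chart`): the same statement without `IsUnit (r : A)`, under deep congruences. -/
theorem h67g_gate_asm_chart
    (hAF : Function.Injective (algebraMap A F))
    (harch : ∀ c ∈ maximalIdeal A, c ≠ 0 → ∀ a : A, a ≠ 0 → ∃ k : ℕ, a ∣ c ^ k)
    (V : Subring F)
    (hVnt : ∀ m ∈ maximalIdeal A, ∀ x ∈ V, algebraMap A F m * x ≠ 1)
    (j : F) (hj : j ≠ 0) (B₀ Binf Bm : Subalgebra A F)
    (hj₀ : j ∈ B₀) (hjinf : j⁻¹ ∈ Binf) (h0m : B₀ ≤ Bm) (hinfm : Binf ≤ Bm)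
    (hm0 : ∀ x ∈ Bm, ∃ k : ℕ, j ^ k * x ∈ B₀)
    (hminf : ∀ x ∈ Bm, ∃ k : ℕ, j⁻¹ ^ k * x ∈ Binf)
    (r : ℕ) (hr : 0 < r) (hrA : (r : A) ≠ 0)
    (hroot₀ : ∀ x : F, x ^ r ∈ B₀ → x ∈ B₀)
    (hrootinf : ∀ x : F, x ^ r ∈ Binf → x ∈ Binf)
    (hrootm : ∀ x : F, x ^ r ∈ Bm → x ∈ Bm)
    (hqepm : ∀ a : A, algebraMap A F a ≠ 0 → ∀ x ∈ V, a • x ∈ Bm → x ∈ Bm)
    {ι₀ ι₁ : Type*} (v₀ : ι₀ → Valuation F ℤᵐ⁰) (v₁ : ι₁ → Valuation F ℤᵐ⁰)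
    (hC₀ : H26Chart B₀ V v₀) (hC₁ : H26Chart Binf V v₁)
    (S : Finset F) (hS : ∀ s ∈ S, s ∈ B₀)
    (hfin : ∀ x ∈ B₀, x ∈ Submodule.span A {y : F | ∃ a : ℕ, ∃ s ∈ S, y = j ^ a * s})
    (w : F) (hw0 : w ≠ 0)
    (ϖ : A) (hϖ : ϖ ∈ maximalIdeal A) (hϖ0 : ϖ ≠ 0)
    (hwU : w ∈ h26U ((r : A) ^ 2 * ϖ) V)
    (hL₀ : ∀ 𝔫 : Ideal B₀, 𝔫.IsMaximal →
      ∃ g : F, g ≠ 0 ∧
        ((maximalIdeal A).map (algebraMap A B₀) ≤ 𝔫 → g ∈ h26U ((r : A) * ϖ) V) ∧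
        ∃ s : B₀, s ∉ 𝔫 ∧ (s : F) * (w * (g ^ r)⁻¹) ∈ B₀ ∧ (s : F) * (g ^ r * w⁻¹) ∈ B₀)
    (hL₁ : ∀ 𝔫 : Ideal Binf, 𝔫.IsMaximal →
      ∃ g : F, g ≠ 0 ∧
        ((maximalIdeal A).map (algebraMap A Binf) ≤ 𝔫 → g ∈ h26U ((r : A) * ϖ) V) ∧
        ∃ s : Binf, s ∉ 𝔫 ∧ (s : F) * (w * (g ^ r)⁻¹) ∈ Binf ∧
          (s : F) * (g ^ r * w⁻¹) ∈ Binf) :
    ∃ t : F, t ≠ 0 ∧ t ^ r * w⁻¹ ∈ B₀ ∧ t ^ r * w⁻¹ ∈ Binf := by
  refine h67g_gate_asm hAF harch V hC₀.hVunit hVnt j hj B₀ Binf Bm hj₀ hjinf h0m hinfm hm0 hminf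
    r hr hrA hroot₀ hrootinf hrootm hC₀.hBV hC₁.hBV ?_ ?_ ?_ S hS hfin w hw0 ϖ hϖ hϖ0 hwU hL₀ hL₁
  · intro a ha x hx h
    exact hC₀.hQEP a ha x hx (by rw [Algebra.smul_def]; exact h)
  · intro a ha x hx h
    exact hC₁.hQEP a ha x hx (by rw [Algebra.smul_def]; exact h)
  · intro a ha x hx h
    exact hqepm a ha x hx (by rw [Algebra.smul_def]; exact h)

/-- **Corollary: `w` is an `r`-th power**, if the functions regular on both charts are the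
constants and the constants have `r`-th roots (e.g. `A` a valuation ring of an algebraically
closed field). -/
theorem h67g_pow_of_gate (B₀ Binf : Subalgebra A F) (r : ℕ) (hr : 0 < r) (w : F) (hw0 : w ≠ 0)
    (hconst : ∀ x : F, x ∈ B₀ → x ∈ Binf → ∃ a : A, algebraMap A F a = x)
    (hAroot : ∀ a : A, ∃ b : A, b ^ r = a)
    (h : ∃ t : F, t ≠ 0 ∧ t ^ r * w⁻¹ ∈ B₀ ∧ t ^ r * w⁻¹ ∈ Binf) :
    ∃ f : F, f ≠ 0 ∧ f ^ r = w := by
  obtain ⟨t, ht0, h0, h1⟩ := h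
  obtain ⟨a, ha⟩ := hconst _ h0 h1
  obtain ⟨b, hb⟩ := hAroot a
  have hne : t ^ r * w⁻¹ ≠ 0 := mul_ne_zero (pow_ne_zero _ ht0) (inv_ne_zero hw0)
  have hbF : algebraMap A F b ≠ 0 := by
    intro h0'
    apply hne
    rw [← ha, ← hb, map_pow, h0', zero_pow hr.ne']
  refine ⟨t * (algebraMap A F b)⁻¹, mul_ne_zero ht0 (inv_ne_zero hbF), ?_⟩
  have h2 : (algebraMap A F b) ^ r = t ^ r * w⁻¹ := by rw [← map_pow, hb, ha]
  rw [mul_pow, inv_pow, h2]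
  field_simp

end Asm

end Fermat.Agent.P6
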