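import Fermat.Agent.P6.H97DevIface
import Fermat.Agent.S56F.FLA3_helper15
import Fermat.Agent.S56F.FLB123_helper38
import Fermat.Agent.S56F.FLC1_helper7
import Fermat.Agent.S56F.FLD1_helper45

/-!
# Wave 6 (S33), block B3, row B3-DIRECT (helper68): `H97fMult` without a dual order

`h68m_mult : H97fMult` — if inertia acts by the cyclotomic character on the graded pieces of a
chain of a finite module `X` carrying a function Hopf order over the integers of `ℚ_p^ur`, then
inertia acts by the cyclotomic character on `X` (`p` odd).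

Proof (characters instead of the Cartier dual).  Let `b` be a basis of `X → Om p` made of
elements of the order whose integral span contains the order (thinning out a generating set);
a function is *integral* (`h68mIn`) if its coordinates have norm `≤ 1` and *small* (`h68mSm`) if
they have norm `< 1`.  Characters are integral (FL-A3).  For `σ` in inertia and an integral `F`
the twist `σ ∘ F ∘ act σ⁻¹` has coordinates `σ (c t)`, so `twist - F` is small; small times
integral is small.  Hence for a character `ξ` the character `x ↦ σ (ξ (act σ⁻¹ x)) * ξ (-x)`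
is `≡ 1` modulo small functions.  A character `η ≡ 1` modulo small functions which is
inertia-equivariant has inertia-fixed coordinates of `η - 1`, of norm `< 1`, hence `≤ ‖p‖`
(FL-D1), so `‖η x - 1‖ ≤ ‖p‖` for all `x`; as `‖ζ - 1‖ ^ (p - 1) = ‖p‖` for a primitive `p`-th
root of unity and `p ≥ 3`, `η = 1`.  Downward induction along the chain shows that every
character `≡ 1` modulo small functions is trivial; applied to
`y ↦ σ⁻¹ (ξ (act σ y)) * ξ (-y)` this gives `ξ (act σ y) = σ (ξ y) = ξ (e • y)` for all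
characters `ξ`, hence `act σ y = e • y`.
-/

set_option autoImplicit false
set_option linter.unusedSectionVars false
set_option linter.style.haveILetI false

open Fermat.Agent.PT.Loc Fermat.Agent.S56F

noncomputable section

namespace Fermat.Agent.P6

section Norms

variable {K : Type*} [NormedField K] [IsUltrametricDist K]

/-- strict ultrametric bound for finite sums -/
theorem h68m_norm_sum_lt {ι : Type*} (s : Finset ι) (f : ι → K) {r : ℝ} (hr : 0 < r)
    (h : ∀ i ∈ s, ‖f i‖ < r) : ‖∑ i ∈ s, f i‖ < r := by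
  classical
  induction s using Finset.induction_on with
  | empty => simpa using hr
  | insert a s ha ih =>
    rw [Finset.sum_insert ha]
    exact lt_of_le_of_lt (IsUltrametricDist.norm_add_le_max _ _)
      (max_lt (h a (Finset.mem_insert_self a s))
        (ih fun b hb => h b (Finset.mem_insert_of_mem hb)))

/-- ultrametric bound for finite sums -/
theorem h68m_norm_sum_le {ι : Type*} (s : Finset ι) (f : ι → K) {r : ℝ} (hr : 0 ≤ r)
    (h : ∀ i ∈ s, ‖f i‖ ≤ r) : ‖∑ i ∈ s, f i‖ ≤ r :=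
  IsUltrametricDist.norm_sum_le_of_forall_le_of_nonneg hr h

end Norms

section Coord

variable {K : Type*} [NormedField K] [IsUltrametricDist K] {X : Type*} {T : Type*} [Fintype T]
  (b : Module.Basis T K (X → K))

/-- integral coordinates -/
def h68mIn (F : X → K) : Prop := ∀ t, ‖b.repr F t‖ ≤ 1

/-- small coordinates -/
def h68mSm (F : X → K) : Prop := ∀ t, ‖b.repr F t‖ < 1

variable {b}

theorem h68m_in_zero : h68mIn b 0 := fun t => by simp

theorem h68m_in_add {F G : X → K} (hF : h68mIn b F) (hG : h68mIn b G) : h68mIn b (F + G) :=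
  fun t => by
    rw [map_add, Finsupp.add_apply]
    exact (IsUltrametricDist.norm_add_le_max _ _).trans (max_le (hF t) (hG t))

theorem h68m_in_smul {c : K} (hc : ‖c‖ ≤ 1) {F : X → K} (hF : h68mIn b F) :
    h68mIn b (c • F) := fun t => by
  rw [map_smul, Finsupp.smul_apply, smul_eq_mul, norm_mul]
  exact mul_le_one₀ hc (norm_nonneg _) (hF t)

theorem h68m_in_basis (t : T) : h68mIn b (b t) := fun u => by
  classical
  rw [Module.Basis.repr_self, Finsupp.single_apply]
  split_ifs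
  · rw [norm_one]
  · rw [norm_zero]; exact zero_le_one

/-- coordinates of the image under a linear map -/
theorem h68m_repr_lin (Φ : (X → K) →ₗ[K] (X → K)) (F : X → K) (u : T) :
    b.repr (Φ F) u = ∑ t, b.repr F t * b.repr (Φ (b t)) u := by
  conv_lhs => rw [← b.sum_repr F, map_sum, map_sum, Finsupp.finsetSum_apply]
  refine Finset.sum_congr rfl fun t _ => ?_
  rw [map_smul, map_smul, Finsupp.smul_apply, smul_eq_mul]

theorem h68m_in_lin (Φ : (X → K) →ₗ[K] (X → K)) (hΦ : ∀ t, h68mIn b (Φ (b t))) {F : X → K}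
    (hF : h68mIn b F) : h68mIn b (Φ F) := fun u => by
  rw [h68m_repr_lin]
  refine h68m_norm_sum_le _ _ zero_le_one fun t _ => ?_
  rw [norm_mul]
  exact mul_le_one₀ (hF t) (norm_nonneg _) (hΦ t u)

theorem h68m_sm_lin (Φ : (X → K) →ₗ[K] (X → K)) (hΦ : ∀ t, h68mIn b (Φ (b t))) {F : X → K}
    (hF : h68mSm b F) : h68mSm b (Φ F) := fun u => by
  rw [h68m_repr_lin]
  refine h68m_norm_sum_lt _ _ zero_lt_one fun t _ => ?_
  rw [norm_mul]
  exact lt_of_le_of_lt (mul_le_of_le_one_right (norm_nonneg _) (hΦ t u)) (hF t)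

/-- products: integral times integral -/
theorem h68m_in_mul (hb : ∀ t s, h68mIn b (b t * b s)) {F G : X → K} (hF : h68mIn b F)
    (hG : h68mIn b G) : h68mIn b (F * G) := by
  have h1 : ∀ t, h68mIn b (b t * G) := fun t =>
    h68m_in_lin (LinearMap.mulLeft K (b t)) (fun s => hb t s) hG
  exact h68m_in_lin (LinearMap.mulRight K G) h1 hF

/-- products: small times integral -/
theorem h68m_sm_mul (hb : ∀ t s, h68mIn b (b t * b s)) {F G : X → K} (hF : h68mSm b F)
    (hG : h68mIn b G) : h68mSm b (F * G) := by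
  have h1 : ∀ t, h68mIn b (b t * G) := fun t =>
    h68m_in_lin (LinearMap.mulLeft K (b t)) (fun s => hb t s) hG
  exact h68m_sm_lin (LinearMap.mulRight K G) h1 hF

/-- values of a function with bounded coordinates -/
theorem h68m_eval_le (hval : ∀ t x, ‖b t x‖ ≤ 1) {F : X → K} {r : ℝ} (hr : 0 ≤ r)
    (hF : ∀ t, ‖b.repr F t‖ ≤ r) (x : X) : ‖F x‖ ≤ r := by
  have h1 : F x = ∑ t, b.repr F t * b t x := by
    conv_lhs => rw [← b.sum_repr F, Finset.sum_apply]
    rfl
  rw [h1]
  refine h68m_norm_sum_le _ _ hr fun t _ => ?_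
  rw [norm_mul]
  exact (mul_le_of_le_one_right (norm_nonneg _) (hval t x)).trans (hF t)

/-- coordinates of a twist -/
theorem h68m_repr_tw {S : Type*} [FunLike S K K] [RingHomClass S K K] (σ : S) (α : X → X)
    (hb : ∀ t x, σ (b t (α x)) = b t x)
    (F : X → K) (t : T) : b.repr (fun x => σ (F (α x))) t = σ (b.repr F t) := by
  have h1 : (fun x => σ (F (α x))) = ∑ u, σ (b.repr F u) • b u := by
    funext x
    have h2 : F (α x) = ∑ u, b.repr F u * b u (α x) := by
      conv_lhs => rw [← b.sum_repr F, Finset.sum_apply]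
      rfl
    rw [h2, map_sum, Finset.sum_apply]
    refine Finset.sum_congr rfl fun u _ => ?_
    rw [map_mul, hb, Pi.smul_apply, smul_eq_mul]
  rw [h1, Module.Basis.repr_sum_self]

end Coord

section Chars

variable {K : Type*} [Field K] {X : Type*} [AddCommGroup X]

/-- characters of `X` with values in `K` -/
def h68mChar (ξ : X → K) : Prop := ξ 0 = 1 ∧ ∀ x y, ξ (x + y) = ξ x * ξ y

theorem h68m_char_mul_neg {ξ : X → K} (h : h68mChar ξ) (x : X) : ξ x * ξ (-x) = 1 := by
  rw [← h.2, add_neg_cancel, h.1]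

theorem h68m_char_ne_zero {ξ : X → K} (h : h68mChar ξ) (x : X) : ξ x ≠ 0 := by
  intro h0
  have h1 := h68m_char_mul_neg h x
  rw [h0, zero_mul] at h1
  exact zero_ne_one h1

theorem h68m_char_nsmul {ξ : X → K} (h : h68mChar ξ) (m : ℕ) (x : X) : ξ (m • x) = ξ x ^ m := by
  induction m with
  | zero => rw [zero_smul, pow_zero, h.1]
  | succ m ih => rw [succ_nsmul, h.2, ih, pow_succ]

theorem h68m_char_neg {ξ : X → K} (h : h68mChar ξ) : h68mChar (fun x => ξ (-x)) :=
  ⟨by simp only [neg_zero]; exact h.1, fun x y => by simp only [neg_add]; exact h.2 _ _⟩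

theorem h68m_char_of_sub {ξ : X → K} (h : h68mChar ξ) {a c : X} (hac : ξ (a - c) = 1) :
    ξ a = ξ c := by
  have h1 : a = (a - c) + c := by abel
  rw [h1, h.2, hac, one_mul]

end Chars

section Roots

/-- the cyclotomic exponent exists -/
theorem h68m_cyc_exists (p : ℕ) [Fact p.Prime] (k : ℕ) (σ : Gq p) :
    ∃ e : ℕ, h97fCyc p k σ e := by
  have hp : p.Prime := Fact.out
  haveI : NeZero (p ^ k) := ⟨pow_ne_zero _ hp.ne_zero⟩
  have hdeg : (Polynomial.cyclotomic (p ^ k) (Om p)).degree ≠ 0 := by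
    rw [Polynomial.degree_cyclotomic]
    have h1 := Nat.totient_pos.mpr (pow_pos hp.pos k)
    exact_mod_cast h1.ne'
  obtain ⟨ζ, hζ⟩ := IsAlgClosed.exists_root (Polynomial.cyclotomic (p ^ k) (Om p)) hdeg
  have hζ' : IsPrimitiveRoot ζ (p ^ k) := Polynomial.isRoot_cyclotomic_iff.mp hζ
  have h1 : (σ ζ) ^ (p ^ k) = 1 := by rw [← map_pow, hζ'.pow_eq_one, map_one]
  obtain ⟨e, -, he⟩ := hζ'.eq_pow_of_pow_eq_one h1
  refine ⟨e, fun μ hμ => ?_⟩
  obtain ⟨a, -, ha⟩ := hζ'.eq_pow_of_pow_eq_one hμ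
  rw [← ha, map_pow, ← he, ← pow_mul, ← pow_mul, mul_comm]

/-- a `p`-power root of unity all of whose powers are `≡ 1` modulo `p` is trivial (`p` odd) -/
theorem h68m_root_rigid (p : ℕ) [Fact p.Prime] (hp2 : p ≠ 2) (k : ℕ) (μ : Om p)
    (hμ : μ ^ p ^ k = 1) (hμ1 : ∀ m : ℕ, ‖μ ^ m - 1‖ ≤ ‖((p : ℕ) : Om p)‖) : μ = 1 := by
  have hp : p.Prime := Fact.out
  induction k generalizing μ with
  | zero => simpa using hμ
  | succ k ih =>
    have h1 : μ ^ p = 1 := by
      refine ih (μ ^ p) (by rw [← pow_mul, ← pow_succ']; exact hμ) fun m => ?_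
      rw [← pow_mul]; exact hμ1 _
    by_contra hne
    have h2 : orderOf μ = p := orderOf_eq_prime h1 hne
    have h3 : IsPrimitiveRoot μ p := by
      have h := IsPrimitiveRoot.orderOf μ
      rwa [h2] at h
    have h4 : ‖μ - 1‖ ^ (p - 1) = ‖((p : ℕ) : Om p)‖ := h7g_norm_zeta_sub_one h3
    have h5 := hμ1 1
    rw [pow_one] at h5
    have h6 : ‖((p : ℕ) : Om p)‖ = (p : ℝ)⁻¹ := h7g_norm_p p
    have hp3 : 3 ≤ p := by
      have := hp.two_le
      omega
    have hr0 : 0 < ‖((p : ℕ) : Om p)‖ := by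
      rw [h6]; exact inv_pos.mpr (by exact_mod_cast hp.pos)
    have hr1 : ‖((p : ℕ) : Om p)‖ < 1 := by
      rw [h6]; exact inv_lt_one_of_one_lt₀ (by exact_mod_cast hp.one_lt)
    have h7 : ‖μ - 1‖ ^ (p - 1) ≤ ‖((p : ℕ) : Om p)‖ ^ (p - 1) :=
      pow_le_pow_left₀ (norm_nonneg _) h5 _
    have h8 : ‖((p : ℕ) : Om p)‖ ^ (p - 1) ≤ ‖((p : ℕ) : Om p)‖ ^ 2 :=
      pow_le_pow_of_le_one hr0.le hr1.le (by omega)
    have h9 : ‖((p : ℕ) : Om p)‖ ^ 2 < ‖((p : ℕ) : Om p)‖ := by
      rw [pow_two]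
      calc ‖((p : ℕ) : Om p)‖ * ‖((p : ℕ) : Om p)‖ < ‖((p : ℕ) : Om p)‖ * 1 :=
            mul_lt_mul_of_pos_left hr1 hr0
        _ = ‖((p : ℕ) : Om p)‖ := mul_one _
    rw [h4] at h7
    exact absurd (lt_of_le_of_lt (h7.trans h8) h9) (lt_irrefl _)

end Roots

section Main

variable {p : ℕ} [Fact p.Prime] {X : Type} [AddCommGroup X] [Finite X] {act : Gq p → X → X}

theorem h68m_apply_inv (σ : Gq p) (y : Om p) : σ (σ⁻¹ y) = y := by
  rw [← AlgEquiv.mul_apply, mul_inv_cancel, AlgEquiv.one_apply]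

theorem h68m_act_zero (hact : IsAct act) (σ : Gq p) : act σ 0 = 0 := by
  have h := hact.add σ 0 0
  rw [add_zero] at h
  exact left_eq_add.mp h

/-- a basis of all functions made of elements of the order, with integral coordinates on the
order -/
theorem h68m_exists_basis (Γ : Subgroup (Gq p)) (𝓗 : FHO p Γ X act) :
    ∃ (T : Finset (X → Om p)) (b : Module.Basis T (Om p) (X → Om p)),
      (∀ t, b t ∈ 𝓗.carrier) ∧ ∀ f ∈ 𝓗.carrier, h68mIn b f := by
  classical
  obtain ⟨S, hS⟩ := 𝓗.fg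
  have hbot : ∀ x : Om p, ‖x‖ ≤ 1 → x ∈ intOm p := fun x hx =>
    ⟨hx, fun σ hσ => by rw [Subgroup.mem_bot.mp hσ]; rfl⟩
  have hSsub : (S : Set (X → Om p)) ⊆ (𝓗.carrier : Set (X → Om p)) := by
    intro x hx
    have h2 : x ∈ Submodule.span (fixInt p Γ) (S : Set (X → Om p)) := Submodule.subset_span hx
    rw [hS] at h2
    exact h2
  have hfg : (𝓗.carrier : Set (X → Om p)) ⊆
      Submodule.span (intOm p) (S : Set (X → Om p)) := by
    intro f hf
    have h2 : f ∈ Submodule.span (fixInt p Γ) (S : Set (X → Om p)) := by rw [hS]; exact hf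
    refine Submodule.span_induction
      (p := fun g _ => g ∈ Submodule.span (intOm p) (S : Set (X → Om p))) ?_ ?_ ?_ ?_ h2
    · intro x hx; exact Submodule.subset_span hx
    · exact Submodule.zero_mem _
    · intro x y _ _ hx hy; exact Submodule.add_mem _ hx hy
    · intro a x _ hx
      exact Submodule.smul_mem _ (⟨(a : Om p), hbot _ a.2.1⟩ : intOm p) hx
  obtain ⟨T, hTS, hli, hspan⟩ := h15f_exists_indep (intOm p) hbot S
  have hHT : ∀ f ∈ (𝓗.carrier : Set (X → Om p)),
      f ∈ Submodule.span (Om p) (T : Set (X → Om p)) := by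
    intro f hf
    have h2 : f ∈ Submodule.span (intOm p) (T : Set (X → Om p)) := by rw [hspan]; exact hfg hf
    refine Submodule.span_induction
      (p := fun g _ => g ∈ Submodule.span (Om p) (T : Set (X → Om p))) ?_ ?_ ?_ ?_ h2
    · intro x hx; exact Submodule.subset_span hx
    · exact Submodule.zero_mem _
    · intro x y _ _ hx hy; exact Submodule.add_mem _ hx hy
    · intro a x _ hx
      rw [h15f_smul_eq]
      exact Submodule.smul_mem _ _ hx
  have htop : ⊤ ≤ Submodule.span (Om p) (Set.range (fun t : T => (t : X → Om p))) := by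
    have h3 : Set.range (fun t : T => (t : X → Om p)) = (T : Set (X → Om p)) := by
      ext x
      constructor
      · rintro ⟨t, rfl⟩; exact t.2
      · intro hx; exact ⟨⟨x, hx⟩, rfl⟩
    rw [h3, ← h15f_span_top (𝓗.carrier : Set (X → Om p)) (one_mem 𝓗.carrier)
      (fun f hf g hg => mul_mem hf hg) (fun x y h => 𝓗.separates x y h)]
    exact Submodule.span_le.mpr hHT
  let b : Module.Basis T (Om p) (X → Om p) := Module.Basis.mk hli htop
  have hb : ∀ t : T, b t = (t : X → Om p) := fun t => Module.Basis.mk_apply hli htop t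
  refine ⟨T, b, fun t => by rw [hb]; exact hSsub (hTS t.2), fun f hf => ?_⟩
  have h2 : f ∈ Submodule.span (intOm p) (T : Set (X → Om p)) := by rw [hspan]; exact hfg hf
  refine Submodule.span_induction (p := fun g _ => h68mIn b g) ?_ ?_ ?_ ?_ h2
  · intro x hx
    have hx' : x = b ⟨x, hx⟩ := (hb ⟨x, hx⟩).symm
    rw [hx']
    exact h68m_in_basis _
  · exact h68m_in_zero
  · intro x y _ _ hx hy; exact h68m_in_add hx hy
  · intro a x _ hx
    rw [h15f_smul_eq]
    exact h68m_in_smul a.2.1 hx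

/-- characters are integral (FL-A3) -/
theorem h68m_char_in (Γ : Subgroup (Gq p)) (𝓗 : FHO p Γ X act) {T : Type*} [Fintype T]
    (b : Module.Basis T (Om p) (X → Om p)) (hin : ∀ f ∈ 𝓗.carrier, h68mIn b f)
    {ξ : X → Om p} (hξ : h68mChar ξ) : h68mIn b ξ := by
  have h1 := h15f_charCompleteAll p Γ X act 𝓗 ξ hξ.1 hξ.2
  refine Submodule.span_induction (p := fun g _ => h68mIn b g) ?_ ?_ ?_ ?_ h1
  · intro x hx; exact hin x hx
  · exact h68m_in_zero
  · intro x y _ _ hx hy; exact h68m_in_add hx hy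
  · intro a x _ hx
    rw [h15f_smul_eq]
    exact h68m_in_smul a.2.1 hx

/-- the twist by an element of inertia moves an integral function by a small one -/
theorem h68m_tw_sm (𝓗 : FHO p (inertia p) X act) {T : Type*} [Fintype T]
    (b : Module.Basis T (Om p) (X → Om p)) (hmem : ∀ t, b t ∈ 𝓗.carrier)
    {σ : Gq p} (hσ : σ ∈ inertia p) {F : X → Om p} (hF : h68mIn b F) :
    h68mSm b ((fun x => σ (F (act σ⁻¹ x))) - F) := fun t => by
  have hb : ∀ t x, σ (b t (act σ⁻¹ x)) = b t x := fun t x => by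
    rw [𝓗.equivariant (b t) (hmem t) σ⁻¹ (inv_mem hσ) x, h68m_apply_inv]
  rw [map_sub, Finsupp.sub_apply, h68m_repr_tw σ (act σ⁻¹) hb F t]
  exact hσ _ (hF t)

/-- the twisted quotient of a character is a character -/
theorem h68m_tw_char (hact : IsAct act) (σ : Gq p) {ξ : X → Om p} (hξ : h68mChar ξ) :
    h68mChar (fun x => σ (ξ (act σ⁻¹ x)) * ξ (-x)) := by
  refine ⟨?_, fun x y => ?_⟩
  · simp only [h68m_act_zero hact, neg_zero, hξ.1, map_one, mul_one]
  · simp only [hact.add, neg_add, hξ.2, map_mul]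
    ring

/-- the twisted quotient of a character is `≡ 1` modulo small functions -/
theorem h68m_tw_char_sm (𝓗 : FHO p (inertia p) X act) {T : Type*} [Fintype T]
    (b : Module.Basis T (Om p) (X → Om p)) (hmem : ∀ t, b t ∈ 𝓗.carrier)
    (hin : ∀ f ∈ 𝓗.carrier, h68mIn b f)
    {σ : Gq p} (hσ : σ ∈ inertia p) {ξ : X → Om p} (hξ : h68mChar ξ) :
    h68mSm b ((fun x => σ (ξ (act σ⁻¹ x)) * ξ (-x)) - 1) := by
  have h1 : ((fun x => σ (ξ (act σ⁻¹ x)) * ξ (-x)) - 1 : X → Om p) =
      ((fun x => σ (ξ (act σ⁻¹ x))) - ξ) * (fun x => ξ (-x)) := by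
    funext x
    simp only [Pi.sub_apply, Pi.mul_apply, Pi.one_apply]
    rw [sub_mul, h68m_char_mul_neg hξ]
  rw [h1]
  exact h68m_sm_mul (fun t s => hin _ (mul_mem (hmem t) (hmem s)))
    (h68m_tw_sm 𝓗 b hmem hσ (h68m_char_in _ 𝓗 b hin hξ))
    (h68m_char_in _ 𝓗 b hin (h68m_char_neg hξ))

theorem h68m_tw_trivial {σ : Gq p} {ξ : X → Om p} (hξ : h68mChar ξ)
    (h : ∀ x, σ (ξ (act σ⁻¹ x)) * ξ (-x) = 1) (x : X) : σ (ξ (act σ⁻¹ x)) = ξ x := by
  have h1 := h x
  have h2 := h68m_char_mul_neg hξ x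
  have h3 : ξ (-x) ≠ 0 := h68m_char_ne_zero hξ _
  exact mul_right_cancel₀ h3 (h1.trans h2.symm)

/-- rigidity: an inertia-equivariant character `≡ 1` modulo small functions is trivial -/
theorem h68m_rigid (hp2 : p ≠ 2) (k : ℕ) (hk : ∀ x : X, p ^ k • x = 0)
    (𝓗 : FHO p (inertia p) X act) {T : Type*} [Fintype T]
    (b : Module.Basis T (Om p) (X → Om p)) (hmem : ∀ t, b t ∈ 𝓗.carrier)
    {η : X → Om p} (hη : h68mChar η)
    (heq : ∀ σ ∈ inertia p, ∀ x, σ (η (act σ⁻¹ x)) = η x)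
    (hsm : h68mSm b (η - 1)) (x : X) : η x = 1 := by
  have hfix : ∀ t, ∀ σ ∈ inertia p, σ (b.repr (η - 1) t) = b.repr (η - 1) t := by
    intro t σ hσ
    have hb : ∀ t x, σ (b t (act σ⁻¹ x)) = b t x := fun t x => by
      rw [𝓗.equivariant (b t) (hmem t) σ⁻¹ (inv_mem hσ) x, h68m_apply_inv]
    have h1 : (fun x => σ ((η - 1) (act σ⁻¹ x))) = η - 1 := by
      funext x
      simp only [Pi.sub_apply, Pi.one_apply, map_sub, map_one, heq σ hσ]
    have h2 := h68m_repr_tw σ (act σ⁻¹) hb (η - 1) t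
    rw [h1] at h2
    exact h2.symm
  have hle : ∀ t, ‖b.repr (η - 1) t‖ ≤ ‖((p : ℕ) : Om p)‖ := by
    intro t
    obtain ⟨-, hp1, -, hdisc⟩ := h45f_inertiaDiscrete p
    by_cases h0 : b.repr (η - 1) t = 0
    · rw [h0, norm_zero]; exact norm_nonneg _
    · obtain ⟨n, u, -, hu, hx⟩ := hdisc _ ⟨(hsm t).le, hfix t⟩ h0
      have h1 : ‖b.repr (η - 1) t‖ = ‖((p : ℕ) : Om p)‖ ^ n := by
        rw [hx, norm_mul, norm_pow, hu, mul_one]
      have hn : n ≠ 0 := by
        rintro rfl
        have h3 := hsm t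
        rw [h1, pow_zero] at h3
        exact lt_irrefl _ h3
      rw [h1]
      calc ‖((p : ℕ) : Om p)‖ ^ n ≤ ‖((p : ℕ) : Om p)‖ ^ 1 :=
            pow_le_pow_of_le_one (norm_nonneg _) hp1.le (Nat.one_le_iff_ne_zero.mpr hn)
        _ = ‖((p : ℕ) : Om p)‖ := pow_one _
  have hval : ∀ y, ‖η y - 1‖ ≤ ‖((p : ℕ) : Om p)‖ := fun y =>
    h68m_eval_le (fun t x => h38f_valuesIntegral p (inertia p) X act 𝓗 (b t) (hmem t) x)
      (norm_nonneg _) hle y
  refine h68m_root_rigid p hp2 k (η x) ?_ fun m => ?_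
  · rw [← h68m_char_nsmul hη, hk, hη.1]
  · rw [← h68m_char_nsmul hη]
    exact hval _

/-- **MULT** (row B3-DIRECT). -/
theorem h68m_mult : H97fMult := by
  intro p _ hp2 k X _ _ act hact hk 𝓗 hchain σ hσ e he x
  obtain ⟨n, F, hF0, hFn, hmono, hstep⟩ := hchain
  obtain ⟨T, b, hmem, hin⟩ := h68m_exists_basis (inertia p) 𝓗
  -- downward induction along the chain
  have hP : ∀ j, j ≤ n → ∀ η : X → Om p, h68mChar η → h68mSm b (η - 1) →
      (∀ x ∈ F (n - j), η x = 1) → ∀ x, η x = 1 := by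
    intro j
    induction j with
    | zero =>
      intro _ η _ _ h x
      exact h x (by rw [Nat.sub_zero, hFn]; exact AddSubgroup.mem_top x)
    | succ j ih =>
      intro hj η hη hsm h
      have hi : n - j = (n - (j + 1)) + 1 := by omega
      have htw : ∀ τ ∈ inertia p, ∀ x, τ (η (act τ⁻¹ x)) = η x := by
        intro τ hτ
        refine h68m_tw_trivial hη ?_
        refine ih (by omega) _ (h68m_tw_char hact τ hη)
          (h68m_tw_char_sm 𝓗 b hmem hin hτ hη) ?_
        intro x hx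
        rw [hi] at hx
        obtain ⟨e', he'⟩ := h68m_cyc_exists p k τ⁻¹
        have h1 := hstep (n - (j + 1)) τ⁻¹ (inv_mem hτ) e' he' x hx
        have h2 : η (act τ⁻¹ x) = η (e' • x) := h68m_char_of_sub hη (h _ h1)
        have h3 : (η x) ^ p ^ k = 1 := by rw [← h68m_char_nsmul hη, hk, hη.1]
        show τ (η (act τ⁻¹ x)) * η (-x) = 1
        rw [h2, h68m_char_nsmul hη, ← he' (η x) h3, h68m_apply_inv, h68m_char_mul_neg hη]
      exact h68m_rigid hp2 k hk 𝓗 b hmem hη htw hsm
  have hQ : ∀ η : X → Om p, h68mChar η → h68mSm b (η - 1) → ∀ x, η x = 1 := by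
    intro η hη hsm
    refine hP n le_rfl η hη hsm ?_
    intro x hx
    rw [Nat.sub_self, hF0, AddSubgroup.mem_bot] at hx
    rw [hx, hη.1]
  -- conclusion: characters separate the points
  by_contra hne
  have hd : act σ x - e • x ≠ 0 := fun h => hne (sub_eq_zero.mp h)
  haveI hexp : NeZero ((Monoid.exponent (Multiplicative X) : ℕ) : Om p) := ⟨by
    have h1 : Monoid.exponent (Multiplicative X) ≠ 0 := Monoid.exponent_ne_zero_of_finite
    exact_mod_cast h1⟩
  obtain ⟨φ, hφ⟩ := CommGroup.exists_apply_ne_one_of_hasEnoughRootsOfUnity (Multiplicative X)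
    (Om p) (a := Multiplicative.ofAdd (act σ x - e • x)) (fun h => hd (ofAdd_eq_one.mp h))
  obtain ⟨ξ, hξdef⟩ : ∃ ξ : X → Om p,
      ξ = fun y => ((φ (Multiplicative.ofAdd y) : (Om p)ˣ) : Om p) := ⟨_, rfl⟩
  have hξ : h68mChar ξ :=
    ⟨by simp [hξdef], fun x y => by simp [hξdef, ofAdd_add, map_mul]⟩
  have hξd : ξ (act σ x - e • x) ≠ 1 := by
    intro h
    rw [hξdef] at h
    exact hφ (Units.ext h)
  have h1 := h68m_tw_trivial hξ (hQ _ (h68m_tw_char hact σ⁻¹ hξ)
    (h68m_tw_char_sm 𝓗 b hmem hin (inv_mem hσ) hξ))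
  have h2 : ξ (act σ x) = ξ (e • x) := by
    have h3 := h1 x
    rw [inv_inv] at h3
    have h4 : (ξ x) ^ p ^ k = 1 := by rw [← h68m_char_nsmul hξ, hk, hξ.1]
    rw [h68m_char_nsmul hξ, ← he (ξ x) h4, ← h3, h68m_apply_inv]
  apply hξd
  have h5 : act σ x = (act σ x - e • x) + e • x := by abel
  have h6 := hξ.2 (act σ x - e • x) (e • x)
  rw [← h5, h2] at h6
  have h7 : ξ (e • x) ≠ 0 := h68m_char_ne_zero hξ _
  exact (mul_right_cancel₀ h7 (h6.symm.trans (one_mul _).symm))

end Main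

end Fermat.Agent.P6
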