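import Fermat.Agent.S35.H71Norm

/-!
# P6 (wave 6, S33), row B2-DEPTH-NORM (helper71): the norm raises the congruence depth

`ℓ ∤ M` prime, `A` a valuation subring of `ℚ̄` over `ℓ`, `W_∞ = softV A (Mℓ)`, `w = kFricke`,
`α, β : F_M → F_{Mℓ}` the degeneracy maps, `ζ` a primitive `ℓ`-th root of unity.

Series level (`softOT` = Gauss-integral fractions in `K((q))`):

* `h71p_sum_twist` : for `s ∈ softOT`, `∑_{b<ℓ} s(ζ^b t) = ℓ · u` with `u ∈ softOT`
  (the trace of the purely inseparable residue extension is divisible by `ℓ`).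
* `h71p_prod_one_add` : in any commutative ring, for a subring `S ∋ c, y_i`,
  `∏ (1 + c y_i) = 1 + c ∑ y_i + c² R` with `R ∈ S`.
* `h71p_prod_twist` : for `s ∈ softOT`, `c ∈ A`,
  `∏_{b<ℓ} (1 + c s(ζ^b t)) = 1 + c ℓ · u + c² · R` with `u, R ∈ softOT`.

Function-field level:

* `h71p_depth_alpha` : if `w x = 1 + c s`, `s ∈ W_∞`, `c ∈ A`, and `d ≠ 0` divides `c ℓ` and
  `c²` in `A`, then `α (Nm_α x) = x (1 + d z)` with `z ∈ W_∞`.
* `h71p_depth_beta` : if `x = 1 + c s`, `s ∈ W_∞`, then `α (Nm_β x) = (w x) (1 + d z)`,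
  `z ∈ W_∞`.
-/

set_option autoImplicit false
set_option linter.style.haveILetI false
set_option linter.unusedSectionVars false
set_option synthInstance.maxHeartbeats 400000

open AlgebraicCurve ModularCurve IsLocalRing Polynomial

noncomputable section

namespace Fermat.Agent.P6

open Fermat.Agent.Red.GV Fermat.Agent.Red.GV.Soft Fermat.Agent.Red.Kron Fermat.Agent.LGC

/-! ### A product of `1 + c y` -/

/-- `∏ (1 + c y_i) = 1 + c ∑ y_i + c² R` with `R` in the subring of `c` and the `y_i`. -/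
theorem h71p_prod_one_add {R : Type*} [CommRing R] (S : Subring R) {ι : Type*}
    (s : Finset ι) (c : R) (hc : c ∈ S) (y : ι → R) (hy : ∀ i ∈ s, y i ∈ S) :
    ∃ r ∈ S, ∏ i ∈ s, (1 + c * y i) = 1 + c * ∑ i ∈ s, y i + c ^ 2 * r := by
  classical
  induction s using Finset.induction_on with
  | empty => exact ⟨0, S.zero_mem, by simp⟩
  | insert a s ha ih =>
    obtain ⟨r, hr, h⟩ := ih fun i hi => hy i (Finset.mem_insert_of_mem hi)
    have hya : y a ∈ S := hy a (Finset.mem_insert_self a s)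
    have hsum : ∑ i ∈ s, y i ∈ S := S.sum_mem fun i hi => hy i (Finset.mem_insert_of_mem hi)
    refine ⟨r + y a * ∑ i ∈ s, y i + c * (y a * r),
      S.add_mem (S.add_mem hr (S.mul_mem hya hsum)) (S.mul_mem hc (S.mul_mem hya hr)), ?_⟩
    rw [Finset.prod_insert ha, Finset.sum_insert ha, h]
    ring

/-! ### The part of a series with exponents divisible by `ℓ` -/

section Part

variable {R : Type*} [CommRing R]

/-- the part of a series with exponents divisible by `ℓ`. -/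
def h71pPart (ℓ : ℕ) (y : LaurentSeries R) : LaurentSeries R where
  coeff n := if (ℓ : ℤ) ∣ n then y.coeff n else 0
  isPWO_support' := y.isPWO_support.mono (by
    intro n hn
    simp only [Function.mem_support, ne_eq] at hn ⊢
    intro h0
    apply hn
    rw [h0]
    split_ifs <;> rfl)

theorem h71p_coeff_part (ℓ : ℕ) (y : LaurentSeries R) (n : ℤ) :
    (h71pPart ℓ y).coeff n = if (ℓ : ℤ) ∣ n then y.coeff n else 0 := rfl

end Part

/-! ### The sum of the twists of a series -/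

section Sum

variable {K : Type} [Field K] (A : ValuationSubring K) {k : Type} [Field k] (π : A →+* k)

/-- the sum of the powers of a root of unity. -/
theorem h71p_sum_root {ℓ : ℕ} (hℓ : ℓ.Prime) {ζ : K} (hζ : IsPrimitiveRoot ζ ℓ) (n : ℤ) :
    ∑ b ∈ Finset.range ℓ, (ζ ^ b) ^ n = if (ℓ : ℤ) ∣ n then (ℓ : K) else 0 := by
  have hζ0 : ζ ≠ 0 := hζ.ne_zero hℓ.ne_zero
  have e : ∀ b : ℕ, (ζ ^ b) ^ n = (ζ ^ n) ^ b := by
    intro b
    rw [← zpow_natCast, ← zpow_mul, mul_comm, zpow_mul, zpow_natCast]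
  rw [Finset.sum_congr rfl fun b _ => e b]
  split_ifs with h
  · have h1 : ζ ^ n = 1 := (hζ.zpow_eq_one_iff_dvd n).mpr h
    rw [h1]
    simp
  · have h1 : ζ ^ n ≠ 1 := fun h1 => h ((hζ.zpow_eq_one_iff_dvd n).mp h1)
    have h2 : (ζ ^ n) ^ ℓ = 1 := by
      rw [← zpow_natCast, ← zpow_mul, mul_comm, zpow_mul, zpow_natCast, hζ.pow_eq_one, one_zpow]
    have h3 := geom_sum_mul (ζ ^ n) ℓ
    rw [h2, sub_self] at h3
    exact (mul_eq_zero.mp h3).resolve_right (sub_ne_zero.mpr h1)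

/-- the sum of the twists of an integral series. -/
theorem h71p_sum_twist_embA {ℓ : ℕ} (hℓ : ℓ.Prime) {ζ : K} (hζ : IsPrimitiveRoot ζ ℓ)
    (y : LaurentSeries A) :
    ∑ b ∈ Finset.range ℓ, twistK (ζ ^ b) (embA A y) =
      HahnSeries.C (ℓ : K) * embA A (h71pPart ℓ y) := by
  ext n
  rw [HahnSeries.coeff_sum, HahnSeries.C_mul_eq_smul, HahnSeries.coeff_smul, smul_eq_mul,
    h36_embA_coeff, h71p_coeff_part]
  simp only [coeff_twistK, h36_embA_coeff]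
  rw [← Finset.mul_sum, h71p_sum_root hℓ hζ n]
  split_ifs with h
  · rw [mul_comm]
  · simp

/-- the product of the twists of a series. -/
theorem h71p_twist_prod_invariant {ℓ : ℕ} {ζ : K} (hζ0 : ζ ≠ 0) (hζ : ζ ^ ℓ = 1)
    {β : LaurentSeries K} (hβ : β ≠ 0) (i : ℕ) :
    twistK (ζ ^ i) (∏ j ∈ Finset.range ℓ, twistK (ζ ^ j) β) =
      ∏ j ∈ Finset.range ℓ, twistK (ζ ^ j) β := by
  have h1 : twistK ζ (∏ j ∈ Finset.range ℓ, twistK (ζ ^ j) β) =
      ∏ j ∈ Finset.range ℓ, twistK (ζ ^ j) β := by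
    have e1 : twistK ζ (∏ j ∈ Finset.range ℓ, twistK (ζ ^ j) β) =
        ∏ j ∈ Finset.range ℓ, twistK (ζ ^ (j + 1)) β := by
      have := map_prod (twistHom ζ hζ0) (fun j => twistK (ζ ^ j) β) (Finset.range ℓ)
      refine this.trans (Finset.prod_congr rfl fun j _ => ?_)
      show twistK ζ (twistK (ζ ^ j) β) = _
      rw [twistK_twistK, pow_succ]
    rw [e1]
    have e2 := Finset.prod_range_succ' (fun j => twistK (ζ ^ j) β) ℓ
    have e3 := Finset.prod_range_succ (fun j => twistK (ζ ^ j) β) ℓ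
    have e4 : twistK (ζ ^ ℓ) β = twistK (ζ ^ 0) β := by rw [hζ, pow_zero]
    have e5 : twistK (ζ ^ 0) β ≠ 0 := by
      rw [pow_zero, twistK_one_left]; exact hβ
    rw [e4] at e3
    exact mul_right_cancel₀ e5 (e2.symm.trans e3)
  induction i with
  | zero => rw [pow_zero, twistK_one_left]
  | succ i ih =>
    have e : twistK (ζ ^ (i + 1)) (∏ j ∈ Finset.range ℓ, twistK (ζ ^ j) β) =
        twistK ζ (twistK (ζ ^ i) (∏ j ∈ Finset.range ℓ, twistK (ζ ^ j) β)) := by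
      rw [twistK_twistK, pow_succ]
    rw [e, ih, h1]

/-- **the trace is divisible by `ℓ`**: for a Gauss-integral fraction `s`, the sum of the twists
`∑_{b<ℓ} s(ζ^b t)` is `ℓ` times a Gauss-integral fraction. -/
theorem h71p_sum_twist {ℓ : ℕ} (hℓ : ℓ.Prime) {ζ : K} (hζ : IsPrimitiveRoot ζ ℓ)
    (hπ : ∀ u : Aˣ, (((u : A) : K)) ^ ℓ = 1 → π (u : A) = 1)
    {s : LaurentSeries K} (hs : s ∈ softOT A π) :
    ∃ t ∈ softOT A π, ∑ b ∈ Finset.range ℓ, twistK (ζ ^ b) s = HahnSeries.C (ℓ : K) * t := by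
  classical
  obtain ⟨a, b', hb', hab⟩ := hs
  have hζ0 : ζ ≠ 0 := hζ.ne_zero hℓ.ne_zero
  obtain ⟨u, hu⟩ := h44g_exists_unit_of_pow_eq_one A hℓ.ne_zero hζ.pow_eq_one
  have hupow : ∀ j : ℕ, ((((u ^ j : Aˣ) : A)) : K) = ζ ^ j := by
    intro j
    rw [Units.val_pow_eq_pow_val, ← hu]
    rfl
  have hπu : ∀ j : ℕ, π ((u ^ j : Aˣ) : A) = 1 := by
    intro j
    apply hπ
    rw [hupow, ← pow_mul, mul_comm, pow_mul, hζ.pow_eq_one, one_pow]
  have hβ0 : embA A b' ≠ 0 := by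
    intro h0
    have : b' = 0 := embA_injective A (by rw [h0, map_zero])
    exact hb' (by rw [this, map_zero])
  -- the denominator
  set BA : LaurentSeries A := ∏ j ∈ Finset.range ℓ, h44g_twA (u ^ j) b' with hBA
  have hBAemb : embA A BA = ∏ j ∈ Finset.range ℓ, twistK (ζ ^ j) (embA A b') := by
    rw [hBA, map_prod]
    refine Finset.prod_congr rfl fun j _ => ?_
    rw [h44g_embA_twA, hupow]
  have hBAred : redA π BA = (redA π b') ^ ℓ := by
    rw [hBA, map_prod]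
    have : ∀ j ∈ Finset.range ℓ, redA π (h44g_twA (u ^ j) b') = redA π b' := by
      intro j _
      rw [h44g_redA_twA, hπu, twistK_one_left]
    rw [Finset.prod_congr rfl this, Finset.prod_const, Finset.card_range]
  have hBAred0 : redA π BA ≠ 0 := by
    rw [hBAred]; exact pow_ne_zero _ hb'
  have hBA0 : embA A BA ≠ 0 := by
    intro h0
    have : BA = 0 := embA_injective A (by rw [h0, map_zero])
    exact hBAred0 (by rw [this, map_zero])
  -- the cofactor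
  obtain ⟨m, hm⟩ : ∃ m : ℕ, ℓ = m + 1 := ⟨ℓ - 1, (Nat.succ_pred_eq_of_pos hℓ.pos).symm⟩
  set BA' : LaurentSeries A := ∏ j ∈ Finset.range m, h44g_twA (u ^ (j + 1)) b' with hBA'
  have hsplit : BA = b' * BA' := by
    rw [hBA, hm, Finset.prod_range_succ', mul_comm]
    congr 1
    ext n
    rw [h44g_coeff_twA, pow_zero, one_zpow, Units.val_one, mul_one]
  have hinv : ∀ i : ℕ, twistK (ζ ^ i) (embA A BA) = embA A BA := by
    intro i
    rw [hBAemb]
    exact h71p_twist_prod_invariant hζ0 hζ.pow_eq_one hβ0 i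
  have hterm : ∀ i : ℕ, twistK (ζ ^ i) s * embA A BA = twistK (ζ ^ i) (embA A (a * BA')) := by
    intro i
    have e1 : s * embA A BA = embA A (a * BA') := by
      rw [hsplit, map_mul, map_mul, hab]
      ring
    have hi0 : ζ ^ i ≠ 0 := pow_ne_zero _ hζ0
    calc twistK (ζ ^ i) s * embA A BA
        = twistK (ζ ^ i) s * twistK (ζ ^ i) (embA A BA) := by rw [hinv]
      _ = twistK (ζ ^ i) (s * embA A BA) := (twistK_mul hi0 _ _).symm
      _ = twistK (ζ ^ i) (embA A (a * BA')) := by rw [e1]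
  have hsum : (∑ b ∈ Finset.range ℓ, twistK (ζ ^ b) s) * embA A BA =
      HahnSeries.C (ℓ : K) * embA A (h71pPart ℓ (a * BA')) := by
    rw [Finset.sum_mul, Finset.sum_congr rfl fun i _ => hterm i, h71p_sum_twist_embA A hℓ hζ]
  refine ⟨embA A (h71pPart ℓ (a * BA')) * (embA A BA)⁻¹,
    ⟨h71pPart ℓ (a * BA'), BA, hBAred0, ?_⟩, ?_⟩
  · rw [mul_assoc, inv_mul_cancel₀ hBA0, mul_one]
  · rw [← mul_assoc, ← hsum, mul_assoc, mul_inv_cancel₀ hBA0, mul_one]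

/-- **the product of the twists**: for a Gauss-integral fraction `s` and `c ∈ A`,
`∏_{b<ℓ} (1 + c s(ζ^b t)) = 1 + c ℓ u + c² r` with `u, r` Gauss-integral fractions. -/
theorem h71p_prod_twist {ℓ : ℕ} (hℓ : ℓ.Prime) {ζ : K} (hζ : IsPrimitiveRoot ζ ℓ)
    (hπ : ∀ u : Aˣ, (((u : A) : K)) ^ ℓ = 1 → π (u : A) = 1)
    {s : LaurentSeries K} (hs : s ∈ softOT A π) {c : K} (hc : c ∈ A) :
    ∃ t ∈ softOT A π, ∃ r ∈ softOT A π,
      ∏ b ∈ Finset.range ℓ, (1 + HahnSeries.C c * twistK (ζ ^ b) s) =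
        1 + HahnSeries.C (c * ℓ) * t + HahnSeries.C (c ^ 2) * r := by
  have hζ0 : ζ ≠ 0 := hζ.ne_zero hℓ.ne_zero
  have hC : (HahnSeries.C c : LaurentSeries K) ∈ softOT A π := by
    exact h44g_isFrac_C (A := A) (π := π) (⟨c, hc⟩ : A)
  have htw : ∀ b ∈ Finset.range ℓ, twistK (ζ ^ b) s ∈ softOT A π := by
    intro b _
    obtain ⟨u, hu⟩ := h44g_exists_unit_of_pow_eq_one A hℓ.ne_zero
      (show (ζ ^ b) ^ ℓ = 1 by rw [← pow_mul, mul_comm, pow_mul, hζ.pow_eq_one, one_pow])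
    rw [← hu]
    exact h44g_isFrac_twistK u hs
  obtain ⟨r, hr, h⟩ := h71p_prod_one_add (softOT A π) (Finset.range ℓ) (HahnSeries.C c) hC
    (fun b => twistK (ζ ^ b) s) htw
  obtain ⟨t, ht, hsum⟩ := h71p_sum_twist A π hℓ hζ hπ hs
  refine ⟨t, ht, r, hr, ?_⟩
  rw [h, hsum, map_mul, map_pow]
  ring

end Sum

/-! ### The function field -/

section Func

open Fermat.Agent.S37 Fermat.Agent.Red Fermat.Agent.Red.TRK Fermat.Agent.S35

variable (A : ValuationSubring Kbar) (M ℓ : ℕ) [NeZero M] [NeZero ℓ]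

/-- a root of unity of order `ℓ` reduces to `1`. -/
theorem h71p_residue_root (hℓ : ℓ.Prime) (hA : A.LiesOverPrime ℓ) (u : Aˣ)
    (hu : (((u : A) : Kbar)) ^ ℓ = 1) : IsLocalRing.residue A (u : A) = 1 :=
  h55k_residue_root A hℓ hA u hu

/-- **the product of the twists of `w x`** is congruent to `1` modulo `(c ℓ, c²)`. -/
theorem h71p_prod_twist_fricke (hℓ : ℓ.Prime) (hA : A.LiesOverPrime ℓ) {ζ : Kbar}
    (hζ : IsPrimitiveRoot ζ ℓ) (y : FF (M * ℓ)) (c : Kbar) (hc : c ∈ A)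
    (s : FF (M * ℓ)) (hs : s ∈ softV A (M * ℓ)) (hy : y = 1 + cst (M * ℓ) c * s)
    (d : Kbar) (hd : d ≠ 0) (hd1 : c * ℓ * d⁻¹ ∈ A) (hd2 : c ^ 2 * d⁻¹ ∈ A) :
    ∃ Z ∈ softOT A (residue A),
      ∏ b ∈ Finset.range ℓ, twistK (ζ ^ b) ((y : FF (M * ℓ)) : LaurentSeries Kbar) =
        1 + HahnSeries.C d * Z := by
  have hζ0 : ζ ≠ 0 := hζ.ne_zero hℓ.ne_zero
  have hS : ((s : FF (M * ℓ)) : LaurentSeries Kbar) ∈ softOT A (residue A) := hs
  obtain ⟨t, ht, r, hr, h⟩ := h71p_prod_twist A (residue A) hℓ hζ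
    (fun u hu => h71p_residue_root A ℓ hℓ hA u hu) hS hc
  have hC1 : (HahnSeries.C (c * ℓ * d⁻¹) : LaurentSeries Kbar) ∈ softOT A (residue A) :=
    h44g_isFrac_C (A := A) (π := residue A) (⟨_, hd1⟩ : A)
  have hC2 : (HahnSeries.C (c ^ 2 * d⁻¹) : LaurentSeries Kbar) ∈ softOT A (residue A) :=
    h44g_isFrac_C (A := A) (π := residue A) (⟨_, hd2⟩ : A)
  refine ⟨HahnSeries.C (c * ℓ * d⁻¹) * t + HahnSeries.C (c ^ 2 * d⁻¹) * r,
    (softOT A (residue A)).add_mem ((softOT A (residue A)).mul_mem hC1 ht)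
      ((softOT A (residue A)).mul_mem hC2 hr), ?_⟩
  have e : ∀ b ∈ Finset.range ℓ, twistK (ζ ^ b) ((y : FF (M * ℓ)) : LaurentSeries Kbar) =
      1 + HahnSeries.C c * twistK (ζ ^ b) ((s : FF (M * ℓ)) : LaurentSeries Kbar) := by
    intro b _
    have e1 : ((y : FF (M * ℓ)) : LaurentSeries Kbar) =
        1 + HahnSeries.C c * ((s : FF (M * ℓ)) : LaurentSeries Kbar) := by
      rw [hy, ← soft_coe_cst (M * ℓ) c]
      rfl
    rw [e1, twistK_add, twistK_one, twistK_mul (pow_ne_zero _ hζ0), twistK_C]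
  rw [Finset.prod_congr rfl e, h]
  have e1 : (HahnSeries.C (c * ℓ) : LaurentSeries Kbar) =
      HahnSeries.C d * HahnSeries.C (c * ℓ * d⁻¹) := by
    rw [← map_mul]
    congr 1
    field_simp
  have e2 : (HahnSeries.C (c ^ 2) : LaurentSeries Kbar) =
      HahnSeries.C d * HahnSeries.C (c ^ 2 * d⁻¹) := by
    rw [← map_mul]
    congr 1
    field_simp
  rw [e1, e2]
  ring

/-- **DEPTH, along `α`.**  If `w x = 1 + c s` with `s ∈ W_∞`, `c ∈ A`, and `d ≠ 0` divides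
`c ℓ` and `c²` in `A`, then `α (Nm_α x) = x (1 + d z)` with `z ∈ W_∞`: the norm along `α` is
congruent to `x` at `W_∞` to the depth `min (v c + v ℓ, 2 v c)`. -/
theorem h71p_depth_alpha (hℓ : ℓ.Prime) (hM : ¬ ℓ ∣ M) (hA : A.LiesOverPrime ℓ)
    (x : FF (M * ℓ)) (hx0 : x ≠ 0) (c : Kbar) (hc : c ∈ A)
    (s : FF (M * ℓ)) (hs : s ∈ softV A (M * ℓ))
    (hw : kFricke M ℓ hℓ hM x = 1 + cst (M * ℓ) c * s)
    (d : Kbar) (hd : d ≠ 0) (hd1 : c * ℓ * d⁻¹ ∈ A) (hd2 : c ^ 2 * d⁻¹ ∈ A) :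
    letI := algebraAlong (heckeAlphaBar Kbar M ℓ)
    ∃ z ∈ softV A (M * ℓ),
      heckeAlphaBar Kbar M ℓ (Algebra.norm (FF M) x) = x * (1 + cst (M * ℓ) d * z) := by
  letI := algebraAlong (heckeAlphaBar Kbar M ℓ)
  haveI : NeZero ((ℓ : ℕ) : Kbar) := ⟨by exact_mod_cast NeZero.ne ℓ⟩
  obtain ⟨ζ, hζ⟩ := HasEnoughRootsOfUnity.exists_primitiveRoot Kbar ℓ
  have hser := h71n_norm_series M ℓ hℓ hM ζ hζ x
  obtain ⟨Z, hZ, hprod⟩ := h71p_prod_twist_fricke A M ℓ hℓ hA hζ (kFricke M ℓ hℓ hM x) c hc s hs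
    hw d hd hd1 hd2
  rw [hprod] at hser
  set n : FF M := Algebra.norm (FF M) x with hn
  set z : FF (M * ℓ) := cst (M * ℓ) d⁻¹ * (heckeAlphaBar Kbar M ℓ n * x⁻¹ - 1) with hz
  have hcd : cst (M * ℓ) d * cst (M * ℓ) d⁻¹ = 1 := by
    rw [← map_mul, mul_inv_cancel₀ hd, map_one]
  refine ⟨z, ?_, ?_⟩
  · rw [← beta_mem_softV_iff A hℓ hA ℓ z, mem_softV_iff, coe_heckeBetaBar]
    have hxc : ((x : FF (M * ℓ)) : LaurentSeries Kbar) ≠ 0 := fun h => hx0 (Subtype.ext h)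
    have hqx : qExpand Kbar ℓ ((x : FF (M * ℓ)) : LaurentSeries Kbar) ≠ 0 := by
      intro h
      exact hxc ((map_eq_zero_iff _ (qExpand_injective (R := Kbar) ℓ)).mp h)
    have e1 : ((z : FF (M * ℓ)) : LaurentSeries Kbar) =
        HahnSeries.C d⁻¹ * (((n : FF M) : LaurentSeries Kbar) *
          ((x : FF (M * ℓ)) : LaurentSeries Kbar)⁻¹ - 1) := by
      rw [hz, ← soft_coe_cst (M * ℓ) d⁻¹, ← coe_heckeAlphaBar M ℓ n]
      rfl
    have e2 : qExpand Kbar ℓ ((z : FF (M * ℓ)) : LaurentSeries Kbar) = Z := by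
      have hCd : (HahnSeries.C d⁻¹ : LaurentSeries Kbar) * HahnSeries.C d = 1 := by
        rw [← map_mul, inv_mul_cancel₀ hd, map_one]
      rw [e1, map_mul, qExpand_C, map_sub, map_one, map_mul, hser,
        map_inv₀ (qExpand Kbar ℓ)]
      rw [mul_comm (qExpand Kbar ℓ ((x : FF (M * ℓ)) : LaurentSeries Kbar)), mul_assoc,
        mul_inv_cancel₀ hqx, mul_one, add_sub_cancel_left, ← mul_assoc, hCd, one_mul]
    rw [e2]
    exact hZ
  · rw [hz, ← mul_assoc (cst (M * ℓ) d), hcd, one_mul, add_sub_cancel, ← mul_assoc,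
      mul_comm x, mul_assoc, mul_inv_cancel₀ hx0, mul_one]

/-- **DEPTH, along `β`.**  If `x = 1 + c s` with `s ∈ W_∞`, `c ∈ A`, and `d ≠ 0` divides
`c ℓ` and `c²` in `A`, then `α (Nm_β x) = (w x) (1 + d z)` with `z ∈ W_∞`. -/
theorem h71p_depth_beta (hℓ : ℓ.Prime) (hM : ¬ ℓ ∣ M) (hA : A.LiesOverPrime ℓ)
    (x : FF (M * ℓ)) (hx0 : x ≠ 0) (c : Kbar) (hc : c ∈ A)
    (s : FF (M * ℓ)) (hs : s ∈ softV A (M * ℓ))
    (hx : x = 1 + cst (M * ℓ) c * s)
    (d : Kbar) (hd : d ≠ 0) (hd1 : c * ℓ * d⁻¹ ∈ A) (hd2 : c ^ 2 * d⁻¹ ∈ A) :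
    ∃ z ∈ softV A (M * ℓ),
      heckeAlphaBar Kbar M ℓ
          (letI := algebraAlong (heckeBetaBar Kbar M ℓ); Algebra.norm (FF M) x) =
        kFricke M ℓ hℓ hM x * (1 + cst (M * ℓ) d * z) := by
  have hwx0 : kFricke M ℓ hℓ hM x ≠ 0 := by
    intro h
    exact hx0 ((map_eq_zero_iff _ (kFricke M ℓ hℓ hM).injective).mp h)
  have hww : kFricke M ℓ hℓ hM (kFricke M ℓ hℓ hM x) = 1 + cst (M * ℓ) c * s := by
    rw [kFricke_kFricke]; exact hx
  obtain ⟨z, hz, h⟩ := h71p_depth_alpha A M ℓ hℓ hM hA (kFricke M ℓ hℓ hM x) hwx0 c hc s hs hww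
    d hd hd1 hd2
  refine ⟨z, hz, ?_⟩
  rw [h71n_norm_beta_eq M ℓ hℓ hM x]
  exact h

/-- **DEPTH, along `β`, at `W_0`**: `β (Nm_β x) = x (1 + d · w z)` with `z ∈ W_∞`. -/
theorem h71p_depth_beta' (hℓ : ℓ.Prime) (hM : ¬ ℓ ∣ M) (hA : A.LiesOverPrime ℓ)
    (x : FF (M * ℓ)) (hx0 : x ≠ 0) (c : Kbar) (hc : c ∈ A)
    (s : FF (M * ℓ)) (hs : s ∈ softV A (M * ℓ))
    (hx : x = 1 + cst (M * ℓ) c * s)
    (d : Kbar) (hd : d ≠ 0) (hd1 : c * ℓ * d⁻¹ ∈ A) (hd2 : c ^ 2 * d⁻¹ ∈ A) :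
    ∃ z ∈ softV A (M * ℓ),
      heckeBetaBar Kbar M ℓ
          (letI := algebraAlong (heckeBetaBar Kbar M ℓ); Algebra.norm (FF M) x) =
        x * (1 + cst (M * ℓ) d * kFricke M ℓ hℓ hM z) := by
  obtain ⟨z, hz, h⟩ := h71p_depth_beta A M ℓ hℓ hM hA x hx0 c hc s hs hx d hd hd1 hd2
  refine ⟨z, hz, ?_⟩
  have h1 := congrArg (kFricke M ℓ hℓ hM) h
  rw [kFricke_alpha, map_mul, kFricke_kFricke, map_add, map_one, map_mul] at h1
  rw [h1]
  congr 3
  exact (kFricke M ℓ hℓ hM).commutes d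

/-- **DEPTH, along `α`, at `W_0`-form of the hypothesis**: the same statement as
`h71p_depth_alpha`, with the conclusion transported by `w`:
`β (Nm_α x) = (w x) (1 + d · w z)`. -/
theorem h71p_depth_alpha' (hℓ : ℓ.Prime) (hM : ¬ ℓ ∣ M) (hA : A.LiesOverPrime ℓ)
    (x : FF (M * ℓ)) (hx0 : x ≠ 0) (c : Kbar) (hc : c ∈ A)
    (s : FF (M * ℓ)) (hs : s ∈ softV A (M * ℓ))
    (hw : kFricke M ℓ hℓ hM x = 1 + cst (M * ℓ) c * s)
    (d : Kbar) (hd : d ≠ 0) (hd1 : c * ℓ * d⁻¹ ∈ A) (hd2 : c ^ 2 * d⁻¹ ∈ A) :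
    ∃ z ∈ softV A (M * ℓ),
      heckeBetaBar Kbar M ℓ
          (letI := algebraAlong (heckeAlphaBar Kbar M ℓ); Algebra.norm (FF M) x) =
        kFricke M ℓ hℓ hM x * (1 + cst (M * ℓ) d * kFricke M ℓ hℓ hM z) := by
  obtain ⟨z, hz, h⟩ := h71p_depth_alpha A M ℓ hℓ hM hA x hx0 c hc s hs hw d hd hd1 hd2
  refine ⟨z, hz, ?_⟩
  have h1 := congrArg (kFricke M ℓ hℓ hM) h
  rw [kFricke_alpha, map_mul, map_add, map_one, map_mul] at h1
  rw [h1]
  congr 3
  exact (kFricke M ℓ hℓ hM).commutes d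

end Func

end Fermat.Agent.P6
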