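import Fermat.Agent.P6.H71Ladder

/-!
# P6 (wave 6, S33), block B2 (1), leaf GLUE (helper71): weak approximation at `W_∞`, `W_0`

`h71g_glue : H71Glue` : representatives of every depth at `W_∞` and at `W_0` give one
representative of every depth at both: `w / h^r ∈ 1 + e ssV`.

* `h71g_cong_mul`, `h71g_cong_inv`, `h71g_cong_pow` : `1 + e W` is a group (`e ∈ 𝔪_A`).
* `h71g_exists_scale` : every function is `c⁻¹` times a Gauss-integral function, `c ∈ A`,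
  `c ≠ 0`.
* `h71g_partition_deep` : partition of unity of every depth: `E = 1 + δ z`, `w E = δ z'`.
-/

set_option autoImplicit false
set_option linter.style.haveILetI false
set_option linter.unusedSectionVars false
set_option synthInstance.maxHeartbeats 400000

open AlgebraicCurve ModularCurve IsLocalRing

noncomputable section

namespace Fermat.Agent.P6

open Fermat.Agent.Red.GV Fermat.Agent.Red.GV.Soft Fermat.Agent.Red.Kron Fermat.Agent.LGC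
  Fermat.Agent.S37 Fermat.Agent.Red Fermat.Agent.Red.KR

section Group

variable (A : ValuationSubring Kbar) (N : ℕ) [NeZero N]

theorem h71g_cst_mul (a b : Kbar) : cst N (a * b) = cst N a * cst N b :=
  map_mul (algebraMap Kbar (FF N)) a b

theorem h71g_cst_ne_zero {a : Kbar} (ha : a ≠ 0) : cst N a ≠ 0 := by
  rw [Ne, map_eq_zero_iff _ (algebraMap Kbar (FF N)).injective]
  exact ha

theorem h71g_cong_one (e : Kbar) : H71Cong A N e 1 :=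
  ⟨0, zero_mem _, by rw [mul_zero, add_zero]⟩

theorem h71g_cong_mul {e : Kbar} (he : e ∈ A) {x y : FF N} (hx : H71Cong A N e x)
    (hy : H71Cong A N e y) : H71Cong A N e (x * y) := by
  obtain ⟨z, hz, rfl⟩ := hx
  obtain ⟨z', hz', rfl⟩ := hy
  have hc : cst N e ∈ softV A N := (cst_mem_softV_iff A N e).mpr he
  exact ⟨z + z' + cst N e * z * z', add_mem (add_mem hz hz') (mul_mem (mul_mem hc hz) hz'),
    by ring⟩

theorem h71g_cong_pow {e : Kbar} (he : e ∈ A) {x : FF N} (hx : H71Cong A N e x) (k : ℕ) :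
    H71Cong A N e (x ^ k) := by
  induction k with
  | zero => rw [pow_zero]; exact h71g_cong_one A N e
  | succ k ih => rw [pow_succ]; exact h71g_cong_mul A N he ih hx

theorem h71g_cong_inv {e : Kbar} (he : e ∈ A.nonunits) {x : FF N} (hx : H71Cong A N e x) :
    H71Cong A N e x⁻¹ := by
  obtain ⟨z, hz, rfl⟩ := hx
  obtain ⟨-, z', hz', h⟩ := h71u_one_add_inv A N he hz
  exact ⟨z', hz', h⟩

theorem h71g_cong_ne_zero {e : Kbar} (he : e ∈ A.nonunits) {x : FF N} (hx : H71Cong A N e x) :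
    x ≠ 0 := by
  obtain ⟨z, hz, rfl⟩ := hx
  exact (h71u_one_add_inv A N he hz).1

/-- `1 + e z` with `z ∈ W`. -/
theorem h71g_cong_of_mem {e : Kbar} {z : FF N} (hz : z ∈ softV A N) :
    H71Cong A N e (1 + cst N e * z) := ⟨z, hz, rfl⟩

/-- every function is `c⁻¹` times a Gauss-integral function with `c ∈ A`, `c ≠ 0`. -/
theorem h71g_exists_scale {ℓ : ℕ} (hℓ : ℓ.Prime) (hA : A.LiesOverPrime ℓ) (y : FF N) :
    ∃ c : Kbar, c ∈ A ∧ c ≠ 0 ∧ cst N c * y ∈ softV A N := by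
  by_cases hy : y = 0
  · exact ⟨1, A.one_mem, one_ne_zero, by rw [hy, mul_zero]; exact zero_mem _⟩
  obtain ⟨c, hc0, hu, -⟩ := exists_cst_mul_unit_soft A N hℓ hA y hy
  rcases A.mem_or_inv_mem c with hc | hc
  · exact ⟨c, hc, hc0, hu⟩
  · refine ⟨1, A.one_mem, one_ne_zero, ?_⟩
    have e : cst N 1 * y = cst N c⁻¹ * (cst N c * y) := by
      rw [← mul_assoc, ← h71g_cst_mul, inv_mul_cancel₀ hc0]
    rw [e]
    exact mul_mem ((cst_mem_softV_iff A N _).mpr hc) hu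

end Group

section PU

variable (A : ValuationSubring Kbar) (M ℓ : ℕ) [NeZero M] [NeZero ℓ]

/-- `(1 + x)^m = 1 + x k` with `k` in the subring of `x`. -/
theorem h71g_one_add_pow {R : Type*} [CommRing R] (S : Subring R) {x : R} (hx : x ∈ S)
    (m : ℕ) : ∃ k ∈ S, (1 + x) ^ m = 1 + x * k := by
  induction m with
  | zero => exact ⟨0, S.zero_mem, by simp⟩
  | succ m ih =>
    obtain ⟨k, hk, h⟩ := ih
    exact ⟨k + 1 + x * k, S.add_mem (S.add_mem hk S.one_mem) (S.mul_mem hx hk), by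
      rw [pow_succ, h]; ring⟩

/-- **partition of unity of every depth.** -/
theorem h71g_partition_deep (hℓ : ℓ.Prime) (hM : ¬ ℓ ∣ M) (hA : A.LiesOverPrime ℓ)
    {δ : Kbar} (hδ : δ ≠ 0) :
    ∃ E z z' : FF (M * ℓ), z ∈ softV A (M * ℓ) ∧ z' ∈ softV A (M * ℓ) ∧
      E = 1 + cst (M * ℓ) δ * z ∧ kFricke M ℓ hℓ hM E = cst (M * ℓ) δ * z' := by
  obtain ⟨π, hπ, hπ0, E₁, z₁, z₁', hz₁, hz₁', hE₁, hwE₁⟩ := h71u_partition A M ℓ hℓ hM hA
  obtain ⟨K, hK⟩ := h71l_arch A hℓ hA hπ hπ0 hδ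
  have hπA : π ∈ A := A.nonunits_le hπ
  set n : ℕ := K + 1 with hn
  have hdiv : π ^ n * δ⁻¹ ∈ A := by
    have e : π ^ n * δ⁻¹ = π * (π ^ K * δ⁻¹) := by rw [hn, pow_succ]; ring
    rw [e]
    exact A.mul_mem _ _ hπA hK
  have hcπ : cst (M * ℓ) π ∈ softV A (M * ℓ) := (cst_mem_softV_iff A (M * ℓ) π).mpr hπA
  have hcd : cst (M * ℓ) (π ^ n * δ⁻¹) ∈ softV A (M * ℓ) :=
    (cst_mem_softV_iff A (M * ℓ) _).mpr hdiv
  have hsplit : cst (M * ℓ) π ^ n = cst (M * ℓ) δ * cst (M * ℓ) (π ^ n * δ⁻¹) := by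
    rw [← h71g_cst_mul, ← mul_assoc, mul_comm δ, mul_assoc, mul_inv_cancel₀ hδ, mul_one]
    exact (map_pow (algebraMap Kbar (FF (M * ℓ))) π n).symm
  -- at `W_∞`
  obtain ⟨k, hk, hpow⟩ := h71g_one_add_pow (softV A (M * ℓ)) (mul_mem hcπ hz₁) n
  -- at `W_0`
  have hX : cst (M * ℓ) π ^ n * z₁' ^ n ∈ softV A (M * ℓ) :=
    mul_mem (pow_mem hcπ n) (pow_mem hz₁' n)
  obtain ⟨k', hk', hpow'⟩ := h71g_one_add_pow (softV A (M * ℓ)) (neg_mem hX) n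
  refine ⟨1 - (1 - E₁ ^ n) ^ n, cst (M * ℓ) (π ^ n * δ⁻¹) * (-((-(z₁ * k)) ^ n)),
    cst (M * ℓ) (π ^ n * δ⁻¹) * (z₁' ^ n * k'),
    mul_mem hcd (neg_mem (pow_mem (neg_mem (mul_mem hz₁ hk)) n)),
    mul_mem hcd (mul_mem (pow_mem hz₁' n) hk'), ?_, ?_⟩
  · rw [← mul_assoc, ← hsplit, hE₁, hpow]
    ring
  · rw [map_sub, map_one, map_pow, map_sub, map_one, map_pow, hwE₁, ← mul_assoc, ← hsplit]
    have e : (1 - (cst (M * ℓ) π * z₁') ^ n) = 1 + -(cst (M * ℓ) π ^ n * z₁' ^ n) := by ring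
    rw [e, hpow']
    ring

/-- **GLUE.** -/
theorem h71g_glue : H71Glue := by
  intro ℓ hℓ M _ hM
  haveI : NeZero ℓ := ⟨hℓ.ne_zero⟩
  intro A hA r hr w hw hall e he he0
  have heA : e ∈ A := A.nonunits_le he
  obtain ⟨⟨a, ha0, hca⟩, ⟨b, hb0, hcb⟩⟩ := hall e he he0
  obtain ⟨c₁, hc₁, hc₁0, hs₁⟩ := h71g_exists_scale A (M * ℓ) hℓ hA (b * a⁻¹ - 1)
  obtain ⟨c₂, hc₂, hc₂0, hs₂⟩ := h71g_exists_scale A (M * ℓ) hℓ hA
    (kFricke M ℓ hℓ hM (a * b⁻¹ - 1))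
  have hδ0 : e * c₁ * c₂ ≠ 0 := mul_ne_zero (mul_ne_zero he0 hc₁0) hc₂0
  obtain ⟨E, z, z', hz, hz', hE, hwE⟩ := h71g_partition_deep A M ℓ hℓ hM hA hδ0
  have hcδ : cst (M * ℓ) (e * c₁ * c₂) = cst (M * ℓ) e * cst (M * ℓ) c₁ * cst (M * ℓ) c₂ := by
    rw [h71g_cst_mul, h71g_cst_mul]
  have hcc₁ : cst (M * ℓ) c₁ ∈ softV A (M * ℓ) := (cst_mem_softV_iff A (M * ℓ) c₁).mpr hc₁
  have hcc₂ : cst (M * ℓ) c₂ ∈ softV A (M * ℓ) := (cst_mem_softV_iff A (M * ℓ) c₂).mpr hc₂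
  obtain ⟨h, hh⟩ : ∃ h : FF (M * ℓ), h = E * a + (1 - E) * b := ⟨_, rfl⟩
  -- at `W_∞`
  have hU1 : H71Cong A (M * ℓ) e (h * a⁻¹) := by
    refine ⟨-(cst (M * ℓ) c₂ * z) * (cst (M * ℓ) c₁ * (b * a⁻¹ - 1)),
      mul_mem (neg_mem (mul_mem hcc₂ hz)) hs₁, ?_⟩
    rw [hh, hE, hcδ]
    field_simp
    ring
  -- at `W_0`
  have hU2 : H71Cong A (M * ℓ) e (kFricke M ℓ hℓ hM (h * b⁻¹)) := by
    refine ⟨(cst (M * ℓ) c₁ * z') * (cst (M * ℓ) c₂ * kFricke M ℓ hℓ hM (a * b⁻¹ - 1)),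
      mul_mem (mul_mem hcc₁ hz') hs₂, ?_⟩
    have e1 : h * b⁻¹ = 1 + E * (a * b⁻¹ - 1) := by
      rw [hh]
      field_simp
      ring
    rw [e1, map_add, map_one, map_mul, hwE, hcδ]
    ring
  have hh0 : h ≠ 0 := by
    intro h0
    have := h71g_cong_ne_zero A (M * ℓ) he hU1
    rw [h0, zero_mul] at this
    exact this rfl
  have hW1 : H71Cong A (M * ℓ) e (w * (h ^ r)⁻¹) := by
    have e1 : w * (h ^ r)⁻¹ = w * (a ^ r)⁻¹ * ((h * a⁻¹) ^ r)⁻¹ := by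
      rw [mul_pow, inv_pow a]
      field_simp
    rw [e1]
    exact h71g_cong_mul A (M * ℓ) heA hca
      (h71g_cong_inv A (M * ℓ) he (h71g_cong_pow A (M * ℓ) heA hU1 r))
  have hW2 : H71Cong A (M * ℓ) e (kFricke M ℓ hℓ hM (w * (h ^ r)⁻¹)) := by
    have e1 : kFricke M ℓ hℓ hM (w * (h ^ r)⁻¹) =
        kFricke M ℓ hℓ hM (w * (b ^ r)⁻¹) * ((kFricke M ℓ hℓ hM (h * b⁻¹)) ^ r)⁻¹ := by
      rw [← map_pow, ← map_inv₀, ← map_mul]
      congr 1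
      rw [mul_pow, inv_pow b]
      field_simp
    rw [e1]
    exact h71g_cong_mul A (M * ℓ) heA hcb
      (h71g_cong_inv A (M * ℓ) he (h71g_cong_pow A (M * ℓ) heA hU2 r))
  obtain ⟨Z₁, hZ₁, e₁⟩ := hW1
  obtain ⟨Z₂, hZ₂, e₂⟩ := hW2
  have hZ : kFricke M ℓ hℓ hM Z₁ = Z₂ := by
    have h1 := congrArg (kFricke M ℓ hℓ hM) e₁
    rw [e₂, map_add, map_one, map_mul] at h1
    have h2 : kFricke M ℓ hℓ hM (cst (M * ℓ) e) = cst (M * ℓ) e :=
      (kFricke M ℓ hℓ hM).commutes e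
    rw [h2] at h1
    have h3 : cst (M * ℓ) e * Z₂ = cst (M * ℓ) e * kFricke M ℓ hℓ hM Z₁ := add_left_cancel h1
    exact (mul_left_cancel₀ (h71g_cst_ne_zero (M * ℓ) he0) h3).symm
  refine ⟨h, hh0, Z₁, (h44r_mem_ssV_iff A M ℓ hℓ hM hA Z₁).mpr ⟨hZ₁, ?_⟩, e₁⟩
  rw [hZ]
  exact hZ₂

end PU

end Fermat.Agent.P6
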