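import Fermat.Agent.P6.H71NewIface

/-!
# P6 (wave 6, S33), block B2 (1), leaf LADDER (helper71)

`h71l_ladder : H71Ladder` : if the norms of `w` along `α` and `β` are `r`-th powers and
`w / g^r ∈ 1 + π₀ W_∞` for one nonzero `π₀ ∈ 𝔪_A`, then for every nonzero `e ∈ 𝔪_A` there are
representatives `w / g^r ∈ 1 + e W_∞` and `w (w / g'^r) ∈ 1 + e W_∞`.

* `h71l_step_alpha` : depth `c` at `W_0`  `⟹`  depth `d` at `W_∞`, `d ∣ c ℓ`, `d ∣ c²`.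
* `h71l_step_beta` : depth `c` at `W_∞`  `⟹`  depth `d` at `W_0`.
-/

set_option autoImplicit false
set_option linter.style.haveILetI false
set_option linter.unusedSectionVars false
set_option synthInstance.maxHeartbeats 400000

open AlgebraicCurve ModularCurve IsLocalRing

noncomputable section

namespace Fermat.Agent.P6

open Fermat.Agent.Red.GV Fermat.Agent.Red.GV.Soft Fermat.Agent.Red.Kron Fermat.Agent.LGC
  Fermat.Agent.S37 Fermat.Agent.Red Fermat.Agent.Red.KR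

section Aux

/-- a multiple of a non-unit is a non-unit. -/
theorem h71l_mul_mem_nonunits (A : ValuationSubring Kbar) {a x : Kbar} (ha : a ∈ A)
    (hx : x ∈ A.nonunits) : a * x ∈ A.nonunits := by
  rw [ValuationSubring.mem_nonunits_iff] at hx ⊢
  rw [map_mul]
  exact mul_lt_one_of_nonneg_of_lt_one_right ((A.valuation_le_one_iff a).mpr ha) zero_le hx

/-- a positive power of a non-unit is a non-unit. -/
theorem h71l_pow_mem_nonunits (A : ValuationSubring Kbar) {x : Kbar} (hx : x ∈ A.nonunits)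
    (k : ℕ) : x ^ (k + 1) ∈ A.nonunits := by
  have hxA : x ∈ A := A.nonunits_le hx
  rw [pow_succ]
  exact h71l_mul_mem_nonunits A (pow_mem hxA k) hx

/-- the norm of a power. -/
theorem h71l_normAlong_pow {K F F' : Type*} [Field K] [Field F] [Field F'] [Algebra K F]
    [Algebra K F'] (φ : F →ₐ[K] F') (y : F') (r : ℕ) :
    normAlong φ (y ^ r) = normAlong φ y ^ r := by
  letI := algebraAlong φ
  exact map_pow (Algebra.norm F) y r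

/-- the norm of a nonzero element is nonzero. -/
theorem h71l_normAlong_ne_zero {K F F' : Type*} [Field K] [Field F] [Field F'] [Algebra K F]
    [Algebra K F'] (φ : F →ₐ[K] F') (hfin : FiniteAlong K φ) {y : F'} (hy : y ≠ 0) :
    normAlong φ y ≠ 0 := by
  letI := algebraAlong φ
  haveI : Module.Finite F F' := hfin
  exact Algebra.norm_ne_zero_iff.mpr hy

/-- the norm of `w / g^r` is an `r`-th power of a nonzero element if the norm of `w` is an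
`r`-th power. -/
theorem h71l_norm_quot {K F F' : Type*} [Field K] [Field F] [Field F'] [Algebra K F]
    [Algebra K F'] (φ : F →ₐ[K] F') (hfin : FiniteAlong K φ) (r : ℕ) (hr : 0 < r)
    {w g : F'} (hw : w ≠ 0) (hg : g ≠ 0) (h : ∃ h : F, normAlong φ w = h ^ r) :
    ∃ H : F, H ≠ 0 ∧ normAlong φ (w * (g ^ r)⁻¹) = H ^ r := by
  obtain ⟨h, hh⟩ := h
  have hg0 := h71l_normAlong_ne_zero φ hfin hg
  have hx0 : w * (g ^ r)⁻¹ ≠ 0 := mul_ne_zero hw (inv_ne_zero (pow_ne_zero r hg))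
  have hx := h71l_normAlong_ne_zero φ hfin hx0
  have e1 : normAlong φ (w * (g ^ r)⁻¹) * normAlong φ g ^ r = h ^ r := by
    rw [← h71l_normAlong_pow, ← normAlong_mul, mul_assoc, inv_mul_cancel₀ (pow_ne_zero r hg),
      mul_one, hh]
  have e2 : normAlong φ (w * (g ^ r)⁻¹) = (h / normAlong φ g) ^ r := by
    rw [div_pow, eq_div_iff (pow_ne_zero r hg0), e1]
  refine ⟨h / normAlong φ g, ?_, e2⟩
  rintro h0
  rw [h0, zero_pow hr.ne'] at e2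
  exact hx e2

end Aux

section Steps

variable (A : ValuationSubring Kbar) (M ℓ : ℕ) [NeZero M] [NeZero ℓ]

/-- a congruence to the depth `π` is a congruence to every depth dividing `π`. -/
theorem h71l_cong_mono {N : ℕ} {π π' a : Kbar} (ha : a ∈ A) (hπ : π = π' * a)
    {x : FF N} (hx : H71Cong A N π x) : H71Cong A N π' x := by
  obtain ⟨z, hz, rfl⟩ := hx
  refine ⟨cst N a * z, mul_mem ((cst_mem_softV_iff A N a).mpr ha) hz, ?_⟩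
  rw [hπ, show cst N (π' * a) = cst N π' * cst N a from map_mul (algebraMap Kbar (FF N)) π' a,
    mul_assoc]

/-- **step along `α`**: depth `c` at `W_0` gives depth `d` at `W_∞`. -/
theorem h71l_step_alpha (hℓ : ℓ.Prime) (hM : ¬ ℓ ∣ M) (hA : A.LiesOverPrime ℓ) (r : ℕ)
    (hr : 0 < r) (w : FF (M * ℓ)) (hw : w ≠ 0)
    (hα : ∃ h : FF M, normAlong (heckeAlphaBar Kbar M ℓ) w = h ^ r)
    {c d : Kbar} (hc : c ∈ A) (hd : d ∈ A.nonunits) (hd0 : d ≠ 0) (hd1 : c * ℓ * d⁻¹ ∈ A)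
    (hd2 : c ^ 2 * d⁻¹ ∈ A)
    (h0 : ∃ g : FF (M * ℓ), g ≠ 0 ∧ H71Cong A (M * ℓ) c (kFricke M ℓ hℓ hM (w * (g ^ r)⁻¹))) :
    ∃ g : FF (M * ℓ), g ≠ 0 ∧ H71Cong A (M * ℓ) d (w * (g ^ r)⁻¹) := by
  obtain ⟨g, hg, z, hz, hx⟩ := h0
  have hx0 : w * (g ^ r)⁻¹ ≠ 0 := mul_ne_zero hw (inv_ne_zero (pow_ne_zero r hg))
  obtain ⟨z', hz', e⟩ := h71p_depth_alpha A M ℓ hℓ hM hA (w * (g ^ r)⁻¹) hx0 c hc z hz hx d hd0
    hd1 hd2
  obtain ⟨H, hH0, hH⟩ := h71l_norm_quot (heckeAlphaBar Kbar M ℓ)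
    (Fermat.Agent.Red.HKMod.finiteAlong_heckeAlphaBar M ℓ) r hr hw hg hα
  have e' : heckeAlphaBar Kbar M ℓ (normAlong (heckeAlphaBar Kbar M ℓ) (w * (g ^ r)⁻¹)) =
      w * (g ^ r)⁻¹ * (1 + cst (M * ℓ) d * z') := e
  rw [hH, map_pow] at e'
  obtain ⟨hu0, z'', hz'', hinv⟩ := h71u_one_add_inv A (M * ℓ) hd hz'
  have hαH : heckeAlphaBar Kbar M ℓ H ≠ 0 :=
    (map_ne_zero_iff _ (heckeAlphaBar Kbar M ℓ).injective).mpr hH0
  refine ⟨g * heckeAlphaBar Kbar M ℓ H, mul_ne_zero hg hαH, z'', hz'', ?_⟩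
  rw [← hinv, mul_pow, mul_inv, ← mul_assoc, e']
  field_simp

/-- **step along `β`**: depth `c` at `W_∞` gives depth `d` at `W_0`. -/
theorem h71l_step_beta (hℓ : ℓ.Prime) (hM : ¬ ℓ ∣ M) (hA : A.LiesOverPrime ℓ) (r : ℕ)
    (hr : 0 < r) (w : FF (M * ℓ)) (hw : w ≠ 0)
    (hβ : ∃ h : FF M, normAlong (heckeBetaBar Kbar M ℓ) w = h ^ r)
    {c d : Kbar} (hc : c ∈ A) (hd : d ∈ A.nonunits) (hd0 : d ≠ 0) (hd1 : c * ℓ * d⁻¹ ∈ A)
    (hd2 : c ^ 2 * d⁻¹ ∈ A)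
    (h0 : ∃ g : FF (M * ℓ), g ≠ 0 ∧ H71Cong A (M * ℓ) c (w * (g ^ r)⁻¹)) :
    ∃ g : FF (M * ℓ), g ≠ 0 ∧
      H71Cong A (M * ℓ) d (kFricke M ℓ hℓ hM (w * (g ^ r)⁻¹)) := by
  obtain ⟨g, hg, z, hz, hx⟩ := h0
  have hx0 : w * (g ^ r)⁻¹ ≠ 0 := mul_ne_zero hw (inv_ne_zero (pow_ne_zero r hg))
  obtain ⟨z', hz', e⟩ := h71p_depth_beta A M ℓ hℓ hM hA (w * (g ^ r)⁻¹) hx0 c hc z hz hx d hd0
    hd1 hd2
  obtain ⟨H, hH0, hH⟩ := h71l_norm_quot (heckeBetaBar Kbar M ℓ)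
    (Fermat.Agent.Red.HKMod.finiteAlong_heckeBetaBar M ℓ) r hr hw hg hβ
  have e' : heckeAlphaBar Kbar M ℓ (normAlong (heckeBetaBar Kbar M ℓ) (w * (g ^ r)⁻¹)) =
      kFricke M ℓ hℓ hM (w * (g ^ r)⁻¹) * (1 + cst (M * ℓ) d * z') := e
  rw [hH, map_pow] at e'
  obtain ⟨hu0, z'', hz'', hinv⟩ := h71u_one_add_inv A (M * ℓ) hd hz'
  have hαH : heckeAlphaBar Kbar M ℓ H ≠ 0 :=
    (map_ne_zero_iff _ (heckeAlphaBar Kbar M ℓ).injective).mpr hH0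
  have hβH : heckeBetaBar Kbar M ℓ H ≠ 0 :=
    (map_ne_zero_iff _ (heckeBetaBar Kbar M ℓ).injective).mpr hH0
  refine ⟨g * heckeBetaBar Kbar M ℓ H, mul_ne_zero hg hβH, z'', hz'', ?_⟩
  have e1 : kFricke M ℓ hℓ hM (w * ((g * heckeBetaBar Kbar M ℓ H) ^ r)⁻¹) =
      kFricke M ℓ hℓ hM (w * (g ^ r)⁻¹) * (heckeAlphaBar Kbar M ℓ H ^ r)⁻¹ := by
    rw [mul_pow, mul_inv, ← mul_assoc, map_mul, map_inv₀, map_pow, kFricke_beta]
  have hk0 : kFricke M ℓ hℓ hM (w * (g ^ r)⁻¹) ≠ 0 :=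
    (map_ne_zero_iff _ (kFricke M ℓ hℓ hM).injective).mpr hx0
  rw [e1, ← hinv, e', mul_inv, ← mul_assoc, mul_inv_cancel₀ hk0, one_mul]

/-- rank one: a power of a nonzero non-unit is divisible by any given nonzero constant. -/
theorem h71l_arch {ℓ' : ℕ} (hℓ : ℓ'.Prime) (hA : A.LiesOverPrime ℓ') {e₀ e : Kbar}
    (he₀ : e₀ ∈ A.nonunits) (he₀0 : e₀ ≠ 0) (he0 : e ≠ 0) : ∃ k : ℕ, e₀ ^ k * e⁻¹ ∈ A := by
  obtain ⟨v, -, hv1, hv2, -⟩ := Fermat.Agent.S05.exists_realOrd' A hℓ hA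
  have hcpos : 0 < v.ord e₀ := (hv2 _ he₀0).mp he₀
  obtain ⟨k, hk⟩ := Archimedean.arch (v.ord e) hcpos
  refine ⟨k, ?_⟩
  have hx0 : e₀ ^ k * e⁻¹ ≠ 0 := mul_ne_zero (pow_ne_zero _ he₀0) (inv_ne_zero he0)
  rw [hv1 _ hx0, v.ord_mul (pow_ne_zero _ he₀0) (inv_ne_zero he0), v.ord_pow he₀0,
    v.ord_inv he0]
  rw [nsmul_eq_mul] at hk
  linarith

/-- **LADDER.** -/
theorem h71l_ladder : H71Ladder := by
  intro ℓ hℓ M _ hM
  haveI : NeZero ℓ := ⟨hℓ.ne_zero⟩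
  rintro A hA r hr w hw hα hβ ⟨π₀, hπ₀, hπ₀0, hstart⟩
  have hℓA : (ℓ : Kbar) ∈ A.nonunits := hA
  have hℓ0 : (ℓ : Kbar) ≠ 0 := by exact_mod_cast hℓ.ne_zero
  obtain ⟨e₀, he₀, he₀0, hℓe, hπe⟩ : ∃ e₀ : Kbar, e₀ ∈ A.nonunits ∧ e₀ ≠ 0 ∧
      (ℓ : Kbar) * e₀⁻¹ ∈ A ∧ π₀ * e₀⁻¹ ∈ A := by
    rcases A.mem_or_inv_mem (π₀ * (ℓ : Kbar)⁻¹) with h | h
    · exact ⟨ℓ, hℓA, hℓ0, by rw [mul_inv_cancel₀ hℓ0]; exact A.one_mem, h⟩
    · refine ⟨π₀, hπ₀, hπ₀0, ?_, by rw [mul_inv_cancel₀ hπ₀0]; exact A.one_mem⟩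
      have e : (ℓ : Kbar) * π₀⁻¹ = (π₀ * (ℓ : Kbar)⁻¹)⁻¹ := by
        rw [mul_inv, inv_inv, mul_comm]
      rw [e]
      exact h
  have he₀A : e₀ ∈ A := A.nonunits_le he₀
  have hQ : ∀ k : ℕ,
      (∃ g : FF (M * ℓ), g ≠ 0 ∧ H71Cong A (M * ℓ) (e₀ ^ (k + 1)) (w * (g ^ r)⁻¹)) ∧
      (∃ g : FF (M * ℓ), g ≠ 0 ∧
        H71Cong A (M * ℓ) (e₀ ^ (k + 1)) (kFricke M ℓ hℓ hM (w * (g ^ r)⁻¹))) := by
    intro k
    induction k with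
    | zero =>
      have h1 : ∃ g : FF (M * ℓ), g ≠ 0 ∧ H71Cong A (M * ℓ) (e₀ ^ (0 + 1)) (w * (g ^ r)⁻¹) := by
        obtain ⟨g, hg, hc⟩ := hstart
        refine ⟨g, hg, h71l_cong_mono A hπe ?_ hc⟩
        rw [zero_add, pow_one, mul_comm, mul_assoc, inv_mul_cancel₀ he₀0, mul_one]
      refine ⟨h1, ?_⟩
      refine h71l_step_beta A M ℓ hℓ hM hA r hr w hw hβ (c := e₀ ^ (0 + 1)) (d := e₀ ^ (0 + 1))
        (pow_mem he₀A _) (h71l_pow_mem_nonunits A he₀ 0) (pow_ne_zero _ he₀0) ?_ ?_ h1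
      · have e : e₀ ^ (0 + 1) * (ℓ : Kbar) * (e₀ ^ (0 + 1))⁻¹ = ℓ := by
          rw [zero_add, pow_one, mul_comm e₀, mul_assoc, mul_inv_cancel₀ he₀0, mul_one]
        rw [e]
        exact A.nonunits_le hℓA
      · have e : (e₀ ^ (0 + 1)) ^ 2 * (e₀ ^ (0 + 1))⁻¹ = e₀ := by
          rw [zero_add, pow_one, sq, mul_assoc, mul_inv_cancel₀ he₀0, mul_one]
        rw [e]
        exact he₀A
    | succ k ih =>
      obtain ⟨hinf, h0⟩ := ih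
      have hd1 : e₀ ^ (k + 1) * (ℓ : Kbar) * (e₀ ^ (k + 1 + 1))⁻¹ ∈ A := by
        have e : e₀ ^ (k + 1) * (ℓ : Kbar) * (e₀ ^ (k + 1 + 1))⁻¹ = (ℓ : Kbar) * e₀⁻¹ := by
          field_simp
          ring
        rw [e]
        exact hℓe
      have hd2 : (e₀ ^ (k + 1)) ^ 2 * (e₀ ^ (k + 1 + 1))⁻¹ ∈ A := by
        have e : (e₀ ^ (k + 1)) ^ 2 * (e₀ ^ (k + 1 + 1))⁻¹ = e₀ ^ k := by
          field_simp
          ring
        rw [e]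
        exact pow_mem he₀A k
      exact ⟨h71l_step_alpha A M ℓ hℓ hM hA r hr w hw hα (pow_mem he₀A _)
          (h71l_pow_mem_nonunits A he₀ (k + 1)) (pow_ne_zero _ he₀0) hd1 hd2 h0,
        h71l_step_beta A M ℓ hℓ hM hA r hr w hw hβ (pow_mem he₀A _)
          (h71l_pow_mem_nonunits A he₀ (k + 1)) (pow_ne_zero _ he₀0) hd1 hd2 hinf⟩
  intro e he he0
  obtain ⟨k, hk⟩ := h71l_arch A hℓ hA he₀ he₀0 he0
  have hk' : e₀ ^ (k + 1) = e * (e₀ * (e₀ ^ k * e⁻¹)) := by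
    field_simp
    ring
  have hmem : e₀ * (e₀ ^ k * e⁻¹) ∈ A := A.mul_mem _ _ he₀A hk
  obtain ⟨⟨g, hg, hc⟩, ⟨g', hg', hc'⟩⟩ := hQ k
  exact ⟨⟨g, hg, h71l_cong_mono A hmem hk' hc⟩, ⟨g', hg', h71l_cong_mono A hmem hk' hc'⟩⟩

end Steps

end Fermat.Agent.P6
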