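import Fermat.Agent.P6.H71Start
import Fermat.Agent.P6.H71Ladder
import Fermat.Agent.P6.H71Glue

/-!
# P6 (wave 6, S33), block B2 (1): NEW-DEPTH, unconditional (helper71)

`h71n_newDepth : H71NewDepth` : `ℓ ∤ M` prime, `A` over `ℓ`, `σ` in the inertia group of `A`,
`r > 0`, `u ≠ 0` of level `M ℓ` whose norms along `α` and `β` are `r`-th powers.  Then
`σ u / u` is `TorDeep`: for EVERY nonzero `π ∈ 𝔪_A` there are `c ≠ 0`, `h ≠ 0` with
`c · (σ u / u) / h^r ∈ 1 + π ssV`, `ssV = W_∞ ∩ W_0`.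
-/

set_option autoImplicit false

namespace Fermat.Agent.P6

/-- **NEW-DEPTH.** -/
theorem h71n_newDepth : H71NewDepth :=
  h71n_newDepth_of h71s_start h71l_ladder h71g_glue

end Fermat.Agent.P6
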