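import Fermat.Agent.P6.H71Depth

/-!
# P6 (wave 6, S33), row B2-PU-FF (helper71): depth of a reduction-zero function, partition of unity

`ℓ ∤ M` prime, `A` a valuation subring of `ℚ̄` over `ℓ`, `W_∞ = softV A (Mℓ)`, `w = kFricke`,
`W_0 = w (W_∞)`.

* `h71u_exists_depth` : a Gauss-integral function with reduction `0` is `π z` with `π ∈ 𝔪_A`
  nonzero and `z` Gauss-integral (every congruence modulo `𝔪_A W` has a positive depth).
* `h71u_depth_mono` : `x ∈ π W`, `π = π' a`, `a ∈ A`  `⟹`  `x ∈ π' W`.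
* `h71u_one_add_inv` : `(1 + π z)⁻¹ = 1 + π z'` for `π ∈ 𝔪_A`, `z ∈ W`.
* `h71u_partition` : **partition of unity** at the two Gauss valuations: there are
  `π ∈ 𝔪_A`, `π ≠ 0`, and `E ∈ W_∞ ∩ W_0` with `E - 1 ∈ π W_∞` and `w E ∈ π W_∞`
  (hypothesis (E) of the depth iteration).
-/

set_option autoImplicit false
set_option linter.style.haveILetI false
set_option linter.unusedSectionVars false
set_option synthInstance.maxHeartbeats 400000

open AlgebraicCurve ModularCurve IsLocalRing Polynomial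

noncomputable section

namespace Fermat.Agent.P6

open Fermat.Agent.Red.GV Fermat.Agent.Red.GV.Soft Fermat.Agent.Red.Kron Fermat.Agent.LGC
  Fermat.Agent.S37 Fermat.Agent.Red

section Depth

variable (A : ValuationSubring Kbar) (N : ℕ) [NeZero N] {ℓ : ℕ}

/-- the inverse of a non-integral constant is a non-unit. -/
theorem h71u_inv_mem_nonunits {c : Kbar} (hc : c ∉ A) : c⁻¹ ∈ A.nonunits := by
  rw [ValuationSubring.mem_nonunits_iff_or]
  right
  rwa [inv_inv]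

/-- the reduction of a constant of `𝔪_A` is `0`. -/
theorem h71u_softR_cst_nonunit {π : Kbar} (hπ : π ∈ A.nonunits)
    (h : cst N π ∈ softV A N) : softR A N ⟨cst N π, h⟩ = 0 := by
  have hπA : π ∈ A := A.nonunits_le hπ
  have h1 := softR_cst A N (⟨π, hπA⟩ : A) h
  rw [h1, residue_eq_zero_of_nonunit A ⟨π, hπA⟩ hπ, map_zero]

/-- **positive depth**: a Gauss-integral function with reduction `0` is divisible by a nonzero
constant of `𝔪_A`. -/
theorem h71u_exists_depth (hℓ : ℓ.Prime) (hA : A.LiesOverPrime ℓ) (x : FF N)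
    (hx : x ∈ softV A N) (hr : softR A N ⟨x, hx⟩ = 0) :
    ∃ π : Kbar, π ∈ A.nonunits ∧ π ≠ 0 ∧ ∃ z ∈ softV A N, x = cst N π * z := by
  by_cases hx0 : x = 0
  · refine ⟨(ℓ : Kbar), hA, ?_, 0, zero_mem _, ?_⟩
    · exact_mod_cast hℓ.ne_zero
    · rw [hx0, mul_zero]
  obtain ⟨c, hc0, hu, hui⟩ := exists_cst_mul_unit_soft A N hℓ hA x hx0
  have hcc : cst N c⁻¹ * cst N c = 1 := by
    rw [← map_mul, inv_mul_cancel₀ hc0, map_one]
  have hxu : x = cst N c⁻¹ * (cst N c * x) := by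
    rw [← mul_assoc, hcc, one_mul]
  have hcA : c ∉ A := by
    intro hcA
    have h1 : cst N c ∈ softV A N := (cst_mem_softV_iff A N c).mpr hcA
    have h2 : x⁻¹ ∈ softV A N := by
      have e : x⁻¹ = cst N c * (cst N c * x)⁻¹ := by
        have hc' : cst N c ≠ 0 := by
          intro h0
          rw [h0, mul_zero] at hcc
          exact zero_ne_one hcc
        rw [mul_inv, ← mul_assoc, mul_inv_cancel₀ hc', one_mul]
      rw [e]
      exact mul_mem h1 hui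
    rcases (softR_eq_zero_iff A N ⟨x, hx⟩).mp hr with h | h
    · exact hx0 h
    · exact h h2
  exact ⟨c⁻¹, h71u_inv_mem_nonunits A hcA, inv_ne_zero hc0, _, hu, hxu⟩

/-- a congruence to the depth `π` is a congruence to every depth dividing `π`. -/
theorem h71u_depth_mono {π π' a : Kbar} (ha : a ∈ A) (hπ : π = π' * a) {x : FF N}
    (hx : ∃ z ∈ softV A N, x = cst N π * z) : ∃ z ∈ softV A N, x = cst N π' * z := by
  obtain ⟨z, hz, rfl⟩ := hx
  refine ⟨cst N a * z, mul_mem ((cst_mem_softV_iff A N a).mpr ha) hz, ?_⟩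
  rw [hπ, show cst N (π' * a) = cst N π' * cst N a from map_mul (algebraMap Kbar (FF N)) π' a,
    mul_assoc]

/-- `1 + π z` is a unit of the Gauss ring, with inverse `1 + π z'`. -/
theorem h71u_one_add_inv {π : Kbar} (hπ : π ∈ A.nonunits) {z : FF N} (hz : z ∈ softV A N) :
    1 + cst N π * z ≠ 0 ∧ ∃ z' ∈ softV A N, (1 + cst N π * z)⁻¹ = 1 + cst N π * z' := by
  have hπA : π ∈ A := A.nonunits_le hπ
  have hc : cst N π ∈ softV A N := (cst_mem_softV_iff A N π).mpr hπA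
  have hy : 1 + cst N π * z ∈ softV A N := add_mem (one_mem _) (mul_mem hc hz)
  have hr : softR A N ⟨_, hy⟩ = 1 := by
    have e : (⟨_, hy⟩ : softV A N) = 1 + ⟨_, hc⟩ * ⟨z, hz⟩ := rfl
    rw [e, map_add, map_one, map_mul, h71u_softR_cst_nonunit A N hπ hc, zero_mul, add_zero]
  obtain ⟨h0, hi⟩ := (softR_ne_zero_iff A N ⟨_, hy⟩).mp (by rw [hr]; exact one_ne_zero)
  refine ⟨h0, -(z * (1 + cst N π * z)⁻¹), neg_mem (mul_mem hz hi), ?_⟩
  have h0' : 1 + cst N π * z ≠ 0 := h0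
  field_simp
  ring

end Depth

section PU

variable (A : ValuationSubring Kbar) (M ℓ : ℕ) [NeZero M] [NeZero ℓ]

/-- **partition of unity** at the two Gauss valuations of level `M ℓ`: there are a nonzero
`π ∈ 𝔪_A` and `E` with `E = 1 + π z`, `w E = π z'`, `z, z' ∈ W_∞`. -/
theorem h71u_partition (hℓ : ℓ.Prime) (hM : ¬ ℓ ∣ M) (hA : A.LiesOverPrime ℓ) :
    ∃ π : Kbar, π ∈ A.nonunits ∧ π ≠ 0 ∧ ∃ E z z' : FF (M * ℓ),
      z ∈ softV A (M * ℓ) ∧ z' ∈ softV A (M * ℓ) ∧ E = 1 + cst (M * ℓ) π * z ∧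
        kFricke M ℓ hℓ hM E = cst (M * ℓ) π * z' := by
  obtain ⟨he, hwe, hre, hrwe⟩ := h44r_sep A M ℓ hℓ hM hA
  have h1 : h44r_e M ℓ - 1 ∈ softV A (M * ℓ) := sub_mem he (one_mem _)
  have hr1 : softR A (M * ℓ) ⟨_, h1⟩ = 0 := by
    have e : (⟨_, h1⟩ : softV A (M * ℓ)) = ⟨_, he⟩ - 1 := rfl
    rw [e, map_sub, map_one, hre, sub_self]
  obtain ⟨π₁, hπ₁, hπ₁0, z₁, hz₁, e₁⟩ := h71u_exists_depth A (M * ℓ) hℓ hA _ h1 hr1
  obtain ⟨π₂, hπ₂, hπ₂0, z₂, hz₂, e₂⟩ := h71u_exists_depth A (M * ℓ) hℓ hA _ hwe hrwe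
  have e₁' : h44r_e M ℓ = 1 + cst (M * ℓ) π₁ * z₁ := by rw [← e₁]; ring
  rcases A.mem_or_inv_mem (π₁ * π₂⁻¹) with h | h
  · -- `π₂ ∣ π₁`
    have hπ : π₁ = π₂ * (π₁ * π₂⁻¹) := by field_simp
    obtain ⟨z, hz, hz'⟩ := h71u_depth_mono A (M * ℓ) h hπ ⟨z₁, hz₁, e₁⟩
    exact ⟨π₂, hπ₂, hπ₂0, h44r_e M ℓ, z, z₂, hz, hz₂, by rw [← hz']; ring, e₂⟩
  · -- `π₁ ∣ π₂`
    have hπ : π₂ = π₁ * (π₁ * π₂⁻¹)⁻¹ := by field_simp
    obtain ⟨z, hz, hz'⟩ := h71u_depth_mono A (M * ℓ) h hπ ⟨z₂, hz₂, e₂⟩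
    exact ⟨π₁, hπ₁, hπ₁0, h44r_e M ℓ, z₁, z, hz₁, hz, e₁', hz'⟩

end PU

end Fermat.Agent.P6
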