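import Fermat.Agent.P6.H71NewIface

/-!
# P6 (wave 6, S33), block B2 (1), leaf START (helper71)

`h71s_start : H71Start` : for `σ` in the inertia group of `A` and `u ≠ 0` of any level `N`,
`c · σ u / u ∈ 1 + π W` for a constant `c ≠ 0` and a nonzero `π ∈ 𝔪_A`
(inertia acts trivially on the residue field of the Gauss valuation; every congruence modulo
`𝔪_A W` has a positive depth).
-/

set_option autoImplicit false
set_option linter.style.haveILetI false
set_option linter.unusedSectionVars false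

open AlgebraicCurve ModularCurve IsLocalRing

noncomputable section

namespace Fermat.Agent.P6

open Fermat.Agent.Red.GV Fermat.Agent.Red.GV.Soft Fermat.Agent.Red.Kron Fermat.Agent.LGC
  Fermat.Agent.S37 Fermat.Agent.Red Fermat.Agent.S37.GalI

/-- **START.** -/
theorem h71s_start : H71Start := by
  intro ℓ hℓ N _ A hA σ hσ u hu
  obtain ⟨c, hc, hy, hyi⟩ := exists_cst_mul_unit_soft A N hℓ hA u hu
  have hc0 : cst N c ≠ 0 := by
    rw [Ne, map_eq_zero_iff _ (algebraMap Kbar (FF N)).injective]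
    exact hc
  have hy0 : cst N c * u ≠ 0 := mul_ne_zero hc0 hu
  obtain ⟨h3, h4⟩ := h75q_congOne_of_unit A N hσ hy0 hy hyi
  have hσc : (σ : Kbar →+* Kbar) c ≠ 0 := (map_ne_zero_iff _ σ.injective).mpr hc
  have hσc0 : cst N (σ c) ≠ 0 := by
    rw [Ne, map_eq_zero_iff _ (algebraMap Kbar (FF N)).injective]
    exact hσc
  have hsm : gal N σ • (cst N c * u) = cst N (σ c) * gal N σ • u := by
    rw [smul_mul', gal_smul_cst]
  have h5 : gal N σ • (cst N c * u) / (cst N c * u) - 1 ∈ softV A N :=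
    sub_mem h3 (one_mem _)
  have h6 : softR A N ⟨_, h5⟩ = 0 := by
    have e : (⟨_, h5⟩ : softV A N) = ⟨_, h3⟩ - 1 := rfl
    rw [e, map_sub, map_one, h4, sub_self]
  obtain ⟨π, hπ, hπ0, z, hz, e⟩ := h71u_exists_depth A N hℓ hA _ h5 h6
  refine ⟨σ c / c, div_ne_zero hσc hc, π, hπ, hπ0, z, hz, ?_⟩
  have e1 : cst N (σ c / c) * (gal N σ • u / u) =
      gal N σ • (cst N c * u) / (cst N c * u) := by
    rw [hsm, cst, map_div₀]
    field_simp
  rw [e1, ← e]
  ring

end Fermat.Agent.P6
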