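import Fermat.Agent.P6.H97DevIface
import Fermat.Agent.S56F.FLA3_helper15
import Fermat.Agent.S56F.FLB8artin_helper15
import Fermat.Agent.S56F.FLB8_helper9
import Fermat.Agent.S56F.FLB123_helper38
import Fermat.Agent.S56F.FLB456_helper87
import Fermat.Agent.S56F.FLD1_helper45

/-!
# Wave 6 (S33), block B3 FLAT-ORD, leaf DUAL / MULT (helper72, prefix `h72v`)

Cartier duality for function Hopf orders, in the local language of the pillar S56F.

* `h72vActD act hact σ ψ = x ↦ σ (ψ (act σ⁻¹ x))` : the dual action of `Gq p` on the character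
  group `AddChar M (Om p)` of a finite `Gq p`-module `M`;
* `h72v_dualOrder` : over a discrete `fixInt p Γ`, a function Hopf order `𝓗` of `M` has a DUAL
  order on `AddChar M (Om p)`: the Fourier transforms `ψ ↦ ∑ x, c x * ψ x` of the `Γ`-equivariant
  `c : M → Om p` pairing `𝓗` into `fixInt p Γ`.  Algebra structure = convolution (Sweedler form of
  `𝓗`), Sweedler form = multiplication of `𝓗` in a basis (`𝓗` is free over the discrete valuation
  ring `fixInt p Γ`, and a basis of `𝓗` is a basis of all functions by Artin's lemma and Lagrange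
  interpolation);
* `h72v_mult : H97fET → H97fMult` : the leaf MULT of `P6/H97DevIface.lean`: the dual of a chain
  with cyclotomic graded pieces is a unipotent chain, so by ET the dual order has no connected
  points; inertia moves every character by a connected point, hence fixes all characters, hence
  acts on `M` through the cyclotomic character.
-/

set_option autoImplicit false

open Fermat.Agent.PT.Loc Fermat.Agent.S56F

noncomputable section

namespace Fermat.Agent.P6

/-! ## The dual action -/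

section Action

variable {p : ℕ} [Fact p.Prime] {M : Type} [AddCommGroup M] {act : Gq p → M → M}

/-- the dual action of `Gq p` on the characters of `M`. -/
def h72vActD (act : Gq p → M → M) (hact : IsAct act) (σ : Gq p) (ψ : AddChar M (Om p)) :
    AddChar M (Om p) where
  toFun x := σ (ψ (act σ⁻¹ x))
  map_zero_eq_one' := by
    rw [h87f_act_zero hact, AddChar.map_zero_eq_one, map_one]
  map_add_eq_mul' x y := by
    rw [hact.add, AddChar.map_add_eq_mul, map_mul]

theorem h72v_actD_apply (hact : IsAct act) (σ : Gq p) (ψ : AddChar M (Om p)) (x : M) :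
    h72vActD act hact σ ψ x = σ (ψ (act σ⁻¹ x)) := rfl

theorem h72v_isAct_actD (hact : IsAct act) : IsAct (h72vActD act hact) where
  one ψ := by
    ext x
    rw [h72v_actD_apply, inv_one, hact.one]
    rfl
  mul σ τ ψ := by
    ext x
    rw [h72v_actD_apply, h72v_actD_apply, h72v_actD_apply, mul_inv_rev, hact.mul]
    rfl
  add σ ψ φ := by
    ext x
    rw [h72v_actD_apply, AddChar.add_apply, AddChar.add_apply, map_mul]
    rfl

theorem h72v_act_inv_act (hact : IsAct act) (σ : Gq p) (x : M) : act σ⁻¹ (act σ x) = x := by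
  rw [← hact.mul, inv_mul_cancel, hact.one]

theorem h72v_act_act_inv (hact : IsAct act) (σ : Gq p) (x : M) : act σ (act σ⁻¹ x) = x := by
  rw [← hact.mul, mul_inv_cancel, hact.one]

/-- `act σ` as a permutation. -/
def h72vPerm (hact : IsAct act) (σ : Gq p) : M ≃ M where
  toFun := act σ
  invFun := act σ⁻¹
  left_inv := h72v_act_inv_act hact σ
  right_inv := h72v_act_act_inv hact σ

theorem h72v_act_neg (hact : IsAct act) (σ : Gq p) (x : M) : act σ (-x) = - act σ x := by
  have h := hact.add σ x (-x)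
  rw [add_neg_cancel, h87f_act_zero hact] at h
  exact eq_neg_of_add_eq_zero_right h.symm

theorem h72v_act_sub (hact : IsAct act) (σ : Gq p) (x y : M) :
    act σ (x - y) = act σ x - act σ y := by
  rw [sub_eq_add_neg, hact.add, h72v_act_neg hact, ← sub_eq_add_neg]

theorem h72v_act_nsmul (hact : IsAct act) (σ : Gq p) (e : ℕ) (x : M) :
    act σ (e • x) = e • act σ x := by
  induction e with
  | zero => rw [zero_smul, zero_smul, h87f_act_zero hact]
  | succ n ih => rw [succ_nsmul, succ_nsmul, hact.add, ih]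

end Action

/-! ## Pairing, Fourier transform, convolution -/

section Pairing

variable {p : ℕ} [Fact p.Prime] {M : Type} [AddCommGroup M] [Fintype M]

set_option linter.unusedSectionVars false

/-- the pairing of two functions. -/
def h72vPair (c f : M → Om p) : Om p := ∑ x, c x * f x

/-- the Fourier transform of a function. -/
def h72vFT (c : M → Om p) : AddChar M (Om p) → Om p := fun ψ => ∑ x, c x * ψ x

/-- the convolution of two functions. -/
def h72vConv (c d : M → Om p) : M → Om p := fun z => ∑ x, c x * d (z - x)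

theorem h72v_ft_eq_pair (c : M → Om p) (ψ : AddChar M (Om p)) :
    h72vFT c ψ = h72vPair c (ψ : M → Om p) := rfl

theorem h72v_pair_add_left (c d f : M → Om p) :
    h72vPair (c + d) f = h72vPair c f + h72vPair d f := by
  unfold h72vPair
  rw [← Finset.sum_add_distrib]
  exact Finset.sum_congr rfl fun x _ => by rw [Pi.add_apply, add_mul]

theorem h72v_pair_smul_left (r : Om p) (c f : M → Om p) :
    h72vPair (r • c) f = r * h72vPair c f := by
  unfold h72vPair
  rw [Finset.mul_sum]
  exact Finset.sum_congr rfl fun x _ => by rw [Pi.smul_apply, smul_eq_mul, mul_assoc]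

theorem h72v_pair_sum_right {ι : Type} (s : Finset ι) (c : M → Om p) (a : ι → Om p)
    (f : ι → M → Om p) :
    h72vPair c (∑ i ∈ s, a i • f i) = ∑ i ∈ s, a i * h72vPair c (f i) := by
  unfold h72vPair
  simp only [Finset.sum_apply, Pi.smul_apply, smul_eq_mul, Finset.mul_sum]
  rw [Finset.sum_comm]
  exact Finset.sum_congr rfl fun i _ => Finset.sum_congr rfl fun x _ => by ring

theorem h72v_pair_sum_left {ι : Type} (s : Finset ι) (a : ι → Om p) (c : ι → M → Om p)
    (f : M → Om p) :
    h72vPair (∑ i ∈ s, a i • c i) f = ∑ i ∈ s, a i * h72vPair (c i) f := by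
  unfold h72vPair
  simp only [Finset.sum_apply, Pi.smul_apply, smul_eq_mul, Finset.sum_mul, Finset.mul_sum]
  rw [Finset.sum_comm]
  exact Finset.sum_congr rfl fun i _ => Finset.sum_congr rfl fun x _ => by ring

open Classical in
theorem h72v_pair_single (c : M → Om p) (x : M) :
    h72vPair c (Pi.single x (1 : Om p)) = c x := by
  unfold h72vPair
  rw [Finset.sum_eq_single x]
  · rw [Pi.single_eq_same, mul_one]
  · intro y _ hy
    rw [Pi.single_eq_of_ne hy, mul_zero]
  · intro h
    exact absurd (Finset.mem_univ x) h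

open Classical in
theorem h72v_single_pair (f : M → Om p) (x : M) :
    h72vPair (Pi.single x (1 : Om p)) f = f x := by
  unfold h72vPair
  rw [Finset.sum_eq_single x]
  · rw [Pi.single_eq_same, one_mul]
  · intro y _ hy
    rw [Pi.single_eq_of_ne hy, zero_mul]
  · intro h
    exact absurd (Finset.mem_univ x) h

/-- the Fourier transform turns convolution into multiplication. -/
theorem h72v_ft_conv (c d : M → Om p) (ψ : AddChar M (Om p)) :
    h72vFT (h72vConv c d) ψ = h72vFT c ψ * h72vFT d ψ := by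
  unfold h72vFT h72vConv
  rw [Finset.sum_mul_sum]
  simp only [Finset.sum_mul]
  rw [Finset.sum_comm]
  refine Finset.sum_congr rfl fun x _ => ?_
  rw [← Equiv.sum_comp (Equiv.addLeft x)]
  refine Finset.sum_congr rfl fun y _ => ?_
  rw [Equiv.coe_addLeft, add_sub_cancel_left, AddChar.map_add_eq_mul]
  ring

/-- the pairing of a convolution with a function in Sweedler form. -/
theorem h72v_pair_conv (c d f : M → Om p) {n : ℕ} (a b : Fin n → M → Om p)
    (h : ∀ x y, f (x + y) = ∑ i, a i x * b i y) :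
    h72vPair (h72vConv c d) f = ∑ i, h72vPair c (a i) * h72vPair d (b i) := by
  unfold h72vPair h72vConv
  simp only [Finset.sum_mul]
  rw [Finset.sum_comm]
  have h1 : ∀ x : M, ∑ z, c x * d (z - x) * f z
      = ∑ i, (c x * a i x) * ∑ y, d y * b i y := by
    intro x
    rw [← Equiv.sum_comp (Equiv.addLeft x)]
    simp only [Equiv.coe_addLeft, add_sub_cancel_left, h, Finset.mul_sum]
    rw [Finset.sum_comm]
    exact Finset.sum_congr rfl fun i _ => Finset.sum_congr rfl fun y _ => by ring
  rw [Finset.sum_congr rfl fun x _ => h1 x, Finset.sum_comm]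

end Pairing

/-! ## The dual lattice and the dual order -/

section Order

variable {p : ℕ} [Fact p.Prime] {Γ : Subgroup (Gq p)} {M : Type} [AddCommGroup M] [Fintype M]
  {act : Gq p → M → M}

/-- the dual lattice of an order: the `Γ`-equivariant functions pairing the order into the
fixed integers. -/
def h72vD (𝓗 : FHO p Γ M act) : Set (M → Om p) :=
  {c | (∀ σ ∈ Γ, ∀ x, c (act σ x) = σ (c x)) ∧ ∀ f ∈ 𝓗.carrier, h72vPair c f ∈ fixInt p Γ}

theorem h72v_conv_equiv (hact : IsAct act) (σ : Gq p) (c d : M → Om p)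
    (hc : ∀ x, c (act σ x) = σ (c x)) (hd : ∀ x, d (act σ x) = σ (d x)) (z : M) :
    h72vConv c d (act σ z) = σ (h72vConv c d z) := by
  unfold h72vConv
  rw [map_sum, ← Equiv.sum_comp (h72vPerm hact σ)]
  refine Finset.sum_congr rfl fun x _ => ?_
  show c (act σ x) * d (act σ z - act σ x) = σ (c x * d (z - x))
  rw [← h72v_act_sub hact, hc, hd, map_mul]

theorem h72v_ft_equiv (hact : IsAct act) (σ : Gq p) (c : M → Om p)
    (hc : ∀ x, c (act σ x) = σ (c x)) (ψ : AddChar M (Om p)) :
    h72vFT c (h72vActD act hact σ ψ) = σ (h72vFT c ψ) := by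
  unfold h72vFT
  rw [map_sum, ← Equiv.sum_comp (h72vPerm hact σ)]
  refine Finset.sum_congr rfl fun x _ => ?_
  show c (act σ x) * h72vActD act hact σ ψ (act σ x) = σ (c x * ψ x)
  rw [h72v_actD_apply, h72v_act_inv_act hact, hc, map_mul]

/-- twisting the left argument of the pairing. -/
theorem h72v_pair_twist (hact : IsAct act) (σ : Gq p) (c f : M → Om p)
    (hf : ∀ x, f (act σ x) = σ (f x)) :
    h72vPair (fun x => σ⁻¹ (c (act σ x))) f = σ⁻¹ (h72vPair c f) := by
  unfold h72vPair
  rw [map_sum, ← Equiv.sum_comp (h72vPerm hact σ) (fun x => σ⁻¹ (c x * f x))]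
  refine Finset.sum_congr rfl fun x _ => ?_
  show σ⁻¹ (c (act σ x)) * f x = σ⁻¹ (c (act σ x) * f (act σ x))
  rw [map_mul, hf]
  congr 1
  show f x = (σ⁻¹ * σ) (f x)
  rw [inv_mul_cancel]
  rfl

open Classical in
/-- the multiple `r δ₀` of the delta function at `0`. -/
def h72vDelta (r : Om p) : M → Om p := fun x => if x = 0 then r else 0

open Classical in
theorem h72v_pair_delta (r : Om p) (f : M → Om p) : h72vPair (h72vDelta r) f = r * f 0 := by
  unfold h72vPair h72vDelta
  rw [Finset.sum_eq_single 0]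
  · rw [if_pos rfl]
  · intro y _ hy
    rw [if_neg hy, zero_mul]
  · intro h
    exact absurd (Finset.mem_univ _) h

theorem h72v_ft_delta (r : Om p) (ψ : AddChar M (Om p)) : h72vFT (h72vDelta r) ψ = r := by
  rw [h72v_ft_eq_pair, h72v_pair_delta, AddChar.map_zero_eq_one, mul_one]

open Classical in
theorem h72v_delta_mem (hact : IsAct act) (𝓗 : FHO p Γ M act) (r : fixInt p Γ) :
    h72vDelta (r : Om p) ∈ h72vD 𝓗 := by
  refine ⟨fun σ hσ x => ?_, fun f hf => ?_⟩
  · unfold h72vDelta
    by_cases hx : x = 0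
    · rw [hx, h87f_act_zero hact, if_pos rfl, r.2.2 σ hσ]
    · have hx' : act σ x ≠ 0 := by
        intro h0
        apply hx
        have := h72v_act_inv_act hact σ x
        rw [h0, h87f_act_zero hact] at this
        exact this.symm
      rw [if_neg hx, if_neg hx', map_zero]
  · rw [h72v_pair_delta]
    refine Subring.mul_mem _ r.2 ⟨h38f_valuesIntegral p Γ M act 𝓗 f hf 0, fun σ hσ => ?_⟩
    have := 𝓗.equivariant f hf σ hσ 0
    rw [h87f_act_zero hact] at this
    exact this.symm

/-- the dual order, as an algebra of functions on the character group. -/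
def h72vCarrier (hact : IsAct act) (𝓗 : FHO p Γ M act) :
    Subalgebra (fixInt p Γ) (AddChar M (Om p) → Om p) where
  carrier := {F | ∃ c ∈ h72vD 𝓗, h72vFT c = F}
  mul_mem' := by
    rintro _ _ ⟨c, hc, rfl⟩ ⟨d, hd, rfl⟩
    refine ⟨h72vConv c d, ⟨fun σ hσ z =>
      h72v_conv_equiv hact σ c d (hc.1 σ hσ) (hd.1 σ hσ) z, fun f hf => ?_⟩,
      funext fun ψ => h72v_ft_conv c d ψ⟩
    obtain ⟨n, a, b, ha, hb, hab⟩ := 𝓗.comul f hf
    rw [h72v_pair_conv c d f a b hab]
    exact Subring.sum_mem _ fun i _ => Subring.mul_mem _ (hc.2 _ (ha i)) (hd.2 _ (hb i))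
  add_mem' := by
    rintro _ _ ⟨c, hc, rfl⟩ ⟨d, hd, rfl⟩
    refine ⟨c + d, ⟨fun σ hσ x => ?_, fun f hf => ?_⟩, ?_⟩
    · rw [Pi.add_apply, Pi.add_apply, hc.1 σ hσ, hd.1 σ hσ, map_add]
    · rw [h72v_pair_add_left]
      exact Subring.add_mem _ (hc.2 f hf) (hd.2 f hf)
    · funext ψ
      exact h72v_pair_add_left c d _
  algebraMap_mem' r :=
    ⟨h72vDelta (r : Om p), h72v_delta_mem hact 𝓗 r, funext fun ψ => h72v_ft_delta _ ψ⟩

theorem h72v_mem_carrier (hact : IsAct act) (𝓗 : FHO p Γ M act)
    (F : AddChar M (Om p) → Om p) :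
    F ∈ h72vCarrier hact 𝓗 ↔ ∃ c ∈ h72vD 𝓗, h72vFT c = F := Iff.rfl

end Order

/-! ## Dual bases -/

section Basis

variable {p : ℕ} [Fact p.Prime] {Γ : Subgroup (Gq p)} {M : Type} [AddCommGroup M] [Fintype M]
  {act : Gq p → M → M}

open Classical in
/-- a basis `E` of the order and its dual basis `c` of the dual lattice. -/
theorem h72v_basis_data {ϖ : Om p} (hdisc : IsDiscrete p Γ ϖ) (hact : IsAct act)
    (𝓗 : FHO p Γ M act) :
    ∃ (n : ℕ) (E c : Fin n → M → Om p), (∀ i, E i ∈ 𝓗.carrier) ∧ (∀ i, c i ∈ h72vD 𝓗) ∧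
      (∀ f : M → Om p, f = ∑ i, h72vPair (c i) f • E i) ∧
      (∀ d : M → Om p, d = ∑ i, h72vPair d (E i) • c i) := by
  have : IsPrincipalIdealRing (fixInt p Γ) := h9q_isPrincipalIdealRing hdisc
  obtain ⟨n, ⟨e⟩⟩ := h9q_exists_basis (Subalgebra.toSubmodule 𝓗.carrier) 𝓗.fg
  set E : Fin n → M → Om p :=
    fun i => ((e i : Subalgebra.toSubmodule 𝓗.carrier) : M → Om p) with hE
  have hEmem : ∀ i, E i ∈ 𝓗.carrier := fun i => (e i).2
  have hliR : LinearIndependent (fixInt p Γ) E :=
    e.linearIndependent.map' (Submodule.subtype _) (Submodule.ker_subtype _)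
  have hliO : LinearIndependent (Om p) E :=
    h15q_artin p Γ act (fun σ _ x => ⟨act σ⁻¹ x, h72v_act_act_inv hact σ x⟩) E
      (fun i σ hσ x => 𝓗.equivariant (E i) (hEmem i) σ hσ x) hliR
  have hspanH : Submodule.span (Om p) (𝓗.carrier : Set (M → Om p)) = ⊤ :=
    h15f_span_top (𝓗.carrier : Set (M → Om p)) (one_mem _) (fun f hf g hg => mul_mem hf hg)
      𝓗.separates
  have hexpR : ∀ (f : M → Om p) (hf : f ∈ 𝓗.carrier),
      f = ∑ j, ((e.repr ⟨f, hf⟩ j : fixInt p Γ) : Om p) • E j := by
    intro f hf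
    funext x
    rw [h9q_expand (Subalgebra.toSubmodule 𝓗.carrier) e f hf x, Finset.sum_apply]
    rfl
  have hspanE : ⊤ ≤ Submodule.span (Om p) (Set.range E) := by
    rw [← hspanH]
    refine Submodule.span_le.2 fun f hf => ?_
    rw [hexpR f hf]
    exact Submodule.sum_mem _ fun j _ =>
      Submodule.smul_mem _ _ (Submodule.subset_span ⟨j, rfl⟩)
  let B : Module.Basis (Fin n) (Om p) (M → Om p) := Module.Basis.mk hliO hspanE
  have hB : ∀ i, B i = E i := fun i => Module.Basis.mk_apply hliO hspanE i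
  set c : Fin n → M → Om p := fun i x => B.repr (Pi.single x (1 : Om p)) i with hc
  have hpair : ∀ i (f : M → Om p), h72vPair (c i) f = B.repr f i := by
    intro i f
    have hf : f = ∑ x, f x • (Pi.single x (1 : Om p) : M → Om p) := by
      funext y
      rw [Finset.sum_apply, Finset.sum_eq_single y]
      · rw [Pi.smul_apply, Pi.single_eq_same, smul_eq_mul, mul_one]
      · intro x _ hx
        rw [Pi.smul_apply, Pi.single_eq_of_ne (Ne.symm hx), smul_zero]
      · intro h
        exact absurd (Finset.mem_univ _) h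
    conv_rhs => rw [hf]
    rw [map_sum]
    simp only [map_smul, Finsupp.coe_finsetSum, Finsupp.coe_smul, Finset.sum_apply,
      Pi.smul_apply, smul_eq_mul]
    unfold h72vPair
    exact Finset.sum_congr rfl fun x _ => mul_comm _ _
  have hexp : ∀ f : M → Om p, f = ∑ i, h72vPair (c i) f • E i := by
    intro f
    conv_lhs => rw [← B.sum_repr f]
    exact Finset.sum_congr rfl fun i _ => by rw [hpair, hB]
  have hcE : ∀ i j, h72vPair (c i) (E j) = if j = i then 1 else 0 := by
    intro i j
    rw [hpair, ← hB, B.repr_self, Finsupp.single_apply]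
  have hint : ∀ i, ∀ f ∈ 𝓗.carrier, h72vPair (c i) f ∈ fixInt p Γ := by
    intro i f hf
    rw [hexpR f hf, h72v_pair_sum_right]
    simp only [hcE, mul_ite, mul_one, mul_zero, Finset.sum_ite_eq', Finset.mem_univ, if_true]
    exact (e.repr ⟨f, hf⟩ i).2
  have hval : ∀ (d : M → Om p) (x : M),
      d x = ∑ j, h72vPair (c j) (Pi.single x 1) * h72vPair d (E j) := by
    intro d x
    rw [← h72v_pair_sum_right, ← hexp (Pi.single x (1 : Om p)), h72v_pair_single]
  have hdet : ∀ d d' : M → Om p, (∀ j, h72vPair d (E j) = h72vPair d' (E j)) → d = d' := by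
    intro d d' h
    funext x
    rw [hval d, hval d']
    exact Finset.sum_congr rfl fun j _ => by rw [h j]
  have hceq : ∀ i, ∀ σ ∈ Γ, ∀ x, c i (act σ x) = σ (c i x) := by
    intro i σ hσ x
    have h1 : (fun x => σ⁻¹ (c i (act σ x))) = c i := by
      apply hdet
      intro j
      rw [h72v_pair_twist hact σ (c i) (E j)
        (fun x => 𝓗.equivariant (E j) (hEmem j) σ hσ x), hcE]
      split_ifs
      · exact map_one _
      · exact map_zero _
    have h2 : σ⁻¹ (c i (act σ x)) = c i x := congrFun h1 x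
    rw [← h2]
    show c i (act σ x) = (σ * σ⁻¹) (c i (act σ x))
    rw [mul_inv_cancel]
    rfl
  refine ⟨n, E, c, hEmem, fun i => ⟨hceq i, hint i⟩, hexp, fun d => ?_⟩
  funext x
  rw [hval d x, Finset.sum_apply]
  refine Finset.sum_congr rfl fun j _ => ?_
  rw [Pi.smul_apply, smul_eq_mul, h72v_pair_single, mul_comm]

end Basis

/-! ## The dual order -/

section Dual

variable {p : ℕ} [Fact p.Prime] {Γ : Subgroup (Gq p)} {M : Type} [AddCommGroup M] [Fintype M]
  {act : Gq p → M → M}

theorem h72v_ft_sum {ι : Type} (s : Finset ι) (a : ι → Om p) (c : ι → M → Om p)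
    (ψ : AddChar M (Om p)) :
    h72vFT (∑ i ∈ s, a i • c i) ψ = ∑ i ∈ s, a i * h72vFT (c i) ψ :=
  h72v_pair_sum_left s a c _

/-- **The Cartier dual of a function Hopf order** (over a discrete base). -/
def h72vDualOrder {ϖ : Om p} (hdisc : IsDiscrete p Γ ϖ) (hact : IsAct act)
    (𝓗 : FHO p Γ M act) : FHO p Γ (AddChar M (Om p)) (h72vActD act hact) where
  carrier := h72vCarrier hact 𝓗
  fg := by
    classical
    obtain ⟨n, E, c, hE, hc, -, hdual⟩ := h72v_basis_data hdisc hact 𝓗
    refine ⟨Finset.univ.image (fun i => h72vFT (c i)), le_antisymm ?_ ?_⟩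
    · refine Submodule.span_le.2 ?_
      intro F hF
      rw [Finset.coe_image, Set.mem_image] at hF
      obtain ⟨i, -, rfl⟩ := hF
      exact ⟨c i, hc i, rfl⟩
    · rintro F ⟨d, hd, rfl⟩
      have h1 : h72vFT d = ∑ i, (⟨h72vPair d (E i), hd.2 (E i) (hE i)⟩ : fixInt p Γ) •
          h72vFT (c i) := by
        funext ψ
        conv_lhs => rw [hdual d]
        rw [h72v_ft_sum, Finset.sum_apply]
        rfl
      rw [h1]
      refine Submodule.sum_mem _ fun i _ => Submodule.smul_mem _ _ (Submodule.subset_span ?_)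
      rw [Finset.coe_image]
      exact ⟨i, Finset.mem_coe.2 (Finset.mem_univ i), rfl⟩
  equivariant := by
    rintro F ⟨c, hc, rfl⟩ σ hσ ψ
    exact h72v_ft_equiv hact σ c (hc.1 σ hσ) ψ
  separates := by
    intro ψ ψ' h
    obtain ⟨n, E, c, hE, hc, hexp, -⟩ := h72v_basis_data hdisc hact 𝓗
    apply DFunLike.coe_injective
    rw [hexp (ψ : M → Om p), hexp (ψ' : M → Om p)]
    refine Finset.sum_congr rfl fun i _ => ?_
    have := h (h72vFT (c i)) ⟨c i, hc i, rfl⟩
    rw [h72v_ft_eq_pair, h72v_ft_eq_pair] at this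
    rw [this]
  comul := by
    rintro F ⟨d, hd, rfl⟩
    obtain ⟨n, E, c, hE, hc, hexp, -⟩ := h72v_basis_data hdisc hact 𝓗
    have hr : ∀ i j, h72vPair d (E i * E j) ∈ fixInt p Γ :=
      fun i j => hd.2 _ (mul_mem (hE i) (hE j))
    refine ⟨n * n,
      fun k => (⟨h72vPair d (E (finProdFinEquiv.symm k).1 * E (finProdFinEquiv.symm k).2),
        hr _ _⟩ : fixInt p Γ) • h72vFT (c (finProdFinEquiv.symm k).1),
      fun k => h72vFT (c (finProdFinEquiv.symm k).2), fun k => ?_, fun k => ?_, fun ψ ψ' => ?_⟩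
    · have hm : h72vFT (c (finProdFinEquiv.symm k).1) ∈ h72vCarrier hact 𝓗 :=
        ⟨c _, hc _, rfl⟩
      exact Subalgebra.smul_mem _ hm _
    · exact ⟨c _, hc _, rfl⟩
    · rw [Equiv.sum_comp finProdFinEquiv.symm (fun ij : Fin n × Fin n =>
        ((⟨h72vPair d (E ij.1 * E ij.2), hr _ _⟩ : fixInt p Γ) • h72vFT (c ij.1)) ψ *
          h72vFT (c ij.2) ψ'), Fintype.sum_prod_type]
      have h1 : ((ψ + ψ' : AddChar M (Om p)) : M → Om p)
          = ∑ i, ∑ j, (h72vFT (c i) ψ * h72vFT (c j) ψ') • (E i * E j) := by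
        funext x
        rw [AddChar.add_apply]
        conv_lhs => rw [hexp (ψ : M → Om p), hexp (ψ' : M → Om p)]
        simp only [Finset.sum_apply, Pi.smul_apply, Pi.mul_apply, smul_eq_mul,
          Finset.sum_mul_sum, h72v_ft_eq_pair]
        exact Finset.sum_congr rfl fun i _ => Finset.sum_congr rfl fun j _ => by ring
      rw [h72v_ft_eq_pair, h1]
      have h2 : ∀ (s : Finset (Fin n)) (g : Fin n → M → Om p),
          h72vPair d (∑ i ∈ s, g i) = ∑ i ∈ s, h72vPair d (g i) := by
        intro s g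
        have := h72v_pair_sum_right s d (fun _ => (1 : Om p)) g
        simpa only [one_smul, one_mul] using this
      rw [h2]
      refine Finset.sum_congr rfl fun i _ => ?_
      rw [h72v_pair_sum_right]
      refine Finset.sum_congr rfl fun j _ => ?_
      show _ = (h72vPair d (E i * E j) * h72vFT (c i) ψ) * h72vFT (c j) ψ'
      ring

theorem h72v_dualOrder {ϖ : Om p} (hdisc : IsDiscrete p Γ ϖ) (hact : IsAct act)
    (𝓗 : FHO p Γ M act) : Nonempty (FHO p Γ (AddChar M (Om p)) (h72vActD act hact)) :=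
  ⟨h72vDualOrder hdisc hact 𝓗⟩

end Dual

end Fermat.Agent.P6
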