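import Fermat.Agent.P6.H72Dual

/-!
# Wave 6 (S33), block B3 FLAT-ORD, leaf MULT (helper72, prefix `h72v`)

`h72v_mult : H97fET → H97fMult` (exact frozen Props of `P6/H97DevIface.lean`).

Let `X` be a finite `Gq p`-module killed by `p ^ k`, with a function Hopf order over the integers
of the inertia field and a chain `F` on whose graded pieces inertia acts through the cyclotomic
character.  The characters `ψ` of `X` trivial on `F (n - i)` form a chain on the character group
on whose graded pieces inertia acts trivially (dual action `σ ψ = σ ∘ ψ ∘ σ⁻¹`), so by ET,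
applied to the Cartier dual order `h72vDualOrder`, no nonzero character is connected.  By FL-B5
(`h87f_inertiaTrivial_of`) inertia moves every character by a connected one; hence inertia fixes
every character: `σ (ψ x) = ψ (σ x)`, i.e. `ψ (e • x) = ψ (σ x)` for all `ψ`; characters separate
the points of `X`.
-/

set_option autoImplicit false

open Fermat.Agent.PT.Loc Fermat.Agent.S56F

noncomputable section

namespace Fermat.Agent.P6

section Chars

variable {p : ℕ} [Fact p.Prime]

/-- every element of `Gq p` acts on `μ_{p^k}` by a power. -/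
theorem h72v_exists_cyc (k : ℕ) (σ : Gq p) : ∃ e : ℕ, h97fCyc p k σ e := by
  have hpk0 : p ^ k ≠ 0 := pow_ne_zero k (Fact.out : p.Prime).ne_zero
  have : NeZero ((p ^ k : ℕ) : Om p) := ⟨Nat.cast_ne_zero.2 hpk0⟩
  have : NeZero (p ^ k) := ⟨hpk0⟩
  obtain ⟨ζ, hζ⟩ := HasEnoughRootsOfUnity.exists_primitiveRoot (Om p) (p ^ k)
  have h1 : (σ ζ) ^ (p ^ k) = 1 := by rw [← map_pow, hζ.pow_eq_one, map_one]
  obtain ⟨a, -, ha⟩ := hζ.eq_pow_of_pow_eq_one h1
  refine ⟨a, fun μ hμ => ?_⟩
  obtain ⟨j, -, hj⟩ := hζ.eq_pow_of_pow_eq_one hμ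
  rw [← hj, map_pow, ← ha, ← pow_mul, ← pow_mul, mul_comm]

variable {X : Type} [AddCommGroup X] [Finite X]

set_option linter.unusedSectionVars false

/-- the characters with values in `Om p` separate the points of a finite abelian group. -/
theorem h72v_char_sep (a b : X) (h : ∀ ψ : AddChar X (Om p), ψ a = ψ b) : a = b := by
  have hne : Monoid.exponent (Multiplicative X) ≠ 0 := Monoid.exponent_ne_zero_of_finite
  have : NeZero ((Monoid.exponent (Multiplicative X) : ℕ) : Om p) := ⟨Nat.cast_ne_zero.2 hne⟩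
  have key := (CommGroup.forall_apply_eq_apply_iff (Multiplicative X) (M := Om p)
    (g := Multiplicative.ofAdd a) (g' := Multiplicative.ofAdd b)).1 (fun φ => by
      have := h (AddChar.toMonoidHomEquiv.symm ((Units.coeHom (Om p)).comp φ))
      exact Units.ext this)
  exact Multiplicative.ofAdd.injective key

/-- the character group of a finite abelian group is finite. -/
theorem h72v_finite_addChar : Finite (AddChar X (Om p)) := by
  have hne : Monoid.exponent (Multiplicative X) ≠ 0 := Monoid.exponent_ne_zero_of_finite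
  have : NeZero ((Monoid.exponent (Multiplicative X) : ℕ) : Om p) := ⟨Nat.cast_ne_zero.2 hne⟩
  obtain ⟨e⟩ := CommGroup.monoidHom_mulEquiv_of_hasEnoughRootsOfUnity (Multiplicative X) (Om p)
  have : Finite (Multiplicative X →* (Om p)ˣ) := Finite.of_equiv _ e.symm.toEquiv
  refine Finite.of_injective
    (fun ψ : AddChar X (Om p) => (AddChar.toMonoidHom ψ).toHomUnits) ?_
  intro ψ φ h
  ext x
  have := congrArg (fun f : Multiplicative X →* (Om p)ˣ => ((f (Multiplicative.ofAdd x) : (Om p)ˣ) : Om p)) h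
  simpa using this

theorem h72v_char_pow (k : ℕ) (hpk : ∀ x : X, p ^ k • x = 0) (ψ : AddChar X (Om p)) (x : X) :
    ψ x ^ p ^ k = 1 := by
  rw [← AddChar.map_nsmul_eq_pow, hpk, AddChar.map_zero_eq_one]

end Chars

section Mult

variable {p : ℕ} [Fact p.Prime]

/-- the characters trivial on a subgroup. -/
def h72vAnn {X : Type} [AddCommGroup X] (S : AddSubgroup X) :
    AddSubgroup (AddChar X (Om p)) where
  carrier := {ψ | ∀ x ∈ S, ψ x = 1}
  zero_mem' := fun x _ => AddChar.zero_apply x
  add_mem' := fun {ψ φ} hψ hφ x hx => by rw [AddChar.add_apply, hψ x hx, hφ x hx, one_mul]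
  neg_mem' := fun {ψ} hψ x hx => by rw [AddChar.neg_apply', hψ x hx, inv_one]

theorem h72v_mem_ann {X : Type} [AddCommGroup X] (S : AddSubgroup X) (ψ : AddChar X (Om p)) :
    ψ ∈ h72vAnn S ↔ ∀ x ∈ S, ψ x = 1 := Iff.rfl

end Mult

/-- **MULT** (leaf of `P6/H97DevIface.lean`), from ET. -/
theorem h72v_mult (hET : H97fET) : H97fMult := by
  intro p _ hp2 k X _ _ act hact hpk 𝓗 hch
  obtain ⟨n, F, hF0, hFn, hmono, hchain⟩ := hch
  classical
  cases nonempty_fintype X
  have hdisc : IsDiscrete p (inertia p) (p : Om p) := h45f_inertiaDiscrete p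
  have hfin : Finite (AddChar X (Om p)) := h72v_finite_addChar
  have hFmono : Monotone F := monotone_nat_of_le_succ hmono
  -- stability of the chain under inertia
  have hstab : ∀ i, ∀ τ ∈ inertia p, ∀ x ∈ F (i + 1), act τ x ∈ F (i + 1) := by
    intro i τ hτ x hx
    obtain ⟨e, he⟩ := h72v_exists_cyc k τ
    have h1 := hchain i τ hτ e he x hx
    have h2 : act τ x = (act τ x - e • x) + e • x := by abel
    rw [h2]
    exact add_mem (hmono i h1) (nsmul_mem hx e)
  -- the dual chain
  set G : ℕ → AddSubgroup (AddChar X (Om p)) := fun i => h72vAnn (F (n - i)) with hG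
  have hG0 : G 0 = ⊥ := by
    rw [eq_bot_iff]
    intro ψ hψ
    rw [AddSubgroup.mem_bot]
    ext x
    rw [AddChar.zero_apply]
    exact hψ x (by rw [Nat.sub_zero, hFn]; exact AddSubgroup.mem_top x)
  have hGn : G n = ⊤ := by
    rw [eq_top_iff]
    intro ψ _ x hx
    rw [Nat.sub_self, hF0, AddSubgroup.mem_bot] at hx
    rw [hx, AddChar.map_zero_eq_one]
  have hGmono : ∀ i, G i ≤ G (i + 1) := by
    intro i ψ hψ x hx
    exact hψ x (hFmono (by omega) hx)
  have hGchain : ∀ i, ∀ τ ∈ inertia p, ∀ ψ ∈ G (i + 1),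
      h72vActD act hact τ ψ - ψ ∈ G i := by
    intro i τ hτ ψ hψ x hx
    rw [AddChar.sub_apply', h72v_actD_apply]
    by_cases hi : i < n
    · obtain ⟨m, hm⟩ : ∃ m, n - i = m + 1 := ⟨n - i - 1, by omega⟩
      have hm' : n - (i + 1) = m := by omega
      have hψm : ∀ y ∈ F m, ψ y = 1 := by
        intro y hy
        exact hψ y (by rw [hm']; exact hy)
      rw [hm] at hx
      have hτi : τ⁻¹ ∈ inertia p := Subgroup.inv_mem _ hτ
      have hyF : act τ⁻¹ x ∈ F (m + 1) := hstab m τ⁻¹ hτi x hx
      obtain ⟨e, he⟩ := h72v_exists_cyc k τ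
      have h1 := hchain m τ hτ e he (act τ⁻¹ x) hyF
      rw [h72v_act_act_inv hact] at h1
      have h2 := hψm _ h1
      rw [AddChar.map_sub_eq_div, div_eq_one_iff_eq (AddChar.val_isUnit ψ _).ne_zero] at h2
      have h3 : τ (ψ (act τ⁻¹ x)) = ψ (act τ⁻¹ x) ^ e :=
        he _ (h72v_char_pow k hpk ψ _)
      rw [h3, ← AddChar.map_nsmul_eq_pow, ← h2, div_self (AddChar.val_isUnit ψ x).ne_zero]
    · have hni : n - i = 0 := by omega
      rw [hni, hF0, AddSubgroup.mem_bot] at hx
      rw [hx, h87f_act_zero hact, AddChar.map_zero_eq_one, map_one, div_one]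
  have hpkd : ∀ ψ : AddChar X (Om p), p ^ k • ψ = 0 := by
    intro ψ
    ext x
    rw [AddChar.nsmul_apply, AddChar.zero_apply, h72v_char_pow k hpk ψ x]
  have hconn := hET p hp2 k (AddChar X (Om p)) (h72vActD act hact) (h72v_isAct_actD hact)
    hpkd (h72vDualOrder hdisc hact 𝓗) ⟨n, G, hG0, hGn, hGmono, hGchain⟩
  have htriv : ∀ τ ∈ inertia p, ∀ ψ : AddChar X (Om p), h72vActD act hact τ ψ = ψ := by
    intro τ hτ ψ
    obtain ⟨t, ht, hPt⟩ := h87f_inertiaTrivial_of h38f_valuesIntegral
      h38f_translationInvariance p (inertia p) (AddChar X (Om p)) (h72vActD act hact)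
      (h72vDualOrder hdisc hact 𝓗) le_rfl τ hτ ψ
    exact sub_eq_zero.1 (hconn _ ⟨t, ht, hPt⟩)
  intro σ hσ e he x
  apply h72v_char_sep (p := p)
  intro ψ
  have h1 := congrArg (fun φ : AddChar X (Om p) => φ (act σ x)) (htriv σ hσ ψ)
  simp only [h72v_actD_apply, h72v_act_inv_act hact] at h1
  rw [← h1, he _ (h72v_char_pow k hpk ψ x), AddChar.map_nsmul_eq_pow]

end Fermat.Agent.P6
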