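import Fermat.Agent.P6.H72FlatOrdLoc
import Fermat.Agent.P6.H36Old
import Fermat.Agent.S19

/-!
# Wave 6 (S33), block B4-OLD, unconditional (helper72 assembly)

`h72v_starOld : H36oStarOld` : STAR on the `𝔪`-part of `J₀(M)[p ^ k]` at the levels `M ∣ N`
prime to `p` (the deliverable of B4-OLD, input of the gluing B5), from

* `h36o_starOld` (helper36): `H39FlatOrd → (S19 at the levels prime to p) → H36oStarOld`;
* `h72v_flatOrd39 : H39FlatOrd` (B3, unconditional);
* `Fermat.Agent.S19.result` (wave 5).
-/

set_option autoImplicit false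

namespace Fermat.Agent.P6

/-- **B4-OLD**, unconditional. -/
theorem h72v_starOld : H36oStarOld :=
  h36o_starOld h72v_flatOrd39 fun M _ p hp hpM =>
    haveI : Fact p.Prime := ⟨hp⟩
    fun k => Fermat.Agent.S19.result M p hpM k

end Fermat.Agent.P6
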