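import Mathlib
import Fermat.Agent.Red.Kron.Twist

/-!
# P6 (wave 6, S33), block B2 (p-new classes): the DEPTH lemma, series form (helper76)

`ℓ` a prime, `ζ` a primitive `ℓ`-th root of unity of a field `K`, `A` a valuation subring of `K`.
For a Laurent series `g = 1 + c z` (`c ∈ A`, `z` with coefficients in `A`), the "local norm at the
inseparable valuation"

  `X(t^ℓ) = ∏_{b < ℓ} g(ζ^b t)`

satisfies `X ≡ 1` modulo `(c ℓ, c²)`: the linear term is the TRACE `c ∑_b z(ζ^b t) = c ℓ (U z)(t^ℓ)`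
("the trace vanishes on a purely inseparable residue extension", with the quantitative gain `ℓ`).

* `h76p_prod_one_add` : `∏ (1 + c xᵢ) = 1 + c ∑ xᵢ + c² E`, `E` in any subring containing `c`, `xᵢ`.
* `h76p_sum_twist` : `∑_b z(ζ^b t)` has coefficients `ℓ zₙ` (`ℓ ∣ n`) and `0` (`ℓ ∤ n`).
* `h76p_depth_coeff` : the coefficients of `X - 1` are in `c ℓ A + c² A`.
* `h76p_depth` : `X = 1 + C (c μ) e`, `e` with coefficients in `A`, for every `μ ∈ A` dividing `ℓ`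
  and `c` in `A` (for instance `μ = c` if `v(c) ≤ v(ℓ)`, `μ = ℓ` otherwise).
* `h76p_depth_or` : `X - 1 ∈ c² A((q))` or `X - 1 ∈ c ℓ A((q))`.
-/

set_option autoImplicit false

open HahnSeries ModularCurve

noncomputable section

namespace Fermat.Agent.P6

open Fermat.Agent.Red.Kron

/-! ### The product expansion -/

/-- `∏ (1 + c xᵢ) = 1 + c ∑ xᵢ + c² E` with `E` in any subring containing `c` and the `xᵢ`. -/
theorem h76p_prod_one_add {S : Type*} [CommRing S] (S₀ : Subring S) {ι : Type*}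
    (s : Finset ι) (c : S) (hc : c ∈ S₀) (x : ι → S) (hx : ∀ i ∈ s, x i ∈ S₀) :
    ∃ E ∈ S₀, ∏ i ∈ s, (1 + c * x i) = 1 + c * ∑ i ∈ s, x i + c ^ 2 * E := by
  classical
  induction s using Finset.induction_on with
  | empty => exact ⟨0, S₀.zero_mem, by simp⟩
  | insert a s ha ih =>
    obtain ⟨E, hE, h⟩ := ih (fun i hi => hx i (Finset.mem_insert_of_mem hi))
    have hxa : x a ∈ S₀ := hx a (Finset.mem_insert_self a s)
    have hsum : ∑ i ∈ s, x i ∈ S₀ :=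
      S₀.sum_mem fun i hi => hx i (Finset.mem_insert_of_mem hi)
    refine ⟨E + x a * ∑ i ∈ s, x i + c * x a * E,
      S₀.add_mem (S₀.add_mem hE (S₀.mul_mem hxa hsum)) (S₀.mul_mem (S₀.mul_mem hc hxa) hE), ?_⟩
    rw [Finset.prod_insert ha, Finset.sum_insert ha, h]
    ring

/-! ### The trace of the twists -/

variable {K : Type*} [Field K]

/-- `∑_b z(ζ^b t)` has the coefficients `ℓ zₙ` for `ℓ ∣ n` and `0` otherwise. -/
theorem h76p_sum_twist {ℓ : ℕ} (hℓ : 0 < ℓ) {ζ : K} (hζ : IsPrimitiveRoot ζ ℓ)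
    (z : LaurentSeries K) (n : ℤ) :
    (∑ b ∈ Finset.range ℓ, twistK (ζ ^ b) z).coeff n =
      if (ℓ : ℤ) ∣ n then (ℓ : K) * z.coeff n else 0 := by
  have h1 : (∑ b ∈ Finset.range ℓ, twistK (ζ ^ b) z).coeff n =
      ∑ b ∈ Finset.range ℓ, (twistK (ζ ^ b) z).coeff n := by
    induction (Finset.range ℓ) using Finset.induction_on with
    | empty => simp
    | insert a s ha ih => rw [Finset.sum_insert ha, Finset.sum_insert ha, HahnSeries.coeff_add, ih]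
  rw [h1]
  have h2 : ∀ b : ℕ, (twistK (ζ ^ b) z).coeff n = z.coeff n * (ζ ^ n) ^ b := by
    intro b
    rw [coeff_twistK, ← zpow_natCast (ζ ^ n) b, ← zpow_mul, ← zpow_natCast ζ b, ← zpow_mul,
      mul_comm (b : ℤ) n]
  simp only [h2]
  rw [← Finset.mul_sum]
  split_ifs with hdvd
  · have h3 : ζ ^ n = 1 := (hζ.zpow_eq_one_iff_dvd n).2 hdvd
    simp only [h3, one_pow, Finset.sum_const, Finset.card_range, nsmul_eq_mul, mul_one]
    ring
  · have h3 : ζ ^ n ≠ 1 := fun h => hdvd ((hζ.zpow_eq_one_iff_dvd n).1 h)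
    have h4 : (ζ ^ n) ^ ℓ = 1 := by
      rw [← zpow_natCast (ζ ^ n) ℓ, ← zpow_mul, mul_comm, zpow_mul, zpow_natCast, hζ.pow_eq_one,
        one_zpow]
    have h5 : (ζ ^ n - 1) * ∑ b ∈ Finset.range ℓ, (ζ ^ n) ^ b = 0 := by
      rw [mul_comm, geom_sum_mul, h4, sub_self]
    rcases mul_eq_zero.1 h5 with h6 | h6
    · exact absurd (sub_eq_zero.1 h6) h3
    · rw [h6, mul_zero]

/-! ### Series with coefficients in `A` -/

/-- the subring of the Laurent series with coefficients in `A`. -/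
def h76pInt (A : ValuationSubring K) : Subring (LaurentSeries K) where
  carrier := {s | ∀ n, s.coeff n ∈ A}
  zero_mem' := fun n => by simp [A.zero_mem]
  one_mem' := fun n => by
    rw [HahnSeries.coeff_one]
    split_ifs
    · exact A.one_mem
    · exact A.zero_mem
  add_mem' := fun {x y} hx hy n => by
    rw [HahnSeries.coeff_add]
    exact A.add_mem _ _ (hx n) (hy n)
  neg_mem' := fun {x} hx n => by
    rw [HahnSeries.coeff_neg]
    exact A.neg_mem _ (hx n)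
  mul_mem' := fun {x y} hx hy n => by
    rw [HahnSeries.coeff_mul]
    exact A.toSubring.sum_mem fun ij _ => A.mul_mem _ _ (hx _) (hy _)

theorem h76p_mem_int {A : ValuationSubring K} {s : LaurentSeries K} :
    s ∈ h76pInt A ↔ ∀ n, s.coeff n ∈ A := Iff.rfl

theorem h76p_C_mem {A : ValuationSubring K} {c : K} (hc : c ∈ A) :
    (HahnSeries.C c : LaurentSeries K) ∈ h76pInt A := by
  intro n
  have h : (HahnSeries.C c : LaurentSeries K) = HahnSeries.single 0 c := rfl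
  rw [h]
  by_cases hn : n = 0
  · subst hn
    rw [HahnSeries.coeff_single_same]
    exact hc
  · rw [HahnSeries.coeff_single_of_ne hn]
    exact A.zero_mem

/-- a root of unity is in every valuation subring. -/
theorem h76p_root_mem (A : ValuationSubring K) {ℓ : ℕ} (hℓ : 0 < ℓ) {ω : K} (hω : ω ^ ℓ = 1) :
    ω ∈ A := by
  rcases A.mem_or_inv_mem ω with h | h
  · exact h
  · have h1 : ω = ω⁻¹ ^ (ℓ - 1) := by
      have hω0 : ω ≠ 0 := by
        rintro rfl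
        rw [zero_pow hℓ.ne'] at hω
        exact zero_ne_one hω
      have h2 : ω * ω ^ (ℓ - 1) = 1 := by
        rw [← pow_succ', Nat.sub_add_cancel hℓ, hω]
      rw [inv_pow]
      exact eq_inv_of_mul_eq_one_left h2
    rw [h1]
    exact pow_mem h _

theorem h76p_twist_mem {A : ValuationSubring K} {ω : K} (hω : ω ∈ A) (hω' : ω⁻¹ ∈ A)
    {z : LaurentSeries K} (hz : z ∈ h76pInt A) : twistK ω z ∈ h76pInt A := by
  intro n
  rw [coeff_twistK]
  refine A.mul_mem _ _ (hz n) ?_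
  rcases Int.eq_nat_or_neg n with ⟨k, rfl | rfl⟩
  · rw [zpow_natCast]
    exact pow_mem hω k
  · rw [zpow_neg, zpow_natCast, ← inv_pow]
    exact pow_mem hω' k

/-! ### The depth lemma -/

section Depth

variable (A : ValuationSubring K) {ℓ : ℕ} [NeZero ℓ]

/-- the product of the twists of `1 + c z` is `1 + c (trace) + c² E`. -/
theorem h76p_prod_twist {ζ : K} (hζ : IsPrimitiveRoot ζ ℓ) {c : K} (hc : c ∈ A)
    {z : LaurentSeries K} (hz : z ∈ h76pInt A) :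
    ∃ E ∈ h76pInt A, ∏ b ∈ Finset.range ℓ, twistK (ζ ^ b) (1 + HahnSeries.C c * z) =
      1 + HahnSeries.C c * ∑ b ∈ Finset.range ℓ, twistK (ζ ^ b) z + HahnSeries.C c ^ 2 * E := by
  have hℓ : 0 < ℓ := Nat.pos_of_ne_zero (NeZero.ne ℓ)
  have hζ0 : ζ ≠ 0 := hζ.ne_zero (NeZero.ne ℓ)
  have hmem : ∀ b : ℕ, ζ ^ b ∈ A ∧ (ζ ^ b)⁻¹ ∈ A := by
    intro b
    have h1 : (ζ ^ b) ^ ℓ = 1 := by rw [← pow_mul, mul_comm, pow_mul, hζ.pow_eq_one, one_pow]
    have h2 : ((ζ ^ b)⁻¹) ^ ℓ = 1 := by rw [inv_pow, h1, inv_one]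
    exact ⟨h76p_root_mem A hℓ h1, h76p_root_mem A hℓ h2⟩
  have e : ∀ b : ℕ, twistK (ζ ^ b) (1 + HahnSeries.C c * z) =
      1 + HahnSeries.C c * twistK (ζ ^ b) z := by
    intro b
    rw [twistK_add, twistK_one, twistK_mul (pow_ne_zero b hζ0), twistK_C]
  simp only [e]
  exact h76p_prod_one_add (h76pInt A) (Finset.range ℓ) (HahnSeries.C c) (h76p_C_mem hc)
    (fun b => twistK (ζ ^ b) z) (fun b _ => h76p_twist_mem (hmem b).1 (hmem b).2 hz)

/-- **DEPTH, coefficient form**: if `X(t^ℓ) = ∏_{b<ℓ} g(ζ^b t)` with `g = 1 + c z`, then every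
coefficient of `X - 1` is in `c ℓ A + c² A`. -/
theorem h76p_depth_coeff {ζ : K} (hζ : IsPrimitiveRoot ζ ℓ) {c : K} (hc : c ∈ A)
    {z : LaurentSeries K} (hz : z ∈ h76pInt A) (X : LaurentSeries K)
    (hX : qExpand K ℓ X = ∏ b ∈ Finset.range ℓ, twistK (ζ ^ b) (1 + HahnSeries.C c * z))
    (m : ℤ) :
    ∃ a₁ ∈ A, ∃ a₂ ∈ A, X.coeff m = (1 : LaurentSeries K).coeff m + c * ℓ * a₁ + c ^ 2 * a₂ := by
  have hℓ : 0 < ℓ := Nat.pos_of_ne_zero (NeZero.ne ℓ)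
  obtain ⟨E, hE, hprod⟩ := h76p_prod_twist A hζ hc hz
  have h1 : X.coeff m = (qExpand K ℓ X).coeff ((ℓ : ℤ) * m) := (qExpand_coeff_mul ℓ X m).symm
  refine ⟨z.coeff ((ℓ : ℤ) * m), hz _, E.coeff ((ℓ : ℤ) * m), hE _, ?_⟩
  rw [h1, hX, hprod, HahnSeries.coeff_add, HahnSeries.coeff_add, ← map_pow,
    HahnSeries.C_mul_eq_smul, HahnSeries.C_mul_eq_smul, HahnSeries.coeff_smul,
    HahnSeries.coeff_smul, h76p_sum_twist hℓ hζ z, if_pos (dvd_mul_right _ _), smul_eq_mul,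
    smul_eq_mul]
  have h2 : (1 : LaurentSeries K).coeff ((ℓ : ℤ) * m) = (1 : LaurentSeries K).coeff m := by
    rw [HahnSeries.coeff_one, HahnSeries.coeff_one]
    have hℓ0 : (ℓ : ℤ) ≠ 0 := Int.natCast_ne_zero.mpr (NeZero.ne ℓ)
    by_cases hm : m = 0
    · subst hm; simp
    · rw [if_neg hm, if_neg (mul_ne_zero hℓ0 hm)]
  rw [h2]
  ring

/-- **DEPTH, series form**: for `μ ∈ A` with `ℓ / μ ∈ A` and `c / μ ∈ A`:
`X = 1 + C (c μ) e`, `e` with coefficients in `A`. -/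
theorem h76p_depth {ζ : K} (hζ : IsPrimitiveRoot ζ ℓ) {c : K} (hc : c ∈ A)
    {z : LaurentSeries K} (hz : z ∈ h76pInt A) (X : LaurentSeries K)
    (hX : qExpand K ℓ X = ∏ b ∈ Finset.range ℓ, twistK (ζ ^ b) (1 + HahnSeries.C c * z))
    (μ : K) (hμℓ : ∃ a ∈ A, (ℓ : K) = μ * a) (hμc : ∃ a ∈ A, c = μ * a) :
    ∃ e ∈ h76pInt A, X = 1 + HahnSeries.C (c * μ) * e := by
  obtain ⟨u, hu, hu'⟩ := hμℓ
  obtain ⟨u₂, hu₂, hu₂'⟩ := hμc
  have key : ∀ m, ∃ a ∈ A, (X - 1).coeff m = c * μ * a := by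
    intro m
    obtain ⟨a₁, ha₁, a₂, ha₂, h⟩ := h76p_depth_coeff A hζ hc hz X hX m
    refine ⟨u * a₁ + u₂ * a₂, A.add_mem _ _ (A.mul_mem _ _ hu ha₁) (A.mul_mem _ _ hu₂ ha₂), ?_⟩
    rw [HahnSeries.coeff_sub, h, hu']
    have e1 : c ^ 2 = c * (μ * u₂) := by rw [← hu₂']; ring
    rw [e1]
    ring
  by_cases h0 : c * μ = 0
  · refine ⟨0, (h76pInt A).zero_mem, ?_⟩
    have hX1 : X - 1 = 0 := by
      ext m
      obtain ⟨a, -, ha⟩ := key m
      rw [ha, h0, zero_mul]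
      rfl
    rw [mul_zero, add_zero]
    exact sub_eq_zero.1 hX1
  · refine ⟨HahnSeries.C (c * μ)⁻¹ * (X - 1), ?_, ?_⟩
    · intro m
      obtain ⟨a, ha, ha'⟩ := key m
      rw [HahnSeries.C_mul_eq_smul, HahnSeries.coeff_smul, smul_eq_mul, ha', ← mul_assoc,
        inv_mul_cancel₀ h0, one_mul]
      exact ha
    · rw [← mul_assoc, ← map_mul, mul_inv_cancel₀ h0, map_one, one_mul]
      ring

/-- **DEPTH, dichotomy**: `X - 1 ∈ c² A((q))` (if `v(c) ≤ v(ℓ)`) or `X - 1 ∈ c ℓ A((q))`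
(if `v(ℓ) ≤ v(c)`). -/
theorem h76p_depth_or {ζ : K} (hζ : IsPrimitiveRoot ζ ℓ) {c : K} (hc : c ∈ A)
    {z : LaurentSeries K} (hz : z ∈ h76pInt A) (X : LaurentSeries K)
    (hX : qExpand K ℓ X = ∏ b ∈ Finset.range ℓ, twistK (ζ ^ b) (1 + HahnSeries.C c * z))
    :
    ((∃ a ∈ A, (ℓ : K) = c * a) ∧ ∃ e ∈ h76pInt A, X = 1 + HahnSeries.C (c * c) * e) ∨
    ((∃ a ∈ A, c = (ℓ : K) * a) ∧ ∃ e ∈ h76pInt A, X = 1 + HahnSeries.C (c * ℓ) * e) := by
  by_cases hc0 : c = 0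
  · right
    refine ⟨⟨0, A.zero_mem, by rw [hc0, mul_zero]⟩, ?_⟩
    exact h76p_depth A hζ hc hz X hX ℓ ⟨1, A.one_mem, (mul_one _).symm⟩
      ⟨0, A.zero_mem, by rw [hc0, mul_zero]⟩
  by_cases hℓ0 : (ℓ : K) = 0
  · left
    have h1 : ∃ a ∈ A, (ℓ : K) = c * a := ⟨0, A.zero_mem, by rw [hℓ0, mul_zero]⟩
    exact ⟨h1, h76p_depth A hζ hc hz X hX c h1 ⟨1, A.one_mem, (mul_one _).symm⟩⟩
  rcases A.mem_or_inv_mem ((ℓ : K) * c⁻¹) with h | h
  · left
    have h1 : ∃ a ∈ A, (ℓ : K) = c * a :=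
      ⟨(ℓ : K) * c⁻¹, h, by rw [mul_comm, mul_assoc, inv_mul_cancel₀ hc0, mul_one]⟩
    exact ⟨h1, h76p_depth A hζ hc hz X hX c h1 ⟨1, A.one_mem, (mul_one _).symm⟩⟩
  · right
    have h1 : ∃ a ∈ A, c = (ℓ : K) * a := by
      refine ⟨((ℓ : K) * c⁻¹)⁻¹, h, ?_⟩
      rw [mul_inv, inv_inv, ← mul_assoc, mul_inv_cancel₀ hℓ0, one_mul]
    exact ⟨h1, h76p_depth A hζ hc hz X hX ℓ ⟨1, A.one_mem, (mul_one _).symm⟩ h1⟩

end Depth

end Fermat.Agent.P6
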