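import Fermat.Agent.P6.H76Depth
import Fermat.Agent.S35.H76NormGen
import Fermat.Agent.S35.H76NormSeries
import Fermat.Agent.Red.GV.SoftBar
import Fermat.Agent.Red.Kron.Descent

/-!
# P6 (wave 6, S33), block B2 (p-new classes): the DEPTH lemma for the norms along `α`, `β`
(helper76)

`ℓ` a prime, `ℓ ∤ N`, `A` a valuation subring of `ℚ̄` over `ℓ`, `w` the Fricke involution of
`F_{Nℓ}`, `W_∞ = softV A (Nℓ)` the Gauss valuation ring, `W_0 = w⁻¹ W_∞`.

* `h76p_prod_add` : `∏ (bᵢ + c zᵢ) = ∏ bᵢ + c ∑_j z_j ∏_{i ≠ j} bᵢ + c² E`.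
* `h76p_trace_term` : for the twists `bᵢ = b(ζ^i t)`, `zᵢ = z(ζ^i t)` the linear term is the
  TRACE `∑_j y(ζ^j t)` of `y = z ∏_{i ≠ 0} bᵢ`.
* `h76p_depth_frac` : DEPTH for fractions: `U(∏_j (b + c z)(ζ^j t)) = U(∏_j b(ζ^j t)) + C (c μ) e`.
* **`h76p_depth_alpha`** : if `w f ≡ 1` modulo `c` (at `W_∞`, i.e. `f ≡ 1` modulo `c` at `W_0`)
  then `α (Norm_α f) = f (1 + c μ x')`, `x' ∈ W_∞`: **`Norm_α f ≡ f` modulo `c μ` at `W_∞`**
  (`μ = c` or `μ = ℓ`).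
* **`h76p_depth_beta`** : if `f ≡ 1` modulo `c` at `W_∞` then
  `α (Norm_β f) = w f · (1 + c μ x')`, `x' ∈ W_∞`: **`Norm_β f ≡ f` modulo `c μ` at `W_0`**.
-/

set_option autoImplicit false
set_option linter.style.haveILetI false
set_option linter.unusedSectionVars false

open HahnSeries ModularCurve AlgebraicCurve

noncomputable section

namespace Fermat.Agent.P6

open Fermat.Agent.Red.Kron Fermat.Agent.S37 Fermat.Agent.Red.GV Fermat.Agent.Red.GV.Soft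
  Fermat.Agent.S35

/-! ### The product expansion, homogeneous form -/

/-- `∏ (bᵢ + c zᵢ) = ∏ bᵢ + c ∑_j z_j ∏_{i ≠ j} bᵢ + c² E`. -/
theorem h76p_prod_add {S : Type*} [CommRing S] (S₀ : Subring S) {ι : Type*} [DecidableEq ι]
    (s : Finset ι) (c : S) (hc : c ∈ S₀) (b z : ι → S) (hb : ∀ i ∈ s, b i ∈ S₀)
    (hz : ∀ i ∈ s, z i ∈ S₀) :
    ∃ E ∈ S₀, ∏ i ∈ s, (b i + c * z i) =
      ∏ i ∈ s, b i + c * ∑ j ∈ s, z j * ∏ i ∈ s.erase j, b i + c ^ 2 * E := by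
  induction s using Finset.induction_on with
  | empty => exact ⟨0, S₀.zero_mem, by simp⟩
  | insert a s ha ih =>
    obtain ⟨E, hE, h⟩ := ih (fun i hi => hb i (Finset.mem_insert_of_mem hi))
      (fun i hi => hz i (Finset.mem_insert_of_mem hi))
    have hba : b a ∈ S₀ := hb a (Finset.mem_insert_self a s)
    have hza : z a ∈ S₀ := hz a (Finset.mem_insert_self a s)
    set T : S := ∑ j ∈ s, z j * ∏ i ∈ s.erase j, b i with hT
    have hTm : T ∈ S₀ := S₀.sum_mem fun j hj =>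
      S₀.mul_mem (hz j (Finset.mem_insert_of_mem hj))
        (S₀.prod_mem fun i hi => hb i (Finset.mem_insert_of_mem (Finset.mem_of_mem_erase hi)))
    have hT' : ∑ j ∈ insert a s, z j * ∏ i ∈ (insert a s).erase j, b i =
        z a * ∏ i ∈ s, b i + b a * T := by
      rw [Finset.sum_insert ha, Finset.erase_insert ha, hT, Finset.mul_sum]
      congr 1
      refine Finset.sum_congr rfl fun j hj => ?_
      have hja : a ≠ j := fun h => ha (h ▸ hj)
      rw [Finset.erase_insert_of_ne hja, Finset.prod_insert (fun h => ha (Finset.mem_of_mem_erase h))]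
      ring
    refine ⟨b a * E + z a * T + c * z a * E,
      S₀.add_mem (S₀.add_mem (S₀.mul_mem hba hE) (S₀.mul_mem hza hTm))
        (S₀.mul_mem (S₀.mul_mem hc hza) hE), ?_⟩
    rw [Finset.prod_insert ha, Finset.prod_insert ha, hT', h]
    ring

/-! ### The trace term -/

section Trace

variable {K : Type*} [Field K]

/-- a twist-invariant series is invariant under all powers of the twist. -/
theorem h76p_twist_pow_eq {ζ : K} {s : LaurentSeries K} (hs : twistK ζ s = s) (j : ℕ) :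
    twistK (ζ ^ j) s = s := by
  induction j with
  | zero => rw [pow_zero, twistK_one_left]
  | succ j ih =>
    have h := twistK_twistK ζ (ζ ^ j) s
    rw [ih, hs] at h
    rw [pow_succ]
    exact h.symm

/-- the linear term of the product of the twists is the trace of `y = z ∏_{i ≠ 0} b(ζ^i t)`. -/
theorem h76p_trace_term {ℓ : ℕ} (hℓ : 0 < ℓ) {ζ : K} (hζ : ζ ^ ℓ = 1) (hζ0 : ζ ≠ 0)
    (b z : LaurentSeries K) (hb0 : b ≠ 0) (j : ℕ) (hj : j ∈ Finset.range ℓ) :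
    twistK (ζ ^ j) z * ∏ i ∈ (Finset.range ℓ).erase j, twistK (ζ ^ i) b =
      twistK (ζ ^ j) (z * ∏ i ∈ (Finset.range ℓ).erase 0, twistK (ζ ^ i) b) := by
  have hζj : ζ ^ j ≠ 0 := pow_ne_zero j hζ0
  have hbj : twistK (ζ ^ j) b ≠ 0 := fun h =>
    hb0 (twistK_injective hζj (by rw [h, twistK_zero]))
  apply mul_right_cancel₀ hbj
  have h0 : (0 : ℕ) ∈ Finset.range ℓ := Finset.mem_range.mpr hℓ
  have hP : twistK (ζ ^ j) (∏ i ∈ Finset.range ℓ, twistK (ζ ^ i) b) =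
      ∏ i ∈ Finset.range ℓ, twistK (ζ ^ i) b :=
    h76p_twist_pow_eq (twistK_prod_range ℓ hζ hζ0 b) j
  have e1 : twistK (ζ ^ j) z * (∏ i ∈ (Finset.range ℓ).erase j, twistK (ζ ^ i) b) *
      twistK (ζ ^ j) b = twistK (ζ ^ j) z * ∏ i ∈ Finset.range ℓ, twistK (ζ ^ i) b := by
    rw [mul_assoc, Finset.prod_erase_mul _ _ hj]
  have e2 : (z * ∏ i ∈ (Finset.range ℓ).erase 0, twistK (ζ ^ i) b) * b =
      z * ∏ i ∈ Finset.range ℓ, twistK (ζ ^ i) b := by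
    have h1 := Finset.prod_erase_mul (Finset.range ℓ) (fun i => twistK (ζ ^ i) b) h0
    simp only [pow_zero, twistK_one_left] at h1
    rw [mul_assoc, h1]
  rw [e1, ← twistK_mul hζj, e2, twistK_mul hζj, hP]

end Trace

/-! ### DEPTH for fractions -/

section Frac

variable {K : Type*} [Field K] (A : ValuationSubring K) {ℓ : ℕ} [NeZero ℓ]

/-- the product of the twists of `b + c z`. -/
theorem h76p_prod_twist_frac {ζ : K} (hζ : IsPrimitiveRoot ζ ℓ) {c : K} (hc : c ∈ A)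
    {b z : LaurentSeries K} (hb : b ∈ h76pInt A) (hz : z ∈ h76pInt A) (hb0 : b ≠ 0) :
    ∃ y ∈ h76pInt A, ∃ E ∈ h76pInt A,
      ∏ j ∈ Finset.range ℓ, twistK (ζ ^ j) (b + HahnSeries.C c * z) =
        ∏ j ∈ Finset.range ℓ, twistK (ζ ^ j) b +
          HahnSeries.C c * ∑ j ∈ Finset.range ℓ, twistK (ζ ^ j) y + HahnSeries.C c ^ 2 * E := by
  classical
  have hℓ : 0 < ℓ := Nat.pos_of_ne_zero (NeZero.ne ℓ)
  have hζ0 : ζ ≠ 0 := hζ.ne_zero (NeZero.ne ℓ)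
  have hmem : ∀ i : ℕ, ζ ^ i ∈ A ∧ (ζ ^ i)⁻¹ ∈ A := by
    intro i
    have h1 : (ζ ^ i) ^ ℓ = 1 := by rw [← pow_mul, mul_comm, pow_mul, hζ.pow_eq_one, one_pow]
    have h2 : ((ζ ^ i)⁻¹) ^ ℓ = 1 := by rw [inv_pow, h1, inv_one]
    exact ⟨h76p_root_mem A hℓ h1, h76p_root_mem A hℓ h2⟩
  have hbi : ∀ i : ℕ, twistK (ζ ^ i) b ∈ h76pInt A := fun i =>
    h76p_twist_mem (hmem i).1 (hmem i).2 hb
  have hzi : ∀ i : ℕ, twistK (ζ ^ i) z ∈ h76pInt A := fun i =>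
    h76p_twist_mem (hmem i).1 (hmem i).2 hz
  set y : LaurentSeries K := z * ∏ i ∈ (Finset.range ℓ).erase 0, twistK (ζ ^ i) b with hy
  have hym : y ∈ h76pInt A :=
    (h76pInt A).mul_mem hz ((h76pInt A).prod_mem fun i _ => hbi i)
  have e : ∀ j : ℕ, twistK (ζ ^ j) (b + HahnSeries.C c * z) =
      twistK (ζ ^ j) b + HahnSeries.C c * twistK (ζ ^ j) z := by
    intro j
    rw [twistK_add, twistK_mul (pow_ne_zero j hζ0), twistK_C]
  obtain ⟨E, hE, h⟩ := h76p_prod_add (h76pInt A) (Finset.range ℓ) (HahnSeries.C c)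
    (h76p_C_mem hc) (fun i => twistK (ζ ^ i) b) (fun i => twistK (ζ ^ i) z)
    (fun i _ => hbi i) (fun i _ => hzi i)
  refine ⟨y, hym, E, hE, ?_⟩
  simp only [e]
  rw [h]
  congr 2
  congr 1
  exact Finset.sum_congr rfl fun j hj =>
    h76p_trace_term hℓ hζ.pow_eq_one hζ0 b z hb0 j hj

/-- **DEPTH for fractions, coefficient form.** -/
theorem h76p_depth_frac_coeff {ζ : K} (hζ : IsPrimitiveRoot ζ ℓ) {c : K} (hc : c ∈ A)
    {b z : LaurentSeries K} (hb : b ∈ h76pInt A) (hz : z ∈ h76pInt A) (hb0 : b ≠ 0) (m : ℤ) :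
    ∃ a₁ ∈ A, ∃ a₂ ∈ A,
      (unExpand ℓ (∏ j ∈ Finset.range ℓ, twistK (ζ ^ j) (b + HahnSeries.C c * z))).coeff m =
        (unExpand ℓ (∏ j ∈ Finset.range ℓ, twistK (ζ ^ j) b)).coeff m
          + c * ℓ * a₁ + c ^ 2 * a₂ := by
  have hℓ : 0 < ℓ := Nat.pos_of_ne_zero (NeZero.ne ℓ)
  obtain ⟨y, hy, E, hE, h⟩ := h76p_prod_twist_frac A hζ hc hb hz hb0
  refine ⟨y.coeff ((ℓ : ℤ) * m), hy _, E.coeff ((ℓ : ℤ) * m), hE _, ?_⟩
  rw [coeff_unExpand, coeff_unExpand, h, HahnSeries.coeff_add, HahnSeries.coeff_add, ← map_pow,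
    HahnSeries.C_mul_eq_smul, HahnSeries.C_mul_eq_smul, HahnSeries.coeff_smul,
    HahnSeries.coeff_smul, h76p_sum_twist hℓ hζ y, if_pos (dvd_mul_right _ _), smul_eq_mul,
    smul_eq_mul]
  ring

/-- **DEPTH for fractions, series form**: for `μ ∈ A` dividing `ℓ` and `c` in `A`:
`U(∏_j (b + c z)(ζ^j t)) = U(∏_j b(ζ^j t)) + C (c μ) e`, `e` with coefficients in `A`. -/
theorem h76p_depth_frac {ζ : K} (hζ : IsPrimitiveRoot ζ ℓ) {c : K} (hc : c ∈ A)
    {b z : LaurentSeries K} (hb : b ∈ h76pInt A) (hz : z ∈ h76pInt A) (hb0 : b ≠ 0)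
    (μ : K) (hμℓ : ∃ a ∈ A, (ℓ : K) = μ * a) (hμc : ∃ a ∈ A, c = μ * a) :
    ∃ e ∈ h76pInt A,
      unExpand ℓ (∏ j ∈ Finset.range ℓ, twistK (ζ ^ j) (b + HahnSeries.C c * z)) =
        unExpand ℓ (∏ j ∈ Finset.range ℓ, twistK (ζ ^ j) b) + HahnSeries.C (c * μ) * e := by
  obtain ⟨u, hu, hu'⟩ := hμℓ
  obtain ⟨u₂, hu₂, hu₂'⟩ := hμc
  set Xa := unExpand ℓ (∏ j ∈ Finset.range ℓ, twistK (ζ ^ j) (b + HahnSeries.C c * z)) with hXa
  set Xb := unExpand ℓ (∏ j ∈ Finset.range ℓ, twistK (ζ ^ j) b) with hXb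
  have key : ∀ m, ∃ a ∈ A, (Xa - Xb).coeff m = c * μ * a := by
    intro m
    obtain ⟨a₁, ha₁, a₂, ha₂, h⟩ := h76p_depth_frac_coeff A hζ hc hb hz hb0 m
    refine ⟨u * a₁ + u₂ * a₂, A.add_mem _ _ (A.mul_mem _ _ hu ha₁) (A.mul_mem _ _ hu₂ ha₂), ?_⟩
    rw [HahnSeries.coeff_sub, h, hu']
    have e1 : c ^ 2 = c * (μ * u₂) := by rw [← hu₂']; ring
    rw [e1]
    ring
  by_cases h0 : c * μ = 0
  · refine ⟨0, (h76pInt A).zero_mem, ?_⟩
    have hX1 : Xa - Xb = 0 := by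
      ext m
      obtain ⟨a, -, ha⟩ := key m
      rw [ha, h0, zero_mul]
      rfl
    rw [mul_zero, add_zero]
    exact sub_eq_zero.1 hX1
  · refine ⟨HahnSeries.C (c * μ)⁻¹ * (Xa - Xb), ?_, ?_⟩
    · intro m
      obtain ⟨a, ha, ha'⟩ := key m
      rw [HahnSeries.C_mul_eq_smul, HahnSeries.coeff_smul, smul_eq_mul, ha', ← mul_assoc,
        inv_mul_cancel₀ h0, one_mul]
      exact ha
    · rw [← mul_assoc, ← map_mul, mul_inv_cancel₀ h0, map_one, one_mul]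
      ring

end Frac

/-! ### DEPTH for the norms along `α` and `β` -/

section FF

variable (A : ValuationSubring Kbar) (N ℓ : ℕ) [NeZero N] [NeZero ℓ]

/-- **DEPTH (α).**  If `w f = 1 + c x` with `x` Gauss-integral (`f ≡ 1` modulo `c` at `W_0`),
then `α (Norm_α f) = f · (1 + c μ x')` with `x'` Gauss-integral, for every `μ ∈ A` dividing `ℓ`
and `c` in `A`: the norm along `α` is congruent to `f` at `W_∞` modulo `c μ`. -/
theorem h76p_depth_alpha (hℓ : ℓ.Prime) (hN : ¬ ℓ ∣ N) (hA : A.LiesOverPrime ℓ)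
    [ExpChar (IsLocalRing.ResidueField A) ℓ] (f : FF (N * ℓ)) (hf : f ≠ 0)
    {c μ : Kbar} (hc : c ∈ A) (hμℓ : ∃ a ∈ A, (ℓ : Kbar) = μ * a) (hμc : ∃ a ∈ A, c = μ * a)
    (x : FF (N * ℓ)) (hx : x ∈ softV A (N * ℓ))
    (hfx : kFricke N ℓ hℓ hN f = 1 + cst (N * ℓ) c * x) :
    ∃ x' ∈ softV A (N * ℓ),
      heckeAlphaBar Kbar N ℓ
          (letI := algebraAlong (heckeAlphaBar Kbar N ℓ); Algebra.norm (FF N) f) =
        f * (1 + cst (N * ℓ) (c * μ) * x') := by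
  obtain ⟨ζ, hζ⟩ := HasEnoughRootsOfUnity.exists_primitiveRoot Kbar ℓ
  have hζ0 : ζ ≠ 0 := hζ.ne_zero (NeZero.ne ℓ)
  obtain ⟨z, b, hbne, hzb⟩ := (mem_softV_iff A (N * ℓ) x).mp hx
  set nf : FF N := (letI := algebraAlong (heckeAlphaBar Kbar N ℓ); Algebra.norm (FF N) f)
    with hnf
  have hB : embA A b ∈ h76pInt A := fun n => by
    rw [h36_embA_coeff]; exact (b.coeff n).2
  have hZ : embA A z ∈ h76pInt A := fun n => by
    rw [h36_embA_coeff]; exact (z.coeff n).2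
  have hB0 : embA A b ≠ 0 := by
    intro h
    apply hbne
    have hb0 : b = 0 := embA_injective A (h.trans (map_zero _).symm)
    rw [hb0, map_zero]
  obtain ⟨e, he, hdepth⟩ := h76p_depth_frac A hζ hc hB hZ hB0 μ hμℓ hμc
  set Pa : LaurentSeries Kbar :=
    ∏ j ∈ Finset.range ℓ, twistK (ζ ^ j) (embA A b + HahnSeries.C c * embA A z) with hPa
  set Pb : LaurentSeries Kbar := ∏ j ∈ Finset.range ℓ, twistK (ζ ^ j) (embA A b) with hPb
  have hqa : qExpand Kbar ℓ (unExpand ℓ Pa) = Pa :=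
    exists_qExpand_of_twistK_eq ℓ hζ Pa (twistK_prod_range ℓ hζ.pow_eq_one hζ0 _)
  have hqb : qExpand Kbar ℓ (unExpand ℓ Pb) = Pb :=
    exists_qExpand_of_twistK_eq ℓ hζ Pb (twistK_prod_range ℓ hζ.pow_eq_one hζ0 _)
  -- the expansion of `w f`
  have hw : ((kFricke N ℓ hℓ hN f : FF (N * ℓ)) : LaurentSeries Kbar) * embA A b =
      embA A b + HahnSeries.C c * embA A z := by
    rw [hfx]
    have e1 : ((1 + cst (N * ℓ) c * x : FF (N * ℓ)) : LaurentSeries Kbar) =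
        1 + HahnSeries.C c * (x : LaurentSeries Kbar) := by
      rw [← Fermat.Agent.Red.GV.coe_cst (N * ℓ) c]
      rfl
    rw [e1, hzb]
    ring
  have hprod : (∏ j ∈ Finset.range ℓ,
      twistK (ζ ^ j) ((kFricke N ℓ hℓ hN f : FF (N * ℓ)) : LaurentSeries Kbar)) * Pb = Pa := by
    rw [hPa, hPb, ← Finset.prod_mul_distrib]
    refine Finset.prod_congr rfl fun j _ => ?_
    rw [← twistK_mul (pow_ne_zero j hζ0), hw]
  have hnorm := h76n_norm_eq N ℓ hℓ hN ζ hζ f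
  have hmain : (nf : LaurentSeries Kbar) * unExpand ℓ Pb =
      (f : LaurentSeries Kbar) * unExpand ℓ Pa := by
    apply qExpand_injective (R := Kbar) ℓ
    rw [map_mul, map_mul, hqa, hqb, hnorm, mul_assoc, hprod]
  -- the Kronecker congruence for the denominator
  obtain ⟨a₀, ha₀, hred⟩ := h76n_norm_series2 A hℓ hA hζ.pow_eq_one 1 b (unExpand ℓ Pb)
    (fun j => twistK (ζ ^ j) (embA A b)) (fun j n => by rw [coeff_twistK, mul_comm])
    (by rw [hqb, map_one, map_one, one_mul])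
  have ha₀ne : redA (IsLocalRing.residue A) a₀ ≠ 0 := by
    rw [hred, map_one, one_mul]
    intro h0
    apply hbne
    exact Fermat.Agent.Red.ESTF.h76_coeffMap_injective _ (frobenius_inj _ ℓ)
      (by rw [h0, map_zero])
  have hXb0 : unExpand ℓ Pb ≠ 0 := by
    rw [← ha₀]
    intro h
    apply ha₀ne
    have : a₀ = 0 := embA_injective A (h.trans (map_zero _).symm)
    rw [this, map_zero]
  obtain ⟨e₀, he₀⟩ := (exists_embA_eq_iff A e).mpr he
  have hfL : (f : LaurentSeries Kbar) ≠ 0 := fun h => hf (Subtype.ext h)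
  have hαL : ((heckeAlphaBar Kbar N ℓ nf : FF (N * ℓ)) : LaurentSeries Kbar) =
      (nf : LaurentSeries Kbar) := coe_heckeAlphaBar (L := Kbar) N ℓ nf
  by_cases h0 : c * μ = 0
  · refine ⟨0, (softV A (N * ℓ)).zero_mem, ?_⟩
    rw [mul_zero, add_zero, mul_one]
    apply Subtype.ext
    rw [hαL]
    rw [hdepth, h0, map_zero, zero_mul, add_zero] at hmain
    exact mul_right_cancel₀ hXb0 hmain
  · have hC0 : (HahnSeries.C (c * μ) : LaurentSeries Kbar) ≠ 0 := by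
      intro h
      apply h0
      have := congrArg (fun s : LaurentSeries Kbar => s.coeff 0) h
      simpa using this
    set x' : FF (N * ℓ) := (heckeAlphaBar Kbar N ℓ nf * f⁻¹ - 1) * cst (N * ℓ) (c * μ)⁻¹
      with hx'
    have hcst0 : cst (N * ℓ) (c * μ) ≠ 0 := by
      intro h
      apply h0
      exact (algebraMap Kbar (FF (N * ℓ))).injective (h.trans (map_zero _).symm)
    refine ⟨x', ?_, ?_⟩
    · refine mem_softV_of_frac A (N * ℓ) x' e₀ a₀ ha₀ne ?_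
      have e1 : ((x' : FF (N * ℓ)) : LaurentSeries Kbar) =
          ((nf : LaurentSeries Kbar) * (f : LaurentSeries Kbar)⁻¹ - 1) *
            (HahnSeries.C (c * μ))⁻¹ := by
        rw [← hαL, ← Fermat.Agent.Red.GV.coe_cst (N * ℓ) (c * μ), hx', show cst (N * ℓ) (c * μ)⁻¹ = (cst (N * ℓ) (c * μ))⁻¹ from map_inv₀ _ _]
        rfl
      rw [he₀, ha₀, e1]
      have e2 : (nf : LaurentSeries Kbar) * (f : LaurentSeries Kbar)⁻¹ * unExpand ℓ Pb =
          unExpand ℓ Pa := by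
        rw [mul_right_comm, hmain, mul_right_comm, mul_inv_cancel₀ hfL, one_mul]
      have e3 : ((nf : LaurentSeries Kbar) * (f : LaurentSeries Kbar)⁻¹ - 1) * unExpand ℓ Pb =
          HahnSeries.C (c * μ) * e := by
        rw [sub_mul, e2, one_mul, hdepth]
        ring
      rw [mul_right_comm, e3, mul_right_comm, mul_inv_cancel₀ hC0, one_mul]
    · rw [hx', show cst (N * ℓ) (c * μ)⁻¹ = (cst (N * ℓ) (c * μ))⁻¹ from map_inv₀ _ _]
      field_simp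
      ring

/-- **DEPTH (β).**  If `f = 1 + c x` with `x` Gauss-integral (`f ≡ 1` modulo `c` at `W_∞`),
then `α (Norm_β f) = w f · (1 + c μ x')` with `x'` Gauss-integral: the norm along `β` is
congruent to `f` at `W_0` modulo `c μ`. -/
theorem h76p_depth_beta (hℓ : ℓ.Prime) (hN : ¬ ℓ ∣ N) (hA : A.LiesOverPrime ℓ)
    [ExpChar (IsLocalRing.ResidueField A) ℓ] (f : FF (N * ℓ)) (hf : f ≠ 0)
    {c μ : Kbar} (hc : c ∈ A) (hμℓ : ∃ a ∈ A, (ℓ : Kbar) = μ * a) (hμc : ∃ a ∈ A, c = μ * a)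
    (x : FF (N * ℓ)) (hx : x ∈ softV A (N * ℓ)) (hfx : f = 1 + cst (N * ℓ) c * x) :
    ∃ x' ∈ softV A (N * ℓ),
      heckeAlphaBar Kbar N ℓ
          (letI := algebraAlong (heckeBetaBar Kbar N ℓ); Algebra.norm (FF N) f) =
        kFricke N ℓ hℓ hN f * (1 + cst (N * ℓ) (c * μ) * x') := by
  have hwf : kFricke N ℓ hℓ hN f ≠ 0 := by
    intro h
    apply hf
    have := congrArg (kFricke N ℓ hℓ hN) h
    rwa [kFricke_kFricke, map_zero] at this
  have hww : kFricke N ℓ hℓ hN (kFricke N ℓ hℓ hN f) = 1 + cst (N * ℓ) c * x := by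
    rw [kFricke_kFricke]; exact hfx
  obtain ⟨x', hx', h⟩ := h76p_depth_alpha A N ℓ hℓ hN hA (kFricke N ℓ hℓ hN f) hwf hc hμℓ hμc
    x hx hww
  refine ⟨x', hx', ?_⟩
  rw [h76n_norm_beta_eq N ℓ hℓ hN f]
  exact h

/-- **DEPTH (β), at `W_0`.**  If `f = 1 + c x` with `x` Gauss-integral, then
`β (Norm_β f) = f · (1 + c μ · w x')` with `x'` Gauss-integral. -/
theorem h76p_depth_beta' (hℓ : ℓ.Prime) (hN : ¬ ℓ ∣ N) (hA : A.LiesOverPrime ℓ)
    [ExpChar (IsLocalRing.ResidueField A) ℓ] (f : FF (N * ℓ)) (hf : f ≠ 0)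
    {c μ : Kbar} (hc : c ∈ A) (hμℓ : ∃ a ∈ A, (ℓ : Kbar) = μ * a) (hμc : ∃ a ∈ A, c = μ * a)
    (x : FF (N * ℓ)) (hx : x ∈ softV A (N * ℓ)) (hfx : f = 1 + cst (N * ℓ) c * x) :
    ∃ x' ∈ softV A (N * ℓ),
      heckeBetaBar Kbar N ℓ
          (letI := algebraAlong (heckeBetaBar Kbar N ℓ); Algebra.norm (FF N) f) =
        f * (1 + cst (N * ℓ) (c * μ) * kFricke N ℓ hℓ hN x') := by
  obtain ⟨x', hx', h⟩ := h76p_depth_beta A N ℓ hℓ hN hA f hf hc hμℓ hμc x hx hfx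
  refine ⟨x', hx', ?_⟩
  have h1 := congrArg (kFricke N ℓ hℓ hN) h
  rw [kFricke_alpha, map_mul, kFricke_kFricke, map_add, map_one, map_mul] at h1
  rw [h1]
  congr 3
  exact (kFricke N ℓ hℓ hN).commutes (c * μ)

end FF

end Fermat.Agent.P6
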