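import Fermat.Agent.P6.H76DepthFF
import Fermat.Agent.P5.H72Arch
import Fermat.Agent.S37.Inertia

/-!
# P6 (wave 6, S33), block B2 (p-new classes): the DEPTH iteration (helper76)

`ℓ` a prime, `ℓ ∤ N`, `A` a valuation subring of `ℚ̄` over `ℓ`, `w` the Fricke involution of
`F_{Nℓ}`, `W_∞ = softV A (Nℓ)`, `W_0 = w⁻¹ W_∞`, `r` any exponent.

* `h76pNear A M r c f` : `f = h^r (1 + c x)` with `x` Gauss-integral: `f` is an `r`-th power
  modulo `c` at the Gauss valuation.  (`h76pNear … (w f)` is the same at `W_0`.)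
* `h76p_inv_one_add` : `(1 + c x)⁻¹ = 1 + c x''` for a non-unit `c`.
* `h76p_step` : if `Norm_α f` is an `r`-th power and `w f` is an `r`-th power modulo `c`
  (a non-unit), then `f` is an `r`-th power modulo `c μ` (`μ ∣ ℓ`, `μ ∣ c`).
* **`h76p_near_all`** : if `Norm_α f` and `Norm_β f` are `r`-th powers and `f` is an `r`-th power
  modulo some nonzero non-unit `c₀` at `W_∞`, then `f` is an `r`-th power modulo EVERY nonzero
  `C ∈ A`, at `W_∞` and at `W_0`.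
-/

set_option autoImplicit false
set_option linter.style.haveILetI false
set_option linter.unusedSectionVars false

open HahnSeries ModularCurve AlgebraicCurve

noncomputable section

namespace Fermat.Agent.P6

open Fermat.Agent.Red.Kron Fermat.Agent.S37 Fermat.Agent.Red.GV Fermat.Agent.Red.GV.Soft
  Fermat.Agent.S35 Fermat.Agent.P5

/-- `f` is an `r`-th power modulo `c` at the Gauss valuation of level `M`. -/
def h76pNear (A : ValuationSubring Kbar) (M : ℕ) (r : ℕ) (c : Kbar) (f : FF M) : Prop :=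
  ∃ h : FF M, ∃ x ∈ softV A M, f = h ^ r * (1 + cst M c * x)

section Basic

variable (A : ValuationSubring Kbar) (M : ℕ)

theorem h76p_near_mono {r : ℕ} {c c' a : Kbar} (ha : a ∈ A) (hc : c = c' * a) {f : FF M}
    (h : h76pNear A M r c f) : h76pNear A M r c' f := by
  obtain ⟨g, x, hx, hf⟩ := h
  refine ⟨g, cst M a * x, (softV A M).mul_mem ((cst_mem_softV_iff A M a).mpr ha) hx, ?_⟩
  rw [hf, hc, show cst M (c' * a) = cst M c' * cst M a from map_mul _ _ _]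
  ring

/-- `1 + c x` is invertible in the Gauss ring for a non-unit `c`. -/
theorem h76p_inv_one_add {ℓ : ℕ} (hℓ : ℓ.Prime) (hA : A.LiesOverPrime ℓ) {c : Kbar}
    (hc : c ∈ A.nonunits) {x : FF M} (hx : x ∈ softV A M) :
    ∃ x' ∈ softV A M, (1 + cst M c * x) ≠ 0 ∧ (1 + cst M c * x)⁻¹ = 1 + cst M c * x' := by
  set V : ValuationSubring (FF M) := softRing A M hℓ hA with hV
  have hxV : x ∈ V := hx
  have hcst : cst M c ∈ V.nonunits := by
    by_cases hc0 : c = 0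
    · rw [hc0, show cst M (0 : Kbar) = 0 from map_zero _]
      exact GalI.zero_mem_nonunits V
    · have hcst0 : cst M c ≠ 0 := fun h =>
        hc0 ((algebraMap Kbar (FF M)).injective (h.trans (map_zero _).symm))
      rw [GalI.mem_nonunits_iff_inv V hcst0, ← show cst M c⁻¹ = (cst M c)⁻¹ from map_inv₀ _ _]
      intro h
      have h1 : c⁻¹ ∈ A := (cst_mem_softV_iff A M c⁻¹).mp h
      exact ((GalI.mem_nonunits_iff_inv A hc0).mp hc) h1
  have hcx : cst M c * x ∈ V.nonunits := GalI.mul_mem_nonunits_left V hcst hxV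
  set y : FF M := 1 + cst M c * x with hy
  have hyn : y ∉ V.nonunits := by
    intro h
    have h1 : (1 : FF M) ∈ V.nonunits := by
      have e : (1 : FF M) = y - cst M c * x := by rw [hy]; ring
      rw [e]
      exact GalI.sub_mem_nonunits V h hcx
    rw [V.mem_nonunits_iff, map_one] at h1
    exact lt_irrefl _ h1
  rw [V.mem_nonunits_iff_or, not_or, not_not] at hyn
  obtain ⟨hy0, hyinv⟩ := hyn
  refine ⟨-x * y⁻¹, (softV A M).mul_mem ((softV A M).neg_mem hx) hyinv, hy0, ?_⟩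
  have e : 1 + cst M c * (-x * y⁻¹) = (y - cst M c * x) * y⁻¹ := by
    field_simp
    ring
  rw [e, show y - cst M c * x = 1 from by rw [hy]; ring, one_mul]

end Basic

/-! ### The step -/

section Step

variable (A : ValuationSubring Kbar) (N ℓ : ℕ) [NeZero N] [NeZero ℓ]

/-- the norm along `α`. -/
def h76pNa (f : FF (N * ℓ)) : FF N :=
  letI := algebraAlong (heckeAlphaBar Kbar N ℓ)
  Algebra.norm (FF N) f

theorem h76pNa_mul (f g : FF (N * ℓ)) :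
    h76pNa N ℓ (f * g) = h76pNa N ℓ f * h76pNa N ℓ g := by
  letI := algebraAlong (heckeAlphaBar Kbar N ℓ)
  exact map_mul (Algebra.norm (FF N)) f g

theorem h76pNa_one : h76pNa N ℓ (1 : FF (N * ℓ)) = 1 := by
  letI := algebraAlong (heckeAlphaBar Kbar N ℓ)
  exact map_one (Algebra.norm (FF N))

theorem h76pNa_pow (f : FF (N * ℓ)) (r : ℕ) : h76pNa N ℓ (f ^ r) = h76pNa N ℓ f ^ r := by
  letI := algebraAlong (heckeAlphaBar Kbar N ℓ)
  exact map_pow (Algebra.norm (FF N)) f r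

theorem h76pNa_ne_zero {g : FF (N * ℓ)} (hg : g ≠ 0) : h76pNa N ℓ g ≠ 0 := by
  intro h
  have h1 := h76pNa_mul N ℓ g g⁻¹
  rw [mul_inv_cancel₀ hg, h76pNa_one, h, zero_mul] at h1
  exact one_ne_zero h1

/-- **the step**: if `Norm_α f` is an `r`-th power and `w f` is an `r`-th power modulo the
non-unit `c`, then `f` is an `r`-th power modulo `c μ`. -/
theorem h76p_step (hℓ : ℓ.Prime) (hN : ¬ ℓ ∣ N) (hA : A.LiesOverPrime ℓ) {r : ℕ}
    (f : FF (N * ℓ)) (hf : f ≠ 0) (hα : ∃ H : FF N, h76pNa N ℓ f = H ^ r)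
    {c μ : Kbar} (hc : c ∈ A.nonunits) (hμ : μ ∈ A) (hμℓ : ∃ a ∈ A, (ℓ : Kbar) = μ * a)
    (hμc : ∃ a ∈ A, c = μ * a)
    (h0 : h76pNear A (N * ℓ) r c (kFricke N ℓ hℓ hN f)) :
    h76pNear A (N * ℓ) r (c * μ) f := by
  haveI : Fact ℓ.Prime := ⟨hℓ⟩
  haveI : CharP (IsLocalRing.ResidueField A) ℓ :=
    Base.h80_charP A (IsLocalRing.residue A) ℓ (isResidueMap_residue A ℓ hA)
  haveI : ExpChar (IsLocalRing.ResidueField A) ℓ := ExpChar.prime hℓ
  have hwf0 : kFricke N ℓ hℓ hN f ≠ 0 := by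
    intro h1
    apply hf
    have := congrArg (kFricke N ℓ hℓ hN) h1
    rwa [kFricke_kFricke, map_zero] at this
  -- WLOG `h ≠ 0`
  have key : ∃ h : FF (N * ℓ), h ≠ 0 ∧ ∃ x ∈ softV A (N * ℓ),
      kFricke N ℓ hℓ hN f = h ^ r * (1 + cst (N * ℓ) c * x) := by
    obtain ⟨h, x, hx, hwf⟩ := h0
    by_cases hh : h = 0
    · have hr : r = 0 := by
        by_contra hr
        rw [hwf, hh, zero_pow hr, zero_mul] at hwf0
        exact hwf0 rfl
      refine ⟨1, one_ne_zero, x, hx, ?_⟩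
      rw [hwf, hr, pow_zero, pow_zero]
    · exact ⟨h, hh, x, hx, hwf⟩
  obtain ⟨h, hh0, x, hx, hwf⟩ := key
  set g : FF (N * ℓ) := kFricke N ℓ hℓ hN h with hg
  have hwg : kFricke N ℓ hℓ hN g = h := by rw [hg, kFricke_kFricke]
  have hg0 : g ≠ 0 := by
    intro h1
    rw [h1, map_zero] at hwg
    exact hh0 hwg.symm
  have hgr : g ^ r ≠ 0 := pow_ne_zero r hg0
  have hhr : h ^ r ≠ 0 := pow_ne_zero r hh0
  set f₁ : FF (N * ℓ) := f * (g ^ r)⁻¹ with hf₁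
  have hf₁0 : f₁ ≠ 0 := mul_ne_zero hf (inv_ne_zero hgr)
  have hff : f₁ * g ^ r = f := by
    rw [hf₁, mul_assoc, inv_mul_cancel₀ hgr, mul_one]
  have hw1 : kFricke N ℓ hℓ hN f₁ = 1 + cst (N * ℓ) c * x := by
    rw [hf₁, map_mul, map_inv₀, map_pow, hwg, hwf]
    field_simp
  have hcA : c ∈ A := GalI.nonunits_le A hc
  obtain ⟨x', hx', hd⟩ := h76p_depth_alpha A N ℓ hℓ hN hA f₁ hf₁0 hcA hμℓ hμc x hx hw1
  obtain ⟨H, hH⟩ := hα
  have hNg : h76pNa N ℓ g ≠ 0 := h76pNa_ne_zero N ℓ hg0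
  have hN1 : h76pNa N ℓ f₁ * h76pNa N ℓ g ^ r = H ^ r := by
    rw [← h76pNa_pow, ← h76pNa_mul, hff, hH]
  set H₁ : FF N := H * (h76pNa N ℓ g)⁻¹ with hH₁
  have hN2 : h76pNa N ℓ f₁ = H₁ ^ r := by
    rw [hH₁, mul_pow, ← hN1, inv_pow, mul_assoc, mul_inv_cancel₀ (pow_ne_zero r hNg), mul_one]
  have hcμ : c * μ ∈ A.nonunits := GalI.mul_mem_nonunits_left A hc hμ
  obtain ⟨x'', hx'', hne, hinv⟩ := h76p_inv_one_add A (N * ℓ) hℓ hA hcμ hx'
  have hd' : heckeAlphaBar Kbar N ℓ H₁ ^ r = f₁ * (1 + cst (N * ℓ) (c * μ) * x') := by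
    rw [← map_pow, ← hN2]
    exact hd
  have hf₁' : f₁ = heckeAlphaBar Kbar N ℓ H₁ ^ r * (1 + cst (N * ℓ) (c * μ) * x'') := by
    rw [← hinv, hd', mul_assoc, mul_inv_cancel₀ hne, mul_one]
  refine ⟨heckeAlphaBar Kbar N ℓ H₁ * g, x'', hx'', ?_⟩
  rw [← hff, hf₁', mul_pow]
  ring

/-- the same for `w f`: if `Norm_β f` is an `r`-th power and `f` is an `r`-th power modulo the
non-unit `c`, then `w f` is an `r`-th power modulo `c μ`. -/
theorem h76p_step' (hℓ : ℓ.Prime) (hN : ¬ ℓ ∣ N) (hA : A.LiesOverPrime ℓ) {r : ℕ}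
    (f : FF (N * ℓ)) (hf : f ≠ 0)
    (hβ : ∃ H : FF N,
      (letI := algebraAlong (heckeBetaBar Kbar N ℓ); Algebra.norm (FF N) f) = H ^ r)
    {c μ : Kbar} (hc : c ∈ A.nonunits) (hμ : μ ∈ A) (hμℓ : ∃ a ∈ A, (ℓ : Kbar) = μ * a)
    (hμc : ∃ a ∈ A, c = μ * a) (h0 : h76pNear A (N * ℓ) r c f) :
    h76pNear A (N * ℓ) r (c * μ) (kFricke N ℓ hℓ hN f) := by
  have hwf0 : kFricke N ℓ hℓ hN f ≠ 0 := by
    intro h1
    apply hf
    have := congrArg (kFricke N ℓ hℓ hN) h1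
    rwa [kFricke_kFricke, map_zero] at this
  have hβ' : ∃ H : FF N, h76pNa N ℓ (kFricke N ℓ hℓ hN f) = H ^ r := by
    obtain ⟨H, hH⟩ := hβ
    refine ⟨H, ?_⟩
    rw [← hH, h76n_norm_beta_eq N ℓ hℓ hN f]
    rfl
  refine h76p_step A N ℓ hℓ hN hA (kFricke N ℓ hℓ hN f) hwf0 hβ' hc hμ hμℓ hμc ?_
  rw [kFricke_kFricke]
  exact h0

/-! ### The iteration -/

/-- **DEPTH, iterated**: if `Norm_α f` and `Norm_β f` are `r`-th powers and `f` is an `r`-th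
power modulo a nonzero non-unit `c₀` at `W_∞`, then `f` is an `r`-th power modulo EVERY nonzero
`C ∈ A`, at `W_∞` and at `W_0`. -/
theorem h76p_near_all (hℓ : ℓ.Prime) (hN : ¬ ℓ ∣ N) (hA : A.LiesOverPrime ℓ) {r : ℕ}
    (f : FF (N * ℓ)) (hf : f ≠ 0)
    (hα : ∃ H : FF N,
      (letI := algebraAlong (heckeAlphaBar Kbar N ℓ); Algebra.norm (FF N) f) = H ^ r)
    (hβ : ∃ H : FF N,
      (letI := algebraAlong (heckeBetaBar Kbar N ℓ); Algebra.norm (FF N) f) = H ^ r)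
    {c₀ : Kbar} (hc₀ : c₀ ∈ A.nonunits) (hc₀0 : c₀ ≠ 0)
    (h : h76pNear A (N * ℓ) r c₀ f) :
    ∀ C ∈ A, C ≠ 0 → h76pNear A (N * ℓ) r C f ∧
      h76pNear A (N * ℓ) r C (kFricke N ℓ hℓ hN f) := by
  have hℓK : (ℓ : Kbar) ≠ 0 := Nat.cast_ne_zero.mpr hℓ.ne_zero
  have hℓn : (ℓ : Kbar) ∈ A.nonunits := hA
  have hα' : ∃ H : FF N, h76pNa N ℓ f = H ^ r := hα
  -- the "gcd" `m` of `c₀` and `ℓ`
  have hm : ∃ m : Kbar, m ∈ A.nonunits ∧ m ≠ 0 ∧ (∃ a ∈ A, (ℓ : Kbar) = m * a) ∧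
      ∃ a ∈ A, c₀ = m * a := by
    rcases A.mem_or_inv_mem ((ℓ : Kbar) * c₀⁻¹) with h1 | h1
    · exact ⟨c₀, hc₀, hc₀0,
        ⟨(ℓ : Kbar) * c₀⁻¹, h1, by rw [mul_comm, mul_assoc, inv_mul_cancel₀ hc₀0, mul_one]⟩,
        ⟨1, A.one_mem, (mul_one _).symm⟩⟩
    · refine ⟨ℓ, hℓn, hℓK, ⟨1, A.one_mem, (mul_one _).symm⟩, ⟨((ℓ : Kbar) * c₀⁻¹)⁻¹, h1, ?_⟩⟩
      rw [mul_inv, inv_inv, ← mul_assoc, mul_inv_cancel₀ hℓK, one_mul]
  obtain ⟨m, hmn, hm0, hmℓ, ⟨a₀, ha₀, hmc⟩⟩ := hm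
  have hmA : m ∈ A := GalI.nonunits_le A hmn
  have hpow : ∀ n : ℕ, m ^ (n + 1) ∈ A.nonunits := by
    intro n
    rw [pow_succ']
    exact GalI.mul_mem_nonunits_left A hmn (pow_mem hmA n)
  have hQ : ∀ n : ℕ, h76pNear A (N * ℓ) r (m ^ (n + 1)) f ∧
      h76pNear A (N * ℓ) r (m ^ (n + 1)) (kFricke N ℓ hℓ hN f) := by
    intro n
    induction n with
    | zero =>
      have h1 : h76pNear A (N * ℓ) r m f := h76p_near_mono A (N * ℓ) ha₀ hmc h
      have h2 := h76p_step' A N ℓ hℓ hN hA f hf hβ hmn hmA hmℓ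
        ⟨1, A.one_mem, (mul_one _).symm⟩ h1
      rw [zero_add, pow_one]
      exact ⟨h1, h76p_near_mono A (N * ℓ) hmA rfl h2⟩
    | succ n ih =>
      have hdiv : ∃ a ∈ A, m ^ (n + 1) = m * a := ⟨m ^ n, pow_mem hmA n, pow_succ' m n⟩
      have h1 := h76p_step A N ℓ hℓ hN hA f hf hα' (hpow n) hmA hmℓ hdiv ih.2
      have h2 := h76p_step' A N ℓ hℓ hN hA f hf hβ (hpow n) hmA hmℓ hdiv ih.1
      rw [pow_succ m (n + 1)]
      exact ⟨h1, h2⟩
  intro C hC hC0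
  obtain ⟨n, a, ha, hna⟩ := h72a_archQbar A ℓ hℓ hA m C hmn hC hC0
  have e : m ^ (n + 1) = C * (a * m) := by rw [pow_succ, hna]; ring
  exact ⟨h76p_near_mono A (N * ℓ) (A.mul_mem _ _ ha hmA) e (hQ n).1,
    h76p_near_mono A (N * ℓ) (A.mul_mem _ _ ha hmA) e (hQ n).2⟩

end Step

end Fermat.Agent.P6
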