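import Fermat.Agent.P6.H71NewIface
import Fermat.Agent.P6.H76DepthIter

/-!
# P6 (wave 6, S33), block B2 (1), leaf LADDER (helper76)

`h76p_ladder : H71Ladder` (exact frozen Prop of `P6/H71NewIface.lean`, unconditional): if the
norms of `w` along `α` and `β` are `r`-th powers and `w / g ^ r ∈ 1 + π₀ W_∞` for ONE nonzero
`π₀ ∈ 𝔪_A`, then for EVERY nonzero `e ∈ 𝔪_A` there are representatives of depth `e` at `W_∞` and
at `W_0`.  This is the landed depth iteration `h76p_near_all` in the frozen vocabulary.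
-/

set_option autoImplicit false
set_option linter.style.haveILetI false
set_option linter.unusedSectionVars false
set_option synthInstance.maxHeartbeats 400000

open AlgebraicCurve ModularCurve IsLocalRing

noncomputable section

namespace Fermat.Agent.P6

open Fermat.Agent.Red.GV Fermat.Agent.Red.GV.Soft Fermat.Agent.Red.Kron Fermat.Agent.LGC
  Fermat.Agent.S37 Fermat.Agent.Red Fermat.Agent.Red.KR

/-- `f = h ^ r (1 + c x)` with `f ≠ 0` gives `h ≠ 0` and `f / h ^ r = 1 + c x`. -/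
theorem h76p_cong_of_near (A : ValuationSubring Kbar) (N : ℕ) {r : ℕ} {c : Kbar} {f : FF N}
    (hf : f ≠ 0) (h : h76pNear A N r c f) :
    ∃ g : FF N, g ≠ 0 ∧ H71Cong A N c (f * (g ^ r)⁻¹) := by
  obtain ⟨g, x, hx, e⟩ := h
  have hg : g ^ r ≠ 0 := by
    intro h0
    rw [h0, zero_mul] at e
    exact hf e
  by_cases hg0 : g = 0
  · subst hg0
    have hr : r = 0 := by
      by_contra hr
      exact hg (zero_pow hr)
    subst hr
    refine ⟨1, one_ne_zero, x, hx, ?_⟩
    rw [e]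
    simp
  · refine ⟨g, hg0, x, hx, ?_⟩
    rw [e, mul_comm (g ^ r), mul_assoc, mul_inv_cancel₀ hg, mul_one]

/-- **LADDER** (exact frozen Prop). -/
theorem h76p_ladder : H71Ladder := by
  intro ℓ hℓ M _ hM
  haveI : NeZero ℓ := ⟨hℓ.ne_zero⟩
  intro A hA r hr w hw hα hβ hstart e he he0
  obtain ⟨π₀, hπ₀, hπ₀0, g, hg, z, hz, hgz⟩ := hstart
  have hgr : g ^ r ≠ 0 := pow_ne_zero r hg
  have hnear : h76pNear A (M * ℓ) r π₀ w := by
    refine ⟨g, z, hz, ?_⟩
    rw [← hgz, mul_comm w, ← mul_assoc, mul_inv_cancel₀ hgr, one_mul]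
  obtain ⟨h1, h2⟩ := h76p_near_all A M ℓ hℓ hM hA w hw hα hβ hπ₀ hπ₀0 hnear e
    (ValuationSubring.nonunits_subset he) he0
  refine ⟨h76p_cong_of_near A (M * ℓ) hw h1, ?_⟩
  have hkw : kFricke M ℓ hℓ hM w ≠ 0 := by
    rw [Ne, map_eq_zero_iff _ (kFricke M ℓ hℓ hM).injective]
    exact hw
  obtain ⟨g', hg', hc⟩ := h76p_cong_of_near A (M * ℓ) hkw h2
  refine ⟨kFricke M ℓ hℓ hM g', ?_, ?_⟩
  · rw [Ne, map_eq_zero_iff _ (kFricke M ℓ hℓ hM).injective]
    exact hg'
  · rw [map_mul, map_inv₀, map_pow, kFricke_kFricke]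
    exact hc

end Fermat.Agent.P6
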