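import Mathlib
import Fermat.Prelude.Def_ModularForm_HeckeOperatorForms
import Fermat.Agent.S22

/-!
# Wave 6 (S33), block B5 (G1), analytic input (helper7, prefix `h7b_`)

For a prime `p` not dividing `N`, every eigenvalue `lam` of the Hecke operator `T_p` on the cusp
forms of weight `2` and level `Γ₀(N)` satisfies `‖lam‖ < p + 1`.  In particular `± (p + 1)` is not
an eigenvalue, and `T_p ^ 2 - (p + 1) ^ 2` is injective on `S₂(Γ₀(N))`.

Proof (elementary): `φ(τ) = ‖f τ‖ * im τ` is invariant under `Γ₀(N)`, continuous and tends to `0`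
at every cusp, hence attains its maximum `M` at some `z₀`.  The formula for `T_p` gives
`‖lam‖ * φ(τ) ≤ ∑_j φ((τ + j) / p) + φ(p τ)`; if `p + 1 ≤ ‖lam‖` then `φ(p τ) = M` whenever
`φ(τ) = M`, so `φ(p ^ n z₀) = M` for all `n`, which contradicts the decay of `φ` at `i∞` unless
`M = 0`.
-/

set_option autoImplicit false
set_option linter.style.haveILetI false

open Filter Topology UpperHalfPlane
open scoped Modular MatrixGroups ModularForm

noncomputable section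

namespace Fermat.Agent.P6

/-- a continuous nonnegative `SL(2, ℤ)`-invariant function on the upper half plane which tends to
`0` at `i∞` attains its maximum. -/
theorem h7b_exists_max_SL {G : ℍ → ℝ} (hc : Continuous G) (h0 : ∀ τ, 0 ≤ G τ)
    (hinf : Tendsto G atImInfty (𝓝 0))
    (hinv : ∀ (g : SL(2, ℤ)) (τ : ℍ), G (g • τ) = G τ) :
    ∃ z₀ : ℍ, ∀ τ, G τ ≤ G z₀ := by
  by_cases hz : ∀ τ, G τ ≤ 0
  · exact ⟨UpperHalfPlane.I, fun τ => (hz τ).trans (h0 _)⟩
  · obtain ⟨τ₁', hτ₁''⟩ := not_forall.mp hz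
    have hτ₁' : 0 < G τ₁' := not_le.mp hτ₁''
    obtain ⟨g₁, hg₁⟩ := ModularGroup.exists_smul_mem_fd τ₁'
    set τ₁ := g₁ • τ₁' with hτ₁def
    have hτ₁ : 0 < G τ₁ := by rw [hτ₁def, hinv]; exact hτ₁'
    have hev : ∀ᶠ τ in atImInfty, G τ < G τ₁ := hinf.eventually (gt_mem_nhds hτ₁)
    obtain ⟨Y, hY⟩ := (UpperHalfPlane.atImInfty_mem _).mp hev
    have hτ₁K : τ₁ ∈ ModularGroup.truncatedFundamentalDomain Y := by
      refine ⟨hg₁, ?_⟩
      by_contra hlt
      have hlt' : Y < τ₁.im := not_le.mp hlt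
      exact lt_irrefl (G τ₁) (hY τ₁ hlt'.le)
    obtain ⟨z₀, hz₀K, hz₀⟩ :=
      (ModularGroup.isCompact_truncatedFundamentalDomain Y).exists_isMaxOn ⟨τ₁, hτ₁K⟩
        hc.continuousOn
    refine ⟨z₀, fun τ => ?_⟩
    obtain ⟨g, hg⟩ := ModularGroup.exists_smul_mem_fd τ
    rw [← hinv g τ]
    rcases le_or_gt (g • τ).im Y with h | h
    · exact hz₀ ⟨hg, h⟩
    · have h1 : G (g • τ) < G τ₁ := hY _ h.le
      exact h1.le.trans (hz₀ hτ₁K)

/-- a continuous nonnegative function on the upper half plane, invariant under a subgroup of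
finite index of `SL(2, ℤ)` and tending to `0` at every cusp, attains its maximum. -/
theorem h7b_exists_max {F : ℍ → ℝ} (hc : Continuous F) (h0 : ∀ τ, 0 ≤ F τ)
    (hinf : ∀ g : SL(2, ℤ), Tendsto (fun τ => F (g • τ)) atImInfty (𝓝 0))
    {Γ : Subgroup SL(2, ℤ)} [Γ.FiniteIndex] (hinv : ∀ g ∈ Γ, ∀ τ, F (g • τ) = F τ) :
    ∃ z₀ : ℍ, ∀ τ, F τ ≤ F z₀ := by
  let f' : ℍ → SL(2, ℤ) ⧸ Γ → ℝ := fun τ => Quotient.lift (fun g ↦ F (g⁻¹ • τ)) fun g h hgh ↦ by
    obtain ⟨j, hj, hj'⟩ : ∃ j ∈ Γ, h = g * j := by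
      rw [← Quotient.eq_iff_equiv, Quotient.eq, QuotientGroup.leftRel_apply] at hgh
      exact ⟨g⁻¹ * h, hgh, (mul_inv_cancel_left g h).symm⟩
    show F (g⁻¹ • τ) = F (h⁻¹ • τ)
    rw [hj', mul_inv_rev, mul_smul]
    exact (hinv j⁻¹ (inv_mem hj) _).symm
  have hf'mk : ∀ (τ : ℍ) (g : SL(2, ℤ)), f' τ (QuotientGroup.mk g) = F (g⁻¹ • τ) := fun τ g => rfl
  have hf'_cont : ∀ γ, Continuous (f' · γ) := fun γ => QuotientGroup.induction_on γ fun g ↦ by
    simp only [hf'mk, ModularGroup.sl_moeb]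
    fun_prop
  have hf'_inv : ∀ (τ : ℍ) (g : SL(2, ℤ)) (γ : SL(2, ℤ) ⧸ Γ), f' (g • τ) (g • γ) = f' τ γ := by
    intro τ g γ
    induction γ using QuotientGroup.induction_on with
    | H x =>
      have : g • (QuotientGroup.mk x : SL(2, ℤ) ⧸ Γ) = QuotientGroup.mk (g * x) := rfl
      rw [this, hf'mk, hf'mk, mul_inv_rev, mul_smul, inv_smul_smul]
  have hf'_infty : ∀ γ, Tendsto (f' · γ) atImInfty (𝓝 0) := fun γ =>
    QuotientGroup.induction_on γ fun h ↦ by
      simp only [hf'mk]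
      exact hinf h⁻¹
  letI : Fintype (SL(2, ℤ) ⧸ Γ) := Subgroup.fintypeQuotientOfFiniteIndex
  let Ψ : ℍ → ℝ := fun τ => Finset.univ.sup' Finset.univ_nonempty (f' τ)
  have hΨle : ∀ τ γ, f' τ γ ≤ Ψ τ := fun τ γ =>
    Finset.le_sup' (f' τ) (Finset.mem_univ γ)
  have hFΨ : ∀ τ, F τ ≤ Ψ τ := fun τ => by
    have h1 := hΨle τ (QuotientGroup.mk 1)
    rwa [hf'mk, inv_one, one_smul] at h1
  have hΨc : Continuous Ψ :=
    Continuous.finset_sup'_apply Finset.univ_nonempty fun i _ => hf'_cont i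
  have hΨ0 : ∀ τ, 0 ≤ Ψ τ := fun τ => (h0 τ).trans (hFΨ τ)
  have hΨinf : Tendsto Ψ atImInfty (𝓝 0) := by
    have h := Tendsto.finset_sup'_nhds_apply (s := (Finset.univ : Finset (SL(2, ℤ) ⧸ Γ)))
      (f := fun γ τ => f' τ γ) (g := fun _ => (0 : ℝ)) Finset.univ_nonempty
      (fun i _ => hf'_infty i)
    simpa using h
  have hΨinv : ∀ (g : SL(2, ℤ)) (τ : ℍ), Ψ (g • τ) = Ψ τ := by
    intro g τ
    apply le_antisymm
    · refine Finset.sup'_le _ _ fun γ _ => ?_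
      have h1 := hf'_inv τ g (g⁻¹ • γ)
      rw [smul_inv_smul] at h1
      rw [h1]
      exact hΨle τ _
    · refine Finset.sup'_le _ _ fun γ _ => ?_
      rw [← hf'_inv τ g γ]
      exact hΨle _ _
  obtain ⟨τ₀, hτ₀⟩ := h7b_exists_max_SL hΨc hΨ0 hΨinf hΨinv
  obtain ⟨γ₀, -, hγ₀⟩ := Finset.exists_mem_eq_sup' Finset.univ_nonempty (f' τ₀)
  obtain ⟨g₀, rfl⟩ := QuotientGroup.mk_surjective γ₀
  refine ⟨g₀⁻¹ • τ₀, fun τ => ?_⟩
  calc F τ ≤ Ψ τ := hFΨ τ
    _ ≤ Ψ τ₀ := hτ₀ τ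
    _ = F (g₀⁻¹ • τ₀) := by rw [← hf'mk]; exact hγ₀

open ConjAct Pointwise Matrix.SpecialLinearGroup in
/-- the Petersson norm of a cusp form tends to `0` at every cusp. -/
theorem h7b_petersson_tendsto (k : ℤ) (Γ : Subgroup (GL (Fin 2) ℝ)) [Γ.IsArithmetic]
    {F : Type*} [FunLike F ℍ ℂ] [CuspFormClass F Γ k] (f : F) (g : SL(2, ℤ)) :
    Tendsto (fun τ => ‖UpperHalfPlane.petersson k f f (g • τ)‖) atImInfty (𝓝 0) := by
  rw [← tendsto_zero_iff_norm_tendsto_zero]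
  simp_rw [← UpperHalfPlane.petersson_slash_SL]
  have : ((toConjAct (g : GL (Fin 2) ℝ)⁻¹) • Γ).IsArithmetic := by
    simpa [(show Rat.castHom ℝ = algebraMap ℚ ℝ by rfl), map_inv, map_mapGL]
      using! Subgroup.IsArithmetic.conj Γ (mapGL ℚ g)⁻¹
  exact (CuspFormClass.zero_at_infty <| CuspForm.translate f g).petersson_isZeroAtImInfty_left k _
    (ModularForm.translate f g)

open Matrix.SpecialLinearGroup in
/-- the Petersson norm of a cusp form attains its maximum. -/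
theorem h7b_petersson_max (k : ℤ) (Γ : Subgroup (GL (Fin 2) ℝ)) [Γ.IsArithmetic]
    {F : Type*} [FunLike F ℍ ℂ] [CuspFormClass F Γ k] (f : F) :
    ∃ z₀ : ℍ, ∀ τ, ‖UpperHalfPlane.petersson k f f τ‖ ≤ ‖UpperHalfPlane.petersson k f f z₀‖ := by
  refine h7b_exists_max (F := fun τ => ‖UpperHalfPlane.petersson k f f τ‖)
    (by fun_prop) (fun τ => norm_nonneg _) (fun g => h7b_petersson_tendsto k Γ f g)
    (Γ := Γ.comap (mapGL ℝ)) (fun g hg τ => ?_)
  exact SlashInvariantFormClass.norm_petersson_smul hg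

/-- the invariant height function `φ(τ) = ‖f τ‖ * im τ` of a weight `2` form. -/
def h7bPhi (f : ℍ → ℂ) (τ : ℍ) : ℝ := ‖f τ‖ * τ.im

theorem h7bPhi_nonneg (f : ℍ → ℂ) (τ : ℍ) : 0 ≤ h7bPhi f τ :=
  mul_nonneg (norm_nonneg _) τ.im_pos.le

theorem h7b_norm_petersson (f : ℍ → ℂ) (τ : ℍ) :
    ‖UpperHalfPlane.petersson 2 f f τ‖ = h7bPhi f τ ^ 2 := by
  unfold UpperHalfPlane.petersson h7bPhi
  rw [norm_mul, norm_mul, Complex.norm_conj]
  have h1 : ‖((τ.im : ℂ)) ^ (2 : ℤ)‖ = τ.im ^ 2 := by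
    rw [norm_zpow, Complex.norm_real, Real.norm_of_nonneg τ.im_pos.le]
    norm_cast
  rw [h1]
  ring

theorem h7b_im_heckeMatrix {p : ℕ} (hp : p ≠ 0) (j : ℕ) (τ : ℍ) :
    (ModularForm.heckeMatrix p j • τ).im = τ.im / p := by
  have h := ModularForm.coe_heckeMatrix_smul hp j τ
  have h2 : ((ModularForm.heckeMatrix p j • τ : ℍ) : ℂ).im = (((τ : ℂ) + j) / p).im := by rw [h]
  rw [UpperHalfPlane.coe_im] at h2
  rw [h2, Complex.div_natCast_im, Complex.add_im, Complex.natCast_im, add_zero,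
    UpperHalfPlane.coe_im]

theorem h7b_im_heckeDiagMatrix {p : ℕ} (hp : p ≠ 0) (τ : ℍ) :
    (ModularForm.heckeDiagMatrix p • τ).im = p * τ.im := by
  have h := ModularForm.coe_heckeDiagMatrix_smul hp τ
  have h2 : ((ModularForm.heckeDiagMatrix p • τ : ℍ) : ℂ).im = ((p : ℂ) * (τ : ℂ)).im := by rw [h]
  rw [UpperHalfPlane.coe_im] at h2
  rw [h2]
  simp

/-- the Hecke inequality: if `T_p f = lam f` then `‖lam‖ φ(τ)` is at most the sum of `φ` over the
`p + 1` Hecke neighbours of `τ`. -/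
theorem h7b_hecke_ineq {p : ℕ} (hp : p ≠ 0) (f : ℍ → ℂ) (lam : ℂ)
    (h : ∀ τ, ModularForm.heckeT 2 p f τ = lam * f τ) (τ : ℍ) :
    ‖lam‖ * h7bPhi f τ ≤
      ∑ j ∈ Finset.range p, h7bPhi f (ModularForm.heckeMatrix p j • τ) +
        h7bPhi f (ModularForm.heckeDiagMatrix p • τ) := by
  have hp0 : (0 : ℝ) < p := by exact_mod_cast Nat.pos_of_ne_zero hp
  have e := h τ
  rw [ModularForm.heckeT_apply 2 hp] at e
  have e1 : ‖lam‖ * ‖f τ‖ ≤ (p : ℝ)⁻¹ * ∑ j ∈ Finset.range p, ‖f (ModularForm.heckeMatrix p j • τ)‖ +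
      (p : ℝ) * ‖f (ModularForm.heckeDiagMatrix p • τ)‖ := by
    rw [← norm_mul, ← e]
    refine (norm_add_le _ _).trans ?_
    refine add_le_add ?_ ?_
    · rw [norm_mul, norm_inv, Complex.norm_natCast]
      exact mul_le_mul_of_nonneg_left (norm_sum_le _ _) (inv_nonneg.mpr hp0.le)
    · rw [norm_mul]
      refine le_of_eq ?_
      congr 1
      rw [show (2 : ℤ) - 1 = 1 by norm_num, zpow_one, Complex.norm_natCast]
  unfold h7bPhi
  have e2 := mul_le_mul_of_nonneg_right e1 τ.im_pos.le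
  have e3 : ∑ j ∈ Finset.range p, ‖f (ModularForm.heckeMatrix p j • τ)‖ *
      (ModularForm.heckeMatrix p j • τ).im =
      ((p : ℝ)⁻¹ * ∑ j ∈ Finset.range p, ‖f (ModularForm.heckeMatrix p j • τ)‖) * τ.im := by
    rw [Finset.mul_sum, Finset.sum_mul]
    refine Finset.sum_congr rfl fun j _ => ?_
    rw [h7b_im_heckeMatrix hp]
    field_simp
  rw [e3, h7b_im_heckeDiagMatrix hp]
  calc ‖lam‖ * (‖f τ‖ * τ.im) = ‖lam‖ * ‖f τ‖ * τ.im := by ring
    _ ≤ _ := e2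
    _ = _ := by ring

/-- the points `p ^ n • z₀`. -/
def h7bIter (p : ℕ) (z₀ : ℍ) : ℕ → ℍ
  | 0 => z₀
  | n + 1 => ModularForm.heckeDiagMatrix p • h7bIter p z₀ n

theorem h7bIter_im {p : ℕ} (hp : p ≠ 0) (z₀ : ℍ) (n : ℕ) :
    (h7bIter p z₀ n).im = (p : ℝ) ^ n * z₀.im := by
  induction n with
  | zero => simp [h7bIter]
  | succ n ih =>
    show (ModularForm.heckeDiagMatrix p • h7bIter p z₀ n).im = _
    rw [h7b_im_heckeDiagMatrix hp, ih, pow_succ]
    ring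

/-- **the eigenvalue bound, function form.** -/
theorem h7b_eigen_lt_fun {p : ℕ} (hp : 2 ≤ p) (f : ℍ → ℂ) (lam : ℂ)
    (h : ∀ τ, ModularForm.heckeT 2 p f τ = lam * f τ)
    (z₀ : ℍ) (hmax : ∀ τ, h7bPhi f τ ≤ h7bPhi f z₀) (hpos : 0 < h7bPhi f z₀)
    (hdecay : Tendsto (fun τ => h7bPhi f τ ^ 2) atImInfty (𝓝 0)) :
    ‖lam‖ < p + 1 := by
  have hp0 : p ≠ 0 := by omega
  by_contra hge
  have hge' : (p : ℝ) + 1 ≤ ‖lam‖ := not_lt.mp hge
  set M := h7bPhi f z₀ with hM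
  have hiter : ∀ n, h7bPhi f (h7bIter p z₀ n) = M := by
    intro n
    induction n with
    | zero => rfl
    | succ n ih =>
      have h1 := h7b_hecke_ineq hp0 f lam h (h7bIter p z₀ n)
      rw [ih] at h1
      have h2 : ∑ j ∈ Finset.range p,
          h7bPhi f (ModularForm.heckeMatrix p j • h7bIter p z₀ n) ≤ p * M := by
        calc _ ≤ ∑ _j ∈ Finset.range p, M := Finset.sum_le_sum fun j _ => hmax _
          _ = p * M := by simp
      have h3 : ((p : ℝ) + 1) * M ≤ ‖lam‖ * M := mul_le_mul_of_nonneg_right hge' hpos.le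
      have h4 : M ≤ h7bPhi f (ModularForm.heckeDiagMatrix p • h7bIter p z₀ n) := by linarith
      exact le_antisymm (hmax _) h4
  have hM2 : 0 < M ^ 2 := by positivity
  have hev : ∀ᶠ τ in atImInfty, h7bPhi f τ ^ 2 < M ^ 2 := hdecay.eventually (gt_mem_nhds hM2)
  obtain ⟨Y, hY⟩ := (UpperHalfPlane.atImInfty_mem _).mp hev
  have hp1 : (1 : ℝ) < p := by exact_mod_cast hp
  obtain ⟨n, hn⟩ := pow_unbounded_of_one_lt (Y / z₀.im) hp1
  have hn' : Y ≤ (h7bIter p z₀ n).im := by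
    rw [h7bIter_im hp0]
    have := (div_lt_iff₀ z₀.im_pos).mp hn
    exact this.le
  have hlt : h7bPhi f (h7bIter p z₀ n) ^ 2 < M ^ 2 := hY _ hn'
  rw [hiter n] at hlt
  exact lt_irrefl _ hlt

/-- **the eigenvalue bound**: for `p ∤ N`, every eigenvalue of `T_p` on the cusp forms of weight
`2` and level `Γ₀(N)` has norm `< p + 1`. -/
theorem h7b_eigen_lt {N p : ℕ} (hp : p.Prime) (hpN : ¬ p ∣ N)
    (f : CuspForm (CongruenceSubgroup.Gamma0 N) 2) (hf : f ≠ 0) (lam : ℂ)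
    (h : CuspForm.heckeTLin 2 hp hpN f = lam • f) : ‖lam‖ < p + 1 := by
  haveI : NeZero N := ⟨fun h0 => hpN (h0 ▸ dvd_zero p)⟩
  obtain ⟨z₀, hz₀⟩ := h7b_petersson_max 2 _ f
  have hmax : ∀ τ, h7bPhi (⇑f) τ ≤ h7bPhi (⇑f) z₀ := by
    intro τ
    have h1 := hz₀ τ
    rw [h7b_norm_petersson, h7b_norm_petersson] at h1
    exact (pow_le_pow_iff_left₀ (h7bPhi_nonneg _ _) (h7bPhi_nonneg _ _) two_ne_zero).mp h1
  have hpos : 0 < h7bPhi (⇑f) z₀ := by
    obtain ⟨τ, hτ⟩ : ∃ τ, f τ ≠ 0 := by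
      by_contra hall
      apply hf
      ext τ
      by_contra hne
      exact hall ⟨τ, hne⟩
    refine lt_of_lt_of_le ?_ (hmax τ)
    exact mul_pos (norm_pos_iff.mpr hτ) τ.im_pos
  have hdecay : Tendsto (fun τ => h7bPhi (⇑f) τ ^ 2) atImInfty (𝓝 0) := by
    have h1 := h7b_petersson_tendsto 2 _ f (1 : SL(2, ℤ))
    simpa [h7b_norm_petersson] using h1
  refine h7b_eigen_lt_fun hp.two_le (⇑f) lam (fun τ => ?_) z₀ hmax hpos hdecay
  have h2 := congrArg (fun F : CuspForm (CongruenceSubgroup.Gamma0 N) 2 => F τ) h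
  simpa using h2

/-- `± (p + 1)` is not an eigenvalue of `T_p`. -/
theorem h7b_eigen_eq_zero {N p : ℕ} (hp : p.Prime) (hpN : ¬ p ∣ N)
    (f : CuspForm (CongruenceSubgroup.Gamma0 N) 2) (lam : ℂ) (hlam : (p : ℝ) + 1 ≤ ‖lam‖)
    (h : CuspForm.heckeTLin 2 hp hpN f = lam • f) : f = 0 := by
  by_contra hf
  exact absurd (h7b_eigen_lt hp hpN f hf lam h) (not_lt.mpr hlam)

/-- the operator `T_p ^ 2 - (p + 1) ^ 2` on the cusp forms of weight `2` and level `Γ₀(N)`. -/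
def h7bDelta {N p : ℕ} (hp : p.Prime) (hpN : ¬ p ∣ N) :
    Module.End ℂ (CuspForm (CongruenceSubgroup.Gamma0 N) 2) :=
  (CuspForm.heckeTLin 2 hp hpN : Module.End ℂ (CuspForm (CongruenceSubgroup.Gamma0 N) 2)) ^ 2 -
    (((p : ℤ) + 1) ^ 2) • (1 : Module.End ℂ (CuspForm (CongruenceSubgroup.Gamma0 N) 2))

/-- `T_p ^ 2 - (p + 1) ^ 2` is injective on the cusp forms of weight `2` and level `Γ₀(N)`. -/
theorem h7b_delta_injective {N p : ℕ} (hp : p.Prime) (hpN : ¬ p ∣ N) :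
    Function.Injective (h7bDelta (N := N) hp hpN) := by
  rw [injective_iff_map_eq_zero]
  intro f hf
  unfold h7bDelta at hf
  set T : Module.End ℂ (CuspForm (CongruenceSubgroup.Gamma0 N) 2) :=
    CuspForm.heckeTLin (N := N) 2 hp hpN with hT
  have hc : ‖((p : ℂ) + 1)‖ = (p : ℝ) + 1 := by
    have : ((p : ℂ) + 1) = (((p : ℝ) + 1 : ℝ) : ℂ) := by push_cast; rfl
    rw [this, Complex.norm_real, Real.norm_of_nonneg (by positivity)]
  have hf' : T (T f) = (((p : ℂ) + 1) ^ 2) • f := by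
    have h1 : (T ^ 2 - (((p : ℤ) + 1) ^ 2) • (1 : Module.End ℂ
        (CuspForm (CongruenceSubgroup.Gamma0 N) 2))) f = T (T f) - (((p : ℂ) + 1) ^ 2) • f := by
      simp only [LinearMap.sub_apply, pow_two, Module.End.mul_apply, LinearMap.smul_apply,
        Module.End.one_apply]
      congr 1
      rw [← Int.cast_smul_eq_zsmul ℂ]
      push_cast
      rfl
    rw [h1] at hf
    exact sub_eq_zero.mp hf
  -- `g = T f + (p + 1) f` is an eigenvector for `p + 1`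
  have hg : T (T f + ((p : ℂ) + 1) • f) = ((p : ℂ) + 1) • (T f + ((p : ℂ) + 1) • f) := by
    rw [map_add, map_smul, hf', smul_add, smul_smul, pow_two]
    abel
  have hg0 : T f + ((p : ℂ) + 1) • f = 0 :=
    h7b_eigen_eq_zero hp hpN _ _ hc.ge hg
  have hf2 : T f = (-((p : ℂ) + 1)) • f :=
    (eq_neg_of_add_eq_zero_left hg0).trans (neg_smul ((p : ℂ) + 1) f).symm
  exact h7b_eigen_eq_zero hp hpN f _ (by rw [norm_neg, hc]) hf2

/-- an injective endomorphism `Δ` of a module which is killed by a nonzero integer polynomial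
has a quasi-inverse: `Δ * g(Δ) = n` with `n ≠ 0`. -/
theorem h7b_quasi_inverse_abs {V : Type*} [AddCommGroup V] [Module ℂ V] (Δ : Module.End ℂ V)
    (hinj : Function.Injective Δ) :
    ∀ (d : ℕ) (P : Polynomial ℤ), P.natDegree = d → P ≠ 0 → Polynomial.aeval Δ P = 0 →
      ∃ (g : Polynomial ℤ) (n : ℤ), n ≠ 0 ∧ Δ * Polynomial.aeval Δ g = n • 1 := by
  intro d
  induction d using Nat.strong_induction_on with
  | _ d ih =>
    intro P hd hP h0
    have hsplit : Polynomial.aeval Δ P =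
        Δ * Polynomial.aeval Δ P.divX + (P.coeff 0) • (1 : Module.End ℂ V) := by
      conv_lhs => rw [← Polynomial.divX_mul_X_add P]
      rw [map_add, mul_comm P.divX Polynomial.X, map_mul, Polynomial.aeval_X,
        Polynomial.aeval_C, Algebra.algebraMap_eq_smul_one]
    by_cases hc : P.coeff 0 = 0
    · -- strip one factor `X`
      have hQ0 : P.divX ≠ 0 := by
        intro hQ
        apply hP
        rw [← Polynomial.divX_mul_X_add P, hQ, hc]
        simp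
      have hdeg : P.divX.natDegree < d := by
        rw [Polynomial.natDegree_divX_eq_natDegree_tsub_one, hd]
        have hd1 : d ≠ 0 := by
          intro hd0
          apply hP
          rw [Polynomial.eq_C_of_natDegree_eq_zero (hd.trans hd0), hc]
          simp
        omega
      have hQ : Polynomial.aeval Δ P.divX = 0 := by
        rw [hsplit, hc, zero_smul, add_zero] at h0
        ext v
        apply hinj
        have := congrArg (fun A : Module.End ℂ V => A v) h0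
        simpa using this
      exact ih _ hdeg P.divX rfl hQ0 hQ
    · refine ⟨-P.divX, P.coeff 0, hc, ?_⟩
      rw [hsplit] at h0
      rw [map_neg, mul_neg]
      exact (neg_eq_of_add_eq_zero_right h0)

/-- **quasi-inverse of `T_p ^ 2 - (p + 1) ^ 2`** on the cusp forms of weight `2` and level
`Γ₀(N)`, `p ∤ N`: there are an integer polynomial `g` and an integer `n ≠ 0` with
`Δ * g(Δ) = n`. -/
theorem h7b_quasi_inverse {N p : ℕ} (hp : p.Prime) (hpN : ¬ p ∣ N) :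
    ∃ (g : Polynomial ℤ) (n : ℤ), n ≠ 0 ∧
      h7bDelta (N := N) hp hpN * Polynomial.aeval (h7bDelta (N := N) hp hpN) g =
        n • (1 : Module.End ℂ (CuspForm (CongruenceSubgroup.Gamma0 N) 2)) := by
  haveI : NeZero N := ⟨fun h0 => hpN (h0 ▸ dvd_zero p)⟩
  have hmem : h7bDelta (N := N) hp hpN ∈ CuspForm.heckeAlgebra N 2 (∅ : Set ℕ) := by
    unfold h7bDelta
    exact sub_mem (pow_mem (CuspForm.heckeTLin_mem_heckeAlgebra hp hpN (Set.notMem_empty p)) 2)
      (zsmul_mem (one_mem _) _)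
  haveI : Module.Finite ℤ (CuspForm.heckeAlgebra N 2 (∅ : Set ℕ)) :=
    Fermat.Agent.S22.result N 2 ∅
  have hint : IsIntegral ℤ (⟨h7bDelta (N := N) hp hpN, hmem⟩ :
      CuspForm.heckeAlgebra N 2 (∅ : Set ℕ)) := IsIntegral.of_finite ℤ _
  have hint' : IsIntegral ℤ (h7bDelta (N := N) hp hpN) :=
    hint.map (CuspForm.heckeAlgebra N 2 (∅ : Set ℕ)).val
  obtain ⟨P, hPm, hP0⟩ := hint'
  exact h7b_quasi_inverse_abs _ (h7b_delta_injective hp hpN) _ P rfl hPm.ne_zero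
    (by rw [Polynomial.aeval_def]; exact hP0)

end Fermat.Agent.P6
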