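import Fermat.Agent.P6.H80ChainAbs

/-!
# Wave 6 (S33), block B4, leaf B4-CHAIN (helper80, prefix `h80n_` / `H80n`)

Mathlib only.  The setting of the lattice comparison (`P5/H30LatIface.lean`, `H30xKey`), with
`I` the maximal ideal of `T` and without the span, determinant and rank hypotheses:
`W` a finite `G`-module with commuting Hecke action `Θ`, `ρW g + Θ (δ g) ρW g⁻¹ = Θ (τ g)`,
`δ` multiplicative on `W`, `tr ρ g ≡ π (τ g)` modulo the maximal ideal, `2` a unit of `T`, and
the Hecke elements with unit image in `T` injective on `W`.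

`h80n_chain : H80nChain` : there is a finite chain `0 = F 0 ≤ F 1 ≤ ... ≤ F n = W` of
subgroups, stable under `G` and under `Θ`, such that every integer combination `z` of group
elements with `ρ z V ⊆ m_T V` maps `F (i + 1)` into `F i`.

Proof.  `N = {z ∈ ℤ[G] | ρ z V ⊆ m V}` is a two-sided ideal on which the trace is `≡ 0`;
the degree two Cayley–Hamilton relation on `W` gives `R_W z ^ 2 ∈ 𝔮 · R_W (ℤ[G])` for `z ∈ N`
(`𝔮 = π⁻¹ m`), hence (polarisation, `2` invertible) `R_W (N ^ 3) ⊆ 𝔮 · R_W (ℤ[G])`, and `Θ 𝔮` is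
nilpotent on the finite group `W`.  So `R_W (N ^ (3 n₀)) = 0`, and `F i` = the vectors killed by
`R_W (N ^ i)`.
-/

set_option autoImplicit false
set_option linter.unusedSectionVars false
set_option linter.unusedVariables false
set_option linter.style.longLine false
set_option linter.unusedSimpArgs false
set_option linter.unnecessarySimpa false

open IsLocalRing

noncomputable section

namespace Fermat.Agent.P6

section Small

variable {T : Type*} [CommRing T] {V : Type*} [AddCommGroup V] [Module T V]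

/-- a linear form maps `I • ⊤` into `I`. -/
theorem h80n_form_mem (I : Ideal T) (φ : V →ₗ[T] T) {v : V}
    (hv : v ∈ I • (⊤ : Submodule T V)) : φ v ∈ I := by
  refine Submodule.smul_induction_on hv ?_ ?_
  · intro r hr n _
    rw [map_smul, smul_eq_mul]
    exact I.mul_mem_right _ hr
  · intro x y hx hy
    rw [map_add]
    exact I.add_mem hx hy

/-- a linear map preserves `I • ⊤`. -/
theorem h80n_map_mem (I : Ideal T) (ψ : V →ₗ[T] V) {v : V}
    (hv : v ∈ I • (⊤ : Submodule T V)) : ψ v ∈ I • (⊤ : Submodule T V) := by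
  refine Submodule.smul_induction_on hv ?_ ?_
  · intro r hr n _
    rw [map_smul]
    exact Submodule.smul_mem_smul hr Submodule.mem_top
  · intro x y hx hy
    rw [map_add]
    exact Submodule.add_mem _ hx hy

/-- the trace of an endomorphism with image in `I • ⊤` lies in `I`. -/
theorem h80n_trace_mem [Module.Free T V] [Module.Finite T V] (I : Ideal T)
    (φ : Module.End T V) (h : ∀ v : V, φ v ∈ I • (⊤ : Submodule T V)) :
    LinearMap.trace T V φ ∈ I := by
  classical
  let b := Module.Free.chooseBasis T V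
  rw [LinearMap.trace_eq_matrix_trace T b φ, Matrix.trace]
  refine I.sum_mem fun i _ => ?_
  rw [Matrix.diag_apply, LinearMap.toMatrix_apply]
  exact h80n_form_mem I (b.coord i) (h (b i))

end Small

section Fin

variable {W : Type*} [AddCommGroup W] [Finite W]

theorem h80n_finite_end : Finite (AddMonoid.End W) :=
  Finite.of_injective (fun f : AddMonoid.End W => (f : W → W)) DFunLike.coe_injective

/-- powers of an injective endomorphism are injective. -/
theorem h80n_pow_inj (e : AddMonoid.End W) (he : Function.Injective (e : W → W)) (i : ℕ) :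
    Function.Injective ((e ^ i : AddMonoid.End W) : W → W) := by
  induction i with
  | zero =>
    rw [pow_zero]
    exact fun _ _ h => h
  | succ i ih =>
    rw [pow_succ]
    intro w₁ w₂ h
    have h' : (e ^ i : AddMonoid.End W) (e w₁) = (e ^ i : AddMonoid.End W) (e w₂) := h
    exact he (ih h')

/-- an injective endomorphism of a finite group has a positive power equal to one. -/
theorem h80n_pow_eq_one (e : AddMonoid.End W) (he : Function.Injective (e : W → W)) :
    ∃ d : ℕ, e ^ (d + 1) = 1 := by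
  have : Finite (AddMonoid.End W) := h80n_finite_end
  have key : ∀ i d : ℕ, e ^ i = e ^ (i + d + 1) → e ^ (d + 1) = 1 := by
    intro i d h
    apply AddMonoidHom.ext
    intro w
    apply h80n_pow_inj e he i
    have h5 : (e ^ i * e ^ (d + 1) : AddMonoid.End W) = e ^ i := by
      rw [← pow_add, ← add_assoc, ← h]
    have h6 : (e ^ i * e ^ (d + 1) : AddMonoid.End W) w = (e ^ i : AddMonoid.End W) w := by
      rw [h5]
    exact h6
  obtain ⟨i, j, hij, h⟩ := Finite.exists_ne_map_eq_of_infinite (fun i : ℕ => e ^ i)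
  rcases lt_or_gt_of_ne hij with hlt | hlt
  · obtain ⟨d, rfl⟩ := Nat.exists_eq_add_of_lt hlt
    exact ⟨d, key i d h⟩
  · obtain ⟨d, rfl⟩ := Nat.exists_eq_add_of_lt hlt
    exact ⟨d, key j d h.symm⟩

variable {P : Type*} [CommRing P] (Θ : P →+* AddMonoid.End W)

/-- `Θ q` is nilpotent when all `Θ (1 - q ^ (d + 1))` are injective. -/
theorem h80n_theta_nilp (q : P)
    (hq : ∀ d : ℕ, Function.Injective (Θ (1 - q ^ (d + 1)) : W → W)) :
    ∃ i : ℕ, Θ (q ^ i) = 0 := by
  have : Finite (AddMonoid.End W) := h80n_finite_end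
  have key : ∀ i d : ℕ, Θ q ^ i = Θ q ^ (i + d + 1) → Θ (q ^ i) = 0 := by
    intro i d h
    have h1 : Θ (1 - q ^ (d + 1)) * Θ (q ^ i) = 0 := by
      rw [← Θ.map_mul, sub_mul, one_mul, ← pow_add, Θ.map_sub, Θ.map_pow, Θ.map_pow,
        show d + 1 + i = i + d + 1 by omega, ← h, sub_self]
    apply AddMonoidHom.ext
    intro w
    apply hq d
    have h6 : (Θ (1 - q ^ (d + 1)) * Θ (q ^ i) : AddMonoid.End W) w
        = (0 : AddMonoid.End W) w := by
      rw [h1]
    have h7 : (Θ (1 - q ^ (d + 1))) (0 : W) = 0 := map_zero _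
    exact h6.trans h7.symm
  obtain ⟨i, j, hij, h⟩ := Finite.exists_ne_map_eq_of_infinite (fun i : ℕ => Θ q ^ i)
  rcases lt_or_gt_of_ne hij with hlt | hlt
  · obtain ⟨d, rfl⟩ := Nat.exists_eq_add_of_lt hlt
    exact ⟨i, key i d h⟩
  · obtain ⟨d, rfl⟩ := Nat.exists_eq_add_of_lt hlt
    exact ⟨j, key j d h.symm⟩

/-- an ideal of `Θ`-nilpotent elements has a power killed by `Θ`. -/
theorem h80n_pow_le_ker (𝔮 : Ideal P) (h : ∀ q ∈ 𝔮, ∃ i : ℕ, Θ (q ^ i) = 0) :
    ∃ n₀ : ℕ, 𝔮 ^ n₀ ≤ RingHom.ker Θ := by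
  have : Finite (AddMonoid.End W) := h80n_finite_end
  have : Finite (P ⧸ RingHom.ker Θ) :=
    Finite.of_injective _ (RingHom.kerLift_injective Θ)
  obtain ⟨n, hn⟩ := IsNoetherianRing.isNilpotent_nilradical (P ⧸ RingHom.ker Θ)
  refine ⟨n, fun x hx => ?_⟩
  have h2 : 𝔮.map (Ideal.Quotient.mk (RingHom.ker Θ)) ≤ nilradical (P ⧸ RingHom.ker Θ) := by
    rw [Ideal.map_le_iff_le_comap]
    intro q hq
    obtain ⟨i, hi⟩ := h q hq
    rw [Ideal.mem_comap, mem_nilradical]
    refine ⟨i, ?_⟩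
    rw [← map_pow, Ideal.Quotient.eq_zero_iff_mem, RingHom.mem_ker]
    exact hi
  have h1 : Ideal.Quotient.mk (RingHom.ker Θ) x ∈ (nilradical (P ⧸ RingHom.ker Θ)) ^ n := by
    apply Ideal.pow_right_mono h2 n
    rw [← Ideal.map_pow]
    exact Ideal.mem_map_of_mem _ hx
  rw [hn] at h1
  exact (Ideal.Quotient.eq_zero_iff_mem).mp h1

end Fin

/-- **B4-CHAIN** (Mathlib only), the frozen `Prop`. -/
def H80nChain : Prop :=
  ∀ (G : Type) [Group G] (W : Type) [AddCommGroup W] [Finite W]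
    (ρW : G →* AddMonoid.End W) (P : Type) [CommRing P] (Θ : P →+* AddMonoid.End W)
    (T : Type) [CommRing T] [IsLocalRing T] (π : P →+* T)
    (V : Type) [AddCommGroup V] [Module T V] [Module.Free T V] [Module.Finite T V]
    (ρ : G →* Module.End T V) (τ δ : G → P),
    Module.finrank T V = 2 →
    (2 : T) ∉ maximalIdeal T →
    (∀ (a : P) (g : G), Commute (Θ a) (ρW g)) →
    (∀ g : G, ρW g + Θ (δ g) * ρW g⁻¹ = Θ (τ g)) →
    (∀ g h : G, Θ (δ (g * h)) = Θ (δ g) * Θ (δ h)) →
    Θ (δ 1) = 1 →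
    (∀ g : G, LinearMap.trace T V (ρ g) - π (τ g) ∈ maximalIdeal T) →
    (∀ u : P, π u ∉ maximalIdeal T → Function.Injective (Θ u)) →
    ∃ (n : ℕ) (F : ℕ → AddSubgroup W), F 0 = ⊥ ∧ F n = ⊤ ∧ (∀ i, F i ≤ F (i + 1)) ∧
      (∀ (g : G) (i : ℕ), ∀ w ∈ F i, ρW g w ∈ F i) ∧
      (∀ (a : P) (i : ℕ), ∀ w ∈ F i, Θ a w ∈ F i) ∧
      ∀ (m : ℕ) (c : Fin m → ℤ) (g : Fin m → G),
        (∀ v : V, ∑ j, c j • ρ (g j) v ∈ maximalIdeal T • (⊤ : Submodule T V)) →
        ∀ i, ∀ w ∈ F (i + 1), ∑ j, c j • ρW (g j) w ∈ F i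

/-- **B4-CHAIN**, general form (universe polymorphic, only the hypotheses which are used). -/
theorem h80n_chain_gen {G : Type*} [Group G] {W : Type*} [AddCommGroup W] [Finite W]
    (ρW : G →* AddMonoid.End W) {P : Type*} [CommRing P] (Θ : P →+* AddMonoid.End W)
    {T : Type*} [CommRing T] [IsLocalRing T] (π : P →+* T)
    {V : Type*} [AddCommGroup V] [Module T V] [Module.Free T V] [Module.Finite T V]
    (ρ : G →* Module.End T V) (τ δ : G → P)
    (h2 : (2 : T) ∉ maximalIdeal T)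
    (hcomm : ∀ (a : P) (g : G), Commute (Θ a) (ρW g))
    (hES : ∀ g : G, ρW g + Θ (δ g) * ρW g⁻¹ = Θ (τ g))
    (hδmul : ∀ g h : G, Θ (δ (g * h)) = Θ (δ g) * Θ (δ h))
    (htr : ∀ g : G, LinearMap.trace T V (ρ g) - π (τ g) ∈ maximalIdeal T)
    (hinj : ∀ u : P, π u ∉ maximalIdeal T → Function.Injective (Θ u)) :
    ∃ (n : ℕ) (F : ℕ → AddSubgroup W), F 0 = ⊥ ∧ F n = ⊤ ∧ (∀ i, F i ≤ F (i + 1)) ∧
      (∀ (g : G) (i : ℕ), ∀ w ∈ F i, ρW g w ∈ F i) ∧
      (∀ (a : P) (i : ℕ), ∀ w ∈ F i, Θ a w ∈ F i) ∧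
      ∀ (m : ℕ) (c : Fin m → ℤ) (g : Fin m → G),
        (∀ v : V, ∑ j, c j • ρ (g j) v ∈ maximalIdeal T • (⊤ : Submodule T V)) →
        ∀ i, ∀ w ∈ F (i + 1), ∑ j, c j • ρW (g j) w ∈ F i := by
  classical
  -- the extensions to the group ring
  let RW : MonoidAlgebra ℤ G →+* AddMonoid.End W :=
    (MonoidAlgebra.lift ℤ (AddMonoid.End W) G ρW : MonoidAlgebra ℤ G →ₐ[ℤ] AddMonoid.End W)
  let RV : MonoidAlgebra ℤ G →+* Module.End T V :=
    (MonoidAlgebra.lift ℤ (Module.End T V) G ρ : MonoidAlgebra ℤ G →ₐ[ℤ] Module.End T V)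
  let Tau : MonoidAlgebra ℤ G →+ P := MonoidAlgebra.liftNC (Int.castAddHom P) τ
  have hRWof : ∀ k : G, RW (MonoidAlgebra.of ℤ G k) = ρW k := fun k =>
    MonoidAlgebra.lift_of ρW k
  have hRVof : ∀ k : G, RV (MonoidAlgebra.of ℤ G k) = ρ k := fun k =>
    MonoidAlgebra.lift_of ρ k
  have hTauof : ∀ k : G, Tau (MonoidAlgebra.of ℤ G k) = τ k := fun k => by
    show MonoidAlgebra.liftNC (Int.castAddHom P) τ (MonoidAlgebra.of ℤ G k) = τ k
    rw [MonoidAlgebra.of_apply, MonoidAlgebra.liftNC_single]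
    simp
  -- commutation
  have hc : ∀ (a : P) (z : MonoidAlgebra ℤ G), Commute (Θ a) (RW z) := by
    intro a z
    refine MonoidAlgebra.induction_on (motive := fun z => Commute (Θ a) (RW z)) z ?_ ?_ ?_
    · intro k
      rw [hRWof]
      exact hcomm a k
    · intro x y hx hy
      rw [map_add]
      exact hx.add_right hy
    · intro r x hx
      rw [map_zsmul]
      exact Commute.smul_right (show Commute (Θ a) (RW x) from hx) r
  -- traces
  have htrz : ∀ z : MonoidAlgebra ℤ G,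
      LinearMap.trace T V (RV z) - π (Tau z) ∈ maximalIdeal T := by
    intro z
    refine MonoidAlgebra.induction_on
      (motive := fun z => LinearMap.trace T V (RV z) - π (Tau z) ∈ maximalIdeal T) z ?_ ?_ ?_
    · intro k
      rw [hRVof, hTauof]
      exact htr k
    · intro x y hx hy
      have h1 : LinearMap.trace T V (RV (x + y)) - π (Tau (x + y)) =
          (LinearMap.trace T V (RV x) - π (Tau x)) + (LinearMap.trace T V (RV y) - π (Tau y)) := by
        rw [map_add, map_add, map_add, map_add]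
        ring
      rw [h1]
      exact (maximalIdeal T).add_mem hx hy
    · intro r x hx
      have h1 : LinearMap.trace T V (RV (r • x)) - π (Tau (r • x)) =
          r • (LinearMap.trace T V (RV x) - π (Tau x)) := by
        rw [map_zsmul, map_zsmul, map_zsmul, map_zsmul, smul_sub]
      rw [h1]
      exact (maximalIdeal T).toAddSubgroup.zsmul_mem hx r
  -- the adjoint
  let Iota : MonoidAlgebra ℤ G →+ AddMonoid.End W :=
    (Θ : P →+ AddMonoid.End W).comp Tau - (RW : MonoidAlgebra ℤ G →+ AddMonoid.End W)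
  have hIota : ∀ z, Iota z = Θ (Tau z) - RW z := fun z => rfl
  have hIotaof : ∀ k : G, Iota (MonoidAlgebra.of ℤ G k) = Θ (δ k) * ρW k⁻¹ := by
    intro k
    rw [hIota, hTauof, hRWof, ← hES k]
    abel
  have hδinv : ∀ a b : P, Θ a * Θ b = Θ b * Θ a := fun a b => by
    rw [← map_mul, ← map_mul, mul_comm]
  -- anti-multiplicativity
  have hanti' : ∀ z w : MonoidAlgebra ℤ G, Iota (z * w) = Iota w * Iota z := by
    intro z
    refine MonoidAlgebra.induction_on
      (motive := fun z => ∀ w : MonoidAlgebra ℤ G, Iota (z * w) = Iota w * Iota z) z ?_ ?_ ?_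
    · intro k w
      refine MonoidAlgebra.induction_on
        (motive := fun w => Iota (MonoidAlgebra.of ℤ G k * w) =
          Iota w * Iota (MonoidAlgebra.of ℤ G k)) w ?_ ?_ ?_
      · intro h
        rw [← map_mul (MonoidAlgebra.of ℤ G), hIotaof, hIotaof, hIotaof, hδmul, mul_inv_rev,
          map_mul]
        have h1 : Θ (δ k) * ρW h⁻¹ = ρW h⁻¹ * Θ (δ k) := (hcomm (δ k) h⁻¹).eq
        calc Θ (δ k) * Θ (δ h) * (ρW h⁻¹ * ρW k⁻¹)
            = Θ (δ h) * (Θ (δ k) * ρW h⁻¹) * ρW k⁻¹ := by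
              rw [hδinv (δ k) (δ h)]
              simp only [mul_assoc]
          _ = Θ (δ h) * ρW h⁻¹ * (Θ (δ k) * ρW k⁻¹) := by
              rw [h1]
              simp only [mul_assoc]
      · intro x y hx hy
        rw [mul_add, map_add, hx, hy, map_add, add_mul]
      · intro r x hx
        rw [mul_smul_comm, map_zsmul, hx, map_zsmul, smul_mul_assoc]
    · intro x y hx hy w
      rw [add_mul, map_add, hx w, hy w, map_add, mul_add]
    · intro r x hx w
      rw [smul_mul_assoc, map_zsmul, hx w, map_zsmul, mul_smul_comm]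
  have hanti : ∀ z w : MonoidAlgebra ℤ G,
      Θ (Tau (z * w)) - RW (z * w) = (Θ (Tau w) - RW w) * (Θ (Tau z) - RW z) := by
    intro z w
    have := hanti' z w
    rw [hIota, hIota, hIota] at this
    exact this
  -- the ideal `N`
  let N : Set (MonoidAlgebra ℤ G) :=
    {x | ∀ v : V, RV x v ∈ maximalIdeal T • (⊤ : Submodule T V)}
  have hNadd : ∀ x ∈ N, ∀ y ∈ N, x + y ∈ N := by
    intro x hx y hy v
    have e : RV (x + y) v = RV x v + RV y v := by
      rw [map_add]
      rfl
    rw [e]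
    exact Submodule.add_mem _ (hx v) (hy v)
  have hNl : ∀ (a : MonoidAlgebra ℤ G), ∀ x ∈ N, a * x ∈ N := by
    intro a x hx v
    have e : RV (a * x) v = RV a (RV x v) := by
      rw [map_mul]
      rfl
    rw [e]
    exact h80n_map_mem _ (RV a) (hx v)
  have hNr : ∀ (a : MonoidAlgebra ℤ G), ∀ x ∈ N, x * a ∈ N := by
    intro a x hx v
    have e : RV (x * a) v = RV x (RV a v) := by
      rw [map_mul]
      rfl
    rw [e]
    exact hx _
  -- the ideal `𝔮`
  let 𝔮 : Ideal P := Ideal.comap π (maximalIdeal T)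
  have hNtau : ∀ x ∈ N, Tau x ∈ 𝔮 := by
    intro x hx
    show π (Tau x) ∈ maximalIdeal T
    have h3 := h80n_trace_mem (maximalIdeal T) (RV x) hx
    have h4 := (maximalIdeal T).sub_mem h3 (htrz x)
    simpa using h4
  -- `2` is invertible on `W`
  obtain ⟨hh, hh2⟩ : ∃ hh : P, Θ (2 * hh) = 1 := by
    have h3 : Function.Injective (Θ 2 : W → W) := by
      apply hinj
      rw [map_ofNat]
      exact h2
    obtain ⟨d, hd⟩ := h80n_pow_eq_one (Θ 2) h3
    refine ⟨2 ^ d, ?_⟩
    rw [← pow_succ', Θ.map_pow]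
    exact hd
  -- `Θ 𝔮` is nilpotent
  obtain ⟨n₀, hn₀⟩ : ∃ n₀ : ℕ, 𝔮 ^ n₀ ≤ RingHom.ker Θ := by
    apply h80n_pow_le_ker Θ 𝔮
    intro q hq
    apply h80n_theta_nilp Θ q
    intro d
    apply hinj
    intro hmem
    have h3 : π q ∈ maximalIdeal T := hq
    have h4 : π (q ^ (d + 1)) ∈ maximalIdeal T := by
      rw [map_pow, pow_succ]
      exact (maximalIdeal T).mul_mem_left _ h3
    have h5 : (1 : T) ∈ maximalIdeal T := by
      have := (maximalIdeal T).add_mem hmem h4
      rwa [map_sub, map_one, sub_add_cancel] at this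
    exact (Ideal.ne_top_iff_one _).mp (IsLocalRing.maximalIdeal.isMaximal T).ne_top h5
  -- nilpotency
  have hnil : ∀ l : List (MonoidAlgebra ℤ G), (∀ x ∈ l, x ∈ N) → l.length = 3 * n₀ →
      RW l.prod = 0 :=
    fun l hl hlen => h80n_nilp RW Θ 𝔮 hc Tau hanti N hNadd hNl hNr hNtau hh hh2 hn₀ l hl hlen
  refine ⟨3 * n₀, h80nF RW N, h80n_F_zero RW N, h80n_F_top RW N _ hnil,
    h80n_F_mono RW N hNr, ?_, ?_, ?_⟩
  · intro g i w hw
    have := h80n_F_stable RW N hNr (MonoidAlgebra.of ℤ G g) i w hw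
    rwa [hRWof] at this
  · intro a i w hw
    exact h80n_F_comm RW N (Θ a) (hc a) i w hw
  · intro m c g hV i w hw
    let x : MonoidAlgebra ℤ G := ∑ j, c j • MonoidAlgebra.of ℤ G (g j)
    have hRWx : RW x w = ∑ j, c j • ρW (g j) w := by
      have h3 : RW x = ∑ j, c j • ρW (g j) := by
        show RW (∑ j, c j • MonoidAlgebra.of ℤ G (g j)) = _
        rw [map_sum]
        refine Finset.sum_congr rfl fun j _ => ?_
        rw [map_zsmul, hRWof]
      rw [h3]
      exact map_sum (AddMonoidHom.eval w : (W →+ W) →+ W) (fun j => c j • (ρW (g j) : W →+ W))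
        Finset.univ
    have hRVx : ∀ v : V, RV x v = ∑ j, c j • ρ (g j) v := by
      intro v
      have h3 : RV x = ∑ j, c j • ρ (g j) := by
        show RV (∑ j, c j • MonoidAlgebra.of ℤ G (g j)) = _
        rw [map_sum]
        refine Finset.sum_congr rfl fun j _ => ?_
        rw [map_zsmul, hRVof]
      rw [h3, LinearMap.sum_apply]
      rfl
    have hxN : x ∈ N := by
      intro v
      rw [hRVx v]
      exact hV v
    rw [← hRWx]
    exact hw x hxN

/-- **B4-CHAIN** (exact frozen `Prop`). -/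
theorem h80n_chain : H80nChain := by
  intro G _ W _ _ ρW P _ Θ T _ _ π V _ _ _ _ ρ τ δ _ h2 hcomm hES hδmul _ htr hinj
  exact h80n_chain_gen ρW Θ π ρ τ δ h2 hcomm hES hδmul htr hinj

end Fermat.Agent.P6
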