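import Mathlib

/-!
# Wave 6 (S33), block B4, leaf B4-CHAIN: the abstract nilpotency (helper80, prefix `h80n_`)

Mathlib only.  `A`, `E` rings, `P` a commutative ring, `R : A →+* E`, `Θ : P →+* E` with commuting
images, `Tau : A →+ P` with `z ↦ Θ (Tau z) - R z` anti-multiplicative (a "Cayley–Hamilton
structure of degree two").  Let `𝔮` be an ideal of `P` with `𝔮 ^ n₀ ≤ ker Θ`, `2` invertible in
the image of `Θ`, and let `N ⊆ A` be closed under addition and under left and right
multiplication by `A`, with `Tau N ⊆ 𝔮`.  Then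

* `h80n_sq`     : `R x ^ 2 ∈ S 1` for `x ∈ N`, where `S k` is the additive span of the
  `Θ q * R y`, `q ∈ 𝔮 ^ k`;
* `h80n_triple` : `R (x * y * z) ∈ S 1` for `x, y, z ∈ N`;
* `h80n_nilp`   : every product of `3 n₀` elements of `N` is killed by `R`.
-/

set_option autoImplicit false
set_option linter.unusedSectionVars false
set_option linter.unusedVariables false
set_option linter.style.longLine false

noncomputable section

namespace Fermat.Agent.P6

section Abs

variable {A E P : Type*} [Ring A] [Ring E] [CommRing P] (R : A →+* E) (Θ : P →+* E)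
  (𝔮 : Ideal P)

/-- the additive span of the `Θ q * R y`, `q ∈ 𝔮 ^ k`. -/
def h80nS (k : ℕ) : AddSubgroup E :=
  AddSubgroup.closure {e | ∃ q ∈ 𝔮 ^ k, ∃ y : A, e = Θ q * R y}

theorem h80n_mem_S {k : ℕ} {q : P} (hq : q ∈ 𝔮 ^ k) (y : A) : Θ q * R y ∈ h80nS R Θ 𝔮 k :=
  AddSubgroup.subset_closure ⟨q, hq, y, rfl⟩

theorem h80n_mem_pow_zero (q : P) : q ∈ 𝔮 ^ 0 := by
  rw [pow_zero, Ideal.one_eq_top]
  exact Submodule.mem_top

theorem h80n_R_mem_S_zero (a : A) : R a ∈ h80nS R Θ 𝔮 0 := by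
  have := h80n_mem_S R Θ 𝔮 (h80n_mem_pow_zero 𝔮 1) a
  rwa [map_one, one_mul] at this

theorem h80n_theta_mem_S_zero (a : P) : Θ a ∈ h80nS R Θ 𝔮 0 := by
  have := h80n_mem_S R Θ 𝔮 (h80n_mem_pow_zero 𝔮 a) 1
  rwa [map_one, mul_one] at this

variable (hc : ∀ (a : P) (z : A), Commute (Θ a) (R z))

include hc in
/-- `S j * S k ⊆ S (j + k)`. -/
theorem h80n_S_mul {j k : ℕ} {a b : E} (ha : a ∈ h80nS R Θ 𝔮 j) (hb : b ∈ h80nS R Θ 𝔮 k) :
    a * b ∈ h80nS R Θ 𝔮 (j + k) := by
  unfold h80nS at ha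
  induction ha using AddSubgroup.closure_induction with
  | mem a ha =>
    obtain ⟨q, hq, y, rfl⟩ := ha
    unfold h80nS at hb
    induction hb using AddSubgroup.closure_induction with
    | mem b hb =>
      obtain ⟨q', hq', y', rfl⟩ := hb
      have e : Θ q * R y * (Θ q' * R y') = Θ (q * q') * R (y * y') := by
        rw [map_mul, map_mul]
        have h1 : R y * Θ q' = Θ q' * R y := ((hc q' y).eq).symm
        calc Θ q * R y * (Θ q' * R y') = Θ q * (R y * Θ q') * R y' := by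
              simp only [mul_assoc]
          _ = Θ q * (Θ q' * R y) * R y' := by rw [h1]
          _ = Θ q * Θ q' * (R y * R y') := by simp only [mul_assoc]
      rw [e]
      refine h80n_mem_S R Θ 𝔮 ?_ _
      rw [pow_add]
      exact Ideal.mul_mem_mul hq hq'
    | zero => rw [mul_zero]; exact AddSubgroup.zero_mem _
    | add b b' _ _ hb hb' => rw [mul_add]; exact AddSubgroup.add_mem _ hb hb'
    | neg b _ hb => rw [mul_neg]; exact AddSubgroup.neg_mem _ hb
  | zero => rw [zero_mul]; exact AddSubgroup.zero_mem _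
  | add a a' _ _ ha ha' => rw [add_mul]; exact AddSubgroup.add_mem _ ha ha'
  | neg a _ ha => rw [neg_mul]; exact AddSubgroup.neg_mem _ ha

include hc in
/-- `S k` is stable under left multiplication by `R a`. -/
theorem h80n_S_left {k : ℕ} (a : A) {b : E} (hb : b ∈ h80nS R Θ 𝔮 k) :
    R a * b ∈ h80nS R Θ 𝔮 k := by
  have h1 : R a ∈ h80nS R Θ 𝔮 0 := h80n_R_mem_S_zero R Θ 𝔮 a
  have := h80n_S_mul R Θ 𝔮 hc h1 hb
  rwa [zero_add] at this

include hc in
/-- `S k` is stable under right multiplication by `R a`. -/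
theorem h80n_S_right {k : ℕ} (a : A) {b : E} (hb : b ∈ h80nS R Θ 𝔮 k) :
    b * R a ∈ h80nS R Θ 𝔮 k := by
  have h1 : R a ∈ h80nS R Θ 𝔮 0 := h80n_R_mem_S_zero R Θ 𝔮 a
  have := h80n_S_mul R Θ 𝔮 hc hb h1
  rwa [add_zero] at this

include hc in
/-- `S k` is stable under multiplication by `Θ a`. -/
theorem h80n_S_theta {k : ℕ} (a : P) {b : E} (hb : b ∈ h80nS R Θ 𝔮 k) :
    Θ a * b ∈ h80nS R Θ 𝔮 k := by
  have h1 : Θ a ∈ h80nS R Θ 𝔮 0 := h80n_theta_mem_S_zero R Θ 𝔮 a
  have := h80n_S_mul R Θ 𝔮 hc h1 hb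
  rwa [zero_add] at this

/-- `S n₀ = 0` when `𝔮 ^ n₀` is killed by `Θ`. -/
theorem h80n_S_eq_zero {n₀ : ℕ} (hq : 𝔮 ^ n₀ ≤ RingHom.ker Θ) {b : E}
    (hb : b ∈ h80nS R Θ 𝔮 n₀) : b = 0 := by
  unfold h80nS at hb
  induction hb using AddSubgroup.closure_induction with
  | mem b hb =>
    obtain ⟨q, hq', y, rfl⟩ := hb
    rw [(RingHom.mem_ker).mp (hq hq'), zero_mul]
  | zero => rfl
  | add b b' _ _ hb hb' => rw [hb, hb', add_zero]
  | neg b _ hb => rw [hb, neg_zero]

variable (Tau : A →+ P)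
  (hanti : ∀ z w : A,
    Θ (Tau (z * w)) - R (z * w) = (Θ (Tau w) - R w) * (Θ (Tau z) - R z))
  (N : Set A) (hNadd : ∀ x ∈ N, ∀ y ∈ N, x + y ∈ N)
  (hNl : ∀ (a : A), ∀ x ∈ N, a * x ∈ N) (hNr : ∀ (a : A), ∀ x ∈ N, x * a ∈ N)
  (hNtau : ∀ x ∈ N, Tau x ∈ 𝔮) (h : P) (h2 : Θ (2 * h) = 1)

include hc hanti hNr hNtau h2 in
/-- the square of an element of `N` lies in `S 1`. -/
theorem h80n_sq {x : A} (hx : x ∈ N) : R x * R x ∈ h80nS R Θ 𝔮 1 := by
  have h5 : R x * Θ (Tau x) = Θ (Tau x) * R x := ((hc _ x).eq).symm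
  have h6 : Θ (Tau (x * x)) = R (x * x) + (Θ (Tau x) - R x) * (Θ (Tau x) - R x) := by
    rw [← hanti x x]
    abel
  have h7 : (Θ (Tau x) - R x) * (Θ (Tau x) - R x) =
      Θ (Tau x) * Θ (Tau x) - Θ (Tau x) * R x - Θ (Tau x) * R x + R x * R x := by
    rw [sub_mul, mul_sub, mul_sub, h5]
    abel
  -- `2 (R x) ^ 2 = 2 Θ (Tau x) R x - Θ (Tau x ^ 2 - Tau (x ^ 2))`
  have h8 : R x * R x + R x * R x =
      Θ (Tau x + Tau x) * R x - Θ (Tau x * Tau x - Tau (x * x)) * R 1 := by
    rw [R.map_one, mul_one, Θ.map_sub, Θ.map_mul, h6, R.map_mul, h7, Θ.map_add, add_mul]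
    abel
  have h9 : R x * R x = Θ (h * (Tau x + Tau x)) * R x
      - Θ (h * (Tau x * Tau x - Tau (x * x))) * R 1 := by
    have e1 : R x * R x = Θ (2 * h) * (R x * R x) := by rw [h2, one_mul]
    have e2 : Θ (2 * h) * (R x * R x) = Θ h * (R x * R x + R x * R x) := by
      rw [two_mul, Θ.map_add, add_mul, mul_add]
    rw [e1, e2, h8, mul_sub, Θ.map_mul h, Θ.map_mul h]
    simp only [mul_assoc]
  have hq1 : Tau x ∈ 𝔮 := hNtau x hx
  have hq2 : Tau (x * x) ∈ 𝔮 := hNtau _ (hNr x x hx)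
  rw [h9]
  refine AddSubgroup.sub_mem _ (h80n_mem_S R Θ 𝔮 ?_ _) (h80n_mem_S R Θ 𝔮 ?_ _)
  · rw [pow_one]
    exact 𝔮.mul_mem_left _ (𝔮.add_mem hq1 hq1)
  · rw [pow_one]
    exact 𝔮.mul_mem_left _ (𝔮.sub_mem (𝔮.mul_mem_left _ hq1) hq2)

include hc hanti hNadd hNr hNtau h2 in
/-- elements of `N` anticommute modulo `S 1`. -/
theorem h80n_anti {x y : A} (hx : x ∈ N) (hy : y ∈ N) :
    R x * R y + R y * R x ∈ h80nS R Θ 𝔮 1 := by
  have h1 := h80n_sq R Θ 𝔮 hc Tau hanti N hNr hNtau h h2 (hNadd x hx y hy)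
  have h3 := h80n_sq R Θ 𝔮 hc Tau hanti N hNr hNtau h h2 hx
  have h4 := h80n_sq R Θ 𝔮 hc Tau hanti N hNr hNtau h h2 hy
  have e : R x * R y + R y * R x = R (x + y) * R (x + y) - R x * R x - R y * R y := by
    rw [R.map_add, add_mul, mul_add, mul_add]
    abel
  rw [e]
  exact AddSubgroup.sub_mem _ (AddSubgroup.sub_mem _ h1 h3) h4

include hc hanti hNadd hNl hNr hNtau h2 in
/-- a product of three elements of `N` lies in `S 1`. -/
theorem h80n_triple {x y z : A} (hx : x ∈ N) (hy : y ∈ N) (hz : z ∈ N) :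
    R (x * y * z) ∈ h80nS R Θ 𝔮 1 := by
  -- `a1 : (xy) z + z (xy)`, `a2 : x z + z x`, `a3 : x y + y x`, `a4 : x (y z) + (y z) x`
  have a1 := h80n_anti R Θ 𝔮 hc Tau hanti N hNadd hNr hNtau h h2 (hNr y x hx) hz
  have a2 := h80n_anti R Θ 𝔮 hc Tau hanti N hNadd hNr hNtau h h2 hx hz
  have a3 := h80n_anti R Θ 𝔮 hc Tau hanti N hNadd hNr hNtau h h2 hx hy
  have a4 := h80n_anti R Θ 𝔮 hc Tau hanti N hNadd hNr hNtau h h2 hx (hNr z y hy)
  -- `2 x y z = a4-part + ...`
  have b2 := h80n_S_left R Θ 𝔮 hc y a2      -- y (x z + z x)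
  have b3 := h80n_S_right R Θ 𝔮 hc z a3     -- (x y + y x) z
  have e : R (x * y * z) + R (x * y * z) =
      (R x * R (y * z) + R (y * z) * R x) - R y * (R x * R z + R z * R x)
        + (R x * R y + R y * R x) * R z := by
    simp only [R.map_mul, mul_add, add_mul, mul_assoc]
    abel
  have h5 : R (x * y * z) + R (x * y * z) ∈ h80nS R Θ 𝔮 1 := by
    rw [e]
    exact AddSubgroup.add_mem _ (AddSubgroup.sub_mem _ a4 b2) b3
  have e1 : R (x * y * z) = Θ h * (R (x * y * z) + R (x * y * z)) := by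
    have e2 : Θ (2 * h) * R (x * y * z) = Θ h * (R (x * y * z) + R (x * y * z)) := by
      rw [two_mul, Θ.map_add, add_mul, mul_add]
    rw [← e2, h2, one_mul]
  rw [e1]
  exact h80n_S_theta R Θ 𝔮 hc h h5

include hc hanti hNadd hNl hNr hNtau h2 in
/-- products of `3 k` elements of `N` lie in `S k`. -/
theorem h80n_prod_mem (k : ℕ) : ∀ l : List A, (∀ x ∈ l, x ∈ N) → l.length = 3 * k →
    R l.prod ∈ h80nS R Θ 𝔮 k := by
  induction k with
  | zero =>
    intro l _ hlen
    have hl : l = [] := List.length_eq_zero_iff.mp (by simpa using hlen)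
    rw [hl, List.prod_nil]
    exact h80n_R_mem_S_zero R Θ 𝔮 1
  | succ k ih =>
    intro l hl hlen
    match l, hl, hlen with
    | x :: y :: z :: l', hl, hlen =>
      have hx : x ∈ N := hl x (by simp)
      have hy : y ∈ N := hl y (by simp)
      have hz : z ∈ N := hl z (by simp)
      have hl' : ∀ w ∈ l', w ∈ N := fun w hw => hl w (by simp [hw])
      have hlen' : l'.length = 3 * k := by
        simp only [List.length_cons] at hlen
        omega
      have e : (x :: y :: z :: l').prod = (x * y * z) * l'.prod := by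
        simp only [List.prod_cons, mul_assoc]
      rw [e, map_mul]
      have h1 := h80n_triple R Θ 𝔮 hc Tau hanti N hNadd hNl hNr hNtau h h2 hx hy hz
      have h3 := h80n_S_mul R Θ 𝔮 hc h1 (ih l' hl' hlen')
      rwa [add_comm] at h3
    | [], _, hlen =>
      exact absurd hlen (by simp only [List.length_nil]; omega)
    | [_], _, hlen =>
      exact absurd hlen (by simp only [List.length_cons, List.length_nil]; omega)
    | [_, _], _, hlen =>
      exact absurd hlen (by simp only [List.length_cons, List.length_nil]; omega)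

include hc hanti hNadd hNl hNr hNtau h2 in
/-- **nilpotency**: products of `3 n₀` elements of `N` are killed by `R`. -/
theorem h80n_nilp {n₀ : ℕ} (hq : 𝔮 ^ n₀ ≤ RingHom.ker Θ) (l : List A)
    (hl : ∀ x ∈ l, x ∈ N) (hlen : l.length = 3 * n₀) : R l.prod = 0 :=
  h80n_S_eq_zero R Θ 𝔮 hq
    (h80n_prod_mem R Θ 𝔮 hc Tau hanti N hNadd hNl hNr hNtau h h2 n₀ l hl hlen)

end Abs

section Chain

variable {A W : Type*} [Ring A] [AddCommGroup W] (R : A →+* AddMonoid.End W) (N : Set A)

/-- the chain: `F 0 = 0`, `F (i + 1) = {w | R x w ∈ F i for all x ∈ N}`. -/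
def h80nF : ℕ → AddSubgroup W
  | 0 => ⊥
  | (i + 1) =>
    { carrier := {w | ∀ x ∈ N, R x w ∈ h80nF i}
      zero_mem' := fun x _ => by
        rw [map_zero]
        exact AddSubgroup.zero_mem _
      add_mem' := fun {a b} ha hb x hx => by
        rw [map_add]
        exact AddSubgroup.add_mem _ (ha x hx) (hb x hx)
      neg_mem' := fun {a} ha x hx => by
        rw [map_neg]
        exact AddSubgroup.neg_mem _ (ha x hx) }

theorem h80n_F_zero : h80nF R N 0 = ⊥ := rfl

theorem h80n_mem_F_succ {i : ℕ} {w : W} :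
    w ∈ h80nF R N (i + 1) ↔ ∀ x ∈ N, R x w ∈ h80nF R N i := Iff.rfl

variable (hNr : ∀ (a : A), ∀ x ∈ N, x * a ∈ N)

include hNr in
/-- the chain is stable under `R a`. -/
theorem h80n_F_stable (a : A) : ∀ (i : ℕ) (w : W), w ∈ h80nF R N i → R a w ∈ h80nF R N i := by
  intro i
  induction i with
  | zero =>
    intro w hw
    rw [h80n_F_zero, AddSubgroup.mem_bot] at hw ⊢
    rw [hw, map_zero]
  | succ i ih =>
    intro w hw x hx
    have e : R x (R a w) = R (x * a) w := by
      rw [R.map_mul]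
      rfl
    rw [e]
    exact hw (x * a) (hNr a x hx)

include hNr in
/-- the chain increases. -/
theorem h80n_F_mono (i : ℕ) : h80nF R N i ≤ h80nF R N (i + 1) := by
  intro w hw x _
  exact h80n_F_stable R N hNr x i w hw

/-- the chain is stable under everything commuting with `R`. -/
theorem h80n_F_comm (φ : AddMonoid.End W) (hφ : ∀ z : A, Commute φ (R z)) :
    ∀ (i : ℕ) (w : W), w ∈ h80nF R N i → φ w ∈ h80nF R N i := by
  intro i
  induction i with
  | zero =>
    intro w hw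
    rw [h80n_F_zero, AddSubgroup.mem_bot] at hw ⊢
    rw [hw, map_zero]
  | succ i ih =>
    intro w hw x hx
    have e : R x (φ w) = φ (R x w) := by
      have h1 : (R x * φ) w = (φ * R x) w := by rw [(hφ x).eq]
      exact h1
    rw [e]
    exact ih _ (hw x hx)

/-- a vector killed by all products of `i` elements of `N` lies in `F i`. -/
theorem h80n_F_of_nilp : ∀ (i : ℕ) (w : W),
    (∀ l : List A, (∀ x ∈ l, x ∈ N) → l.length = i → R l.prod w = 0) → w ∈ h80nF R N i := by
  intro i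
  induction i with
  | zero =>
    intro w hw
    rw [h80n_F_zero, AddSubgroup.mem_bot]
    have := hw [] (by simp) rfl
    rwa [List.prod_nil, map_one] at this
  | succ i ih =>
    intro w hw x hx
    refine ih _ fun l hl hlen => ?_
    have e : R l.prod (R x w) = R (l ++ [x]).prod w := by
      rw [List.prod_append, List.prod_singleton, R.map_mul]
      rfl
    rw [e]
    refine hw (l ++ [x]) ?_ ?_
    · intro y hy
      rcases List.mem_append.mp hy with h | h
      · exact hl y h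
      · rw [List.mem_singleton.mp h]
        exact hx
    · rw [List.length_append, hlen]
      rfl

/-- the chain is exhaustive as soon as products of `n` elements of `N` are killed. -/
theorem h80n_F_top (n : ℕ)
    (hnil : ∀ l : List A, (∀ x ∈ l, x ∈ N) → l.length = n → R l.prod = 0) :
    h80nF R N n = ⊤ := by
  rw [eq_top_iff]
  intro w _
  refine h80n_F_of_nilp R N n w fun l hl hlen => ?_
  rw [hnil l hl hlen]
  rfl

end Chain

end Fermat.Agent.P6
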