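import Fermat.Agent.P5.H30LatCheb

/-!
# Wave 6 (S33), block B4, leaf B4-CHEB-M (helper80, prefix `h80m_`)

`h80m_cheb` : the Chebotarev approximation of `P5/H30LatCheb.lean` (`h30x_cheb`) with the
torsion of `J₀(M)` instead of `J₀(N)`: `H` a Hecke–Galois datum of level `N` away from `S`,
`M` a level whose primes lie in `S` (e.g. `M ∣ N`).  For all `k`, `n` there are
`τ, δ : G_ℚ → ℤ[T_ℓ]` with `g + δ(g) g⁻¹ = τ(g)` on `J₀(M)[p ^ k]`, `δ` multiplicative on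
`J₀(M)[p ^ k]`, and `tr ρ(g) ≡ π τ(g)`, `det ρ(g) ≡ π δ(g)` modulo `m_T ^ n`.

The proof is the proof of `h30x_cheb` (helper30): weak Chebotarev on the compositum of the field
of `J₀(M)[p ^ k]`, the field of the cyclotomic character modulo `p ^ k` and the field of `ρ`
modulo `m_T ^ n`; Eichler–Shimura at level `M` and the characteristic polynomial of Frobenius of
the datum at the primes `ℓ ∉ S`.
-/

set_option autoImplicit false
set_option linter.style.haveILetI false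
set_option linter.unusedSectionVars false
set_option linter.unusedVariables false
set_option linter.style.longLine false

open ModularCurve GaloisRep

noncomputable section

namespace Fermat.Agent.P6

open Fermat.Agent.P5
open Fermat.Agent.S29 (GQ)
open Fermat.Agent.S30 (acTrace)
open Fermat.Agent.S31 (TI_evS tpjGal tpjHecke TI_Small)

set_option maxHeartbeats 4000000 in
/-- **CHEB at level `M`**: the Chebotarev approximation on `J₀(M)[p ^ k]` for a datum of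
level `N`, all primes of `M` in `S`. -/
theorem h80m_cheb {p : ℕ} {N : ℕ} [NeZero N] {S : Finset ℕ}
    {𝒪 : Type} [CommRing 𝒪] [IsDomain 𝒪] [IsDiscreteValuationRing 𝒪]
    [IsAdicComplete (IsLocalRing.maximalIdeal 𝒪) 𝒪]
    {θ : CuspForm.heckeAlgebra N 2 (↑S : Set ℕ) →+* IsLocalRing.ResidueField 𝒪}
    {T : Type} [CommRing T] [IsLocalRing T] [IsNoetherianRing T]
    [IsAdicComplete (IsLocalRing.maximalIdeal T) T] [Algebra 𝒪 T] [IsLocalHom (algebraMap 𝒪 T)]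
    [Module.Finite 𝒪 T] [Module.Free 𝒪 T]
    (hp : p.Prime) (hp𝒪 : (p : 𝒪) ∈ IsLocalRing.maximalIdeal 𝒪) (hpS : p ∈ S)
    (hNS : ∀ q : ℕ, q.Prime → q ∣ N → q ∈ S)
    (H : CuspForm.HeckeGaloisRepDatum N (↑S : Set ℕ) 𝒪 θ T)
    (M : ℕ) [NeZero M] (hMS : ∀ q : ℕ, q.Prime → q ∣ M → q ∈ S)
    (hc : HeckeOperatorsCommuteBar M) (k n : ℕ) :
    ∃ τ δ : GQ → MvPolynomial Nat.Primes ℤ,
      (∀ g : GQ, h30xGal M p k g + h30xHecke M p k S hc (δ g) * h30xGal M p k g⁻¹ =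
        h30xHecke M p k S hc (τ g)) ∧
      (∀ g h : GQ, h30xHecke M p k S hc (δ (g * h)) =
        h30xHecke M p k S hc (δ g) * h30xHecke M p k S hc (δ h)) ∧
      h30xHecke M p k S hc (δ 1) = 1 ∧
      (∀ g : GQ, LinearMap.trace T H.ρ.V (H.ρ.ρ g) - H.π (TI_evS N S (τ g)) ∈
        IsLocalRing.maximalIdeal T ^ n) ∧
      (∀ g : GQ, LinearMap.det (H.ρ.ρ g) - H.π (TI_evS N S (δ g)) ∈
        IsLocalRing.maximalIdeal T ^ n) := by
  haveI : Fact p.Prime := ⟨hp⟩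
  have hCheb := Fermat.Agent.Cheb.weakChebotarev
  have hHG := Fermat.Agent.S30.geometricInputsFull.1 M
  have hES := Fermat.Agent.S30.geometricInputsFull.2.1 M p hp
  have hTF := Fermat.Agent.S30.geometricInputsFull.2.2.1 M (p ^ k) (pow_pos hp.pos k)
  obtain ⟨L₁, hL₁, h₁⟩ := hTF.2
  -- the `p`-adic cyclotomic character
  have hmaxZ : IsLocalRing.maximalIdeal ℤ_[p] = Ideal.span {(p : ℤ_[p])} :=
    PadicInt.maximalIdeal_eq_span_p
  have hpZ : (p : ℤ_[p]) ∈ IsLocalRing.maximalIdeal ℤ_[p] := by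
    rw [hmaxZ]
    exact Ideal.mem_span_singleton_self _
  obtain ⟨d, hdcont, hdin, hdfrob, -⟩ := Fermat.Agent.S30.cycCharAdic p hp ℤ_[p] hpZ
  obtain ⟨L₂, hL₂, h₂⟩ := hdcont k
  obtain ⟨L₃, hL₃, h₃⟩ := H.ρ.isAdicContinuous n
  have hfd12 : FiniteDimensional ℚ ↥(L₁ ⊔ L₂) := IntermediateField.finiteDimensional_sup L₁ L₂
  have hfd : FiniteDimensional ℚ ↥(L₁ ⊔ L₂ ⊔ L₃) :=
    IntermediateField.finiteDimensional_sup (L₁ ⊔ L₂) L₃
  have hle₁ : L₁ ≤ L₁ ⊔ L₂ ⊔ L₃ := le_sup_left.trans le_sup_left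
  have hle₂ : L₂ ≤ L₁ ⊔ L₂ ⊔ L₃ := le_sup_right.trans le_sup_left
  have hle₃ : L₃ ≤ L₁ ⊔ L₂ ⊔ L₃ := le_sup_right
  -- primes outside `S`
  have hNp : ∀ ℓ : ℕ, ℓ.Prime → ℓ ∉ S → ¬ ℓ ∣ M * p := by
    intro ℓ hℓ hℓS hdvd
    rcases (Nat.Prime.dvd_mul hℓ).mp hdvd with h | h
    · exact hℓS (hMS ℓ hℓ h)
    · exact hℓS (((Nat.prime_dvd_prime_iff_eq hℓ hp).mp h) ▸ hpS)
  have hne : ∀ ℓ : ℕ, ℓ.Prime → ℓ ∉ S → ℓ ≠ p := fun ℓ _ hℓS h => hℓS (h ▸ hpS)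
  have hnN : ∀ ℓ : ℕ, ℓ.Prime → ℓ ∉ S → ¬ ℓ ∣ N := fun ℓ hℓ hℓS h => hℓS (hNS ℓ hℓ h)
  -- elements fixing the field of `J₀(N)[p ^ k]` act trivially
  have htriv : ∀ σ : GQ, (∀ y ∈ L₁, σ y = y) → h30xGal M p k σ = 1 := by
    intro σ hσ
    refine AddMonoidHom.ext fun x => Subtype.ext ?_
    show σ • (x : JZero M) = (x : JZero M)
    exact h₁ σ hσ _ (h30x_nsmul_eq_zero M p k x)
  -- the pointwise statement
  have hpt : ∀ g : GQ, ∃ (ℓ : Nat.Primes) (j : ℕ),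
      (h30xGal M p k g + h30xHecke M p k S hc (MvPolynomial.C (((ℓ : ℕ) : ℤ) ^ j)) *
          h30xGal M p k g⁻¹ =
        h30xHecke M p k S hc (acTrace (MvPolynomial.X ℓ) (MvPolynomial.C ((ℓ : ℕ) : ℤ)) j)) ∧
      ((((((ℓ : ℕ) : ℤ) ^ j : ℤ) : ℤ_[p]) - ((d g : ℤ_[p]ˣ) : ℤ_[p])) ∈
        IsLocalRing.maximalIdeal ℤ_[p] ^ k) ∧
      (LinearMap.trace T H.ρ.V (H.ρ.ρ g) -
        H.π (TI_evS N S (acTrace (MvPolynomial.X ℓ) (MvPolynomial.C ((ℓ : ℕ) : ℤ)) j)) ∈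
          IsLocalRing.maximalIdeal T ^ n) ∧
      (LinearMap.det (H.ρ.ρ g) - (((((ℓ : ℕ) : ℤ) ^ j : ℤ)) : T) ∈
        IsLocalRing.maximalIdeal T ^ n) := by
    intro g
    obtain ⟨ℓ, hℓ, hℓS, A', hA', f, hf, j, hj⟩ := hCheb (L₁ ⊔ L₂ ⊔ L₃) hfd g S
    -- `σ = (f ^ j)⁻¹ * g` fixes the compositum
    have hσ : ∀ x ∈ L₁ ⊔ L₂ ⊔ L₃, ((f ^ j)⁻¹ * g) x = x := fun x hx => by
      rw [AlgEquiv.mul_apply, hj x hx]
      exact (f ^ j).symm_apply_apply x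
    have hg : g = f ^ j * ((f ^ j)⁻¹ * g) := by rw [mul_inv_cancel_left]
    have hℓN : ¬ ℓ ∣ N := hnN ℓ hℓ hℓS
    have hℓS' : ℓ ∉ (↑S : Set ℕ) := fun h => hℓS (Finset.mem_coe.mp h)
    have hs₂ := h₂ ((f ^ j)⁻¹ * g) fun x hx => hσ x (hle₂ hx)
    have hs₃ : TI_Small (IsLocalRing.maximalIdeal T ^ n) (H.ρ.ρ ((f ^ j)⁻¹ * g) - 1) :=
      fun v => by
        rw [LinearMap.sub_apply, Module.End.one_apply]
        exact h₃ _ (fun x hx => hσ x (hle₃ hx)) v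
    have hdf := hdfrob ℓ hℓ (hne ℓ hℓ hℓS) A' hA' f hf
    have hcp := H.charpoly_frob ℓ hℓ hℓN hℓS' A' hA' f hf
    refine ⟨⟨ℓ, hℓ⟩, j, ?_, ?_, ?_, ?_⟩
    · -- the relation on `J₀(N)[p ^ k]`
      have hσ1 : h30xGal M p k ((f ^ j)⁻¹ * g) = 1 := htriv _ fun y hy => hσ y (hle₁ hy)
      have hgx : h30xGal M p k g = h30xGal M p k f ^ j := by
        conv_lhs => rw [hg]
        rw [map_mul, hσ1, mul_one, map_pow]
      have hx'x : h30xGal M p k f⁻¹ * h30xGal M p k f = 1 := by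
        rw [← map_mul, inv_mul_cancel, map_one]
      have hgx' : h30xGal M p k g⁻¹ = h30xGal M p k f⁻¹ ^ j := by
        have e1 : h30xGal M p k g⁻¹ * h30xGal M p k g = 1 := by
          rw [← map_mul, inv_mul_cancel, map_one]
        have e2 : h30xGal M p k f ^ j * h30xGal M p k f⁻¹ ^ j = 1 := by
          rw [← map_pow, ← map_pow, ← map_mul, inv_pow, mul_inv_cancel, map_one]
        calc h30xGal M p k g⁻¹
            = h30xGal M p k g⁻¹ * (h30xGal M p k f ^ j * h30xGal M p k f⁻¹ ^ j) := by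
              rw [e2, mul_one]
          _ = (h30xGal M p k g⁻¹ * h30xGal M p k g) * h30xGal M p k f⁻¹ ^ j := by
              rw [hgx, mul_assoc]
          _ = h30xGal M p k f⁻¹ ^ j := by rw [e1, one_mul]
      have hb : Commute (h30xHecke M p k S hc (MvPolynomial.X (⟨ℓ, hℓ⟩ : Nat.Primes)))
          (h30xGal M p k f) :=
        (Fermat.Agent.S31.tpj_commute M hHG (h30xKap S (MvPolynomial.X (⟨ℓ, hℓ⟩ : Nat.Primes)))
          f).map (h30xResT M p k)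
      have hESrel : h30xGal M p k f * h30xGal M p k f
          - h30xHecke M p k S hc (MvPolynomial.X (⟨ℓ, hℓ⟩ : Nat.Primes)) * h30xGal M p k f
          + h30xHecke M p k S hc (MvPolynomial.C (((⟨ℓ, hℓ⟩ : Nat.Primes) : ℕ) : ℤ)) = 0 := by
        rw [h30x_map_C]
        refine AddMonoidHom.ext fun x => Subtype.ext ?_
        have hx := h30x_nsmul_eq_zero M p k x
        have h := hES.2 ℓ hℓ (hNp ℓ hℓ hℓS) A' hA' f hf (x : JZero M) ⟨k, hx⟩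
        have e1 : ((h30xHecke M p k S hc (MvPolynomial.X (⟨ℓ, hℓ⟩ : Nat.Primes))
            (h30xGal M p k f x) : h30xTors M p k) : JZero M) =
            heckeOperatorBar M ⟨ℓ, hℓ⟩ (f • (x : JZero M)) :=
          h30xHecke_X M p k S hc ⟨ℓ, hℓ⟩ hℓS (h30xGal M p k f x)
        have e2 : ((((((⟨ℓ, hℓ⟩ : Nat.Primes) : ℕ) : ℤ) : AddMonoid.End (h30xTors M p k)) x :
            h30xTors M p k) : JZero M) = ℓ • (x : JZero M) := by
          have := AddMonoid.End.intCast_apply ((((⟨ℓ, hℓ⟩ : Nat.Primes) : ℕ) : ℤ)) x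
          rw [this]
          show (((ℓ : ℤ) • x : h30xTors M p k) : JZero M) = ℓ • (x : JZero M)
          rw [Submodule.coe_smul, natCast_zsmul]
        show f • f • (x : JZero M)
          - ((h30xHecke M p k S hc (MvPolynomial.X (⟨ℓ, hℓ⟩ : Nat.Primes))
            (h30xGal M p k f x) : h30xTors M p k) : JZero M)
          + ((((((⟨ℓ, hℓ⟩ : Nat.Primes) : ℕ) : ℤ) : AddMonoid.End (h30xTors M p k)) x :
            h30xTors M p k) : JZero M) = 0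
        rw [e1, e2]
        exact h
      have hps := h30x_powsum (h30xHecke M p k S hc) (⟨ℓ, hℓ⟩ : Nat.Primes) (h30xGal M p k f)
        (h30xGal M p k f⁻¹) hx'x hb hESrel j
      rw [hgx, hgx']
      exact hps
    · -- the cyclotomic character
      have hd1 : ((d g : ℤ_[p]ˣ) : ℤ_[p]) =
          (ℓ : ℤ_[p]) ^ j * ((d ((f ^ j)⁻¹ * g) : ℤ_[p]ˣ) : ℤ_[p]) := by
        conv_lhs => rw [hg]
        rw [map_mul, map_pow, Units.val_mul, Units.val_pow_eq_pow_val, hdf]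
      have e : (((((⟨ℓ, hℓ⟩ : Nat.Primes) : ℕ) : ℤ) ^ j : ℤ) : ℤ_[p]) - ((d g : ℤ_[p]ˣ) : ℤ_[p]) =
          -((ℓ : ℤ_[p]) ^ j * (((d ((f ^ j)⁻¹ * g) : ℤ_[p]ˣ) : ℤ_[p]) - 1)) := by
        rw [hd1]
        push_cast
        ring
      rw [e]
      exact neg_mem (Ideal.mul_mem_left _ _ hs₂)
    · -- the trace
      have h := Fermat.Agent.S31.TI_approx_T H.ρ.finrank_eq (IsLocalRing.maximalIdeal T ^ n)
        H.ρ.ρ f ((f ^ j)⁻¹ * g) j _ _ hcp hs₃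
      rw [← hg] at h
      have e1 : H.π (TI_evS N S
          (acTrace (MvPolynomial.X (⟨ℓ, hℓ⟩ : Nat.Primes)) (MvPolynomial.C ((ℓ : ℕ) : ℤ)) j)) =
          acTrace (H.π (CuspForm.heckeAlgebra.T hℓ hℓN hℓS')) ((ℓ : T)) j := by
        have h1 := Fermat.Agent.S31.TI_map_acTrace
          (H.π.comp (TI_evS N S : MvPolynomial Nat.Primes ℤ →+*
            CuspForm.heckeAlgebra N 2 (↑S : Set ℕ)))
          (MvPolynomial.X (⟨ℓ, hℓ⟩ : Nat.Primes)) (MvPolynomial.C ((ℓ : ℕ) : ℤ)) j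
        have h2 : (H.π.comp (TI_evS N S : MvPolynomial Nat.Primes ℤ →+*
            CuspForm.heckeAlgebra N 2 (↑S : Set ℕ))) (MvPolynomial.X (⟨ℓ, hℓ⟩ : Nat.Primes)) =
            H.π (CuspForm.heckeAlgebra.T hℓ hℓN hℓS') := by
          rw [RingHom.comp_apply]
          congr 1
          exact Fermat.Agent.S31.TI_evS_X N S ⟨ℓ, hℓ⟩ hℓN hℓS'
        have h3 : (H.π.comp (TI_evS N S : MvPolynomial Nat.Primes ℤ →+*
            CuspForm.heckeAlgebra N 2 (↑S : Set ℕ))) (MvPolynomial.C ((ℓ : ℕ) : ℤ)) =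
            (ℓ : T) := by
          rw [MvPolynomial.C_eq_coe_nat, map_natCast]
        rw [h2, h3] at h1
        exact h1
      show LinearMap.trace T H.ρ.V (H.ρ.ρ g) - H.π (TI_evS N S
          (acTrace (MvPolynomial.X (⟨ℓ, hℓ⟩ : Nat.Primes)) (MvPolynomial.C ((ℓ : ℕ) : ℤ)) j)) ∈ _
      rw [e1]
      exact h
    · -- the determinant
      have hdetf : LinearMap.det (H.ρ.ρ f) = (ℓ : T) :=
        Fermat.Agent.S34.DI_det_of_charpoly H.ρ.finrank_eq _ _ _ hcp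
      have hdets := Fermat.Agent.S34.DI_det_sub_one_mem hs₃
      have e : LinearMap.det (H.ρ.ρ g) - ((((((⟨ℓ, hℓ⟩ : Nat.Primes) : ℕ) : ℤ) ^ j : ℤ)) : T) =
          (ℓ : T) ^ j * (LinearMap.det (H.ρ.ρ ((f ^ j)⁻¹ * g)) - 1) := by
        conv_lhs => rw [hg]
        rw [map_mul, map_mul, map_pow, map_pow, hdetf]
        push_cast
        ring
      rw [e]
      exact Ideal.mul_mem_left _ _ hdets
  choose ℓ j hA hB hC hD using hpt
  -- integers modulo `p ^ k`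
  have hΘC : ∀ a b : ℤ, ((a : ℤ_[p]) - (b : ℤ_[p])) ∈ IsLocalRing.maximalIdeal ℤ_[p] ^ k →
      h30xHecke M p k S hc (MvPolynomial.C a) = h30xHecke M p k S hc (MvPolynomial.C b) := by
    intro a b hab
    rw [h30x_map_C, h30x_map_C]
    refine h30x_intCast_eq M p k a b (h30x_dvd_of_mem k (a - b) ?_)
    push_cast
    exact hab
  refine ⟨fun g => acTrace (MvPolynomial.X (ℓ g)) (MvPolynomial.C ((ℓ g : ℕ) : ℤ)) (j g),
    fun g => MvPolynomial.C ((((ℓ g : ℕ) : ℤ)) ^ (j g)), hA, ?_, ?_, hC, ?_⟩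
  · intro g h
    show h30xHecke M p k S hc (MvPolynomial.C ((((ℓ (g * h) : ℕ) : ℤ)) ^ (j (g * h)))) =
      h30xHecke M p k S hc (MvPolynomial.C ((((ℓ g : ℕ) : ℤ)) ^ (j g))) *
        h30xHecke M p k S hc (MvPolynomial.C ((((ℓ h : ℕ) : ℤ)) ^ (j h)))
    rw [← map_mul, ← map_mul]
    refine hΘC _ _ ?_
    have e : ((((((ℓ (g * h) : ℕ) : ℤ)) ^ (j (g * h)) : ℤ) : ℤ_[p]) -
        ((((((ℓ g : ℕ) : ℤ)) ^ (j g) * (((ℓ h : ℕ) : ℤ)) ^ (j h) : ℤ)) : ℤ_[p])) =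
        ((((((ℓ (g * h) : ℕ) : ℤ)) ^ (j (g * h)) : ℤ) : ℤ_[p]) - ((d (g * h) : ℤ_[p]ˣ) : ℤ_[p]))
        - ((((((ℓ g : ℕ) : ℤ)) ^ (j g) : ℤ) : ℤ_[p]) *
            ((((((ℓ h : ℕ) : ℤ)) ^ (j h) : ℤ) : ℤ_[p]) - ((d h : ℤ_[p]ˣ) : ℤ_[p]))
          + ((d h : ℤ_[p]ˣ) : ℤ_[p]) *
            ((((((ℓ g : ℕ) : ℤ)) ^ (j g) : ℤ) : ℤ_[p]) - ((d g : ℤ_[p]ˣ) : ℤ_[p]))) := by
      rw [map_mul, Units.val_mul]
      push_cast
      ring
    rw [e]
    exact Ideal.sub_mem _ (hB (g * h))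
      (Ideal.add_mem _ (Ideal.mul_mem_left _ _ (hB h)) (Ideal.mul_mem_left _ _ (hB g)))
  · show h30xHecke M p k S hc (MvPolynomial.C ((((ℓ 1 : ℕ) : ℤ)) ^ (j 1))) = 1
    have h1 : h30xHecke M p k S hc (MvPolynomial.C ((((ℓ 1 : ℕ) : ℤ)) ^ (j 1))) =
        h30xHecke M p k S hc (MvPolynomial.C (1 : ℤ)) := by
      refine hΘC _ _ ?_
      have := hB 1
      rw [map_one, Units.val_one] at this
      push_cast at this ⊢
      exact this
    rw [h1, map_one, map_one]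
  · intro g
    show LinearMap.det (H.ρ.ρ g) -
      H.π (TI_evS N S (MvPolynomial.C ((((ℓ g : ℕ) : ℤ)) ^ (j g)))) ∈ _
    have e : H.π (TI_evS N S (MvPolynomial.C ((((ℓ g : ℕ) : ℤ)) ^ (j g)))) =
        (((((ℓ g : ℕ) : ℤ)) ^ (j g) : ℤ) : T) :=
      h30x_map_C (H.π.comp (TI_evS N S : MvPolynomial Nat.Primes ℤ →+*
        CuspForm.heckeAlgebra N 2 (↑S : Set ℕ))) _
    rw [e]
    exact hD g


/-- **CHEB at a level `M ∣ N`.** -/
theorem h80m_cheb_of_dvd {p : ℕ} {N : ℕ} [NeZero N] {S : Finset ℕ}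
    {𝒪 : Type} [CommRing 𝒪] [IsDomain 𝒪] [IsDiscreteValuationRing 𝒪]
    [IsAdicComplete (IsLocalRing.maximalIdeal 𝒪) 𝒪]
    {θ : CuspForm.heckeAlgebra N 2 (↑S : Set ℕ) →+* IsLocalRing.ResidueField 𝒪}
    {T : Type} [CommRing T] [IsLocalRing T] [IsNoetherianRing T]
    [IsAdicComplete (IsLocalRing.maximalIdeal T) T] [Algebra 𝒪 T] [IsLocalHom (algebraMap 𝒪 T)]
    [Module.Finite 𝒪 T] [Module.Free 𝒪 T]
    (hp : p.Prime) (hp𝒪 : (p : 𝒪) ∈ IsLocalRing.maximalIdeal 𝒪) (hpS : p ∈ S)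
    (hNS : ∀ q : ℕ, q.Prime → q ∣ N → q ∈ S)
    (H : CuspForm.HeckeGaloisRepDatum N (↑S : Set ℕ) 𝒪 θ T)
    (M : ℕ) [NeZero M] (hMN : M ∣ N)
    (hc : HeckeOperatorsCommuteBar M) (k n : ℕ) :
    ∃ τ δ : GQ → MvPolynomial Nat.Primes ℤ,
      (∀ g : GQ, h30xGal M p k g + h30xHecke M p k S hc (δ g) * h30xGal M p k g⁻¹ =
        h30xHecke M p k S hc (τ g)) ∧
      (∀ g h : GQ, h30xHecke M p k S hc (δ (g * h)) =
        h30xHecke M p k S hc (δ g) * h30xHecke M p k S hc (δ h)) ∧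
      h30xHecke M p k S hc (δ 1) = 1 ∧
      (∀ g : GQ, LinearMap.trace T H.ρ.V (H.ρ.ρ g) - H.π (TI_evS N S (τ g)) ∈
        IsLocalRing.maximalIdeal T ^ n) ∧
      (∀ g : GQ, LinearMap.det (H.ρ.ρ g) - H.π (TI_evS N S (δ g)) ∈
        IsLocalRing.maximalIdeal T ^ n) :=
  h80m_cheb hp hp𝒪 hpS hNS H M (fun q hq hqM => hNS q hq (hqM.trans hMN)) hc k n

end Fermat.Agent.P6
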