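import Fermat.Agent.P6.H80Chain
import Fermat.Agent.P6.H80ChebM
import Fermat.Agent.P6.H36OldIface

/-!
# Wave 6 (S33), block B4: the ordinary-type chain on the `𝔪`-part of `J₀(M)[p ^ k]`
(helper80, prefix `h80q_`)

`H` a Hecke–Galois datum of level `N` away from `S` (`p ∈ S` odd, the primes of `N` in `S`),
`M` a level whose primes lie in `S` (`M ∣ N`; `M = N` is allowed), `W = h36oMPart M p H hcM k`
the `𝔪`-part of `J₀(M)[p ^ k]`.

* `h80q_mPart_comm` : `W` is stable under every endomorphism commuting with the Hecke action;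
* `h80q_mPart_inj`  : a Hecke polynomial with unit image in `T` is injective on `W`;
* `h80q_chain` : there is a chain `0 = F 0 ≤ ... ≤ F n = W`, stable under `G_ℚ` and the Hecke
  action, such that every integer combination `z` of elements of `G_ℚ` with
  `ρ z V ⊆ 𝔪_T V` maps `F (i + 1)` into `F i`
  (`h80n_chain_gen` + the Chebotarev approximation `h80m_cheb` at level `M`);
* `h80q_chain_star` : the same with the last clause for `z = (a - e)(b - 1)`:
  `(ρ a - e)(ρ b - 1) V ⊆ 𝔪_T V` implies `(a - e)(b - 1) F (i + 1) ⊆ F i`.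
-/

set_option autoImplicit false
set_option linter.style.haveILetI false
set_option linter.unusedSectionVars false
set_option linter.unusedVariables false
set_option linter.style.longLine false
set_option linter.unusedSimpArgs false

open ModularCurve GaloisRep

noncomputable section

namespace Fermat.Agent.P6

open Fermat.Agent.P5
open Fermat.Agent.S29 (GQ)
open Fermat.Agent.S31 (TI_evS tpjGal tpjHecke)

section MPartM

variable {p : ℕ} {N : ℕ} [NeZero N] {S : Finset ℕ}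
  {𝒪 : Type} [CommRing 𝒪] [IsDomain 𝒪] [IsDiscreteValuationRing 𝒪]
  [IsAdicComplete (IsLocalRing.maximalIdeal 𝒪) 𝒪]
  {θ : CuspForm.heckeAlgebra N 2 (↑S : Set ℕ) →+* IsLocalRing.ResidueField 𝒪}
  {T : Type} [CommRing T] [IsLocalRing T] [IsNoetherianRing T]
  [IsAdicComplete (IsLocalRing.maximalIdeal T) T] [Algebra 𝒪 T] [IsLocalHom (algebraMap 𝒪 T)]
  [Module.Finite 𝒪 T] [Module.Free 𝒪 T]

/-- the `𝔪`-part is stable under everything commuting with the Hecke action. -/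
theorem h80q_mPart_comm (M : ℕ) [NeZero M]
    (H : CuspForm.HeckeGaloisRepDatum N (↑S : Set ℕ) 𝒪 θ T)
    (hcM : HeckeOperatorsCommuteBar M) (k : ℕ) (φ : AddMonoid.End (h30xTors M p k))
    (hφ : ∀ u : MvPolynomial Nat.Primes ℤ, Commute (h30xHecke M p k S hcM u) φ) :
    ∀ w ∈ h36oMPart M p H hcM k, φ w ∈ h36oMPart M p H hcM k := by
  intro w hw u hu
  obtain ⟨r, hr⟩ := hw u hu
  refine ⟨r, ?_⟩
  have h1 : Commute (h30xHecke M p k S hcM u ^ r) φ := (hφ u).pow_left r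
  have h2 : (h30xHecke M p k S hcM u ^ r) (φ w) = φ ((h30xHecke M p k S hcM u ^ r) w) :=
    congrArg (fun ψ : AddMonoid.End (h30xTors M p k) => ψ w) h1.eq
  rw [h2, hr, map_zero]

/-- a Hecke polynomial with unit image in `T` is injective on the `𝔪`-part. -/
theorem h80q_mPart_inj [Finite (IsLocalRing.ResidueField 𝒪)] (M : ℕ) [NeZero M]
    (H : CuspForm.HeckeGaloisRepDatum N (↑S : Set ℕ) 𝒪 θ T)
    (hcM : HeckeOperatorsCommuteBar M) (k : ℕ) (u : MvPolynomial Nat.Primes ℤ)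
    (hu : H.π (TI_evS N S u) ∉ IsLocalRing.maximalIdeal T)
    (w : h30xTors M p k) (hw : w ∈ h36oMPart M p H hcM k)
    (h0 : h30xHecke M p k S hcM u w = 0) : w = 0 := by
  haveI : Finite (IsLocalRing.ResidueField T) := h30x_finite_residueField H
  -- a power of `u` is `≡ 1`
  have hx : IsLocalRing.residue T (H.π (TI_evS N S u)) ≠ 0 := by
    intro h
    exact hu ((IsLocalRing.residue_eq_zero_iff _).mp h)
  obtain ⟨r, hr0, hr⟩ := (isOfFinOrder_of_finite (Units.mk0 _ hx)).exists_pow_eq_one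
  have hr' : IsLocalRing.residue T (H.π (TI_evS N S u)) ^ r = 1 := by
    have := congrArg Units.val hr
    rwa [Units.val_pow_eq_pow_val, Units.val_mk0, Units.val_one] at this
  have hv : H.π (TI_evS N S (u ^ r - 1)) ∈ IsLocalRing.maximalIdeal T := by
    rw [← IsLocalRing.residue_eq_zero_iff, map_sub, map_sub, map_sub, map_pow, map_pow, map_pow,
      hr', map_one, map_one, map_one, sub_self]
  obtain ⟨s, hs⟩ := hw _ hv
  -- `Θ (u ^ r - 1)` is `-1` on the kernel of `Θ u`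
  have hneg : ∀ x : h30xTors M p k, h30xHecke M p k S hcM u x = 0 →
      h30xHecke M p k S hcM (u ^ r - 1) x = -x := by
    intro x hx0
    obtain ⟨r', rfl⟩ : ∃ r' : ℕ, r = r' + 1 := ⟨r - 1, by omega⟩
    have e1 : h30xHecke M p k S hcM (u ^ (r' + 1) - 1) x =
        (h30xHecke M p k S hcM (u ^ r')) (h30xHecke M p k S hcM u x) - x := by
      rw [map_sub, map_one, pow_succ, map_mul]
      rfl
    rw [e1, hx0, map_zero, zero_sub]
  have key : ∀ (s : ℕ) (x : h30xTors M p k), h30xHecke M p k S hcM u x = 0 →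
      (h30xHecke M p k S hcM (u ^ r - 1) ^ s) x = 0 → x = 0 := by
    intro s
    induction s with
    | zero =>
      intro x _ hx1
      rw [pow_zero] at hx1
      exact hx1
    | succ s ih =>
      intro x hx0 hx1
      have e2 : (h30xHecke M p k S hcM (u ^ r - 1) ^ (s + 1)) x =
          (h30xHecke M p k S hcM (u ^ r - 1) ^ s) (h30xHecke M p k S hcM (u ^ r - 1) x) := by
        rw [pow_succ]
        rfl
      rw [e2, hneg x hx0, map_neg, neg_eq_zero] at hx1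
      exact ih x hx0 hx1
  exact key s w h0 hs

set_option maxHeartbeats 1000000 in
/-- **the ordinary-type chain on the `𝔪`-part of `J₀(M)[p ^ k]`.** -/
theorem h80q_chain [Finite (IsLocalRing.ResidueField 𝒪)]
    (hp : p.Prime) (hp2 : p ≠ 2) (hp𝒪 : (p : 𝒪) ∈ IsLocalRing.maximalIdeal 𝒪)
    (hpS : p ∈ S) (hNS : ∀ q : ℕ, q.Prime → q ∣ N → q ∈ S)
    (H : CuspForm.HeckeGaloisRepDatum N (↑S : Set ℕ) 𝒪 θ T)
    (M : ℕ) [NeZero M] (hMS : ∀ q : ℕ, q.Prime → q ∣ M → q ∈ S)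
    (hcM : HeckeOperatorsCommuteBar M) (k : ℕ) :
    ∃ (n : ℕ) (F : ℕ → AddSubgroup (h30xTors M p k)),
      F 0 = ⊥ ∧ F n = h36oMPart M p H hcM k ∧ (∀ i, F i ≤ F (i + 1)) ∧
      (∀ (g : GQ) (i : ℕ), ∀ w ∈ F i, h30xGal M p k g w ∈ F i) ∧
      (∀ (a : MvPolynomial Nat.Primes ℤ) (i : ℕ), ∀ w ∈ F i,
        h30xHecke M p k S hcM a w ∈ F i) ∧
      ∀ (m : ℕ) (c : Fin m → ℤ) (g : Fin m → GQ),
        (∀ v : H.ρ.V, ∑ j, c j • H.ρ.ρ (g j) v ∈
          IsLocalRing.maximalIdeal T • (⊤ : Submodule T H.ρ.V)) →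
        ∀ i, ∀ w ∈ F (i + 1), ∑ j, c j • h30xGal M p k (g j) w ∈ F i := by
  have hHG := Fermat.Agent.S30.geometricInputsFull.1 M
  -- `2` is a unit of `T`
  have hpT : (p : T) ∈ IsLocalRing.maximalIdeal T := by
    have h1 : (p : T) = algebraMap 𝒪 T (p : 𝒪) := (map_natCast (algebraMap 𝒪 T) p).symm
    rw [h1, IsLocalRing.mem_maximalIdeal, mem_nonunits_iff]
    intro hu
    exact (IsLocalRing.mem_maximalIdeal _).mp hp𝒪 (isUnit_of_map_unit (algebraMap 𝒪 T) _ hu)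
  have h2T : (2 : T) ∉ IsLocalRing.maximalIdeal T := by
    have hnd : ¬ p ∣ 2 := fun h => hp2 ((Nat.prime_dvd_prime_iff_eq hp Nat.prime_two).mp h)
    have hu : IsUnit ((2 : ℕ) : T) := Fermat.Agent.S31.TI_isUnit_natCast hp hpT hnd
    rw [Nat.cast_ofNat] at hu
    intro hmem
    exact (IsLocalRing.mem_maximalIdeal _).mp hmem hu
  obtain ⟨τ, δ, h1, h2, h3, h4, h5⟩ := h80m_cheb hp hp𝒪 hpS hNS H M hMS hcM k 1
  haveI hfinW : Finite (h30xTors M p k) := h30x_finite_tors M p k hp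
  -- notation
  let Θ₀ : MvPolynomial Nat.Primes ℤ →+* AddMonoid.End (h30xTors M p k) :=
    h30xHecke M p k S hcM
  let ρ₀ : GQ →* AddMonoid.End (h30xTors M p k) := h30xGal M p k
  let π' : MvPolynomial Nat.Primes ℤ →+* T :=
    H.π.comp (TI_evS N S : MvPolynomial Nat.Primes ℤ →+* CuspForm.heckeAlgebra N 2 (↑S : Set ℕ))
  let W : AddSubgroup (h30xTors M p k) := h36oMPart M p H hcM k
  have hcomm₀ : ∀ (a : MvPolynomial Nat.Primes ℤ) (g : GQ), Commute (Θ₀ a) (ρ₀ g) := by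
    intro a g
    exact (Fermat.Agent.S31.tpj_commute M hHG (h30xKap S a) g).map (h30xResT M p k)
  have hWG : ∀ g : GQ, ∀ w ∈ W, ρ₀ g w ∈ W := fun g =>
    h80q_mPart_comm M H hcM k (ρ₀ g) (fun a => hcomm₀ a g)
  have hWΘ : ∀ a : MvPolynomial Nat.Primes ℤ, ∀ w ∈ W, Θ₀ a w ∈ W := fun a =>
    h80q_mPart_comm M H hcM k (Θ₀ a) (fun b => by
      show Θ₀ b * Θ₀ a = Θ₀ a * Θ₀ b
      rw [← map_mul, ← map_mul, mul_comm])
  let ρW : GQ →* AddMonoid.End W := h30xResG W ρ₀ hWG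
  let Θ : MvPolynomial Nat.Primes ℤ →+* AddMonoid.End W := h30xResR W Θ₀ hWΘ
  have hcomm : ∀ (a : MvPolynomial Nat.Primes ℤ) (g : GQ), Commute (Θ a) (ρW g) := by
    intro a g
    show Θ a * ρW g = ρW g * Θ a
    refine AddMonoidHom.ext fun w => Subtype.ext ?_
    exact congrArg (fun φ : AddMonoid.End (h30xTors M p k) => φ (w : h30xTors M p k))
      (hcomm₀ a g).eq
  have hrel : ∀ g : GQ, ρW g + Θ (δ g) * ρW g⁻¹ = Θ (τ g) := by
    intro g
    refine AddMonoidHom.ext fun w => Subtype.ext ?_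
    exact congrArg (fun φ : AddMonoid.End (h30xTors M p k) => φ (w : h30xTors M p k)) (h1 g)
  have hmul : ∀ g h : GQ, Θ (δ (g * h)) = Θ (δ g) * Θ (δ h) := by
    intro g h
    refine AddMonoidHom.ext fun w => Subtype.ext ?_
    exact congrArg (fun φ : AddMonoid.End (h30xTors M p k) => φ (w : h30xTors M p k)) (h2 g h)
  have htr : ∀ g : GQ, LinearMap.trace T H.ρ.V (H.ρ.ρ g) - π' (τ g) ∈
      IsLocalRing.maximalIdeal T := fun g => by
    have := h4 g
    rwa [pow_one] at this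
  have hinj : ∀ u : MvPolynomial Nat.Primes ℤ, π' u ∉ IsLocalRing.maximalIdeal T →
      Function.Injective (Θ u) := by
    intro u hu
    rw [injective_iff_map_eq_zero]
    intro w hw
    apply Subtype.ext
    refine h80q_mPart_inj M H hcM k u hu (w : h30xTors M p k) w.2 ?_
    exact congrArg (fun z : W => (z : h30xTors M p k)) hw
  obtain ⟨n, F', hF0, hFn, hFmono, hFG, hFΘ, hFstep⟩ :=
    h80n_chain_gen ρW Θ π' H.ρ.ρ τ δ h2T hcomm hrel hmul htr hinj
  refine ⟨n, fun i => (F' i).map W.subtype, ?_, ?_, ?_, ?_, ?_, ?_⟩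
  · show (F' 0).map W.subtype = ⊥
    rw [hF0, AddSubgroup.map_bot]
  · show (F' n).map W.subtype = W
    rw [hFn, ← AddMonoidHom.range_eq_map, AddSubgroup.range_subtype]
  · intro i
    exact AddSubgroup.map_mono (hFmono i)
  · rintro g i _ ⟨w, hw, rfl⟩
    exact ⟨ρW g w, hFG g i w hw, rfl⟩
  · rintro a i _ ⟨w, hw, rfl⟩
    exact ⟨Θ a w, hFΘ a i w hw, rfl⟩
  · rintro m c g hV i _ ⟨w, hw, rfl⟩
    refine ⟨∑ j, c j • ρW (g j) w, hFstep m c g hV i w hw, ?_⟩
    rw [map_sum]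
    refine Finset.sum_congr rfl fun j _ => ?_
    rw [map_zsmul]
    rfl

/-- **the chain, with the step for `(a - e)(b - 1)`.** -/
theorem h80q_chain_star [Finite (IsLocalRing.ResidueField 𝒪)]
    (hp : p.Prime) (hp2 : p ≠ 2) (hp𝒪 : (p : 𝒪) ∈ IsLocalRing.maximalIdeal 𝒪)
    (hpS : p ∈ S) (hNS : ∀ q : ℕ, q.Prime → q ∣ N → q ∈ S)
    (H : CuspForm.HeckeGaloisRepDatum N (↑S : Set ℕ) 𝒪 θ T)
    (M : ℕ) [NeZero M] (hMS : ∀ q : ℕ, q.Prime → q ∣ M → q ∈ S)
    (hcM : HeckeOperatorsCommuteBar M) (k : ℕ) :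
    ∃ (n : ℕ) (F : ℕ → AddSubgroup (h30xTors M p k)),
      F 0 = ⊥ ∧ F n = h36oMPart M p H hcM k ∧ (∀ i, F i ≤ F (i + 1)) ∧
      (∀ (g : GQ) (i : ℕ), ∀ w ∈ F i, h30xGal M p k g w ∈ F i) ∧
      (∀ (a : MvPolynomial Nat.Primes ℤ) (i : ℕ), ∀ w ∈ F i,
        h30xHecke M p k S hcM a w ∈ F i) ∧
      ∀ (a b : GQ) (e : ℕ),
        (∀ v : H.ρ.V, H.ρ.ρ a (H.ρ.ρ b v - v) - (e : T) • (H.ρ.ρ b v - v) ∈
          IsLocalRing.maximalIdeal T • (⊤ : Submodule T H.ρ.V)) →
        ∀ i, ∀ w ∈ F (i + 1),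
          h30xGal M p k a (h30xGal M p k b w - w) - e • (h30xGal M p k b w - w) ∈ F i := by
  obtain ⟨n, F, hF0, hFn, hFmono, hFG, hFΘ, hFstep⟩ :=
    h80q_chain hp hp2 hp𝒪 hpS hNS H M hMS hcM k
  refine ⟨n, F, hF0, hFn, hFmono, hFG, hFΘ, ?_⟩
  intro a b e hV i w hw
  have h := hFstep 4 ![1, -1, -(e : ℤ), (e : ℤ)] ![a * b, a, b, 1] (fun v => by
    have e1 : ∑ j : Fin 4, (![1, -1, -(e : ℤ), (e : ℤ)] : Fin 4 → ℤ) j •
        H.ρ.ρ ((![a * b, a, b, 1] : Fin 4 → GQ) j) v =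
        H.ρ.ρ a (H.ρ.ρ b v - v) - (e : T) • (H.ρ.ρ b v - v) := by
      simp only [Fin.sum_univ_four, Matrix.cons_val_zero, Matrix.cons_val_one,
        Matrix.cons_val, map_mul, map_one, Module.End.mul_apply, Module.End.one_apply,
        one_smul, neg_smul, map_sub, smul_sub, natCast_zsmul,
        Nat.cast_smul_eq_nsmul]
      abel
    rw [e1]
    exact hV v) i w hw
  have e2 : ∑ j : Fin 4, (![1, -1, -(e : ℤ), (e : ℤ)] : Fin 4 → ℤ) j •
      h30xGal M p k ((![a * b, a, b, 1] : Fin 4 → GQ) j) w =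
      h30xGal M p k a (h30xGal M p k b w - w) - e • (h30xGal M p k b w - w) := by
    have hma : ∀ (f g : AddMonoid.End (h30xTors M p k)) (x : h30xTors M p k),
        (f * g) x = f (g x) := fun _ _ _ => rfl
    have hoa : ∀ x : h30xTors M p k, (1 : AddMonoid.End (h30xTors M p k)) x = x := fun _ => rfl
    simp only [Fin.sum_univ_four, Matrix.cons_val_zero, Matrix.cons_val_one,
      Matrix.cons_val, map_mul, map_one, hma, hoa,
      one_smul, neg_smul, map_sub, smul_sub, natCast_zsmul]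
    abel
  rw [e2] at h
  exact h

end MPartM

end Fermat.Agent.P6
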