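import Fermat.Agent.P6.H80MPartM
import Fermat.Agent.P6.H97FlatOrd
import Fermat.Agent.P5.H97FlatClos

/-!
# Wave 6 (S33), block B4-OLD, second route: STAR on the old part from the chain form of B3
(helper80, prefix `h80w_`)

`H97fGlobal` (`P6/H97FlatOrd.lean`, helper97: FLAT-ORD in the chain form, proved from the leaves
ET and MULT) and the ordinary-type chain on the `𝔪`-part (`h80q_chain_star`) give STAR on the
`𝔪`-part of `J₀(M)[p ^ k]`, `p ∤ M`, as soon as

* `J₀(M)[p ^ k]` is flat at `p` (S19 at level `M`);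
* the residual input: `(ρ a - e)(ρ b - 1) V ⊆ 𝔪_T V` for `a, b` in the inertia group at `P`
  (`e` an exponent of `a` on `μ_p`).

No elementwise ORD, no bridge from ORD to chains is needed on this route.

* `H80wResStar` : the residual input, as a frozen `Prop`;
* `h80w_starOld_at` : STAR at one `(M, k, P)`;
* `h80w_starOld : H97fGlobal → (S19 at levels prime to p) → H80wResStar → H36oStarOld`.
-/

set_option autoImplicit false
set_option linter.style.haveILetI false
set_option linter.unusedSectionVars false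
set_option linter.unusedVariables false
set_option linter.style.longLine false

open ModularCurve GaloisRep

noncomputable section

namespace Fermat.Agent.P6

open Fermat.Agent.P5
open Fermat.Agent.S29 (GQ)
open Fermat.Agent.S31 (TI_evS tpjGal tpjHecke)

/-- **the residual input**: for a datum with ordinary residual representation, the monodromy
identity holds on `V` modulo the maximal ideal. -/
def H80wResStar : Prop :=
  ∀ {p : ℕ} {N : ℕ} [NeZero N] {S : Finset ℕ}
    {𝒪 : Type} [CommRing 𝒪] [IsDomain 𝒪] [IsDiscreteValuationRing 𝒪]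
    [IsAdicComplete (IsLocalRing.maximalIdeal 𝒪) 𝒪]
    {θ : CuspForm.heckeAlgebra N 2 (↑S : Set ℕ) →+* IsLocalRing.ResidueField 𝒪}
    {T : Type} [CommRing T] [IsLocalRing T] [IsNoetherianRing T]
    [IsAdicComplete (IsLocalRing.maximalIdeal T) T] [Algebra 𝒪 T] [IsLocalHom (algebraMap 𝒪 T)]
    [Module.Finite 𝒪 T] [Module.Free 𝒪 T] [Finite (IsLocalRing.ResidueField 𝒪)],
    p.Prime → p ≠ 2 → (p : 𝒪) ∈ IsLocalRing.maximalIdeal 𝒪 → p ∈ S →
    (∀ q : ℕ, q.Prime → q ∣ N → q ∈ S) →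
    ∀ (H : CuspForm.HeckeGaloisRepDatum N (↑S : Set ℕ) 𝒪 θ T),
      (GaloisRepAdic.ofResidualGaloisRep H.ρ.residual).IsOrdinaryAt p →
    ∀ (P : ValuationSubring (AlgebraicClosure ℚ)), P.LiesOverPrime p →
      ∀ a ∈ P.inertiaSubgroupIn ℚ, ∀ b ∈ P.inertiaSubgroupIn ℚ, ∀ e : ℕ,
        (∀ μ : AlgebraicClosure ℚ, μ ^ p = 1 → a μ = μ ^ e) →
        ∀ v : H.ρ.V, H.ρ.ρ a (H.ρ.ρ b v - v) - (e : T) • (H.ρ.ρ b v - v) ∈
          IsLocalRing.maximalIdeal T • (⊤ : Submodule T H.ρ.V)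

section Wire

variable {p : ℕ} {N : ℕ} [NeZero N] {S : Finset ℕ}
  {𝒪 : Type} [CommRing 𝒪] [IsDomain 𝒪] [IsDiscreteValuationRing 𝒪]
  [IsAdicComplete (IsLocalRing.maximalIdeal 𝒪) 𝒪]
  {θ : CuspForm.heckeAlgebra N 2 (↑S : Set ℕ) →+* IsLocalRing.ResidueField 𝒪}
  {T : Type} [CommRing T] [IsLocalRing T] [IsNoetherianRing T]
  [IsAdicComplete (IsLocalRing.maximalIdeal T) T] [Algebra 𝒪 T] [IsLocalHom (algebraMap 𝒪 T)]
  [Module.Finite 𝒪 T] [Module.Free 𝒪 T]

set_option maxHeartbeats 1000000 in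
/-- **STAR on the `𝔪`-part of `J₀(M)[p ^ k]`** from the chain form of FLAT-ORD, flatness of
`J₀(M)[p ^ k]` and the residual input at `P`. -/
theorem h80w_starOld_at [Finite (IsLocalRing.ResidueField 𝒪)] (hGlob : H97fGlobal)
    (hp : p.Prime) (hp2 : p ≠ 2) (hp𝒪 : (p : 𝒪) ∈ IsLocalRing.maximalIdeal 𝒪)
    (hpS : p ∈ S) (hNS : ∀ q : ℕ, q.Prime → q ∣ N → q ∈ S)
    (H : CuspForm.HeckeGaloisRepDatum N (↑S : Set ℕ) 𝒪 θ T)
    (M : ℕ) [NeZero M] (hMS : ∀ q : ℕ, q.Prime → q ∣ M → q ∈ S)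
    (hcM : HeckeOperatorsCommuteBar M) (k : ℕ)
    (hflat : h97c_Flat p (h30xTors M p k) (h30xAct M p k))
    (P : ValuationSubring (AlgebraicClosure ℚ)) (hP : P.LiesOverPrime p)
    (hresV : ∀ a ∈ P.inertiaSubgroupIn ℚ, ∀ b ∈ P.inertiaSubgroupIn ℚ, ∀ e : ℕ,
      (∀ μ : AlgebraicClosure ℚ, μ ^ p = 1 → a μ = μ ^ e) →
      ∀ v : H.ρ.V, H.ρ.ρ a (H.ρ.ρ b v - v) - (e : T) • (H.ρ.ρ b v - v) ∈
        IsLocalRing.maximalIdeal T • (⊤ : Submodule T H.ρ.V)) :
    ∀ s ∈ P.inertiaSubgroupIn ℚ, ∀ s' ∈ P.inertiaSubgroupIn ℚ, ∀ c : ℕ,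
      H36oCyc (p ^ k) s' c →
      ∀ w ∈ h36oMPart M p H hcM k,
        h36oMono (fun σ x => h30xGal M p k σ x) s s' c w = 0 := by
  intro s hs s' hs' c hc w hw
  haveI : Fact p.Prime := ⟨hp⟩
  rcases Nat.eq_zero_or_pos k with hk0 | hkpos
  · -- `k = 0`: the trivial group
    subst hk0
    have hsub : ∀ x : h30xTors M p 0, x = 0 := by
      intro x
      apply Subtype.ext
      have := h30x_nsmul_eq_zero M p 0 x
      rwa [pow_zero, one_smul] at this
    exact hsub _
  · obtain ⟨n, F, hF0, hFn, hFmono, hFG, hFΘ, hFstep⟩ :=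
      h80q_chain_star hp hp2 hp𝒪 hpS hNS H M hMS hcM k
    haveI hfinW : Finite (h30xTors M p k) := h30x_finite_tors M p k hp
    haveI hfinX : Finite ↥(h36oMPart M p H hcM k) := Subtype.finite
    have hWG : ∀ g : GQ, ∀ x ∈ h36oMPart M p H hcM k,
        h30xGal M p k g x ∈ h36oMPart M p H hcM k := by
      intro g x hx
      rw [← hFn] at hx ⊢
      exact hFG g n x hx
    let ρW : GQ →* AddMonoid.End ↥(h36oMPart M p H hcM k) :=
      h30xResG (h36oMPart M p H hcM k) (h30xGal M p k) hWG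
    have hact : Fermat.Agent.S56F.IsAct (fun (σ : GQ) (x : ↥(h36oMPart M p H hcM k)) => ρW σ x) :=
      ⟨fun x => by
          show ρW 1 x = x
          rw [map_one]
          rfl,
        fun σ τ x => by
          show ρW (σ * τ) x = ρW σ (ρW τ x)
          rw [map_mul]
          rfl,
        fun σ x y => map_add (ρW σ) x y⟩
    have hkill : ∀ x : ↥(h36oMPart M p H hcM k), p ^ k • x = 0 := by
      intro x
      refine Subtype.ext (Subtype.ext ?_)
      exact h30x_nsmul_eq_zero M p k (x : h30xTors M p k)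
    have hflatW : h97c_Flat p ↥(h36oMPart M p H hcM k) (fun σ x => ρW σ x) :=
      h97c_flat_sub (h36oMPart M p H hcM k) _ (fun σ x => rfl) hflat
    have hcycp : ∀ (a : GQ) (e : ℕ),
        (∀ μ : AlgebraicClosure ℚ, μ ^ p ^ k = 1 → a μ = μ ^ e) →
        ∀ μ : AlgebraicClosure ℚ, μ ^ p = 1 → a μ = μ ^ e := by
      intro a e he μ hμ
      apply he
      obtain ⟨k', rfl⟩ : ∃ k' : ℕ, k = k' + 1 := ⟨k - 1, by omega⟩
      rw [pow_succ', pow_mul, hμ, one_pow]
    have hstar := hGlob p hp2 k ↥(h36oMPart M p H hcM k) (fun σ x => ρW σ x) hact hkill hflatW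
      P hP n (fun i => (F i).comap (h36oMPart M p H hcM k).subtype)
      (by
        refine AddSubgroup.ext fun x => ?_
        rw [AddSubgroup.mem_comap, hF0, AddSubgroup.mem_bot, AddSubgroup.mem_bot]
        exact ⟨fun h => Subtype.ext h, fun h => by rw [h]; rfl⟩)
      (by
        refine AddSubgroup.ext fun x => ?_
        rw [AddSubgroup.mem_comap, hFn]
        exact ⟨fun _ => AddSubgroup.mem_top _, fun _ => x.2⟩)
      (fun i => AddSubgroup.comap_mono (hFmono i))
      (fun i τ _ x hx => hFG τ i _ hx)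
      (fun i a ha b hb e he x hx =>
        hFstep a b e (hresV a ha b hb e (hcycp a e he)) i _ hx)
      s' hs' s hs c hc ⟨w, hw⟩
    have h2 := congrArg (fun z : ↥(h36oMPart M p H hcM k) => (z : h30xTors M p k)) hstar
    have h3 : h30xGal M p k s' (h30xGal M p k s w - w) = c • (h30xGal M p k s w - w) := h2
    show h30xGal M p k s' (h30xGal M p k s w - w) - c • (h30xGal M p k s w - w) = 0
    rw [h3, sub_self]

end Wire

/-- **B4-OLD, chain route**: STAR on the old part from the chain form of FLAT-ORD, S19 at the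
levels prime to `p`, and the residual input. -/
theorem h80w_starOld (hGlob : H97fGlobal)
    (hS19 : ∀ (M : ℕ) [NeZero M] (p : ℕ), p.Prime → ¬ p ∣ M → H30xS19 M p)
    (hres : H80wResStar) : H36oStarOld := by
  intro p N _ S 𝒪 _ _ _ _ θ T _ _ _ _ _ _ _ _ _ hp hp2 hp𝒪 hpS hNS H hresH M _ hMN hpM hcM k
    P hP s hs s' hs' c hc w hw
  exact h80w_starOld_at hGlob hp hp2 hp𝒪 hpS hNS H M
    (fun q hq hqM => hNS q hq (hqM.trans hMN)) hcM k
    (h30x_flat_of_s19 (hS19 M p hp hpM) k) P hP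
    (fun a ha b hb e he v => hres hp hp2 hp𝒪 hpS hNS H hresH P hP a ha b hb e he v)
    s hs s' hs' c hc w hw

end Fermat.Agent.P6
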