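import Mathlib
import Fermat.Agent.P6.H18Purity

/-!
# S33 / B2-T3 (helper81): abstract purity at a node, with the root-of-unity phase

Setting of `P6/H18Purity.lean` (helper18): `A` a valuation ring, `p` a prime number, `R` a
commutative `A`-algebra, `O ≤ V` subalgebras of `R`.  At a smooth closed point of the special
fibre `h18y_purity` applies.  At a NODE the Artin–Schreier hypothesis `hAS` of `h18y_purity`
fails, exactly by the `𝔽_p`-multiples of one element: this is the root-of-unity phase of the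
graph cocycle.  The intended instance is the PRODUCT ring

  `R = F × F`, `V = W_∞ × W_0`, `O =` the diagonal image of the local ring of the node,
  `ε = (0, 1)`, phase `e_ζ = 1 + (ζ - 1) ε = (1, ζ)`.

* `hdepth` is only required RELATIVELY to the source precision `π`: an exact depth is asked
  only for the `G ∉ O + π V` (in the product instance one reduces to ONE function by a partition
  of unity of depth `π`).
* `h81q_purity_dich` : the dichotomy hidden in the proof of `h18y_purity` (no Artin–Schreier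
  hypothesis): either the conclusion of `h18y_purity` holds for `G`, or `G` has an exact depth
  `a` with `p a = a ^ p m`, `m` a unit (the critical depth `v(p)/(p-1)`), and the remainder `r`
  satisfies the Artin–Schreier congruence `r ^ p + m u ^ (p-1) r ∈ O + 𝔪 V`.
* `h81q_node_step` : **purity at a node, one step**:
  `G ^ p ∈ O + π V ⟹ ∃ ζ, ζ ^ p = 1 ∧ ∃ a, e_ζ G ∈ O + a V ∧ (π ∣ a ^ p ∨ π ∣ p a)`.
* `h81q_node_pow`, `h81q_node_iter` : the forms with a fixed `ϖ` and the iteration to `p ^ n`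
  with a phase `ζ`, `ζ ^ (p ^ n) = 1`.
* `h81q_phase` : the hypothesis `hphase` for a valuation ring containing a primitive `p`-th
  root of unity.

Mathlib + `P6/H18Purity.lean` only.
-/

set_option autoImplicit false
set_option linter.unusedSectionVars false

open IsLocalRing

namespace Fermat.Agent.P6

section NodePurity

variable {A : Type*} [CommRing A] [IsDomain A] [ValuationRing A]
  {R : Type*} [CommRing R] [Algebra A R]

/-- multiplication by a unit of `A` does not change membership in `O + 𝔪_A V`. -/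
theorem h81q_nearM_of_unit_smul {O V : Subalgebra A R} {κ : A} (hκ : IsUnit κ) {x : R}
    (h : h18yNearM O V (κ • x)) : h18yNearM O V x := by
  obtain ⟨κ', hκ'⟩ := hκ.exists_left_inv
  have h1 : x = κ' • (κ • x) := by rw [← mul_smul, hκ', one_smul]
  rw [h1]
  exact h18y_nearM_smul_left κ' h

/-- **The dichotomy of abstract purity** (the proof of `h18y_purity` without the
Artin–Schreier hypothesis). -/
theorem h81q_purity_dich (p : ℕ) (hp : p.Prime)
    (hp0 : (p : A) ≠ 0) (O V : Subalgebra A R) (hOV : O ≤ V)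
    (hsat : ∀ a : A, a ≠ 0 → ∀ x ∈ V, a • x ∈ O → x ∈ O)
    (hroot : ∀ x ∈ V, h18yNearM O V (x ^ p) → h18yNearM O V x)
    (π : A)
    (hdepth : ∀ G ∈ V, ¬ h18yNear O V π G →
      ∃ a : A, a ≠ 0 ∧ ∃ b ∈ O, ∃ r ∈ V, G = b + a • r ∧ ¬ h18yNearM O V r)
    (G : R) (hGV : G ∈ V) (u : R) (hu : u ∈ O) (hu' : ∃ u' ∈ O, u * u' = 1)
    (hGu : ∃ m ∈ maximalIdeal A, ∃ y ∈ V, G = u + m • y)
    (hGp : h18yNear O V π (G ^ p)) :
    (∃ a : A, h18yNear O V a G ∧ (π ∣ a ^ p ∨ π ∣ (p : A) * a)) ∨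
    (∃ a m : A, ∃ b r : R, a ≠ 0 ∧ a ∈ maximalIdeal A ∧ IsUnit m ∧ (p : A) * a = a ^ p * m ∧
      b ∈ O ∧ r ∈ V ∧ G = b + a • r ∧ ¬ h18yNearM O V r ∧
      (∃ m'' ∈ maximalIdeal A, ∃ z ∈ O, b = u + m'' • z) ∧
      h18yNearM O V (r ^ p + m • (u ^ (p - 1) * r))) := by
  classical
  by_cases hGO : h18yNear O V π G
  · exact Or.inl ⟨π, hGO, Or.inl (dvd_pow_self π hp.ne_zero)⟩
  obtain ⟨a, ha0, b, hb, r, hr, hGeq, hrn⟩ := hdepth G hGV hGO
  by_cases hcon : π ∣ a ^ p ∨ π ∣ (p : A) * a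
  · exact Or.inl ⟨a, ⟨b, hb, r, hr, hGeq⟩, hcon⟩
  rw [not_or] at hcon
  obtain ⟨hc1, hc2⟩ := hcon
  obtain ⟨m₁, hm₁, hπ₁⟩ := h18y_exists_of_not_dvd hc1
  obtain ⟨m₂, hm₂, hπ₂⟩ := h18y_exists_of_not_dvd hc2
  obtain ⟨mu, hmu, y, hy, hGu⟩ := hGu
  obtain ⟨u', hu'O, huu'⟩ := hu'
  set φ := algebraMap A R with hφ
  have hφV : ∀ c : A, φ c ∈ V := fun c => V.algebraMap_mem c
  -- `a` is a nonunit
  have haM : a ∈ maximalIdeal A := by
    rw [mem_maximalIdeal, mem_nonunits_iff]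
    intro hau
    obtain ⟨a', ha'⟩ := hau.exists_left_inv
    apply hrn
    have h1 : r = a' • (a • r) := by rw [← mul_smul, ha', one_smul]
    rw [h1]
    apply h18y_nearM_smul_left
    have h2 : a • r = (u - b) + mu • y := by
      have : a • r = G - b := by rw [hGeq]; ring
      rw [this, hGu]; ring
    rw [h2]
    exact h18y_nearM_add (h18y_nearM_of_mem (O.sub_mem hu hb)) (h18y_nearM_smul hmu hy)
  -- `b = u + m'' z`
  obtain ⟨m'', hm'', hd₁, hd₂⟩ := h18y_exists_common hmu haM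
  have hm''0 : m'' ≠ 0 := by
    rintro rfl
    exact ha0 (zero_dvd_iff.mp hd₂)
  obtain ⟨c₁, hc₁⟩ := hd₁
  obtain ⟨c₂, hc₂⟩ := hd₂
  have hz : c₁ • y - c₂ • r ∈ O := by
    apply hsat m'' hm''0 _ (V.sub_mem (V.smul_mem hy _) (V.smul_mem hr _))
    have : m'' • (c₁ • y - c₂ • r) = b - u := by
      have h1 : b = G - a • r := by rw [hGeq]; ring
      rw [h1, hGu, smul_sub, ← mul_smul, ← mul_smul, ← hc₁, ← hc₂]; ring
    rw [this]
    exact O.sub_mem hb hu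
  set z := c₁ • y - c₂ • r with hzdef
  have hbu : b = u + m'' • z := by
    have h1 : b = G - a • r := by rw [hGeq]; ring
    rw [h1, hGu, hzdef, smul_sub, ← mul_smul, ← mul_smul, ← hc₁, ← hc₂]; ring
  -- `b ^ (p - 1) = u ^ (p - 1) + m'' c`
  obtain ⟨c, hcO, hbpow⟩ : ∃ c ∈ O, b ^ (p - 1) = u ^ (p - 1) + m'' • c := by
    obtain ⟨d, hd⟩ := sub_dvd_pow_sub_pow (⟨b, hb⟩ : O) ⟨u, hu⟩ (p - 1)
    have hd' := congrArg Subtype.val hd
    simp only [Subalgebra.coe_sub, Subalgebra.coe_pow, Subalgebra.coe_mul] at hd'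
    refine ⟨z * d, O.mul_mem hz d.2, ?_⟩
    have h2 : b - u = m'' • z := by rw [hbu]; ring
    rw [h2] at hd'
    rw [smul_mul_assoc] at hd'
    rw [← hd']; ring
  -- the expansion of `G ^ p`
  obtain ⟨Y, hY⟩ := h18y_binom p hp (⟨b, hOV hb⟩ : V) ⟨a • r, V.smul_mem hr a⟩
  have hY' := congrArg Subtype.val hY
  simp only [Subalgebra.coe_add, Subalgebra.coe_pow, Subalgebra.coe_mul] at hY'
  have hpφ : (((p : ℕ) : V) : R) = φ (p : A) := by
    rw [hφ, map_natCast]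
    exact map_natCast V.val p
  obtain ⟨o, ho, s, hs, hGpeq⟩ := hGp
  rw [hGeq, hY'] at hGpeq
  -- the key identity
  have hE : φ a ^ p * r ^ p + φ (p * a) * (b ^ (p - 1) * r) +
      φ (p * a) * (φ a * (r ^ 2 * (Y : R))) = (o - b ^ p) + φ π * s := by
    have h3 : o + π • s = b ^ p + φ (p : A) * b ^ (p - 1) * (φ a * r) +
        φ (p : A) * (φ a * r) ^ 2 * (Y : R) + (φ a * r) ^ p := by
      rw [← hGpeq, hpφ, Algebra.smul_def]
    rw [Algebra.smul_def] at h3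
    rw [map_mul]
    linear_combination -h3
  have hr2Y : r ^ 2 * (Y : R) ∈ V := V.mul_mem (V.pow_mem hr 2) Y.2
  have hbr : b ^ (p - 1) * r ∈ V := V.mul_mem (V.pow_mem (hOV hb) _) hr
  have hobp : o - b ^ p ∈ O := O.sub_mem ho (O.pow_mem hb p)
  have hpa0 : (p : A) * a ≠ 0 := mul_ne_zero hp0 ha0
  have hap0 : a ^ p ≠ 0 := pow_ne_zero _ ha0
  -- from `u ^ (p-1) * r ∈ O + 𝔪 V` to `r ∈ O + 𝔪 V`
  have hfin : h18yNearM O V (u ^ (p - 1) * r) → h18yNearM O V r := by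
    intro h
    have h1 : r = u' ^ (p - 1) * (u ^ (p - 1) * r) := by
      rw [← mul_assoc, ← mul_pow, mul_comm u' u, huu', one_pow, one_mul]
    rw [h1]
    exact h18y_nearM_mul_left hOV (O.pow_mem hu'O _) h
  have hbr' : b ^ (p - 1) * r = u ^ (p - 1) * r + m'' • (c * r) := by
    rw [hbpow, add_mul, smul_mul_assoc]
  -- the critical case
  have caseIII : ∀ m : A, IsUnit m → (p : A) * a = a ^ p * m →
      h18yNearM O V (r ^ p + m • (u ^ (p - 1) * r)) := by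
    intro m hmu' hm
    have hX : r ^ p + m • (b ^ (p - 1) * r) + m • (a • (r ^ 2 * (Y : R))) - (m * m₂) • s ∈ O := by
      apply hsat (a ^ p) hap0
      · exact V.sub_mem (V.add_mem (V.add_mem (V.pow_mem hr p) (V.smul_mem hbr _))
          (V.smul_mem (V.smul_mem hr2Y _) _)) (V.smul_mem hs _)
      · have : a ^ p • (r ^ p + m • (b ^ (p - 1) * r) + m • (a • (r ^ 2 * (Y : R))) -
            (m * m₂) • s) = o - b ^ p := by
          have hπ : φ π = φ a ^ p * φ m * φ m₂ := by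
            rw [hπ₂, hm, map_mul, map_mul, map_pow]
          have hpa : φ (p * a) = φ a ^ p * φ m := by rw [hm, map_mul, map_pow]
          simp only [Algebra.smul_def, map_mul, map_pow]
          rw [← hφ]
          rw [hpa, hπ] at hE
          linear_combination hE
        rw [this]; exact hobp
    have h1 : r ^ p + m • (u ^ (p - 1) * r) =
        (r ^ p + m • (b ^ (p - 1) * r) + m • (a • (r ^ 2 * (Y : R))) - (m * m₂) • s) +
          ((m₂ * m) • s - a • (m • (r ^ 2 * (Y : R))) - m'' • (m • (c * r))) := by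
      rw [hbr']
      simp only [Algebra.smul_def, map_mul]
      ring
    rw [h1]
    refine h18y_nearM_add (h18y_nearM_of_mem hX) (h18y_nearM_sub (h18y_nearM_sub ?_ ?_) ?_)
    · exact h18y_nearM_smul (Ideal.mul_mem_right _ _ hm₂) hs
    · exact h18y_nearM_smul haM (V.smul_mem hr2Y _)
    · exact h18y_nearM_smul hm'' (V.smul_mem (V.mul_mem (hOV hcO) hr) _)
  have hright : ∀ m : A, IsUnit m → (p : A) * a = a ^ p * m →
      (∃ a : A, h18yNear O V a G ∧ (π ∣ a ^ p ∨ π ∣ (p : A) * a)) ∨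
      (∃ a m : A, ∃ b r : R, a ≠ 0 ∧ a ∈ maximalIdeal A ∧ IsUnit m ∧
        (p : A) * a = a ^ p * m ∧
        b ∈ O ∧ r ∈ V ∧ G = b + a • r ∧ ¬ h18yNearM O V r ∧
        (∃ m'' ∈ maximalIdeal A, ∃ z ∈ O, b = u + m'' • z) ∧
        h18yNearM O V (r ^ p + m • (u ^ (p - 1) * r))) := fun m hmu' hm =>
    Or.inr ⟨a, m, b, r, ha0, haM, hmu', hm, hb, hr, hGeq, hrn, ⟨m'', hm'', z, hz, hbu⟩,
      caseIII m hmu' hm⟩
  rcases ValuationRing.dvd_total (a ^ p) ((p : A) * a) with ⟨m, hm⟩ | ⟨m, hm⟩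
  · by_cases hmu' : IsUnit m
    · exact hright m hmu' hm
    · -- case I
      exfalso
      apply hrn
      have hmM : m ∈ maximalIdeal A := by rwa [mem_maximalIdeal, mem_nonunits_iff]
      have hX : r ^ p - m₁ • s + m • (b ^ (p - 1) * r + a • (r ^ 2 * (Y : R))) ∈ O := by
        apply hsat (a ^ p) hap0
        · exact V.add_mem (V.sub_mem (V.pow_mem hr p) (V.smul_mem hs _))
            (V.smul_mem (V.add_mem hbr (V.smul_mem hr2Y _)) _)
        · have : a ^ p • (r ^ p - m₁ • s + m • (b ^ (p - 1) * r + a • (r ^ 2 * (Y : R)))) =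
              o - b ^ p := by
            have hπ : φ π = φ a ^ p * φ m₁ := by rw [hπ₁, map_mul, map_pow]
            have hpa : φ (p * a) = φ a ^ p * φ m := by rw [hm, map_mul, map_pow]
            simp only [Algebra.smul_def, map_pow]
            rw [← hφ]
            rw [hpa, hπ] at hE
            linear_combination hE
          rw [this]; exact hobp
      apply hroot r hr
      have h1 : r ^ p = (r ^ p - m₁ • s + m • (b ^ (p - 1) * r + a • (r ^ 2 * (Y : R)))) +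
          (m₁ • s - m • (b ^ (p - 1) * r + a • (r ^ 2 * (Y : R)))) := by ring
      rw [h1]
      refine h18y_nearM_add (h18y_nearM_of_mem hX) (h18y_nearM_sub ?_ ?_)
      · exact h18y_nearM_smul hm₁ hs
      · exact h18y_nearM_smul hmM (V.add_mem hbr (V.smul_mem hr2Y _))
  · by_cases hmu' : IsUnit m
    · obtain ⟨m', hm'⟩ := hmu'.exists_right_inv
      have hm'u : IsUnit m' := IsUnit.of_mul_eq_one m (by rw [mul_comm]; exact hm')
      refine hright m' hm'u ?_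
      rw [hm, mul_assoc, hm', mul_one]
    · -- case II
      exfalso
      apply hrn
      have hmM : m ∈ maximalIdeal A := by rwa [mem_maximalIdeal, mem_nonunits_iff]
      have hX : b ^ (p - 1) * r - m₂ • s + a • (r ^ 2 * (Y : R)) + m • r ^ p ∈ O := by
        apply hsat ((p : A) * a) hpa0
        · exact V.add_mem (V.add_mem (V.sub_mem hbr (V.smul_mem hs _)) (V.smul_mem hr2Y _))
            (V.smul_mem (V.pow_mem hr p) _)
        · have : ((p : A) * a) • (b ^ (p - 1) * r - m₂ • s + a • (r ^ 2 * (Y : R)) +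
              m • r ^ p) = o - b ^ p := by
            have hπ : φ π = φ (p * a) * φ m₂ := by rw [hπ₂, map_mul]
            have hap : φ a ^ p = φ (p * a) * φ m := by rw [← map_pow, hm, map_mul]
            simp only [Algebra.smul_def]
            rw [← hφ]
            rw [hap, hπ] at hE
            linear_combination hE
          rw [this]; exact hobp
      apply hfin
      have h1 : u ^ (p - 1) * r =
          (b ^ (p - 1) * r - m₂ • s + a • (r ^ 2 * (Y : R)) + m • r ^ p) +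
            (m₂ • s - a • (r ^ 2 * (Y : R)) - m • r ^ p - m'' • (c * r)) := by
        rw [hbr']; ring
      rw [h1]
      refine h18y_nearM_add (h18y_nearM_of_mem hX)
        (h18y_nearM_sub (h18y_nearM_sub (h18y_nearM_sub ?_ ?_) ?_) ?_)
      · exact h18y_nearM_smul hm₂ hs
      · exact h18y_nearM_smul haM hr2Y
      · exact h18y_nearM_smul hmM (V.pow_mem hr p)
      · exact h18y_nearM_smul hm'' (V.mul_mem (hOV hcO) hr)

/-! ## Phases -/

/-- the phase `e_ζ = 1 + (ζ - 1) ε` (`= (1, ζ)` for `ε = (0, 1)` in a product ring). -/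
def h81qPhase (ε : R) (ζ : A) : R := 1 + (ζ - 1) • ε

theorem h81q_phase_one (ε : R) : h81qPhase ε (1 : A) = 1 := by
  simp [h81qPhase]

theorem h81q_phase_mem {V : Subalgebra A R} {ε : R} (hεV : ε ∈ V) (ζ : A) :
    h81qPhase ε ζ ∈ V :=
  V.add_mem V.one_mem (V.smul_mem hεV _)

theorem h81q_phase_mul {ε : R} (hε : ε * ε = ε) (ζ ξ : A) :
    h81qPhase ε ζ * h81qPhase ε ξ = h81qPhase ε (ζ * ξ) := by
  simp only [h81qPhase, Algebra.smul_def, map_sub, map_one, map_mul]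
  linear_combination (algebraMap A R ζ - 1) * (algebraMap A R ξ - 1) * hε

theorem h81q_phase_pow {ε : R} (hε : ε * ε = ε) (ζ : A) (n : ℕ) :
    h81qPhase ε ζ ^ n = h81qPhase ε (ζ ^ n) := by
  induction n with
  | zero => rw [pow_zero, pow_zero, h81q_phase_one]
  | succ n ih => rw [pow_succ, ih, h81q_phase_mul hε, pow_succ]

theorem h81q_phase_mul_eq (ε : R) (ζ : A) (G : R) :
    h81qPhase ε ζ * G = G + (ζ - 1) • (ε * G) := by
  simp only [h81qPhase, Algebra.smul_def]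
  ring

/-- two critical depths differ by a unit. -/
theorem h81q_crit_unit (p : ℕ) (hp : p.Prime) {a m a' m' κ : A} (ha0 : a ≠ 0) (ha'0 : a' ≠ 0)
    (hm : IsUnit m) (h : (p : A) * a = a ^ p * m) (h' : (p : A) * a' = a' ^ p * m')
    (hκ : a' = a * κ) : IsUnit κ := by
  have hκ0 : κ ≠ 0 := by
    rintro rfl
    exact ha'0 (by rw [hκ, mul_zero])
  obtain ⟨q, rfl⟩ : ∃ q, p = q + 1 := ⟨p - 1, by have := hp.pos; omega⟩
  have hq : q ≠ 0 := by
    rintro rfl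
    exact hp.ne_one rfl
  have h1 : a ^ (q + 1) * κ * (m - κ ^ q * m') = 0 := by
    rw [hκ] at h'
    linear_combination h' - κ * h
  have h2 : m - κ ^ q * m' = 0 := by
    rcases mul_eq_zero.mp h1 with h3 | h3
    · exact absurd h3 (mul_ne_zero (pow_ne_zero _ ha0) hκ0)
    · exact h3
  have h3 : IsUnit (κ ^ q * m') := by
    have : κ ^ q * m' = m := by linear_combination -h2
    rw [this]; exact hm
  exact (isUnit_pow_iff hq).mp (isUnit_of_mul_isUnit_left h3)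

/-- **Purity at a node, one step.**  Hypotheses of `h18y_purity`, except that the
Artin–Schreier closedness holds only up to the multiples `θ ε u` (`θ ∈ A` a solution of
`θ ^ p + c θ ≡ 0`); such `θ` at the critical depth come from `p`-th roots of unity (`hphase`).
Then `G ^ p ∈ O + π V` implies `e_ζ G ∈ O + a V` for a `p`-th root of unity `ζ`, with
`π ∣ a ^ p` or `π ∣ p a`. -/
theorem h81q_node_step (p : ℕ) (hp : p.Prime)
    (hp0 : (p : A) ≠ 0) (O V : Subalgebra A R) (hOV : O ≤ V)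
    (hsat : ∀ a : A, a ≠ 0 → ∀ x ∈ V, a • x ∈ O → x ∈ O)
    (hroot : ∀ x ∈ V, h18yNearM O V (x ^ p) → h18yNearM O V x)
    (π : A)
    (hdepth : ∀ G ∈ V, ¬ h18yNear O V π G →
      ∃ a : A, a ≠ 0 ∧ ∃ b ∈ O, ∃ r ∈ V, G = b + a • r ∧ ¬ h18yNearM O V r)
    (ε : R) (hεV : ε ∈ V) (hε : ε * ε = ε)
    (hASn : ∀ c : A, IsUnit c → ∀ u ∈ O, (∃ u' ∈ O, u * u' = 1) → ∀ x ∈ V,
      h18yNearM O V (x ^ p + c • (u ^ (p - 1) * x)) →
        ∃ θ : A, θ ^ p + c * θ ∈ maximalIdeal A ∧ h18yNearM O V (x + θ • (ε * u)))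
    (hphase : ∀ a c θ : A, a ∈ maximalIdeal A → a ≠ 0 → IsUnit c → (p : A) * a = a ^ p * c →
      θ ^ p + c * θ ∈ maximalIdeal A →
        ∃ ζ : A, ζ ^ p = 1 ∧ ∃ m' ∈ maximalIdeal A, ζ - 1 = a * (θ + m'))
    (G : R) (hGV : G ∈ V) (u : R) (hu : u ∈ O) (hu' : ∃ u' ∈ O, u * u' = 1)
    (hGu : ∃ m ∈ maximalIdeal A, ∃ y ∈ V, G = u + m • y)
    (hGp : h18yNear O V π (G ^ p)) :
    ∃ ζ : A, ζ ^ p = 1 ∧ ∃ a : A, h18yNear O V a (h81qPhase ε ζ * G) ∧
      (π ∣ a ^ p ∨ π ∣ (p : A) * a) := by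
  rcases h81q_purity_dich p hp hp0 O V hOV hsat hroot π hdepth G hGV u hu hu' hGu hGp with
    ⟨a, hna, hdiv⟩ | ⟨a, m, b, r, ha0, haM, hmu, hm, hb, hr, hGeq, hrn, ⟨m'', hm'', z, hz, hbu⟩,
      hAS⟩
  · exact ⟨1, one_pow _, a, by rw [h81q_phase_one, one_mul]; exact hna, hdiv⟩
  obtain ⟨θ, hθ, hnear⟩ := hASn m hmu u hu hu' r hr hAS
  obtain ⟨ζ, hζ, m', hm', hζeq⟩ := hphase a m θ haM ha0 hmu hm hθ
  have hG'V : h81qPhase ε ζ * G ∈ V := V.mul_mem (h81q_phase_mem hεV ζ) hGV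
  have hG'p : (h81qPhase ε ζ * G) ^ p = G ^ p := by
    rw [mul_pow, h81q_phase_pow hε, hζ, h81q_phase_one, one_mul]
  have hζM : ζ - 1 ∈ maximalIdeal A := by
    rw [hζeq]; exact Ideal.mul_mem_right _ _ haM
  -- `e_ζ G` is still congruent to `u`
  have hG'u : ∃ m ∈ maximalIdeal A, ∃ y ∈ V, h81qPhase ε ζ * G = u + m • y := by
    obtain ⟨mu, hmu', y, hy, hGu'⟩ := hGu
    obtain ⟨m₀, hm₀, ⟨c₁, hc₁⟩, ⟨c₂, hc₂⟩⟩ := h18y_exists_common hmu' hζM
    refine ⟨m₀, hm₀, c₁ • y + c₂ • (ε * G), V.add_mem (V.smul_mem hy _)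
      (V.smul_mem (V.mul_mem hεV hGV) _), ?_⟩
    have e1 : m₀ • (c₁ • y + c₂ • (ε * G)) = mu • y + (ζ - 1) • (ε * G) := by
      rw [smul_add, ← mul_smul, ← mul_smul, ← hc₁, ← hc₂]
    rw [e1, h81q_phase_mul_eq, ← add_assoc, ← hGu']
  -- `e_ζ G ∈ O + a m₀ V`
  have hrstar : h18yNearM O V (r + (θ + m') • (ε * b) + ((θ + m') * a) • (ε * r)) := by
    have h1 : r + (θ + m') • (ε * b) + ((θ + m') * a) • (ε * r) =
        (r + θ • (ε * u)) + ((θ * m'') • (ε * z) + m' • (ε * b) +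
          ((θ + m') * a) • (ε * r)) := by
      rw [hbu]
      simp only [Algebra.smul_def, map_mul, map_add]
      ring
    rw [h1]
    refine h18y_nearM_add hnear (h18y_nearM_add (h18y_nearM_add ?_ ?_) ?_)
    · exact h18y_nearM_smul (Ideal.mul_mem_left _ _ hm'') (V.mul_mem hεV (hOV hz))
    · exact h18y_nearM_smul hm' (V.mul_mem hεV (hOV hb))
    · exact h18y_nearM_smul (Ideal.mul_mem_left _ _ haM) (V.mul_mem hεV hr)
  obtain ⟨m₀, hm₀, o₁, ho₁, v₁, hv₁, hrs⟩ := hrstar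
  have hG'eq : h81qPhase ε ζ * G = (b + a • o₁) + (a * m₀) • v₁ := by
    have h2 : a • (r + (θ + m') • (ε * b) + ((θ + m') * a) • (ε * r)) =
        a • o₁ + (a * m₀) • v₁ := by
      rw [hrs, smul_add, mul_smul]
    rw [add_assoc, ← h2, h81q_phase_mul_eq, hζeq]
    nth_rewrite 1 [hGeq]
    nth_rewrite 1 [hGeq]
    simp only [Algebra.smul_def, map_mul, map_add]
    ring
  have hb₁ : b + a • o₁ ∈ O := O.add_mem hb (O.smul_mem ho₁ _)
  -- the dichotomy for `e_ζ G`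
  rcases h81q_purity_dich p hp hp0 O V hOV hsat hroot π hdepth (h81qPhase ε ζ * G) hG'V u hu hu'
    hG'u (by rw [hG'p]; exact hGp) with
    ⟨a', hna', hdiv'⟩ | ⟨a', mm, b', r', ha'0, -, hmmu, hmm, hb', hr', hG'eq', hr'n, -, -⟩
  · exact ⟨ζ, hζ, a', hna', hdiv'⟩
  exfalso
  apply hr'n
  rcases ValuationRing.dvd_total a a' with ⟨κ, hκ⟩ | ⟨κ, hκ⟩
  · -- `a' = a κ`, `κ` a unit
    have hκu : IsUnit κ := h81q_crit_unit p hp ha0 ha'0 hmu hm hmm hκ
    apply h81q_nearM_of_unit_smul hκu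
    have h3 : κ • r' - m₀ • v₁ ∈ O := by
      apply hsat a ha0 _ (V.sub_mem (V.smul_mem hr' _) (V.smul_mem hv₁ _))
      have : a • (κ • r' - m₀ • v₁) = (b + a • o₁) - b' := by
        have h4 : a' • r' = (b + a • o₁) + (a * m₀) • v₁ - b' := by
          rw [← hG'eq, hG'eq']; ring
        rw [smul_sub, ← mul_smul, ← mul_smul, ← hκ, h4]; ring
      rw [this]
      exact O.sub_mem hb₁ hb'
    exact ⟨m₀, hm₀, κ • r' - m₀ • v₁, h3, v₁, hv₁, by ring⟩
  · -- `a = a' κ`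
    have h3 : r' - (κ * m₀) • v₁ ∈ O := by
      apply hsat a' ha'0 _ (V.sub_mem hr' (V.smul_mem hv₁ _))
      have : a' • (r' - (κ * m₀) • v₁) = (b + a • o₁) - b' := by
        have h4 : a' • r' = (b + a • o₁) + (a * m₀) • v₁ - b' := by
          rw [← hG'eq, hG'eq']; ring
        rw [smul_sub, ← mul_smul, h4, ← mul_assoc, ← hκ]; ring
      rw [this]
      exact O.sub_mem hb₁ hb'
    exact ⟨κ * m₀, Ideal.mul_mem_left _ _ hm₀, r' - (κ * m₀) • v₁, h3, v₁, hv₁, by ring⟩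

/-- **Purity at a node**, one step, with a fixed `ϖ`:
`G ^ p ∈ O + p ϖ ^ k V ⟹ e_ζ G ∈ O + ϖ ^ (k / p) V` for a `p`-th root of unity `ζ`. -/
theorem h81q_node_pow (p : ℕ) (hp : p.Prime)
    (hp0 : (p : A) ≠ 0) (O V : Subalgebra A R) (hOV : O ≤ V)
    (hsat : ∀ a : A, a ≠ 0 → ∀ x ∈ V, a • x ∈ O → x ∈ O)
    (hroot : ∀ x ∈ V, h18yNearM O V (x ^ p) → h18yNearM O V x)
    (ϖ : A) (k : ℕ)
    (hdepth : ∀ G ∈ V, ¬ h18yNear O V ((p : A) * ϖ ^ k) G →
      ∃ a : A, a ≠ 0 ∧ ∃ b ∈ O, ∃ r ∈ V, G = b + a • r ∧ ¬ h18yNearM O V r)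
    (ε : R) (hεV : ε ∈ V) (hε : ε * ε = ε)
    (hASn : ∀ c : A, IsUnit c → ∀ u ∈ O, (∃ u' ∈ O, u * u' = 1) → ∀ x ∈ V,
      h18yNearM O V (x ^ p + c • (u ^ (p - 1) * x)) →
        ∃ θ : A, θ ^ p + c * θ ∈ maximalIdeal A ∧ h18yNearM O V (x + θ • (ε * u)))
    (hphase : ∀ a c θ : A, a ∈ maximalIdeal A → a ≠ 0 → IsUnit c → (p : A) * a = a ^ p * c →
      θ ^ p + c * θ ∈ maximalIdeal A →
        ∃ ζ : A, ζ ^ p = 1 ∧ ∃ m' ∈ maximalIdeal A, ζ - 1 = a * (θ + m'))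
    (G : R) (hGV : G ∈ V) (u : R) (hu : u ∈ O) (hu' : ∃ u' ∈ O, u * u' = 1)
    (hGu : ∃ m ∈ maximalIdeal A, ∃ y ∈ V, G = u + m • y)
    (hGp : h18yNear O V ((p : A) * ϖ ^ k) (G ^ p)) :
    ∃ ζ : A, ζ ^ p = 1 ∧ h18yNear O V (ϖ ^ (k / p)) (h81qPhase ε ζ * G) := by
  obtain ⟨ζ, hζ, a, hna, hdiv⟩ := h81q_node_step p hp hp0 O V hOV hsat hroot _ hdepth ε hεV hε
    hASn hphase G hGV u hu hu' hGu hGp
  refine ⟨ζ, hζ, h18y_near_of_dvd ?_ hna⟩
  rcases hdiv with h | h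
  · apply h18y_dvd_of_pow_dvd_pow hp.ne_zero
    rw [← pow_mul]
    refine dvd_trans (dvd_trans (pow_dvd_pow ϖ (Nat.div_mul_le_self k p)) ?_) h
    exact Dvd.intro_left _ rfl
  · have h1 : ϖ ^ k ∣ a := (mul_dvd_mul_iff_left hp0).mp h
    exact dvd_trans (pow_dvd_pow ϖ (Nat.div_le_self k p)) h1

/-- **Purity at a node**, iterated: for every exponent `n` and every target precision `j`
there is a source precision `k` such that
`G ^ (p ^ n) ∈ O + ϖ ^ k V ⟹ e_ζ G ∈ O + ϖ ^ j V` for some `ζ` with `ζ ^ (p ^ n) = 1`,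
for the `G ∈ V` congruent to a unit of `O` modulo `𝔪_A V`.
`hpth` : `p`-power roots of unity have `p`-th roots in `A`;
`hμ` : `p`-power roots of unity are `≡ 1` modulo `𝔪_A`. -/
theorem h81q_node_iter (p : ℕ) (hp : p.Prime)
    (hp0 : (p : A) ≠ 0) (O V : Subalgebra A R) (hOV : O ≤ V)
    (hsat : ∀ a : A, a ≠ 0 → ∀ x ∈ V, a • x ∈ O → x ∈ O)
    (hroot : ∀ x ∈ V, h18yNearM O V (x ^ p) → h18yNearM O V x)
    (hdepth : ∀ π : A, π ≠ 0 → ∀ G ∈ V, ¬ h18yNear O V π G →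
      ∃ a : A, a ≠ 0 ∧ ∃ b ∈ O, ∃ r ∈ V, G = b + a • r ∧ ¬ h18yNearM O V r)
    (ε : R) (hεV : ε ∈ V) (hε : ε * ε = ε)
    (hASn : ∀ c : A, IsUnit c → ∀ u ∈ O, (∃ u' ∈ O, u * u' = 1) → ∀ x ∈ V,
      h18yNearM O V (x ^ p + c • (u ^ (p - 1) * x)) →
        ∃ θ : A, θ ^ p + c * θ ∈ maximalIdeal A ∧ h18yNearM O V (x + θ • (ε * u)))
    (hphase : ∀ a c θ : A, a ∈ maximalIdeal A → a ≠ 0 → IsUnit c → (p : A) * a = a ^ p * c →
      θ ^ p + c * θ ∈ maximalIdeal A →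
        ∃ ζ : A, ζ ^ p = 1 ∧ ∃ m' ∈ maximalIdeal A, ζ - 1 = a * (θ + m'))
    (hpth : ∀ (ζ : A) (n : ℕ), ζ ^ (p ^ n) = 1 → ∃ ξ : A, ξ ^ p = ζ)
    (hμ : ∀ (ζ : A) (n : ℕ), ζ ^ (p ^ n) = 1 → ζ - 1 ∈ maximalIdeal A)
    (ϖ : A) (hϖ : ϖ ≠ 0) (e : ℕ) (he : (p : A) ∣ ϖ ^ e) (n j : ℕ) :
    ∃ k : ℕ, ∀ G ∈ V, (∃ u ∈ O, (∃ u' ∈ O, u * u' = 1) ∧
        ∃ m ∈ maximalIdeal A, ∃ y ∈ V, G = u + m • y) →
      h18yNear O V (ϖ ^ k) (G ^ (p ^ n)) →
        ∃ ζ : A, ζ ^ (p ^ n) = 1 ∧ h18yNear O V (ϖ ^ j) (h81qPhase ε ζ * G) := by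
  induction n generalizing j with
  | zero =>
    refine ⟨j, fun G _ _ h => ⟨1, by simp, ?_⟩⟩
    rw [h81q_phase_one, one_mul]
    simpa using h
  | succ n ih =>
    obtain ⟨k, hk⟩ := ih (e + p * j)
    refine ⟨k, fun G hGV hGu hG => ?_⟩
    obtain ⟨u, hu, ⟨u', hu', huu'⟩, m, hm, y, hy, hGeq⟩ := hGu
    -- `G ^ p` is congruent to the unit `u ^ p`
    have hGpu : ∃ u₁ ∈ O, (∃ u₁' ∈ O, u₁ * u₁' = 1) ∧
        ∃ m ∈ maximalIdeal A, ∃ y ∈ V, G ^ p = u₁ + m • y := by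
      refine ⟨u ^ p, O.pow_mem hu p, ⟨u' ^ p, O.pow_mem hu' p, by rw [← mul_pow, huu', one_pow]⟩,
        m, hm, ?_⟩
      obtain ⟨d, hd⟩ := sub_dvd_pow_sub_pow (⟨G, hGV⟩ : V) ⟨u, hOV hu⟩ p
      have hd' := congrArg Subtype.val hd
      simp only [Subalgebra.coe_sub, Subalgebra.coe_pow, Subalgebra.coe_mul] at hd'
      refine ⟨y * d, V.mul_mem hy d.2, ?_⟩
      have h2 : G - u = m • y := by rw [hGeq]; ring
      rw [h2, smul_mul_assoc] at hd'
      rw [← hd']; ring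
    obtain ⟨ξ', hξ', h1⟩ := hk (G ^ p) (V.pow_mem hGV p) hGpu (by
      rw [← pow_mul, ← pow_succ']
      exact hG)
    obtain ⟨ξ, hξ⟩ := hpth ξ' n hξ'
    have hξpow : ξ ^ (p ^ (n + 1)) = 1 := by
      rw [pow_succ', pow_mul, hξ, hξ']
    have hξM : ξ - 1 ∈ maximalIdeal A := hμ ξ (n + 1) hξpow
    -- `G₁ = e_ξ G`
    have hG₁V : h81qPhase ε ξ * G ∈ V := V.mul_mem (h81q_phase_mem hεV ξ) hGV
    have hG₁p : (h81qPhase ε ξ * G) ^ p = h81qPhase ε ξ' * G ^ p := by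
      rw [mul_pow, h81q_phase_pow hε, hξ]
    have hG₁u : ∃ m ∈ maximalIdeal A, ∃ y ∈ V, h81qPhase ε ξ * G = u + m • y := by
      obtain ⟨m₀, hm₀, ⟨c₁, hc₁⟩, ⟨c₂, hc₂⟩⟩ := h18y_exists_common hm hξM
      refine ⟨m₀, hm₀, c₁ • y + c₂ • (ε * G), V.add_mem (V.smul_mem hy _)
        (V.smul_mem (V.mul_mem hεV hGV) _), ?_⟩
      have e1 : m₀ • (c₁ • y + c₂ • (ε * G)) = m • y + (ξ - 1) • (ε * G) := by
        rw [smul_add, ← mul_smul, ← mul_smul, ← hc₁, ← hc₂]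
      rw [e1, h81q_phase_mul_eq, ← add_assoc, ← hGeq]
    have h2 : h18yNear O V ((p : A) * ϖ ^ (p * j)) ((h81qPhase ε ξ * G) ^ p) := by
      rw [hG₁p]
      refine h18y_near_of_dvd ?_ h1
      rw [pow_add]
      exact mul_dvd_mul_right he _
    obtain ⟨ζ, hζ, h3⟩ := h81q_node_pow p hp hp0 O V hOV hsat hroot ϖ (p * j)
      (hdepth _ (mul_ne_zero hp0 (pow_ne_zero _ hϖ))) ε hεV hε hASn hphase
      (h81qPhase ε ξ * G) hG₁V u hu ⟨u', hu', huu'⟩ hG₁u h2
    rw [Nat.mul_div_cancel_left j hp.pos, ← mul_assoc, h81q_phase_mul hε] at h3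
    refine ⟨ζ * ξ, ?_, h3⟩
    rw [mul_pow, hξpow, mul_one, pow_succ', pow_mul, hζ, one_pow]

end NodePurity

/-! ## The arithmetic hypotheses for a valuation ring with roots of unity -/

section Phase

variable {A : Type*} [CommRing A] [IsDomain A] [ValuationRing A]

/-- an element outside `a 𝔪_A` divides `a`. -/
theorem h81q_dvd_of_not_mem {a x : A} (h : ¬ ∃ m ∈ maximalIdeal A, x = a * m) : x ∣ a := by
  rcases ValuationRing.dvd_total a x with ⟨q, hq⟩ | h'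
  · have hqu : IsUnit q := by
      by_contra hq'
      exact h ⟨q, by rwa [mem_maximalIdeal, mem_nonunits_iff], hq⟩
    obtain ⟨q', hq'⟩ := hqu.exists_right_inv
    exact ⟨q', by rw [hq, mul_assoc, hq', mul_one]⟩
  · exact h'

/-- **`hphase`** for a valuation ring containing a primitive `p`-th root of unity: at the
critical depth (`p a = a ^ p c`, `c` a unit) every solution of `θ ^ p + c θ ≡ 0` is
`(ζ - 1) / a` modulo `𝔪_A` for a `p`-th root of unity `ζ`. -/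
theorem h81q_phase (p : ℕ) (hp : p.Prime) {ζ₀ : A} (hζ₀ : IsPrimitiveRoot ζ₀ p)
    (a c θ : A) (haM : a ∈ maximalIdeal A) (ha0 : a ≠ 0) (_hc : IsUnit c)
    (hpa : (p : A) * a = a ^ p * c) (hθ : θ ^ p + c * θ ∈ maximalIdeal A) :
    ∃ ζ : A, ζ ^ p = 1 ∧ ∃ m' ∈ maximalIdeal A, ζ - 1 = a * (θ + m') := by
  classical
  -- the product formula at `1 + a θ`
  have hprod : (1 + a * θ) ^ p - 1 =
      ∏ ζ ∈ Polynomial.nthRootsFinset p (1 : A), (1 + a * θ - ζ) := by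
    have h := congrArg (Polynomial.eval (1 + a * θ))
      (Polynomial.X_pow_sub_one_eq_prod hp.pos hζ₀)
    simpa [Polynomial.eval_prod] using h
  obtain ⟨Y, hY⟩ := h18y_binom p hp (1 : A) (a * θ)
  have hval : (1 + a * θ) ^ p - 1 = a ^ p * (θ ^ p + c * θ + a * (c * θ ^ 2 * Y)) := by
    rw [hY]
    have h1 : (p : A) * (a * θ) ^ 2 * Y = a ^ p * (a * (c * θ ^ 2 * Y)) := by
      linear_combination (a * θ ^ 2 * Y) * hpa
    have h2 : (p : A) * 1 ^ (p - 1) * (a * θ) = a ^ p * (c * θ) := by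
      linear_combination θ * hpa
    rw [h1, h2]; ring
  have hμ₀ : θ ^ p + c * θ + a * (c * θ ^ 2 * Y) ∈ maximalIdeal A :=
    Ideal.add_mem _ hθ (Ideal.mul_mem_right _ _ haM)
  by_contra hcon
  have hall : ∀ ζ ∈ Polynomial.nthRootsFinset p (1 : A), (1 + a * θ - ζ) ∣ a := by
    intro ζ hζ
    apply h81q_dvd_of_not_mem
    rintro ⟨m, hm, hmeq⟩
    apply hcon
    refine ⟨ζ, ?_, -m, neg_mem hm, ?_⟩
    · exact ((Polynomial.mem_nthRootsFinset hp.pos 1).mp hζ)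
    · linear_combination -hmeq
  have hdvd : (∏ ζ ∈ Polynomial.nthRootsFinset p (1 : A), (1 + a * θ - ζ)) ∣
      ∏ _ζ ∈ Polynomial.nthRootsFinset p (1 : A), a := Finset.prod_dvd_prod_of_dvd _ _ hall
  rw [Finset.prod_const, hζ₀.card_nthRootsFinset, ← hprod, hval] at hdvd
  obtain ⟨q, hq⟩ := hdvd
  have h3 : a ^ p * 1 = a ^ p * ((θ ^ p + c * θ + a * (c * θ ^ 2 * Y)) * q) := by
    rw [mul_one, ← mul_assoc]; exact hq
  have h4 := mul_left_cancel₀ (pow_ne_zero p ha0) h3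
  have h5 : IsUnit (θ ^ p + c * θ + a * (c * θ ^ 2 * Y)) := IsUnit.of_mul_eq_one q h4.symm
  rw [mem_maximalIdeal, mem_nonunits_iff] at hμ₀
  exact hμ₀ h5

/-- **`hμ`**: `p`-power roots of unity are `≡ 1` modulo `𝔪_A` when `p ∈ 𝔪_A`. -/
theorem h81q_root_sub_one_mem (p : ℕ) (hp : p.Prime) (hpM : (p : A) ∈ maximalIdeal A)
    (ζ : A) (n : ℕ) (hζ : ζ ^ (p ^ n) = 1) : ζ - 1 ∈ maximalIdeal A := by
  induction n generalizing ζ with
  | zero =>
    have : ζ = 1 := by simpa using hζ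
    rw [this, sub_self]; exact zero_mem _
  | succ n ih =>
    have h1 : ζ ^ p - 1 ∈ maximalIdeal A := ih (ζ ^ p) (by rw [← pow_mul, ← pow_succ']; exact hζ)
    obtain ⟨Y, hY⟩ := h18y_binom p hp ζ (-1 : A)
    have hsign : ∃ t : A, (-1 : A) ^ p = -1 + (p : A) * t := by
      rcases hp.eq_two_or_odd' with rfl | hodd
      · exact ⟨1, by norm_num⟩
      · exact ⟨0, by rw [hodd.neg_one_pow]; ring⟩
    obtain ⟨t, ht⟩ := hsign
    have h2 : (ζ - 1) ^ p = (ζ ^ p - 1) + (p : A) * (ζ ^ (p - 1) * (-1) + (-1) ^ 2 * Y + t) := by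
      have : ζ - 1 = ζ + -1 := by ring
      rw [this, hY, ht]; ring
    have h3 : (ζ - 1) ^ p ∈ maximalIdeal A := by
      rw [h2]
      exact Ideal.add_mem _ h1 (Ideal.mul_mem_right _ _ hpM)
    exact (Ideal.IsMaximal.isPrime' (maximalIdeal A)).mem_of_pow_mem p h3

end Phase

end Fermat.Agent.P6
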