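import Mathlib

/-!
# S33 / B2, leaf T2 (helper82): deep roots of monic polynomials over a valuation ring

`A` a valuation ring (a domain), `r` a positive integer (typically a power of the residue
characteristic, NOT a unit of `A`).
For a polynomial `P : A[X]` and `c : A` the relation `C c ∣ P` means that all the coefficients of
`P` are divisible by `c`.

* `h82t_exists_content` : every nonzero polynomial is `C e * P₀` with `P₀` primitive
  (nonzero modulo the maximal ideal).
* `h82t_dvd_of_C_dvd` : `C c ∣ C a * P₀`, `P₀` primitive `⟹ c ∣ a`.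
* `h82t_primitive_mul` : the product of two primitive polynomials is primitive (Gauss).
* `h82t_pow` : `N`, `D` monic, `(r : A) ≠ 0`, `C (r * c) ∣ N ^ r - D ^ r ⟹ C c ∣ N - D`
  (NO hypothesis on the size of `c`, NO hypothesis on `r` besides `r ≠ 0` in `A`).

Mathlib only.
-/

set_option autoImplicit false
set_option linter.unusedSectionVars false

open Polynomial IsLocalRing

namespace Fermat.Agent.P6

section Content

variable {A : Type*} [CommRing A] [IsDomain A] [ValuationRing A]

/-- among finitely many elements of a valuation ring one divides all the others. -/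
theorem h82t_exists_min {α : Type*} (T : Finset α) (hT : T.Nonempty) (f : α → A) :
    ∃ i ∈ T, ∀ j ∈ T, f i ∣ f j := by
  classical
  induction hT using Finset.Nonempty.cons_induction with
  | singleton a => exact ⟨a, Finset.mem_singleton_self a, fun j hj => by
      rw [Finset.mem_singleton.mp hj]⟩
  | cons a s ha hs ih =>
    obtain ⟨i, hi, hij⟩ := ih
    rcases ValuationRing.dvd_total (f i) (f a) with h | h
    · refine ⟨i, Finset.mem_cons.mpr (Or.inr hi), fun j hj => ?_⟩
      rcases Finset.mem_cons.mp hj with rfl | hj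
      · exact h
      · exact hij j hj
    · refine ⟨a, Finset.mem_cons_self a s, fun j hj => ?_⟩
      rcases Finset.mem_cons.mp hj with rfl | hj
      · exact dvd_rfl
      · exact h.trans (hij j hj)

/-- the content decomposition. -/
theorem h82t_exists_content (P : A[X]) (hP : P ≠ 0) :
    ∃ (e : A) (P₀ : A[X]), e ≠ 0 ∧ P = C e * P₀ ∧ P₀.map (residue A) ≠ 0 := by
  have hne : P.support.Nonempty := Polynomial.support_nonempty.mpr hP
  obtain ⟨i, hi, hij⟩ := h82t_exists_min P.support hne (fun j => P.coeff j)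
  have he0 : P.coeff i ≠ 0 := Polynomial.mem_support_iff.mp hi
  have hdvd : C (P.coeff i) ∣ P := by
    rw [Polynomial.C_dvd_iff_dvd_coeff]
    intro j
    by_cases hj : j ∈ P.support
    · exact hij j hj
    · rw [Polynomial.notMem_support_iff.mp hj]
      exact dvd_zero _
  obtain ⟨P₀, hP₀⟩ := hdvd
  refine ⟨P.coeff i, P₀, he0, hP₀, fun h0 => ?_⟩
  have h1 : P.coeff i = P.coeff i * P₀.coeff i := by
    conv_lhs => rw [hP₀]
    rw [Polynomial.coeff_C_mul]
  have h2 : P₀.coeff i = 1 := by
    have h3 : P.coeff i * P₀.coeff i = P.coeff i * 1 := by rw [mul_one]; exact h1.symm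
    exact mul_left_cancel₀ he0 h3
  have h4 := congrArg (fun Q => Q.coeff i) h0
  simp only [Polynomial.coeff_map, h2, map_one, Polynomial.coeff_zero] at h4
  exact one_ne_zero h4

/-- a primitive polynomial has a unit coefficient. -/
theorem h82t_exists_unit_coeff (P₀ : A[X]) (hP₀ : P₀.map (residue A) ≠ 0) :
    ∃ i, IsUnit (P₀.coeff i) := by
  by_contra h
  have h : ∀ i, ¬ IsUnit (P₀.coeff i) := fun i hi => h ⟨i, hi⟩
  apply hP₀
  ext i
  rw [Polynomial.coeff_map, Polynomial.coeff_zero]
  exact (residue_eq_zero_iff _).mpr ((mem_maximalIdeal _).mpr (h i))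

theorem h82t_dvd_of_C_dvd (c a : A) (P₀ : A[X]) (hP₀ : P₀.map (residue A) ≠ 0)
    (h : C c ∣ C a * P₀) : c ∣ a := by
  obtain ⟨i, hi⟩ := h82t_exists_unit_coeff P₀ hP₀
  have h1 := (Polynomial.C_dvd_iff_dvd_coeff _ _).mp h i
  rw [Polynomial.coeff_C_mul] at h1
  exact (hi.dvd_mul_right).mp h1

end Content

section Pow

variable {A : Type*} [CommRing A] [IsDomain A] [ValuationRing A]

/-- Gauss: the product of two primitive polynomials is primitive. -/
theorem h82t_primitive_mul (P Q : A[X]) (hP : P.map (residue A) ≠ 0)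
    (hQ : Q.map (residue A) ≠ 0) : (P * Q).map (residue A) ≠ 0 := by
  rw [Polynomial.map_mul]
  exact mul_ne_zero hP hQ

/-- the geometric sum `∑ N ^ i * D ^ (r - 1 - i)` of two monic polynomials of the same degree
has the coefficient `r` in degree `(r - 1) * d`. -/
theorem h82t_geom_coeff (N D : A[X]) (hN : N.Monic) (hD : D.Monic)
    (hdeg : N.natDegree = D.natDegree) (r : ℕ) :
    (∑ i ∈ Finset.range r, N ^ i * D ^ (r - 1 - i)).coeff ((r - 1) * D.natDegree) = (r : A) := by
  rw [Polynomial.finsetSum_coeff]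
  have h1 : ∀ i ∈ Finset.range r,
      (N ^ i * D ^ (r - 1 - i)).coeff ((r - 1) * D.natDegree) = 1 := by
    intro i hi
    have hi' : i < r := Finset.mem_range.mp hi
    have hm : (N ^ i * D ^ (r - 1 - i)).Monic := (hN.pow i).mul (hD.pow (r - 1 - i))
    have hnd : (N ^ i * D ^ (r - 1 - i)).natDegree = (r - 1) * D.natDegree := by
      rw [Polynomial.Monic.natDegree_mul (hN.pow i) (hD.pow (r - 1 - i)),
        Polynomial.Monic.natDegree_pow hN, Polynomial.Monic.natDegree_pow hD, hdeg, ← add_mul]
      congr 1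
      omega
    rw [← hnd]
    exact hm.coeff_natDegree
  rw [Finset.sum_congr rfl h1]
  simp

/-- **deep roots of monic polynomials, equal degrees.** -/
theorem h82t_pow_eq (N D : A[X]) (hN : N.Monic) (hD : D.Monic)
    (hdeg : N.natDegree = D.natDegree) (r : ℕ) (hr : (r : A) ≠ 0) (c : A)
    (h : C ((r : A) * c) ∣ N ^ r - D ^ r) : C c ∣ N - D := by
  by_cases hND : N - D = 0
  · rw [hND]; exact dvd_zero _
  set S : A[X] := ∑ i ∈ Finset.range r, N ^ i * D ^ (r - 1 - i) with hS
  have hfac : S * (N - D) = N ^ r - D ^ r := by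
    rw [hS]
    exact (Commute.all N D).geom_sum₂_mul r
  have hScoeff : S.coeff ((r - 1) * D.natDegree) = (r : A) :=
    h82t_geom_coeff N D hN hD hdeg r
  have hS0 : S ≠ 0 := by
    intro h0
    rw [h0, Polynomial.coeff_zero] at hScoeff
    exact hr hScoeff.symm
  obtain ⟨f, S₀, hf0, hSf, hS₀⟩ := h82t_exists_content S hS0
  obtain ⟨e, x₀, he0, hxe, hx₀⟩ := h82t_exists_content (N - D) hND
  have hfr : f ∣ (r : A) := by
    rw [← hScoeff]
    conv_rhs => rw [hSf]
    rw [Polynomial.coeff_C_mul]
    exact dvd_mul_right _ _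
  have h2 : C ((r : A) * c) ∣ C (f * e) * (S₀ * x₀) := by
    have : C (f * e) * (S₀ * x₀) = N ^ r - D ^ r := by
      rw [← hfac]
      conv_rhs => rw [hSf, hxe]
      rw [Polynomial.C_mul]
      ring
    rw [this]
    exact h
  have h3 : (r : A) * c ∣ f * e :=
    h82t_dvd_of_C_dvd _ _ _ (h82t_primitive_mul S₀ x₀ hS₀ hx₀) h2
  obtain ⟨f', hf'⟩ := hfr
  have h4 : c ∣ e := by
    obtain ⟨y, hy⟩ := h3
    refine ⟨f' * y, ?_⟩
    have : f * e = f * (c * (f' * y)) := by
      rw [hy, hf']
      ring
    exact mul_left_cancel₀ hf0 this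
  rw [hxe]
  exact Dvd.dvd.mul_right (Polynomial.C_dvd_iff_dvd_coeff _ _ |>.mpr (fun i => by
    rw [Polynomial.coeff_C]
    split_ifs
    · exact h4
    · exact dvd_zero _)) x₀

/-- a constant dividing a monic polynomial is a unit. -/
theorem h82t_isUnit_of_C_dvd_monic (P : A[X]) (hP : P.Monic) (a : A) (h : C a ∣ P) :
    IsUnit a := by
  have h1 := (Polynomial.C_dvd_iff_dvd_coeff _ _).mp h P.natDegree
  rw [hP.coeff_natDegree] at h1
  exact isUnit_of_dvd_one h1

/-- **deep roots of monic polynomials**: `C (r c) ∣ N ^ r - D ^ r ⟹ C c ∣ N - D`. -/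
theorem h82t_pow (N D : A[X]) (hN : N.Monic) (hD : D.Monic)
    (r : ℕ) (hr : (r : A) ≠ 0) (c : A)
    (h : C ((r : A) * c) ∣ N ^ r - D ^ r) : C c ∣ N - D := by
  have hr0 : r ≠ 0 := by
    rintro rfl
    exact hr (by simp)
  have hcunit : ∀ P : A[X], P.Monic → C ((r : A) * c) ∣ P → C c ∣ N - D := by
    intro P hP hdvd
    have hu := h82t_isUnit_of_C_dvd_monic P hP _ hdvd
    have hc : IsUnit c := isUnit_of_mul_isUnit_right hu
    exact (Polynomial.isUnit_C.mpr hc).dvd
  rcases lt_trichotomy N.natDegree D.natDegree with hlt | heq | hgt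
  · -- `D ^ r - N ^ r` is monic
    have hdeg : (N ^ r).degree < (D ^ r).degree := by
      rw [Polynomial.degree_eq_natDegree (hN.pow r).ne_zero,
        Polynomial.degree_eq_natDegree (hD.pow r).ne_zero, hN.natDegree_pow, hD.natDegree_pow]
      exact_mod_cast Nat.mul_lt_mul_of_pos_left hlt (Nat.pos_of_ne_zero hr0)
    have hm : (D ^ r - N ^ r).Monic := Polynomial.Monic.sub_of_left (hD.pow r) hdeg
    refine hcunit _ hm ?_
    have : D ^ r - N ^ r = -(N ^ r - D ^ r) := by ring
    rw [this]
    exact (dvd_neg).mpr h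
  · exact h82t_pow_eq N D hN hD heq r hr c h
  · have hdeg : (D ^ r).degree < (N ^ r).degree := by
      rw [Polynomial.degree_eq_natDegree (hN.pow r).ne_zero,
        Polynomial.degree_eq_natDegree (hD.pow r).ne_zero, hN.natDegree_pow, hD.natDegree_pow]
      exact_mod_cast Nat.mul_lt_mul_of_pos_left hgt (Nat.pos_of_ne_zero hr0)
    have hm : (N ^ r - D ^ r).Monic := Polynomial.Monic.sub_of_left (hN.pow r) hdeg
    exact hcunit _ hm h

end Pow

end Fermat.Agent.P6
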