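import Fermat.Agent.P6.H13TorIfaceP
import Fermat.Agent.P6.H13TorEndP
import Fermat.Agent.P6.H91LocDeep
import Fermat.Agent.S35.H13TorAsm

/-!
# P6 (wave 6, S33), block B2-TOR, row B2-T2-SMOOTH (helper82): the deep smooth datum, level form

`h82t_smooth : H13qSmooth` (frozen Prop of `P6/H13TorIfaceP.lean`, helper13), with the constant
`c₀ = r²`, `r = p ^ k`: at a closed point of the special fibre of a chart of level `M p` with a
refined smooth datum (`TorSmoothAt`), a function `W ≡ 1` modulo `r² π · ssV` with orders divisible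
by `r` is of the form `g ^ r · (local unit)` with `g ≡ 1` modulo `r π · ssV`.

This is the abstract deep local gate `h91q_local_all_deep` (helper91, `P6/H91LocDeep.lean`) on
the charts of level `M p` (landed chart inputs of W3-LGC: `h85s_ifaceSSChart_fin/inf`,
`h85s_ifaceSSSection_of`, `h85s_ifaceSSGeneric_fin/inf`).
-/

set_option autoImplicit false
set_option linter.unusedSectionVars false
set_option linter.style.haveILetI false

open AlgebraicCurve ModularCurve WithZero IsLocalRing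

noncomputable section

namespace Fermat.Agent.P6

open Fermat.Agent.S37 Fermat.Agent.Red Fermat.Agent.Red.GG Fermat.Agent.Red.GV
  Fermat.Agent.Red.ModelO Fermat.Agent.Red.Kron Fermat.Agent.LGC Fermat.Agent.S35

section Level

variable (A : ValuationSubring Kbar) (M : ℕ) {ℓ : ℕ} [NeZero M] [NeZero ℓ]

/-- **the deep smooth datum on a chart of level `M ℓ`** (any exponent `r > 0`, any chart with the
axioms `H26Chart`, sections and uniqueness of the centred place on the generic fibre). -/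
theorem h82t_smooth_chart (hℓ : ℓ.Prime) (hA : A.LiesOverPrime ℓ) (t : FF (M * ℓ))
    (hC : IfaceSSChart A M ℓ t) (hS : IfaceSSSection A M ℓ t) (hG : IfaceSSGeneric A M ℓ t)
    (hNt : IfaceSSNt A M ℓ)
    (r : ℕ) (hr : 0 < r)
    (𝔫 : Ideal (chart (M * ℓ) A t)) (h𝔫 : 𝔫.IsMaximal) (hle : mExt A M ℓ t ≤ 𝔫)
    (hSm : TorSmoothAt A M ℓ t 𝔫)
    (π : A) (hπ : π ∈ maximalIdeal A) (hπ0 : π ≠ 0)
    (W : FF (M * ℓ)) (hWU : W ∈ h26U (((r : ℕ) : A) ^ 2 * π) (ssV A M ℓ))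
    (hval : ∀ i, ∃ n : ℤ, chartVal (M * ℓ) t i W = exp (-((r : ℤ) * n))) :
    h13qDatumAt (M * ℓ) A t (ssV A M ℓ) (((r : ℕ) : A) * π) W r 𝔫 := by
  classical
  have hAF := algebraMap_injective_FF (M * ℓ) A
  have harch := harch_of_liesOver A hℓ hA
  have hrA : ((r : ℕ) : A) ≠ 0 := h13q_natCast_ne_zero A r hr
  have hc : ((r : ℕ) : A) * π ∈ maximalIdeal A := Ideal.mul_mem_left _ _ hπ
  have hc0 : ((r : ℕ) : A) * π ≠ 0 := mul_ne_zero hrA hπ0
  have hD : ((r : ℕ) : A) ^ 2 * π ∈ maximalIdeal A := Ideal.mul_mem_left _ _ hπ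
  have hW0 : W ≠ 0 := h26U_ne_zero (hNt _ hD) hWU
  have hWU' : W ∈ h26U (((r : ℕ) : A) * (((r : ℕ) : A) * π)) (ssV A M ℓ) := by
    have h1 : ((r : ℕ) : A) * (((r : ℕ) : A) * π) = ((r : ℕ) : A) ^ 2 * π := by ring
    rw [h1]
    exact hWU
  -- the exceptional set: the closed points without a refined smooth datum
  set Nd : Set (Ideal (chart (M * ℓ) A t)) := {𝔫' | ¬ TorSmoothAt A M ℓ t 𝔫'} with hNd
  have hSM : ∀ 𝔫' : Ideal (chart (M * ℓ) A t), 𝔫'.IsMaximal →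
      (maximalIdeal A).map (algebraMap A (chart (M * ℓ) A t)) ≤ 𝔫' → 𝔫' ∉ Nd →
      ∃ t' ∈ 𝔫', (t' : FF (M * ℓ)) ≠ 0 ∧ (t' : FF (M * ℓ))⁻¹ ∈ ssV A M ℓ ∧
        ∀ y ∈ 𝔫', ∃ s, s ∉ 𝔫' ∧ s * y ∈ Ideal.span {t'} ⊔
          (maximalIdeal A).map (algebraMap A (chart (M * ℓ) A t)) := by
    intro 𝔫' _ _ hn
    exact not_not.mp hn
  obtain ⟨g, -, hgU, s, hs, h1, h2⟩ := h91q_local_all_deep hC hAF harch Nd hSM hS hG W hW0 r hrA
    hval (((r : ℕ) : A) * π) hc hc0 hWU' 𝔫 h𝔫 (fun _ hn => hn hSm)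
  exact ⟨g, hgU hle, s, hs, h1, h2⟩

end Level

/-- **T2 (deep smooth datum), level form**: the frozen leaf `H13qSmooth` of TOR-GATE-p, with the
constant `c₀ = (p ^ k)²`. -/
theorem h82t_smooth : H13qSmooth := by
  intro p hp _ M _ hM _
  haveI : NeZero p := ⟨hp.ne_zero⟩
  intro A hA k
  have hr : 0 < p ^ k := pow_pos hp.pos k
  have hrA : ((p ^ k : ℕ) : A) ≠ 0 := h13q_natCast_ne_zero A (p ^ k) hr
  refine ⟨((p ^ k : ℕ) : A) ^ 2, pow_ne_zero 2 hrA, ?_⟩
  intro t ht 𝔫 h𝔫 hle hSm π hπ hπ0 W hWU hval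
  have hNt : IfaceSSNt A M p := h85s_ifaceSSNt A M p hp hM hA
  rcases ht with rfl | rfl
  · exact h82t_smooth_chart A M hp hA (jSS M p) (h85s_ifaceSSChart_fin A M p hp hM hA)
      (h85s_ifaceSSSection_of A M p _ (h71_finite_fin' hp hM hA))
      (h85s_ifaceSSGeneric_fin A M p hp hA) hNt (p ^ k) hr 𝔫 h𝔫 hle hSm π hπ hπ0 W hWU hval
  · exact h82t_smooth_chart A M hp hA (jSS M p)⁻¹ (h85s_ifaceSSChart_inf A M p hp hM hA)
      (h85s_ifaceSSSection_of A M p _ (h71_finite_inf' hp hM hA))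
      (h85s_ifaceSSGeneric_inf A M p hp hA) hNt (p ^ k) hr 𝔫 h𝔫 hle hSm π hπ hπ0 W hWU hval

end Fermat.Agent.P6
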