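import Mathlib
import Fermat.Prelude.Def_GaloisRep_LocalConditions
import Fermat.Prelude.Def_FLTPrelim_Ramification

/-!
# Wave 6 (S33), block B1-ALG, STEP 2 (helper83): ordinarity from the monodromy identity

`h83o_core` : `A` local, `V` free of rank `2`, `ρ : G → End_A V`, `I ≤ D` subgroups with `I`
normalised by `D`; if `(ρ a - det ρ a)(ρ b - 1) = 0` for all `a, b ∈ I` and `det ρ s₀ - 1` is a unit
for some `s₀ ∈ I`, then `L = (ρ s₀ - 1) V` is a free rank one direct summand, spanned by the first
vector of a basis, stable under `D`, and `I` acts trivially on `V / L`.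

`h83o_isOrdinaryAt` : the same in the vocabulary of the Prelude (`GaloisRepAdic.IsOrdinaryAt`).
-/

set_option autoImplicit false

noncomputable section

namespace Fermat.Agent.P6

open LinearMap

section core

variable {A : Type*} [CommRing A] [IsLocalRing A] {V : Type*} [AddCommGroup V] [Module A V]
  [Module.Free A V] [Module.Finite A V]

/-- a direct summand of a finite free module over a local ring is free of finite rank. -/
theorem h83o_free_of_split {P : Type*} [AddCommGroup P] [Module A P] (i : P →ₗ[A] V)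
    (s : V →ₗ[A] P) (h : s.comp i = LinearMap.id) : Module.Free A P ∧ Module.Finite A P := by
  have hsurj : Function.Surjective s := fun x => ⟨i x, by
    have := congrArg (fun f : P →ₗ[A] P => f x) h
    simpa using this⟩
  have hfin : Module.Finite A P := Module.Finite.of_surjective s hsurj
  have hproj : Module.Projective A P := Module.Projective.of_split i s h
  exact ⟨Module.free_of_flat_of_isLocalRing, hfin⟩


/-- the rank one lemma: an idempotent `e` of a free module of rank `2` with `e ≠ 0`, `e ≠ 1` has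
kernel and range free of rank one; the kernel is spanned by the first vector of a basis. -/
theorem h83o_idem_basis (hrk : Module.finrank A V = 2) (e : Module.End A V)
    (he : IsIdempotentElem e) (h0 : e ≠ 0) (h1 : e ≠ 1) :
    ∃ b : Module.Basis (Fin 2) A V, LinearMap.ker e = Submodule.span A {b 0} := by
  classical
  have hcompl : IsCompl (LinearMap.ker e) (LinearMap.range e) := he.isCompl.symm
  -- both summands are free of finite rank
  have hK := h83o_free_of_split (A := A) (V := V) (LinearMap.ker e).subtype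
    ((1 - e).codRestrict (LinearMap.ker e) (fun v => by
      rw [LinearMap.mem_ker]
      have : e ((1 - e) v) = (e * (1 - e)) v := rfl
      rw [this, mul_sub, mul_one, he.eq, sub_self]
      rfl))
    (by
      ext ⟨v, hv⟩
      rw [LinearMap.mem_ker] at hv
      simp [hv])
  have hR := h83o_free_of_split (A := A) (V := V) (LinearMap.range e).subtype
    (e.codRestrict (LinearMap.range e) (fun v => LinearMap.mem_range_self e v))
    (by
      ext ⟨v, hv⟩
      have := he.mem_range_iff.1 hv
      simp [this])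
  obtain ⟨hKfree, hKfin⟩ := hK
  obtain ⟨hRfree, hRfin⟩ := hR
  -- the ranks
  have hsum : Module.finrank A (LinearMap.ker e) + Module.finrank A (LinearMap.range e) = 2 := by
    rw [← hrk, ← Module.finrank_prod]
    exact LinearEquiv.finrank_eq (Submodule.prodEquivOfIsCompl _ _ hcompl)
  have hK0 : Module.finrank A (LinearMap.ker e) ≠ 0 := by
    intro h
    have hsub : Subsingleton (LinearMap.ker e) := (Module.finrank_eq_zero_iff_of_free A _).1 h
    apply h1
    ext v
    have hv : (1 - e) v ∈ LinearMap.ker e := by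
      rw [LinearMap.mem_ker]
      have : e ((1 - e) v) = (e * (1 - e)) v := rfl
      rw [this, mul_sub, mul_one, he.eq, sub_self]
      rfl
    have := congrArg Subtype.val (Subsingleton.elim (⟨(1 - e) v, hv⟩ : LinearMap.ker e) 0)
    simp only [LinearMap.sub_apply, Module.End.one_apply, Submodule.coe_zero] at this
    rw [Module.End.one_apply]
    exact (sub_eq_zero.1 this).symm
  have hR0 : Module.finrank A (LinearMap.range e) ≠ 0 := by
    intro h
    have hsub : Subsingleton (LinearMap.range e) := (Module.finrank_eq_zero_iff_of_free A _).1 h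
    apply h0
    ext v
    have := congrArg Subtype.val
      (Subsingleton.elim (⟨e v, LinearMap.mem_range_self e v⟩ : LinearMap.range e) 0)
    simpa using this
  have hK1 : Module.finrank A (LinearMap.ker e) = 1 := by omega
  have hR1 : Module.finrank A (LinearMap.range e) = 1 := by omega
  -- the basis
  let bK : Module.Basis (Fin 1) A (LinearMap.ker e) := Module.finBasisOfFinrankEq A _ hK1
  let bR : Module.Basis (Fin 1) A (LinearMap.range e) := Module.finBasisOfFinrankEq A _ hR1
  let b : Module.Basis (Fin 2) A V :=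
    ((bK.prod bR).map (Submodule.prodEquivOfIsCompl _ _ hcompl)).reindex finSumFinEquiv
  have hb0 : b 0 = (bK 0 : V) := by
    have h0' : (finSumFinEquiv (m := 1) (n := 1)).symm 0 = Sum.inl 0 := by decide
    simp only [b, Module.Basis.reindex_apply, Module.Basis.map_apply, h0',
      Module.Basis.prod_apply, Sum.elim_inl, Function.comp_apply, LinearMap.coe_inl,
      Submodule.coe_prodEquivOfIsCompl', Submodule.coe_zero, add_zero]
  refine ⟨b, ?_⟩
  rw [hb0]
  have hspan : Submodule.span A (Set.range bK) = ⊤ := bK.span_eq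
  have hrange : Set.range bK = {bK 0} := by
    ext x
    constructor
    · rintro ⟨i, rfl⟩
      rw [Subsingleton.elim i 0]
      rfl
    · rintro rfl
      exact ⟨0, rfl⟩
  rw [hrange] at hspan
  have := congrArg (Submodule.map (LinearMap.ker e).subtype) hspan
  rw [Submodule.map_span, Submodule.map_subtype_top, Set.image_singleton] at this
  exact this.symm


/-- **the algebra of ordinarity.** -/
theorem h83o_core (hrk : Module.finrank A V = 2) {G : Type*} [Group G]
    (ρ : G →* Module.End A V) (I D : Set G)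
    (hnorm : ∀ d ∈ D, ∀ a ∈ I, d⁻¹ * a * d ∈ I)
    (s₀ : G) (hs₀ : s₀ ∈ I) (hu : IsUnit (LinearMap.det (ρ s₀) - 1))
    (hX : ∀ a ∈ I, ∀ b ∈ I,
      (ρ a - algebraMap A (Module.End A V) (LinearMap.det (ρ a))) * (ρ b - 1) = 0) :
    ∃ L : Submodule A V, (∃ b : Module.Basis (Fin 2) A V, L = Submodule.span A {b 0}) ∧
      (∀ σ ∈ D, ∀ v ∈ L, ρ σ v ∈ L) ∧ (∀ σ ∈ I, ∀ v : V, ρ σ v - v ∈ L) := by
  classical
  obtain ⟨u, hu'⟩ := hu
  set ε₀ : A := LinearMap.det (ρ s₀) with hε₀
  have hu1 : (↑u⁻¹ : A) * (ε₀ - 1) = 1 := by rw [← hu']; exact u.inv_mul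
  -- the idempotent: `f = (ρ s₀ - 1) / (ε₀ - 1)`, `e = 1 - f`
  set f : Module.End A V := (↑u⁻¹ : A) • (ρ s₀ - 1) with hf
  set e : Module.End A V := 1 - f with he
  have hcomm : Commute (ρ s₀ - algebraMap A (Module.End A V) ε₀) (ρ s₀ - 1) := by
    refine Commute.sub_left ?_ ?_
    · exact (Commute.refl _).sub_right (Commute.one_right _)
    · exact Algebra.commute_algebraMap_left _ _
  have hef : e = -((↑u⁻¹ : A) • (ρ s₀ - algebraMap A (Module.End A V) ε₀)) := by
    have h1 : algebraMap A (Module.End A V) ε₀ = ε₀ • (1 : Module.End A V) :=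
      Algebra.algebraMap_eq_smul_one ε₀
    calc e = 1 - (↑u⁻¹ : A) • (ρ s₀ - 1) := by rw [he, hf]
      _ = ((↑u⁻¹ : A) * (ε₀ - 1)) • (1 : Module.End A V) - (↑u⁻¹ : A) • (ρ s₀ - 1) := by
          rw [hu1, one_smul]
      _ = -((↑u⁻¹ : A) • (ρ s₀ - ε₀ • (1 : Module.End A V))) := by module
      _ = -((↑u⁻¹ : A) • (ρ s₀ - algebraMap A (Module.End A V) ε₀)) := by rw [h1]
  have hXs : (ρ s₀ - algebraMap A (Module.End A V) ε₀) * (ρ s₀ - 1) = 0 := hX s₀ hs₀ s₀ hs₀
  have hefz : e * f = 0 := by
    rw [hef, hf, neg_mul, smul_mul_smul_comm, hXs, smul_zero, neg_zero]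
  have hfez : f * e = 0 := by
    rw [hef, hf, mul_neg, smul_mul_smul_comm, ← hcomm.eq, hXs, smul_zero, neg_zero]
  have hidem : IsIdempotentElem e := by
    have : e * e = e * (1 - f) := by rw [he]
    rw [IsIdempotentElem, this, mul_sub, mul_one, hefz, sub_zero]
  -- the unit determinant of `ρ s₀`
  have hdetu : IsUnit ε₀ := by
    have h1 : ρ s₀ * ρ s₀⁻¹ = 1 := by rw [← map_mul, mul_inv_cancel, map_one]
    have h2 := congrArg LinearMap.det h1
    rw [map_mul, map_one] at h2
    exact IsUnit.of_mul_eq_one _ h2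
  have hne : (1 : A) ≠ 0 := one_ne_zero
  -- `e ≠ 0`
  have he0 : e ≠ 0 := by
    intro h
    -- `ρ s₀ = ε₀`
    have h1 : ρ s₀ = algebraMap A (Module.End A V) ε₀ := by
      have h2 : (↑u⁻¹ : A) • (ρ s₀ - algebraMap A (Module.End A V) ε₀) = 0 := by
        rw [hef] at h
        exact neg_eq_zero.1 h
      have h3 := congrArg (fun g : Module.End A V => (ε₀ - 1) • g) h2
      simp only [smul_smul, smul_zero] at h3
      rw [mul_comm, hu1, one_smul] at h3
      exact sub_eq_zero.1 h3
    have h4 : ε₀ = ε₀ ^ 2 := by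
      have h5 := congrArg LinearMap.det h1
      rw [Algebra.algebraMap_eq_smul_one, LinearMap.det_smul, hrk, map_one, mul_one] at h5
      exact h5
    have h6 : ε₀ * (ε₀ - 1) = 0 := by linear_combination -h4
    have h7 : ε₀ = 0 := by
      have := congrArg (fun x => x * (↑u⁻¹ : A)) h6
      simp only [zero_mul] at this
      rw [mul_assoc, mul_comm (ε₀ - 1), hu1, mul_one] at this
      exact this
    rw [h7] at hdetu
    exact hne (isUnit_zero_iff.1 hdetu).symm
  -- `e ≠ 1`
  have he1 : e ≠ 1 := by
    intro h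
    have h1 : f = 0 := by
      have : f = 1 - e := by rw [he]; abel
      rw [this, h, sub_self]
    have h2 : ρ s₀ = 1 := by
      have h3 := congrArg (fun g : Module.End A V => (ε₀ - 1) • g) h1
      simp only [hf, smul_smul, smul_zero] at h3
      rw [mul_comm, hu1, one_smul] at h3
      exact sub_eq_zero.1 h3
    have h4 : ε₀ = 1 := by rw [hε₀, h2, map_one]
    have h5 : (↑u⁻¹ : A) * (ε₀ - 1) = 0 := by rw [h4, sub_self, mul_zero]
    rw [hu1] at h5
    exact hne h5
  obtain ⟨b, hb⟩ := h83o_idem_basis hrk e hidem he0 he1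
  -- description of the kernel
  have hker_iff : ∀ v : V, v ∈ LinearMap.ker e ↔ ∀ a ∈ I, ρ a v = LinearMap.det (ρ a) • v := by
    intro v
    constructor
    · intro hv a ha
      -- `v = f v`
      have hv' : f v = v := by
        have h1 : e v = 0 := hv
        have h2 : e v = v - f v := by rw [he]; rfl
        rw [h2] at h1
        exact (sub_eq_zero.1 h1).symm
      have h3 := congrArg (fun g : Module.End A V => g v) (hX a ha s₀ hs₀)
      simp only [Module.End.mul_apply, LinearMap.sub_apply, Module.End.one_apply,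
        LinearMap.zero_apply, Module.algebraMap_end_apply] at h3
      -- `(ρ a - det) ((ρ s₀ - 1) v) = 0`, and `v = u⁻¹ (ρ s₀ - 1) v`
      have h4 : v = (↑u⁻¹ : A) • (ρ s₀ v - v) := by
        conv_lhs => rw [← hv']
        rfl
      have h5 : ρ a v - LinearMap.det (ρ a) • v = 0 := by
        conv_lhs => rw [h4]
        rw [map_smul, smul_comm, ← smul_sub, h3, smul_zero]
      exact sub_eq_zero.1 h5
    · intro hv
      have h1 := hv s₀ hs₀
      rw [LinearMap.mem_ker, hef]
      simp only [LinearMap.neg_apply, LinearMap.smul_apply, LinearMap.sub_apply,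
        Module.algebraMap_end_apply]
      rw [h1, sub_self, smul_zero, neg_zero]
  refine ⟨LinearMap.ker e, ⟨b, hb⟩, ?_, ?_⟩
  · intro σ hσ v hv
    rw [hker_iff] at hv ⊢
    intro a ha
    have h1 := hv _ (hnorm σ hσ a ha)
    have h2 : ρ a (ρ σ v) = ρ σ (ρ (σ⁻¹ * a * σ) v) := by
      have : ρ a * ρ σ = ρ σ * ρ (σ⁻¹ * a * σ) := by
        rw [← map_mul, ← map_mul]
        congr 1
        group
      exact congrArg (fun g : Module.End A V => g v) this
    have h3 : LinearMap.det (ρ (σ⁻¹ * a * σ)) = LinearMap.det (ρ a) := by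
      have e1 : ρ (σ⁻¹ * a * σ) = ρ σ⁻¹ * ρ a * ρ σ := by rw [map_mul, map_mul]
      have e2 : LinearMap.det (ρ σ⁻¹) * LinearMap.det (ρ σ) = 1 := by
        rw [← map_mul, ← map_mul, inv_mul_cancel, map_one, map_one]
      rw [e1, map_mul, map_mul]
      linear_combination LinearMap.det (ρ a) * e2
    rw [h2, h1, h3, map_smul]
  · intro σ hσ v
    rw [LinearMap.mem_ker, hef]
    have h3 := congrArg (fun g : Module.End A V => g v) (hX s₀ hs₀ σ hσ)
    simp only [Module.End.mul_apply, LinearMap.sub_apply, Module.End.one_apply,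
      LinearMap.zero_apply, Module.algebraMap_end_apply] at h3
    simp only [LinearMap.neg_apply, LinearMap.smul_apply, LinearMap.sub_apply,
      Module.algebraMap_end_apply]
    rw [h3, smul_zero, neg_zero]

end core

section prelude

/-- the inertia group is normalised by the decomposition group. -/
theorem h83o_conj_mem_inertia {P : ValuationSubring (AlgebraicClosure ℚ)}
    {d a : AlgebraicClosure ℚ ≃ₐ[ℚ] AlgebraicClosure ℚ}
    (hd : d ∈ P.decompositionSubgroup ℚ) (ha : a ∈ P.inertiaSubgroupIn ℚ) :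
    d⁻¹ * a * d ∈ P.inertiaSubgroupIn ℚ := by
  obtain ⟨a', ha', rfl⟩ := ha
  refine ⟨(⟨d, hd⟩ : P.decompositionSubgroup ℚ)⁻¹ * a' * (⟨d, hd⟩ : P.decompositionSubgroup ℚ),
    ?_, rfl⟩
  have hn : (P.inertiaSubgroup ℚ).Normal := by
    unfold ValuationSubring.inertiaSubgroup
    exact MonoidHom.normal_ker _
  have := hn.conj_mem a' ha' (⟨d, hd⟩ : P.decompositionSubgroup ℚ)⁻¹
  rwa [inv_inv] at this

/-- **ordinarity from the monodromy identity** (vocabulary of the Prelude). -/
theorem h83o_isOrdinaryAt {A : Type} [CommRing A] [IsLocalRing A] (ρ : GaloisRepAdic A) (p : ℕ)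
    (h : ∀ P : ValuationSubring (AlgebraicClosure ℚ), P.LiesOverPrime p →
      (∃ s₀ ∈ P.inertiaSubgroupIn ℚ, IsUnit (LinearMap.det (ρ.ρ s₀) - 1)) ∧
      ∀ a ∈ P.inertiaSubgroupIn ℚ, ∀ b ∈ P.inertiaSubgroupIn ℚ,
        (ρ.ρ a - algebraMap A (Module.End A ρ.V) (LinearMap.det (ρ.ρ a))) * (ρ.ρ b - 1) = 0) :
    ρ.IsOrdinaryAt p := by
  intro P hP
  obtain ⟨⟨s₀, hs₀, hu⟩, hX⟩ := h P hP
  exact h83o_core ρ.finrank_eq ρ.ρ (P.inertiaSubgroupIn ℚ : Set _)
    (P.decompositionSubgroup ℚ : Set _) (fun d hd a ha => h83o_conj_mem_inertia hd ha)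
    s₀ hs₀ hu hX

end prelude

end Fermat.Agent.P6
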