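import Fermat.Agent.P6.H66TwGate
import Fermat.Agent.P6.H71NewIface
import Fermat.Agent.P6.H67GateDeep
import Fermat.Agent.LGC.Integrate63
import Fermat.Agent.LGC.LocalDDSk89
import Fermat.Agent.LGC.Pieces63c
import Fermat.Agent.LGC.Local63
import Fermat.Agent.LGC.CuspAll63

/-!
# Wave 6 (S33), block B2-TOR, row B2-T4-ASM (helper85): the assembly of the TOR gate at `p`

Setting: `p` a prime, `M` a good level (`p ∤ M`, `auxLevel p ∣ M`), `A` a valuation subring of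
`ℚ̄` over `p`, `ssV = W_∞ ∩ W_0` the semistable Gauss ring of level `M * p`, `a` an element of the
inertia group acting on `μ_{p^k}` by the exponent `e`, `Θ(z) = a(z) / z ^ e`.

* `h85p_pow_of_locDatum` : **the deep gate at a level `N`, `ℓ ∥ N`**: if `w ≡ 1` modulo
  `r² ϖ ssV`, the divisor of `w` is divisible by `r` (ANY positive exponent, e.g. `r = ℓ ^ k`)
  and `w` has the local datum `LGC.LocDatum` of modulus `r ϖ` at the closed points of the special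
  fibre of the two charts, then `w` is an `r`-th power.  (`h67g_gate_asm_chart` of helper67 +
  the chart inputs of S34.)
* `H85pLocDeep p M A a` : **the frozen leaf** (deep local datum for `Θ(z')`, `z'` a deep
  representative of `z`).
* `H85pTorGateAt p M A a` : **TOR-GATE-p**: `p ^ k ∣ div z`, `z` TorDeep `⇒` `Θ(z)` is a
  `p ^ k`-th power.
* `h85p_torGate_of_locDeep : H85pLocDeep p M A a → H85pTorGateAt p M A a`.
* `h85p_gateAt_of : H71NewDepth → H85pTorGateAt p M A a → H66zGateAt p M a b 0`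
  (the frozen twisted gate of `P6/H66TwGate.lean`, exact exponent).

Nothing is assumed: `H85pLocDeep` and `H85pTorGateAt` are definitions.
-/

set_option autoImplicit false
set_option linter.style.haveILetI false
set_option linter.unusedSectionVars false
set_option synthInstance.maxHeartbeats 400000

open AlgebraicCurve ModularCurve WithZero IsLocalRing

noncomputable section

namespace Fermat.Agent.P6

open Fermat.Agent.S37 Fermat.Agent.Red Fermat.Agent.Red.GG Fermat.Agent.Red.GV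
  Fermat.Agent.Red.ModelO Fermat.Agent.LGC Fermat.Agent.Red.KR Fermat.Agent.S35
  Fermat.Agent.S37.GalI

/-! ## The chart inputs (landed for S34) -/

/-- the chart inputs of the semistable gate, unconditional. -/
theorem h85p_ifaceSSPieces : IfaceSSPieces :=
  ifaceSSPieces_of_core
    (ifaceSSCore_of ifaceSSFiniteAll (ifaceSSLocalAll_of ifaceSSLocalFinAll h63a_ifaceSSCuspAll))

/-- the chart inputs at the level `M * p`. -/
theorem h85p_piecesSSAt {p : ℕ} (hp : p.Prime) (M : ℕ) [NeZero M] (hpM : ¬ p ∣ M)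
    (haux : auxLevel p ∣ M) (A : ValuationSubring Kbar) (hA : A.LiesOverPrime p) :
    haveI : NeZero p := ⟨hp.ne_zero⟩
    PiecesSSAt p (M * p) A (ssV A M p) := by
  haveI : NeZero p := ⟨hp.ne_zero⟩
  obtain ⟨⟨hC₀, hC₁⟩, hNt, hFin, -, hGal, ⟨hPerm₀, hPerm₁⟩, ⟨hLP₀, hLP₁⟩⟩ :=
    h85p_ifaceSSPieces p hp M hpM haux A hA
  exact h63_piecesSSAt_of A M p localAllDD hp hA hC₀ hC₁ hNt hFin hGal hPerm₀ hPerm₁ hLP₀ hLP₁

/-! ## The deep gate at a level `N` -/

set_option maxHeartbeats 1600000 in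
/-- **the deep gate from the local datum**: any exponent `r > 0`. -/
theorem h85p_pow_of_locDatum {ℓ : ℕ} (hℓ : ℓ.Prime) (N : ℕ) [NeZero N]
    (A : ValuationSubring Kbar) (hA : A.LiesOverPrime ℓ) (V : Subring (FF N))
    (hP : PiecesSSAt ℓ N A V) (r : ℕ) (hr : 0 < r) (w : FF N) (hw0 : w ≠ 0)
    (hrw : ∀ v : Place Kbar (FF N), (r : ℤ) ∣ v.ord w)
    (ϖ : A) (hϖ : ϖ ∈ maximalIdeal A) (hϖ0 : ϖ ≠ 0)
    (hwU : w ∈ h26U ((r : A) ^ 2 * ϖ) V)
    (hloc₀ : LocDatum N A (jB N) V ((r : A) * ϖ) w r)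
    (hloc₁ : LocDatum N A (jB N)⁻¹ V ((r : A) * ϖ) w r) :
    ∃ h : FF N, h ^ r = w := by
  have hr0 : r ≠ 0 := hr.ne'
  have hrA : (r : A) ≠ 0 := by
    intro h
    have h1 : ((r : A) : Kbar) = 0 := by rw [h]; rfl
    have h2 : ((r : A) : Kbar) = (r : Kbar) := by simp
    rw [h2] at h1
    exact hr0 (by exact_mod_cast h1)
  have hπ : (r : A) * ϖ ∈ maximalIdeal A := Ideal.mul_mem_left _ _ hϖ
  have harch := harch_of_liesOver A hℓ hA
  obtain ⟨S, hS, hfin⟩ := span_of_ifaceFinite N A (jB N) hP.fin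
  have hjV : jB N ∈ V := hP.chart₀.hBV _ (h85_jB_mem_modelFin N A)
  have hL₀ := h63_local_all_loc hP.chart₀ harch hP.nt hP.gen₀ w r
    (exists_val_eq N (jB N) w hw0 r hrw) ((r : A) * ϖ) hπ hloc₀
  have hL₁ := h63_local_all_loc hP.chart₁ harch hP.nt hP.gen₁ w r
    (exists_val_eq N (jB N)⁻¹ w hw0 r hrw) ((r : A) * ϖ) hπ hloc₁
  obtain ⟨t, ht0, ht₀, htinf⟩ := h67g_gate_asm_chart (algebraMap_injective_FF N A)
    harch V hP.nt (jB N) (h85_jB_ne_zero N)
    (chart N A (jB N)) (chart N A (jB N)⁻¹) (chartMid N A)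
    (h85_jB_mem_modelFin N A) (h85_jB_inv_mem_modelInf N A)
    (h85_modelFin_le_modelMid N A) (h85_modelInf_le_modelMid N A)
    (fun x hx => h85_modelMid_scale_fin N A hx) (fun x hx => h85_modelMid_scale_inf N A hx)
    r hr hrA
    (fun x hx => h85_modelAt_root_closed N A _ hr0 hx)
    (fun x hx => h85_modelAt_root_closed N A _ hr0 hx)
    (fun x hx => h85_modelMid_root_closed N A hr0 hx)
    (fun a ha x hx hax => h85_modelMid_qep N A V hjV (algebraMap A (FF N) a)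
      (fun y hy hay => hP.chart₀.hQEP a ha y hy (by rw [Algebra.smul_def]; exact hay)) hx
      (by rw [Algebra.smul_def] at hax; exact hax))
    (chartVal N (jB N)) (chartVal N (jB N)⁻¹) hP.chart₀ hP.chart₁
    S hS hfin w hw0 ϖ hϖ hϖ0 hwU hL₀ hL₁
  -- `t ^ r / w` is a constant
  obtain ⟨a, -, ha⟩ := h85_modelFin_inf_modelInf N A ht₀ htinf
  have ha0 : a ≠ 0 := by
    rintro rfl
    rw [cst, map_zero] at ha
    exact mul_ne_zero (pow_ne_zero _ ht0) (inv_ne_zero hw0) ha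
  obtain ⟨b, hb⟩ := IsAlgClosed.exists_pow_nat_eq a hr
  have hb0 : b ≠ 0 := by
    rintro rfl
    rw [zero_pow hr0] at hb
    exact ha0 hb.symm
  have hcb0 : cst N b ≠ 0 := by
    simpa only [cst, ne_eq, map_eq_zero] using hb0
  refine ⟨t * (cst N b)⁻¹, ?_⟩
  have h1 : cst N b ^ r = t ^ r * w⁻¹ := by
    rw [ha, ← hb]
    exact (map_pow _ _ _).symm
  rw [mul_pow, inv_pow, h1]
  field_simp

/-! ## The frozen leaf and TOR-GATE-p -/

/-- the twisted difference `Θ(z) = a(z) / z ^ e`. -/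
def h85pTh (N : ℕ) (a : GQ) (e : ℕ) (z : FF N) : FF N := gal N a • z / z ^ e

theorem h85p_th_ne_zero (N : ℕ) (a : GQ) (e : ℕ) {z : FF N} (hz : z ≠ 0) :
    h85pTh N a e z ≠ 0 :=
  div_ne_zero (gal_smul_ne_zero a hz) (pow_ne_zero _ hz)

/-- the divisor of `Θ(z)` is divisible by `m` if the divisor of `z` is. -/
theorem h85p_dvd_ord_th {N : ℕ} (a : GQ) (e : ℕ) {m : ℕ} {z : FF N} (hz : z ≠ 0)
    (hord : ∀ v : Place Kbar (FF N), (m : ℤ) ∣ v.ord z) (v : Place Kbar (FF N)) :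
    (m : ℤ) ∣ v.ord (h85pTh N a e z) := by
  have ha := h31s_dvd_ord_gal a hord
  unfold h85pTh
  rw [div_eq_mul_inv, Place.ord_mul _ (gal_smul_ne_zero a hz) (inv_ne_zero (pow_ne_zero _ hz)),
    Place.ord_inv, ← zpow_natCast, Place.ord_zpow]
  exact dvd_add (ha v) ((dvd_neg).2 (Dvd.dvd.mul_left (hord v) _))

/-- `Θ` is multiplicative. -/
theorem h85p_th_mul (N : ℕ) (a : GQ) (e : ℕ) (x y : FF N) :
    h85pTh N a e (x * y) = h85pTh N a e x * h85pTh N a e y := by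
  unfold h85pTh
  rw [smul_mul', mul_pow, mul_div_mul_comm]

/-- `Θ` of an inverse. -/
theorem h85p_th_inv (N : ℕ) (a : GQ) (e : ℕ) (x : FF N) :
    h85pTh N a e x⁻¹ = (h85pTh N a e x)⁻¹ := by
  unfold h85pTh
  rw [smul_inv'', inv_pow, inv_div_inv, inv_div]

/-- `Θ` of an `r`-th power is an `r`-th power. -/
theorem h85p_th_pow (N : ℕ) (a : GQ) (e : ℕ) (x : FF N) (r : ℕ) :
    h85pTh N a e (x ^ r) = h85pTh N a e x ^ r := by
  unfold h85pTh
  rw [smul_pow', div_pow, ← pow_mul, ← pow_mul, mul_comm]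

/-- `Θ` of a constant is a constant. -/
theorem h85p_th_cst (N : ℕ) (a : GQ) (e : ℕ) (c : Kbar) :
    h85pTh N a e (cst N c) = cst N (a c / c ^ e) := by
  unfold h85pTh
  rw [gal_smul_cst]
  simp only [cst, map_div₀, map_pow]

/-- **the frozen leaf of B2-TOR**: the deep local datum for `Θ(z')`, `z'` a representative of
`z` modulo constants and `p ^ k`-th powers. -/
def H85pLocDeep (p M : ℕ) [NeZero M] [NeZero p] (A : ValuationSubring Kbar) (a : GQ) : Prop :=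
  ∀ k e : ℕ, (∀ μ : Kbar, μ ^ p ^ k = 1 → a μ = μ ^ e) →
    ∀ z : FF (M * p), z ≠ 0 →
      (∀ v : Place Kbar (FF (M * p)), ((p ^ k : ℕ) : ℤ) ∣ v.ord z) →
      H71TorDeep A M p (p ^ k) z →
      ∃ ϖ ∈ maximalIdeal A, ϖ ≠ 0 ∧ ∃ c : Kbar, c ≠ 0 ∧ ∃ G : FF (M * p), G ≠ 0 ∧
        h85pTh (M * p) a e (cst (M * p) c * z * (G ^ p ^ k)⁻¹) ∈
          h26U (((p ^ k : ℕ) : A) ^ 2 * ϖ) (ssV A M p) ∧
        LocDatum (M * p) A (jB (M * p)) (ssV A M p) (((p ^ k : ℕ) : A) * ϖ)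
          (h85pTh (M * p) a e (cst (M * p) c * z * (G ^ p ^ k)⁻¹)) (p ^ k) ∧
        LocDatum (M * p) A (jB (M * p))⁻¹ (ssV A M p) (((p ^ k : ℕ) : A) * ϖ)
          (h85pTh (M * p) a e (cst (M * p) c * z * (G ^ p ^ k)⁻¹)) (p ^ k)

/-- **TOR-GATE-p** at the level `M * p`. -/
def H85pTorGateAt (p M : ℕ) [NeZero M] [NeZero p] (A : ValuationSubring Kbar) (a : GQ) : Prop :=
  ∀ k e : ℕ, (∀ μ : Kbar, μ ^ p ^ k = 1 → a μ = μ ^ e) →
    ∀ z : FF (M * p), z ≠ 0 →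
      (∀ v : Place Kbar (FF (M * p)), ((p ^ k : ℕ) : ℤ) ∣ v.ord z) →
      H71TorDeep A M p (p ^ k) z →
      ∃ h : FF (M * p), h ^ p ^ k = h85pTh (M * p) a e z

/-- **TOR-GATE-p from the deep local datum.** -/
theorem h85p_torGate_of_locDeep {p : ℕ} (hp : p.Prime) (M : ℕ) [NeZero M] (hpM : ¬ p ∣ M)
    (haux : auxLevel p ∣ M) (A : ValuationSubring Kbar) (hA : A.LiesOverPrime p) (a : GQ)
    (H : haveI : NeZero p := ⟨hp.ne_zero⟩; H85pLocDeep p M A a) :
    haveI : NeZero p := ⟨hp.ne_zero⟩; H85pTorGateAt p M A a := by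
  haveI : NeZero p := ⟨hp.ne_zero⟩
  intro k e he z hz hord hdeep
  have hr : 0 < p ^ k := pow_pos hp.pos k
  obtain ⟨ϖ, hϖ, hϖ0, c, hc0, G, hG0, hU, hl₀, hl₁⟩ := H k e he z hz hord hdeep
  have hcc : cst (M * p) c ≠ 0 := by
    simpa only [cst, ne_eq, map_eq_zero] using hc0
  set z' : FF (M * p) := cst (M * p) c * z * (G ^ p ^ k)⁻¹ with hz'
  have hz'0 : z' ≠ 0 :=
    mul_ne_zero (mul_ne_zero hcc hz) (inv_ne_zero (pow_ne_zero _ hG0))
  -- the divisor of `z'` is divisible by `p ^ k`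
  have hord' : ∀ v : Place Kbar (FF (M * p)), ((p ^ k : ℕ) : ℤ) ∣ v.ord z' := by
    intro v
    rw [hz', Place.ord_mul _ (mul_ne_zero hcc hz) (inv_ne_zero (pow_ne_zero _ hG0)),
      Place.ord_mul _ hcc hz, Place.ord_inv, ← zpow_natCast, Place.ord_zpow]
    have h0 : v.ord (cst (M * p) c) = 0 := Fermat.Agent.Jac.K1.ord_algebraMap v hc0
    rw [h0, zero_add]
    exact dvd_add (hord v) ((dvd_neg).2 (Dvd.intro _ rfl))
  obtain ⟨h', hh'⟩ := h85p_pow_of_locDatum hp (M * p) A hA (ssV A M p)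
    (h85p_piecesSSAt hp M hpM haux A hA) (p ^ k) hr (h85pTh (M * p) a e z')
    (h85p_th_ne_zero _ a e hz'0) (h85p_dvd_ord_th a e hz'0 hord') ϖ hϖ hϖ0 hU hl₀ hl₁
  -- back to `z`
  have hci : cst (M * p) c⁻¹ = (cst (M * p) c)⁻¹ := map_inv₀ _ _
  have hzz : z = z' * G ^ p ^ k * cst (M * p) c⁻¹ := by
    rw [hz', hci]
    field_simp
  obtain ⟨d, hd⟩ := IsAlgClosed.exists_pow_nat_eq (a c⁻¹ / c⁻¹ ^ e) hr
  have hcd : cst (M * p) d ^ p ^ k = h85pTh (M * p) a e (cst (M * p) c⁻¹) := by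
    rw [h85p_th_cst, ← hd]
    exact (map_pow _ _ _).symm
  refine ⟨h' * h85pTh (M * p) a e G * cst (M * p) d, ?_⟩
  rw [mul_pow, mul_pow, hh', ← h85p_th_pow, hcd, ← h85p_th_mul, ← h85p_th_mul, ← hzz]

/-! ## The twisted gate of `P6/H66TwGate.lean` -/

/-- `tdd a b e u = Θ_a (b u / u)`. -/
theorem h85p_tdd_eq (N : ℕ) (a b : GQ) (e : ℕ) {u : FF N} (hu : u ≠ 0) :
    h66zTdd N a b e u = h85pTh N a e (gal N b • u / u) := by
  have hb : gal N b • u ≠ 0 := gal_smul_ne_zero b hu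
  have ha : gal N a • u ≠ 0 := gal_smul_ne_zero a hu
  unfold h66zTdd h85pTh
  rw [div_eq_mul_inv (gal N b • u) u, smul_mul', smul_inv'', mul_pow, inv_pow]
  field_simp

/-- **the twisted gate (exact exponent) from NEW-DEPTH and TOR-GATE-p.** -/
theorem h85p_gateAt_of {p : ℕ} (hp : p.Prime) (M : ℕ) [NeZero M] (hpM : ¬ p ∣ M)
    (A : ValuationSubring Kbar) (hA : A.LiesOverPrime p) (a b : GQ)
    (hb : b ∈ A.inertiaSubgroupIn ℚ) (hND : H71NewDepth)
    (hT : haveI : NeZero p := ⟨hp.ne_zero⟩; H85pTorGateAt p M A a) :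
    haveI : NeZero p := ⟨hp.ne_zero⟩; H66zGateAt p M a b 0 := by
  haveI : NeZero p := ⟨hp.ne_zero⟩
  intro k e he u hu hord hα hβ
  have hr : 0 < p ^ k := pow_pos hp.pos k
  have hbu : gal (M * p) b • u ≠ 0 := gal_smul_ne_zero b hu
  have hz0 : gal (M * p) b • u / u ≠ 0 := div_ne_zero hbu hu
  have hordz : ∀ v : Place Kbar (FF (M * p)),
      ((p ^ k : ℕ) : ℤ) ∣ v.ord (gal (M * p) b • u / u) := by
    intro v
    rw [div_eq_mul_inv, Place.ord_mul _ hbu (inv_ne_zero hu), Place.ord_inv]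
    exact dvd_add (h31s_dvd_ord_gal b hord v) ((dvd_neg).2 (hord v))
  have hdeep := hND p hp M hpM A hA b hb (p ^ k) hr u hu hα hβ
  obtain ⟨h, hh⟩ := hT k e he _ hz0 hordz hdeep
  refine ⟨h, ?_⟩
  rw [pow_zero, pow_one, h85p_tdd_eq _ a b e hu]
  exact hh

/-- **the twisted gate from NEW-DEPTH and the deep local datum**, at a good level. -/
theorem h85p_gateAt_of_locDeep {p : ℕ} (hp : p.Prime) (M : ℕ) [NeZero M] (hpM : ¬ p ∣ M)
    (haux : auxLevel p ∣ M) (A : ValuationSubring Kbar) (hA : A.LiesOverPrime p) (a b : GQ)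
    (hb : b ∈ A.inertiaSubgroupIn ℚ) (hND : H71NewDepth)
    (H : haveI : NeZero p := ⟨hp.ne_zero⟩; H85pLocDeep p M A a) :
    haveI : NeZero p := ⟨hp.ne_zero⟩; H66zGateAt p M a b 0 :=
  h85p_gateAt_of hp M hpM A hA a b hb hND (h85p_torGate_of_locDeep hp M hpM haux A hA a H)

end Fermat.Agent.P6
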