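import Fermat.Agent.P6.H87Mult
import Fermat.Agent.P6.H97FlatOrd

/-!
# S33 / wave 6, block B3 FLAT-ORD: closed

`h87m_flatOrdGlobal : H97fGlobal` — the global form of FLAT-ORD (helper97's
`h97f_flatOrd : H97fET → H97fMult → H97fGlobal`) with both leaves discharged:
`h24e_et : H97fET` (helper24) and `h87m_mult : H97fMult` (helper87, Fourier route).
Also `h87m_local : H97fLocal`.
-/

set_option autoImplicit false

namespace Fermat.Agent.P6

/-- **B3 FLAT-ORD, global form, unconditional.** -/
theorem h87m_flatOrdGlobal : H97fGlobal := h97f_flatOrd h24e_et h87m_mult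

end Fermat.Agent.P6
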