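import Fermat.Agent.P6.H87MultInd

/-!
# S33 / wave 6, leaf B3 MULT, third route (helper87), part 5: `H97fMult`

From the integrality of the Fourier coefficients (`h87m_P_bot`) and character completeness:
for `σ` in inertia and a character `η` of `X` the character `θ = σ⁻¹ ∘ η ∘ act σ` has
`⟨θ, η⟩ ≡ ⟨η, η⟩ = card X` modulo `𝔪 · card X`, hence `θ = η` (orthogonality), i.e. every
character is inertia-equivariant; so `act σ x = e • x` when `σ` acts on `μ_{p^k}` by `e`.

`h87m_mult : H97fMult` (the exact frozen Prop of `P6/H97DevIface.lean`).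
-/

set_option autoImplicit false
set_option linter.unusedSectionVars false
set_option linter.style.haveILetI false

open Fermat.Agent.PT.Loc Fermat.Agent.S56F

noncomputable section

namespace Fermat.Agent.P6

variable {p : ℕ} [Fact p.Prime] {X : Type} [AddCommGroup X] {act : Gq p → X → X}

/-- the pairing with a character. -/
def h87mPhi [Fintype X] (η : X → Om p) (u : X → Om p) : Om p := ∑ x : X, η (-x) * u x

theorem h87mPhi_add [Fintype X] (η u v : X → Om p) :
    h87mPhi η (u + v) = h87mPhi η u + h87mPhi η v := by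
  unfold h87mPhi
  rw [← Finset.sum_add_distrib]
  refine Finset.sum_congr rfl fun x _ => ?_
  rw [Pi.add_apply, mul_add]

theorem h87mPhi_smul [Fintype X] (η : X → Om p) (c : intOm p) (u : X → Om p) :
    h87mPhi η (c • u) = (c : Om p) * h87mPhi η u := by
  unfold h87mPhi
  rw [Finset.mul_sum]
  refine Finset.sum_congr rfl fun x _ => ?_
  have h1 : (c • u) x = (c : Om p) * u x := rfl
  rw [h1]
  ring

theorem h87m_act_neg (hact : IsAct act) (σ : Gq p) (x : X) : act σ (-x) = -act σ x := by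
  have h1 : act σ (-x) + act σ x = 0 := by
    rw [← hact.add, neg_add_cancel, h87f_act_zero hact σ]
  exact eq_neg_of_add_eq_zero_left h1

/-- the action of `σ` as a permutation. -/
def h87mPerm (hact : IsAct act) (σ : Gq p) : X ≃ X where
  toFun := act σ
  invFun := act σ⁻¹
  left_inv x := by rw [← hact.mul, inv_mul_cancel, hact.one]
  right_inv x := by rw [← hact.mul, mul_inv_cancel, hact.one]

theorem h87m_inv_apply (σ : Gq p) (y : Om p) : σ⁻¹ (σ y) = y := by
  rw [← AlgEquiv.mul_apply, inv_mul_cancel, AlgEquiv.one_apply]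

theorem h87m_apply_inv (σ : Gq p) (y : Om p) : σ (σ⁻¹ y) = y := by
  rw [← AlgEquiv.mul_apply, mul_inv_cancel, AlgEquiv.one_apply]

/-- the pairing of the twisted character with an equivariant function. -/
theorem h87m_phi_twist [Fintype X] (hact : IsAct act) (𝓗 : FHO p (inertia p) X act)
    {σ : Gq p} (hσ : σ ∈ inertia p) (η : X → Om p) {f : X → Om p} (hf : f ∈ 𝓗.carrier) :
    h87mPhi (fun x => σ⁻¹ (η (act σ x))) f = σ⁻¹ (h87mPhi η f) := by
  unfold h87mPhi
  rw [map_sum]
  have h1 : ∀ x : X, σ⁻¹ (η (act σ (-x))) * f x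
      = (fun y => σ⁻¹ (η (-y) * f y)) (h87mPerm hact σ x) := by
    intro x
    show _ = σ⁻¹ (η (-(act σ x)) * f (act σ x))
    rw [map_mul, 𝓗.equivariant f hf σ hσ, h87m_inv_apply, h87m_act_neg hact]
  rw [Finset.sum_congr rfl fun x _ => h1 x]
  exact Fintype.sum_equiv (h87mPerm hact σ) _ _ fun x => rfl

theorem h87m_card_ne_zero [Fintype X] : ((Fintype.card X : ℕ) : Om p) ≠ 0 := by
  have : Fintype.card X ≠ 0 := Fintype.card_ne_zero
  exact_mod_cast this

/-- **Every character is inertia-equivariant.** -/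
theorem h87m_char_equiv [Fintype X] (hp2 : p ≠ 2) (hact : IsAct act)
    (𝓗 : FHO p (inertia p) X act) {k : ℕ} (hk : k ≠ 0) (hpk : ∀ x : X, p ^ k • x = 0)
    (hch : h87mChain p k act) {σ : Gq p} (hσ : σ ∈ inertia p) (η : X → Om p)
    (hη0 : η 0 = 1) (hηmul : ∀ x y, η (x + y) = η x * η y) (x : X) :
    η (act σ x) = σ (η x) := by
  classical
  set θ : X → Om p := fun x => σ⁻¹ (η (act σ x)) with hθ
  set N : Om p := ((Fintype.card X : ℕ) : Om p) with hN
  have hN0 : N ≠ 0 := h87m_card_ne_zero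
  have hNpos : 0 < ‖N‖ := norm_pos_iff.mpr hN0
  have hσ' : σ⁻¹ ∈ inertia p := (inertia p).inv_mem hσ
  have hθ0 : θ 0 = 1 := by
    show σ⁻¹ (η (act σ 0)) = 1
    rw [h87f_act_zero hact σ, hη0, map_one]
  have hθmul : ∀ x y, θ (x + y) = θ x * θ y := by
    intro x y
    show σ⁻¹ (η (act σ (x + y))) = _
    rw [hact.add, hηmul, map_mul]
  -- generators
  have hgen : ∀ f ∈ 𝓗.carrier, ‖h87mPhi θ f - h87mPhi η f‖ < ‖N‖ := by
    intro f hf
    rw [h87m_phi_twist hact 𝓗 hσ η hf]
    have hb : ‖h87mPhi η f‖ ≤ ‖N‖ := h87m_P_bot hp2 hact 𝓗 hk hpk hch hf η hη0 hηmul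
    set w : Om p := h87mPhi η f / N with hw
    have hw1 : ‖w‖ ≤ 1 := by
      rw [hw, norm_div, div_le_one hNpos]
      exact hb
    have hwN : h87mPhi η f = N * w := by
      rw [hw, mul_div_cancel₀ _ hN0]
    rw [hwN, map_mul, hN, map_natCast, ← hN, ← mul_sub, norm_mul]
    calc ‖N‖ * ‖σ⁻¹ w - w‖ < ‖N‖ * 1 :=
          mul_lt_mul_of_pos_left (hσ' w hw1) hNpos
      _ = ‖N‖ := mul_one _
  -- the span
  have hspan : ∀ u ∈ Submodule.span (intOm p) (𝓗.carrier : Set (X → Om p)),
      ‖h87mPhi θ u - h87mPhi η u‖ < ‖N‖ := by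
    intro u hu
    induction hu using Submodule.span_induction with
    | mem f hf => exact hgen f hf
    | zero =>
      have h0 : ∀ ξ : X → Om p, h87mPhi ξ (0 : X → Om p) = 0 := fun ξ => by
        unfold h87mPhi
        simp
      rw [h0, h0, sub_self, norm_zero]
      exact hNpos
    | add f g _ _ hf hg =>
      rw [h87mPhi_add, h87mPhi_add]
      have e : h87mPhi θ f + h87mPhi θ g - (h87mPhi η f + h87mPhi η g)
          = (h87mPhi θ f - h87mPhi η f) + (h87mPhi θ g - h87mPhi η g) := by ring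
      rw [e]
      exact lt_of_le_of_lt (IsUltrametricDist.norm_add_le_max _ _) (max_lt hf hg)
    | smul c f _ hf =>
      rw [h87mPhi_smul, h87mPhi_smul, ← mul_sub, norm_mul]
      calc ‖(c : Om p)‖ * ‖h87mPhi θ f - h87mPhi η f‖
          ≤ 1 * ‖h87mPhi θ f - h87mPhi η f‖ :=
            mul_le_mul_of_nonneg_right c.2.1 (norm_nonneg _)
        _ = ‖h87mPhi θ f - h87mPhi η f‖ := one_mul _
        _ < ‖N‖ := hf
  have hη_span := h15f_charCompleteAll p (inertia p) X act 𝓗 η hη0 hηmul
  have hkey := hspan η hη_span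
  -- `⟨η, η⟩ = card X`
  have hηη : h87mPhi η η = N := by
    unfold h87mPhi
    have h1 : ∀ x : X, η (-x) * η x = 1 := fun x => by
      rw [← hηmul, neg_add_cancel, hη0]
    rw [Finset.sum_congr rfl fun x _ => h1 x, Finset.sum_const, Finset.card_univ,
      nsmul_eq_mul, mul_one]
  rw [hηη] at hkey
  have hne : h87mPhi θ η ≠ 0 := by
    intro h0
    rw [h0, zero_sub, norm_neg] at hkey
    exact lt_irrefl _ hkey
  -- orthogonality
  set ψ : X → Om p := fun x => θ (-x) * η x with hψ
  have hψmul : ∀ x y, ψ (x + y) = ψ x * ψ y := by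
    intro x y
    show θ (-(x + y)) * η (x + y) = (θ (-x) * η x) * (θ (-y) * η y)
    rw [neg_add, hθmul, hηmul]
    ring
  have hψ1 : ∀ y, ψ y = 1 := by
    intro y
    by_contra hy
    apply hne
    have h1 : h87mPhi θ η = ∑ x : X, ψ x := rfl
    have h2 : ∑ x : X, ψ x = ψ y * ∑ x : X, ψ x := by
      rw [Finset.mul_sum]
      calc ∑ x : X, ψ x = ∑ x : X, ψ (x + y) :=
            (Fintype.sum_equiv (Equiv.addRight y) _ _ fun x => rfl).symm
        _ = ∑ x : X, ψ y * ψ x := Finset.sum_congr rfl fun x _ => by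
            rw [hψmul, mul_comm]
    have h3 : (1 - ψ y) * ∑ x : X, ψ x = 0 := by
      rw [sub_mul, one_mul, ← h2, sub_self]
    rcases mul_eq_zero.mp h3 with h4 | h4
    · exact absurd (sub_eq_zero.mp h4).symm hy
    · rw [h1, h4]
  -- conclusion
  have h1 := hψ1 (-x)
  have h2 : θ x * η (-x) = 1 := by
    have : ψ (-x) = θ x * η (-x) := by
      show θ (-(-x)) * η (-x) = _
      rw [neg_neg]
    rw [← this]
    exact h1
  have h3 : η (-x) * η x = 1 := by rw [← hηmul, neg_add_cancel, hη0]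
  have h4 : θ x = η x := by
    calc θ x = θ x * (η (-x) * η x) := by rw [h3, mul_one]
      _ = (θ x * η (-x)) * η x := by ring
      _ = η x := by rw [h2, one_mul]
  have h5 : σ (θ x) = η (act σ x) := h87m_apply_inv σ _
  rw [← h5, h4]

/-- **MULT** (the frozen leaf of `P6/H97DevIface.lean`). -/
theorem h87m_mult : H97fMult := by
  intro p _ hp2 k X _ _ act hact hpk 𝓗 hch σ hσ e he x
  classical
  letI : Fintype X := Fintype.ofFinite X
  by_cases hk : k = 0
  · -- `X` is trivial
    have h0 : ∀ y : X, y = 0 := fun y => by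
      have := hpk y
      rwa [hk, pow_zero, one_nsmul] at this
    rw [h0 (act σ x), h0 (e • x)]
  by_contra hne
  have hy : act σ x - e • x ≠ 0 := sub_ne_zero.mpr hne
  obtain ⟨η, hη0, hηmul, hηy⟩ := h24e_exists_char (p := p) hy
  have hηn : ∀ (n : ℕ) (z : X), η (n • z) = η z ^ n := by
    intro n z
    induction n with
    | zero => rw [zero_nsmul, pow_zero, hη0]
    | succ n ih => rw [succ_nsmul, hηmul, ih, pow_succ]
  have h1 : η (act σ x) = σ (η x) :=
    h87m_char_equiv hp2 hact 𝓗 hk hpk hch hσ η hη0 hηmul x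
  have h2 : (η x) ^ p ^ k = 1 := by rw [← hηn, hpk, hη0]
  have h3 : σ (η x) = η (e • x) := by rw [he _ h2, hηn]
  have h4 : η (act σ x) = η (act σ x - e • x) * η (e • x) := by
    rw [← hηmul, sub_add_cancel]
  have h5 : η (e • x) ≠ 0 := by
    intro h0
    have h6 : η (-(e • x)) * η (e • x) = 1 := by rw [← hηmul, neg_add_cancel, hη0]
    rw [h0, mul_zero] at h6
    exact zero_ne_one h6
  apply hηy
  rw [h1, h3] at h4
  have h7 : η (act σ x - e • x) * η (e • x) = 1 * η (e • x) := by rw [one_mul]; exact h4.symm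
  exact mul_right_cancel₀ h5 h7

end Fermat.Agent.P6
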