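import Fermat.Agent.P6.H87MultStep
import Fermat.Agent.S56F.FLO3_helper84
import Fermat.Agent.S56F.FLD4_helper7

/-!
# S33 / wave 6, leaf B3 MULT, third route (helper87), part 4: the induction

For a module `X` with an order over inertia and a chain with cyclotomic graded pieces
(the hypotheses of `H97fMult`), `h87mP 𝓗 S` holds for every inertia-stable subgroup `S`
(downward induction); in particular (`S = ⊥`) the Fourier coefficients of all functions of the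
order are integral: `h87m_P_bot`.
-/

set_option autoImplicit false
set_option linter.unusedSectionVars false
set_option linter.style.haveILetI false

open Fermat.Agent.PT.Loc Fermat.Agent.S56F

noncomputable section

namespace Fermat.Agent.P6

variable {p : ℕ} [Fact p.Prime] {X : Type} [AddCommGroup X] {act : Gq p → X → X}

/-! ## Cyclotomic exponents -/

/-- every `σ` acts on `μ_{p^k}` by some power. -/
theorem h87m_exists_cyc (k : ℕ) (σ : Gq p) : ∃ e : ℕ, h97fCyc p k σ e := by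
  have hp := (Fact.out : p.Prime)
  haveI hnz : NeZero (((p ^ k : ℕ) : ℕ) : Om p) :=
    ⟨by exact_mod_cast (pow_pos hp.pos k).ne'⟩
  obtain ⟨ζ, hζ⟩ := HasEnoughRootsOfUnity.exists_primitiveRoot (Om p) (p ^ k)
  have h1 : (σ ζ) ^ (p ^ k) = 1 := by rw [← map_pow, hζ.pow_eq_one, map_one]
  obtain ⟨a, -, ha⟩ := hζ.eq_pow_of_pow_eq_one h1
  refine ⟨a, fun μ hμ => ?_⟩
  obtain ⟨j, -, hj⟩ := hζ.eq_pow_of_pow_eq_one hμ
  rw [← hj, map_pow, ← ha, ← pow_mul, ← pow_mul, mul_comm]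

/-- a primitive `p`-th root of unity. -/
theorem h87m_exists_prim : ∃ ζ : Om p, IsPrimitiveRoot ζ p := by
  have hp := (Fact.out : p.Prime)
  haveI hnz : NeZero ((p : ℕ) : Om p) := ⟨by exact_mod_cast hp.ne_zero⟩
  exact HasEnoughRootsOfUnity.exists_primitiveRoot (Om p) p

theorem h87m_pow_pk {k : ℕ} (hk : k ≠ 0) {ζ : Om p} (hζ : ζ ^ p = 1) : ζ ^ p ^ k = 1 := by
  obtain ⟨k', rfl⟩ : ∃ k', k = k' + 1 := ⟨k - 1, by omega⟩
  rw [pow_succ', pow_mul, hζ, one_pow]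

/-- the exponent on `μ_{p^k}` restricts to the exponent on `μ_p`. -/
theorem h87m_cyc_mod {k : ℕ} (hk : k ≠ 0) {σ : Gq p} {e a : ℕ} (he : h97fCyc p k σ e)
    (ha : cycExp p σ a) : ((e : ℕ) : ZMod p) = ((a : ℕ) : ZMod p) := by
  obtain ⟨ζ, hζ⟩ := h87m_exists_prim (p := p)
  have h1 : ζ ^ e = ζ ^ a := by
    rw [← he ζ (h87m_pow_pk hk hζ.pow_eq_one), ← ha ζ hζ.pow_eq_one]
  have hp := (Fact.out : p.Prime)
  have ho : orderOf ζ = p := hζ.eq_orderOf.symm
  have h2 : ζ ^ (e % p) = ζ ^ (a % p) := by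
    have h3 := pow_mod_orderOf ζ e
    have h4 := pow_mod_orderOf ζ a
    rw [ho] at h3 h4
    rw [h3, h4, h1]
  have h5 : e % p = a % p :=
    hζ.pow_inj (Nat.mod_lt _ hp.pos) (Nat.mod_lt _ hp.pos) h2
  exact (ZMod.natCast_eq_natCast_iff' e a p).mpr h5

/-- the exponent is prime to `p`. -/
theorem h87m_cyc_not_dvd {k : ℕ} (hk : k ≠ 0) {σ : Gq p} {e : ℕ} (he : h97fCyc p k σ e) :
    ¬ p ∣ e := by
  intro hdvd
  have hp := (Fact.out : p.Prime)
  obtain ⟨ζ, hζ⟩ := h87m_exists_prim (p := p)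
  have h1 : σ ζ = 1 := by
    rw [he ζ (h87m_pow_pk hk hζ.pow_eq_one)]
    exact (hζ.pow_eq_one_iff_dvd e).mpr hdvd
  have h2 : ζ = 1 := by
    have := congrArg (σ⁻¹ : Gq p) h1
    rwa [← AlgEquiv.mul_apply, inv_mul_cancel, AlgEquiv.one_apply, map_one] at this
  have h3 : p = 1 := by
    have := hζ.unique (h2 ▸ IsPrimitiveRoot.one)
    exact this
  exact hp.one_lt.ne' h3

/-- some element of inertia has an exponent `≢ 1` modulo `p` (`p` odd). -/
theorem h87m_exists_ne_one (hp2 : p ≠ 2) {k : ℕ} (hk : k ≠ 0) :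
    ∃ σ ∈ inertia p, ∃ e : ℕ, h97fCyc p k σ e ∧ ((e : ℕ) : ZMod p) ≠ 1 := by
  obtain ⟨σ, hσ, a, ha, ha1⟩ :=
    h84o_exists_inert_ne_one h89f_fundSurjective h7c_cycFund hp2 (ZMod p)
  obtain ⟨e, he⟩ := h87m_exists_cyc k σ
  exact ⟨σ, hσ, e, he, by rw [h87m_cyc_mod hk he ha]; exact ha1⟩

/-! ## The next step of the chain -/

/-- The chain hypothesis of `H97fMult`. -/
def h87mChain (p : ℕ) [Fact p.Prime] (k : ℕ) (act : Gq p → X → X) : Prop :=
  ∃ (n : ℕ) (F : ℕ → AddSubgroup X), F 0 = ⊥ ∧ F n = ⊤ ∧ (∀ i, F i ≤ F (i + 1)) ∧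
    ∀ i, ∀ σ ∈ inertia p, ∀ e : ℕ, h97fCyc p k σ e → ∀ x ∈ F (i + 1),
      act σ x - e • x ∈ F i

/-- above a proper subgroup there is an element of order `p` modulo `S` on which inertia acts
by the cyclotomic character modulo `S`. -/
theorem h87m_next {k : ℕ} (hpk : ∀ x : X, p ^ k • x = 0) (hch : h87mChain p k act)
    {S : AddSubgroup X} (hS : S ≠ ⊤) :
    ∃ x₀ : X, x₀ ∉ S ∧ p • x₀ ∈ S ∧
      ∀ σ ∈ inertia p, ∀ e : ℕ, h97fCyc p k σ e → act σ x₀ - e • x₀ ∈ S := by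
  classical
  obtain ⟨n, F, hF0, hFn, -, hF⟩ := hch
  have hex : ∃ i, ¬ F i ≤ S := ⟨n, fun h => hS (top_le_iff.mp (hFn ▸ h))⟩
  have hi := Nat.find_spec hex
  have hi0 : Nat.find hex ≠ 0 := by
    intro h0
    rw [h0, hF0] at hi
    exact hi bot_le
  obtain ⟨j, hj⟩ : ∃ j, Nat.find hex = j + 1 := ⟨Nat.find hex - 1, by omega⟩
  have hjS : F j ≤ S := by
    by_contra h
    have := Nat.find_min' hex h
    omega
  rw [hj] at hi
  obtain ⟨y, hyF, hyS⟩ := SetLike.not_le_iff_exists.mp hi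
  -- the largest multiple outside `S`
  have hex2 : ∃ m, p ^ m • y ∈ S := ⟨k, by rw [hpk]; exact S.zero_mem⟩
  have hm := Nat.find_spec hex2
  have hm0 : Nat.find hex2 ≠ 0 := by
    intro h0
    rw [h0, pow_zero, one_nsmul] at hm
    exact hyS hm
  obtain ⟨m, hm'⟩ : ∃ m, Nat.find hex2 = m + 1 := ⟨Nat.find hex2 - 1, by omega⟩
  refine ⟨p ^ m • y, ?_, ?_, fun σ hσ e he => ?_⟩
  · intro h
    have := Nat.find_min' hex2 h
    omega
  · rw [← mul_nsmul', ← pow_succ']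
    rw [hm'] at hm
    exact hm
  · exact hjS (hF j σ hσ e he _ ((F (j + 1)).nsmul_mem hyF _))

/-- the larger subgroup is stable under inertia. -/
theorem h87m_stable_sup (hact : IsAct act) {k : ℕ} {S : AddSubgroup X}
    (hS : h87mStable act S) {x₀ : X}
    (hx₀ : ∀ σ ∈ inertia p, ∀ e : ℕ, h97fCyc p k σ e → act σ x₀ - e • x₀ ∈ S) :
    h87mStable act (S ⊔ AddSubgroup.zmultiples x₀) := by
  intro σ hσ
  let φ : X →+ X :=
    { toFun := act σ
      map_zero' := h87f_act_zero hact σ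
      map_add' := hact.add σ }
  have h1 : S ⊔ AddSubgroup.zmultiples x₀
      ≤ AddSubgroup.comap φ (S ⊔ AddSubgroup.zmultiples x₀) := by
    refine sup_le (fun s hs => ?_) ?_
    · exact (le_sup_left : S ≤ S ⊔ AddSubgroup.zmultiples x₀) (hS σ hσ s hs)
    · rw [AddSubgroup.zmultiples_le]
      obtain ⟨e, he⟩ := h87m_exists_cyc k σ
      show act σ x₀ ∈ S ⊔ AddSubgroup.zmultiples x₀
      have h2 : act σ x₀ = (act σ x₀ - e • x₀) + e • x₀ := by abel
      rw [h2]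
      refine AddSubgroup.add_mem _ ((le_sup_left : S ≤ _) (hx₀ σ hσ e he)) ?_
      exact (le_sup_right : AddSubgroup.zmultiples x₀ ≤ _)
        ((AddSubgroup.zmultiples x₀).nsmul_mem (AddSubgroup.mem_zmultiples x₀) e)
  exact fun x hx => h1 hx

/-- **Connectedness**: `x₀ ≡ 0` modulo the maximal ideal for the `S`-invariant functions. -/
theorem h87m_conn [Finite X] (hp2 : p ≠ 2) (hact : IsAct act) (𝓗 : FHO p (inertia p) X act)
    {k : ℕ} (hk : k ≠ 0) {S : AddSubgroup X} (hS : h87mStable act S) {x₀ : X}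
    (hpx₀ : p • x₀ ∈ S)
    (hx₀ : ∀ σ ∈ inertia p, ∀ e : ℕ, h97fCyc p k σ e → act σ x₀ - e • x₀ ∈ S) :
    ∃ t : ℝ, t < 1 ∧ h87mPt 𝓗 S x₀ t := by
  have hp := (Fact.out : p.Prime)
  obtain ⟨σ, hσ, e, he, he1⟩ := h87m_exists_ne_one hp2 hk (p := p)
  obtain ⟨t, ht, h⟩ := h87m_inv_inert hact 𝓗 S hS hσ x₀
  have ht0 : 0 ≤ t := (norm_nonneg _).trans (h 1 (h87m_inv_one 𝓗 S))
  refine ⟨t, ht, ?_⟩
  have hepos : 0 < e := by
    rcases Nat.eq_zero_or_pos e with h0 | h0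
    · exact absurd (h0 ▸ dvd_zero p) (h87m_cyc_not_dvd hk he)
    · exact h0
  -- `(e - 1) • x₀ ≡ 0`
  have h1 : act σ x₀ - x₀ = (e - 1) • x₀ + (act σ x₀ - e • x₀) := by
    have h2 : e • x₀ = (e - 1) • x₀ + x₀ := by
      rw [← succ_nsmul, Nat.sub_add_cancel hepos]
    rw [h2]
    abel
  rw [h1, h87m_pt_add_mem (hx₀ σ hσ e he)] at h
  -- the inverse of `e - 1` modulo `p`
  have hu : (((e - 1 : ℕ) : ℕ) : ZMod p) ≠ 0 := by
    rw [Nat.cast_sub hepos, Nat.cast_one]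
    exact sub_ne_zero.mpr he1
  have h3 := h87m_pt_nsmul hact 𝓗 S hS ht0 h ((((e - 1 : ℕ) : ZMod p))⁻¹).val
  intro f hf
  have h4 := h3 f hf
  rw [← mul_nsmul, h87m_per' hpx₀ hf.2, Nat.cast_mul, ZMod.natCast_zmod_val,
    mul_inv_cancel₀ hu] at h4
  haveI : Fact (1 < p) := ⟨hp.one_lt⟩
  rwa [ZMod.val_one, one_nsmul] at h4

/-! ## The induction -/

/-- the top of the induction. -/
theorem h87m_P_top [Fintype X] (𝓗 : FHO p (inertia p) X act) : h87mP 𝓗 ⊤ := by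
  intro f hf η hη0 hηmul hηS
  have h1 : ∀ x : X, η (-x) * f x = f 0 := by
    intro x
    rw [hηS _ (AddSubgroup.mem_top _), one_mul]
    have := hf.2 0 x (AddSubgroup.mem_top _)
    rwa [zero_add] at this
  rw [Finset.sum_congr rfl fun x _ => h1 x, Finset.sum_const, Finset.card_univ, nsmul_eq_mul,
    norm_mul]
  calc ‖((Fintype.card X : ℕ) : Om p)‖ * ‖f 0‖ ≤ ‖((Fintype.card X : ℕ) : Om p)‖ * 1 :=
        mul_le_mul_of_nonneg_left (h87m_inv_norm_le hf 0) (norm_nonneg _)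
    _ = _ := mul_one _

/-- **Integrality of the Fourier coefficients**, all inertia-stable subgroups. -/
theorem h87m_P_all [Fintype X] (hp2 : p ≠ 2) (hact : IsAct act)
    (𝓗 : FHO p (inertia p) X act) {k : ℕ} (hk : k ≠ 0) (hpk : ∀ x : X, p ^ k • x = 0)
    (hch : h87mChain p k act) (S : AddSubgroup X) :
    h87mStable act S → h87mP 𝓗 S := by
  induction S using WellFoundedGT.induction with
  | _ S ih =>
    intro hS
    by_cases htop : S = ⊤
    · rw [htop]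
      exact h87m_P_top 𝓗
    obtain ⟨x₀, hx₀S, hpx₀, hx₀⟩ := h87m_next hpk hch htop
    have hlt : S < S ⊔ AddSubgroup.zmultiples x₀ := by
      refine lt_of_le_of_ne le_sup_left fun h => hx₀S ?_
      rw [h]
      exact (le_sup_right : AddSubgroup.zmultiples x₀ ≤ _) (AddSubgroup.mem_zmultiples x₀)
    have hP := ih _ hlt (h87m_stable_sup hact hS hx₀)
    obtain ⟨t, ht, hconn⟩ := h87m_conn hp2 hact 𝓗 hk hS hpx₀ hx₀
    refine h87m_step hact 𝓗 hS hpx₀ (fun σ hσ => ?_) ht hconn hP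
    obtain ⟨e, he⟩ := h87m_exists_cyc k σ
    exact ⟨e, h87m_cyc_not_dvd hk he, hx₀ σ hσ e he⟩

/-- **Integrality of the Fourier coefficients** of the functions of the order. -/
theorem h87m_P_bot [Fintype X] (hp2 : p ≠ 2) (hact : IsAct act)
    (𝓗 : FHO p (inertia p) X act) {k : ℕ} (hk : k ≠ 0) (hpk : ∀ x : X, p ^ k • x = 0)
    (hch : h87mChain p k act) {f : X → Om p} (hf : f ∈ 𝓗.carrier) (η : X → Om p)
    (hη0 : η 0 = 1) (hηmul : ∀ x y, η (x + y) = η x * η y) :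
    ‖∑ x : X, η (-x) * f x‖ ≤ ‖((Fintype.card X : ℕ) : Om p)‖ := by
  have hbot : h87mStable act (⊥ : AddSubgroup X) := by
    intro σ _ x hx
    rw [AddSubgroup.mem_bot] at hx ⊢
    rw [hx]
    exact h87f_act_zero hact σ
  refine h87m_P_all hp2 hact 𝓗 hk hpk hch ⊥ hbot f ⟨hf, fun x s hs => ?_⟩ η hη0 hηmul
    fun s hs => ?_
  · rw [AddSubgroup.mem_bot] at hs
    rw [hs, add_zero]
  · rw [AddSubgroup.mem_bot] at hs
    rw [hs, hη0]

end Fermat.Agent.P6
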