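import Fermat.Agent.S56F.FLB8final_helper9
import Fermat.Agent.S56F.FLD1_helper45
import Fermat.Agent.P6.H24Et

/-!
# S33 / wave 6, leaf B3 MULT, third route (helper87, prefix `h87m_`), part 1: invariant functions

Local language of S56F.  `𝓗` is a function Hopf order over inertia on the finite module `X`,
`S` an inertia-stable subgroup of `X`.

* `h87mInv 𝓗 S` : the `S`-invariant functions of the order;
* `h87m_quot` : the quotient order on `X ⧸ S` (landed `h9q_quotOrder`, `IsAct` only on `X`);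
* `h87m_inv_comul` : Sweedler form inside the invariant functions;
* `h87m_inv_char` : a character of `X` trivial on `S` is an integral combination of invariant
  functions (landed `h15f_charCompleteAll`);
* `h87mPt 𝓗 S y t` : `y ≡ 0` modulo `{‖·‖ ≤ t}` for the invariant functions, with its subgroup
  property and `h87m_inv_inert` (inertia moves points by points `≡ 0` modulo the maximal ideal).
-/

set_option autoImplicit false
set_option linter.unusedSectionVars false
set_option linter.style.haveILetI false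

open Fermat.Agent.PT.Loc Fermat.Agent.S56F

noncomputable section

namespace Fermat.Agent.P6

variable {p : ℕ} [Fact p.Prime] {X : Type} [AddCommGroup X] {act : Gq p → X → X}

/-- The `S`-invariant functions of the order. -/
def h87mInv (𝓗 : FHO p (inertia p) X act) (S : AddSubgroup X) : Set (X → Om p) :=
  {f | f ∈ 𝓗.carrier ∧ ∀ x, ∀ s ∈ S, f (x + s) = f x}

/-- `S` is stable under inertia. -/
def h87mStable (act : Gq p → X → X) (S : AddSubgroup X) : Prop :=
  ∀ σ ∈ inertia p, ∀ x ∈ S, act σ x ∈ S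

/-- `y ≡ 0` modulo `{‖·‖ ≤ t}` for the `S`-invariant functions. -/
def h87mPt (𝓗 : FHO p (inertia p) X act) (S : AddSubgroup X) (y : X) (t : ℝ) : Prop :=
  ∀ f ∈ h87mInv 𝓗 S, ‖f y - f 0‖ ≤ t

theorem h87m_inv_mem {𝓗 : FHO p (inertia p) X act} {S : AddSubgroup X} {f : X → Om p}
    (hf : f ∈ h87mInv 𝓗 S) : f ∈ 𝓗.carrier := hf.1

theorem h87m_inv_mul {𝓗 : FHO p (inertia p) X act} {S : AddSubgroup X} {f g : X → Om p}
    (hf : f ∈ h87mInv 𝓗 S) (hg : g ∈ h87mInv 𝓗 S) : f * g ∈ h87mInv 𝓗 S :=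
  ⟨Subalgebra.mul_mem _ hf.1 hg.1, fun x s hs => by
    rw [Pi.mul_apply, Pi.mul_apply, hf.2 x s hs, hg.2 x s hs]⟩

theorem h87m_inv_one (𝓗 : FHO p (inertia p) X act) (S : AddSubgroup X) :
    (1 : X → Om p) ∈ h87mInv 𝓗 S :=
  ⟨Subalgebra.one_mem _, fun _ _ _ => rfl⟩

/-- the out map of the quotient differs from the identity by an element of `S`. -/
theorem h87m_out_sub (S : AddSubgroup X) (x : X) :
    ∃ s ∈ S, (Quotient.out (QuotientAddGroup.mk' S x) : X) = x + s := by
  have h1 : (QuotientAddGroup.mk' S) (Quotient.out (QuotientAddGroup.mk' S x))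
      = (QuotientAddGroup.mk' S) x := Quotient.out_eq _
  have h2 : -x + Quotient.out (QuotientAddGroup.mk' S x) ∈ S :=
    (QuotientAddGroup.eq).mp h1.symm
  exact ⟨_, h2, by abel⟩

/-- **The quotient order** on `X ⧸ S`, with its dictionary. -/
theorem h87m_quot [Finite X] (hact : IsAct act) (𝓗 : FHO p (inertia p) X act)
    (S : AddSubgroup X) (hS : h87mStable act S) :
    ∃ (actQ : Gq p → X ⧸ S → X ⧸ S) (𝓗Q : FHO p (inertia p) (X ⧸ S) actQ),
      (∀ σ ∈ inertia p, ∀ x, QuotientAddGroup.mk' S (act σ x)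
        = actQ σ (QuotientAddGroup.mk' S x)) ∧
      (∀ g : X ⧸ S → Om p, g ∈ 𝓗Q.carrier ↔ g ∘ (QuotientAddGroup.mk' S) ∈ 𝓗.carrier) := by
  let actQ : Gq p → X ⧸ S → X ⧸ S := fun σ q => QuotientAddGroup.mk' S (act σ (Quotient.out q))
  have hπe : ∀ σ ∈ inertia p, ∀ x, QuotientAddGroup.mk' S (act σ x)
      = actQ σ (QuotientAddGroup.mk' S x) := by
    intro σ hσ x
    obtain ⟨s, hs, hout⟩ := h87m_out_sub S x
    show _ = QuotientAddGroup.mk' S (act σ (Quotient.out (QuotientAddGroup.mk' S x)))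
    rw [hout, hact.add, map_add]
    have h1 : QuotientAddGroup.mk' S (act σ s) = 0 :=
      (QuotientAddGroup.eq_zero_iff _).mpr (hS σ hσ s hs)
    rw [h1, add_zero]
  obtain ⟨𝓗Q, h𝓗Q, -⟩ := h9q_quotOrder p (inertia p) (p : Om p) (h45f_inertiaDiscrete p) X act
    hact 𝓗 (X ⧸ S) actQ (QuotientAddGroup.mk' S) (QuotientAddGroup.mk'_surjective S) hπe
  exact ⟨actQ, 𝓗Q, hπe, h𝓗Q⟩

/-- descent of a function to the quotient (through `Quotient.out`). -/
def h87mDesc (S : AddSubgroup X) (f : X → Om p) : X ⧸ S → Om p := fun q => f (Quotient.out q)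

theorem h87mDesc_apply (S : AddSubgroup X) (f : X → Om p) (q : X ⧸ S) :
    h87mDesc S f q = f (Quotient.out q) := rfl

/-- an invariant function factors through the quotient. -/
theorem h87m_inv_factor {𝓗 : FHO p (inertia p) X act} {S : AddSubgroup X} {f : X → Om p}
    (hf : f ∈ h87mInv 𝓗 S) :
    (h87mDesc S f) ∘ (QuotientAddGroup.mk' S) = f := by
  funext x
  obtain ⟨s, hs, hout⟩ := h87m_out_sub S x
  show f (Quotient.out (QuotientAddGroup.mk' S x)) = f x
  rw [hout, hf.2 x s hs]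

theorem h87m_comp_inv {𝓗 : FHO p (inertia p) X act} {S : AddSubgroup X}
    {g : X ⧸ S → Om p} (hg : g ∘ (QuotientAddGroup.mk' S) ∈ 𝓗.carrier) :
    g ∘ (QuotientAddGroup.mk' S) ∈ h87mInv 𝓗 S := by
  refine ⟨hg, fun x s hs => ?_⟩
  show g (QuotientAddGroup.mk' S (x + s)) = g (QuotientAddGroup.mk' S x)
  have h0 : QuotientAddGroup.mk' S s = 0 := (QuotientAddGroup.eq_zero_iff s).mpr hs
  rw [map_add, h0, add_zero]

/-- **Sweedler form inside the invariant functions.** -/
theorem h87m_inv_comul [Finite X] (hact : IsAct act) (𝓗 : FHO p (inertia p) X act)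
    (S : AddSubgroup X) (hS : h87mStable act S) {f : X → Om p} (hf : f ∈ h87mInv 𝓗 S) :
    ∃ (n : ℕ) (a b : Fin n → X → Om p), (∀ i, a i ∈ h87mInv 𝓗 S) ∧
      (∀ i, b i ∈ h87mInv 𝓗 S) ∧ ∀ x y, f (x + y) = ∑ i, a i x * b i y := by
  obtain ⟨actQ, 𝓗Q, -, h𝓗Q⟩ := h87m_quot hact 𝓗 S hS
  have hfac := h87m_inv_factor hf
  have hg : (h87mDesc S f) ∈ 𝓗Q.carrier := by
    rw [h𝓗Q, hfac]
    exact hf.1
  obtain ⟨n, a, b, ha, hb, hab⟩ := 𝓗Q.comul _ hg
  refine ⟨n, fun i => a i ∘ (QuotientAddGroup.mk' S), fun i => b i ∘ (QuotientAddGroup.mk' S),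
    fun i => h87m_comp_inv ((h𝓗Q _).mp (ha i)), fun i => h87m_comp_inv ((h𝓗Q _).mp (hb i)),
    fun x y => ?_⟩
  have h1 := hab (QuotientAddGroup.mk' S x) (QuotientAddGroup.mk' S y)
  rw [← map_add] at h1
  have h2 := congrFun hfac (x + y)
  rw [Function.comp_apply] at h2
  rw [← h2, h1]
  rfl

/-- **Character completeness of the invariant functions.** -/
theorem h87m_inv_char [Finite X] (hact : IsAct act) (𝓗 : FHO p (inertia p) X act)
    (S : AddSubgroup X) (hS : h87mStable act S) (η : X → Om p) (hη0 : η 0 = 1)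
    (hηmul : ∀ x y, η (x + y) = η x * η y) (hηS : ∀ s ∈ S, η s = 1) :
    η ∈ Submodule.span (intOm p) (h87mInv 𝓗 S) := by
  obtain ⟨actQ, 𝓗Q, -, h𝓗Q⟩ := h87m_quot hact 𝓗 S hS
  have hfac : (h87mDesc S η) ∘ (QuotientAddGroup.mk' S) = η := by
    funext x
    obtain ⟨s, hs, hout⟩ := h87m_out_sub S x
    show η (Quotient.out (QuotientAddGroup.mk' S x)) = η x
    rw [hout, hηmul, hηS s hs, mul_one]
  have hQ0 : (h87mDesc S η) 0 = 1 := by
    have := congrFun hfac 0
    rw [Function.comp_apply, map_zero] at this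
    rw [this, hη0]
  have hQmul : ∀ q q' : X ⧸ S, (h87mDesc S η) (q + q')
      = (h87mDesc S η) q * (h87mDesc S η) q' := by
    intro q q'
    obtain ⟨x, rfl⟩ := QuotientAddGroup.mk'_surjective S q
    obtain ⟨x', rfl⟩ := QuotientAddGroup.mk'_surjective S q'
    have h1 := congrFun hfac (x + x')
    have h2 := congrFun hfac x
    have h3 := congrFun hfac x'
    rw [Function.comp_apply] at h1 h2 h3
    rw [← map_add, h1, h2, h3, hηmul]
  have hspan := h15f_charCompleteAll p (inertia p) (X ⧸ S) actQ 𝓗Q _ hQ0 hQmul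
  have key : ∀ g ∈ Submodule.span (intOm p) (𝓗Q.carrier : Set (X ⧸ S → Om p)),
      g ∘ (QuotientAddGroup.mk' S) ∈ Submodule.span (intOm p) (h87mInv 𝓗 S) := by
    intro g hg
    induction hg using Submodule.span_induction with
    | mem g hg => exact Submodule.subset_span (h87m_comp_inv ((h𝓗Q _).mp hg))
    | zero => exact Submodule.zero_mem _
    | add g g' _ _ h h' => exact Submodule.add_mem _ h h'
    | smul c g _ h => exact Submodule.smul_mem _ c h
  have := key _ hspan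
  rwa [hfac] at this

/-- the dictionary for the congruence filtration. -/
theorem h87m_pt_iff {𝓗 : FHO p (inertia p) X act} {S : AddSubgroup X}
    {actQ : Gq p → X ⧸ S → X ⧸ S} {𝓗Q : FHO p (inertia p) (X ⧸ S) actQ}
    (h𝓗Q : ∀ g : X ⧸ S → Om p, g ∈ 𝓗Q.carrier ↔ g ∘ (QuotientAddGroup.mk' S) ∈ 𝓗.carrier)
    (y : X) (t : ℝ) : h87mPt 𝓗 S y t ↔ 𝓗Q.PtLE (QuotientAddGroup.mk' S y) t := by
  constructor
  · intro h g hg
    have := h _ (h87m_comp_inv ((h𝓗Q g).mp hg))
    rwa [Function.comp_apply, Function.comp_apply, map_zero] at this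
  · intro h f hf
    have hfac := h87m_inv_factor hf
    have hg : (h87mDesc S f) ∈ 𝓗Q.carrier := by
      rw [h𝓗Q, hfac]
      exact hf.1
    have h1 := h _ hg
    have h2 := congrFun hfac y
    have h3 := congrFun hfac 0
    rw [Function.comp_apply] at h2 h3
    rw [map_zero] at h3
    rw [← h2, ← h3]
    exact h1

/-- the points `≡ 0` for the invariant functions form a subgroup. -/
theorem h87m_pt_add [Finite X] (hact : IsAct act) (𝓗 : FHO p (inertia p) X act)
    (S : AddSubgroup X) (hS : h87mStable act S) {y y' : X} {t : ℝ}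
    (hy : h87mPt 𝓗 S y t) (hy' : h87mPt 𝓗 S y' t) : h87mPt 𝓗 S (y + y') t := by
  obtain ⟨actQ, 𝓗Q, -, h𝓗Q⟩ := h87m_quot hact 𝓗 S hS
  rw [h87m_pt_iff h𝓗Q] at hy hy' ⊢
  rw [map_add]
  exact (h38f_ptSubgroup p (inertia p) (X ⧸ S) actQ 𝓗Q t).2.1 _ _ hy hy'

theorem h87m_pt_zero (𝓗 : FHO p (inertia p) X act) (S : AddSubgroup X) {t : ℝ} (ht : 0 ≤ t) :
    h87mPt 𝓗 S 0 t := fun f _ => by rw [sub_self, norm_zero]; exact ht

theorem h87m_pt_nsmul [Finite X] (hact : IsAct act) (𝓗 : FHO p (inertia p) X act)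
    (S : AddSubgroup X) (hS : h87mStable act S) {y : X} {t : ℝ} (ht : 0 ≤ t)
    (hy : h87mPt 𝓗 S y t) (n : ℕ) : h87mPt 𝓗 S (n • y) t := by
  induction n with
  | zero => rw [zero_nsmul]; exact h87m_pt_zero 𝓗 S ht
  | succ n ih => rw [succ_nsmul]; exact h87m_pt_add hact 𝓗 S hS ih hy

/-- translation by `S` does not change the congruence class. -/
theorem h87m_pt_add_mem {𝓗 : FHO p (inertia p) X act} {S : AddSubgroup X} {y s : X} {t : ℝ}
    (hs : s ∈ S) : h87mPt 𝓗 S (y + s) t ↔ h87mPt 𝓗 S y t := by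
  constructor
  · intro h f hf
    have := h f hf
    rwa [hf.2 y s hs] at this
  · intro h f hf
    rw [hf.2 y s hs]
    exact h f hf

/-- **Inertia is trivial modulo the points `≡ 0` modulo the maximal ideal.** -/
theorem h87m_inv_inert [Finite X] (hact : IsAct act) (𝓗 : FHO p (inertia p) X act)
    (S : AddSubgroup X) (hS : h87mStable act S) {σ : Gq p} (hσ : σ ∈ inertia p) (x : X) :
    ∃ t : ℝ, t < 1 ∧ h87mPt 𝓗 S (act σ x - x) t := by
  obtain ⟨actQ, 𝓗Q, hπe, h𝓗Q⟩ := h87m_quot hact 𝓗 S hS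
  obtain ⟨t, ht, h⟩ := h87f_inertiaTrivial p (inertia p) (X ⧸ S) actQ 𝓗Q le_rfl σ hσ
    (QuotientAddGroup.mk' S x)
  refine ⟨t, ht, (h87m_pt_iff h𝓗Q _ _).mpr ?_⟩
  rw [map_sub, hπe σ hσ]
  exact h

/-- values of the order are integral. -/
theorem h87m_inv_norm_le {𝓗 : FHO p (inertia p) X act} {S : AddSubgroup X} {f : X → Om p}
    (hf : f ∈ h87mInv 𝓗 S) (x : X) : ‖f x‖ ≤ 1 :=
  h38f_valuesIntegral p (inertia p) X act 𝓗 f hf.1 x

end Fermat.Agent.P6
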