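import Fermat.Agent.P6.H87MultTrace

/-!
# S33 / wave 6, leaf B3 MULT, third route (helper87), part 3: the induction step

`h87mP 𝓗 S` : the Fourier coefficients of the `S`-invariant functions of the order at the
characters trivial on `S` are integral, i.e. `‖∑ x, η (-x) * f x‖ ≤ ‖card X‖`.

* `h87mAv x₀ u` : the average of `u` along the multiples of `x₀`;
* `h87m_av_mem` : the average maps the integral span of the `S`-invariant functions into the
  integral span of the `S ⊔ ℤ x₀`-invariant functions (trace bound);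
* `h87m_step` : `h87mP 𝓗 (S ⊔ ℤ x₀) → h87mP 𝓗 S`.
-/

set_option autoImplicit false
set_option linter.unusedSectionVars false
set_option linter.style.haveILetI false

open Fermat.Agent.PT.Loc Fermat.Agent.S56F

noncomputable section

namespace Fermat.Agent.P6

variable {p : ℕ} [Fact p.Prime] {X : Type} [AddCommGroup X] {act : Gq p → X → X}

/-- Integrality of the Fourier coefficients of the `S`-invariant functions. -/
def h87mP [Fintype X] (𝓗 : FHO p (inertia p) X act) (S : AddSubgroup X) : Prop :=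
  ∀ f ∈ h87mInv 𝓗 S, ∀ η : X → Om p, η 0 = 1 → (∀ x y, η (x + y) = η x * η y) →
    (∀ s ∈ S, η s = 1) → ‖∑ x : X, η (-x) * f x‖ ≤ ‖((Fintype.card X : ℕ) : Om p)‖

/-- The average along the multiples of `x₀`. -/
def h87mAv (x₀ : X) (u : X → Om p) : X → Om p :=
  fun x => ((p : ℕ) : Om p)⁻¹ * ∑ c : ZMod p, u (x + c.val • x₀)

theorem h87mAv_add (x₀ : X) (u v : X → Om p) :
    h87mAv x₀ (u + v) = h87mAv x₀ u + h87mAv x₀ v := by
  funext x
  show ((p : ℕ) : Om p)⁻¹ * ∑ c : ZMod p, (u + v) (x + c.val • x₀) = _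
  simp only [Pi.add_apply, Finset.sum_add_distrib, mul_add]
  rfl

theorem h87mAv_smul (x₀ : X) (c : intOm p) (u : X → Om p) :
    h87mAv x₀ (c • u) = c • h87mAv x₀ u := by
  funext x
  have h1 : h87mAv x₀ (c • u) x
      = ((p : ℕ) : Om p)⁻¹ * ∑ d : ZMod p, (c : Om p) * u (x + d.val • x₀) := rfl
  have h2 : (c • h87mAv x₀ u) x
      = (c : Om p) * (((p : ℕ) : Om p)⁻¹ * ∑ d : ZMod p, u (x + d.val • x₀)) := rfl
  rw [h1, h2, ← Finset.mul_sum]
  ring

theorem h87mAv_zero (x₀ : X) : h87mAv x₀ (0 : X → Om p) = 0 := by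
  funext x
  show ((p : ℕ) : Om p)⁻¹ * ∑ c : ZMod p, (0 : X → Om p) (x + c.val • x₀) = 0
  simp

theorem h87m_p_ne_zero : ((p : ℕ) : Om p) ≠ 0 := by
  have hp : p.Prime := Fact.out
  exact_mod_cast hp.ne_zero

/-- the average does not change the total sum. -/
theorem h87m_sum_av [Fintype X] (x₀ : X) (u : X → Om p) :
    ∑ x : X, h87mAv x₀ u x = ∑ x : X, u x := by
  unfold h87mAv
  rw [← Finset.mul_sum, Finset.sum_comm]
  have h1 : ∀ c : ZMod p, ∑ x : X, u (x + c.val • x₀) = ∑ x : X, u x := fun c =>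
    Fintype.sum_equiv (Equiv.addRight (c.val • x₀)) _ _ fun x => rfl
  rw [Finset.sum_congr rfl fun c _ => h1 c, Finset.sum_const, Finset.card_univ, ZMod.card,
    nsmul_eq_mul, ← mul_assoc, inv_mul_cancel₀ h87m_p_ne_zero, one_mul]

/-- the average of an `S`-invariant function is invariant under `x₀`. -/
theorem h87m_av_inv_x₀ {S : AddSubgroup X} {x₀ : X} (hx₀ : p • x₀ ∈ S) {u : X → Om p}
    (hu : h87mIsInv S u) (x : X) : h87mAv x₀ u (x + x₀) = h87mAv x₀ u x := by
  unfold h87mAv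
  congr 1
  have h1 : ∀ c : ZMod p, u (x + x₀ + c.val • x₀) = u (x + (c + 1).val • x₀) := by
    intro c
    have h2 : x + x₀ + c.val • x₀ = x + (c.val + 1) • x₀ := by
      rw [succ_nsmul]
      abel
    rw [h2, h87m_per hx₀ hu]
    congr 3
    rw [Nat.cast_add, Nat.cast_one, ZMod.natCast_zmod_val]
  rw [Finset.sum_congr rfl fun c _ => h1 c]
  exact Fintype.sum_equiv (Equiv.addRight (1 : ZMod p)) _ _ fun c => rfl

theorem h87m_av_inv_S {S : AddSubgroup X} {x₀ : X} {u : X → Om p}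
    (hu : h87mIsInv S u) (x : X) {s : X} (hs : s ∈ S) :
    h87mAv x₀ u (x + s) = h87mAv x₀ u x := by
  unfold h87mAv
  congr 1
  refine Finset.sum_congr rfl fun c _ => ?_
  have h2 : x + s + c.val • x₀ = x + c.val • x₀ + s := by abel
  rw [h2, hu _ _ hs]

/-- the stabiliser of a function under translations. -/
def h87mStab (u : X → Om p) : AddSubgroup X where
  carrier := {s | ∀ x, u (x + s) = u x}
  zero_mem' := fun x => by rw [add_zero]
  add_mem' := fun {a b} ha hb x => by rw [← add_assoc, hb, ha]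
  neg_mem' := fun {a} ha x => by
    have := ha (x + -a)
    rw [add_assoc, neg_add_cancel, add_zero] at this
    exact this.symm

/-- the average of an `S`-invariant function is `S ⊔ ℤ x₀`-invariant. -/
theorem h87m_av_isInv {S : AddSubgroup X} {x₀ : X} (hx₀ : p • x₀ ∈ S) {u : X → Om p}
    (hu : h87mIsInv S u) : h87mIsInv (S ⊔ AddSubgroup.zmultiples x₀) (h87mAv x₀ u) := by
  have h1 : S ⊔ AddSubgroup.zmultiples x₀ ≤ h87mStab (h87mAv x₀ u) := by
    refine sup_le (fun s hs x => h87m_av_inv_S hu x hs) ?_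
    rw [AddSubgroup.zmultiples_le]
    exact fun x => h87m_av_inv_x₀ hx₀ hu x
  exact fun x s hs => h1 hs x

/-- **The average of an invariant function of the order** is an invariant function of the order
for the larger subgroup. -/
theorem h87m_av_gen [Finite X] (hact : IsAct act) (𝓗 : FHO p (inertia p) X act)
    {S : AddSubgroup X} (hS : h87mStable act S) {x₀ : X} (hx₀ : p • x₀ ∈ S)
    (hcyc : ∀ σ ∈ inertia p, ∃ e : ℕ, ¬ p ∣ e ∧ act σ x₀ - e • x₀ ∈ S)
    {t : ℝ} (ht : t < 1) (hconn : h87mPt 𝓗 S x₀ t)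
    {f : X → Om p} (hf : f ∈ h87mInv 𝓗 S) :
    h87mAv x₀ f ∈ h87mInv 𝓗 (S ⊔ AddSubgroup.zmultiples x₀) := by
  refine ⟨?_, h87m_av_isInv hx₀ hf.2⟩
  obtain ⟨n, a, b, ha, hb, hab⟩ := h87m_inv_comul hact 𝓗 S hS hf
  -- the coefficients
  have hβ : ∀ i, ((p : ℕ) : Om p)⁻¹ * h87mT x₀ (b i) ∈ fixInt p (inertia p) := by
    intro i
    refine ⟨?_, fun σ hσ => ?_⟩
    · rw [norm_mul, norm_inv]
      have h1 := h87m_T_le_gen hact 𝓗 hS hx₀ hcyc ht hconn (hb i)
      have h2 : 0 < ‖((p : ℕ) : Om p)‖ := norm_pos_iff.mpr h87m_p_ne_zero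
      rw [inv_mul_le_iff₀ h2, mul_one]
      exact h1
    · rw [map_mul, map_inv₀, map_natCast, h87m_T_fixed hact 𝓗 hx₀ hcyc (hb i) hσ]
  have heq : h87mAv x₀ f
      = ∑ i, (⟨((p : ℕ) : Om p)⁻¹ * h87mT x₀ (b i), hβ i⟩ : fixInt p (inertia p)) • a i := by
    funext x
    rw [Finset.sum_apply]
    simp only [Pi.smul_apply, Subring.smul_def, smul_eq_mul]
    show ((p : ℕ) : Om p)⁻¹ * ∑ c : ZMod p, f (x + c.val • x₀) = _
    unfold h87mT
    simp only [hab, Finset.mul_sum, Finset.sum_mul]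
    rw [Finset.sum_comm]
    refine Finset.sum_congr rfl fun i _ => Finset.sum_congr rfl fun c _ => ?_
    ring
  rw [heq]
  exact Subalgebra.sum_mem _ fun i _ => Subalgebra.smul_mem _ (ha i).1 _

/-- **The average** maps the integral span of the `S`-invariant functions into the integral
span of the `S ⊔ ℤ x₀`-invariant functions. -/
theorem h87m_av_mem [Finite X] (hact : IsAct act) (𝓗 : FHO p (inertia p) X act)
    {S : AddSubgroup X} (hS : h87mStable act S) {x₀ : X} (hx₀ : p • x₀ ∈ S)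
    (hcyc : ∀ σ ∈ inertia p, ∃ e : ℕ, ¬ p ∣ e ∧ act σ x₀ - e • x₀ ∈ S)
    {t : ℝ} (ht : t < 1) (hconn : h87mPt 𝓗 S x₀ t)
    {u : X → Om p} (hu : u ∈ Submodule.span (intOm p) (h87mInv 𝓗 S)) :
    h87mAv x₀ u ∈ Submodule.span (intOm p)
      (h87mInv 𝓗 (S ⊔ AddSubgroup.zmultiples x₀)) := by
  induction hu using Submodule.span_induction with
  | mem f hf => exact Submodule.subset_span (h87m_av_gen hact 𝓗 hS hx₀ hcyc ht hconn hf)
  | zero => rw [h87mAv_zero]; exact Submodule.zero_mem _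
  | add f g _ _ hf hg => rw [h87mAv_add]; exact Submodule.add_mem _ hf hg
  | smul c f _ hf => rw [h87mAv_smul]; exact Submodule.smul_mem _ c hf

/-- the bound of `h87mP` at the trivial character, on the integral span. -/
theorem h87m_P_span [Fintype X] (𝓗 : FHO p (inertia p) X act) {S : AddSubgroup X}
    (hP : h87mP 𝓗 S) {u : X → Om p} (hu : u ∈ Submodule.span (intOm p) (h87mInv 𝓗 S)) :
    ‖∑ x : X, u x‖ ≤ ‖((Fintype.card X : ℕ) : Om p)‖ := by
  induction hu using Submodule.span_induction with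
  | mem f hf =>
    have := hP f hf (fun _ => 1) rfl (fun _ _ => (one_mul _).symm) (fun _ _ => rfl)
    simpa using this
  | zero => simp
  | add f g _ _ hf hg =>
    simp only [Pi.add_apply, Finset.sum_add_distrib]
    exact (IsUltrametricDist.norm_add_le_max _ _).trans (max_le hf hg)
  | smul c f _ hf =>
    simp only [Pi.smul_apply, Subring.smul_def, smul_eq_mul]
    rw [← Finset.mul_sum, norm_mul]
    calc ‖(c : Om p)‖ * ‖∑ x : X, f x‖ ≤ 1 * ‖((Fintype.card X : ℕ) : Om p)‖ :=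
          mul_le_mul c.2.1 hf (norm_nonneg _) zero_le_one
      _ = _ := one_mul _

/-- **The induction step.** -/
theorem h87m_step [Fintype X] (hact : IsAct act) (𝓗 : FHO p (inertia p) X act)
    {S : AddSubgroup X} (hS : h87mStable act S) {x₀ : X} (hx₀ : p • x₀ ∈ S)
    (hcyc : ∀ σ ∈ inertia p, ∃ e : ℕ, ¬ p ∣ e ∧ act σ x₀ - e • x₀ ∈ S)
    {t : ℝ} (ht : t < 1) (hconn : h87mPt 𝓗 S x₀ t)
    (hP : h87mP 𝓗 (S ⊔ AddSubgroup.zmultiples x₀)) : h87mP 𝓗 S := by
  intro f hf η hη0 hηmul hηS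
  -- the inverse character
  have hη' : (fun x => η (-x)) ∈ Submodule.span (intOm p) (h87mInv 𝓗 S) := by
    refine h87m_inv_char hact 𝓗 S hS _ ?_ ?_ ?_
    · show η (-0) = 1
      rw [neg_zero, hη0]
    · intro x y
      show η (-(x + y)) = η (-x) * η (-y)
      rw [neg_add, hηmul]
    · intro s hs
      exact hηS _ (S.neg_mem hs)
  have hw : (fun x => η (-x)) * f ∈ Submodule.span (intOm p) (h87mInv 𝓗 S) :=
    h87m_span_mul 𝓗 S hη' (Submodule.subset_span hf)
  have h1 := h87m_P_span 𝓗 hP (h87m_av_mem hact 𝓗 hS hx₀ hcyc ht hconn hw)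
  rw [h87m_sum_av] at h1
  exact h1

end Fermat.Agent.P6
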