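import Fermat.Agent.P6.H87MultQuot

/-!
# S33 / wave 6, leaf B3 MULT, third route (helper87), part 2: the trace bound

`S` an inertia-stable subgroup of `X`, `x₀ : X` with `p • x₀ ∈ S` on which inertia acts by
exponents prime to `p` modulo `S`, and `x₀ ≡ 0` modulo the maximal ideal for the `S`-invariant
functions.

* `h87mT x₀ u = ∑ c : ZMod p, u (c.val • x₀)`;
* `h87m_per` : periodicity of invariant functions along `x₀`;
* `h87m_T_fixed` : for an invariant function of the order the sum is fixed by inertia;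
* `h87m_T_le` : **trace bound**, `‖h87mT x₀ u‖ ≤ ‖p‖` for `u` in the integral span of the
  invariant functions.
-/

set_option autoImplicit false
set_option linter.unusedSectionVars false
set_option linter.style.haveILetI false

open Fermat.Agent.PT.Loc Fermat.Agent.S56F

noncomputable section

namespace Fermat.Agent.P6

variable {p : ℕ} [Fact p.Prime] {X : Type} [AddCommGroup X] {act : Gq p → X → X}

/-- The sum along the multiples of `x₀`. -/
def h87mT (x₀ : X) (u : X → Om p) : Om p := ∑ c : ZMod p, u (c.val • x₀)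

theorem h87mT_add (x₀ : X) (u v : X → Om p) : h87mT x₀ (u + v) = h87mT x₀ u + h87mT x₀ v := by
  unfold h87mT
  rw [← Finset.sum_add_distrib]
  rfl

theorem h87mT_smul (x₀ : X) (c : intOm p) (u : X → Om p) :
    h87mT x₀ (c • u) = (c : Om p) * h87mT x₀ u := by
  unfold h87mT
  rw [Finset.mul_sum]
  refine Finset.sum_congr rfl fun i _ => ?_
  rw [Pi.smul_apply, Subring.smul_def, smul_eq_mul]

theorem h87mT_zero (x₀ : X) : h87mT x₀ (0 : X → Om p) = 0 := by
  unfold h87mT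
  simp

/-- a function is invariant under translation by `S`. -/
def h87mIsInv (S : AddSubgroup X) (u : X → Om p) : Prop := ∀ x, ∀ s ∈ S, u (x + s) = u x

/-- **Periodicity** along `x₀` of an `S`-invariant function, `p • x₀ ∈ S`. -/
theorem h87m_per {S : AddSubgroup X} {x₀ : X} (hx₀ : p • x₀ ∈ S) {u : X → Om p}
    (hu : h87mIsInv S u) (x : X) (n : ℕ) :
    u (x + n • x₀) = u (x + ((n : ZMod p)).val • x₀) := by
  rw [ZMod.val_natCast]
  have h1 : n • x₀ = (n % p) • x₀ + (n / p) • (p • x₀) := by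
    rw [← mul_nsmul, ← add_nsmul, Nat.mod_add_div]
  rw [h1, ← add_assoc]
  exact hu _ _ (S.nsmul_mem hx₀ _)

theorem h87m_per' {S : AddSubgroup X} {x₀ : X} (hx₀ : p • x₀ ∈ S) {u : X → Om p}
    (hu : h87mIsInv S u) (n : ℕ) :
    u (n • x₀) = u (((n : ZMod p)).val • x₀) := by
  have := h87m_per hx₀ hu 0 n
  rwa [zero_add, zero_add] at this

/-- discreteness of the inertia field: a fixed integer of norm `< 1` has norm `≤ ‖p‖`. -/
theorem h87m_disc {A : Om p} (hA : A ∈ fixInt p (inertia p)) (hA1 : ‖A‖ < 1) :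
    ‖A‖ ≤ ‖((p : ℕ) : Om p)‖ := by
  obtain ⟨-, hp1, -, hdisc⟩ := h45f_inertiaDiscrete p
  by_cases h0 : A = 0
  · rw [h0, norm_zero]
    exact norm_nonneg _
  obtain ⟨n, u, -, hu, rfl⟩ := hdisc A hA h0
  rw [norm_mul, norm_pow, hu, mul_one] at hA1 ⊢
  rcases Nat.eq_zero_or_pos n with hn | hn
  · rw [hn, pow_zero] at hA1
    exact absurd hA1 (lt_irrefl _)
  · calc ‖((p : ℕ) : Om p)‖ ^ n ≤ ‖((p : ℕ) : Om p)‖ ^ 1 :=
          pow_le_pow_of_le_one (norm_nonneg _) hp1.le hn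
      _ = ‖((p : ℕ) : Om p)‖ := pow_one _

theorem h87m_norm_p_lt_one : ‖((p : ℕ) : Om p)‖ < 1 := (h45f_inertiaDiscrete p).2.1

/-- the sum of an invariant function of the order is fixed by inertia. -/
theorem h87m_T_fixed (hact : IsAct act) (𝓗 : FHO p (inertia p) X act) {S : AddSubgroup X}
    {x₀ : X} (hx₀ : p • x₀ ∈ S)
    (hcyc : ∀ σ ∈ inertia p, ∃ e : ℕ, ¬ p ∣ e ∧ act σ x₀ - e • x₀ ∈ S)
    {f : X → Om p} (hf : f ∈ h87mInv 𝓗 S) {σ : Gq p} (hσ : σ ∈ inertia p) :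
    σ (h87mT x₀ f) = h87mT x₀ f := by
  obtain ⟨e, he, hes⟩ := hcyc σ hσ
  have hē : ((e : ℕ) : ZMod p) ≠ 0 := by
    intro h
    exact he ((ZMod.natCast_eq_zero_iff e p).mp h)
  unfold h87mT
  rw [map_sum]
  have h1 : ∀ c : ZMod p, σ (f (c.val • x₀)) = f ((c * (e : ZMod p)).val • x₀) := by
    intro c
    rw [← 𝓗.equivariant f hf.1 σ hσ, h24e_act_nsmul hact]
    have h2 : act σ x₀ = e • x₀ + (act σ x₀ - e • x₀) := by abel
    rw [h2, nsmul_add, hf.2 _ _ (S.nsmul_mem hes _), ← mul_nsmul', h87m_per' hx₀ hf.2]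
    congr 3
    rw [Nat.cast_mul, ZMod.natCast_zmod_val]
  rw [Finset.sum_congr rfl fun c _ => h1 c]
  exact Fintype.sum_equiv (Equiv.mulRight₀ ((e : ℕ) : ZMod p) hē) _ _ fun c => rfl

/-- **Trace bound**, generators. -/
theorem h87m_T_le_gen [Finite X] (hact : IsAct act) (𝓗 : FHO p (inertia p) X act)
    {S : AddSubgroup X} (hS : h87mStable act S) {x₀ : X} (hx₀ : p • x₀ ∈ S)
    (hcyc : ∀ σ ∈ inertia p, ∃ e : ℕ, ¬ p ∣ e ∧ act σ x₀ - e • x₀ ∈ S)
    {t : ℝ} (ht : t < 1) (hconn : h87mPt 𝓗 S x₀ t)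
    {f : X → Om p} (hf : f ∈ h87mInv 𝓗 S) : ‖h87mT x₀ f‖ ≤ ‖((p : ℕ) : Om p)‖ := by
  have ht0 : 0 ≤ t := (norm_nonneg _).trans (hconn 1 (h87m_inv_one 𝓗 S))
  have hsplit : h87mT x₀ f = ∑ c : ZMod p, (f (c.val • x₀) - f 0) + ((p : ℕ) : Om p) * f 0 := by
    unfold h87mT
    rw [Finset.sum_sub_distrib, Finset.sum_const, Finset.card_univ, ZMod.card, nsmul_eq_mul]
    ring
  have h1 : ‖∑ c : ZMod p, (f (c.val • x₀) - f 0)‖ ≤ t :=
    IsUltrametricDist.norm_sum_le_of_forall_le_of_nonneg ht0 fun c _ =>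
      h87m_pt_nsmul hact 𝓗 S hS ht0 hconn c.val f hf
  have h2 : ‖((p : ℕ) : Om p) * f 0‖ ≤ ‖((p : ℕ) : Om p)‖ := by
    rw [norm_mul]
    calc ‖((p : ℕ) : Om p)‖ * ‖f 0‖ ≤ ‖((p : ℕ) : Om p)‖ * 1 :=
          mul_le_mul_of_nonneg_left (h87m_inv_norm_le hf 0) (norm_nonneg _)
      _ = _ := mul_one _
  have hlt : ‖h87mT x₀ f‖ < 1 := by
    rw [hsplit]
    refine lt_of_le_of_lt (IsUltrametricDist.norm_add_le_max _ _) (max_lt ?_ ?_)
    · exact lt_of_le_of_lt h1 ht
    · exact lt_of_le_of_lt h2 h87m_norm_p_lt_one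
  refine h87m_disc ⟨hlt.le, fun σ hσ => h87m_T_fixed hact 𝓗 hx₀ hcyc hf hσ⟩ hlt

/-- **Trace bound** on the integral span of the invariant functions. -/
theorem h87m_T_le [Finite X] (hact : IsAct act) (𝓗 : FHO p (inertia p) X act)
    {S : AddSubgroup X} (hS : h87mStable act S) {x₀ : X} (hx₀ : p • x₀ ∈ S)
    (hcyc : ∀ σ ∈ inertia p, ∃ e : ℕ, ¬ p ∣ e ∧ act σ x₀ - e • x₀ ∈ S)
    {t : ℝ} (ht : t < 1) (hconn : h87mPt 𝓗 S x₀ t)
    {u : X → Om p} (hu : u ∈ Submodule.span (intOm p) (h87mInv 𝓗 S)) :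
    ‖h87mT x₀ u‖ ≤ ‖((p : ℕ) : Om p)‖ := by
  induction hu using Submodule.span_induction with
  | mem f hf => exact h87m_T_le_gen hact 𝓗 hS hx₀ hcyc ht hconn hf
  | zero => rw [h87mT_zero, norm_zero]; exact norm_nonneg _
  | add f g _ _ hf hg =>
    rw [h87mT_add]
    exact (IsUltrametricDist.norm_add_le_max _ _).trans (max_le hf hg)
  | smul c f _ hf =>
    rw [h87mT_smul, norm_mul]
    calc ‖(c : Om p)‖ * ‖h87mT x₀ f‖ ≤ 1 * ‖((p : ℕ) : Om p)‖ :=
          mul_le_mul c.2.1 hf (norm_nonneg _) zero_le_one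
      _ = _ := one_mul _

/-- the integral span of the invariant functions is stable under multiplication. -/
theorem h87m_span_mul (𝓗 : FHO p (inertia p) X act) (S : AddSubgroup X) {u v : X → Om p}
    (hu : u ∈ Submodule.span (intOm p) (h87mInv 𝓗 S))
    (hv : v ∈ Submodule.span (intOm p) (h87mInv 𝓗 S)) :
    u * v ∈ Submodule.span (intOm p) (h87mInv 𝓗 S) := by
  induction hu using Submodule.span_induction with
  | mem f hf =>
    induction hv using Submodule.span_induction with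
    | mem g hg => exact Submodule.subset_span (h87m_inv_mul hf hg)
    | zero => rw [mul_zero]; exact Submodule.zero_mem _
    | add g g' _ _ h h' => rw [mul_add]; exact Submodule.add_mem _ h h'
    | smul c g _ h => rw [mul_smul_comm]; exact Submodule.smul_mem _ c h
  | zero => rw [zero_mul]; exact Submodule.zero_mem _
  | add f f' _ _ h h' => rw [add_mul]; exact Submodule.add_mem _ h h'
  | smul c f _ h => rw [smul_mul_assoc]; exact Submodule.smul_mem _ c h

end Fermat.Agent.P6
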