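import Mathlib

/-!
# P6 (S33, block B2-TOR): rigidity at a node (helper88) — abstract, Mathlib only

`A` a valuation ring (a domain), `F` a field over `A`, `W₁, W₂ ⊆ F` two subrings (the two Gauss
valuation rings through a node of the special fibre), `O ⊆ W₁ ∩ W₂` a subring (the local ring of
the model at the node), `x, y ∈ O` with `x y = a`, `a ∈ 𝔪_A` nonzero, `x` a unit of `W₁` and `y`
a unit of `W₂`.  Only two properties of `O` are used (structure `H88nNode`):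

* `hsat` (saturation, = QEP): `f ∈ W₁ ∩ W₂`, `δ f ∈ O` for a nonzero constant `δ` ⟹ `f ∈ O`;
* `hloc` (locality, both components pass through the node): `e₁, e₂ ∈ O`, `e₁ ∈ 𝔪_A W₁`,
  `e₂ ∈ 𝔪_A W₂` ⟹ `e₁ + e₂ ≠ 1`.

Results.

* `h88n_locality` : `f₁ + f₂ = 1`, `f₁ ∈ 𝔪_A W₁`, `f₂ ∈ 𝔪_A W₂`, `δ f₁ ∈ O` is impossible.
* `h88n_poly` (**POLY-INDEP**): if `∑_{n<N} t_n x^n = j₁ + j₂` with `j₁ ∈ O ∩ π W₁` and
  `j₂ ∈ π' W₂`, then for every `n < N`: `π ∣ t_n` or `π' ∣ t_n a^n`.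
* `h88n_gauss₁` : a polynomial in `x` with coefficients in `A` which lies in `π W₁` has all its
  coefficients divisible by `π`.
* `h88n_birkhoff` : `∑_j s_j x^{-(j+1)} ∈ O + π W₁` ⟹ `π ∣ s_j` or `a^{j+1} ∣ s_j`.
* `h88n_rigid` (**Liouville at the node**): if `G ∈ O + π (W₁ ∩ W₂)` is, modulo `π W₁`, a
  polynomial in `x⁻¹` with constant term `c₁`, and, modulo `π W₂`, a polynomial in `y⁻¹` with
  constant term `c₂` (coefficients in `A`), then all the non-constant coefficients and `c₁ - c₂`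
  are divisible by `π`; hence `G ≡ c₁` modulo `π W₁` and modulo `π W₂`
  (`h88n_rigid_mem₁`, `h88n_rigid_mem₂`).

Use (deep local datum of a torsion class at a node): for `z ≡ 1 mod π (W₁ ∩ W₂)` with
`z = g ^ r * u`, `g = ∏ (x - β_i) ^ (n_i)`, `u ∈ O^×`, the function `G = g ^ (-r) = u z⁻¹` is in
`O + π (W₁ ∩ W₂)` and has the two expansions with `c₁ = 1`, `c₂ = B ^ (-r)`,
`B = ∏ (-β_i) ^ (n_i)`; so `g ^ r ≡ 1` at `W₁`, `g ^ r ≡ B ^ r` at `W₂` and `B ^ r ≡ 1`.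
-/

set_option autoImplicit false
set_option linter.unusedSectionVars false
set_option linter.unusedVariables false

open IsLocalRing Finset

namespace Fermat.Agent.P6

section Sets

variable {A : Type*} [CommRing A] [IsDomain A] [ValuationRing A]
  {F : Type*} [Field F] [Algebra A F]

/-- the set `π W`. -/
def h88nMul (π : A) (W : Subring F) : Set F :=
  {f | ∃ z ∈ W, f = algebraMap A F π * z}

/-- the set `𝔪_A W`. -/
def h88nM (A : Type*) [CommRing A] [IsDomain A] [ValuationRing A] {F : Type*} [Field F]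
    [Algebra A F] (W : Subring F) : Set F :=
  {f | ∃ d ∈ maximalIdeal A, ∃ z ∈ W, f = algebraMap A F d * z}

variable {W : Subring F} {π : A}

theorem h88nMul_zero : (0 : F) ∈ h88nMul π W := ⟨0, W.zero_mem, by simp⟩

theorem h88nMul_add {f g : F} (hf : f ∈ h88nMul π W) (hg : g ∈ h88nMul π W) :
    f + g ∈ h88nMul π W := by
  obtain ⟨z, hz, rfl⟩ := hf
  obtain ⟨z', hz', rfl⟩ := hg
  exact ⟨z + z', W.add_mem hz hz', by ring⟩

theorem h88nMul_neg {f : F} (hf : f ∈ h88nMul π W) : -f ∈ h88nMul π W := by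
  obtain ⟨z, hz, rfl⟩ := hf
  exact ⟨-z, W.neg_mem hz, by ring⟩

theorem h88nMul_sub {f g : F} (hf : f ∈ h88nMul π W) (hg : g ∈ h88nMul π W) :
    f - g ∈ h88nMul π W := by
  rw [sub_eq_add_neg]; exact h88nMul_add hf (h88nMul_neg hg)

theorem h88nMul_mul {f z : F} (hf : f ∈ h88nMul π W) (hz : z ∈ W) : f * z ∈ h88nMul π W := by
  obtain ⟨w, hw, rfl⟩ := hf
  exact ⟨w * z, W.mul_mem hw hz, by ring⟩

theorem h88nMul_mul_left {f z : F} (hf : f ∈ h88nMul π W) (hz : z ∈ W) :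
    z * f ∈ h88nMul π W := by
  rw [mul_comm]; exact h88nMul_mul hf hz

theorem h88nMul_of_dvd (hAW : ∀ c : A, algebraMap A F c ∈ W) {c : A} (h : π ∣ c) {z : F}
    (hz : z ∈ W) : algebraMap A F c * z ∈ h88nMul π W := by
  obtain ⟨e, rfl⟩ := h
  exact ⟨algebraMap A F e * z, W.mul_mem (hAW e) hz, by rw [map_mul]; ring⟩

theorem h88nMul_sum {ι : Type*} (S : Finset ι) (f : ι → F)
    (h : ∀ i ∈ S, f i ∈ h88nMul π W) : ∑ i ∈ S, f i ∈ h88nMul π W := by
  classical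
  induction S using Finset.induction_on with
  | empty => simpa using h88nMul_zero
  | insert i S hi ih =>
    rw [Finset.sum_insert hi]
    exact h88nMul_add (h i (Finset.mem_insert_self _ _))
      (ih fun k hk => h k (Finset.mem_insert_of_mem hk))

theorem h88nM_zero : (0 : F) ∈ h88nM A W :=
  ⟨0, (maximalIdeal A).zero_mem, 0, W.zero_mem, by simp⟩

theorem h88nM_of {d : A} (hd : d ∈ maximalIdeal A) {z : F} (hz : z ∈ W) :
    algebraMap A F d * z ∈ h88nM A W := ⟨d, hd, z, hz, rfl⟩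

theorem h88nM_add (hAW : ∀ c : A, algebraMap A F c ∈ W) {f g : F} (hf : f ∈ h88nM A W)
    (hg : g ∈ h88nM A W) : f + g ∈ h88nM A W := by
  obtain ⟨d₁, hd₁, z₁, hz₁, rfl⟩ := hf
  obtain ⟨d₂, hd₂, z₂, hz₂, rfl⟩ := hg
  rcases ValuationRing.dvd_total d₁ d₂ with ⟨e, rfl⟩ | ⟨e, rfl⟩
  · exact ⟨d₁, hd₁, z₁ + algebraMap A F e * z₂,
      W.add_mem hz₁ (W.mul_mem (hAW e) hz₂), by rw [map_mul]; ring⟩
  · exact ⟨d₂, hd₂, algebraMap A F e * z₁ + z₂,
      W.add_mem (W.mul_mem (hAW e) hz₁) hz₂, by rw [map_mul]; ring⟩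

theorem h88nM_neg {f : F} (hf : f ∈ h88nM A W) : -f ∈ h88nM A W := by
  obtain ⟨d, hd, z, hz, rfl⟩ := hf
  exact ⟨d, hd, -z, W.neg_mem hz, by ring⟩

theorem h88nM_sub (hAW : ∀ c : A, algebraMap A F c ∈ W) {f g : F} (hf : f ∈ h88nM A W)
    (hg : g ∈ h88nM A W) : f - g ∈ h88nM A W := by
  rw [sub_eq_add_neg]; exact h88nM_add hAW hf (h88nM_neg hg)

theorem h88nM_sum (hAW : ∀ c : A, algebraMap A F c ∈ W) {ι : Type*} (S : Finset ι)
    (f : ι → F) (h : ∀ i ∈ S, f i ∈ h88nM A W) : ∑ i ∈ S, f i ∈ h88nM A W := by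
  classical
  induction S using Finset.induction_on with
  | empty => simpa using h88nM_zero
  | insert i S hi ih =>
    rw [Finset.sum_insert hi]
    exact h88nM_add hAW (h i (Finset.mem_insert_self _ _))
      (ih fun k hk => h k (Finset.mem_insert_of_mem hk))

theorem h88nM_mem (hAW : ∀ c : A, algebraMap A F c ∈ W) {f : F} (hf : f ∈ h88nM A W) :
    f ∈ W := by
  obtain ⟨d, -, z, hz, rfl⟩ := hf
  exact W.mul_mem (hAW d) hz

/-- in a valuation ring, `¬ π ∣ t` gives `π = t μ` with `μ ∈ 𝔪_A`. -/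
theorem h88n_exists_of_not_dvd {π t : A} (h : ¬ π ∣ t) :
    ∃ μ ∈ maximalIdeal A, π = t * μ := by
  rcases ValuationRing.dvd_total π t with h1 | ⟨μ, hμ⟩
  · exact absurd h1 h
  · refine ⟨μ, ?_, hμ⟩
    rw [mem_maximalIdeal, mem_nonunits_iff]
    intro hu
    apply h
    obtain ⟨v, hv⟩ := hu.exists_right_inv
    exact ⟨v, by rw [hμ, mul_assoc, hv, mul_one]⟩

/-- an extremal index: `f m` divides all `f n`, `n ∈ S`, and `m` is the largest index with
this property. -/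
theorem h88n_exists_extremal (f : ℕ → A) (S : Finset ℕ) (hS : S.Nonempty) :
    ∃ m ∈ S, ∀ n ∈ S, f m ∣ f n ∧ (f n ∣ f m → n ≤ m) := by
  classical
  induction S using Finset.induction_on with
  | empty => exact absurd hS Finset.not_nonempty_empty
  | insert k S hk ih =>
    rcases S.eq_empty_or_nonempty with rfl | hne
    · exact ⟨k, by simp, by simp⟩
    · obtain ⟨m, hm, hmax⟩ := ih hne
      by_cases h1 : f m ∣ f k
      · by_cases h2 : f k ∣ f m
        · rcases le_total k m with hkm | hmk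
          · refine ⟨m, Finset.mem_insert_of_mem hm, fun n hn => ?_⟩
            rcases Finset.mem_insert.mp hn with rfl | hn
            · exact ⟨h1, fun _ => hkm⟩
            · exact hmax n hn
          · refine ⟨k, Finset.mem_insert_self _ _, fun n hn => ?_⟩
            rcases Finset.mem_insert.mp hn with rfl | hn
            · exact ⟨dvd_rfl, fun _ => le_rfl⟩
            · refine ⟨h2.trans (hmax n hn).1, fun h => ?_⟩
              exact ((hmax n hn).2 (h.trans h2)).trans hmk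
        · refine ⟨m, Finset.mem_insert_of_mem hm, fun n hn => ?_⟩
          rcases Finset.mem_insert.mp hn with rfl | hn
          · exact ⟨h1, fun h => absurd h h2⟩
          · exact hmax n hn
      · have h2 : f k ∣ f m := (ValuationRing.dvd_total (f m) (f k)).resolve_left h1
        refine ⟨k, Finset.mem_insert_self _ _, fun n hn => ?_⟩
        rcases Finset.mem_insert.mp hn with rfl | hn
        · exact ⟨dvd_rfl, fun _ => le_rfl⟩
        · refine ⟨h2.trans (hmax n hn).1, fun h => ?_⟩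
          exact absurd ((hmax n hn).1.trans h) h1

end Sets

section Node

variable {A : Type*} [CommRing A] [IsDomain A] [ValuationRing A]
  {F : Type*} [Field F] [Algebra A F]

/-- **the local datum of a node**: `O ⊆ W₁ ∩ W₂` saturated, local (in the sense `hloc`),
`x y = a`, `x` a unit of `W₁`, `y` a unit of `W₂`. -/
structure H88nNode (O W₁ W₂ : Subring F) (x y : F) (a : A) : Prop where
  hAF : Function.Injective (algebraMap A F)
  hAO : ∀ c : A, algebraMap A F c ∈ O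
  hO₁ : ∀ f ∈ O, f ∈ W₁
  hO₂ : ∀ f ∈ O, f ∈ W₂
  hsat : ∀ δ : A, δ ≠ 0 → ∀ f : F, f ∈ W₁ → f ∈ W₂ → algebraMap A F δ * f ∈ O → f ∈ O
  hloc : ∀ e₁ ∈ O, ∀ e₂ ∈ O, e₁ ∈ h88nM A W₁ → e₂ ∈ h88nM A W₂ → e₁ + e₂ ≠ 1
  hx : x ∈ O
  hy : y ∈ O
  hxy : x * y = algebraMap A F a
  ha : a ∈ maximalIdeal A
  ha0 : a ≠ 0
  hxW : x⁻¹ ∈ W₁
  hyW : y⁻¹ ∈ W₂

variable {O W₁ W₂ : Subring F} {x y : F} {a : A}

theorem H88nNode.symm (hN : H88nNode O W₁ W₂ x y a) : H88nNode O W₂ W₁ y x a :=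
  ⟨hN.hAF, hN.hAO, hN.hO₂, hN.hO₁, fun δ hδ f h2 h1 h => hN.hsat δ hδ f h1 h2 h,
    fun e₁ h₁ e₂ h₂ hm₁ hm₂ h => hN.hloc e₂ h₂ e₁ h₁ hm₂ hm₁ (by rw [add_comm]; exact h),
    hN.hy, hN.hx, by rw [mul_comm]; exact hN.hxy, hN.ha, hN.ha0, hN.hyW, hN.hxW⟩

theorem H88nNode.hA₁ (hN : H88nNode O W₁ W₂ x y a) (c : A) : algebraMap A F c ∈ W₁ :=
  hN.hO₁ _ (hN.hAO c)

theorem H88nNode.hA₂ (hN : H88nNode O W₁ W₂ x y a) (c : A) : algebraMap A F c ∈ W₂ :=
  hN.hO₂ _ (hN.hAO c)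

theorem H88nNode.aF_ne (hN : H88nNode O W₁ W₂ x y a) : algebraMap A F a ≠ 0 :=
  fun h => hN.ha0 (hN.hAF (by rw [h, map_zero]))

theorem H88nNode.algebraMap_ne (hN : H88nNode O W₁ W₂ x y a) {c : A} (hc : c ≠ 0) :
    algebraMap A F c ≠ 0 :=
  fun h => hc (hN.hAF (by rw [h, map_zero]))

theorem H88nNode.x_ne (hN : H88nNode O W₁ W₂ x y a) : x ≠ 0 := by
  intro h
  have h1 := hN.hxy
  rw [h, zero_mul] at h1
  exact hN.aF_ne h1.symm

theorem H88nNode.y_ne (hN : H88nNode O W₁ W₂ x y a) : y ≠ 0 := hN.symm.x_ne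

/-- `a / x = y`. -/
theorem H88nNode.div_x (hN : H88nNode O W₁ W₂ x y a) : algebraMap A F a / x = y := by
  rw [← hN.hxy]; field_simp [hN.x_ne]

/-- `a ^ m / x ^ m = y ^ m`. -/
theorem H88nNode.pow_div_x (hN : H88nNode O W₁ W₂ x y a) (m : ℕ) :
    algebraMap A F a ^ m / x ^ m = y ^ m := by
  rw [← div_pow, hN.div_x]

/-- `x ^ n = a ^ n (y⁻¹) ^ n`. -/
theorem H88nNode.x_pow (hN : H88nNode O W₁ W₂ x y a) (n : ℕ) :
    x ^ n = algebraMap A F a ^ n * y⁻¹ ^ n := by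
  rw [← mul_pow, ← hN.hxy, mul_assoc, mul_inv_cancel₀ hN.y_ne, mul_one]

/-- **Locality lemma.** -/
theorem h88n_locality (hN : H88nNode O W₁ W₂ x y a) {f₁ f₂ : F} (h₁ : f₁ ∈ h88nM A W₁)
    (h₂ : f₂ ∈ h88nM A W₂) (hsum : f₁ + f₂ = 1) (δ : A) (hδ : δ ≠ 0)
    (hδO : algebraMap A F δ * f₁ ∈ O) : False := by
  have hf₁W₁ : f₁ ∈ W₁ := h88nM_mem hN.hA₁ h₁
  have hf₂W₂ : f₂ ∈ W₂ := h88nM_mem hN.hA₂ h₂
  have hf₁W₂ : f₁ ∈ W₂ := by
    have : f₁ = 1 - f₂ := by rw [← hsum]; ring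
    rw [this]
    exact W₂.sub_mem W₂.one_mem hf₂W₂
  have hf₁O : f₁ ∈ O := hN.hsat δ hδ f₁ hf₁W₁ hf₁W₂ hδO
  have hf₂O : f₂ ∈ O := by
    have : f₂ = 1 - f₁ := by rw [← hsum]; ring
    rw [this]
    exact O.sub_mem O.one_mem hf₁O
  exact hN.hloc f₁ hf₁O f₂ hf₂O h₁ h₂ hsum

/-- **POLY-INDEP.**  If `∑_{n<N} t_n x^n = j₁ + j₂` with `j₁ ∈ O ∩ π W₁` and `j₂ ∈ π' W₂`, then
for every `n < N`: `π ∣ t_n` or `π' ∣ t_n a^n`. -/
theorem h88n_poly (hN : H88nNode O W₁ W₂ x y a) (π π' : A) (N : ℕ) (t : ℕ → A)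
    (j₁ j₂ : F) (hj₁O : j₁ ∈ O) (hj₁ : j₁ ∈ h88nMul π W₁) (hj₂ : j₂ ∈ h88nMul π' W₂)
    (hT : ∑ n ∈ range N, algebraMap A F (t n) * x ^ n = j₁ + j₂) :
    ∀ n < N, π ∣ t n ∨ π' ∣ t n * a ^ n := by
  classical
  by_contra hcon
  simp only [not_forall, not_or] at hcon
  set Bad : Finset ℕ := (range N).filter (fun n => ¬ π ∣ t n ∧ ¬ π' ∣ t n * a ^ n) with hBad
  have hBadmem : ∀ n, n ∈ Bad ↔ n < N ∧ ¬ π ∣ t n ∧ ¬ π' ∣ t n * a ^ n := by
    intro n; simp [hBad]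
  have hne : Bad.Nonempty := by
    obtain ⟨n, hn, h1, h2⟩ := hcon
    exact ⟨n, (hBadmem n).mpr ⟨hn, h1, h2⟩⟩
  obtain ⟨m, hm, hmax⟩ := h88n_exists_extremal (fun n => t n * a ^ n) Bad hne
  obtain ⟨hmN, hm1, hm2⟩ := (hBadmem m).mp hm
  obtain ⟨μ, hμ, hπμ⟩ := h88n_exists_of_not_dvd hm1
  obtain ⟨μ', hμ', hπμ'⟩ := h88n_exists_of_not_dvd hm2
  have htm0 : t m ≠ 0 := by
    intro h; apply hm1; rw [h]; exact dvd_zero _
  have hα0 : algebraMap A F a ≠ 0 := hN.aF_ne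
  have hτ0 : algebraMap A F (t m) ≠ 0 := hN.algebraMap_ne htm0
  have hx0 : x ≠ 0 := hN.x_ne
  have hy0 : y ≠ 0 := hN.y_ne
  have hxm0 : x ^ m ≠ 0 := pow_ne_zero _ hx0
  have hxW₁ : x ∈ W₁ := hN.hO₁ _ hN.hx
  have hyW₂ : y ∈ W₂ := hN.hO₂ _ hN.hy
  -- the terms
  set c : ℕ → F := fun n => algebraMap A F (t n) * x ^ n / (algebraMap A F (t m) * x ^ m)
    with hc
  have hcm : c m = 1 := by
    simp only [hc]
    exact div_self (mul_ne_zero hτ0 hxm0)
  have hsum : ∑ n ∈ range N, c n = (j₁ + j₂) / (algebraMap A F (t m) * x ^ m) := by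
    rw [← hT, Finset.sum_div]
  set P : ℕ → Prop := fun n => π ∣ t n ∨ (n ∈ Bad ∧ n < m) with hP
  set I₁ : Finset ℕ := ((range N).erase m).filter P with hI₁
  set I₂ : Finset ℕ := ((range N).erase m).filter (fun n => ¬ P n) with hI₂
  set e₁ : F := j₁ / (algebraMap A F (t m) * x ^ m) - ∑ n ∈ I₁, c n with he₁
  set e₂ : F := j₂ / (algebraMap A F (t m) * x ^ m) - ∑ n ∈ I₂, c n with he₂
  have hsum12 : e₁ + e₂ = 1 := by
    have h1 : ∑ n ∈ (range N).erase m, c n = ∑ n ∈ I₁, c n + ∑ n ∈ I₂, c n :=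
      (Finset.sum_filter_add_sum_filter_not _ _ _).symm
    have h2 : ∑ n ∈ range N, c n = c m + ∑ n ∈ (range N).erase m, c n :=
      (Finset.add_sum_erase _ _ (mem_range.mpr hmN)).symm
    rw [h2, h1, hcm, add_div] at hsum
    rw [he₁, he₂]
    linear_combination -hsum
  -- `e₁` is small at `W₁`
  have hE₁ : e₁ ∈ h88nM A W₁ := by
    refine h88nM_sub hN.hA₁ ?_ (h88nM_sum hN.hA₁ _ _ ?_)
    · obtain ⟨w, hw, rfl⟩ := hj₁
      refine ⟨μ, hμ, w * x⁻¹ ^ m, W₁.mul_mem hw (W₁.pow_mem hN.hxW m), ?_⟩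
      rw [hπμ, map_mul, inv_pow]
      field_simp
    · intro n hn
      rw [hI₁, Finset.mem_filter, Finset.mem_erase, mem_range] at hn
      obtain ⟨⟨hnm, hnN⟩, hPn⟩ := hn
      rcases hPn with ⟨s, hs⟩ | ⟨hnB, hlt⟩
      · refine ⟨μ, hμ, algebraMap A F s * x ^ n * x⁻¹ ^ m,
          W₁.mul_mem (W₁.mul_mem (hN.hA₁ s) (W₁.pow_mem hxW₁ n)) (W₁.pow_mem hN.hxW m), ?_⟩
        simp only [hc]
        rw [hs, hπμ, map_mul, map_mul, inv_pow]
        field_simp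
      · obtain ⟨ρ, hρ⟩ := (hmax n hnB).1
        -- `t n * a ^ n = t m * a ^ m * ρ`, `n < m`
        have hρ' : t n = t m * a ^ (m - n) * ρ := by
          have h3 : a ^ m = a ^ n * a ^ (m - n) := by
            rw [← pow_add]; congr 1; omega
          have h4 : a ^ n * t n = a ^ n * (t m * a ^ (m - n) * ρ) := by
            have hρ2 : t n * a ^ n = t m * a ^ m * ρ := hρ
            rw [h3] at hρ2
            linear_combination hρ2
          exact mul_left_cancel₀ (pow_ne_zero _ hN.ha0) h4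
        have hmem : a ^ (m - n) * ρ ∈ maximalIdeal A := by
          apply Ideal.mul_mem_right
          have h5 : m - n = (m - n - 1) + 1 := by omega
          rw [h5, pow_succ]
          exact Ideal.mul_mem_left _ _ hN.ha
        refine ⟨a ^ (m - n) * ρ, hmem, x⁻¹ ^ (m - n), W₁.pow_mem hN.hxW _, ?_⟩
        simp only [hc]
        rw [hρ']
        have h6 : x ^ m = x ^ n * x ^ (m - n) := by
          rw [← pow_add]; congr 1; omega
        rw [h6, map_mul, map_mul, map_mul, inv_pow]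
        field_simp
  -- `e₂` is small at `W₂`
  have hE₂ : e₂ ∈ h88nM A W₂ := by
    refine h88nM_sub hN.hA₂ ?_ (h88nM_sum hN.hA₂ _ _ ?_)
    · obtain ⟨w, hw, rfl⟩ := hj₂
      refine ⟨μ', hμ', w * y ^ m, W₂.mul_mem hw (W₂.pow_mem hyW₂ m), ?_⟩
      rw [← hN.pow_div_x m, hπμ', map_mul, map_mul, map_pow]
      field_simp
    · intro n hn
      rw [hI₂, Finset.mem_filter, Finset.mem_erase, mem_range] at hn
      obtain ⟨⟨hnm, hnN⟩, hPn⟩ := hn
      simp only [hP, not_or, not_and, not_lt] at hPn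
      obtain ⟨hπn, hBn⟩ := hPn
      have key : ∀ ρ : A, ρ ∈ maximalIdeal A → t n * a ^ n = t m * a ^ m * ρ →
          c n ∈ h88nM A W₂ := by
        intro ρ hρm hρ
        refine ⟨ρ, hρm, y⁻¹ ^ n * y ^ m,
          W₂.mul_mem (W₂.pow_mem hN.hyW n) (W₂.pow_mem hyW₂ m), ?_⟩
        simp only [hc]
        have h7 : algebraMap A F (t n) * algebraMap A F a ^ n =
            algebraMap A F (t m) * algebraMap A F a ^ m * algebraMap A F ρ := by
          rw [← map_pow, ← map_pow, ← map_mul, ← map_mul, ← map_mul, hρ]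
        rw [hN.x_pow n, ← hN.pow_div_x m]
        have h8 : algebraMap A F (t n) * (algebraMap A F a ^ n * y⁻¹ ^ n) =
            algebraMap A F (t m) * algebraMap A F a ^ m * algebraMap A F ρ * y⁻¹ ^ n := by
          rw [← h7]; ring
        rw [h8]
        field_simp
      by_cases hnB : n ∈ Bad
      · have hmn : m < n := lt_of_le_of_ne (hBn hnB) (Ne.symm hnm)
        obtain ⟨ρ, hρ⟩ := (hmax n hnB).1
        refine key ρ ?_ hρ
        rw [mem_maximalIdeal, mem_nonunits_iff]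
        intro hu
        have h9 : t n * a ^ n ∣ t m * a ^ m := by
          obtain ⟨v, hv⟩ := hu.exists_right_inv
          refine ⟨v, ?_⟩
          have hρ2 : t n * a ^ n = t m * a ^ m * ρ := hρ
          rw [hρ2, mul_assoc, hv, mul_one]
        exact absurd ((hmax n hnB).2 h9) (not_le.mpr hmn)
      · have h10 : π' ∣ t n * a ^ n := by
          by_contra h
          exact hnB ((hBadmem n).mpr ⟨hnN, hπn, h⟩)
        obtain ⟨s, hs⟩ := h10
        refine key (μ' * s) (Ideal.mul_mem_right _ _ hμ') ?_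
        rw [hs, hπμ']; ring
  -- saturation
  have hδ : algebraMap A F (t m * a ^ N) * e₁ ∈ O := by
    have hyO : ∀ k, y ^ k ∈ O := fun k => O.pow_mem hN.hy k
    have hxO : ∀ k, x ^ k ∈ O := fun k => O.pow_mem hN.hx k
    have hNm : algebraMap A F a ^ N = algebraMap A F a ^ (N - m) * algebraMap A F a ^ m := by
      rw [← pow_add]; congr 1; omega
    have hterm : ∀ f : F, f ∈ O →
        algebraMap A F (t m * a ^ N) * (f / (algebraMap A F (t m) * x ^ m)) ∈ O := by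
      intro f hf
      have : algebraMap A F (t m * a ^ N) * (f / (algebraMap A F (t m) * x ^ m)) =
          algebraMap A F (a ^ (N - m)) * f * y ^ m := by
        rw [← hN.pow_div_x m, map_mul, map_pow, map_pow, hNm]
        field_simp
      rw [this]
      exact O.mul_mem (O.mul_mem (hN.hAO _) hf) (hyO m)
    rw [he₁, mul_sub, Finset.mul_sum]
    refine O.sub_mem (hterm j₁ hj₁O) (O.sum_mem fun n _ => ?_)
    simp only [hc]
    exact hterm _ (O.mul_mem (hN.hAO _) (hxO n))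
  exact h88n_locality hN hE₁ hE₂ hsum12 (t m * a ^ N)
    (mul_ne_zero htm0 (pow_ne_zero _ hN.ha0)) hδ

/-- cancellation of powers of `a`. -/
theorem h88n_dvd_cancel {a : A} (ha0 : a ≠ 0) {π s : A} {k l : ℕ} (hlk : l ≤ k)
    (h : π * a ^ k ∣ s * a ^ l) : π ∣ s := by
  have h1 : a ^ k = a ^ (k - l) * a ^ l := by
    rw [← pow_add]; congr 1; omega
  rw [h1, ← mul_assoc] at h
  have h2 : π * a ^ (k - l) ∣ s := (mul_dvd_mul_iff_right (pow_ne_zero _ ha0)).mp h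
  exact (Dvd.intro _ rfl).trans h2

/-- **Gauss norm at `W₁`**: a polynomial in `x` with coefficients in `A` which lies in `π W₁`
has all its coefficients divisible by `π`. -/
theorem h88n_gauss₁ (hN : H88nNode O W₁ W₂ x y a) (π : A) (N : ℕ) (t : ℕ → A)
    (h : ∑ n ∈ range N, algebraMap A F (t n) * x ^ n ∈ h88nMul π W₁) :
    ∀ n < N, π ∣ t n := by
  have hO : ∑ n ∈ range N, algebraMap A F (t n) * x ^ n ∈ O :=
    O.sum_mem fun n _ => O.mul_mem (hN.hAO _) (O.pow_mem hN.hx n)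
  have key := h88n_poly hN π (π * a ^ N) N t _ 0 hO h h88nMul_zero (by rw [add_zero])
  intro n hn
  rcases key n hn with h1 | h1
  · exact h1
  · exact h88n_dvd_cancel hN.ha0 hn.le h1

/-- **Birkhoff, one-sided**: if `∑_j s_j x^{-(j+1)} ∈ O + π W₁` then `π ∣ s_j` or
`a^{j+1} ∣ s_j` for all `j`. -/
theorem h88n_birkhoff (hN : H88nNode O W₁ W₂ x y a) (π : A) (K : ℕ) (s : ℕ → A)
    (o : F) (ho : o ∈ O)
    (h : ∑ j ∈ range K, algebraMap A F (s j) * x⁻¹ ^ (j + 1) - o ∈ h88nMul π W₁) :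
    ∀ j < K, π ∣ s j ∨ a ^ (j + 1) ∣ s j := by
  have hx0 : x ≠ 0 := hN.x_ne
  have hxW₁ : x ∈ W₁ := hN.hO₁ _ hN.hx
  -- the polynomial `x ^ K P`
  have hT : ∑ n ∈ range K, algebraMap A F (s (K - 1 - n)) * x ^ n =
      x ^ K * ∑ j ∈ range K, algebraMap A F (s j) * x⁻¹ ^ (j + 1) := by
    rw [← Finset.sum_range_reflect, Finset.mul_sum]
    refine Finset.sum_congr rfl fun j hj => ?_
    rw [mem_range] at hj
    have h1 : K - 1 - (K - 1 - j) = j := by omega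
    have h2 : x ^ K = x ^ (K - 1 - j) * x ^ (j + 1) := by
      rw [← pow_add]; congr 1; omega
    rw [h1, h2, inv_pow]
    field_simp
  have hTO : ∑ n ∈ range K, algebraMap A F (s (K - 1 - n)) * x ^ n ∈ O :=
    O.sum_mem fun n _ => O.mul_mem (hN.hAO _) (O.pow_mem hN.hx n)
  have hj₁ : x ^ K * (∑ j ∈ range K, algebraMap A F (s j) * x⁻¹ ^ (j + 1) - o) ∈
      h88nMul π W₁ := h88nMul_mul_left h (W₁.pow_mem hxW₁ K)
  have hj₁O : x ^ K * (∑ j ∈ range K, algebraMap A F (s j) * x⁻¹ ^ (j + 1) - o) ∈ O := by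
    rw [mul_sub, ← hT]
    exact O.sub_mem hTO (O.mul_mem (O.pow_mem hN.hx K) ho)
  have hj₂ : x ^ K * o ∈ h88nMul (a ^ K) W₂ := by
    refine ⟨y⁻¹ ^ K * o, W₂.mul_mem (W₂.pow_mem hN.hyW K) (hN.hO₂ _ ho), ?_⟩
    rw [hN.x_pow K, map_pow]; ring
  have key := h88n_poly hN π (a ^ K) K (fun n => s (K - 1 - n)) _ _ hj₁O hj₁ hj₂
    (by rw [hT]; ring)
  intro j hj
  rcases key (K - 1 - j) (by omega) with h1 | h1
  · left
    have h3 : K - 1 - (K - 1 - j) = j := by omega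
    simpa only [h3] using h1
  · right
    have h3 : K - 1 - (K - 1 - j) = j := by omega
    simp only [h3] at h1
    have h4 : a ^ K = a ^ (j + 1) * a ^ (K - 1 - j) := by
      rw [← pow_add]; congr 1; omega
    rw [h4] at h1
    exact (mul_dvd_mul_iff_right (pow_ne_zero _ hN.ha0)).mp h1

/-- `∑_{n<K} s_{K-1-n} x^n = x^K ∑_{j<K} s_j x^{-(j+1)}`. -/
theorem h88n_reflect {x : F} (hx0 : x ≠ 0) (K : ℕ) (s : ℕ → A) :
    ∑ n ∈ range K, algebraMap A F (s (K - 1 - n)) * x ^ n =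
      x ^ K * ∑ j ∈ range K, algebraMap A F (s j) * x⁻¹ ^ (j + 1) := by
  rw [← Finset.sum_range_reflect, Finset.mul_sum]
  refine Finset.sum_congr rfl fun j hj => ?_
  rw [mem_range] at hj
  have h1 : K - 1 - (K - 1 - j) = j := by omega
  have h2 : x ^ K = x ^ (K - 1 - j) * x ^ (j + 1) := by
    rw [← pow_add]; congr 1; omega
  rw [h1, h2, inv_pow]
  field_simp

/-- the coefficients of the combined polynomial in the proof of `h88n_rigid`. -/
def h88nCoef (K : ℕ) (a c₁ c₂ : A) (s s' : ℕ → A) (n : ℕ) : A :=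
  if n < K then -(s (K - 1 - n) * a ^ K)
  else if n = K then a ^ K * (c₂ - c₁)
  else s' (n - K - 1) * a ^ (K - 1 - (n - K - 1))

theorem h88nCoef_lt (K : ℕ) (a c₁ c₂ : A) (s s' : ℕ → A) {n : ℕ} (hn : n < K) :
    h88nCoef K a c₁ c₂ s s' n = -(s (K - 1 - n) * a ^ K) := by
  simp [h88nCoef, hn]

theorem h88nCoef_eq (K : ℕ) (a c₁ c₂ : A) (s s' : ℕ → A) :
    h88nCoef K a c₁ c₂ s s' K = a ^ K * (c₂ - c₁) := by
  simp [h88nCoef]

theorem h88nCoef_gt (K : ℕ) (a c₁ c₂ : A) (s s' : ℕ → A) (i : ℕ) :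
    h88nCoef K a c₁ c₂ s s' (K + (i + 1)) = s' i * a ^ (K - 1 - i) := by
  have h1 : ¬ K + (i + 1) < K := by omega
  have h2 : ¬ K + (i + 1) = K := by omega
  have h3 : K + (i + 1) - K - 1 = i := by omega
  simp only [h88nCoef, h1, h2, if_false, h3]

/-- **Rigidity at a node** (Liouville).  If `G ∈ O + π (W₁ ∩ W₂)` is, modulo `π W₁`, a
polynomial in `x⁻¹` with constant term `c₁` and, modulo `π W₂`, a polynomial in `y⁻¹` with
constant term `c₂`, then `π` divides `c₁ - c₂` and all the non-constant coefficients. -/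
theorem h88n_rigid (hN : H88nNode O W₁ W₂ x y a) (π : A) (K : ℕ) (c₁ c₂ : A)
    (s s' : ℕ → A) (G o : F) (ho : o ∈ O)
    (hG₁ : G - o ∈ h88nMul π W₁) (hG₂ : G - o ∈ h88nMul π W₂)
    (hE₁ : G - (algebraMap A F c₁ + ∑ j ∈ range K, algebraMap A F (s j) * x⁻¹ ^ (j + 1)) ∈
      h88nMul π W₁)
    (hE₂ : G - (algebraMap A F c₂ + ∑ j ∈ range K, algebraMap A F (s' j) * y⁻¹ ^ (j + 1)) ∈
      h88nMul π W₂) :
    π ∣ c₁ - c₂ ∧ (∀ j < K, π ∣ s j) ∧ (∀ j < K, π ∣ s' j) := by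
  have hx0 : x ≠ 0 := hN.x_ne
  have hy0 : y ≠ 0 := hN.y_ne
  have hα0 : algebraMap A F a ≠ 0 := hN.aF_ne
  have hxW₁ : x ∈ W₁ := hN.hO₁ _ hN.hx
  set α : F := algebraMap A F a with hα
  set P₁ : F := ∑ j ∈ range K, algebraMap A F (s j) * x⁻¹ ^ (j + 1) with hP₁
  set P₂ : F := ∑ j ∈ range K, algebraMap A F (s' j) * y⁻¹ ^ (j + 1) with hP₂
  -- the two error terms
  have hu₁ : o - algebraMap A F c₁ - P₁ ∈ h88nMul π W₁ := by
    have : o - algebraMap A F c₁ - P₁ = (G - (algebraMap A F c₁ + P₁)) - (G - o) := by ring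
    rw [this]; exact h88nMul_sub hE₁ hG₁
  have hu₂ : o - algebraMap A F c₂ - P₂ ∈ h88nMul π W₂ := by
    have : o - algebraMap A F c₂ - P₂ = (G - (algebraMap A F c₂ + P₂)) - (G - o) := by ring
    rw [this]; exact h88nMul_sub hE₂ hG₂
  -- `x^K P₁` and `x^K α^K P₂` are polynomials in `x`
  have hR₁ : x ^ K * P₁ = ∑ n ∈ range K, algebraMap A F (s (K - 1 - n)) * x ^ n :=
    (h88n_reflect hx0 K s).symm
  have hR₂ : x ^ K * (α ^ K * P₂) =
      ∑ i ∈ range K, algebraMap A F (s' i * a ^ (K - 1 - i)) * x ^ (K + (i + 1)) := by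
    rw [hP₂, Finset.mul_sum, Finset.mul_sum]
    refine Finset.sum_congr rfl fun i hi => ?_
    rw [mem_range] at hi
    have h1 : α ^ K = α ^ (K - 1 - i) * α ^ (i + 1) := by
      rw [← pow_add]; congr 1; omega
    have h2 : x ^ (i + 1) = α ^ (i + 1) * y⁻¹ ^ (i + 1) := hN.x_pow (i + 1)
    have h3 : x ^ (K + (i + 1)) = x ^ K * x ^ (i + 1) := pow_add _ _ _
    rw [h3, h2, h1, map_mul, map_pow]
    ring
  -- the two parts
  set J₁ : F := x ^ K * (α ^ K * (o - algebraMap A F c₁ - P₁)) with hJ₁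
  set J₂ : F := -(x ^ K * (α ^ K * (o - algebraMap A F c₂ - P₂))) with hJ₂
  have hJ₁O : J₁ ∈ O := by
    have : J₁ = x ^ K * (α ^ K * (o - algebraMap A F c₁)) - α ^ K * (x ^ K * P₁) := by
      rw [hJ₁]; ring
    rw [this, hR₁]
    refine O.sub_mem (O.mul_mem (O.pow_mem hN.hx K) (O.mul_mem (O.pow_mem (hN.hAO a) K)
      (O.sub_mem ho (hN.hAO c₁)))) (O.mul_mem (O.pow_mem (hN.hAO a) K) ?_)
    exact O.sum_mem fun n _ => O.mul_mem (hN.hAO _) (O.pow_mem hN.hx n)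
  have hJ₁m : J₁ ∈ h88nMul (π * a ^ K) W₁ := by
    obtain ⟨z, hz, hzeq⟩ := hu₁
    refine ⟨x ^ K * z, W₁.mul_mem (W₁.pow_mem hxW₁ K) hz, ?_⟩
    rw [hJ₁, hzeq, map_mul, map_pow]; ring
  have hJ₂m : J₂ ∈ h88nMul (π * a ^ (2 * K)) W₂ := by
    obtain ⟨z, hz, hzeq⟩ := hu₂
    refine ⟨-(y⁻¹ ^ K * z), W₂.neg_mem (W₂.mul_mem (W₂.pow_mem hN.hyW K) hz), ?_⟩
    rw [hJ₂, hzeq, hN.x_pow K, map_mul, map_pow, two_mul, pow_add]; ring
  -- the polynomial identity
  have hT : ∑ n ∈ range (K + (K + 1)), algebraMap A F (h88nCoef K a c₁ c₂ s s' n) * x ^ n =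
      J₁ + J₂ := by
    rw [Finset.sum_range_add, Finset.sum_range_succ']
    have e1 : ∑ n ∈ range K, algebraMap A F (h88nCoef K a c₁ c₂ s s' n) * x ^ n =
        -(α ^ K * (x ^ K * P₁)) := by
      rw [hR₁, Finset.mul_sum, ← Finset.sum_neg_distrib]
      refine Finset.sum_congr rfl fun n hn => ?_
      rw [mem_range] at hn
      rw [h88nCoef_lt K a c₁ c₂ s s' hn, map_neg, map_mul, map_pow]
      ring
    have e2 : ∑ i ∈ range K, algebraMap A F (h88nCoef K a c₁ c₂ s s' (K + (i + 1))) *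
        x ^ (K + (i + 1)) = x ^ K * (α ^ K * P₂) := by
      rw [hR₂]
      refine Finset.sum_congr rfl fun i _ => ?_
      rw [h88nCoef_gt]
    rw [e1, e2, add_zero, h88nCoef_eq, hJ₁, hJ₂, map_mul, map_pow, map_sub]
    ring
  have key := h88n_poly hN (π * a ^ K) (π * a ^ (2 * K)) (K + (K + 1))
    (h88nCoef K a c₁ c₂ s s') J₁ J₂ hJ₁O hJ₁m hJ₂m hT
  refine ⟨?_, ?_, ?_⟩
  · -- the constant terms
    have h1 : π ∣ c₂ - c₁ := by
      rcases key K (by omega) with h | h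
      · rw [h88nCoef_eq, mul_comm (a ^ K)] at h
        exact h88n_dvd_cancel hN.ha0 le_rfl h
      · rw [h88nCoef_eq] at h
        have h2 : a ^ K * (c₂ - c₁) * a ^ K = (c₂ - c₁) * a ^ (2 * K) := by
          rw [two_mul, pow_add]; ring
        rw [h2] at h
        exact h88n_dvd_cancel hN.ha0 le_rfl h
    have h3 : c₁ - c₂ = -(c₂ - c₁) := by ring
    rw [h3]
    exact (dvd_neg).mpr h1
  · intro j hj
    have hn : K - 1 - j < K := by omega
    have h0 : K - 1 - (K - 1 - j) = j := by omega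
    have h1 : π ∣ -(s j) := by
      rcases key (K - 1 - j) (by omega) with h | h
      · rw [h88nCoef_lt K a c₁ c₂ s s' hn, h0] at h
        have h2 : -(s j * a ^ K) = -(s j) * a ^ K := by ring
        rw [h2] at h
        exact h88n_dvd_cancel hN.ha0 le_rfl h
      · rw [h88nCoef_lt K a c₁ c₂ s s' hn, h0] at h
        have h2 : -(s j * a ^ K) * a ^ (K - 1 - j) = -(s j) * a ^ (K + (K - 1 - j)) := by
          rw [pow_add]; ring
        rw [h2] at h
        exact h88n_dvd_cancel hN.ha0 (by omega) h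
    exact (dvd_neg).mp h1
  · intro i hi
    rcases key (K + (i + 1)) (by omega) with h | h
    · rw [h88nCoef_gt] at h
      exact h88n_dvd_cancel hN.ha0 (by omega) h
    · rw [h88nCoef_gt] at h
      have h2 : s' i * a ^ (K - 1 - i) * a ^ (K + (i + 1)) = s' i * a ^ (2 * K) := by
        rw [mul_assoc, ← pow_add]; congr 2; omega
      rw [h2] at h
      exact h88n_dvd_cancel hN.ha0 le_rfl h

/-- consequence of `h88n_rigid`: `G ≡ c₁` modulo `π W₁`. -/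
theorem h88n_rigid_mem₁ (hN : H88nNode O W₁ W₂ x y a) (π : A) (K : ℕ) (c₁ c₂ : A)
    (s s' : ℕ → A) (G o : F) (ho : o ∈ O)
    (hG₁ : G - o ∈ h88nMul π W₁) (hG₂ : G - o ∈ h88nMul π W₂)
    (hE₁ : G - (algebraMap A F c₁ + ∑ j ∈ range K, algebraMap A F (s j) * x⁻¹ ^ (j + 1)) ∈
      h88nMul π W₁)
    (hE₂ : G - (algebraMap A F c₂ + ∑ j ∈ range K, algebraMap A F (s' j) * y⁻¹ ^ (j + 1)) ∈
      h88nMul π W₂) :
    G - algebraMap A F c₁ ∈ h88nMul π W₁ := by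
  obtain ⟨-, hs, -⟩ := h88n_rigid hN π K c₁ c₂ s s' G o ho hG₁ hG₂ hE₁ hE₂
  have h1 : ∑ j ∈ range K, algebraMap A F (s j) * x⁻¹ ^ (j + 1) ∈ h88nMul π W₁ :=
    h88nMul_sum _ _ fun j hj =>
      h88nMul_of_dvd hN.hA₁ (hs j (mem_range.mp hj)) (W₁.pow_mem hN.hxW _)
  have h2 : G - algebraMap A F c₁ =
      (G - (algebraMap A F c₁ + ∑ j ∈ range K, algebraMap A F (s j) * x⁻¹ ^ (j + 1))) +
        ∑ j ∈ range K, algebraMap A F (s j) * x⁻¹ ^ (j + 1) := by ring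
  rw [h2]
  exact h88nMul_add hE₁ h1

/-- consequence of `h88n_rigid`: `G ≡ c₁` modulo `π W₂`. -/
theorem h88n_rigid_mem₂ (hN : H88nNode O W₁ W₂ x y a) (π : A) (K : ℕ) (c₁ c₂ : A)
    (s s' : ℕ → A) (G o : F) (ho : o ∈ O)
    (hG₁ : G - o ∈ h88nMul π W₁) (hG₂ : G - o ∈ h88nMul π W₂)
    (hE₁ : G - (algebraMap A F c₁ + ∑ j ∈ range K, algebraMap A F (s j) * x⁻¹ ^ (j + 1)) ∈
      h88nMul π W₁)
    (hE₂ : G - (algebraMap A F c₂ + ∑ j ∈ range K, algebraMap A F (s' j) * y⁻¹ ^ (j + 1)) ∈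
      h88nMul π W₂) :
    G - algebraMap A F c₁ ∈ h88nMul π W₂ := by
  obtain ⟨hc, -, hs'⟩ := h88n_rigid hN π K c₁ c₂ s s' G o ho hG₁ hG₂ hE₁ hE₂
  have h1 : ∑ j ∈ range K, algebraMap A F (s' j) * y⁻¹ ^ (j + 1) ∈ h88nMul π W₂ :=
    h88nMul_sum _ _ fun j hj =>
      h88nMul_of_dvd hN.hA₂ (hs' j (mem_range.mp hj)) (W₂.pow_mem hN.hyW _)
  have h3 : algebraMap A F c₂ - algebraMap A F c₁ ∈ h88nMul π W₂ := by
    obtain ⟨e, he⟩ := hc
    refine ⟨-(algebraMap A F e), W₂.neg_mem (hN.hA₂ e), ?_⟩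
    have : algebraMap A F c₂ - algebraMap A F c₁ = -(algebraMap A F (c₁ - c₂)) := by
      rw [map_sub]; ring
    rw [this, he, map_mul]; ring
  have h2 : G - algebraMap A F c₁ =
      (G - (algebraMap A F c₂ + ∑ j ∈ range K, algebraMap A F (s' j) * y⁻¹ ^ (j + 1))) +
        ∑ j ∈ range K, algebraMap A F (s' j) * y⁻¹ ^ (j + 1) +
          (algebraMap A F c₂ - algebraMap A F c₁) := by ring
  rw [h2]
  exact h88nMul_add (h88nMul_add hE₂ h1) h3

end Node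

end Fermat.Agent.P6
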