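import Mathlib

/-!
# Wave 6 (S33), block B2-TOR: roots of unity near an element whose `n`-th power is near `1`
(helper93)

Abstract, Mathlib only.  `V` a valuation ring (any rank), `n > 0`, `V` contains a primitive
`n`-th root of unity.

* `h93r_exists_dvd_max` : a nonempty finite family of elements of a valuation ring has a member
  divisible by all the others.
* `h93r_pow_sub_one_dvd` : for every `x` there is an `n`-th root of unity `ζ₀` with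
  `x ^ n - 1 ∣ n * (x - ζ₀)`  (the root of unity closest to `x`: `x ^ n - 1 = ∏ (x - ζ)` and
  `x - ζ ∣ ζ₀ - ζ` for the other roots, `∏_{ζ ≠ ζ₀} (ζ₀ - ζ) = n ζ₀ ^ (n - 1)`).
* `h93r_near_root` : `n π ∣ x ^ n - 1`, `n ≠ 0` in `V`  ⟹  `∃ ζ₀, ζ₀ ^ n = 1 ∧ π ∣ x - ζ₀`.
* `h93r_near_root_sub` : the same for a total subring `W` of a field `F` (`x ∈ W ∨ x⁻¹ ∈ W`),
  congruences written `∃ s ∈ W, _ = π * s` (the shape of `h26U`).
* `h93r_theta_near` : if `τ` is a ring automorphism of `F` preserving `W`, acting on the `n`-th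
  roots of unity by `ζ ↦ ζ ^ a`, with `τ π ∈ π W`, and `γ ∈ W` has `γ ^ n - 1 ∈ n π W`, then
  `τ γ - γ ^ a ∈ π W`; if moreover `γ` is a unit of `W`, `τ γ / γ ^ a - 1 ∈ π W`.
-/

set_option autoImplicit false
set_option linter.style.haveILetI false
set_option linter.unusedSectionVars false

open Polynomial

namespace Fermat.Agent.P6

section Abstract

variable {V : Type*} [CommRing V] [IsDomain V] [ValuationRing V]

/-- a nonempty finite family of elements of a valuation ring has a member divisible by all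
the others. -/
theorem h93r_exists_dvd_max {ι : Type*} (S : Finset ι) (hS : S.Nonempty) (f : ι → V) :
    ∃ i ∈ S, ∀ j ∈ S, f j ∣ f i := by
  classical
  induction hS using Finset.Nonempty.cons_induction with
  | singleton a =>
    exact ⟨a, Finset.mem_singleton_self a, fun j hj => by rw [Finset.mem_singleton.mp hj]⟩
  | cons a s ha hs ih =>
    obtain ⟨i, hi, hmax⟩ := ih
    rcases ValuationRing.dvd_total (f a) (f i) with h | h
    · refine ⟨i, Finset.mem_cons.mpr (Or.inr hi), fun j hj => ?_⟩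
      rcases Finset.mem_cons.mp hj with rfl | hj
      · exact h
      · exact hmax j hj
    · refine ⟨a, Finset.mem_cons_self a s, fun j hj => ?_⟩
      rcases Finset.mem_cons.mp hj with rfl | hj
      · exact dvd_rfl
      · exact (hmax j hj).trans h

/-- **the closest root of unity**: `x ^ n - 1` divides `n * (x - ζ₀)` for some `n`-th root of
unity `ζ₀`. -/
theorem h93r_pow_sub_one_dvd {n : ℕ} (hn : 0 < n) {ζ : V} (hζ : IsPrimitiveRoot ζ n) (x : V) :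
    ∃ ζ₀ : V, ζ₀ ^ n = 1 ∧ (x ^ n - 1) ∣ (n : V) * (x - ζ₀) := by
  classical
  have hprod : (X ^ n - 1 : V[X]) = ∏ η ∈ nthRootsFinset n (1 : V), (X - C η) :=
    X_pow_sub_one_eq_prod hn hζ
  have hSne : (nthRootsFinset n (1 : V)).Nonempty :=
    ⟨1, by rw [mem_nthRootsFinset hn]; exact one_pow n⟩
  obtain ⟨ζ₀, hζ₀S, hmax⟩ := h93r_exists_dvd_max (nthRootsFinset n (1 : V)) hSne (fun η => x - η)
  have hζ₀ : ζ₀ ^ n = 1 := (mem_nthRootsFinset hn 1).mp hζ₀S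
  refine ⟨ζ₀, hζ₀, ?_⟩
  -- `x ^ n - 1 = ∏ (x - η)`
  have hx : x ^ n - 1 = ∏ η ∈ nthRootsFinset n (1 : V), (x - η) := by
    have h := congrArg (eval x) hprod
    simp only [eval_sub, eval_pow, eval_X, eval_one, eval_prod, eval_C] at h
    exact h
  -- the cofactor
  have hQ : (∏ η ∈ (nthRootsFinset n (1 : V)).erase ζ₀, (X - C η) : V[X]) =
      ∑ i ∈ Finset.range n, X ^ i * C ζ₀ ^ (n - 1 - i) := by
    have h1 : (X - C ζ₀) * ∏ η ∈ (nthRootsFinset n (1 : V)).erase ζ₀, (X - C η) =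
        (X ^ n - 1 : V[X]) := by
      rw [hprod, Finset.mul_prod_erase _ (fun η => (X - C η : V[X])) hζ₀S]
    have h2 : (X - C ζ₀) * ∑ i ∈ Finset.range n, X ^ i * C ζ₀ ^ (n - 1 - i) =
        (X ^ n - 1 : V[X]) := by
      rw [(Commute.all (X : V[X]) (C ζ₀)).mul_geom_sum₂ n, ← C_pow, hζ₀, C_1]
    exact mul_left_cancel₀ (X_sub_C_ne_zero ζ₀) (h1.trans h2.symm)
  have hder : ∏ η ∈ (nthRootsFinset n (1 : V)).erase ζ₀, (ζ₀ - η) = (n : V) * ζ₀ ^ (n - 1) := by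
    have h := congrArg (eval ζ₀) hQ
    simp only [eval_prod, eval_sub, eval_X, eval_C, eval_finsetSum, eval_mul, eval_pow] at h
    rw [h]
    have h3 : ∀ i ∈ Finset.range n, ζ₀ ^ i * ζ₀ ^ (n - 1 - i) = ζ₀ ^ (n - 1) := by
      intro i hi
      have hi' := Finset.mem_range.mp hi
      rw [← pow_add]
      congr 1
      omega
    rw [Finset.sum_congr rfl h3, Finset.sum_const, Finset.card_range, nsmul_eq_mul]
  -- divisibility of the cofactors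
  have hdvd : ∏ η ∈ (nthRootsFinset n (1 : V)).erase ζ₀, (x - η) ∣ (n : V) * ζ₀ ^ (n - 1) := by
    rw [← hder]
    refine Finset.prod_dvd_prod_of_dvd _ _ (fun η hη => ?_)
    have h1 : x - η ∣ x - ζ₀ := hmax η (Finset.mem_of_mem_erase hη)
    have h2 : ζ₀ - η = (x - η) - (x - ζ₀) := by ring
    rw [h2]
    exact dvd_sub dvd_rfl h1
  have hfin : x ^ n - 1 ∣ (x - ζ₀) * ((n : V) * ζ₀ ^ (n - 1)) := by
    rw [hx, ← Finset.mul_prod_erase _ (fun η => x - η) hζ₀S]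
    exact mul_dvd_mul_left _ hdvd
  have hunit : (n : V) * (x - ζ₀) = (x - ζ₀) * ((n : V) * ζ₀ ^ (n - 1)) * ζ₀ := by
    have h4 : ζ₀ ^ (n - 1) * ζ₀ = 1 := by
      rw [← pow_succ, Nat.sub_add_cancel hn, hζ₀]
    calc (n : V) * (x - ζ₀) = (x - ζ₀) * (n : V) * (ζ₀ ^ (n - 1) * ζ₀) := by rw [h4]; ring
      _ = (x - ζ₀) * ((n : V) * ζ₀ ^ (n - 1)) * ζ₀ := by ring
  rw [hunit]
  exact Dvd.dvd.mul_right hfin _

/-- **near a root of unity**: if `x ^ n ≡ 1` modulo `n π`, then `x ≡ ζ₀` modulo `π` for some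
`n`-th root of unity `ζ₀`. -/
theorem h93r_near_root {n : ℕ} (hn : 0 < n) (hn0 : (n : V) ≠ 0) {ζ : V}
    (hζ : IsPrimitiveRoot ζ n) (x π : V) (h : (n : V) * π ∣ x ^ n - 1) :
    ∃ ζ₀ : V, ζ₀ ^ n = 1 ∧ π ∣ x - ζ₀ := by
  obtain ⟨ζ₀, hζ₀, hd⟩ := h93r_pow_sub_one_dvd hn hζ x
  exact ⟨ζ₀, hζ₀, (mul_dvd_mul_iff_left hn0).mp (h.trans hd)⟩

end Abstract

section Sub

variable {F : Type*} [Field F]

/-- an element of finite multiplicative order lies in every total subring. -/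
theorem h93r_root_mem (W : Subring F) (hW : ∀ x : F, x ∈ W ∨ x⁻¹ ∈ W) {n : ℕ} (hn : 0 < n)
    {η : F} (hη : η ^ n = 1) : η ∈ W := by
  rcases hW η with h | h
  · exact h
  · have h1 : η = (η⁻¹) ^ (n - 1) := by
      have hη0 : η ≠ 0 := by
        rintro rfl
        rw [zero_pow hn.ne'] at hη
        exact zero_ne_one hη
      have h2 : η ^ (n - 1) * η = 1 := by rw [← pow_succ, Nat.sub_add_cancel hn, hη]
      rw [inv_pow]
      exact (eq_inv_of_mul_eq_one_right h2)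
    rw [h1]
    exact W.pow_mem h _

/-- **near a root of unity, total subring form**. -/
theorem h93r_near_root_sub (W : Subring F) (hW : ∀ x : F, x ∈ W ∨ x⁻¹ ∈ W) {n : ℕ} (hn : 0 < n)
    (hn0 : (n : F) ≠ 0) {ζ : F} (hζ : IsPrimitiveRoot ζ n) (x π : F) (hx : x ∈ W) (hπ : π ∈ W)
    (h : ∃ s ∈ W, x ^ n - 1 = (n : F) * π * s) :
    ∃ ζ₀ : F, ζ₀ ^ n = 1 ∧ ∃ s ∈ W, x - ζ₀ = π * s := by
  let Wv : ValuationSubring F := { W with mem_or_inv_mem' := hW }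
  have hmem : ∀ y : F, y ∈ Wv ↔ y ∈ W := fun y => Iff.rfl
  have hζW : ζ ∈ Wv := h93r_root_mem W hW hn hζ.pow_eq_one
  have hζ' : IsPrimitiveRoot (⟨ζ, hζW⟩ : Wv) n :=
    IsPrimitiveRoot.of_map_of_injective (f := Wv.subtype) hζ Subtype.val_injective
  have hn0' : ((n : ℕ) : Wv) ≠ 0 := by
    intro h0
    apply hn0
    have := congrArg (Wv.subtype) h0
    simpa using this
  obtain ⟨s, hs, hxs⟩ := h
  have hdiv : ((n : ℕ) : Wv) * (⟨π, hπ⟩ : Wv) ∣ (⟨x, hx⟩ : Wv) ^ n - 1 := by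
    refine ⟨⟨s, hs⟩, ?_⟩
    apply Subtype.ext
    simpa using hxs
  obtain ⟨ζ₀, hζ₀, ⟨t, ht⟩⟩ := h93r_near_root hn hn0' hζ' (⟨x, hx⟩ : Wv) ⟨π, hπ⟩ hdiv
  refine ⟨(ζ₀ : F), ?_, (t : F), t.2, ?_⟩
  · have := congrArg (Wv.subtype) hζ₀
    simpa using this
  · have := congrArg (Wv.subtype) ht
    simpa using this

/-- **`Θ` of an element near a root of unity**: `τ γ ≡ γ ^ a` modulo `π W`. -/
theorem h93r_theta_near (W : Subring F) (hW : ∀ x : F, x ∈ W ∨ x⁻¹ ∈ W) {n : ℕ} (hn : 0 < n)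
    (hn0 : (n : F) ≠ 0) {ζ : F} (hζ : IsPrimitiveRoot ζ n)
    (τ : F ≃+* F) (hτW : ∀ x ∈ W, τ x ∈ W) (a : ℕ) (hτ : ∀ η : F, η ^ n = 1 → τ η = η ^ a)
    (π : F) (hπ : π ∈ W) (hτπ : ∃ s ∈ W, τ π = π * s)
    (γ : F) (hγ : γ ∈ W) (h : ∃ s ∈ W, γ ^ n - 1 = (n : F) * π * s) :
    ∃ s ∈ W, τ γ - γ ^ a = π * s := by
  obtain ⟨ζ₀, hζ₀, t, ht, hγt⟩ := h93r_near_root_sub W hW hn hn0 hζ γ π hγ hπ h
  obtain ⟨u, hu, hτu⟩ := hτπ
  have hζ₀W : ζ₀ ∈ W := h93r_root_mem W hW hn hζ₀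
  have hγ' : γ = ζ₀ + π * t := by rw [← hγt]; ring
  -- `γ ^ a - ζ₀ ^ a ∈ π W`
  have hpow : ∃ s ∈ W, γ ^ a - ζ₀ ^ a = π * s := by
    refine ⟨t * ∑ i ∈ Finset.range a, γ ^ i * ζ₀ ^ (a - 1 - i), ?_, ?_⟩
    · refine W.mul_mem ht (W.sum_mem fun i _ => W.mul_mem (W.pow_mem hγ _) (W.pow_mem hζ₀W _))
    · have := (Commute.all γ ζ₀).mul_geom_sum₂ a
      rw [← this, hγt]
      ring
  obtain ⟨s₁, hs₁, hs₁'⟩ := hpow
  refine ⟨u * τ t - s₁, W.sub_mem (W.mul_mem hu (hτW t ht)) hs₁, ?_⟩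
  have h1 : τ γ = ζ₀ ^ a + π * u * τ t := by
    rw [hγ', map_add, map_mul, hτ ζ₀ hζ₀, hτu]
  have h2 : γ ^ a = ζ₀ ^ a + π * s₁ := by rw [← hs₁']; ring
  rw [h1, h2]
  ring

/-- **`Θ` of a unit near a root of unity**: `τ γ / γ ^ a ≡ 1` modulo `π W`. -/
theorem h93r_theta_near_div (W : Subring F) (hW : ∀ x : F, x ∈ W ∨ x⁻¹ ∈ W) {n : ℕ}
    (hn : 0 < n) (hn0 : (n : F) ≠ 0) {ζ : F} (hζ : IsPrimitiveRoot ζ n)
    (τ : F ≃+* F) (hτW : ∀ x ∈ W, τ x ∈ W) (a : ℕ) (hτ : ∀ η : F, η ^ n = 1 → τ η = η ^ a)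
    (π : F) (hπ : π ∈ W) (hτπ : ∃ s ∈ W, τ π = π * s)
    (γ : F) (hγ0 : γ ≠ 0) (hγ : γ ∈ W) (hγi : γ⁻¹ ∈ W)
    (h : ∃ s ∈ W, γ ^ n - 1 = (n : F) * π * s) :
    ∃ s ∈ W, τ γ / γ ^ a = 1 + π * s := by
  obtain ⟨s, hs, hs'⟩ := h93r_theta_near W hW hn hn0 hζ τ hτW a hτ π hπ hτπ γ hγ h
  refine ⟨s * (γ⁻¹) ^ a, W.mul_mem hs (W.pow_mem hγi _), ?_⟩
  have hpa : γ ^ a ≠ 0 := pow_ne_zero _ hγ0
  have h1 : τ γ = γ ^ a + π * s := by rw [← hs']; ring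
  rw [div_eq_iff hpa, h1, inv_pow]
  field_simp

end Sub

end Fermat.Agent.P6
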