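import Fermat.Agent.S35.H86TorAsm
import Fermat.Agent.LGC.Red63
import Fermat.Agent.P6.H90DeepAsm
import Fermat.Agent.P6.H11NewIface
import Fermat.Agent.P6.H71NewIface

/-!
# P6 (wave 6, S33), block B2-TOR: the concrete top of TOR-GATE-p at the levels `M p` (helper94)

Deep analogue of `S35/H86TorAsm.lean` (`h86t_core`, `h86t_ifaceTor_of`): the exponent
`r = p ^ k` is a power of the residue characteristic, the gate is the deep gate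
`h90p_gate_asm_loc` (helper90), the moduli are `r² π` for the function and `r π` for the local
roots.

* `H94tDatumAt A M ℓ t π r W 𝔫` : the deep local datum of the gate for `W` at the closed point
  `𝔫` of the chart `t`: `∃ g ∈ 1 + r π ssV, ∃ s ∉ 𝔫, s W / g ^ r ∈ B ∧ s g ^ r / W ∈ B`.
* `h94t_common` : common modulus: a deep local datum with its own modulus `r π_𝔫` at the
  finitely many closed points carrying a place of a finite set `Z`, and the unit datum at the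
  others, give the deep local datum with ONE modulus `r π₀` at all closed points.
* `h94t_core` : for `W ∈ 1 + r² π₁ ssV` with divisor divisible by `r`, such local data at
  the closed points of the special fibre of the FINITE chart and at the CUSPS of the chart at
  infinity give `W = f ^ r`.  (The other closed points of the chart at infinity: overlap
  transfer `h86t_gate_transfer`; the chart inputs are the landed `h85s_ifaceSS*`.)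
* `H94tLoc` : the leaf: there is a depth `n` such that for every `w ∈ 1 + p ^ n ssV` with
  divisor divisible by `p ^ k` the function `Θ(w) = τ w / w ^ a` has the deep local datum
  (modulus `p ^ k π_𝔫`, ANY nonzero `π_𝔫 ∈ 𝔪_A`, depending on `w` and on the point) at
  the closed points of the finite chart and at the cusps which carry a zero or a pole of `w`.
* `h94t_torGate_of : H71Glue → H94tLoc → H11TorGate` : the conditional top (the unit datum at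
  the other closed points is the landed SS-PERM for the inertia group).

Every `Prop` is a definition; nothing is assumed.
-/

set_option autoImplicit false
set_option linter.unusedSectionVars false
set_option linter.style.haveILetI false
set_option synthInstance.maxHeartbeats 400000

open AlgebraicCurve ModularCurve WithZero IsLocalRing

noncomputable section

namespace Fermat.Agent.P6

open Fermat.Agent.S37 Fermat.Agent.Red Fermat.Agent.Red.GG Fermat.Agent.Red.GV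
  Fermat.Agent.Red.GV.Soft Fermat.Agent.Red.Kron Fermat.Agent.Red.ModelO Fermat.Agent.LGC
  Fermat.Agent.S35

/-- the deep local datum of the gate for `W` (exponent `r`, modulus `r π`) at the closed point
`𝔫` of the chart `t` of level `M ℓ`. -/
def H94tDatumAt (A : ValuationSubring Kbar) (M ℓ : ℕ) [NeZero M] [NeZero ℓ] (t : FF (M * ℓ))
    (π : A) (r : ℕ) (W : FF (M * ℓ)) (𝔫 : Ideal (chart (M * ℓ) A t)) : Prop :=
  ∃ g ∈ h26U ((r : A) * π) (ssV A M ℓ), ∃ s : chart (M * ℓ) A t, s ∉ 𝔫 ∧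
    (s : FF (M * ℓ)) * (W * (g ^ r)⁻¹) ∈ chart (M * ℓ) A t ∧
    (s : FF (M * ℓ)) * (g ^ r * W⁻¹) ∈ chart (M * ℓ) A t

/-! ## The common modulus -/

section Common

variable {A : Type*} [CommRing A] [IsDomain A] [ValuationRing A]
  {F : Type*} [Field F] [Algebra A F]
  {B : Subalgebra A F} {V : Subring F} {ι : Type*} {v : ι → Valuation F ℤᵐ⁰}

/-- **Common modulus.**  A deep local datum with its own modulus at the closed points carrying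
a place of the finite set `Z` and the unit datum at the other closed points give the deep
local datum with one modulus at all closed points (with the property `P`). -/
theorem h94t_common (hAV : ∀ a : A, algebraMap A F a ∈ V) (P : Ideal B → Prop)
    (hsec : ∀ (i : ι) (𝔫 : Ideal B), 𝔫.IsMaximal →
      (maximalIdeal A).map (algebraMap A B) ≤ 𝔫 → h26Centered B v 𝔫 i →
      ∃ φ : B →ₐ[A] A, (∀ b : B, φ b = 0 ↔ v i (b : F) < 1) ∧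
        (RingHom.ker (φ : B →+* A)).FG)
    (W : F) (r : ℕ) (Z : Finset ι)
    (hloc : ∀ 𝔫 : Ideal B, 𝔫.IsMaximal → (maximalIdeal A).map (algebraMap A B) ≤ 𝔫 → P 𝔫 →
      (∃ i ∈ Z, h26Centered B v 𝔫 i) →
      ∃ π ∈ maximalIdeal A, π ≠ 0 ∧ ∃ g ∈ h26U ((r : A) * π) V, ∃ s : B, s ∉ 𝔫 ∧
        (s : F) * (W * (g ^ r)⁻¹) ∈ B ∧ (s : F) * (g ^ r * W⁻¹) ∈ B)
    (hunit : ∀ 𝔫 : Ideal B, 𝔫.IsMaximal → (maximalIdeal A).map (algebraMap A B) ≤ 𝔫 → P 𝔫 →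
      (∀ i ∈ Z, ¬ h26Centered B v 𝔫 i) →
      ∃ s : B, s ∉ 𝔫 ∧ (s : F) * W ∈ B ∧ (s : F) * W⁻¹ ∈ B)
    (π₁ : A) (hπ₁ : π₁ ∈ maximalIdeal A) (hπ₁0 : π₁ ≠ 0) :
    ∃ π₀ ∈ maximalIdeal A, π₀ ≠ 0 ∧ π₀ ∣ π₁ ∧ ∀ π : A, π ∣ π₀ →
      ∀ 𝔫 : Ideal B, 𝔫.IsMaximal → (maximalIdeal A).map (algebraMap A B) ≤ 𝔫 → P 𝔫 →
        ∃ g ∈ h26U ((r : A) * π) V, ∃ s : B, s ∉ 𝔫 ∧
          (s : F) * (W * (g ^ r)⁻¹) ∈ B ∧ (s : F) * (g ^ r * W⁻¹) ∈ B := by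
  classical
  -- the moduli at the points
  have hex : ∀ 𝔫 : Ideal B, ∃ π ∈ maximalIdeal A, π ≠ 0 ∧ (𝔫.IsMaximal →
      (maximalIdeal A).map (algebraMap A B) ≤ 𝔫 → P 𝔫 → (∃ i ∈ Z, h26Centered B v 𝔫 i) →
      ∃ g ∈ h26U ((r : A) * π) V, ∃ s : B, s ∉ 𝔫 ∧
        (s : F) * (W * (g ^ r)⁻¹) ∈ B ∧ (s : F) * (g ^ r * W⁻¹) ∈ B) := by
    intro 𝔫
    by_cases h : 𝔫.IsMaximal ∧ (maximalIdeal A).map (algebraMap A B) ≤ 𝔫 ∧ P 𝔫 ∧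
        ∃ i ∈ Z, h26Centered B v 𝔫 i
    · obtain ⟨π, hπ, hπ0, hd⟩ := hloc 𝔫 h.1 h.2.1 h.2.2.1 h.2.2.2
      exact ⟨π, hπ, hπ0, fun _ _ _ _ => hd⟩
    · exact ⟨π₁, hπ₁, hπ₁0, fun h1 h2 h3 h4 => (h ⟨h1, h2, h3, h4⟩).elim⟩
  choose πN hπN hπN0 hπNd using hex
  -- the centre of a place
  have hex2 : ∀ i : ι, ∃ 𝔫 : Ideal B, ∀ 𝔫' : Ideal B, 𝔫'.IsMaximal →
      (maximalIdeal A).map (algebraMap A B) ≤ 𝔫' → h26Centered B v 𝔫' i → 𝔫' = 𝔫 := by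
    intro i
    by_cases h : ∃ 𝔫 : Ideal B, 𝔫.IsMaximal ∧ (maximalIdeal A).map (algebraMap A B) ≤ 𝔫 ∧
        h26Centered B v 𝔫 i
    · obtain ⟨𝔫, h𝔫, hle, hc⟩ := h
      obtain ⟨φ, hφ, -⟩ := hsec i 𝔫 h𝔫 hle hc
      exact ⟨𝔫, fun 𝔫' h𝔫' _ hc' => h75s_center_unique 𝔫' 𝔫 h𝔫' h𝔫 i hc' hc φ hφ⟩
    · exact ⟨⊥, fun 𝔫' h𝔫' hle' hc' => (h ⟨𝔫', h𝔫', hle', hc'⟩).elim⟩
  choose cen hcen using hex2
  obtain ⟨π₀, hπ₀, hπ₀0, hπ₀d, hπ₀c⟩ := h26_common_divisor Z (fun i => πN (cen i))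
    (fun i _ => hπN _) π₁ hπ₁ hπ₁0
  refine ⟨π₀, hπ₀, hπ₀0, hπ₀d, fun π hππ₀ 𝔫 h𝔫 hle hP => ?_⟩
  by_cases hi : ∃ i ∈ Z, h26Centered B v 𝔫 i
  · obtain ⟨i, hiZ, hic⟩ := hi
    have e : 𝔫 = cen i := hcen i 𝔫 h𝔫 hle hic
    obtain ⟨g, hg, s, hs, h1, h2⟩ := hπNd 𝔫 h𝔫 hle hP ⟨i, hiZ, hic⟩
    have hdvd : π ∣ πN 𝔫 := by
      rw [e]
      exact hππ₀.trans (hπ₀c i hiZ)
    exact ⟨g, h86t_U_of_dvd hAV (mul_dvd_mul_left _ hdvd) hg, s, hs, h1, h2⟩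
  · have hi' : ∀ i ∈ Z, ¬ h26Centered B v 𝔫 i := fun i hiZ hc => hi ⟨i, hiZ, hc⟩
    obtain ⟨s, hs, h1, h2⟩ := hunit 𝔫 h𝔫 hle hP hi'
    refine ⟨1, h26U_one, s, hs, ?_, ?_⟩
    · simpa using h1
    · simpa using h2

end Common

/-! ## The core -/

section Core

variable (A : ValuationSubring Kbar) (M ℓ : ℕ) [NeZero M] [NeZero ℓ]
  (hℓ : ℓ.Prime) (hM : ¬ ℓ ∣ M) (hA : A.LiesOverPrime ℓ)

include hℓ hA in
set_option maxHeartbeats 3200000 in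
/-- **the core of the top**, for a coordinate `t = j`. -/
theorem h94t_core_aux (t : FF (M * ℓ)) (ht : t = jB (M * ℓ))
    (hC₀ : IfaceSSChart A M ℓ t) (hC₁ : IfaceSSChart A M ℓ t⁻¹)
    (hNt : IfaceSSNt A M ℓ)
    (hF₀ : IfaceFinite (M * ℓ) A t)
    (hS₀ : IfaceSSSection A M ℓ t) (hS₁ : IfaceSSSection A M ℓ t⁻¹)
    (hG₀ : IfaceSSGeneric A M ℓ t) (hG₁ : IfaceSSGeneric A M ℓ t⁻¹)
    (r : ℕ) (hr : 0 < r) (W : FF (M * ℓ)) (hW0 : W ≠ 0)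
    (hord : ∀ v : Place Kbar (FF (M * ℓ)), (r : ℤ) ∣ v.ord W)
    (π₁ : A) (hπ₁ : π₁ ∈ maximalIdeal A) (hπ₁0 : π₁ ≠ 0)
    (hWU : W ∈ h26U ((r : A) ^ 2 * π₁) (ssV A M ℓ))
    (Z₀ : Finset (ChartPlace (M * ℓ) t)) (Z₁ : Finset (ChartPlace (M * ℓ) t⁻¹))
    (hloc₀ : ∀ 𝔫 : Ideal (chart (M * ℓ) A t), 𝔫.IsMaximal → mExt A M ℓ t ≤ 𝔫 →
      (∃ i ∈ Z₀, h26Centered (chart (M * ℓ) A t) (chartVal (M * ℓ) t) 𝔫 i) →
      ∃ π ∈ maximalIdeal A, π ≠ 0 ∧ H94tDatumAt A M ℓ t π r W 𝔫)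
    (hunit₀ : ∀ 𝔫 : Ideal (chart (M * ℓ) A t), 𝔫.IsMaximal → mExt A M ℓ t ≤ 𝔫 →
      (∀ i ∈ Z₀, ¬ h26Centered (chart (M * ℓ) A t) (chartVal (M * ℓ) t) 𝔫 i) →
      ∃ s : chart (M * ℓ) A t, s ∉ 𝔫 ∧ (s : FF (M * ℓ)) * W ∈ chart (M * ℓ) A t ∧
        (s : FF (M * ℓ)) * W⁻¹ ∈ chart (M * ℓ) A t)
    (hloc₁ : ∀ 𝔫 : Ideal (chart (M * ℓ) A t⁻¹), 𝔫.IsMaximal → mExt A M ℓ t⁻¹ ≤ 𝔫 →
      (⟨t⁻¹, h85_self_mem_modelAt (M * ℓ) A t⁻¹⟩ : chart (M * ℓ) A t⁻¹) ∈ 𝔫 →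
      (∃ i ∈ Z₁, h26Centered (chart (M * ℓ) A t⁻¹) (chartVal (M * ℓ) t⁻¹) 𝔫 i) →
      ∃ π ∈ maximalIdeal A, π ≠ 0 ∧ H94tDatumAt A M ℓ t⁻¹ π r W 𝔫)
    (hunit₁ : ∀ 𝔫 : Ideal (chart (M * ℓ) A t⁻¹), 𝔫.IsMaximal → mExt A M ℓ t⁻¹ ≤ 𝔫 →
      (⟨t⁻¹, h85_self_mem_modelAt (M * ℓ) A t⁻¹⟩ : chart (M * ℓ) A t⁻¹) ∈ 𝔫 →
      (∀ i ∈ Z₁, ¬ h26Centered (chart (M * ℓ) A t⁻¹) (chartVal (M * ℓ) t⁻¹) 𝔫 i) →
      ∃ s : chart (M * ℓ) A t⁻¹, s ∉ 𝔫 ∧ (s : FF (M * ℓ)) * W ∈ chart (M * ℓ) A t⁻¹ ∧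
        (s : FF (M * ℓ)) * W⁻¹ ∈ chart (M * ℓ) A t⁻¹) :
    ∃ f : FF (M * ℓ), f ^ r = W := by
  classical
  subst ht
  have hAF : Function.Injective (algebraMap A (FF (M * ℓ))) := algebraMap_injective_FF (M * ℓ) A
  have harch := harch_of_liesOver A hℓ hA
  have hr0 : r ≠ 0 := hr.ne'
  have hrA : ((r : ℕ) : A) ≠ 0 := by
    intro h
    have h1 : ((r : ℕ) : Kbar) = 0 := by
      have := congrArg (fun x : A => (x : Kbar)) h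
      simpa using this
    exact hr0 (by exact_mod_cast h1)
  have hAV : ∀ a : A, algebraMap A (FF (M * ℓ)) a ∈ ssV A M ℓ := fun a =>
    hC₀.hBV _ ((chart (M * ℓ) A (jB (M * ℓ))).algebraMap_mem a)
  have hj0 : jB (M * ℓ) ≠ 0 := h85_jB_ne_zero (M * ℓ)
  -- the common moduli
  obtain ⟨π₀, hπ₀, hπ₀0, hπ₀d, hD₀⟩ := h94t_common (B := chart (M * ℓ) A (jB (M * ℓ)))
    (v := chartVal (M * ℓ) (jB (M * ℓ))) hAV (fun _ => True) hS₀ W r Z₀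
    (fun 𝔫 h𝔫 hle _ hi => hloc₀ 𝔫 h𝔫 hle hi) (fun 𝔫 h𝔫 hle _ hi => hunit₀ 𝔫 h𝔫 hle hi)
    π₁ hπ₁ hπ₁0
  obtain ⟨π, hπ, hπ0, hπd, hD₁⟩ := h94t_common (B := chart (M * ℓ) A (jB (M * ℓ))⁻¹)
    (v := chartVal (M * ℓ) (jB (M * ℓ))⁻¹) hAV
    (fun 𝔫 => (⟨(jB (M * ℓ))⁻¹, h85_self_mem_modelAt (M * ℓ) A (jB (M * ℓ))⁻¹⟩ :
      chart (M * ℓ) A (jB (M * ℓ))⁻¹) ∈ 𝔫) hS₁ W r Z₁
    (fun 𝔫 h𝔫 hle hc hi => hloc₁ 𝔫 h𝔫 hle hc hi)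
    (fun 𝔫 h𝔫 hle hc hi => hunit₁ 𝔫 h𝔫 hle hc hi) π₀ hπ₀ hπ₀0
  have hL₀ := hD₀ π hπd
  have hL₁ := hD₁ π dvd_rfl
  have hWUπ : W ∈ h26U ((r : A) ^ 2 * π) (ssV A M ℓ) :=
    h86t_U_of_dvd hAV (mul_dvd_mul_left _ (hπd.trans hπ₀d)) hWU
  -- the chart at infinity
  have hloc₁' : ∀ 𝔫 : Ideal (chart (M * ℓ) A (jB (M * ℓ))⁻¹), 𝔫.IsMaximal →
      (maximalIdeal A).map (algebraMap A (chart (M * ℓ) A (jB (M * ℓ))⁻¹)) ≤ 𝔫 →
      ∃ g ∈ h26U ((r : A) * π) (ssV A M ℓ), ∃ s : chart (M * ℓ) A (jB (M * ℓ))⁻¹, s ∉ 𝔫 ∧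
        (s : FF (M * ℓ)) * (W * (g ^ r)⁻¹) ∈ chart (M * ℓ) A (jB (M * ℓ))⁻¹ ∧
        (s : FF (M * ℓ)) * (g ^ r * W⁻¹) ∈ chart (M * ℓ) A (jB (M * ℓ))⁻¹ := by
    intro 𝔫 h𝔫 hle
    by_cases hov : (⟨(jB (M * ℓ))⁻¹, h85_self_mem_modelAt (M * ℓ) A (jB (M * ℓ))⁻¹⟩ :
          chart (M * ℓ) A (jB (M * ℓ))⁻¹) ∈ 𝔫
    · exact hL₁ 𝔫 h𝔫 hle hov
    · exact h86t_gate_transfer (A := A) (F := FF (M * ℓ))
        (B₀ := chart (M * ℓ) A (jB (M * ℓ))) (B₁ := chart (M * ℓ) A (jB (M * ℓ))⁻¹)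
        (t := jB (M * ℓ)) hj0 (h85_self_mem_modelAt (M * ℓ) A (jB (M * ℓ)))
        (h85_self_mem_modelAt (M * ℓ) A (jB (M * ℓ))⁻¹)
        (fun y hy => h85_exists_pow_mul_mem_modelAt (M * ℓ) A hj0 hy)
        (fun y hy => by
          have hy' : y ∈ modelAt (M * ℓ) A ((jB (M * ℓ))⁻¹)⁻¹ := by rw [inv_inv]; exact hy
          exact h85_exists_pow_mul_mem_modelAt (M * ℓ) A (inv_ne_zero hj0) hy')
        (h85ev (M * ℓ) A (jB (M * ℓ))⁻¹)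
        (fun a => by rw [h85ev_C]; rfl)
        (h85ev_X (M * ℓ) A (jB (M * ℓ))⁻¹)
        (fun y hy => (h85_mem_modelAt_iff_isIntegralElem (M * ℓ) A (jB (M * ℓ))⁻¹ y).1 hy)
        (fun g => g ∈ h26U ((r : A) * π) (ssV A M ℓ))
        (fun g => W * (g ^ r)⁻¹)
        (fun g => g ^ r * W⁻¹)
        (fun 𝔫₀ h𝔫₀ hle₀ => hL₀ 𝔫₀ h𝔫₀ hle₀ trivial)
        𝔫 h𝔫 hle hov
  -- the gate
  obtain ⟨S, hS, hfin⟩ := span_of_ifaceFinite (M * ℓ) A (jB (M * ℓ)) hF₀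
  have hjV : jB (M * ℓ) ∈ ssV A M ℓ := hC₀.hBV _ (h85_jB_mem_modelFin (M * ℓ) A)
  obtain ⟨f₀, hf0, hf₀, hfinf⟩ := h90p_gate_asm_loc hAF harch (ssV A M ℓ) hNt (jB (M * ℓ)) hj0
    (chart (M * ℓ) A (jB (M * ℓ))) (chart (M * ℓ) A (jB (M * ℓ))⁻¹) (chartMid (M * ℓ) A)
    (h85_jB_mem_modelFin (M * ℓ) A) (h85_jB_inv_mem_modelInf (M * ℓ) A)
    (h85_modelFin_le_modelMid (M * ℓ) A) (h85_modelInf_le_modelMid (M * ℓ) A)
    (fun x hx => h85_modelMid_scale_fin (M * ℓ) A hx)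
    (fun x hx => h85_modelMid_scale_inf (M * ℓ) A hx)
    r hr hrA
    (fun x hx => h85_modelAt_root_closed (M * ℓ) A _ hr0 hx)
    (fun x hx => h85_modelAt_root_closed (M * ℓ) A _ hr0 hx)
    (fun x hx => h85_modelMid_root_closed (M * ℓ) A hr0 hx)
    (fun a ha x hx hax => h85_modelMid_qep (M * ℓ) A (ssV A M ℓ) hjV
      (algebraMap A (FF (M * ℓ)) a)
      (fun y hy hay => hC₀.hQEP a ha y hy (by rw [Algebra.smul_def]; exact hay)) hx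
      (by rw [Algebra.smul_def] at hax; exact hax))
    (chartVal (M * ℓ) (jB (M * ℓ))) (chartVal (M * ℓ) (jB (M * ℓ))⁻¹) hC₀ hC₁ hG₀ hG₁
    S hS hfin W hW0 (exists_val_eq (M * ℓ) (jB (M * ℓ)) W hW0 r hord)
    (exists_val_eq (M * ℓ) (jB (M * ℓ))⁻¹ W hW0 r hord)
    π hπ hπ0 hWUπ (fun 𝔫 h𝔫 hle => hL₀ 𝔫 h𝔫 hle trivial) hloc₁'
  -- `f₀ ^ r / W` is a constant
  obtain ⟨a, -, ha⟩ := h85_modelFin_inf_modelInf (M * ℓ) A hf₀ hfinf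
  have ha0 : a ≠ 0 := by
    rintro rfl
    rw [cst, map_zero] at ha
    exact mul_ne_zero (pow_ne_zero _ hf0) (inv_ne_zero hW0) ha
  obtain ⟨b, hb⟩ := IsAlgClosed.exists_pow_nat_eq a hr
  have hb0 : b ≠ 0 := by
    rintro rfl
    rw [zero_pow hr0] at hb
    exact ha0 hb.symm
  have hcb0 : cst (M * ℓ) b ≠ 0 := by
    simpa only [cst, ne_eq, map_eq_zero] using hb0
  refine ⟨f₀ * (cst (M * ℓ) b)⁻¹, ?_⟩
  have h1 : cst (M * ℓ) b ^ r = f₀ ^ r * W⁻¹ := by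
    rw [ha, ← hb]
    exact (map_pow _ _ _).symm
  rw [mul_pow, inv_pow, h1]
  field_simp

end Core

/-- **the core of the top** at the good levels: the landed chart inputs are inserted. -/
theorem h94t_core (ℓ : ℕ) (hℓ : ℓ.Prime) (M : ℕ) [NeZero M] (hM : ¬ ℓ ∣ M)
    (haux : auxLevel ℓ ∣ M) (A : ValuationSubring Kbar) (hA : A.LiesOverPrime ℓ) :
    haveI : NeZero ℓ := ⟨hℓ.ne_zero⟩
    ∀ (r : ℕ), 0 < r → ∀ W : FF (M * ℓ), W ≠ 0 →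
    (∀ v : Place Kbar (FF (M * ℓ)), (r : ℤ) ∣ v.ord W) →
    ∀ π₁ : A, π₁ ∈ maximalIdeal A → π₁ ≠ 0 →
    W ∈ h26U ((r : A) ^ 2 * π₁) (ssV A M ℓ) →
    ∀ (Z₀ : Finset (ChartPlace (M * ℓ) (jSS M ℓ)))
      (Z₁ : Finset (ChartPlace (M * ℓ) (jSS M ℓ)⁻¹)),
    (∀ 𝔫 : Ideal (chart (M * ℓ) A (jSS M ℓ)), 𝔫.IsMaximal → mExt A M ℓ (jSS M ℓ) ≤ 𝔫 →
      (∃ i ∈ Z₀, h26Centered (chart (M * ℓ) A (jSS M ℓ)) (chartVal (M * ℓ) (jSS M ℓ)) 𝔫 i) →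
      ∃ π ∈ maximalIdeal A, π ≠ 0 ∧ H94tDatumAt A M ℓ (jSS M ℓ) π r W 𝔫) →
    (∀ 𝔫 : Ideal (chart (M * ℓ) A (jSS M ℓ)), 𝔫.IsMaximal → mExt A M ℓ (jSS M ℓ) ≤ 𝔫 →
      (∀ i ∈ Z₀, ¬ h26Centered (chart (M * ℓ) A (jSS M ℓ)) (chartVal (M * ℓ) (jSS M ℓ)) 𝔫 i) →
      ∃ s : chart (M * ℓ) A (jSS M ℓ), s ∉ 𝔫 ∧
        (s : FF (M * ℓ)) * W ∈ chart (M * ℓ) A (jSS M ℓ) ∧
        (s : FF (M * ℓ)) * W⁻¹ ∈ chart (M * ℓ) A (jSS M ℓ)) →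
    (∀ 𝔫 : Ideal (chart (M * ℓ) A (jSS M ℓ)⁻¹), 𝔫.IsMaximal →
      mExt A M ℓ (jSS M ℓ)⁻¹ ≤ 𝔫 →
      (⟨(jSS M ℓ)⁻¹, h85_self_mem_modelAt (M * ℓ) A (jSS M ℓ)⁻¹⟩ :
        chart (M * ℓ) A (jSS M ℓ)⁻¹) ∈ 𝔫 →
      (∃ i ∈ Z₁, h26Centered (chart (M * ℓ) A (jSS M ℓ)⁻¹)
        (chartVal (M * ℓ) (jSS M ℓ)⁻¹) 𝔫 i) →
      ∃ π ∈ maximalIdeal A, π ≠ 0 ∧ H94tDatumAt A M ℓ (jSS M ℓ)⁻¹ π r W 𝔫) →
    (∀ 𝔫 : Ideal (chart (M * ℓ) A (jSS M ℓ)⁻¹), 𝔫.IsMaximal →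
      mExt A M ℓ (jSS M ℓ)⁻¹ ≤ 𝔫 →
      (⟨(jSS M ℓ)⁻¹, h85_self_mem_modelAt (M * ℓ) A (jSS M ℓ)⁻¹⟩ :
        chart (M * ℓ) A (jSS M ℓ)⁻¹) ∈ 𝔫 →
      (∀ i ∈ Z₁, ¬ h26Centered (chart (M * ℓ) A (jSS M ℓ)⁻¹)
        (chartVal (M * ℓ) (jSS M ℓ)⁻¹) 𝔫 i) →
      ∃ s : chart (M * ℓ) A (jSS M ℓ)⁻¹, s ∉ 𝔫 ∧
        (s : FF (M * ℓ)) * W ∈ chart (M * ℓ) A (jSS M ℓ)⁻¹ ∧
        (s : FF (M * ℓ)) * W⁻¹ ∈ chart (M * ℓ) A (jSS M ℓ)⁻¹) →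
    ∃ f : FF (M * ℓ), f ^ r = W := by
  haveI : NeZero ℓ := ⟨hℓ.ne_zero⟩
  intro r hr W hW0 hord π₁ hπ₁ hπ₁0 hWU Z₀ Z₁ hloc₀ hunit₀ hloc₁ hunit₁
  obtain ⟨hF₀, hF₁⟩ := ifaceSSFiniteAll ℓ hℓ M hM haux A hA
  exact h94t_core_aux A M ℓ hℓ hA (jSS M ℓ) (h63_jSS_eq M ℓ)
    (h85s_ifaceSSChart_fin A M ℓ hℓ hM hA) (h85s_ifaceSSChart_inf A M ℓ hℓ hM hA)
    (h85s_ifaceSSNt A M ℓ hℓ hM hA) hF₀
    (h85s_ifaceSSSection_of A M ℓ _ hF₀) (h85s_ifaceSSSection_of A M ℓ _ hF₁)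
    (h85s_ifaceSSGeneric_fin A M ℓ hℓ hA) (h85s_ifaceSSGeneric_inf A M ℓ hℓ hA)
    r hr W hW0 hord π₁ hπ₁ hπ₁0 hWU Z₀ Z₁ hloc₀ hunit₀ hloc₁ hunit₁

/-! ## The twisted difference `Θ(z) = τ z / z ^ a` -/

section Theta

variable (N : ℕ) (τ : GQ) (a : ℕ)

theorem h94t_theta_mul (x y : FF N) :
    h11Theta N τ a (x * y) = h11Theta N τ a x * h11Theta N τ a y := by
  unfold h11Theta
  rw [smul_mul', mul_pow, mul_div_mul_comm]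

theorem h94t_theta_pow (x : FF N) (r : ℕ) :
    h11Theta N τ a (x ^ r) = h11Theta N τ a x ^ r := by
  unfold h11Theta
  rw [smul_pow', div_pow, ← pow_mul, ← pow_mul, mul_comm r a]

theorem h94t_theta_ne_zero {x : FF N} (hx : x ≠ 0) : h11Theta N τ a x ≠ 0 :=
  div_ne_zero (h63_gal_ne_zero N τ hx) (pow_ne_zero _ hx)

theorem h94t_theta_eq (x : FF N) :
    h11Theta N τ a x = (SemilinearAut.toRingAut (gal N τ)) x * (x ^ a)⁻¹ := by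
  unfold h11Theta
  rw [div_eq_mul_inv]
  rfl

/-- divisibility of the orders of `Θ(w)`. -/
theorem h94t_dvd_ord_theta (m : ℕ) (w : FF N) (hw0 : w ≠ 0)
    (hord : ∀ v : Place Kbar (FF N), (m : ℤ) ∣ v.ord w) (v : Place Kbar (FF N)) :
    (m : ℤ) ∣ v.ord (h11Theta N τ a w) := by
  have h1 : gal N τ • w ≠ 0 := h63_gal_ne_zero N τ hw0
  have h2 : (w ^ a)⁻¹ ≠ 0 := inv_ne_zero (pow_ne_zero _ hw0)
  unfold h11Theta
  rw [div_eq_mul_inv, v.ord_mul h1 h2, v.ord_inv]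
  have h3 : v.ord (w ^ a) = (a : ℤ) * v.ord w := by
    rw [← zpow_natCast, v.ord_zpow]
  rw [h3]
  exact dvd_add (h63_dvd_ord_gal N τ m w hord v)
    (Dvd.dvd.neg_right (Dvd.dvd.mul_left (hord v) _))

end Theta

section ThetaU

variable (A : ValuationSubring Kbar) (M ℓ : ℕ) [NeZero M] [NeZero ℓ]
  (hℓ : ℓ.Prime) (hM : ¬ ℓ ∣ M) (hA : A.LiesOverPrime ℓ)

include hℓ hM hA in
/-- `Θ` preserves `1 + ℓ ^ n ssV`. -/
theorem h94t_theta_U {τ : GQ} (hτ : τ ∈ A.decompositionSubgroup ℚ) (a n : ℕ) (hn : 0 < n)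
    {w : FF (M * ℓ)} (hw : w ∈ h26U ((ℓ : A) ^ n) (ssV A M ℓ)) :
    h11Theta (M * ℓ) τ a w ∈ h26U ((ℓ : A) ^ n) (ssV A M ℓ) := by
  have hC₀ := h85s_ifaceSSChart_fin A M ℓ hℓ hM hA
  have hNt := h85s_ifaceSSNt A M ℓ hℓ hM hA
  have hmem : ((ℓ : A) ^ n) ∈ maximalIdeal A := by
    refine Ideal.pow_mem_of_mem _ ?_ n hn
    rw [GG.mem_maximalIdeal_iff]
    exact hA
  have hfix : (SemilinearAut.toRingAut (gal (M * ℓ) τ)) (algebraMap A (FF (M * ℓ)) ((ℓ : A) ^ n))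
      = algebraMap A (FF (M * ℓ)) ((ℓ : A) ^ n) := by
    have h1 : algebraMap A (FF (M * ℓ)) ((ℓ : A) ^ n) = cst (M * ℓ) (((ℓ : A) ^ n : A) : Kbar) :=
      rfl
    rw [h1]
    show gal (M * ℓ) τ • cst (M * ℓ) _ = _
    rw [GalI.gal_smul_cst]
    congr 1
    push_cast
    rw [map_pow, map_natCast]
  have h := h86t_theta_U hC₀ hNt (SemilinearAut.toRingAut (gal (M * ℓ) τ))
    (fun x hx => h85c_hWV A M ℓ hℓ hM hA _
      (h86t_gal_mem_Winf A M ℓ hℓ hA hτ (h85c_ssV_le_Winf A M ℓ hℓ hA hx))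
      (h86t_gal_mem_W0 A M ℓ hℓ hM hA hτ (h85c_ssV_le_W0 A M ℓ hℓ hM hA hx))) a ((ℓ : A) ^ n)
    ((ℓ : A) ^ n) ((ℓ : A) ^ n) hfix hmem dvd_rfl dvd_rfl hw
  rw [h94t_theta_eq]
  exact h

include hℓ hM hA in
/-- **the unit datum for `Θ(w)`** at a closed point of the special fibre where `w` has no zero
or pole (SS-PERM for the inertia group). -/
theorem h94t_unit_datum (t : FF (M * ℓ)) (hC : IfaceSSChart A M ℓ t)
    (hPerm : IfaceSSPerm A M ℓ t) {τ : GQ} (hτ : τ ∈ A.inertiaSubgroupIn ℚ) (a n : ℕ)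
    (hn : 0 < n) {w : FF (M * ℓ)} (hw : w ∈ h26U ((ℓ : A) ^ n) (ssV A M ℓ))
    (𝔫 : Ideal (chart (M * ℓ) A t)) (h𝔫 : 𝔫.IsMaximal) (hle : mExt A M ℓ t ≤ 𝔫)
    (hw1 : ∀ k, h26Centered (chart (M * ℓ) A t) (chartVal (M * ℓ) t) 𝔫 k →
      chartVal (M * ℓ) t k w = 1) :
    ∃ s : chart (M * ℓ) A t, s ∉ 𝔫 ∧
      (s : FF (M * ℓ)) * h11Theta (M * ℓ) τ a w ∈ chart (M * ℓ) A t ∧
      (s : FF (M * ℓ)) * (h11Theta (M * ℓ) τ a w)⁻¹ ∈ chart (M * ℓ) A t := by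
  haveI := h𝔫.isPrime
  have hτD : τ ∈ A.decompositionSubgroup ℚ := by
    obtain ⟨x, -, rfl⟩ := hτ
    exact x.2
  have hNt := h85s_ifaceSSNt A M ℓ hℓ hM hA
  have hmem : ((ℓ : A) ^ n) ∈ maximalIdeal A := by
    refine Ideal.pow_mem_of_mem _ ?_ n hn
    rw [GG.mem_maximalIdeal_iff]
    exact hA
  have hAV : ∀ x : A, algebraMap A (FF (M * ℓ)) x ∈ ssV A M ℓ := fun x =>
    hC.hBV _ ((chart (M * ℓ) A t).algebraMap_mem x)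
  have hWU := h94t_theta_U A M ℓ hℓ hM hA hτD a n hn hw
  have hWV : h11Theta (M * ℓ) τ a w ∈ ssV A M ℓ := h26U_mem_V (hAV _) hWU
  have hWV' : (h11Theta (M * ℓ) τ a w)⁻¹ ∈ ssV A M ℓ :=
    h26U_mem_V (hAV _) (h26U_inv (hC.hVunit _ hmem) (hNt _ hmem) hWU)
  rw [h94t_theta_eq] at hWV hWV' ⊢
  exact h86t_unit_datum hC 𝔫 (SemilinearAut.toRingAut (gal (M * ℓ) τ)) a
    (fun z hz k hk => hPerm τ hτ 𝔫 h𝔫 hle z hz k hk) w hWV hWV' hw1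

end ThetaU

/-! ## The leaf and the conditional top -/

/-- **TOR-LOC** (the leaf of TOR-GATE-p): there is a depth `n` such that for every
`w ∈ 1 + p ^ n ssV` whose divisor is divisible by `p ^ k`, the twisted difference
`Θ(w) = τ w / w ^ a` has a deep local datum of the gate (exponent `p ^ k`, modulus `p ^ k π`
for SOME nonzero `π ∈ 𝔪_A`, which may depend on `w` and on the point) at every closed point
of the special fibre of the finite chart, and at every cusp, carrying a zero or a pole of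
`w`. -/
def H94tLoc : Prop :=
  ∀ (p : ℕ) (hp : p.Prime), p ≠ 2 → ∀ (M : ℕ) [NeZero M], ¬ p ∣ M → auxLevel p ∣ M →
    haveI : NeZero p := ⟨hp.ne_zero⟩
    ∀ A : ValuationSubring Kbar, A.LiesOverPrime p →
    ∀ τ ∈ A.inertiaSubgroupIn ℚ, ∀ (k a : ℕ), H11Cyc p k τ a →
    ∃ n : ℕ, ∀ w : FF (M * p), w ∈ h26U ((p : A) ^ n) (ssV A M p) →
      (∀ v : Place Kbar (FF (M * p)), ((p ^ k : ℕ) : ℤ) ∣ v.ord w) →
      (∀ 𝔫 : Ideal (chart (M * p) A (jSS M p)), 𝔫.IsMaximal → mExt A M p (jSS M p) ≤ 𝔫 →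
        (∃ i, h26Centered (chart (M * p) A (jSS M p)) (chartVal (M * p) (jSS M p)) 𝔫 i ∧
          chartVal (M * p) (jSS M p) i w ≠ 1) →
        ∃ π ∈ maximalIdeal A, π ≠ 0 ∧
          H94tDatumAt A M p (jSS M p) π (p ^ k) (h11Theta (M * p) τ a w) 𝔫) ∧
      (∀ 𝔫 : Ideal (chart (M * p) A (jSS M p)⁻¹), 𝔫.IsMaximal →
        mExt A M p (jSS M p)⁻¹ ≤ 𝔫 →
        (⟨(jSS M p)⁻¹, h85_self_mem_modelAt (M * p) A (jSS M p)⁻¹⟩ :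
          chart (M * p) A (jSS M p)⁻¹) ∈ 𝔫 →
        (∃ i, h26Centered (chart (M * p) A (jSS M p)⁻¹)
            (chartVal (M * p) (jSS M p)⁻¹) 𝔫 i ∧
          chartVal (M * p) (jSS M p)⁻¹ i w ≠ 1) →
        ∃ π ∈ maximalIdeal A, π ≠ 0 ∧
          H94tDatumAt A M p (jSS M p)⁻¹ π (p ^ k) (h11Theta (M * p) τ a w) 𝔫)

set_option maxHeartbeats 1600000 in
/-- **the conditional top of TOR-GATE-p**: glue (weak approximation at the two Gauss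
valuations) and the deep local datum of `Θ` give the gate. -/
theorem h94t_torGate_of (hG : H71Glue) (hL : H94tLoc) : H11TorGate := by
  classical
  intro p hp hp2 M _ hM haux
  haveI : NeZero p := ⟨hp.ne_zero⟩
  intro A hA τ hτ k a ha z hz0 hord hdeep
  have hτD : τ ∈ A.decompositionSubgroup ℚ := by
    obtain ⟨x, -, rfl⟩ := hτ
    exact x.2
  have hr : 0 < p ^ k := pow_pos hp.pos k
  have hC₀ := h85s_ifaceSSChart_fin A M p hp hM hA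
  have hC₁ := h85s_ifaceSSChart_inf A M p hp hM hA
  have hNt := h85s_ifaceSSNt A M p hp hM hA
  have hP₀ := ifaceSSPerm_of_chart hp hM hA hC₀
  have hP₁ := ifaceSSPerm_inv_of_chart hp hM hA hC₁
  have hAV : ∀ x : A, algebraMap A (FF (M * p)) x ∈ ssV A M p := fun x =>
    hC₀.hBV _ ((chart (M * p) A (jSS M p)).algebraMap_mem x)
  have hpm : (p : A) ∈ maximalIdeal A := by
    rw [GG.mem_maximalIdeal_iff]
    exact hA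
  have hp0 : (p : A) ≠ 0 := by
    intro h
    have h1 : ((p : ℕ) : Kbar) = 0 := by
      have := congrArg (fun x : A => (x : Kbar)) h
      simpa using this
    exact hp.ne_zero (by exact_mod_cast h1)
  obtain ⟨n₀, hloc⟩ := hL p hp hp2 M hM haux A hA τ hτ k a ha
  -- the depth
  set n : ℕ := n₀ + (2 * k + 1) with hn
  have hn0 : 0 < n := by omega
  have hdvd₁ : (p : A) ^ n₀ ∣ (p : A) ^ n := pow_dvd_pow _ (by omega)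
  have hdvd₂ : ((p ^ k : ℕ) : A) ^ 2 * (p : A) ∣ (p : A) ^ n := by
    have e : ((p ^ k : ℕ) : A) ^ 2 * (p : A) = (p : A) ^ (2 * k + 1) := by
      push_cast
      ring
    rw [e]
    exact pow_dvd_pow _ (by omega)
  -- glue
  have he : ((p : Kbar) ^ n) ∈ A.nonunits := by
    have h1 : (((p : A) ^ n : A) : Kbar) ∈ A.nonunits :=
      ValuationSubring.coe_mem_nonunits_iff.mpr (Ideal.pow_mem_of_mem _ hpm n hn0)
    simpa using h1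
  have he0 : ((p : Kbar) ^ n) ≠ 0 := pow_ne_zero _ (by exact_mod_cast hp.ne_zero)
  have hall : ∀ e : Kbar, e ∈ A.nonunits → e ≠ 0 →
      (∃ g : FF (M * p), g ≠ 0 ∧ H71Cong A (M * p) e (z * (g ^ (p ^ k))⁻¹)) ∧
      (∃ g : FF (M * p), g ≠ 0 ∧
        H71Cong A (M * p) e (kFricke M p hp hM (z * (g ^ (p ^ k))⁻¹))) := by
    intro e he he0
    obtain ⟨⟨h, hh0, s, hs, hz⟩, ⟨h', hh'0, s', hs', hz'⟩⟩ :=
      hdeep e (A.nonunits_le he) he0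
    refine ⟨⟨h, hh0, s, hs, ?_⟩, ⟨(kFricke M p hp hM).symm h', ?_, s', hs', ?_⟩⟩
    · rw [hz]
      field_simp
    · simpa using hh'0
    · rw [map_mul, map_inv₀, map_pow, AlgEquiv.apply_symm_apply, hz']
      field_simp
  obtain ⟨h, hh0, s, hs, hzs⟩ := hG p hp M hM A hA (p ^ k) hr z hz0 hall _ he he0
  set w : FF (M * p) := z * (h ^ (p ^ k))⁻¹ with hw
  have hwU : w ∈ h26U ((p : A) ^ n) (ssV A M p) := by
    refine ⟨s, hs, ?_⟩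
    rw [hzs]
    congr 2
  have hw0 : w ≠ 0 := mul_ne_zero hz0 (inv_ne_zero (pow_ne_zero _ hh0))
  have hordw : ∀ v : Place Kbar (FF (M * p)), ((p ^ k : ℕ) : ℤ) ∣ v.ord w := by
    intro v
    rw [hw, v.ord_mul hz0 (inv_ne_zero (pow_ne_zero _ hh0)), v.ord_inv]
    have h3 : v.ord (h ^ (p ^ k)) = ((p ^ k : ℕ) : ℤ) * v.ord h := by
      rw [← zpow_natCast, v.ord_zpow]
    rw [h3]
    exact dvd_add (hord v) (Dvd.dvd.neg_right (dvd_mul_right _ _))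
  -- the function of the gate
  obtain ⟨hl₀, hl₁⟩ := hloc w (h86t_U_of_dvd hAV hdvd₁ hwU) hordw
  have hWU : h11Theta (M * p) τ a w ∈ h26U (((p ^ k : ℕ) : A) ^ 2 * (p : A)) (ssV A M p) :=
    h86t_U_of_dvd hAV hdvd₂ (h94t_theta_U A M p hp hM hA hτD a n hn0 hwU)
  obtain ⟨f, hf⟩ := h94t_core p hp M hM haux A hA (p ^ k) hr (h11Theta (M * p) τ a w)
    (h94t_theta_ne_zero (M * p) τ a hw0) (h94t_dvd_ord_theta (M * p) τ a (p ^ k) w hw0 hordw)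
    (p : A) hpm hp0 hWU
    (h26_finite_support hC₀ w hw0).toFinset (h26_finite_support hC₁ w hw0).toFinset
    (fun 𝔫 h𝔫 hle hi => by
      obtain ⟨i, hiZ, hic⟩ := hi
      exact hl₀ 𝔫 h𝔫 hle ⟨i, hic, (Set.Finite.mem_toFinset _).mp hiZ⟩)
    (fun 𝔫 h𝔫 hle hi => by
      refine h94t_unit_datum A M p hp hM hA _ hC₀ hP₀ hτ a n hn0 hwU 𝔫 h𝔫 hle ?_
      intro k hk
      by_contra hne
      exact hi k ((Set.Finite.mem_toFinset _).mpr hne) hk)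
    (fun 𝔫 h𝔫 hle hc hi => by
      obtain ⟨i, hiZ, hic⟩ := hi
      exact hl₁ 𝔫 h𝔫 hle hc ⟨i, hic, (Set.Finite.mem_toFinset _).mp hiZ⟩)
    (fun 𝔫 h𝔫 hle _ hi => by
      refine h94t_unit_datum A M p hp hM hA _ hC₁ hP₁ hτ a n hn0 hwU 𝔫 h𝔫 hle ?_
      intro k hk
      by_contra hne
      exact hi k ((Set.Finite.mem_toFinset _).mpr hne) hk)
  -- conclusion
  refine ⟨f * h11Theta (M * p) τ a h, ?_⟩
  have hz : z = w * h ^ (p ^ k) := by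
    rw [hw]
    field_simp
  rw [mul_pow, hf, ← h94t_theta_pow, ← h94t_theta_mul, ← hz]

end Fermat.Agent.P6
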