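import Mathlib

/-!
# Wave 6 (S33), block B2-TOR, row B2-T3-NODE-CONTENT (helper95): content induction at a node

Abstract, Mathlib only.  `A` a valuation ring, `F` a field over `A`, `O ⊆ F` a local
`A`-subalgebra (the local ring of a chart at a closed point of the special fibre lying on both
components), `W₁, W₂ ⊇ O` the two Gauss rings, `x, y ∈ O` non-units with `x⁻¹ ∈ W₁`,
`y⁻¹ ∈ W₂` (the two branches of a node `x y = a`).

* `h95q_exists_content`, `h95q_prim_mul`, `h95q_gauss` : contents of polynomials over a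
  valuation ring (Gauss lemma).
* `h95q_one_side` : the induction on one branch.
* `h95q_node_content` : **content induction at a node**: if `e P(x) ≡ Q(x)` and
  `e κ Pd(y) ≡ Qd(y)` modulo `ρ O` with `e` a unit of `O` and `P, Q, Pd, Qd` monic of degree `M`
  and `≡ X ^ M` modulo `𝔪_A`, then `P ≡ Q`, `κ Pd ≡ Qd` modulo `ρ A[X]` and `e ≡ 1` modulo `ρ O`.
* `h95q_root_gauss` : `N ^ r ≡ D ^ r` modulo `r c` for monic `N, D` of the same degree gives
  `N ≡ D` modulo `c`.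
* `h95q_root_of_unity` : `κ ^ r ≡ 1` modulo `r c` gives `κ ≡ ζ` modulo `c` for a root of unity
  `ζ`, if `X ^ r - 1` splits over `A`.

No purity and no Artin–Schreier analysis is needed: the local generator
`∏ (x - a_i) ^ (n_i)` of the divisor at the node is automatically deep.
-/

set_option autoImplicit false
set_option linter.unusedSectionVars false

open Polynomial IsLocalRing

namespace Fermat.Agent.P6

section Content

variable {A : Type*} [CommRing A] [IsDomain A] [ValuationRing A]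

/-- a polynomial over a valuation ring is primitive if one of its coefficients is a unit. -/
def h95qPrim (f : A[X]) : Prop := ∃ j, IsUnit (f.coeff j)

theorem h95q_prim_iff_map (f : A[X]) : h95qPrim f ↔ f.map (residue A) ≠ 0 := by
  constructor
  · rintro ⟨j, hj⟩ h
    have h1 : (f.map (residue A)).coeff j = 0 := by rw [h, coeff_zero]
    rw [coeff_map] at h1
    exact (residue_ne_zero_iff_isUnit _).mpr hj h1
  · intro h
    by_contra hne
    apply h
    ext j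
    rw [coeff_map, coeff_zero]
    by_contra h1
    exact hne ⟨j, (residue_ne_zero_iff_isUnit _).mp h1⟩

theorem h95q_prim_mul {f g : A[X]} (hf : h95qPrim f) (hg : h95qPrim g) : h95qPrim (f * g) := by
  rw [h95q_prim_iff_map] at hf hg ⊢
  rw [Polynomial.map_mul]
  exact mul_ne_zero hf hg

/-- in a valuation ring, a finite nonempty family has an element dividing all the others. -/
theorem h95q_exists_min_dvd (s : Finset ℕ) (hs : s.Nonempty) (c : ℕ → A) :
    ∃ j ∈ s, ∀ i ∈ s, c j ∣ c i := by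
  classical
  induction hs using Finset.Nonempty.cons_induction with
  | singleton a => exact ⟨a, Finset.mem_singleton_self a, fun i hi => by
      rw [Finset.mem_singleton] at hi; rw [hi]⟩
  | cons a s ha hs ih =>
    obtain ⟨j, hj, hjs⟩ := ih
    rcases ValuationRing.dvd_total (c a) (c j) with h | h
    · refine ⟨a, Finset.mem_cons_self a s, fun i hi => ?_⟩
      rw [Finset.mem_cons] at hi
      rcases hi with rfl | hi
      · exact dvd_rfl
      · exact h.trans (hjs i hi)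
    · refine ⟨j, Finset.mem_cons.mpr (Or.inr hj), fun i hi => ?_⟩
      rw [Finset.mem_cons] at hi
      rcases hi with rfl | hi
      · exact h
      · exact hjs i hi

/-- **content**: a nonzero polynomial over a valuation ring is a nonzero constant times a
primitive polynomial. -/
theorem h95q_exists_content {f : A[X]} (hf : f ≠ 0) :
    ∃ γ : A, γ ≠ 0 ∧ ∃ f₀ : A[X], h95qPrim f₀ ∧ f = C γ * f₀ := by
  classical
  have hs : f.support.Nonempty := by
    rw [Finset.nonempty_iff_ne_empty]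
    intro h
    exact hf (support_eq_empty.mp h)
  obtain ⟨j, hj, hjs⟩ := h95q_exists_min_dvd f.support hs f.coeff
  have hγ : f.coeff j ≠ 0 := mem_support_iff.mp hj
  have hall : ∀ i, f.coeff j ∣ f.coeff i := by
    intro i
    by_cases hi : i ∈ f.support
    · exact hjs i hi
    · rw [notMem_support_iff.mp hi]
      exact dvd_zero _
  choose q hq using hall
  refine ⟨f.coeff j, hγ, ∑ i ∈ f.support, C (q i) * X ^ i, ⟨j, ?_⟩, ?_⟩
  · have h1 : (∑ i ∈ f.support, C (q i) * X ^ i).coeff j = q j := by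
      rw [finsetSum_coeff]
      simp only [coeff_C_mul_X_pow]
      rw [Finset.sum_eq_single j]
      · simp
      · intro b _ hb
        rw [if_neg (fun h => hb h.symm)]
      · intro h
        exact absurd hj h
    rw [h1]
    have h2 : f.coeff j * q j = f.coeff j * 1 := by rw [← hq j, mul_one]
    rw [mul_left_cancel₀ hγ h2]
    exact isUnit_one
  · ext i
    rw [coeff_C_mul, finsetSum_coeff]
    simp only [coeff_C_mul_X_pow]
    by_cases hi : i ∈ f.support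
    · rw [Finset.sum_eq_single i]
      · simp [hq i]
      · intro b _ hb
        rw [if_neg (fun h => hb h.symm)]
      · intro h
        exact absurd hi h
    · rw [notMem_support_iff.mp hi, Finset.sum_eq_zero, mul_zero]
      intro b hb
      rw [if_neg]
      rintro rfl
      exact hi hb

/-- **Gauss lemma** over a valuation ring. -/
theorem h95q_gauss {f g : A[X]} (hg : h95qPrim g) (π : A) (h : C π ∣ f * g) : C π ∣ f := by
  by_cases hf : f = 0
  · rw [hf]; exact dvd_zero _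
  obtain ⟨γ, -, f₀, hf₀, hff⟩ := h95q_exists_content hf
  obtain ⟨j, hj⟩ := h95q_prim_mul hf₀ hg
  have h1 : π ∣ (f * g).coeff j := (C_dvd_iff_dvd_coeff _ _).mp h j
  rw [hff, mul_assoc, coeff_C_mul] at h1
  have h2 : π ∣ γ := (hj.dvd_mul_right).mp h1
  rw [hff]
  exact Dvd.dvd.mul_right (map_dvd C h2) _

end Content

section Node

variable {A : Type*} [CommRing A] [IsDomain A] [ValuationRing A]
  {F : Type*} [Field F] [Algebra A F]

/-- `𝔪_A · S` for a subring `S` of `F`. -/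
def h95qM (A : Type*) [CommRing A] [IsDomain A] [ValuationRing A] {F : Type*} [Field F]
    [Algebra A F] (S : Subring F) : Set F :=
  {z | ∃ μ ∈ maximalIdeal A, ∃ ω ∈ S, z = algebraMap A F μ * ω}

/-- the units of a subalgebra of `F`. -/
def h95qU (O : Subalgebra A F) (z : F) : Prop := z ≠ 0 ∧ z ∈ O ∧ z⁻¹ ∈ O

theorem h95qM_zero (S : Subring F) : (0 : F) ∈ h95qM A S :=
  ⟨0, (maximalIdeal A).zero_mem, 0, S.zero_mem, by rw [mul_zero]⟩

theorem h95qM_add {S : Subring F} (hAS : ∀ a : A, algebraMap A F a ∈ S) {z z' : F}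
    (hz : z ∈ h95qM A S) (hz' : z' ∈ h95qM A S) : z + z' ∈ h95qM A S := by
  obtain ⟨μ, hμ, ω, hω, rfl⟩ := hz
  obtain ⟨μ', hμ', ω', hω', rfl⟩ := hz'
  rcases ValuationRing.dvd_total μ μ' with ⟨q, hq⟩ | ⟨q, hq⟩
  · refine ⟨μ, hμ, ω + algebraMap A F q * ω', S.add_mem hω (S.mul_mem (hAS q) hω'), ?_⟩
    rw [hq, map_mul]; ring
  · refine ⟨μ', hμ', algebraMap A F q * ω + ω', S.add_mem (S.mul_mem (hAS q) hω) hω', ?_⟩
    rw [hq, map_mul]; ring

theorem h95qM_neg {S : Subring F} {z : F} (hz : z ∈ h95qM A S) : -z ∈ h95qM A S := by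
  obtain ⟨μ, hμ, ω, hω, rfl⟩ := hz
  exact ⟨μ, hμ, -ω, S.neg_mem hω, by ring⟩

theorem h95qM_sub {S : Subring F} (hAS : ∀ a : A, algebraMap A F a ∈ S) {z z' : F}
    (hz : z ∈ h95qM A S) (hz' : z' ∈ h95qM A S) : z - z' ∈ h95qM A S := by
  rw [sub_eq_add_neg]
  exact h95qM_add hAS hz (h95qM_neg hz')

theorem h95qM_mul_left {S : Subring F} {s z : F} (hs : s ∈ S) (hz : z ∈ h95qM A S) :
    s * z ∈ h95qM A S := by
  obtain ⟨μ, hμ, ω, hω, rfl⟩ := hz
  exact ⟨μ, hμ, s * ω, S.mul_mem hs hω, by ring⟩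

theorem h95qM_mul_right {S : Subring F} {s z : F} (hs : s ∈ S) (hz : z ∈ h95qM A S) :
    z * s ∈ h95qM A S := by
  rw [mul_comm]
  exact h95qM_mul_left hs hz

theorem h95qM_mono {S S' : Subring F} (h : ∀ z ∈ S, z ∈ S') {z : F} (hz : z ∈ h95qM A S) :
    z ∈ h95qM A S' := by
  obtain ⟨μ, hμ, ω, hω, rfl⟩ := hz
  exact ⟨μ, hμ, ω, h ω hω, rfl⟩

theorem h95qM_of_mem {S : Subring F} {μ : A} (hμ : μ ∈ maximalIdeal A) {ω : F} (hω : ω ∈ S) :
    algebraMap A F μ * ω ∈ h95qM A S :=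
  ⟨μ, hμ, ω, hω, rfl⟩

theorem h95qM_sum {S : Subring F} (hAS : ∀ a : A, algebraMap A F a ∈ S) {α : Type*}
    (T : Finset α) (g : α → F) (hg : ∀ i ∈ T, g i ∈ h95qM A S) : ∑ i ∈ T, g i ∈ h95qM A S := by
  classical
  induction T using Finset.induction_on with
  | empty => rw [Finset.sum_empty]; exact h95qM_zero S
  | insert a T ha ih =>
    rw [Finset.sum_insert ha]
    exact h95qM_add hAS (hg a (Finset.mem_insert_self a T))
      (ih fun i hi => hg i (Finset.mem_insert_of_mem hi))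

/-- an element of `𝔪_A · W` is not a unit of `W`. -/
theorem h95qM_inv_notMem {W : Subring F}
    (hnt : ∀ μ ∈ maximalIdeal A, ∀ ω ∈ W, algebraMap A F μ * ω ≠ 1) {z : F} (hz0 : z ≠ 0)
    (hz : z ∈ h95qM A W) : z⁻¹ ∉ W := by
  obtain ⟨μ, hμ, ω, hω, rfl⟩ := hz
  intro h
  refine hnt μ hμ (ω * (algebraMap A F μ * ω)⁻¹) (W.mul_mem hω h) ?_
  rw [← mul_assoc]
  exact mul_inv_cancel₀ hz0

theorem h95q_aeval_mem (O : Subalgebra A F) {t : F} (ht : t ∈ O) (f : A[X]) :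
    aeval t f ∈ O := by
  have h := aeval_subalgebra_coe f O ⟨t, ht⟩
  simp only at h
  rw [← h]
  exact Subtype.property _

theorem h95qU_of_isUnit (O : Subalgebra A F) {a : A} (ha : IsUnit a) :
    h95qU O (algebraMap A F a) := by
  obtain ⟨b, hb⟩ := ha.exists_right_inv
  have h1 : algebraMap A F a * algebraMap A F b = 1 := by rw [← map_mul, hb, map_one]
  refine ⟨left_ne_zero_of_mul_eq_one h1, O.algebraMap_mem a, ?_⟩
  rw [inv_eq_of_mul_eq_one_right h1]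
  exact O.algebraMap_mem b

theorem h95qU_mul (O : Subalgebra A F) {z w : F} (hz : h95qU O z) (hw : h95qU O w) :
    h95qU O (z * w) :=
  ⟨mul_ne_zero hz.1 hw.1, O.mul_mem hz.2.1 hw.2.1, by
    rw [mul_inv]; exact O.mul_mem hz.2.2 hw.2.2⟩

theorem h95qU_neg (O : Subalgebra A F) {z : F} (hz : h95qU O z) : h95qU O (-z) :=
  ⟨neg_ne_zero.mpr hz.1, O.neg_mem hz.2.1, by rw [inv_neg]; exact O.neg_mem hz.2.2⟩

/-- a multiple of a non-unit is a non-unit. -/
theorem h95qU_of_mul (O : Subalgebra A F) {t s : F} (ht : t ∈ O) (hs : s ∈ O)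
    (h : h95qU O (t * s)) : h95qU O t := by
  have ht0 : t ≠ 0 := left_ne_zero_of_mul h.1
  refine ⟨ht0, ht, ?_⟩
  have h1 : t⁻¹ = s * (t * s)⁻¹ := by
    have hs0 : s ≠ 0 := right_ne_zero_of_mul h.1
    field_simp
  rw [h1]
  exact O.mul_mem hs h.2.2

/-- a monic polynomial `≡ X ^ M` modulo `𝔪_A` is `≡ t ^ M` at `t`. -/
theorem h95q_aeval_monic (O : Subalgebra A F) {t : F} (ht : t ∈ O) {M : ℕ} {Q : A[X]}
    (hQ : Q.Monic) (hQd : Q.natDegree = M) (hQl : ∀ j < M, Q.coeff j ∈ maximalIdeal A) :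
    aeval t Q - t ^ M ∈ h95qM A O.toSubring := by
  have h1 := hQ.as_sum
  rw [hQd] at h1
  have h2 : aeval t Q - t ^ M = ∑ i ∈ Finset.range M, algebraMap A F (Q.coeff i) * t ^ i := by
    conv_lhs => rw [h1]
    rw [map_add, map_pow, aeval_X, map_sum]
    simp only [map_mul, aeval_C, map_pow, aeval_X]
    ring
  rw [h2]
  refine h95qM_sum (fun a => O.algebraMap_mem a) _ _ fun i hi => ?_
  exact h95qM_of_mem (hQl i (Finset.mem_range.mp hi)) (O.pow_mem ht i)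

/-- **the induction on one branch.** -/
theorem h95q_one_side (O : Subalgebra A F) (W : Subring F) (hOW : ∀ z ∈ O, z ∈ W)
    (hloc : ∀ z w : F, z ∈ O → w ∈ O → h95qU O (z + w) → h95qU O z ∨ h95qU O w)
    (hnt : ∀ μ ∈ maximalIdeal A, ∀ ω ∈ W, algebraMap A F μ * ω ≠ 1)
    (t : F) (ht : t ∈ O) (htn : ¬ h95qU O t) (ht0 : t ≠ 0) (htW : t⁻¹ ∈ W)
    (e : F) (he : h95qU O e) :
    ∀ (M : ℕ) (f₀ : A[X]), h95qPrim f₀ → f₀.natDegree ≤ M → ∀ h₁ ∈ O,
      e * aeval t f₀ - h₁ * t ^ M ∈ h95qM A W →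
      h95qU O h₁ ∧ ∀ j < M, f₀.coeff j ∈ maximalIdeal A := by
  have hAW : ∀ a : A, algebraMap A F a ∈ W := fun a => hOW _ (O.algebraMap_mem a)
  -- an element of `O ∩ 𝔪 W` is not a unit of `O`
  have hnu : ∀ z : F, z ∈ h95qM A W → ¬ h95qU O z := by
    intro z hz hu
    exact h95qM_inv_notMem hnt hu.1 hz (hOW _ hu.2.2)
  intro M
  induction M with
  | zero =>
    intro f₀ hf₀ hdeg h₁ hh₁ hE
    have hC := eq_C_of_natDegree_le_zero hdeg
    have hρ : IsUnit (f₀.coeff 0) := by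
      obtain ⟨j, hj⟩ := hf₀
      rw [hC, coeff_C] at hj
      by_cases hj0 : j = 0
      · rw [if_pos hj0] at hj; exact hj
      · rw [if_neg hj0] at hj; exact absurd hj not_isUnit_zero
    refine ⟨?_, fun j hj => absurd hj (Nat.not_lt_zero j)⟩
    have hev : aeval t f₀ = algebraMap A F (f₀.coeff 0) := by
      conv_lhs => rw [hC]
      rw [aeval_C]
    rw [hev, pow_zero, mul_one] at hE
    have hu : h95qU O (e * algebraMap A F (f₀.coeff 0)) := h95qU_mul O he (h95qU_of_isUnit O hρ)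
    have hsum : e * algebraMap A F (f₀.coeff 0) =
        h₁ + (e * algebraMap A F (f₀.coeff 0) - h₁) := by ring
    rw [hsum] at hu
    rcases hloc _ _ hh₁ (O.sub_mem (O.mul_mem he.2.1 (O.algebraMap_mem _)) hh₁) hu with h | h
    · exact h
    · exact absurd h (hnu _ hE)
  | succ M ih =>
    intro f₀ hf₀ hdeg h₁ hh₁ hE
    set ρ₀ : A := f₀.coeff 0 with hρ₀
    have hdec := divX_mul_X_add f₀
    have hev : aeval t f₀ = aeval t (divX f₀) * t + algebraMap A F ρ₀ := by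
      conv_lhs => rw [← hdec]
      rw [map_add, map_mul, aeval_X, aeval_C]
    have hdO : aeval t (divX f₀) ∈ O := h95q_aeval_mem O ht _
    set R : F := e * aeval t (divX f₀) - h₁ * t ^ M with hR
    have hRO : R ∈ O := O.sub_mem (O.mul_mem he.2.1 hdO) (O.mul_mem hh₁ (O.pow_mem ht M))
    have hEeq : e * aeval t f₀ - h₁ * t ^ (M + 1) = e * algebraMap A F ρ₀ + t * R := by
      rw [hev, hR]; ring
    rw [hEeq] at hE
    -- the constant coefficient is not a unit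
    have hρm : ρ₀ ∈ maximalIdeal A := by
      by_contra hnm
      have hρu : IsUnit ρ₀ := by
        by_contra h
        exact hnm ((mem_maximalIdeal _).mpr h)
      have hu : h95qU O (e * algebraMap A F ρ₀) := h95qU_mul O he (h95qU_of_isUnit O hρu)
      have hsum : e * algebraMap A F ρ₀ = (e * algebraMap A F ρ₀ + t * R) + -(t * R) := by ring
      rw [hsum] at hu
      rcases hloc _ _ (O.add_mem (O.mul_mem he.2.1 (O.algebraMap_mem _)) (O.mul_mem ht hRO))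
        (O.neg_mem (O.mul_mem ht hRO)) hu with h | h
      · exact hnu _ hE h
      · have h' := h95qU_neg O h
        rw [neg_neg] at h'
        exact htn (h95qU_of_mul O ht hRO h')
    have htR : t * R ∈ h95qM A W := by
      have h1 : t * R = (e * algebraMap A F ρ₀ + t * R) - algebraMap A F ρ₀ * e := by ring
      rw [h1]
      exact h95qM_sub hAW hE (h95qM_of_mem hρm (hOW _ he.2.1))
    have hRM : R ∈ h95qM A W := by
      have h1 : R = t⁻¹ * (t * R) := by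
        rw [← mul_assoc, inv_mul_cancel₀ ht0, one_mul]
      rw [h1]
      exact h95qM_mul_left htW htR
    have hprim : h95qPrim (divX f₀) := by
      obtain ⟨j, hj⟩ := hf₀
      rcases Nat.eq_zero_or_pos j with rfl | hjpos
      · exact absurd hj ((mem_maximalIdeal _).mp hρm)
      · refine ⟨j - 1, ?_⟩
        rw [coeff_divX, Nat.sub_add_cancel hjpos]
        exact hj
    have hdeg' : (divX f₀).natDegree ≤ M := by
      rw [natDegree_divX_eq_natDegree_tsub_one]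
      omega
    obtain ⟨hu, hl⟩ := ih (divX f₀) hprim hdeg' h₁ hh₁ hRM
    refine ⟨hu, fun j hj => ?_⟩
    rcases Nat.eq_zero_or_pos j with rfl | hjpos
    · exact hρm
    · have := hl (j - 1) (by omega)
      rw [coeff_divX, Nat.sub_add_cancel hjpos] at this
      exact this

/-- a monic polynomial `≡ X ^ M` modulo `𝔪_A` takes a unit value of `W` at a unit `t` of `W`. -/
theorem h95q_aeval_monic_inv (O : Subalgebra A F) (W : Subring F) (hOW : ∀ z ∈ O, z ∈ W)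
    (hnt : ∀ μ ∈ maximalIdeal A, ∀ ω ∈ W, algebraMap A F μ * ω ≠ 1)
    (hinv : ∀ μ ∈ maximalIdeal A, ∀ ω ∈ W, (1 + algebraMap A F μ * ω)⁻¹ ∈ W)
    {t : F} (ht : t ∈ O) (ht0 : t ≠ 0) (htW : t⁻¹ ∈ W) {M : ℕ} {Q : A[X]}
    (hQ : Q.Monic) (hQd : Q.natDegree = M) (hQl : ∀ j < M, Q.coeff j ∈ maximalIdeal A) :
    aeval t Q ≠ 0 ∧ (aeval t Q)⁻¹ ∈ W := by
  obtain ⟨μ, hμ, ω, hω, hδ⟩ := h95q_aeval_monic O ht hQ hQd hQl
  have hωW : ω ∈ W := hOW ω hω
  set ω' : F := ω * (t⁻¹) ^ M with hω'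
  have hω'W : ω' ∈ W := W.mul_mem hωW (W.pow_mem htW M)
  have htM : t ^ M ≠ 0 := pow_ne_zero _ ht0
  have hfac : aeval t Q = t ^ M * (1 + algebraMap A F μ * ω') := by
    have h1 : aeval t Q = t ^ M + algebraMap A F μ * ω := by rw [← hδ]; ring
    rw [h1, hω', inv_pow]
    field_simp
  have h1ne : (1 + algebraMap A F μ * ω') ≠ 0 := by
    intro h0
    refine hnt μ hμ (-ω') (W.neg_mem hω'W) ?_
    linear_combination -h0
  refine ⟨by rw [hfac]; exact mul_ne_zero htM h1ne, ?_⟩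
  rw [hfac, mul_inv, ← inv_pow]
  exact W.mul_mem (W.pow_mem htW M) (hinv μ hμ ω' hω'W)

/-- the common part of the content induction: `e ≡ 1` modulo a common divisor of the two
contents. -/
theorem h95q_node_common (O : Subalgebra A F) (W₁ W₂ : Subring F)
    (hAF : Function.Injective (algebraMap A F))
    (hOW₁ : ∀ z ∈ O, z ∈ W₁) (hOW₂ : ∀ z ∈ O, z ∈ W₂)
    (hnt₁ : ∀ μ ∈ maximalIdeal A, ∀ ω ∈ W₁, algebraMap A F μ * ω ≠ 1)
    (hnt₂ : ∀ μ ∈ maximalIdeal A, ∀ ω ∈ W₂, algebraMap A F μ * ω ≠ 1)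
    (hinv₁ : ∀ μ ∈ maximalIdeal A, ∀ ω ∈ W₁, (1 + algebraMap A F μ * ω)⁻¹ ∈ W₁)
    (hinv₂ : ∀ μ ∈ maximalIdeal A, ∀ ω ∈ W₂, (1 + algebraMap A F μ * ω)⁻¹ ∈ W₂)
    (hqep : ∀ a : A, a ≠ 0 → ∀ z : F, z ∈ W₁ → z ∈ W₂ → algebraMap A F a * z ∈ O → z ∈ O)
    (x y : F) (hx : x ∈ O) (hy : y ∈ O) (hx0 : x ≠ 0) (hy0 : y ≠ 0)
    (hxW : x⁻¹ ∈ W₁) (hyW : y⁻¹ ∈ W₂)
    (M : ℕ) (P Q Pd Qd : A[X])
    (hQ : Q.Monic) (hQd : Q.natDegree = M) (hQl : ∀ j < M, Q.coeff j ∈ maximalIdeal A)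
    (hQ' : Qd.Monic) (hQd' : Qd.natDegree = M) (hQl' : ∀ j < M, Qd.coeff j ∈ maximalIdeal A)
    (κ : A) (e : F) (he : e ∈ O) (ρ π μ : A) (hρ : ρ = π * μ) (hπ : π ≠ 0)
    (g₁ g₂ : A[X]) (hg₁ : P - Q = C π * g₁) (hg₂ : C κ * Pd - Qd = C π * g₂)
    (h1 : ∃ β ∈ O, e * aeval x P - aeval x Q = algebraMap A F ρ * β)
    (h2 : ∃ β ∈ O, e * (algebraMap A F κ * aeval y Pd) - aeval y Qd = algebraMap A F ρ * β) :
    ∃ h₁ ∈ O, e - 1 = algebraMap A F π * h₁ ∧
      (∃ β ∈ O, e * aeval x g₁ + h₁ * aeval x Q = algebraMap A F μ * β) ∧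
      (∃ β ∈ O, e * aeval y g₂ + h₁ * aeval y Qd = algebraMap A F μ * β) := by
  obtain ⟨β₁, hβ₁, hb₁⟩ := h1
  obtain ⟨β₂, hβ₂, hb₂⟩ := h2
  have hπF : algebraMap A F π ≠ 0 := fun h => hπ (hAF (by rw [h, map_zero]))
  obtain ⟨hQx0, hQxW⟩ := h95q_aeval_monic_inv O W₁ hOW₁ hnt₁ hinv₁ hx hx0 hxW hQ hQd hQl
  obtain ⟨hQy0, hQyW⟩ := h95q_aeval_monic_inv O W₂ hOW₂ hnt₂ hinv₂ hy hy0 hyW hQ' hQd' hQl'
  have hPx : aeval x P - aeval x Q = algebraMap A F π * aeval x g₁ := by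
    have := congrArg (aeval x) hg₁
    rw [map_sub, map_mul, aeval_C] at this
    exact this
  have hPy : algebraMap A F κ * aeval y Pd - aeval y Qd = algebraMap A F π * aeval y g₂ := by
    have := congrArg (aeval y) hg₂
    rw [map_sub, map_mul, aeval_C, map_mul, aeval_C] at this
    exact this
  have hρF : algebraMap A F ρ = algebraMap A F π * algebraMap A F μ := by rw [hρ, map_mul]
  set z : F := (e - 1) * (algebraMap A F π)⁻¹ with hz
  have hg₁O : aeval x g₁ ∈ O := h95q_aeval_mem O hx _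
  have hg₂O : aeval y g₂ ∈ O := h95q_aeval_mem O hy _
  have hzx : z * aeval x Q = algebraMap A F μ * β₁ - e * aeval x g₁ := by
    rw [hz]
    have h3 : (e - 1) * aeval x Q = algebraMap A F π *
        (algebraMap A F μ * β₁ - e * aeval x g₁) := by
      linear_combination hb₁ - e * hPx + β₁ * hρF
    field_simp
    linear_combination h3
  have hzy : z * aeval y Qd = algebraMap A F μ * β₂ - e * aeval y g₂ := by
    rw [hz]
    have h3 : (e - 1) * aeval y Qd = algebraMap A F π *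
        (algebraMap A F μ * β₂ - e * aeval y g₂) := by
      linear_combination hb₂ - e * hPy + β₂ * hρF
    field_simp
    linear_combination h3
  have hzW₁ : z ∈ W₁ := by
    have h3 : z = (algebraMap A F μ * β₁ - e * aeval x g₁) * (aeval x Q)⁻¹ := by
      rw [← hzx, mul_assoc, mul_inv_cancel₀ hQx0, mul_one]
    rw [h3]
    exact W₁.mul_mem (hOW₁ _ (O.sub_mem (O.mul_mem (O.algebraMap_mem μ) hβ₁)
      (O.mul_mem he hg₁O))) hQxW
  have hzW₂ : z ∈ W₂ := by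
    have h3 : z = (algebraMap A F μ * β₂ - e * aeval y g₂) * (aeval y Qd)⁻¹ := by
      rw [← hzy, mul_assoc, mul_inv_cancel₀ hQy0, mul_one]
    rw [h3]
    exact W₂.mul_mem (hOW₂ _ (O.sub_mem (O.mul_mem (O.algebraMap_mem μ) hβ₂)
      (O.mul_mem he hg₂O))) hQyW
  have hπz : algebraMap A F π * z = e - 1 := by
    rw [hz]
    field_simp
  have hzO : z ∈ O := hqep π hπ z hzW₁ hzW₂ (by
    rw [hπz]; exact O.sub_mem he O.one_mem)
  refine ⟨z, hzO, hπz.symm, ⟨β₁, hβ₁, ?_⟩, ⟨β₂, hβ₂, ?_⟩⟩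
  · rw [hzx]; ring
  · rw [hzy]; ring

theorem h95q_strict_dvd {a b : A} (h : ¬ b ∣ a) : ∃ μ ∈ maximalIdeal A, b = a * μ := by
  obtain ⟨μ, hμ⟩ : a ∣ b := (ValuationRing.dvd_total a b).resolve_right h
  refine ⟨μ, ?_, hμ⟩
  rw [mem_maximalIdeal, mem_nonunits_iff]
  intro hu
  apply h
  obtain ⟨μ', hμ'⟩ := hu.exists_right_inv
  exact ⟨μ', by rw [hμ, mul_assoc, hμ', mul_one]⟩

theorem h95q_not_dvd_of_C {ρ γ : A} {f g : A[X]} (hfg : f = C γ * g) (h : ¬ C ρ ∣ f) :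
    ¬ ρ ∣ γ := fun hd => h (hfg ▸ Dvd.dvd.mul_right (map_dvd C hd) _)

/-- **Content induction at a node.**  If `e P(x) ≡ Q(x)` and `e κ Pd(y) ≡ Qd(y)` modulo `ρ O`,
`e` a unit of the local ring `O`, `x` and `y` non-units of `O` which are units of `W₁` resp.
`W₂`, and `P, Q, Qd` are monic of degree `M`, `Q, Qd ≡ X ^ M` modulo `𝔪_A`, `deg Pd ≤ M`, then
`P ≡ Q` and `κ Pd ≡ Qd` modulo `ρ A[X]`, and `e ≡ 1` modulo `ρ O`. -/
theorem h95q_node_content (O : Subalgebra A F) (W₁ W₂ : Subring F)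
    (hAF : Function.Injective (algebraMap A F))
    (hOW₁ : ∀ z ∈ O, z ∈ W₁) (hOW₂ : ∀ z ∈ O, z ∈ W₂)
    (hloc : ∀ z w : F, z ∈ O → w ∈ O → h95qU O (z + w) → h95qU O z ∨ h95qU O w)
    (hnt₁ : ∀ μ ∈ maximalIdeal A, ∀ ω ∈ W₁, algebraMap A F μ * ω ≠ 1)
    (hnt₂ : ∀ μ ∈ maximalIdeal A, ∀ ω ∈ W₂, algebraMap A F μ * ω ≠ 1)
    (hinv₁ : ∀ μ ∈ maximalIdeal A, ∀ ω ∈ W₁, (1 + algebraMap A F μ * ω)⁻¹ ∈ W₁)
    (hinv₂ : ∀ μ ∈ maximalIdeal A, ∀ ω ∈ W₂, (1 + algebraMap A F μ * ω)⁻¹ ∈ W₂)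
    (hqep : ∀ a : A, a ≠ 0 → ∀ z : F, z ∈ W₁ → z ∈ W₂ → algebraMap A F a * z ∈ O → z ∈ O)
    (x y : F) (hx : x ∈ O) (hy : y ∈ O) (hxn : ¬ h95qU O x) (hyn : ¬ h95qU O y)
    (hx0 : x ≠ 0) (hy0 : y ≠ 0) (hxW : x⁻¹ ∈ W₁) (hyW : y⁻¹ ∈ W₂)
    (M : ℕ) (P Q Pd Qd : A[X])
    (hP : P.Monic) (hPd : P.natDegree = M)
    (hQ : Q.Monic) (hQd : Q.natDegree = M) (hQl : ∀ j < M, Q.coeff j ∈ maximalIdeal A)
    (hPd' : Pd.natDegree ≤ M)
    (hQ' : Qd.Monic) (hQd' : Qd.natDegree = M) (hQl' : ∀ j < M, Qd.coeff j ∈ maximalIdeal A)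
    (κ : A) (e : F) (he : h95qU O e) (ρ : A) (hρ : ρ ≠ 0)
    (h1 : ∃ β ∈ O, e * aeval x P - aeval x Q = algebraMap A F ρ * β)
    (h2 : ∃ β ∈ O, e * (algebraMap A F κ * aeval y Pd) - aeval y Qd = algebraMap A F ρ * β) :
    C ρ ∣ P - Q ∧ C ρ ∣ C κ * Pd - Qd ∧ ∃ β ∈ O, e - 1 = algebraMap A F ρ * β := by
  have hAW₁ : ∀ a : A, algebraMap A F a ∈ W₁ := fun a => hOW₁ _ (O.algebraMap_mem a)
  have hAW₂ : ∀ a : A, algebraMap A F a ∈ W₂ := fun a => hOW₂ _ (O.algebraMap_mem a)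
  have hMO₁ : ∀ z, z ∈ h95qM A O.toSubring → z ∈ h95qM A W₁ := fun z hz =>
    h95qM_mono (fun w hw => hOW₁ w hw) hz
  have hMO₂ : ∀ z, z ∈ h95qM A O.toSubring → z ∈ h95qM A W₂ := fun z hz =>
    h95qM_mono (fun w hw => hOW₂ w hw) hz
  have key : C ρ ∣ P - Q ∧ C ρ ∣ C κ * Pd - Qd := by
    by_contra hcon
    have hcase : ∃ π μ : A, ρ = π * μ ∧ π ≠ 0 ∧ μ ∈ maximalIdeal A ∧ ∃ g₁ g₂ : A[X],
        P - Q = C π * g₁ ∧ C κ * Pd - Qd = C π * g₂ ∧
        (h95qPrim g₁ ∨ (h95qPrim g₂ ∧ ∃ ν ∈ maximalIdeal A, ∃ g₁', g₁ = C ν * g₁')) := by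
      by_cases hf : C ρ ∣ P - Q
      · have hf₂ : ¬ C ρ ∣ C κ * Pd - Qd := fun h => hcon ⟨hf, h⟩
        have hne : C κ * Pd - Qd ≠ 0 := fun h => hf₂ (h ▸ dvd_zero _)
        obtain ⟨γ₂, hγ₂, g₂, hg₂, hfg₂⟩ := h95q_exists_content hne
        obtain ⟨μ, hμm, hμ⟩ := h95q_strict_dvd (h95q_not_dvd_of_C hfg₂ hf₂)
        obtain ⟨f', hf'⟩ := hf
        refine ⟨γ₂, μ, hμ, hγ₂, hμm, C μ * f', g₂, ?_, hfg₂, Or.inr ⟨hg₂, μ, hμm, f', rfl⟩⟩
        rw [hf', hμ, C_mul, mul_assoc]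
      · have hne : P - Q ≠ 0 := fun h => hf (h ▸ dvd_zero _)
        obtain ⟨γ₁, hγ₁, g₁, hg₁, hfg₁⟩ := h95q_exists_content hne
        obtain ⟨μ₁, hμ₁m, hμ₁⟩ := h95q_strict_dvd (h95q_not_dvd_of_C hfg₁ hf)
        by_cases h2' : C γ₁ ∣ C κ * Pd - Qd
        · obtain ⟨g₂, hg₂⟩ := h2'
          exact ⟨γ₁, μ₁, hμ₁, hγ₁, hμ₁m, g₁, g₂, hfg₁, hg₂, Or.inl hg₁⟩
        · have hne₂ : C κ * Pd - Qd ≠ 0 := fun h => h2' (h ▸ dvd_zero _)
          obtain ⟨γ₂, hγ₂, g₂, hg₂, hfg₂⟩ := h95q_exists_content hne₂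
          obtain ⟨ν, hνm, hν⟩ := h95q_strict_dvd (h95q_not_dvd_of_C hfg₂ h2')
          refine ⟨γ₂, ν * μ₁, ?_, hγ₂, Ideal.mul_mem_right _ _ hνm, C ν * g₁, g₂, ?_, hfg₂,
            Or.inr ⟨hg₂, ν, hνm, g₁, rfl⟩⟩
          · rw [hμ₁, hν, mul_assoc]
          · rw [hfg₁, hν, C_mul, mul_assoc]
    obtain ⟨π, μ, hρπ, hπ, hμ, g₁, g₂, hg₁, hg₂, hcases⟩ := hcase
    obtain ⟨h₁, hh₁, -, ⟨β₁, hβ₁, hX⟩, ⟨β₂, hβ₂, hY⟩⟩ :=
      h95q_node_common O W₁ W₂ hAF hOW₁ hOW₂ hnt₁ hnt₂ hinv₁ hinv₂ hqep x y hx hy hx0 hy0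
        hxW hyW M P Q Pd Qd hQ hQd hQl hQ' hQd' hQl' κ e he.2.1 ρ π μ hρπ hπ g₁ g₂ hg₁ hg₂
        h1 h2
    have hQx := h95q_aeval_monic O hx hQ hQd hQl
    have hQy := h95q_aeval_monic O hy hQ' hQd' hQl'
    rcases hcases with hprim | ⟨hprim, ν, hν, g₁', hg₁'⟩
    · -- the content of the `x`-side is the smaller one
      have hE : e * aeval x g₁ - (-h₁) * x ^ M ∈ h95qM A W₁ := by
        have h3 : e * aeval x g₁ - (-h₁) * x ^ M =
            algebraMap A F μ * β₁ - h₁ * (aeval x Q - x ^ M) := by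
          linear_combination hX
        rw [h3]
        exact h95qM_sub hAW₁ (h95qM_of_mem hμ (hOW₁ _ hβ₁))
          (h95qM_mul_left (hOW₁ _ hh₁) (hMO₁ _ hQx))
      have hcoeff : ∀ j, M ≤ j → g₁.coeff j = 0 := by
        intro j hj
        have h3 : (P - Q).coeff j = 0 := by
          rw [coeff_sub]
          rcases hj.eq_or_lt with rfl | hlt
          · have hP1 : P.coeff P.natDegree = 1 := hP.coeff_natDegree
            have hQ1 : Q.coeff Q.natDegree = 1 := hQ.coeff_natDegree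
            rw [hQd, ← hPd] at hQ1
            rw [← hPd, hP1, hQ1, sub_self]
          · rw [coeff_eq_zero_of_natDegree_lt (hPd ▸ hlt),
              coeff_eq_zero_of_natDegree_lt (hQd ▸ hlt), sub_zero]
        rw [hg₁, coeff_C_mul] at h3
        exact (mul_eq_zero.mp h3).resolve_left hπ
      have hdeg : g₁.natDegree ≤ M :=
        natDegree_le_iff_coeff_eq_zero.mpr fun j hj => hcoeff j hj.le
      obtain ⟨-, hl⟩ := h95q_one_side O W₁ hOW₁ hloc hnt₁ x hx hxn hx0 hxW e he M g₁ hprim hdeg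
        (-h₁) (O.neg_mem hh₁) hE
      obtain ⟨j, hj⟩ := hprim
      have hjM : j < M := by
        by_contra hge
        rw [not_lt] at hge
        rw [hcoeff j hge] at hj
        exact not_isUnit_zero hj
      exact (mem_maximalIdeal _).mp (hl j hjM) hj
    · -- the content of the `y`-side is strictly smaller
      have hh₁Q : h₁ * aeval x Q ∈ h95qM A W₁ := by
        have h3 : h₁ * aeval x Q =
            algebraMap A F μ * β₁ - algebraMap A F ν * (e * aeval x g₁') := by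
          have h4 : aeval x g₁ = algebraMap A F ν * aeval x g₁' := by
            rw [hg₁', map_mul, aeval_C]
          rw [h4] at hX
          linear_combination hX
        rw [h3]
        exact h95qM_sub hAW₁ (h95qM_of_mem hμ (hOW₁ _ hβ₁))
          (h95qM_of_mem hν (hOW₁ _ (O.mul_mem he.2.1 (h95q_aeval_mem O hx _))))
      obtain ⟨hQx0, hQxW⟩ := h95q_aeval_monic_inv O W₁ hOW₁ hnt₁ hinv₁ hx hx0 hxW hQ hQd hQl
      have hh₁M : h₁ ∈ h95qM A W₁ := by
        have h3 : h₁ = (h₁ * aeval x Q) * (aeval x Q)⁻¹ := by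
          rw [mul_assoc, mul_inv_cancel₀ hQx0, mul_one]
        rw [h3]
        exact h95qM_mul_right hQxW hh₁Q
      have hh₁n : ¬ h95qU O h₁ := fun hu =>
        h95qM_inv_notMem hnt₁ hu.1 hh₁M (hOW₁ _ hu.2.2)
      have hE : e * aeval y g₂ - (-h₁) * y ^ M ∈ h95qM A W₂ := by
        have h3 : e * aeval y g₂ - (-h₁) * y ^ M =
            algebraMap A F μ * β₂ - h₁ * (aeval y Qd - y ^ M) := by
          linear_combination hY
        rw [h3]
        exact h95qM_sub hAW₂ (h95qM_of_mem hμ (hOW₂ _ hβ₂))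
          (h95qM_mul_left (hOW₂ _ hh₁) (hMO₂ _ hQy))
      have hdeg : g₂.natDegree ≤ M := by
        refine natDegree_le_iff_coeff_eq_zero.mpr fun j hj => ?_
        have h3 : (C κ * Pd - Qd).coeff j = 0 := by
          rw [coeff_sub, coeff_C_mul, coeff_eq_zero_of_natDegree_lt (lt_of_le_of_lt hPd' hj),
            coeff_eq_zero_of_natDegree_lt (hQd' ▸ hj), mul_zero, sub_zero]
        rw [hg₂, coeff_C_mul] at h3
        exact (mul_eq_zero.mp h3).resolve_left hπ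
      obtain ⟨hu, -⟩ := h95q_one_side O W₂ hOW₂ hloc hnt₂ y hy hyn hy0 hyW e he M g₂ hprim hdeg
        (-h₁) (O.neg_mem hh₁) hE
      have hu' := h95qU_neg O hu
      rw [neg_neg] at hu'
      exact hh₁n hu'
  refine ⟨key.1, key.2, ?_⟩
  obtain ⟨g₁, hg₁⟩ := key.1
  obtain ⟨g₂, hg₂⟩ := key.2
  obtain ⟨h₁, hh₁, heh, -, -⟩ :=
    h95q_node_common O W₁ W₂ hAF hOW₁ hOW₂ hnt₁ hnt₂ hinv₁ hinv₂ hqep x y hx hy hx0 hy0
      hxW hyW M P Q Pd Qd hQ hQd hQl hQ' hQd' hQl' κ e he.2.1 ρ ρ 1 (mul_one ρ).symm hρ g₁ g₂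
      hg₁ hg₂ h1 h2
  exact ⟨h₁, hh₁, heh⟩

end Node

section Roots

variable {A : Type*} [CommRing A] [IsDomain A] [ValuationRing A]

/-- **roots of monic polynomials, deep form**: `N ^ r ≡ D ^ r` modulo `r c` gives `N ≡ D`
modulo `c`, for monic `N, D` of the same degree (no hypothesis on `r` beyond `r ≠ 0` in `A`). -/
theorem h95q_root_gauss {N D : A[X]} (hN : N.Monic) (hD : D.Monic)
    (hdeg : N.natDegree = D.natDegree) (r : ℕ) (hrA : (r : A) ≠ 0) (c : A)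
    (h : C ((r : A) * c) ∣ N ^ r - D ^ r) : C c ∣ N - D := by
  classical
  set m := D.natDegree with hm
  set S : A[X] := ∑ i ∈ Finset.range r, N ^ i * D ^ (r - 1 - i) with hS
  have hfac : S * (N - D) = N ^ r - D ^ r := (Commute.all N D).geom_sum₂_mul r
  have hterm : ∀ i ∈ Finset.range r, (N ^ i * D ^ (r - 1 - i)).coeff ((r - 1) * m) = 1 := by
    intro i hi
    have hmon : (N ^ i * D ^ (r - 1 - i)).Monic := (hN.pow i).mul (hD.pow _)
    have hnd : (N ^ i * D ^ (r - 1 - i)).natDegree = (r - 1) * m := by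
      rw [(hN.pow i).natDegree_mul (hD.pow _), hN.natDegree_pow, hD.natDegree_pow, hdeg,
        ← add_mul]
      have : i < r := Finset.mem_range.mp hi
      congr 1
      omega
    rw [← hnd]
    exact hmon.coeff_natDegree
  have hScoeff : S.coeff ((r - 1) * m) = (r : A) := by
    rw [hS, finsetSum_coeff, Finset.sum_congr rfl hterm]
    simp
  have hS0 : S ≠ 0 := by
    intro h0
    rw [h0, coeff_zero] at hScoeff
    exact hrA hScoeff.symm
  obtain ⟨σ, hσ, S₀, hS₀, hSS⟩ := h95q_exists_content hS0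
  have hσr : σ ∣ (r : A) := by
    rw [← hScoeff, hSS, coeff_C_mul]
    exact dvd_mul_right _ _
  obtain ⟨τ, hτ⟩ := hσr
  have h3 : C σ * C (τ * c) ∣ C σ * ((N - D) * S₀) := by
    have h4 : C σ * ((N - D) * S₀) = N ^ r - D ^ r := by
      rw [← hfac, hSS]; ring
    rw [h4, ← C_mul, ← mul_assoc, ← hτ]
    exact h
  have hCσ : (C σ : A[X]) ≠ 0 := by
    rw [Ne, C_eq_zero]; exact hσ
  have h5 : C (τ * c) ∣ (N - D) * S₀ := (mul_dvd_mul_iff_left hCσ).mp h3
  have h6 := h95q_gauss hS₀ (τ * c) h5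
  exact (map_dvd C (Dvd.intro_left τ rfl)).trans h6

/-- in a valuation ring, a finite nonempty family has an element divisible by all the
others. -/
theorem h95q_exists_max_dvd {α : Type*} (s : Finset α) (hs : s.Nonempty) (c : α → A) :
    ∃ j ∈ s, ∀ i ∈ s, c i ∣ c j := by
  classical
  induction hs using Finset.Nonempty.cons_induction with
  | singleton a => exact ⟨a, Finset.mem_singleton_self a, fun i hi => by
      rw [Finset.mem_singleton] at hi; rw [hi]⟩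
  | cons a s ha hs ih =>
    obtain ⟨j, hj, hjs⟩ := ih
    rcases ValuationRing.dvd_total (c a) (c j) with h | h
    · refine ⟨j, Finset.mem_cons.mpr (Or.inr hj), fun i hi => ?_⟩
      rw [Finset.mem_cons] at hi
      rcases hi with rfl | hi
      · exact h
      · exact hjs i hi
    · refine ⟨a, Finset.mem_cons_self a s, fun i hi => ?_⟩
      rw [Finset.mem_cons] at hi
      rcases hi with rfl | hi
      · exact dvd_rfl
      · exact (hjs i hi).trans h

/-- the roots of `X ^ r - 1`. -/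
theorem h95q_pow_eq_one_of_mem (r : ℕ) (Z : Multiset A)
    (hZ : (X ^ r - 1 : A[X]) = (Z.map fun ζ => X - C ζ).prod) {ζ : A} (hζ : ζ ∈ Z) :
    ζ ^ r = 1 := by
  classical
  have h1 := congrArg (eval ζ) hZ
  rw [eval_sub, eval_pow, eval_X, eval_one, ← Multiset.prod_map_erase hζ, eval_mul, eval_sub,
    eval_X, eval_C, sub_self, zero_mul] at h1
  exact sub_eq_zero.mp h1

/-- **the constant at the node is a root of unity modulo `c`**: `κ ^ r ≡ 1` modulo `r c` gives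
`κ ≡ ζ` modulo `c` for a root `ζ` of `X ^ r - 1`, if this polynomial splits over `A`. -/
theorem h95q_root_of_unity (r : ℕ) (hr : 0 < r) (hrA : (r : A) ≠ 0) (Z : Multiset A)
    (hZ : (X ^ r - 1 : A[X]) = (Z.map fun ζ => X - C ζ).prod) (κ c : A)
    (h : (r : A) * c ∣ κ ^ r - 1) : ∃ ζ ∈ Z, ζ ^ r = 1 ∧ c ∣ κ - ζ := by
  classical
  have hZne : Z.toFinset.Nonempty := by
    rw [Finset.nonempty_iff_ne_empty]
    intro h0
    rw [Multiset.toFinset_eq_empty] at h0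
    rw [h0, Multiset.map_zero, Multiset.prod_zero] at hZ
    have h1 := congrArg (eval (1 : A)) hZ
    rw [eval_sub, eval_pow, eval_X, eval_one, one_pow, sub_self] at h1
    exact zero_ne_one h1
  obtain ⟨ζ₀, hζ₀, hmax⟩ := h95q_exists_max_dvd Z.toFinset hZne (fun ζ => κ - ζ)
  have hζ₀Z : ζ₀ ∈ Z := Multiset.mem_toFinset.mp hζ₀
  have hζ₀r : ζ₀ ^ r = 1 := h95q_pow_eq_one_of_mem r Z hZ hζ₀Z
  refine ⟨ζ₀, hζ₀Z, hζ₀r, ?_⟩
  set pr : A := ((Z.erase ζ₀).map fun ζ => κ - ζ).prod with hpr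
  have hκ : κ ^ r - 1 = (κ - ζ₀) * pr := by
    have h1 := congrArg (eval κ) hZ
    rw [eval_sub, eval_pow, eval_X, eval_one, eval_multiset_prod, Multiset.map_map] at h1
    have h2 : (eval κ ∘ fun ζ : A => (X - C ζ : A[X])) = fun ζ => κ - ζ := by
      funext ζ
      simp
    rw [h2] at h1
    rw [h1, hpr, ← Multiset.prod_map_erase (f := fun ζ => κ - ζ) hζ₀Z]
  have hder : ((Z.erase ζ₀).map fun ζ => ζ₀ - ζ).prod = (r : A) * ζ₀ ^ (r - 1) := by
    rw [← eval_multiset_prod_X_sub_C_derivative hζ₀Z, ← hZ, derivative_sub, derivative_one,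
      sub_zero, derivative_X_pow, eval_mul, eval_pow, eval_X]
    simp
  have hdvd : pr ∣ (r : A) * ζ₀ ^ (r - 1) := by
    rw [← hder, hpr]
    refine Multiset.prod_dvd_prod_of_dvd _ _ fun ζ hζ => ?_
    have hζZ : ζ ∈ Z := Multiset.mem_of_mem_erase hζ
    have h1 : κ - ζ ∣ κ - ζ₀ := hmax ζ (Multiset.mem_toFinset.mpr hζZ)
    have h2 : ζ₀ - ζ = (κ - ζ) - (κ - ζ₀) := by ring
    rw [h2]
    exact dvd_sub dvd_rfl h1
  obtain ⟨q, hq⟩ := hdvd
  obtain ⟨t, ht⟩ := h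
  have hpr0 : pr ≠ 0 := by
    intro h0
    rw [h0, zero_mul] at hq
    have h1 : ζ₀ ^ (r - 1) ≠ 0 := by
      intro h2
      have h3 : ζ₀ ^ r = ζ₀ ^ (r - 1) * ζ₀ := by
        rw [← pow_succ, Nat.sub_add_cancel hr]
      rw [h3, h2, zero_mul] at hζ₀r
      exact zero_ne_one hζ₀r
    exact mul_ne_zero hrA h1 hq
  -- `(κ - ζ₀) pr = r c t` and `r ζ₀ ^ (r - 1) = pr q`
  have h1 : pr * ((κ - ζ₀) * ζ₀ ^ (r - 1)) = pr * (c * (t * q)) := by
    have h2 : (κ - ζ₀) * pr = (r : A) * c * t := by rw [← hκ, ht]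
    linear_combination (ζ₀ ^ (r - 1)) * h2 + c * t * hq
  have h2 := mul_left_cancel₀ hpr0 h1
  have h3 : κ - ζ₀ = ((κ - ζ₀) * ζ₀ ^ (r - 1)) * ζ₀ := by
    rw [mul_assoc, ← pow_succ, Nat.sub_add_cancel hr, hζ₀r, mul_one]
  rw [h3, h2]
  exact ⟨(t * q) * ζ₀, by ring⟩

end Roots

end Fermat.Agent.P6
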