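import Fermat.Agent.P6.H24Et

/-!
# Wave 6 (S33), block B3 FLAT-ORD: MULT from the Cartier dual order (helper97)

Local language of S56F.  `X` a finite `Gq p`-module killed by `p ^ k` with a function order `𝓗`
over the inertia group.  The Cartier dual is `AddChar X (Om p)` with the action
`(s ψ)(x) = s (ψ (s⁻¹ x))`.

* `H97fDual` (**DUAL**, frozen; leaf of helper72): the Cartier dual of a module with an order
  over inertia has an order over inertia (for every map `actD` which is pointwise the dual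
  action).
* `h97f_dualAct`    : the dual action is an action by additive maps.
* `h97f_finite_dual`: the dual of a finite group is finite.
* `h97f_cyc_exists` : every `σ` acts on `μ_{p^k}` by some exponent.
* `h97f_dual_unip`  : if inertia acts by the cyclotomic character on the graded pieces of a chain
  of `X`, it acts unipotently on the dual (chain of annihilators).
* `h97f_dict`       : if `σ⁻¹` acts trivially on the dual, then `σ` acts on `X` by its cyclotomic
  exponent.
* `h97f_mult_of_dual : H97fDual → H97fMult` (with ET = `h24e_unip_trivial` of helper24).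
-/

set_option autoImplicit false
set_option linter.unusedSectionVars false
set_option linter.style.haveILetI false

open Fermat.Agent.PT.Loc Fermat.Agent.S56F

noncomputable section

namespace Fermat.Agent.P6

/-- **DUAL** (frozen leaf): the Cartier dual of a finite module with an order over inertia has an
order over inertia. -/
def H97fDual : Prop :=
  ∀ (p : ℕ) [Fact p.Prime], p ≠ 2 → ∀ (X : Type) [AddCommGroup X] [Finite X]
    (act : Gq p → X → X), IsAct act → FHO p (inertia p) X act →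
    ∀ actD : Gq p → AddChar X (Om p) → AddChar X (Om p),
      (∀ (s : Gq p) (ψ : AddChar X (Om p)) (x : X), actD s ψ x = s (ψ (act s⁻¹ x))) →
      Nonempty (FHO p (inertia p) (AddChar X (Om p)) actD)

section Dual

variable {p : ℕ} [Fact p.Prime] {X : Type} [AddCommGroup X] {act : Gq p → X → X}
  {actD : Gq p → AddChar X (Om p) → AddChar X (Om p)}

/-- The dual action is an action by additive maps. -/
theorem h97f_dualAct (hact : IsAct act)
    (hD : ∀ (s : Gq p) (ψ : AddChar X (Om p)) (x : X), actD s ψ x = s (ψ (act s⁻¹ x))) :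
    IsAct actD where
  one := by
    intro ψ
    refine DFunLike.ext _ _ (fun x => ?_)
    rw [hD, inv_one, hact.one, AlgEquiv.one_apply]
  mul := by
    intro σ τ ψ
    refine DFunLike.ext _ _ (fun x => ?_)
    rw [hD, hD, hD, mul_inv_rev, hact.mul, AlgEquiv.mul_apply]
  add := by
    intro σ ψ φ
    refine DFunLike.ext _ _ (fun x => ?_)
    rw [hD, AddChar.add_apply, AddChar.add_apply, hD, hD, map_mul]

/-- The Cartier dual of a finite group is finite. -/
theorem h97f_finite_dual [Finite X] : Finite (AddChar X (Om p)) := by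
  classical
  cases nonempty_fintype X
  have hN : Fintype.card X ≠ 0 := Fintype.card_ne_zero
  let S : Set (Om p) := {z | z ^ Fintype.card X = 1}
  have hS : S.Finite := by
    refine (Polynomial.nthRootsFinset (Fintype.card X) (1 : Om p)).finite_toSet.subset
      (fun z hz => ?_)
    exact Finset.mem_coe.mpr ((Polynomial.mem_nthRootsFinset (Nat.pos_of_ne_zero hN) 1).mpr hz)
  haveI : Finite S := hS.to_subtype
  let f : AddChar X (Om p) → (X → S) := fun ψ x => ⟨ψ x, by
    show ψ x ^ Fintype.card X = 1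
    rw [← AddChar.map_nsmul_eq_pow, card_nsmul_eq_zero, AddChar.map_zero_eq_one]⟩
  refine Finite.of_injective f (fun ψ φ h => ?_)
  refine DFunLike.ext _ _ (fun x => ?_)
  exact congrArg Subtype.val (congrFun h x)

/-- Every automorphism acts on `μ_{p^k}` by some exponent. -/
theorem h97f_cyc_exists (k : ℕ) (σ : Gq p) : ∃ e : ℕ, h97fCyc p k σ e := by
  have hpk : (p ^ k : ℕ) ≠ 0 := pow_ne_zero _ (Fact.out : p.Prime).ne_zero
  haveI : NeZero (p ^ k : ℕ) := ⟨hpk⟩
  haveI : NeZero ((p ^ k : ℕ) : Om p) := ⟨by exact_mod_cast hpk⟩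
  obtain ⟨ζ, hζ⟩ := HasEnoughRootsOfUnity.exists_primitiveRoot (Om p) (p ^ k)
  have h1 : (σ ζ) ^ (p ^ k) = 1 := by rw [← map_pow, hζ.pow_eq_one, map_one]
  obtain ⟨e, -, he⟩ := hζ.eq_pow_of_pow_eq_one h1
  refine ⟨e, fun μ hμ => ?_⟩
  obtain ⟨i, -, hi⟩ := hζ.eq_pow_of_pow_eq_one hμ
  rw [← hi, map_pow, ← he, ← pow_mul, ← pow_mul, mul_comm]

/-- The values of a character of a group killed by `p ^ k` are `p ^ k`-th roots of unity. -/
theorem h97f_char_root {k : ℕ} (hk : ∀ x : X, p ^ k • x = 0) (ψ : AddChar X (Om p)) (x : X) :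
    ψ x ^ p ^ k = 1 := by
  rw [← AddChar.map_nsmul_eq_pow, hk, AddChar.map_zero_eq_one]

/-- The annihilator in the dual of a subgroup. -/
def h97fAnn (F : AddSubgroup X) : AddSubgroup (AddChar X (Om p)) where
  carrier := {ψ | ∀ x ∈ F, ψ x = 1}
  zero_mem' := fun x _ => AddChar.zero_apply x
  add_mem' := by
    intro ψ φ hψ hφ x hx
    rw [AddChar.add_apply, hψ x hx, hφ x hx, one_mul]
  neg_mem' := by
    intro ψ hψ x hx
    rw [AddChar.neg_apply]
    exact hψ (-x) (F.neg_mem hx)

theorem h97f_mem_ann (F : AddSubgroup X) (ψ : AddChar X (Om p)) :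
    ψ ∈ h97fAnn (p := p) F ↔ ∀ x ∈ F, ψ x = 1 := Iff.rfl

/-- **The dual of a module of multiplicative type is unipotent.** -/
theorem h97f_dual_unip {k : ℕ} (hk : ∀ x : X, p ^ k • x = 0)
    (hD : ∀ (s : Gq p) (ψ : AddChar X (Om p)) (x : X), actD s ψ x = s (ψ (act s⁻¹ x)))
    (hC : ∃ (n : ℕ) (F : ℕ → AddSubgroup X), F 0 = ⊥ ∧ F n = ⊤ ∧ (∀ i, F i ≤ F (i + 1)) ∧
      ∀ i, ∀ σ ∈ inertia p, ∀ e : ℕ, h97fCyc p k σ e → ∀ x ∈ F (i + 1),
        act σ x - e • x ∈ F i) :
    h24eUnip (inertia p) actD := by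
  obtain ⟨n, F, hF0, hFn, -, hF⟩ := hC
  refine ⟨n, fun j => h97fAnn (F (n - j)), ?_, ?_, ?_⟩
  · -- the annihilator of everything is zero
    refine (AddSubgroup.eq_bot_iff_forall _).mpr (fun ψ hψ => ?_)
    refine DFunLike.ext _ _ (fun x => ?_)
    rw [AddChar.zero_apply]
    refine hψ x ?_
    show x ∈ F (n - 0)
    rw [Nat.sub_zero, hFn]
    exact AddSubgroup.mem_top x
  · -- the annihilator of zero is everything
    refine (AddSubgroup.eq_top_iff' _).mpr (fun ψ x hx => ?_)
    have hx' : x ∈ F (n - n) := hx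
    rw [Nat.sub_self, hF0, AddSubgroup.mem_bot] at hx'
    rw [hx']
    exact AddChar.map_zero_eq_one ψ
  · intro i σ hσ ψ hψ x hx
    have hx' : x ∈ F (n - i) := hx
    by_cases hi : n ≤ i
    · -- trivial range
      have e0 : n - i = 0 := Nat.sub_eq_zero_of_le hi
      rw [e0, hF0, AddSubgroup.mem_bot] at hx'
      rw [hx']
      exact AddChar.map_zero_eq_one _
    · have e1 : n - i = (n - (i + 1)) + 1 := by omega
      rw [e1] at hx'
      obtain ⟨e', he'⟩ := h97f_cyc_exists (p := p) k σ⁻¹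
      have h1 : act σ⁻¹ x - e' • x ∈ F (n - (i + 1)) :=
        hF _ σ⁻¹ ((inertia p).inv_mem hσ) e' he' x hx'
      have h2 : ψ (act σ⁻¹ x - e' • x) = 1 := hψ _ h1
      have h3 : ψ (act σ⁻¹ x) = ψ x ^ e' := by
        have e2 : act σ⁻¹ x = (act σ⁻¹ x - e' • x) + e' • x := by abel
        rw [e2, AddChar.map_add_eq_mul, h2, one_mul, AddChar.map_nsmul_eq_pow]
      have h4 : σ⁻¹ (ψ x) = ψ x ^ e' := he' _ (h97f_char_root hk ψ x)
      have h5 : actD σ ψ x = ψ x := by
        rw [hD, h3, ← h4, ← AlgEquiv.mul_apply, mul_inv_cancel, AlgEquiv.one_apply]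
      show (actD σ ψ - ψ) x = 1
      rw [AddChar.sub_apply', h5]
      exact div_self (ψ.val_isUnit x).ne_zero

/-- **Dictionary**: if `σ⁻¹` acts trivially on the dual, `σ` acts on `X` by its cyclotomic
exponent. -/
theorem h97f_dict [Finite X] {k : ℕ} (hk : ∀ x : X, p ^ k • x = 0)
    (hD : ∀ (s : Gq p) (ψ : AddChar X (Om p)) (x : X), actD s ψ x = s (ψ (act s⁻¹ x)))
    {σ : Gq p} (hσ : ∀ ψ : AddChar X (Om p), actD σ⁻¹ ψ = ψ) {e : ℕ} (he : h97fCyc p k σ e)
    (x : X) : act σ x = e • x := by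
  by_contra hne
  have hy : act σ x - e • x ≠ 0 := fun h => hne (sub_eq_zero.mp h)
  obtain ⟨ξ, hξ0, hξa, hξy⟩ := h24e_exists_char (p := p) hy
  let ψ : AddChar X (Om p) := ⟨ξ, hξ0, hξa⟩
  have hψ : ∀ z, ψ z = ξ z := fun _ => rfl
  apply hξy
  have h1 : actD σ⁻¹ ψ x = ψ x := by rw [hσ ψ]
  rw [hD, inv_inv] at h1
  have h2 : ψ (act σ x) = σ (ψ x) := by
    rw [← h1, ← AlgEquiv.mul_apply, mul_inv_cancel, AlgEquiv.one_apply]
  have h3 : σ (ψ x) = ψ x ^ e := he _ (h97f_char_root hk ψ x)
  have h4 : ψ (act σ x - e • x) = 1 := by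
    rw [AddChar.map_sub_eq_div, h2, h3, AddChar.map_nsmul_eq_pow]
    exact div_self (pow_ne_zero _ (ψ.val_isUnit x).ne_zero)
  rw [← hψ]
  exact h4

end Dual

/-- **MULT from DUAL** (with ET of helper24 on the dual). -/
theorem h97f_mult_of_dual (hdual : H97fDual) : H97fMult := by
  intro p _ hp2 k X _ _ act hact hk 𝓗 hC σ hσ e he x
  classical
  let actD : Gq p → AddChar X (Om p) → AddChar X (Om p) := fun s ψ =>
    { toFun := fun x => s (ψ (act s⁻¹ x))
      map_zero_eq_one' := by
        show s (ψ (act s⁻¹ 0)) = 1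
        rw [h87f_act_zero hact, AddChar.map_zero_eq_one, map_one]
      map_add_eq_mul' := by
        intro a b
        show s (ψ (act s⁻¹ (a + b))) = s (ψ (act s⁻¹ a)) * s (ψ (act s⁻¹ b))
        rw [hact.add, AddChar.map_add_eq_mul, map_mul] }
  have hD : ∀ (s : Gq p) (ψ : AddChar X (Om p)) (x : X), actD s ψ x = s (ψ (act s⁻¹ x)) :=
    fun _ _ _ => rfl
  obtain ⟨𝓗D⟩ := hdual p hp2 X act hact 𝓗 actD hD
  haveI : Finite (AddChar X (Om p)) := h97f_finite_dual
  have hactD : IsAct actD := h97f_dualAct hact hD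
  have hU : h24eUnip (inertia p) actD := h97f_dual_unip hk hD hC
  have htriv := h24e_unip_trivial hp2 hactD 𝓗D hU
  exact h97f_dict hk hD (fun ψ => htriv σ⁻¹ ((inertia p).inv_mem hσ) ψ) he x

end Fermat.Agent.P6
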