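import Mathlib

/-!
# Wave 6 (S33), block B1, STEP 2: the projector lemma (helper9, prefix `h9j_`)

Mathlib-only linear algebra.  `T` a local ring, `V` a free `T`-module of rank two, `ρ` a
representation of a group `G` on `V`, `Ig`, `Dg` two subgroups of `G` with `Ig` stable under
conjugation by `Dg` (inertia and decomposition group).  If

* `(ρ s' - det (ρ s')) (ρ s - 1) = 0` for all `s, s' ∈ Ig`, and
* `det (ρ s₀) - 1` is a unit for some `s₀ ∈ Ig`,

then there is a basis `b` of `V` such that the line `L = T b₀` is stable under `Dg` and `Ig` acts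
trivially on `V / L` (the shape of `GaloisRepAdic.IsOrdinaryAt`).

Proof: `e = (ρ s₀ - 1) / (det (ρ s₀) - 1)` is an idempotent whose image `K` contains every
`(ρ s - 1) V`; by Cayley--Hamilton `tr (ρ s₀) = 1 + det (ρ s₀)`, so `tr e = 1` and `K` has rank one.
-/

set_option autoImplicit false
set_option linter.style.haveILetI false

namespace Fermat.Agent.P6

section Mat

variable {T : Type*} [CommRing T]

theorem h9j_mat_cayley (Y : Matrix (Fin 2) (Fin 2) T) :
    Y * Y = Y.trace • Y - Y.det • (1 : Matrix (Fin 2) (Fin 2) T) := by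
  ext i j
  fin_cases i <;> fin_cases j <;>
    simp [Matrix.det_fin_two, Matrix.trace_fin_two, Matrix.mul_apply, Fin.sum_univ_two] <;>
    ring

end Mat

section Lin

variable {T : Type*} [CommRing T] {V : Type*} [AddCommGroup V] [Module T V]

/-- Cayley--Hamilton in rank two. -/
theorem h9j_cayley [Nontrivial T] [Module.Free T V] [Module.Finite T V]
    (hV : Module.finrank T V = 2) (Y : Module.End T V) :
    Y * Y = LinearMap.trace T V Y • Y - LinearMap.det Y • (1 : Module.End T V) := by
  classical
  have b := Module.finBasisOfFinrankEq T V hV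
  apply (LinearMap.toMatrix b b).injective
  rw [LinearMap.toMatrix_mul, map_sub, map_smul, map_smul, LinearMap.toMatrix_one,
    LinearMap.trace_eq_matrix_trace T b Y, ← LinearMap.det_toMatrix b Y]
  exact h9j_mat_cayley _

/-- the range of an idempotent endomorphism of a finite free module over a local ring is finite
free. -/
theorem h9j_range_free [IsLocalRing T] [Module.Free T V] [Module.Finite T V]
    {f : Module.End T V} (hf : IsIdempotentElem f) :
    Module.Free T (LinearMap.range f) ∧ Module.Finite T (LinearMap.range f) := by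
  haveI : Module.Finite T (LinearMap.range f) := Module.Finite.range f
  haveI : Module.Projective T (LinearMap.range f) := by
    refine Module.Projective.of_split (LinearMap.range f).subtype f.rangeRestrict ?_
    ext x
    obtain ⟨x, hx⟩ := x
    have h1 : f x = x := (LinearMap.IsIdempotentElem.mem_range_iff hf).mp hx
    simp [h1]
  exact ⟨Module.free_of_flat_of_isLocalRing, inferInstance⟩

/-- **The projector lemma.** -/
theorem h9j_projector [IsLocalRing T] [Module.Free T V] [Module.Finite T V]
    (hV : Module.finrank T V = 2) {G : Type*} [Group G] (Dg Ig : Subgroup G)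
    (hnorm : ∀ d ∈ Dg, ∀ s ∈ Ig, d * s * d⁻¹ ∈ Ig)
    (ρ : G →* Module.End T V)
    (ha : ∀ s ∈ Ig, ∀ s' ∈ Ig,
      (ρ s' - LinearMap.det (ρ s') • (1 : Module.End T V)) * (ρ s - 1) = 0)
    (hc : ∃ s₀ ∈ Ig, IsUnit (LinearMap.det (ρ s₀) - 1)) :
    ∃ b : Module.Basis (Fin 2) T V,
      (∀ d ∈ Dg, ∀ v ∈ Submodule.span T {b 0}, ρ d v ∈ Submodule.span T {b 0}) ∧
      (∀ s ∈ Ig, ∀ v : V, ρ s v - v ∈ Submodule.span T {b 0}) := by
  classical
  obtain ⟨s₀, hs₀, u, hu⟩ := hc
  set R0 : Module.End T V := ρ s₀ with hR0
  set ε : T := LinearMap.det R0 with hε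
  set e : Module.End T V := (↑u⁻¹ : T) • (R0 - 1) with he
  -- `e` is the identity on every `(ρ s - 1) V`
  have h4 : ∀ s ∈ Ig, e * (ρ s - 1) = ρ s - 1 := by
    intro s hs
    have h := ha s hs s₀ hs₀
    have h' : (R0 - 1) * (ρ s - 1) = (u : T) • (ρ s - 1) := by
      have h1 : (R0 - 1) * (ρ s - 1) =
          (R0 - ε • (1 : Module.End T V)) * (ρ s - 1) + (ε - 1) • (ρ s - 1) := by
        rw [sub_mul, sub_mul, smul_mul_assoc, one_mul, sub_smul, one_smul]
        abel
      rw [h1, h, zero_add, hu]
    rw [he, smul_mul_assoc, h', smul_smul, Units.inv_mul, one_smul]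
  have hidem : IsIdempotentElem e := by
    show e * e = e
    have h5 := h4 s₀ hs₀
    calc e * e = e * ((↑u⁻¹ : T) • (R0 - 1)) := by rw [← he]
      _ = (↑u⁻¹ : T) • (e * (R0 - 1)) := by rw [mul_smul_comm]
      _ = e := by rw [h5]
  set K : Submodule T V := LinearMap.range e with hK
  have h6 : ∀ s ∈ Ig, ∀ v : V, ρ s v - v ∈ K := by
    intro s hs v
    have h := congrArg (fun f : Module.End T V => f v) (h4 s hs)
    simp only [Module.End.mul_apply, LinearMap.sub_apply, Module.End.one_apply] at h
    exact LinearMap.mem_range.mpr ⟨_, h⟩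
  have h7 : ∀ d ∈ Dg, ∀ v ∈ K, ρ d v ∈ K := by
    intro d hd v hv
    obtain ⟨w, rfl⟩ := LinearMap.mem_range.mp hv
    have h1 : e w = (↑u⁻¹ : T) • (R0 w - w) := by
      simp only [he, LinearMap.smul_apply, LinearMap.sub_apply, Module.End.one_apply]
    have h2 : ρ d (R0 w) = ρ (d * s₀ * d⁻¹) (ρ d w) := by
      rw [← Module.End.mul_apply, ← Module.End.mul_apply, hR0, ← map_mul, ← map_mul,
        inv_mul_cancel_right]
    rw [h1, map_smul, map_sub, h2]
    exact K.smul_mem _ (h6 _ (hnorm d hd s₀ hs₀) _)
  -- the trace of `e`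
  have htr : LinearMap.trace T V e = 1 := by
    have hCH := h9j_cayley hV R0
    have h3 := ha s₀ hs₀ s₀ hs₀
    have h8 : (LinearMap.trace T V R0 - 1 - ε) • R0 = 0 := by
      have h9 : (R0 - ε • (1 : Module.End T V)) * (R0 - 1) =
          R0 * R0 - R0 - ε • R0 + ε • (1 : Module.End T V) := by
        rw [sub_mul, mul_sub, mul_sub, mul_one, smul_mul_assoc, one_mul, smul_mul_assoc,
          one_mul]
        abel
      rw [h9, hCH] at h3
      rw [sub_smul, sub_smul, one_smul]
      rw [← h3]
      abel
    have h10 : (LinearMap.trace T V R0 - 1 - ε) • (1 : Module.End T V) = 0 := by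
      have h11 : R0 * ρ s₀⁻¹ = 1 := by rw [hR0, ← map_mul, mul_inv_cancel, map_one]
      calc (LinearMap.trace T V R0 - 1 - ε) • (1 : Module.End T V)
          = ((LinearMap.trace T V R0 - 1 - ε) • R0) * ρ s₀⁻¹ := by
            rw [smul_mul_assoc, h11]
        _ = 0 := by rw [h8, zero_mul]
    have h12 : LinearMap.trace T V R0 - 1 - ε = 0 := by
      have b := Module.finBasisOfFinrankEq T V hV
      have h13 := congrArg (fun f : Module.End T V => b.repr (f (b 0)) 0) h10
      simpa using h13
    have h14 : LinearMap.trace T V R0 = (u : T) + 2 := by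
      rw [hu]
      linear_combination h12
    rw [he, map_smul, map_sub, LinearMap.trace_one, hV, h14, smul_eq_mul]
    push_cast
    rw [add_sub_cancel_right, Units.inv_mul]
  -- the complement
  have hidem' : IsIdempotentElem (1 - e) := hidem.one_sub
  set N : Submodule T V := LinearMap.range (1 - e) with hN
  have hker : LinearMap.ker e = N := by
    ext x
    rw [LinearMap.mem_ker, hN, LinearMap.IsIdempotentElem.mem_range_iff hidem',
      LinearMap.sub_apply, Module.End.one_apply, sub_eq_self]
  have hcompl : IsCompl K N := by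
    have := LinearMap.IsIdempotentElem.isCompl hidem
    rwa [hker] at this
  obtain ⟨hKfree, hKfin⟩ := h9j_range_free (T := T) (V := V) hidem
  obtain ⟨hNfree, hNfin⟩ := h9j_range_free (T := T) (V := V) hidem'
  haveI : Module.Free T K := hKfree
  haveI : Module.Finite T K := hKfin
  haveI : Module.Free T N := hNfree
  haveI : Module.Finite T N := hNfin
  have hsum : Module.finrank T K + Module.finrank T N = 2 := by
    rw [← Module.finrank_prod, (Submodule.prodEquivOfIsCompl K N hcompl).finrank_eq, hV]
  have hK0 : Module.finrank T K ≠ 0 := by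
    intro h0
    haveI : Subsingleton K := (Module.finrank_eq_zero_iff_of_free T K).mp h0
    have h15 : e = 0 := by
      ext v
      have := Subsingleton.elim (⟨e v, LinearMap.mem_range_self e v⟩ : K) 0
      simpa using congrArg Subtype.val this
    rw [h15, map_zero] at htr
    exact zero_ne_one htr
  have hN0 : Module.finrank T N ≠ 0 := by
    intro h0
    haveI : Subsingleton N := (Module.finrank_eq_zero_iff_of_free T N).mp h0
    have h15 : 1 - e = 0 := by
      ext v
      have := Subsingleton.elim (⟨(1 - e) v, LinearMap.mem_range_self (1 - e) v⟩ : N) 0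
      simpa using congrArg Subtype.val this
    have h16 : e = 1 := (sub_eq_zero.mp h15).symm
    rw [h16, LinearMap.trace_one, hV] at htr
    have h17 : (1 : T) = 0 := by
      have : ((2 : ℕ) : T) = 1 := htr
      push_cast at this
      linear_combination this
    exact one_ne_zero h17
  have hK1 : Module.finrank T K = 1 := by omega
  have hN1 : Module.finrank T N = 1 := by omega
  -- the basis
  let bK : Module.Basis (Fin 1) T K := Module.finBasisOfFinrankEq T K hK1
  let bN : Module.Basis (Fin 1) T N := Module.finBasisOfFinrankEq T N hN1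
  let b : Module.Basis (Fin 2) T V :=
    ((bK.prod bN).map (Submodule.prodEquivOfIsCompl K N hcompl)).reindex finSumFinEquiv
  have hb0 : b 0 = (bK 0 : V) := by
    have h18 : (finSumFinEquiv (m := 1) (n := 1)).symm (0 : Fin 2) = Sum.inl 0 := rfl
    simp only [b, Module.Basis.reindex_apply, Module.Basis.map_apply, h18,
      Module.Basis.prod_apply, Sum.elim_inl, Function.comp_apply, LinearMap.coe_inl,
      Submodule.coe_prodEquivOfIsCompl', Submodule.coe_zero, add_zero]
  have hspan : Submodule.span T {b 0} = K := by
    apply le_antisymm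
    · rw [Submodule.span_le, Set.singleton_subset_iff, hb0]
      exact (bK 0).2
    · intro x hx
      have h19 := bK.sum_repr ⟨x, hx⟩
      rw [Fin.sum_univ_one] at h19
      have h20 : x = bK.repr ⟨x, hx⟩ 0 • (bK 0 : V) := by
        have := congrArg Subtype.val h19
        simpa using this.symm
      rw [h20, ← hb0]
      exact Submodule.smul_mem _ _ (Submodule.subset_span rfl)
  refine ⟨b, ?_, ?_⟩
  · intro d hd v hv
    rw [hspan] at hv ⊢
    exact h7 d hd v hv
  · intro s hs v
    rw [hspan]
    exact h6 s hs v

end Lin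

end Fermat.Agent.P6
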